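/-
[CHEB] Chebotarev density theorem, brick C1: Frobenius elements of the primes `w` of a Galois number
field `L/ℚ` relative to the fixed field `L^H` of a subgroup `H` of the Galois group.
For an unramified (`s29d_good`) prime: existence, uniqueness, `H ⊓ D_w = ⟨Frob⟩`,
action on roots of unity.
-/
import Fermat.Agent.Lib.S29.FDMain
import Fermat.Agent.Lib.CFT.FrobUtil

set_option autoImplicit false
set_option linter.unusedSectionVars false

namespace Fermat.Agent.Lib.S48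

open NumberField IsDedekindDomain Filter Topology Pointwise Fermat.Agent.Lib.S29
  Fermat.Agent.Lib.CFT

variable {L : Type*} [Field L] [NumberField L] [IsGalois ℚ L]

/-- `γ` is a Frobenius element at `w` relative to the fixed field of `H` -/
def s48c_IsFrob (H : Subgroup Gal(L/ℚ)) (w : HeightOneSpectrum (𝓞 L)) (γ : Gal(L/ℚ)) : Prop :=
  γ ∈ H ∧ ∀ x : 𝓞 L, γ • x - x ^ s29d_nu H w ∈ w.asIdeal

section Generic

variable {K L' Γ : Type*} [Field K] [Field L'] [NumberField K] [NumberField L'] [Algebra K L']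
  [Group Γ] [Finite Γ] [MulSemiringAction Γ L'] [IsGaloisGroup Γ K L']

theorem s48c_absNorm_under_eq_card (w : HeightOneSpectrum (𝓞 L')) :
    Ideal.absNorm (w.under (𝓞 K)).asIdeal = Nat.card (𝓞 K ⧸ w.asIdeal.under (𝓞 K)) := by
  rw [Ideal.absNorm_apply, Submodule.cardQuot_apply]
  rfl

variable (K Γ) in
theorem s48c_exists_frob_gen (w : HeightOneSpectrum (𝓞 L')) :
    ∃ σ : Γ, ∀ x : 𝓞 L', σ • x - x ^ Ideal.absNorm (w.under (𝓞 K)).asIdeal ∈ w.asIdeal := by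
  have : Finite (𝓞 L' ⧸ w.asIdeal) := Ideal.finiteQuotientOfFreeOfNeBot _ w.ne_bot
  have : w.asIdeal.IsPrime := w.isPrime
  obtain ⟨σ, hσ⟩ := IsArithFrobAt.exists_of_isInvariant (𝓞 K) Γ w.asIdeal
  refine ⟨σ, fun x => ?_⟩
  have := hσ x
  rw [← s48c_absNorm_under_eq_card] at this
  exact this

variable (K) in
theorem s48c_frob_zeta_gen (w : HeightOneSpectrum (𝓞 L')) (σ : Γ)
    (hσ : ∀ x : 𝓞 L', σ • x - x ^ Ideal.absNorm (w.under (𝓞 K)).asIdeal ∈ w.asIdeal)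
    {m : ℕ} {ζ : 𝓞 L'} (hζ : ζ ^ m = 1) (hm : (m : 𝓞 L') ∉ w.asIdeal) :
    σ • ζ = ζ ^ Ideal.absNorm (w.under (𝓞 K)).asIdeal := by
  have hprime : w.asIdeal.IsPrime := w.isPrime
  have hφ : (MulSemiringAction.toAlgHom (𝓞 K) (𝓞 L') σ).IsArithFrobAt w.asIdeal := by
    intro x
    rw [← s48c_absNorm_under_eq_card]
    exact hσ x
  have := hφ.apply_of_pow_eq_one hζ hm
  rw [← s48c_absNorm_under_eq_card] at this
  exact this

end Generic

theorem s48c_exists_isFrob (H : Subgroup Gal(L/ℚ)) (w : HeightOneSpectrum (𝓞 L)) :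
    ∃ γ, s48c_IsFrob H w γ := by
  obtain ⟨σ, hσ⟩ := s48c_exists_frob_gen (s29d_E L H) H w
  exact ⟨σ.1, σ.2, fun x => hσ x⟩

theorem s48c_IsFrob.smul_eq {H : Subgroup Gal(L/ℚ)} {w : HeightOneSpectrum (𝓞 L)} {γ : Gal(L/ℚ)}
    (h : s48c_IsFrob H w γ) : γ • w.asIdeal = w.asIdeal := by
  have hprime : w.asIdeal.IsPrime := w.isPrime
  have hmax : w.asIdeal.IsMaximal := w.isMaximal
  -- `w ≤ γ⁻¹ • w`, hence equality by maximality
  have hle : w.asIdeal ≤ γ⁻¹ • w.asIdeal := by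
    intro x hx
    rw [Ideal.mem_inv_pointwise_smul_iff]
    have h1 := h.2 x
    have h2 : x ^ s29d_nu H w ∈ w.asIdeal :=
      Ideal.pow_mem_of_mem _ hx _ (by have := s29d_two_le_nu H w; omega)
    have := add_mem h1 h2
    rwa [sub_add_cancel] at this
  have hne : γ⁻¹ • w.asIdeal ≠ ⊤ := by
    intro htop
    have h1 : (1 : 𝓞 L) ∈ γ⁻¹ • w.asIdeal := by rw [htop]; trivial
    rw [Ideal.mem_inv_pointwise_smul_iff, smul_one] at h1
    exact hprime.ne_top ((Ideal.eq_top_iff_one _).mpr h1)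
  have heq := hmax.eq_of_le hne hle
  calc γ • w.asIdeal = γ • (γ⁻¹ • w.asIdeal) := by rw [← heq]
    _ = w.asIdeal := smul_inv_smul γ _

theorem s48c_IsFrob.mem_stab {H : Subgroup Gal(L/ℚ)} {w : HeightOneSpectrum (𝓞 L)}
    {γ : Gal(L/ℚ)} (h : s48c_IsFrob H w γ) :
    γ ∈ H ⊓ MulAction.stabilizer Gal(L/ℚ) w.asIdeal :=
  Subgroup.mem_inf.mpr ⟨h.1, MulAction.mem_stabilizer_iff.mpr h.smul_eq⟩

/-- uniqueness at an unramified prime -/
theorem s48c_IsFrob.unique {H : Subgroup Gal(L/ℚ)} {w : HeightOneSpectrum (𝓞 L)}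
    (hw : s29d_good w) {γ γ' : Gal(L/ℚ)} (h : s48c_IsFrob H w γ) (h' : s48c_IsFrob H w γ') :
    γ = γ' := by
  have hmem : γ * γ'⁻¹ ∈ w.asIdeal.inertia Gal(L/ℚ) := by
    intro x
    have h1 := h.2 (γ'⁻¹ • x)
    have h2 := h'.2 (γ'⁻¹ • x)
    rw [smul_inv_smul] at h2
    have := sub_mem h1 h2
    rw [sub_sub_sub_cancel_right] at this
    rwa [mul_smul]
  rw [hw, Subgroup.mem_bot] at hmem
  exact mul_inv_eq_one.mp hmem

theorem s48c_IsFrob.pow {H : Subgroup Gal(L/ℚ)} {w : HeightOneSpectrum (𝓞 L)}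
    {γ : Gal(L/ℚ)} (h : s48c_IsFrob H w γ) (j : ℕ) :
    ∀ x : 𝓞 L, γ ^ j • x - x ^ (s29d_nu H w ^ j) ∈ w.asIdeal := by
  induction j with
  | zero => intro x; simp
  | succ j ih =>
    intro x
    have h1 := ih (γ • x)
    have h2 := h.2 x
    -- `(γ x)^(q^j) ≡ (x^q)^(q^j)`
    have h3 : (γ • x) ^ (s29d_nu H w ^ j) - (x ^ s29d_nu H w) ^ (s29d_nu H w ^ j) ∈
        w.asIdeal := by
      have := sub_dvd_pow_sub_pow (γ • x) (x ^ s29d_nu H w) (s29d_nu H w ^ j)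
      exact Ideal.mem_of_dvd _ this h2
    have := add_mem h1 h3
    rw [sub_add_sub_cancel] at this
    rw [pow_succ, mul_smul, pow_succ, mul_comm (s29d_nu H w ^ j), pow_mul]
    exact this

/-- at an unramified prime the order of the Frobenius is the residue degree -/
theorem s48c_IsFrob.stG_le_orderOf {H : Subgroup Gal(L/ℚ)} {w : HeightOneSpectrum (𝓞 L)}
    (hw : s29d_good w) {γ : Gal(L/ℚ)} (h : s48c_IsFrob H w γ) :
    s29d_stG H w ≤ orderOf γ := by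
  have hprime : w.asIdeal.IsPrime := w.isPrime
  set q := s29d_nu H w with hq
  have hq2 : 2 ≤ q := s29d_two_le_nu H w
  have hj := h.pow (orderOf γ)
  rw [pow_orderOf_eq_one] at hj
  have hpos : 0 < orderOf γ := orderOf_pos γ
  have hle : Ideal.absNorm w.asIdeal ≤ q ^ orderOf γ := by
    refine cft_absNorm_le_of_forall_pow_sub_mem w.ne_bot ?_ (fun x => ?_)
    · calc 2 ≤ q := hq2
        _ = q ^ 1 := (pow_one q).symm
        _ ≤ q ^ orderOf γ := Nat.pow_le_pow_right (by omega) hpos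
    · have := hj x
      rw [one_smul] at this
      have h2 := neg_mem this
      rwa [neg_sub] at h2
  rw [s29d_absNorm_eq_nu H w hw] at hle
  exact (Nat.pow_le_pow_iff_right (by omega)).mp hle

theorem s48c_IsFrob.zpowers_eq {H : Subgroup Gal(L/ℚ)} {w : HeightOneSpectrum (𝓞 L)}
    (hw : s29d_good w) {γ : Gal(L/ℚ)} (h : s48c_IsFrob H w γ) :
    Subgroup.zpowers γ = H ⊓ MulAction.stabilizer Gal(L/ℚ) w.asIdeal := by
  have hle : Subgroup.zpowers γ ≤ H ⊓ MulAction.stabilizer Gal(L/ℚ) w.asIdeal :=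
    Subgroup.zpowers_le.mpr h.mem_stab
  refine Subgroup.eq_of_le_of_card_ge hle ?_
  rw [Nat.card_zpowers]
  exact h.stG_le_orderOf hw

theorem s48c_IsFrob.orderOf_eq {H : Subgroup Gal(L/ℚ)} {w : HeightOneSpectrum (𝓞 L)}
    (hw : s29d_good w) {γ : Gal(L/ℚ)} (h : s48c_IsFrob H w γ) :
    orderOf γ = s29d_stG H w := by
  rw [← Nat.card_zpowers, h.zpowers_eq hw]
  rfl

/-- for an unramified prime: `H ⊓ D_w ≤ H'` iff the Frobenius lies in `H'` -/
theorem s48c_IsFrob.le_iff {H : Subgroup Gal(L/ℚ)} {w : HeightOneSpectrum (𝓞 L)}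
    (hw : s29d_good w) {γ : Gal(L/ℚ)} (h : s48c_IsFrob H w γ) (H' : Subgroup Gal(L/ℚ)) :
    H ⊓ MulAction.stabilizer Gal(L/ℚ) w.asIdeal ≤ H' ↔ γ ∈ H' := by
  rw [← h.zpowers_eq hw, Subgroup.zpowers_le]

/-- action on roots of unity -/
theorem s48c_IsFrob.smul_zeta {H : Subgroup Gal(L/ℚ)} {w : HeightOneSpectrum (𝓞 L)}
    {γ : Gal(L/ℚ)} (h : s48c_IsFrob H w γ) {m : ℕ} {ζ : 𝓞 L} (hζ : ζ ^ m = 1)
    (hm : (m : 𝓞 L) ∉ w.asIdeal) : γ • ζ = ζ ^ s29d_nu H w :=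
  s48c_frob_zeta_gen (s29d_E L H) w (⟨γ, h.1⟩ : H) (fun x => h.2 x) hζ hm

end Fermat.Agent.Lib.S48
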