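/-
[CHEB] Chebotarev density theorem, brick C2: the chosen Frobenius element `s48c_fr H w`, the weighted
prime sums `s48c_Phi H S s = ∑_{w good, Frob_w ∈ S} N(w ∩ L^H)^(-s) |H ∩ D_w|` and their basic
properties (summability, monotonicity, decomposition along a finite partition, asymptotics for
subgroups, comparison between two subgroups `H' ≤ H`).
-/
import Fermat.Agent.Lib.S48.ChebFrob

set_option autoImplicit false
set_option linter.unusedSectionVars false

namespace Fermat.Agent.Lib.S48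

open NumberField IsDedekindDomain Filter Topology Pointwise Fermat.Agent.Lib.S29
  Fermat.Agent.Lib.CFT

variable {L : Type*} [Field L] [NumberField L] [IsGalois ℚ L]

/-- the chosen Frobenius element at `w` relative to the fixed field of `H` -/
noncomputable def s48c_fr (H : Subgroup Gal(L/ℚ)) (w : HeightOneSpectrum (𝓞 L)) : Gal(L/ℚ) :=
  Classical.choose (s48c_exists_isFrob H w)

theorem s48c_fr_spec (H : Subgroup Gal(L/ℚ)) (w : HeightOneSpectrum (𝓞 L)) :
    s48c_IsFrob H w (s48c_fr H w) :=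
  Classical.choose_spec (s48c_exists_isFrob H w)

theorem s48c_fr_mem (H : Subgroup Gal(L/ℚ)) (w : HeightOneSpectrum (𝓞 L)) :
    s48c_fr H w ∈ H := (s48c_fr_spec H w).1

theorem s48c_fr_eq {H : Subgroup Gal(L/ℚ)} {w : HeightOneSpectrum (𝓞 L)} (hw : s29d_good w)
    {γ : Gal(L/ℚ)} (h : s48c_IsFrob H w γ) : s48c_fr H w = γ :=
  (s48c_fr_spec H w).unique hw h

open Classical in
/-- the summand -/
noncomputable def s48c_phi (H : Subgroup Gal(L/ℚ)) (S : Set Gal(L/ℚ)) (s : ℝ)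
    (w : HeightOneSpectrum (𝓞 L)) : ℝ :=
  if s29d_good w ∧ s48c_fr H w ∈ S then s29d_xu H s w * s29d_stG H w else 0

/-- the weighted prime sum over the good primes with Frobenius in `S` -/
noncomputable def s48c_Phi (H : Subgroup Gal(L/ℚ)) (S : Set Gal(L/ℚ)) (s : ℝ) : ℝ :=
  ∑' w, s48c_phi H S s w

theorem s48c_phi_nonneg (H : Subgroup Gal(L/ℚ)) (S : Set Gal(L/ℚ)) (s : ℝ)
    (w : HeightOneSpectrum (𝓞 L)) : 0 ≤ s48c_phi H S s w := by
  unfold s48c_phi
  split_ifs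
  · exact mul_nonneg (s29d_xu_nonneg H s w) (Nat.cast_nonneg _)
  · exact le_rfl

theorem s48c_phi_le (H : Subgroup Gal(L/ℚ)) (S : Set Gal(L/ℚ)) (s : ℝ)
    (w : HeightOneSpectrum (𝓞 L)) : s48c_phi H S s w ≤ s29d_xu H s w * s29d_stG H w := by
  unfold s48c_phi
  split_ifs
  · exact le_rfl
  · exact mul_nonneg (s29d_xu_nonneg H s w) (Nat.cast_nonneg _)

theorem s48c_phi_summable (H : Subgroup Gal(L/ℚ)) (S : Set Gal(L/ℚ)) {s : ℝ} (hs : 1 < s) :
    Summable (s48c_phi H S s) :=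
  Summable.of_nonneg_of_le (s48c_phi_nonneg H S s) (s48c_phi_le H S s) (s29d_sum_xu H hs).1

theorem s48c_phi_mono (H : Subgroup Gal(L/ℚ)) {S S' : Set Gal(L/ℚ)} (hSS : S ⊆ S') (s : ℝ)
    (w : HeightOneSpectrum (𝓞 L)) : s48c_phi H S s w ≤ s48c_phi H S' s w := by
  unfold s48c_phi
  by_cases h : s29d_good w ∧ s48c_fr H w ∈ S
  · rw [if_pos h, if_pos ⟨h.1, hSS h.2⟩]
  · rw [if_neg h]
    split_ifs
    · exact mul_nonneg (s29d_xu_nonneg H s w) (Nat.cast_nonneg _)
    · exact le_rfl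

theorem s48c_Phi_nonneg (H : Subgroup Gal(L/ℚ)) (S : Set Gal(L/ℚ)) (s : ℝ) :
    0 ≤ s48c_Phi H S s := tsum_nonneg (s48c_phi_nonneg H S s)

theorem s48c_Phi_mono (H : Subgroup Gal(L/ℚ)) {S S' : Set Gal(L/ℚ)} (hSS : S ⊆ S') {s : ℝ}
    (hs : 1 < s) : s48c_Phi H S s ≤ s48c_Phi H S' s :=
  (s48c_phi_summable H S hs).tsum_le_tsum (s48c_phi_mono H hSS s) (s48c_phi_summable H S' hs)

theorem s48c_phi_congr (H : Subgroup Gal(L/ℚ)) {S S' : Set Gal(L/ℚ)}
    (hSS : ∀ γ ∈ H, γ ∈ S ↔ γ ∈ S') (s : ℝ) (w : HeightOneSpectrum (𝓞 L)) :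
    s48c_phi H S s w = s48c_phi H S' s w := by
  unfold s48c_phi
  rw [hSS _ (s48c_fr_mem H w)]

theorem s48c_Phi_congr (H : Subgroup Gal(L/ℚ)) {S S' : Set Gal(L/ℚ)}
    (hSS : ∀ γ ∈ H, γ ∈ S ↔ γ ∈ S') (s : ℝ) : s48c_Phi H S s = s48c_Phi H S' s :=
  tsum_congr (s48c_phi_congr H hSS s)

/-- decomposition along a finite partition -/
theorem s48c_phi_fibre {ι : Type*} [Fintype ι] [DecidableEq ι] (H : Subgroup Gal(L/ℚ))
    (c : Gal(L/ℚ) → ι) (S : Set Gal(L/ℚ)) (s : ℝ) (w : HeightOneSpectrum (𝓞 L)) :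
    ∑ i, s48c_phi H {γ | γ ∈ S ∧ c γ = i} s w = s48c_phi H S s w := by
  classical
  unfold s48c_phi
  by_cases h : s29d_good w ∧ s48c_fr H w ∈ S
  · rw [if_pos h, Finset.sum_eq_single (c (s48c_fr H w))]
    · rw [if_pos ⟨h.1, h.2, rfl⟩]
    · intro i _ hi
      rw [if_neg]
      rintro ⟨-, -, h3⟩
      exact hi h3.symm
    · intro h'
      exact absurd (Finset.mem_univ _) h'
  · rw [if_neg h]
    refine Finset.sum_eq_zero fun i _ => ?_
    rw [if_neg]
    rintro ⟨h1, h2, -⟩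
    exact h ⟨h1, h2⟩

theorem s48c_Phi_fibre {ι : Type*} [Fintype ι] [DecidableEq ι] (H : Subgroup Gal(L/ℚ))
    (c : Gal(L/ℚ) → ι) (S : Set Gal(L/ℚ)) {s : ℝ} (hs : 1 < s) :
    ∑ i, s48c_Phi H {γ | γ ∈ S ∧ c γ = i} s = s48c_Phi H S s := by
  unfold s48c_Phi
  rw [← Summable.tsum_finsetSum fun i _ => s48c_phi_summable H _ hs]
  exact tsum_congr fun w => s48c_phi_fibre H c S s w

/-- the sieved weight of `FDMain` is the summand attached to a subgroup -/
theorem s48c_psi_eq_phi (H H' : Subgroup Gal(L/ℚ)) (s : ℝ) (w : HeightOneSpectrum (𝓞 L)) :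
    s29d_psi H H' s w = s48c_phi H (H' : Set Gal(L/ℚ)) s w := by
  classical
  unfold s29d_psi s48c_phi
  by_cases hw : s29d_good w
  · have := (s48c_fr_spec H w).le_iff hw H'
    by_cases h : s48c_fr H w ∈ H'
    · rw [if_pos ⟨hw, this.mpr h⟩, if_pos ⟨hw, h⟩]
    · rw [if_neg (fun h' => h (this.mp h'.2)), if_neg (fun h' => h h'.2)]
  · rw [if_neg (fun h' => hw h'.1), if_neg (fun h' => hw h'.1)]

/-- asymptotics for subgroups -/
theorem s48c_Phi_subgroup_asymp (H H' : Subgroup Gal(L/ℚ)) (hH : H' ≤ H) :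
    ∃ C : ℝ, ∀ᶠ s in 𝓝[>] (1 : ℝ),
      |s48c_Phi H (H' : Set Gal(L/ℚ)) s - Nat.card H' * Real.log (1 / (s - 1))| ≤ C := by
  obtain ⟨C, hC⟩ := s29d_psi_asymp H H' hH
  refine ⟨C, ?_⟩
  filter_upwards [hC] with s hs
  have : s48c_Phi H (H' : Set Gal(L/ℚ)) s = ∑' v, s29d_psi H H' s v :=
    tsum_congr fun w => (s48c_psi_eq_phi H H' s w).symm
  rw [this]
  exact hs.2

/-- **comparison** between the sums attached to two subgroups `H' ≤ H`, for a set `S ⊆ H'` -/
theorem s48c_phi_close (H H' : Subgroup Gal(L/ℚ)) (hH : H' ≤ H) (S : Set Gal(L/ℚ))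
    (hS : S ⊆ (H' : Set Gal(L/ℚ))) {s : ℝ} (hs : 1 ≤ s) (w : HeightOneSpectrum (𝓞 L)) :
    |s48c_phi H' S s w - s48c_phi H S s w| ≤ s29d_beta H w := by
  classical
  have hb := s29d_beta_nonneg H w
  by_cases hw : s29d_good w
  · by_cases hfr : s48c_fr H w ∈ H'
    · -- same norm, same stabilizer, same Frobenius
      have hle : H ⊓ MulAction.stabilizer Gal(L/ℚ) w.asIdeal ≤ H' :=
        ((s48c_fr_spec H w).le_iff hw H').mpr hfr
      obtain ⟨e1, e2⟩ := s29d_cmp_le H H' hH w hw hle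
      have hfrob : s48c_IsFrob H' w (s48c_fr H w) := by
        refine ⟨hfr, fun x => ?_⟩
        rw [e1]
        exact (s48c_fr_spec H w).2 x
      have e3 : s48c_fr H' w = s48c_fr H w := s48c_fr_eq hw hfrob
      have : s48c_phi H' S s w = s48c_phi H S s w := by
        unfold s48c_phi
        rw [e3, s29d_xu_eq, s29d_xu_eq, e1, e2]
      rw [this, sub_self, abs_zero]
      exact hb
    · have hnle : ¬ H ⊓ MulAction.stabilizer Gal(L/ℚ) w.asIdeal ≤ H' := fun h =>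
        hfr (((s48c_fr_spec H w).le_iff hw H').mp h)
      have hsq := s29d_cmp_not_le H H' hH w hw hnle
      have hle := s29d_xu_le_of_sq H H' hs w hsq
      have h0 : s48c_phi H S s w = 0 := by
        unfold s48c_phi
        rw [if_neg]
        rintro ⟨-, h2⟩
        exact hfr (hS h2)
      rw [h0, sub_zero, abs_of_nonneg (s48c_phi_nonneg H' S s w)]
      refine (s48c_phi_le H' S s w).trans ?_
      have hcardle : (s29d_stG H' w : ℝ) ≤ Nat.card H := by
        exact_mod_cast (s29d_stG_le H' w).trans (Subgroup.card_le_of_le hH)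
      have hx0 := s29d_xu_nonneg H' s w
      have hn0 : (0 : ℝ) ≤ Nat.card H := by positivity
      unfold s29d_beta
      rw [if_pos hw, add_zero, mul_comm]
      exact mul_le_mul hcardle hle hx0 hn0
  · have h1 : s48c_phi H' S s w = 0 := by
      unfold s48c_phi
      rw [if_neg (fun h => hw h.1)]
    have h2 : s48c_phi H S s w = 0 := by
      unfold s48c_phi
      rw [if_neg (fun h => hw h.1)]
    rw [h1, h2, sub_zero, abs_zero]
    exact hb

theorem s48c_Phi_close (H H' : Subgroup Gal(L/ℚ)) (hH : H' ≤ H) (S : Set Gal(L/ℚ))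
    (hS : S ⊆ (H' : Set Gal(L/ℚ))) {s : ℝ} (hs : 1 < s) :
    |s48c_Phi H' S s - s48c_Phi H S s| ≤ ∑' w, s29d_beta H w := by
  unfold s48c_Phi
  rw [← (s48c_phi_summable H' S hs).tsum_sub (s48c_phi_summable H S hs), ← Real.norm_eq_abs]
  exact tsum_of_norm_bounded (s29d_beta_summable H).hasSum fun w => by
    rw [Real.norm_eq_abs]
    exact s48c_phi_close H H' hH S hS hs.le w

end Fermat.Agent.Lib.S48
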