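/-
[CHEB] Chebotarev density theorem, brick C3a: tools for the Dirichlet step — extension of characters
of a subgroup of a finite abelian group, regrouping of a complex series along a surjection with
finite fibres, and the congruence `N(w ∩ L^H) ≡ κ(Frob_w) mod m` for the cyclotomic character `κ`.
-/
import Fermat.Agent.Lib.S48.ChebPhi

set_option autoImplicit false
set_option linter.unusedSectionVars false

namespace Fermat.Agent.Lib.S48

open NumberField IsDedekindDomain Filter Topology Pointwise Fermat.Agent.Lib.S29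
  Fermat.Agent.Lib.CFT

/-- characters of a subgroup of a finite abelian group extend -/
theorem s48c_exists_extend {G : Type*} [CommGroup G] [Finite G] (A : Subgroup G) (ψ : A →* ℂˣ) :
    ∃ ψ' : G →* ℂˣ, ∀ a : A, ψ' a = ψ a := by
  have : NeZero ((Monoid.exponent G : ℕ) : ℂ) :=
    ⟨by exact_mod_cast Monoid.exponent_ne_zero_of_finite⟩
  obtain ⟨ψ', h⟩ := MonoidHom.domRestrict_surjective ℂ A ψ
  refine ⟨ψ', fun a => ?_⟩
  rw [← h]
  rfl

/-- regrouping a complex series along a surjection with finite fibres of known size -/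
theorem s48c_tsum_fibre {β γ : Type*} (φ : β → γ) (hφ : Function.Surjective φ) (n : β → ℕ) (N : ℕ)
    (hN : 0 < N) (hn : ∀ b, Nat.card {b' : β // φ b' = φ b} * n b = N) (g : γ → ℂ)
    (hg : Summable fun c => ‖g c‖) :
    Summable (fun b ↦ ‖g (φ b) * n b / N‖) ∧ ∑' b, g (φ b) * n b / N = ∑' c, g c := by
  obtain ⟨hnorm, -⟩ := s29d_tsum_fibre φ hφ n N hN hn (fun c => ‖g c‖) (fun c => norm_nonneg _) hg
  have hnorm' : Summable (fun b ↦ ‖g (φ b) * n b / N‖) := by
    refine hnorm.congr fun b => ?_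
    rw [norm_div, norm_mul, Complex.norm_natCast, Complex.norm_natCast]
  refine ⟨hnorm', ?_⟩
  set f : β → ℂ := fun b ↦ g (φ b) * n b / N with hf
  have hfs : Summable f := hnorm'.of_norm
  let e := Equiv.sigmaFiberEquiv φ
  have hN' : (N : ℂ) ≠ 0 := by exact_mod_cast hN.ne'
  have hcard : ∀ c : γ, (Nat.card {b : β // φ b = c} : ℂ) ≠ 0 := by
    intro c
    obtain ⟨b, hb⟩ := hφ c
    have h1 := hn b
    rw [hb] at h1
    intro h0
    have : Nat.card {b : β // φ b = c} = 0 := by exact_mod_cast h0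
    rw [this, zero_mul] at h1
    omega
  have hinner : ∀ c : γ, ∀ y : {b : β // φ b = c}, f y.1 = g c / Nat.card {b : β // φ b = c} := by
    intro c y
    have h1 := hn y.1
    have hc : φ y.1 = c := y.2
    rw [hc] at h1
    have h2 : (n y.1 : ℂ) = N / Nat.card {b : β // φ b = c} := by
      rw [eq_div_iff (hcard c), mul_comm]
      exact_mod_cast h1
    rw [hf]
    simp only
    rw [hc, h2]
    field_simp
  have hfin : ∀ c : γ, Finite {b : β // φ b = c} := by
    intro c
    refine Nat.finite_of_card_ne_zero fun h0 ↦ hcard c ?_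
    rw [h0]; simp
  have hsum_inner : ∀ c : γ, ∑' y : {b : β // φ b = c}, f y.1 = g c := by
    intro c
    rw [tsum_congr (hinner c), tsum_const, nsmul_eq_mul]
    have := hcard c
    field_simp
  have hs : Summable (fun p : (Σ c : γ, {b : β // φ b = c}) ↦ f (e p)) :=
    (e.summable_iff (f := f)).mpr hfs
  rw [← e.tsum_eq f, Summable.tsum_sigma' (fun c ↦ ?_) hs]
  · exact tsum_congr fun c ↦ hsum_inner c
  · have := hfin c
    exact Summable.of_finite

variable {L : Type*} [Field L] [NumberField L] [IsGalois ℚ L]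

/-- the norm of the prime below `w` is congruent modulo `m` to the cyclotomic character of the
Frobenius, for `w` prime to `m` -/
theorem s48c_nu_eq_kappa {H : Subgroup Gal(L/ℚ)} {w : HeightOneSpectrum (𝓞 L)} {γ : Gal(L/ℚ)}
    (h : s48c_IsFrob H w γ) {m : ℕ} [NeZero m] {ζ : L} (hζ : IsPrimitiveRoot ζ m)
    (hm : (m : 𝓞 L) ∉ w.asIdeal) :
    ((s29d_nu H w : ℕ) : ZMod m) = ((hζ.autToPow ℚ γ : (ZMod m)ˣ) : ZMod m) := by
  have hz : hζ.toInteger ^ m = 1 := hζ.toInteger_isPrimitiveRoot.pow_eq_one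
  have h1 := h.smul_zeta hz hm
  have h2 : γ ζ = ζ ^ s29d_nu H w := by
    have := congrArg (fun x : 𝓞 L => (x : L)) h1
    simp only [map_pow] at this
    exact this
  have h3 := hζ.autToPow_spec ℚ γ
  rw [h2] at h3
  have h4 : ζ ^ ((((hζ.autToPow ℚ γ : (ZMod m)ˣ) : ZMod m).val : ℕ) : ℤ) =
      ζ ^ ((s29d_nu H w : ℕ) : ℤ) := by
    rw [zpow_natCast, zpow_natCast, h3]
  have hζ0 : ζ ≠ 0 := hζ.ne_zero (NeZero.ne m)
  have h5 : ζ ^ (((((hζ.autToPow ℚ γ : (ZMod m)ˣ) : ZMod m).val : ℕ) : ℤ) -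
      ((s29d_nu H w : ℕ) : ℤ)) = 1 := by
    rw [zpow_sub₀ hζ0, h4, div_self (zpow_ne_zero _ hζ0)]
  have h6 := (hζ.zpow_eq_one_iff_dvd _).mp h5
  have h7 := (ZMod.intCast_eq_intCast_iff_dvd_sub _ _ m).mpr h6
  simpa using h7

end Fermat.Agent.Lib.S48
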