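/-
[CHEB] Chebotarev density theorem, brick A1: Abel summation with complex weights, and continuity
on `[1, 2]` of a Dirichlet series whose coefficient sums are `O(k^e)`, `e < 1`.
-/
import Fermat.Agent.Lib.CFT.SecondIneqZeta

set_option autoImplicit false

namespace Fermat.Agent.Lib.S48

open Filter Topology Fermat.Agent.Lib.CFT

/-- the real double series underlying Abel summation is summable -/
theorem s48c_abel_summable_real {ι : Type*} (N : ι → ℕ) (hN : ∀ i, 1 ≤ N i) {s : ℝ} (hs : 0 < s)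
    (hsum : Summable fun i => ((N i : ℝ)) ^ (-s)) :
    Summable (Function.uncurry fun (i : ι) (k : ℕ) => if N i ≤ k + 1 then cfb_w s k else 0) := by
  set f : ι → ℕ → ℝ := fun i k => if N i ≤ k + 1 then cfb_w s k else 0 with hf
  have ha : ∀ i, HasSum (f i) ((N i : ℝ) ^ (-s)) := fun i => cfb_hasSum_telescope hs (N i) (hN i)
  have hnn : (0 : ι × ℕ → ℝ) ≤ Function.uncurry f := by
    rintro ⟨i, k⟩
    simp only [Pi.zero_apply, Function.uncurry_apply_pair, hf]
    split_ifs
    · exact cfb_w_nonneg hs k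
    · exact le_refl _
  rw [summable_prod_of_nonneg hnn]
  refine ⟨fun i => (ha i).summable, ?_⟩
  have : (fun i => ∑' k, Function.uncurry f (i, k)) = fun i => (N i : ℝ) ^ (-s) := by
    funext i
    exact (ha i).tsum_eq
  rw [this]; exact hsum

/-- Abel summation with weights -/
theorem s48c_abel_hasSum {ι : Type*} (N : ι → ℕ) (hN : ∀ i, 1 ≤ N i)
    (hfin : ∀ k : ℕ, {i | N i ≤ k}.Finite) (u : ι → ℂ) (hu : ∀ i, ‖u i‖ ≤ 1) {s : ℝ} (hs : 0 < s)
    (hsum : Summable fun i => ((N i : ℝ)) ^ (-s)) :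
    HasSum (fun k : ℕ => (∑ i ∈ (hfin (k + 1)).toFinset, u i) * ((cfb_w s k : ℝ) : ℂ))
      (∑' i, u i * (((N i : ℝ) ^ (-s) : ℝ) : ℂ)) := by
  classical
  set F : ι → ℕ → ℂ := fun i k => if N i ≤ k + 1 then u i * ((cfb_w s k : ℝ) : ℂ) else 0 with hF
  have ha : ∀ i, HasSum (F i) (u i * (((N i : ℝ) ^ (-s) : ℝ) : ℂ)) := by
    intro i
    have h1 := (Complex.hasSum_ofReal.mpr (cfb_hasSum_telescope hs (N i) (hN i))).mul_left (u i)
    refine h1.congr_fun fun k => ?_
    simp only [hF]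
    split_ifs <;> simp
  have hb : Summable (Function.uncurry F) := by
    refine Summable.of_norm_bounded (s48c_abel_summable_real N hN hs hsum) ?_
    rintro ⟨i, k⟩
    simp only [Function.uncurry_apply_pair, hF]
    split_ifs
    · rw [norm_mul, Complex.norm_real, Real.norm_eq_abs, abs_of_nonneg (cfb_w_nonneg hs k)]
      calc ‖u i‖ * cfb_w s k ≤ 1 * cfb_w s k :=
            mul_le_mul_of_nonneg_right (hu i) (cfb_w_nonneg hs k)
        _ = cfb_w s k := one_mul _
    · rw [norm_zero]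
  have hc : ∑' i, u i * (((N i : ℝ) ^ (-s) : ℝ) : ℂ) = ∑' k, ∑' i, F i k := by
    rw [hb.tsum_comm]
    exact tsum_congr fun i => (ha i).tsum_eq.symm
  have hd : ∀ k, ∑' i, F i k =
      (∑ i ∈ (hfin (k + 1)).toFinset, u i) * ((cfb_w s k : ℝ) : ℂ) := by
    intro k
    rw [tsum_eq_sum (s := (hfin (k + 1)).toFinset)]
    · rw [Finset.sum_mul]
      refine Finset.sum_congr rfl fun i hi => ?_
      rw [Set.Finite.mem_toFinset, Set.mem_ofPred_eq] at hi
      simp only [hF]
      rw [if_pos hi]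
    · intro i hi
      rw [Set.Finite.mem_toFinset, Set.mem_ofPred_eq] at hi
      simp only [hF]
      rw [if_neg hi]
  have he : Summable fun k => ∑' i, F i k := hb.prod_symm.prod
  rw [hc]
  simp_rw [← hd]
  exact he.hasSum

theorem s48c_continuous_cfb_w (k : ℕ) : Continuous fun s : ℝ => cfb_w s k := by
  unfold cfb_w
  have h1 : Continuous fun s : ℝ => ((k + 1 : ℕ) : ℝ) ^ (-s) :=
    (Real.continuous_const_rpow (by positivity)).comp continuous_neg
  have h2 : Continuous fun s : ℝ => ((k + 2 : ℕ) : ℝ) ^ (-s) :=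
    (Real.continuous_const_rpow (by positivity)).comp continuous_neg
  exact h1.sub h2

/-- a Dirichlet series with coefficient sums `O(k^e)`, `e < 1`, in Abel-summed form, is continuous
on `[1, 2]` -/
theorem s48c_abel_continuousOn (A : ℕ → ℂ) {B e : ℝ} (he : e < 1)
    (hA : ∀ k : ℕ, ‖A k‖ ≤ B * ((k + 1 : ℕ) : ℝ) ^ e) :
    ContinuousOn (fun s : ℝ => ∑' k : ℕ, A k * ((cfb_w s k : ℝ) : ℂ)) (Set.Icc 1 2) := by
  have hB0 : 0 ≤ B := by
    have := hA 0
    simp only [zero_add, Nat.cast_one, Real.one_rpow, mul_one] at this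
    exact le_trans (norm_nonneg _) this
  refine continuousOn_tsum (u := fun k : ℕ => 2 * B * ((k + 1 : ℕ) : ℝ) ^ (e - 2)) ?_ ?_ ?_
  · intro k
    exact (continuous_const.mul
      (Complex.continuous_ofReal.comp (s48c_continuous_cfb_w k))).continuousOn
  · exact (cfb_summable_shift he).mul_left _
  · intro k s hs
    have hs0 : 0 < s := by linarith [hs.1]
    rw [norm_mul, Complex.norm_real, Real.norm_eq_abs, abs_of_nonneg (cfb_w_nonneg hs0 k)]
    have ha : (1 : ℝ) ≤ ((k + 1 : ℕ) : ℝ) := by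
      have : 1 ≤ k + 1 := by omega
      exact_mod_cast this
    have ha0 : (0 : ℝ) < ((k + 1 : ℕ) : ℝ) := by linarith
    calc ‖A k‖ * cfb_w s k
        ≤ (B * ((k + 1 : ℕ) : ℝ) ^ e) * (s * ((k + 1 : ℕ) : ℝ) ^ (-s - 1)) :=
          mul_le_mul (hA k) (cfb_w_le hs.1 k) (cfb_w_nonneg hs0 k)
            (mul_nonneg hB0 (Real.rpow_nonneg ha0.le _))
      _ = B * s * ((k + 1 : ℕ) : ℝ) ^ (e - s - 1) := by
          have : ((k + 1 : ℕ) : ℝ) ^ (e - s - 1) =
              ((k + 1 : ℕ) : ℝ) ^ e * ((k + 1 : ℕ) : ℝ) ^ (-s - 1) := by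
            rw [← Real.rpow_add ha0]; congr 1; ring
          rw [this]; ring
      _ ≤ B * 2 * ((k + 1 : ℕ) : ℝ) ^ (e - 2) := by
          apply mul_le_mul (mul_le_mul_of_nonneg_left hs.2 hB0) _ (Real.rpow_nonneg ha0.le _)
            (by positivity)
          exact Real.rpow_le_rpow_of_exponent_le ha (by linarith [hs.1])
      _ = 2 * B * ((k + 1 : ℕ) : ℝ) ^ (e - 2) := by ring

end Fermat.Agent.Lib.S48
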