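/-
[CHEB] Chebotarev density theorem, brick B1: lattice points of a *translated* lattice in a
homogeneously expanding domain, with error term (translate-uniform version of
`Lib/CFT/CountLip.lean`).
-/
import Fermat.Agent.Lib.CFT.CountLip

set_option autoImplicit false

namespace Fermat.Agent.Lib.S48

open MeasureTheory Module Bornology Metric Fermat.Agent.Lib.CFT
open scoped Pointwise NNReal

section zspan

variable {E : Type*} [NormedAddCommGroup E] [NormedSpace ℝ E]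
variable [FiniteDimensional ℝ E] [MeasurableSpace E] [BorelSpace E]
variable {ι : Type*} [Fintype ι] (b : Basis ι ℝ E)
variable (μ : Measure E) [Measure.IsAddHaarMeasure μ]

/-- Points of the coset `v + Λ` in `t • s`, with an error term uniform in `v`. -/
theorem s48c_zspan_vadd {s : Set E} (hs₁ : IsBounded s) {d : ℕ}
    (hs₃ : cfl_BoxDim d (frontier s)) :
    ∃ C : ℝ, ∀ (v : E) (t : ℝ), 1 ≤ t →
      |(Nat.card ({x | x ∈ t • s ∧ x - v ∈ Submodule.span ℤ (Set.range b)} : Set E) : ℝ) *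
          μ.real (ZSpan.fundamentalDomain b) - μ.real s * t ^ finrank ℝ E| ≤ C * t ^ d := by
  classical
  obtain ⟨R, hR⟩ : ∃ R, ∀ f ∈ ZSpan.fundamentalDomain b, ‖f‖ ≤ R :=
    isBounded_iff_forall_norm_le.mp (ZSpan.fundamentalDomain_isBounded b)
  obtain ⟨C₀, hC₀⟩ := cfl_net_count b (R + 1)
  obtain ⟨C₁, hC₁⟩ := hs₃
  have hF0 : 0 ≤ μ.real (ZSpan.fundamentalDomain b) := measureReal_nonneg
  refine ⟨C₀ * C₁ * μ.real (ZSpan.fundamentalDomain b), fun v t ht => ?_⟩
  have ht0 : 0 < t := lt_of_lt_of_le one_pos ht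
  obtain ⟨P, hPcard, hPcov⟩ := hC₁ t⁻¹ (inv_pos.mpr ht0) (inv_le_one_of_one_le₀ ht)
  rw [inv_inv] at hPcard
  set A : Set E := (fun x => x + v) ⁻¹' (t • s) with hA
  have hAb : IsBounded A := by
    obtain ⟨R₁, hR₁⟩ := isBounded_iff_forall_norm_le.mp (hs₁.smul₀ t)
    refine isBounded_iff_forall_norm_le.mpr ⟨R₁ + ‖v‖, fun x hx => ?_⟩
    have h1 : ‖x + v‖ ≤ R₁ := hR₁ _ hx
    calc ‖x‖ = ‖(x + v) - v‖ := by rw [add_sub_cancel_right]
      _ ≤ ‖x + v‖ + ‖v‖ := norm_sub_le _ _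
      _ ≤ R₁ + ‖v‖ := by linarith
  obtain ⟨B, hB, hest⟩ := cfl_core b μ hAb hR
  have hvolA : μ.real A = μ.real (t • s) := by
    rw [measureReal_def, measureReal_def, hA, measure_preimage_add_right]
  have hvol : μ.real (t • s) = μ.real s * t ^ finrank ℝ E := by
    rw [measureReal_def, Measure.addHaar_smul_of_nonneg μ ht0.le, ENNReal.toReal_mul,
      ENNReal.toReal_ofReal (pow_nonneg ht0.le _), mul_comm, measureReal_def]
  have hcard : Nat.card ({x | x ∈ t • s ∧ x - v ∈ Submodule.span ℤ (Set.range b)} : Set E) =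
      Nat.card (A ∩ (Submodule.span ℤ (Set.range b) : Set E) : Set E) := by
    refine Nat.card_congr ⟨fun x => ⟨x.1 - v, ?_, x.2.2⟩, fun g => ⟨g.1 + v, g.2.1, ?_⟩, ?_, ?_⟩
    · show x.1 - v + v ∈ t • s
      rw [sub_add_cancel]; exact x.2.1
    · show g.1 + v - v ∈ _
      rw [add_sub_cancel_right]; exact g.2.2
    · intro x; apply Subtype.ext; show x.1 - v + v = x.1; rw [sub_add_cancel]
    · intro g; apply Subtype.ext; show g.1 + v - v = g.1; rw [add_sub_cancel_right]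
  rw [hcard]
  rw [hvolA, hvol] at hest
  have hfront : frontier A = (fun x => x + v) ⁻¹' (frontier (t • s)) := by
    rw [hA]
    exact ((Homeomorph.addRight v).preimage_frontier (t • s)).symm
  have hBcard : B.card ≤ C₀ * (P.image (fun p => t • p - v)).card := by
    refine hC₀ _ B (fun g hg => ⟨(hB g hg).1, ?_⟩)
    obtain ⟨y, hy, hyg⟩ := (hB g hg).2
    rw [hfront, Set.mem_preimage, cfl_frontier_smul ht0.ne'] at hy
    obtain ⟨y', hy', hyy'⟩ := hy
    have hyy : t • y' = y + v := hyy'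
    have := hPcov hy'
    simp only [Set.mem_iUnion, mem_closedBall, exists_prop] at this
    obtain ⟨p, hp, hyp⟩ := this
    refine ⟨t • p - v, Finset.mem_image_of_mem _ hp, ?_⟩
    have h1 : ‖t • y' - t • p‖ ≤ 1 := by
      rw [← smul_sub, norm_smul, Real.norm_of_nonneg ht0.le, ← dist_eq_norm]
      calc t * dist y' p ≤ t * t⁻¹ := mul_le_mul_of_nonneg_left hyp ht0.le
        _ = 1 := mul_inv_cancel₀ ht0.ne'
    calc ‖g - (t • p - v)‖ = ‖(t • y' - t • p) - (y - g)‖ := by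
          rw [hyy]; congr 1; abel
      _ ≤ ‖t • y' - t • p‖ + ‖y - g‖ := norm_sub_le _ _
      _ ≤ 1 + R := add_le_add h1 hyg
      _ = R + 1 := add_comm _ _
  have hBcard' : (B.card : ℝ) ≤ C₀ * (C₁ * t ^ d) := by
    have hle : ((P.image (fun p : E => t • p - v)).card : ℝ) ≤ (P.card : ℝ) := by
      exact_mod_cast Finset.card_image_le
    calc (B.card : ℝ) ≤ ((C₀ * (P.image (fun p : E => t • p - v)).card : ℕ) : ℝ) := by
          exact_mod_cast hBcard
      _ = C₀ * ((P.image (fun p : E => t • p - v)).card : ℝ) := by push_cast; ring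
      _ ≤ C₀ * (P.card : ℝ) := by gcongr
      _ ≤ C₀ * (C₁ * t ^ d) := by gcongr
  calc _ ≤ (B.card : ℝ) * μ.real (ZSpan.fundamentalDomain b) := hest
    _ ≤ (C₀ * (C₁ * t ^ d)) * μ.real (ZSpan.fundamentalDomain b) := by gcongr
    _ = C₀ * C₁ * μ.real (ZSpan.fundamentalDomain b) * t ^ d := by ring

end zspan

section main

variable {E : Type*} [NormedAddCommGroup E] [NormedSpace ℝ E] [FiniteDimensional ℝ E]
  [MeasurableSpace E] [BorelSpace E]
variable (L : Submodule ℤ E) [DiscreteTopology L] [IsZLattice ℝ L]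
variable (μ : Measure E) [Measure.IsAddHaarMeasure μ]

/-- Coset lattice point count with error term, general exponent, uniform in the coset. -/
theorem s48c_card_smul_vadd_sub_le {s : Set E} (hs₁ : IsBounded s) {d : ℕ}
    (hs₃ : cfl_BoxDim d (frontier s)) :
    ∃ C : ℝ, ∀ (v : E) (t : ℝ), 1 ≤ t →
      |(Nat.card ({x | x ∈ t • s ∧ x - v ∈ L} : Set E) : ℝ) -
          μ.real s / ZLattice.covolume L μ * t ^ finrank ℝ E| ≤ C * t ^ d := by
  classical
  let b := Module.Free.chooseBasis ℤ L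
  have hspan : Submodule.span ℤ (Set.range (b.ofZLatticeBasis ℝ L)) = L :=
    b.ofZLatticeBasis_span ℝ L
  have hcov : ZLattice.covolume L μ = μ.real (ZSpan.fundamentalDomain (b.ofZLatticeBasis ℝ L)) :=
    ZLattice.covolume_eq_measure_fundamentalDomain L μ (ZLattice.isAddFundamentalDomain b μ)
  have hpos : 0 < ZLattice.covolume L μ := ZLattice.covolume_pos L μ
  obtain ⟨C, hC⟩ := s48c_zspan_vadd (b.ofZLatticeBasis ℝ L) μ hs₁ hs₃
  refine ⟨C / ZLattice.covolume L μ, fun v t ht => ?_⟩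
  have := hC v t ht
  rw [hspan, ← hcov] at this
  have h2 : (Nat.card ({x | x ∈ t • s ∧ x - v ∈ L} : Set E) : ℝ) -
        μ.real s / ZLattice.covolume L μ * t ^ finrank ℝ E
      = ((Nat.card ({x | x ∈ t • s ∧ x - v ∈ L} : Set E) : ℝ) * ZLattice.covolume L μ -
          μ.real s * t ^ finrank ℝ E) / ZLattice.covolume L μ := by
    field_simp
  rw [h2, abs_div, abs_of_pos hpos, div_mul_eq_mul_div]
  gcongr

/-- Cone version for cosets: points of `v + L` in `{x ∈ X | F x ≤ c}`. -/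
theorem s48c_card_le_vadd_sub_le [Nontrivial E] {X : Set E} {F : E → ℝ}
    (hX : ∀ ⦃x⦄ ⦃r : ℝ⦄, x ∈ X → 0 < r → r • x ∈ X)
    (h₁ : ∀ x ⦃r : ℝ⦄, 0 ≤ r → F (r • x) = r ^ finrank ℝ E * (F x))
    (h₂ : IsBounded {x ∈ X | F x ≤ 1})
    (h₄ : cfl_BoxDim (finrank ℝ E - 1) (frontier {x ∈ X | F x ≤ 1})) :
    ∃ C : ℝ, ∀ (v : E) (c : ℝ), 1 ≤ c →
      |(Nat.card ({x | (x ∈ X ∧ F x ≤ c) ∧ x - v ∈ L} : Set E) : ℝ) -
          μ.real {x ∈ X | F x ≤ 1} / ZLattice.covolume L μ * c|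
        ≤ C * c ^ (1 - (finrank ℝ E : ℝ)⁻¹) := by
  obtain ⟨C, hC⟩ := s48c_card_smul_vadd_sub_le L μ h₂ h₄
  refine ⟨C, fun v c hc => ?_⟩
  have hc0 : 0 < c := lt_of_lt_of_le one_pos hc
  have hn : finrank ℝ E ≠ 0 := (finrank_pos (R := ℝ) (M := E)).ne'
  have hn1 : 1 ≤ finrank ℝ E := Nat.one_le_iff_ne_zero.mpr hn
  set t : ℝ := c ^ ((finrank ℝ E : ℝ)⁻¹) with ht
  have ht1 : 1 ≤ t := Real.one_le_rpow hc (inv_nonneg.mpr (Nat.cast_nonneg _))
  have ht0 : 0 < t := lt_of_lt_of_le one_pos ht1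
  have htn : t ^ finrank ℝ E = c := Real.rpow_inv_natCast_pow hc0.le hn
  have htn1 : t ^ (finrank ℝ E - 1) = c ^ (1 - (finrank ℝ E : ℝ)⁻¹) := by
    rw [ht, ← Real.rpow_natCast, ← Real.rpow_mul hc0.le, Nat.cast_sub hn1, Nat.cast_one]
    congr 1
    have : (finrank ℝ E : ℝ) ≠ 0 := Nat.cast_ne_zero.mpr hn
    field_simp
  have := hC v t ht1
  rw [cfl_smul_cone hX h₁ ht0, htn, htn1] at this
  exact this

end main

end Fermat.Agent.Lib.S48
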