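/-
[CHEB] Chebotarev density theorem, brick B2: algebraic integers of a number field `K` lying in the
fundamental cone, of norm `≤ c`, in a fixed residue class modulo a nonzero ideal `J`:
their number is `vol(normLeOne) / covol(J) * c + O(c^(1-1/n))`, uniformly in the residue class.
-/
import Fermat.Agent.Lib.S48.ChebLattice
import Fermat.Agent.Lib.CFT.CountIdeals

set_option autoImplicit false

open NumberField NumberField.mixedEmbedding NumberField.mixedEmbedding.fundamentalCone
  NumberField.InfinitePlace NumberField.Units MeasureTheory Module Fermat.Agent.Lib.CFT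

namespace Fermat.Agent.Lib.S48

open Ideal Submodule
open scoped nonZeroDivisors Real

variable (K : Type*) [Field K] [NumberField K]

open scoped Classical

/-- the set of algebraic integers in the fundamental cone, of norm `≤ c`, congruent to `α₀`
modulo `J` -/
def s48c_coneSet (J : Ideal (𝓞 K)) (α₀ : 𝓞 K) (c : ℝ) : Set (𝓞 K) :=
  {α | mixedEmbedding K (α : K) ∈ fundamentalCone K ∧
    mixedEmbedding.norm (mixedEmbedding K (α : K)) ≤ c ∧ α - α₀ ∈ J}

theorem s48c_card_coneSet_sub_le (J : (Ideal (𝓞 K))⁰) :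
    ∃ B : ℝ, ∀ (α₀ : 𝓞 K) (c : ℝ), 1 ≤ c →
      |(Nat.card (s48c_coneSet K (J : Ideal (𝓞 K)) α₀ c) : ℝ) -
          volume.real (normLeOne K) /
            ZLattice.covolume (idealLattice K (FractionalIdeal.mk0 K J)) volume * c|
        ≤ B * c ^ (1 - (finrank ℚ K : ℝ)⁻¹) := by
  have hset : {x | x ∈ fundamentalCone K ∧ mixedEmbedding.norm x ≤ 1} = normLeOne K := by
    ext; simp
  have key := s48c_card_le_vadd_sub_le (E := mixedSpace K)
    (idealLattice K (FractionalIdeal.mk0 K J)) volume
    (X := fundamentalCone K) (F := fun x => mixedEmbedding.norm x)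
    (fun x r hx hr => (smul_mem_iff_mem hr.ne').mpr hx)
    (fun x r hr => by
      rw [mixedEmbedding.norm_smul, mixedEmbedding.finrank, abs_of_nonneg hr])
    (by rw [hset]; exact isBounded_normLeOne K)
    (by rw [hset]; exact cfn_boxDim_frontier_normLeOne K)
  obtain ⟨B, hB⟩ := key
  refine ⟨B, fun α₀ c hc => ?_⟩
  have h := hB (mixedEmbedding K (α₀ : K)) c hc
  rw [hset, mixedEmbedding.finrank] at h
  have hcard : Nat.card (s48c_coneSet K (J : Ideal (𝓞 K)) α₀ c) =
      Nat.card ({x | (x ∈ fundamentalCone K ∧ mixedEmbedding.norm x ≤ c) ∧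
        x - mixedEmbedding K (α₀ : K) ∈ idealLattice K (FractionalIdeal.mk0 K J)} :
          Set (mixedSpace K)) := by
    refine Nat.card_congr (Equiv.ofBijective
      (fun α => ⟨mixedEmbedding K ((α : 𝓞 K) : K), ⟨⟨α.2.1, α.2.2.1⟩, ?_⟩⟩) ⟨?_, ?_⟩)
    · rw [← map_sub, mem_idealLattice]
      refine ⟨(((α : 𝓞 K) - α₀ : 𝓞 K) : K), ?_, by push_cast; rw [map_sub]⟩
      rw [SetLike.mem_coe, FractionalIdeal.coe_mk0, FractionalIdeal.mem_coeIdeal]
      exact ⟨(α : 𝓞 K) - α₀, α.2.2.2, rfl⟩
    · intro α β hαβ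
      have h1 : mixedEmbedding K ((α : 𝓞 K) : K) = mixedEmbedding K ((β : 𝓞 K) : K) :=
        congrArg Subtype.val hαβ
      exact Subtype.ext (RingOfIntegers.coe_injective (mixedEmbedding_injective K h1))
    · rintro ⟨x, ⟨hx1, hx2⟩, hx3⟩
      rw [mem_idealLattice] at hx3
      obtain ⟨y, hy, hyx⟩ := hx3
      rw [SetLike.mem_coe, FractionalIdeal.coe_mk0, FractionalIdeal.mem_coeIdeal] at hy
      obtain ⟨j, hj, rfl⟩ := hy
      have hx : mixedEmbedding K ((α₀ + j : 𝓞 K) : K) = x := by
        push_cast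
        rw [map_add]
        have : mixedEmbedding K ((j : 𝓞 K) : K) = x - mixedEmbedding K (α₀ : K) := hyx
        rw [this]; abel
      refine ⟨⟨α₀ + j, ?_, ?_, ?_⟩, Subtype.ext hx⟩
      · rw [hx]; exact hx1
      · rw [hx]; exact hx2
      · rw [add_sub_cancel_left]; exact hj
  rw [hcard]
  exact h

end Fermat.Agent.Lib.S48
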