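/-
[CHEB] Chebotarev density theorem, brick B3: sums of an `m`-periodic weight over the algebraic
integers of the fundamental cone lying in an ideal `J` prime to `m`, with error term.
-/
import Fermat.Agent.Lib.S48.ChebCone

set_option autoImplicit false

open NumberField NumberField.mixedEmbedding NumberField.mixedEmbedding.fundamentalCone
  NumberField.InfinitePlace NumberField.Units MeasureTheory Module Fermat.Agent.Lib.CFT

namespace Fermat.Agent.Lib.S48

open Ideal Submodule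
open scoped nonZeroDivisors Pointwise

variable (K : Type*) [Field K] [NumberField K]

open scoped Classical

theorem s48c_cone_le_bounded (c : ℝ) :
    Bornology.IsBounded {x : mixedSpace K | x ∈ fundamentalCone K ∧ mixedEmbedding.norm x ≤ c} := by
  rcases le_or_gt c 0 with hc | hc
  · refine Bornology.isBounded_empty.subset ?_
    rintro x ⟨hx1, hx2⟩
    exact absurd (norm_pos_of_mem hx1) (not_lt.mpr (hx2.trans hc))
  · have hn : finrank ℚ K ≠ 0 := (finrank_pos (R := ℚ) (M := K)).ne'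
    set t : ℝ := c ^ ((finrank ℚ K : ℝ)⁻¹) with ht
    have ht0 : 0 < t := Real.rpow_pos_of_pos hc _
    have htn : t ^ finrank ℚ K = c := Real.rpow_inv_natCast_pow hc.le hn
    have h := cfl_smul_cone (E := mixedSpace K) (n := finrank ℚ K) (X := fundamentalCone K)
      (F := fun x => mixedEmbedding.norm x)
      (fun x r hx hr => (smul_mem_iff_mem hr.ne').mpr hx)
      (fun x r hr => by rw [mixedEmbedding.norm_smul, abs_of_nonneg hr]) ht0
    rw [htn] at h
    rw [← h]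
    have hset : {x | x ∈ fundamentalCone K ∧ mixedEmbedding.norm x ≤ 1} = normLeOne K := by
      ext; simp
    rw [hset]
    exact (isBounded_normLeOne K).smul₀ t

theorem s48c_coneSet_finite (J : Ideal (𝓞 K)) (α₀ : 𝓞 K) (c : ℝ) :
    (s48c_coneSet K J α₀ c).Finite := by
  have hfin := ZSpan.setFinite_inter (latticeBasis K) (s48c_cone_le_bounded K c)
  have hinj : Function.Injective fun α : 𝓞 K => mixedEmbedding K (α : K) :=
    (mixedEmbedding_injective K).comp RingOfIntegers.coe_injective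
  refine Set.Finite.of_finite_image (f := fun α : 𝓞 K => mixedEmbedding K (α : K))
    (hfin.subset ?_) hinj.injOn
  rintro _ ⟨α, hα, rfl⟩
  refine ⟨⟨hα.1, hα.2.1⟩, ?_⟩
  rw [SetLike.mem_coe, mem_span_latticeBasis]
  exact ⟨α, rfl⟩

variable (m : ℕ) [NeZero m]

/-- the ideal `(m)` as a nonzero ideal -/
noncomputable def s48c_mIdeal : (Ideal (𝓞 K))⁰ :=
  ⟨span {(m : 𝓞 K)}, mem_nonZeroDivisors_of_ne_zero (by
    rw [Ne, Ideal.zero_eq_bot, Ideal.span_singleton_eq_bot]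
    exact_mod_cast NeZero.ne m)⟩

theorem s48c_mIdeal_coe : ((s48c_mIdeal K m : (Ideal (𝓞 K))⁰) : Ideal (𝓞 K)) = span {(m : 𝓞 K)} :=
  rfl

instance s48c_finite_quot : Finite (𝓞 K ⧸ span {(m : 𝓞 K)}) :=
  Ideal.finiteQuotientOfFreeOfNeBot _ (by
    rw [Ne, Ideal.span_singleton_eq_bot]
    exact_mod_cast NeZero.ne m)

noncomputable instance s48c_fintype_quot : Fintype (𝓞 K ⧸ span {(m : 𝓞 K)}) := Fintype.ofFinite _

/-- the constant of the main term -/
noncomputable def s48c_kappa (J : (Ideal (𝓞 K))⁰) : ℝ :=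
  volume.real (normLeOne K) /
    ZLattice.covolume (idealLattice K (FractionalIdeal.mk0 K (J * s48c_mIdeal K m))) volume

theorem s48c_weighted_sum (J : (Ideal (𝓞 K))⁰)
    (hJ : (J : Ideal (𝓞 K)) ⊔ span {(m : 𝓞 K)} = ⊤) :
    ∃ B : ℝ, ∀ g : 𝓞 K → ℂ, (∀ α β, g (α + m * β) = g α) → (∀ α, ‖g α‖ ≤ 1) →
      ∀ c : ℝ, 1 ≤ c →
        ‖∑ α ∈ (s48c_coneSet_finite K (J : Ideal (𝓞 K)) 0 c).toFinset, g α -
            ((s48c_kappa K m J * c : ℝ) : ℂ) *
              ∑ r : 𝓞 K ⧸ span {(m : 𝓞 K)}, g (Quotient.out r)‖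
          ≤ B * c ^ (1 - (finrank ℚ K : ℝ)⁻¹) := by
  obtain ⟨B₀, hB₀⟩ := s48c_card_coneSet_sub_le K (J * s48c_mIdeal K m)
  refine ⟨Fintype.card (𝓞 K ⧸ span {(m : 𝓞 K)}) * |B₀|, fun g hg hg1 c hc => ?_⟩
  set R := 𝓞 K ⧸ span {(m : 𝓞 K)} with hR
  set q : 𝓞 K →+* R := Ideal.Quotient.mk (span {(m : 𝓞 K)}) with hq
  set S := (s48c_coneSet_finite K (J : Ideal (𝓞 K)) 0 c).toFinset with hS
  -- periodicity in terms of residues
  have hper : ∀ α : 𝓞 K, g α = g (Quotient.out (q α)) := by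
    intro α
    have h1 : q (Quotient.out (q α)) = q α := Ideal.Quotient.mk_out _
    have h2 : α - Quotient.out (q α) ∈ span {(m : 𝓞 K)} :=
      Ideal.Quotient.eq.mp h1.symm
    obtain ⟨β, hβ⟩ := Ideal.mem_span_singleton'.mp h2
    have : α = Quotient.out (q α) + m * β := by rw [mul_comm, hβ]; ring
    conv_lhs => rw [this]
    exact hg _ _
  -- lifts of residues into `J`
  have hlift : ∀ r : R, ∃ a : 𝓞 K, a ∈ (J : Ideal (𝓞 K)) ∧ q a = r := by
    intro r
    have h1 : (1 : 𝓞 K) ∈ (J : Ideal (𝓞 K)) ⊔ span {(m : 𝓞 K)} := by rw [hJ]; trivial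
    obtain ⟨j, hj, z, hz, hjz⟩ := Submodule.mem_sup.mp h1
    refine ⟨j * Quotient.out r, Ideal.mul_mem_right _ _ hj, ?_⟩
    have hqj : q j = 1 := by
      have : q j + q z = 1 := by rw [← map_add, hjz, map_one]
      rwa [show q z = 0 from Ideal.Quotient.eq_zero_iff_mem.mpr hz, add_zero] at this
    rw [hq, map_mul, ← hq, hqj, one_mul]
    exact Ideal.Quotient.mk_out _
  choose a ha1 ha2 using hlift
  have hcop : (J : Ideal (𝓞 K)) ⊓ span {(m : 𝓞 K)} = (J : Ideal (𝓞 K)) * span {(m : 𝓞 K)} :=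
    (Ideal.mul_eq_inf_of_isCoprime ((Ideal.isCoprime_iff_sup_eq).mpr hJ)).symm
  have hfib : ∀ r : R, (S.filter fun α => q α = r) =
      (s48c_coneSet_finite K ((J * s48c_mIdeal K m : (Ideal (𝓞 K))⁰) : Ideal (𝓞 K))
        (a r) c).toFinset := by
    intro r
    ext α
    rw [Finset.mem_filter, hS, Set.Finite.mem_toFinset, Set.Finite.mem_toFinset]
    simp only [s48c_coneSet, Set.mem_ofPred_eq, sub_zero, Submonoid.coe_mul, s48c_mIdeal_coe]
    constructor
    · rintro ⟨⟨h1, h2, h3⟩, h4⟩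
      refine ⟨h1, h2, ?_⟩
      rw [← hcop]
      refine ⟨Ideal.sub_mem _ h3 (ha1 r), ?_⟩
      apply Ideal.Quotient.eq.mp
      rw [← hq, h4, ha2]
    · rintro ⟨h1, h2, h3⟩
      rw [← hcop] at h3
      refine ⟨⟨h1, h2, ?_⟩, ?_⟩
      · have := Ideal.add_mem _ h3.1 (ha1 r)
        rwa [sub_add_cancel] at this
      · rw [← ha2 r]
        exact Ideal.Quotient.eq.mpr h3.2
  have hsum : ∑ α ∈ S, g α =
      ∑ r : R, g (Quotient.out r) *
        (Nat.card (s48c_coneSet K ((J * s48c_mIdeal K m : (Ideal (𝓞 K))⁰) : Ideal (𝓞 K))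
          (a r) c) : ℂ) := by
    rw [← Finset.sum_fiberwise_of_maps_to (s := S) (t := Finset.univ) (g := q)
      (fun _ _ => Finset.mem_univ _)]
    refine Finset.sum_congr rfl fun r _ => ?_
    rw [Finset.sum_congr rfl (g := fun _ => g (Quotient.out r))]
    · rw [Finset.sum_const, nsmul_eq_mul, mul_comm, hfib r,
        ← Set.ncard_eq_toFinset_card _ (s48c_coneSet_finite K _ _ _), ← Nat.card_coe_set_eq]
    · intro α hα
      rw [Finset.mem_filter] at hα
      rw [hper α, hα.2]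
  rw [hsum, Finset.mul_sum, ← Finset.sum_sub_distrib]
  have hterm : ∀ r : R, ‖g (Quotient.out r) *
        (Nat.card (s48c_coneSet K ((J * s48c_mIdeal K m : (Ideal (𝓞 K))⁰) : Ideal (𝓞 K))
          (a r) c) : ℂ) - ((s48c_kappa K m J * c : ℝ) : ℂ) * g (Quotient.out r)‖
      ≤ |B₀| * c ^ (1 - (finrank ℚ K : ℝ)⁻¹) := by
    intro r
    have h1 := hB₀ (a r) c hc
    have h2 : g (Quotient.out r) *
        (Nat.card (s48c_coneSet K ((J * s48c_mIdeal K m : (Ideal (𝓞 K))⁰) : Ideal (𝓞 K))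
          (a r) c) : ℂ) - ((s48c_kappa K m J * c : ℝ) : ℂ) * g (Quotient.out r) =
        g (Quotient.out r) * (((Nat.card (s48c_coneSet K
          ((J * s48c_mIdeal K m : (Ideal (𝓞 K))⁰) : Ideal (𝓞 K)) (a r) c) : ℝ) -
            s48c_kappa K m J * c : ℝ) : ℂ) := by
      push_cast; ring
    rw [h2, norm_mul, Complex.norm_real, Real.norm_eq_abs]
    have hc0 : 0 ≤ c ^ (1 - (finrank ℚ K : ℝ)⁻¹) := Real.rpow_nonneg (by linarith) _
    calc ‖g (Quotient.out r)‖ * _ ≤ 1 * (B₀ * c ^ (1 - (finrank ℚ K : ℝ)⁻¹)) := by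
          apply mul_le_mul (hg1 _) h1 (abs_nonneg _) zero_le_one
      _ ≤ |B₀| * c ^ (1 - (finrank ℚ K : ℝ)⁻¹) := by
          rw [one_mul]; gcongr; exact le_abs_self _
  calc _ ≤ ∑ r : R, ‖g (Quotient.out r) *
        (Nat.card (s48c_coneSet K ((J * s48c_mIdeal K m : (Ideal (𝓞 K))⁰) : Ideal (𝓞 K))
          (a r) c) : ℂ) - ((s48c_kappa K m J * c : ℝ) : ℂ) * g (Quotient.out r)‖ :=
        norm_sum_le _ _
    _ ≤ ∑ _r : R, |B₀| * c ^ (1 - (finrank ℚ K : ℝ)⁻¹) := Finset.sum_le_sum fun r _ => hterm r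
    _ = Fintype.card R * |B₀| * c ^ (1 - (finrank ℚ K : ℝ)⁻¹) := by
        rw [Finset.sum_const, Finset.card_univ, nsmul_eq_mul]; ring

end Fermat.Agent.Lib.S48
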