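/-
[CHEB] Chebotarev density theorem, brick B4b: a nonzero principal ideal of `𝓞 K` has exactly
`torsionOrder K` generators in the fundamental cone; weighted form of Mathlib's
`card_isPrincipal_dvd_norm_le`.
-/
import Fermat.Agent.Lib.S48.ChebWeighted

set_option autoImplicit false
set_option linter.unusedSectionVars false

open NumberField NumberField.mixedEmbedding NumberField.mixedEmbedding.fundamentalCone
  NumberField.InfinitePlace NumberField.Units MeasureTheory Module

namespace Fermat.Agent.Lib.S48

open Ideal Submodule
open scoped nonZeroDivisors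

variable (K : Type*) [Field K] [NumberField K]

open scoped Classical

theorem s48c_mem_integerSet {α : 𝓞 K} (h : mixedEmbedding K (α : K) ∈ fundamentalCone K) :
    mixedEmbedding K (α : K) ∈ integerSet K :=
  mem_integerSet.mpr ⟨h, α, rfl⟩

/-- the generators of a principal ideal lying in the fundamental cone -/
def s48c_genSet (I : Ideal (𝓞 K)) : Set (𝓞 K) :=
  {α | mixedEmbedding K (α : K) ∈ fundamentalCone K ∧ span {α} = I}

theorem s48c_card_genSet (I : (Ideal (𝓞 K))⁰) (hI : IsPrincipal (I : Ideal (𝓞 K))) :
    Nat.card (s48c_genSet K (I : Ideal (𝓞 K))) = torsionOrder K := by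
  let I₀ : {I : (Ideal (𝓞 K))⁰ // IsPrincipal I.1} := ⟨I, hI⟩
  have e₁ : s48c_genSet K (I : Ideal (𝓞 K)) ≃
      {a : integerSet K // (integerSetEquiv K a).1 = I₀} :=
    { toFun := fun α => ⟨⟨mixedEmbedding K ((α : 𝓞 K) : K), s48c_mem_integerSet K α.2.1⟩, by
        apply Subtype.ext; apply Subtype.ext
        rw [integerSetEquiv_apply_fst, preimageOfMemIntegerSet_mixedEmbedding]
        exact α.2.2⟩
      invFun := fun a => ⟨(preimageOfMemIntegerSet a.1 : 𝓞 K), by
        constructor
        · rw [mixedEmbedding_preimageOfMemIntegerSet]; exact a.1.2.1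
        · rw [← integerSetEquiv_apply_fst, a.2]⟩
      left_inv := fun α => by
        apply Subtype.ext
        show ((preimageOfMemIntegerSet _ : (𝓞 K)⁰) : 𝓞 K) = α
        rw [preimageOfMemIntegerSet_mixedEmbedding]
      right_inv := fun a => by
        apply Subtype.ext; apply Subtype.ext
        show mixedEmbedding K ((preimageOfMemIntegerSet a.1 : 𝓞 K) : K) = a.1
        rw [mixedEmbedding_preimageOfMemIntegerSet] }
  have e₂ : {a : integerSet K // (integerSetEquiv K a).1 = I₀} ≃ torsion K :=
    { toFun := fun a => (integerSetEquiv K a.1).2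
      invFun := fun ζ => ⟨(integerSetEquiv K).symm (I₀, ζ), by rw [Equiv.apply_symm_apply]⟩
      left_inv := fun a => by
        apply Subtype.ext
        show (integerSetEquiv K).symm (I₀, (integerSetEquiv K a.1).2) = a.1
        rw [Equiv.symm_apply_eq]
        exact Prod.ext a.2.symm rfl
      right_inv := fun ζ => by
        show ((integerSetEquiv K) ((integerSetEquiv K).symm (I₀, ζ))).2 = ζ
        rw [Equiv.apply_symm_apply] }
  rw [Nat.card_congr (e₁.trans e₂), torsionOrder]

end Fermat.Agent.Lib.S48
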