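/-
[CHEB] Chebotarev density theorem, brick B4a: the norm modulo `m` of an algebraic integer only
depends on its residue class modulo `m`; the weights `g α = χ (N α mod m)` and
`a I = χ (N I mod m)` attached to a Dirichlet character `χ` modulo `m`.
-/
import Mathlib

set_option autoImplicit false
set_option linter.unusedSectionVars false

open NumberField Module

namespace Fermat.Agent.Lib.S48

open Ideal

variable {K : Type*} [Field K] [NumberField K]

/-- the norm modulo `m` only depends on the residue class modulo `m` -/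
theorem s48c_norm_add_mul (m : ℕ) (α β : 𝓞 K) :
    ((Algebra.norm ℤ (α + m * β) : ℤ) : ZMod m) = ((Algebra.norm ℤ α : ℤ) : ZMod m) := by
  classical
  let b := RingOfIntegers.basis K
  rw [Algebra.norm_eq_matrix_det b, Algebra.norm_eq_matrix_det b]
  have h1 : Algebra.leftMulMatrix b (α + m * β) =
      Algebra.leftMulMatrix b α + (m : ℤ) • Algebra.leftMulMatrix b β := by
    rw [map_add, map_mul]
    congr 1
    have : Algebra.leftMulMatrix b ((m : ℕ) : 𝓞 K) =
        algebraMap ℤ (Matrix (Free.ChooseBasisIndex ℤ (𝓞 K)) (Free.ChooseBasisIndex ℤ (𝓞 K)) ℤ)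
          (m : ℤ) := by
      have h := (Algebra.leftMulMatrix b).commutes (m : ℤ)
      rw [← h]; simp
    rw [this, Algebra.algebraMap_eq_smul_one, smul_mul_assoc, one_mul]
  show (Int.castRingHom (ZMod m)) _ = (Int.castRingHom (ZMod m)) _
  rw [RingHom.map_det, RingHom.map_det, h1]
  congr 1
  ext i j
  rw [RingHom.mapMatrix_apply, RingHom.mapMatrix_apply, Matrix.map_apply, Matrix.map_apply,
    Matrix.add_apply, Matrix.smul_apply, map_add, smul_eq_mul, map_mul]
  simp

variable (m : ℕ) [NeZero m] (χ : DirichletCharacter ℂ m)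

/-- the weight on algebraic integers -/
noncomputable def s48c_g (α : 𝓞 K) : ℂ := χ ((Algebra.norm ℤ α : ℤ) : ZMod m)

/-- the weight on ideals -/
noncomputable def s48c_a (I : Ideal (𝓞 K)) : ℂ := χ ((absNorm I : ℕ) : ZMod m)

theorem s48c_g_periodic (α β : 𝓞 K) : s48c_g m χ (α + (m : 𝓞 K) * β) = s48c_g m χ α := by
  unfold s48c_g
  rw [s48c_norm_add_mul]

theorem s48c_g_mul (α β : 𝓞 K) : s48c_g m χ (α * β) = s48c_g m χ α * s48c_g m χ β := by
  unfold s48c_g
  rw [map_mul, Int.cast_mul, map_mul]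

theorem s48c_g_norm_le (α : 𝓞 K) : ‖s48c_g m χ α‖ ≤ 1 := DirichletCharacter.norm_le_one χ _

theorem s48c_a_mul (I J : Ideal (𝓞 K)) : s48c_a m χ (I * J) = s48c_a m χ I * s48c_a m χ J := by
  unfold s48c_a
  rw [map_mul, Nat.cast_mul, map_mul]

theorem s48c_a_norm_le (I : Ideal (𝓞 K)) : ‖s48c_a m χ I‖ ≤ 1 := DirichletCharacter.norm_le_one χ _

theorem s48c_a_span (hχ : χ.Even) (α : 𝓞 K) :
    s48c_a m χ (span {α}) = s48c_g m χ α := by
  unfold s48c_a s48c_g
  rw [absNorm_span_singleton]
  rcases Int.natAbs_eq (Algebra.norm ℤ α) with h | h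
  · conv_rhs => rw [h]
    simp
  · conv_rhs => rw [h]
    rw [Int.cast_neg, hχ.eval_neg]
    simp

/-- for ideals prime to `m` the weight has absolute value one -/
theorem s48c_a_norm_eq_one {I : Ideal (𝓞 K)} (h : (absNorm I).Coprime m) :
    ‖s48c_a m χ I‖ = 1 := by
  unfold s48c_a
  have hu : IsUnit ((absNorm I : ℕ) : ZMod m) := (ZMod.isUnit_iff_coprime _ _).mpr h
  exact DirichletCharacter.unit_norm_eq_one χ hu.unit

end Fermat.Agent.Lib.S48
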