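/-
[CHEB] Chebotarev density theorem, brick B4c: sums over the integral ideals of norm `≤ x` in an
ideal class, versus sums over the algebraic integers of the fundamental cone.
-/
import Fermat.Agent.Lib.S48.ChebGen
import Fermat.Agent.Lib.S48.ChebNormChar

set_option autoImplicit false
set_option linter.unusedSectionVars false

open NumberField NumberField.mixedEmbedding NumberField.mixedEmbedding.fundamentalCone
  NumberField.InfinitePlace NumberField.Units MeasureTheory Module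

namespace Fermat.Agent.Lib.S48

open Ideal Submodule
open scoped nonZeroDivisors

variable (K : Type*) [Field K] [NumberField K]

open scoped Classical

theorem s48c_finite_le (x : ℝ) : {I : (Ideal (𝓞 K))⁰ | (absNorm (I : Ideal (𝓞 K)) : ℝ) ≤ x}.Finite := by
  refine (Ideal.finite_setOfPred_absNorm_le₀ (S := 𝓞 K) ⌊x⌋₊).subset fun I hI => ?_
  rcases le_or_gt 0 x with hx | hx
  · exact Nat.le_floor hI
  · exact absurd (lt_of_le_of_lt hI hx) (not_lt.mpr (Nat.cast_nonneg _))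

/-- nonzero ideals of norm `≤ x` -/
noncomputable def s48c_idealsLe (x : ℝ) : Finset (Ideal (𝓞 K))⁰ := (s48c_finite_le K x).toFinset

/-- nonzero ideals of norm `≤ x` in the class `C` -/
noncomputable def s48c_idealsClass (C : ClassGroup (𝓞 K)) (x : ℝ) : Finset (Ideal (𝓞 K))⁰ :=
  (s48c_idealsLe K x).filter fun I => ClassGroup.mk0 I = C

/-- nonzero principal ideals of norm `≤ x` divisible by `J` -/
noncomputable def s48c_idealsDvd (J : (Ideal (𝓞 K))⁰) (x : ℝ) : Finset (Ideal (𝓞 K))⁰ :=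
  (s48c_idealsLe K x).filter fun I => J ∣ I ∧ IsPrincipal (I : Ideal (𝓞 K))

theorem s48c_mem_idealsLe {x : ℝ} {I : (Ideal (𝓞 K))⁰} :
    I ∈ s48c_idealsLe K x ↔ (absNorm (I : Ideal (𝓞 K)) : ℝ) ≤ x := by
  unfold s48c_idealsLe
  rw [Set.Finite.mem_toFinset]; rfl

theorem s48c_absNorm_pos (J : (Ideal (𝓞 K))⁰) : (0 : ℝ) < absNorm (J : Ideal (𝓞 K)) :=
  Nat.cast_pos.mpr (absNorm_pos_of_nonZeroDivisors J)

/-- class `C` versus principal multiples of `J ∈ C⁻¹` -/
theorem s48c_sum_class_eq {C : ClassGroup (𝓞 K)} {J : (Ideal (𝓞 K))⁰}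
    (hJ : ClassGroup.mk0 J = C⁻¹) (f : (Ideal (𝓞 K))⁰ → ℂ) (x : ℝ) :
    ∑ I ∈ s48c_idealsClass K C x, f (J * I) =
      ∑ I ∈ s48c_idealsDvd K J (x * absNorm (J : Ideal (𝓞 K))), f I := by
  have hNJ := s48c_absNorm_pos K J
  refine Finset.sum_bij (fun I _ => J * I) ?_ ?_ ?_ (fun _ _ => rfl)
  · intro I hI
    unfold s48c_idealsClass at hI
    rw [Finset.mem_filter, s48c_mem_idealsLe] at hI
    unfold s48c_idealsDvd
    rw [Finset.mem_filter, s48c_mem_idealsLe]
    refine ⟨?_, dvd_mul_right J I, ?_⟩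
    · rw [Submonoid.coe_mul, map_mul, Nat.cast_mul, mul_comm]
      exact mul_le_mul_of_nonneg_right hI.1 hNJ.le
    · rw [← ClassGroup.mk0_eq_one_iff (SetLike.coe_mem _)]
      rw [show (⟨((J * I : (Ideal (𝓞 K))⁰) : Ideal (𝓞 K)), SetLike.coe_mem _⟩ :
        (Ideal (𝓞 K))⁰) = J * I from rfl, map_mul, hJ, hI.2, inv_mul_cancel]
  · intro I _ I' _ h
    exact mul_left_cancel h
  · intro I' hI'
    unfold s48c_idealsDvd at hI'
    rw [Finset.mem_filter, s48c_mem_idealsLe] at hI'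
    obtain ⟨h1, ⟨I, rfl⟩, h3⟩ := hI'
    refine ⟨I, ?_, rfl⟩
    unfold s48c_idealsClass
    rw [Finset.mem_filter, s48c_mem_idealsLe]
    constructor
    · rw [Submonoid.coe_mul, map_mul, Nat.cast_mul, mul_comm] at h1
      exact le_of_mul_le_mul_right h1 hNJ
    · rw [← ClassGroup.mk0_eq_one_iff (SetLike.coe_mem _)] at h3
      rw [show (⟨((J * I : (Ideal (𝓞 K))⁰) : Ideal (𝓞 K)), SetLike.coe_mem _⟩ :
        (Ideal (𝓞 K))⁰) = J * I from rfl, map_mul, hJ] at h3
      exact (inv_mul_eq_one.mp h3).symm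

theorem s48c_cast_absNorm_span (α : 𝓞 K) :
    (absNorm (span {α}) : ℝ) = mixedEmbedding.norm (mixedEmbedding K (α : K)) := by
  rw [absNorm_span_singleton, Nat.cast_natAbs, ← Rat.cast_intCast, Int.cast_abs,
    Algebra.coe_norm_int, ← norm_eq_norm]

theorem s48c_ne_zero_of_cone {α : 𝓞 K} (h : mixedEmbedding K (α : K) ∈ fundamentalCone K) :
    α ≠ 0 := by
  rintro rfl
  have := norm_pos_of_mem h
  simp at this

/-- sums over the cone versus sums over principal ideals -/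
theorem s48c_sum_coneSet_eq (J : (Ideal (𝓞 K))⁰) (h : Ideal (𝓞 K) → ℂ) (X : ℝ) :
    ∑ α ∈ (s48c_coneSet_finite K (J : Ideal (𝓞 K)) 0 X).toFinset, h (span {α}) =
      (torsionOrder K : ℂ) * ∑ I ∈ s48c_idealsDvd K J X, h (I : Ideal (𝓞 K)) := by
  set 𝒜 := (s48c_coneSet_finite K (J : Ideal (𝓞 K)) 0 X).toFinset with h𝒜
  have hmem : ∀ α : 𝓞 K, α ∈ 𝒜 ↔ mixedEmbedding K (α : K) ∈ fundamentalCone K ∧
      mixedEmbedding.norm (mixedEmbedding K (α : K)) ≤ X ∧ α ∈ (J : Ideal (𝓞 K)) := by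
    intro α
    rw [h𝒜, Set.Finite.mem_toFinset]
    simp only [s48c_coneSet, Set.mem_ofPred_eq, sub_zero]
  -- the ideal generated by an element of the cone set
  let φ : 𝓞 K → Ideal (𝓞 K) := fun α => span {α}
  let ℐ : Finset (Ideal (𝓞 K)) := (s48c_idealsDvd K J X).map ⟨Subtype.val, Subtype.val_injective⟩
  have hmaps : ∀ α ∈ 𝒜, φ α ∈ ℐ := by
    intro α hα
    rw [hmem] at hα
    have hα0 : α ≠ 0 := s48c_ne_zero_of_cone K hα.1
    have hne : span {α} ∈ (Ideal (𝓞 K))⁰ := mem_nonZeroDivisors_of_ne_zero (by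
      rw [Ne, Ideal.zero_eq_bot, Ideal.span_singleton_eq_bot]; exact hα0)
    rw [Finset.mem_map]
    refine ⟨⟨span {α}, hne⟩, ?_, rfl⟩
    unfold s48c_idealsDvd
    rw [Finset.mem_filter, s48c_mem_idealsLe]
    refine ⟨?_, ?_, ⟨α, rfl⟩⟩
    · show (absNorm (span {α}) : ℝ) ≤ X
      rw [s48c_cast_absNorm_span]; exact hα.2.1
    · rw [nonZeroDivisors_dvd_iff_dvd_coe]
      show (J : Ideal (𝓞 K)) ∣ span {α}
      rw [Ideal.dvd_span_singleton]; exact hα.2.2
  rw [← Finset.sum_fiberwise_of_maps_to hmaps, Finset.sum_map, Finset.mul_sum]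
  refine Finset.sum_congr rfl fun I hI => ?_
  simp only [Function.Embedding.coeFn_mk]
  unfold s48c_idealsDvd at hI
  rw [Finset.mem_filter, s48c_mem_idealsLe] at hI
  rw [Finset.sum_congr rfl (g := fun _ => h (I : Ideal (𝓞 K)))
    (fun α hα => by
      have : span {α} = (I : Ideal (𝓞 K)) := (Finset.mem_filter.mp hα).2
      rw [this])]
  rw [Finset.sum_const, nsmul_eq_mul]
  congr 1
  rw [← s48c_card_genSet K I hI.2.2, ← Nat.card_eq_finsetCard]
  congr 1
  refine Nat.card_congr (Equiv.subtypeEquivRight fun α => ?_)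
  rw [Finset.mem_filter, hmem]
  simp only [s48c_genSet, Set.mem_ofPred_eq]
  constructor
  · rintro ⟨⟨h1, _, _⟩, h4⟩
    exact ⟨h1, h4⟩
  · rintro ⟨h1, h2⟩
    refine ⟨⟨h1, ?_, ?_⟩, h2⟩
    · rw [← s48c_cast_absNorm_span, h2]; exact hI.1
    · have := hI.2.1
      rw [nonZeroDivisors_dvd_iff_dvd_coe, ← h2, Ideal.dvd_span_singleton] at this
      exact this

end Fermat.Agent.Lib.S48
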