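/-
[CHEB] Chebotarev density theorem, brick B4d: for an even Dirichlet character `χ` modulo `m`, the
sum of `χ (N I)` over the ideals of norm `≤ x` in an ideal class is
`a(J)⁻¹ w⁻¹ κ₀ S₀ x + O(x^(1-1/n))`.
-/
import Fermat.Agent.Lib.S48.ChebIdealSum

set_option autoImplicit false
set_option linter.unusedSectionVars false

open NumberField NumberField.mixedEmbedding NumberField.mixedEmbedding.fundamentalCone
  NumberField.InfinitePlace NumberField.Units MeasureTheory Module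

namespace Fermat.Agent.Lib.S48

open Ideal Submodule
open scoped nonZeroDivisors

variable (K : Type*) [Field K] [NumberField K]

open scoped Classical

variable (m : ℕ) [NeZero m]

/-- the constant `κ₀`, independent of the ideal `J` -/
noncomputable def s48c_kappa0 : ℝ :=
  volume.real (normLeOne K) /
    (absNorm ((s48c_mIdeal K m : (Ideal (𝓞 K))⁰) : Ideal (𝓞 K)) *
      ((2⁻¹) ^ nrComplexPlaces K * √|(discr K : ℝ)|))

theorem s48c_kappa_mul (J : (Ideal (𝓞 K))⁰) (x : ℝ) :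
    s48c_kappa K m J * (x * absNorm (J : Ideal (𝓞 K))) = s48c_kappa0 K m * x := by
  unfold s48c_kappa s48c_kappa0
  rw [covolume_idealLattice, FractionalIdeal.coe_mk0, FractionalIdeal.coeIdeal_absNorm,
    Rat.cast_natCast, Submonoid.coe_mul, map_mul, Nat.cast_mul]
  have h1 := (s48c_absNorm_pos K J).ne'
  have h2 := (s48c_absNorm_pos K (s48c_mIdeal K m)).ne'
  have hd : (0:ℝ) < √|(discr K : ℝ)| :=
    Real.sqrt_pos.mpr (abs_pos.mpr (Int.cast_ne_zero.mpr (discr_ne_zero K)))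
  field_simp

variable (χ : DirichletCharacter ℂ m)

/-- the sum of the weight over the residues modulo `m` -/
noncomputable def s48c_S0 : ℂ :=
  ∑ r : 𝓞 K ⧸ span {(m : 𝓞 K)}, s48c_g m χ (Quotient.out r)

/-- the character sum over the ideals of norm `≤ x` in the class `C` -/
noncomputable def s48c_TC (C : ClassGroup (𝓞 K)) (x : ℝ) : ℂ :=
  ∑ I ∈ s48c_idealsClass K C x, s48c_a m χ (I : Ideal (𝓞 K))

theorem s48c_TC_asymp (hχ : χ.Even) (C : ClassGroup (𝓞 K)) (J : (Ideal (𝓞 K))⁰)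
    (hJ : ClassGroup.mk0 J = C⁻¹) (hJm : (J : Ideal (𝓞 K)) ⊔ span {(m : 𝓞 K)} = ⊤) :
    ∃ B : ℝ, ∀ x : ℝ, 1 ≤ x →
      ‖s48c_a m χ (J : Ideal (𝓞 K)) * (torsionOrder K : ℂ) * s48c_TC K m χ C x -
          ((s48c_kappa0 K m * x : ℝ) : ℂ) * s48c_S0 K m χ‖
        ≤ B * x ^ (1 - (finrank ℚ K : ℝ)⁻¹) := by
  obtain ⟨B, hB⟩ := s48c_weighted_sum K m J hJm
  have hNJ := s48c_absNorm_pos K J
  have hNJ1 : (1:ℝ) ≤ absNorm (J : Ideal (𝓞 K)) := by
    exact_mod_cast Nat.one_le_iff_ne_zero.mpr (absNorm_pos_of_nonZeroDivisors J).ne'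
  set e : ℝ := 1 - (finrank ℚ K : ℝ)⁻¹ with he
  refine ⟨|B| * (absNorm (J : Ideal (𝓞 K)) : ℝ) ^ e, fun x hx => ?_⟩
  have hx0 : 0 < x := lt_of_lt_of_le one_pos hx
  have hc : 1 ≤ x * absNorm (J : Ideal (𝓞 K)) := by nlinarith
  have h1 := hB (s48c_g m χ) (s48c_g_periodic m χ) (s48c_g_norm_le m χ) _ hc
  rw [s48c_kappa_mul] at h1
  have h2 : s48c_a m χ (J : Ideal (𝓞 K)) * (torsionOrder K : ℂ) * s48c_TC K m χ C x =
      ∑ α ∈ (s48c_coneSet_finite K (J : Ideal (𝓞 K)) 0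
        (x * absNorm (J : Ideal (𝓞 K)))).toFinset, s48c_g m χ α := by
    rw [Finset.sum_congr rfl (fun α _ => (s48c_a_span m χ hχ α).symm),
      s48c_sum_coneSet_eq K J (s48c_a m χ),
      ← s48c_sum_class_eq K hJ (fun I => s48c_a m χ (I : Ideal (𝓞 K)))]
    unfold s48c_TC
    rw [mul_comm (s48c_a m χ _), mul_assoc, Finset.mul_sum]
    congr 1
    refine Finset.sum_congr rfl fun I _ => ?_
    rw [Submonoid.coe_mul, s48c_a_mul]
  rw [h2]
  refine h1.trans ?_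
  rw [Real.mul_rpow hx0.le hNJ.le]
  have : |B| * (absNorm (J : Ideal (𝓞 K)) : ℝ) ^ e * x ^ e =
      |B| * (x ^ e * (absNorm (J : Ideal (𝓞 K)) : ℝ) ^ e) := by ring
  rw [this]
  gcongr
  exact le_abs_self B

end Fermat.Agent.Lib.S48
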