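/-
[CHEB] Chebotarev density theorem, brick B4e: **the character sum bound**.  For an even Dirichlet
character `χ` modulo `m` such that `χ ∘ N` is not trivial on the ideals prime to `m` of the number
field `K`,  `∑_{N I ≤ x} χ (N I) = O(x^(1-1/n))`.
-/
import Fermat.Agent.Lib.S48.ChebClassSum
import Fermat.Agent.Lib.CFT.Moving
import Fermat.Agent.Lib.CFT.FrobUtil

set_option autoImplicit false
set_option linter.unusedSectionVars false

open NumberField NumberField.mixedEmbedding NumberField.mixedEmbedding.fundamentalCone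
  NumberField.InfinitePlace NumberField.Units MeasureTheory Module Fermat.Agent.Lib.CFT

namespace Fermat.Agent.Lib.S48

open Ideal Submodule
open scoped nonZeroDivisors

variable (K : Type*) [Field K] [NumberField K]

open scoped Classical

variable (m : ℕ) [NeZero m] (χ : DirichletCharacter ℂ m)

theorem s48c_span_m_ne_bot : span {(m : 𝓞 K)} ≠ ⊥ := by
  rw [Ne, Ideal.span_singleton_eq_bot]
  exact_mod_cast NeZero.ne m

/-- the weight only depends on the residue class -/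
theorem s48c_g_eq_out (α : 𝓞 K) :
    s48c_g m χ α = s48c_g m χ (Quotient.out (Ideal.Quotient.mk (span {(m : 𝓞 K)}) α)) := by
  set q := Ideal.Quotient.mk (span {(m : 𝓞 K)}) with hq
  have h1 : q (Quotient.out (q α)) = q α := Ideal.Quotient.mk_out _
  have h2 : α - Quotient.out (q α) ∈ span {(m : 𝓞 K)} := Ideal.Quotient.eq.mp h1.symm
  obtain ⟨β, hβ⟩ := Ideal.mem_span_singleton'.mp h2
  have : α = Quotient.out (q α) + m * β := by rw [mul_comm, hβ]; ring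
  conv_lhs => rw [this]
  exact s48c_g_periodic m χ _ _

/-- Claim A: if `S₀ ≠ 0` then the weight is `1` on the algebraic integers prime to `m` -/
theorem s48c_g_eq_one_of_S0_ne (hS : s48c_S0 K m χ ≠ 0) (β : 𝓞 K)
    (hβ : span {β} ⊔ span {(m : 𝓞 K)} = ⊤) : s48c_g m χ β = 1 := by
  set R := 𝓞 K ⧸ span {(m : 𝓞 K)}
  set q := Ideal.Quotient.mk (span {(m : 𝓞 K)}) with hq
  have hu : IsUnit (q β) := by
    have h1 : (1 : 𝓞 K) ∈ span {β} ⊔ span {(m : 𝓞 K)} := by rw [hβ]; trivial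
    obtain ⟨y, hy, z, hz, hyz⟩ := Submodule.mem_sup.mp h1
    obtain ⟨γ, rfl⟩ := Ideal.mem_span_singleton'.mp hy
    refine IsUnit.of_mul_eq_one (q γ) ?_
    have : q (γ * β) + q z = 1 := by rw [← map_add, hyz, map_one]
    rw [show q z = 0 from Ideal.Quotient.eq_zero_iff_mem.mpr hz, add_zero, map_mul] at this
    rw [mul_comm]; exact this
  have hsum : s48c_S0 K m χ = s48c_g m χ β * s48c_S0 K m χ := by
    unfold s48c_S0
    rw [Finset.mul_sum]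
    rw [← Equiv.sum_comp (Units.mulLeft hu.unit)
      (fun r : R => s48c_g m χ (Quotient.out r))]
    refine Finset.sum_congr rfl fun r _ => ?_
    rw [← s48c_g_mul, s48c_g_eq_out K m χ (β * Quotient.out r)]
    congr 2
    show hu.unit * r = q (β * Quotient.out r)
    rw [map_mul, IsUnit.unit_spec]
    congr 1
    exact (Ideal.Quotient.mk_out r).symm
  have : (1 - s48c_g m χ β) * s48c_S0 K m χ = 0 := by
    rw [sub_mul, one_mul, ← hsum, sub_self]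
  rcases mul_eq_zero.mp this with h | h
  · exact (sub_eq_zero.mp h).symm
  · exact absurd h hS

/-- Claim B: if `S₀ ≠ 0`, the weight of an ideal prime to `m` only depends on its class -/
theorem s48c_a_eq_of_class_eq (hχ : χ.Even) (hS : s48c_S0 K m χ ≠ 0) (I I' : (Ideal (𝓞 K))⁰)
    (hI : (I : Ideal (𝓞 K)) ⊔ span {(m : 𝓞 K)} = ⊤)
    (hI' : (I' : Ideal (𝓞 K)) ⊔ span {(m : 𝓞 K)} = ⊤)
    (h : ClassGroup.mk0 I = ClassGroup.mk0 I') :
    s48c_a m χ (I : Ideal (𝓞 K)) = s48c_a m χ (I' : Ideal (𝓞 K)) := by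
  have hI'0 : (I' : Ideal (𝓞 K)) ≠ ⊥ := mem_nonZeroDivisors_iff_ne_zero.mp I'.2
  obtain ⟨a₁, K₁, ha₁, hK₁, hIK, hK₁m⟩ :=
    cfe_exists_mul_eq_span_coprime hI'0 (s48c_span_m_ne_bot K m)
  let K₁' : (Ideal (𝓞 K))⁰ := ⟨K₁, mem_nonZeroDivisors_iff_ne_zero.mpr hK₁⟩
  have h1 : ClassGroup.mk0 (I' * K₁') = 1 := by
    rw [ClassGroup.mk0_eq_one_iff (SetLike.coe_mem _)]
    exact ⟨a₁, by rw [Submonoid.coe_mul]; exact hIK⟩
  have h2 : ClassGroup.mk0 (I * K₁') = 1 := by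
    rw [map_mul, h, ← map_mul]; exact h1
  rw [ClassGroup.mk0_eq_one_iff (SetLike.coe_mem _)] at h2
  obtain ⟨a₂, ha₂⟩ := h2
  rw [Submonoid.coe_mul] at ha₂
  have ha₂' : (I : Ideal (𝓞 K)) * K₁ = span {a₂} := ha₂
  -- coprimality of the products
  have hc1 : span {a₁} ⊔ span {(m : 𝓞 K)} = ⊤ := by
    rw [← hIK, ← Ideal.isCoprime_iff_sup_eq]
    exact IsCoprime.mul_left ((Ideal.isCoprime_iff_sup_eq).mpr hI')
      ((Ideal.isCoprime_iff_sup_eq).mpr hK₁m)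
  have hc2 : span {a₂} ⊔ span {(m : 𝓞 K)} = ⊤ := by
    rw [← ha₂', ← Ideal.isCoprime_iff_sup_eq]
    exact IsCoprime.mul_left ((Ideal.isCoprime_iff_sup_eq).mpr hI)
      ((Ideal.isCoprime_iff_sup_eq).mpr hK₁m)
  have e1 : s48c_a m χ (I' : Ideal (𝓞 K)) * s48c_a m χ K₁ = 1 := by
    rw [← s48c_a_mul, hIK, s48c_a_span m χ hχ, s48c_g_eq_one_of_S0_ne K m χ hS a₁ hc1]
  have e2 : s48c_a m χ (I : Ideal (𝓞 K)) * s48c_a m χ K₁ = 1 := by
    rw [← s48c_a_mul, ha₂', s48c_a_span m χ hχ, s48c_g_eq_one_of_S0_ne K m χ hS a₂ hc2]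
  have hK0 : s48c_a m χ K₁ ≠ 0 := by
    intro h0; rw [h0, mul_zero] at e1; exact zero_ne_one e1
  exact mul_right_cancel₀ hK0 (e2.trans e1.symm)

/-- Claim C: the main term vanishes -/
theorem s48c_main_term_zero (hχ : χ.Even) (I₀ : (Ideal (𝓞 K))⁰)
    (hI₀m : (I₀ : Ideal (𝓞 K)) ⊔ span {(m : 𝓞 K)} = ⊤)
    (hI₀ : s48c_a m χ (I₀ : Ideal (𝓞 K)) ≠ 1)
    (J : ClassGroup (𝓞 K) → (Ideal (𝓞 K))⁰) (hJ : ∀ C, ClassGroup.mk0 (J C) = C⁻¹)
    (hJm : ∀ C, ((J C : (Ideal (𝓞 K))⁰) : Ideal (𝓞 K)) ⊔ span {(m : 𝓞 K)} = ⊤) :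
    s48c_S0 K m χ * ∑ C : ClassGroup (𝓞 K), (s48c_a m χ ((J C : (Ideal (𝓞 K))⁰) : Ideal (𝓞 K)))⁻¹
      = 0 := by
  by_cases hS : s48c_S0 K m χ = 0
  · rw [hS, zero_mul]
  · rw [mul_eq_zero]; right
    set C₀ := ClassGroup.mk0 I₀ with hC₀
    have hstep : ∀ C : ClassGroup (𝓞 K),
        (s48c_a m χ ((J (C * C₀) : (Ideal (𝓞 K))⁰) : Ideal (𝓞 K)))⁻¹ =
          s48c_a m χ (I₀ : Ideal (𝓞 K)) *
            (s48c_a m χ ((J C : (Ideal (𝓞 K))⁰) : Ideal (𝓞 K)))⁻¹ := by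
      intro C
      have hcop : ((J (C * C₀) * I₀ : (Ideal (𝓞 K))⁰) : Ideal (𝓞 K)) ⊔ span {(m : 𝓞 K)} = ⊤ := by
        rw [Submonoid.coe_mul, ← Ideal.isCoprime_iff_sup_eq]
        exact IsCoprime.mul_left ((Ideal.isCoprime_iff_sup_eq).mpr (hJm _))
          ((Ideal.isCoprime_iff_sup_eq).mpr hI₀m)
      have hcl : ClassGroup.mk0 (J (C * C₀) * I₀) = ClassGroup.mk0 (J C) := by
        rw [map_mul, hJ, hJ, ← hC₀, mul_inv_rev, mul_comm C₀⁻¹, inv_mul_cancel_right]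
      have h1 := s48c_a_eq_of_class_eq K m χ hχ hS _ _ hcop (hJm C) hcl
      rw [Submonoid.coe_mul, s48c_a_mul] at h1
      have hne : s48c_a m χ ((J (C * C₀) : (Ideal (𝓞 K))⁰) : Ideal (𝓞 K)) ≠ 0 := by
        intro h0
        have h2 := s48c_a_eq_of_class_eq K m χ hχ hS _ _ hcop (hJm C) hcl
        have hC1 : ‖s48c_a m χ ((J C : (Ideal (𝓞 K))⁰) : Ideal (𝓞 K))‖ = 1 :=
          s48c_a_norm_eq_one m χ ((cft_coprime_iff
            (mem_nonZeroDivisors_iff_ne_zero.mp (J C).2)).mp (hJm C))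
        rw [← h1, h0, zero_mul, norm_zero] at hC1
        exact zero_ne_one hC1
      have hne' : s48c_a m χ ((J C : (Ideal (𝓞 K))⁰) : Ideal (𝓞 K)) ≠ 0 := by
        rw [← h1]
        refine mul_ne_zero hne ?_
        intro h0
        have hI1 : ‖s48c_a m χ (I₀ : Ideal (𝓞 K))‖ = 1 :=
          s48c_a_norm_eq_one m χ ((cft_coprime_iff
            (mem_nonZeroDivisors_iff_ne_zero.mp I₀.2)).mp hI₀m)
        rw [h0, norm_zero] at hI1
        exact zero_ne_one hI1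
      have hI0ne : s48c_a m χ (I₀ : Ideal (𝓞 K)) ≠ 0 := by
        intro h0; rw [h0, mul_zero] at h1; exact hne' h1.symm
      rw [← h1, mul_inv, mul_comm (s48c_a m χ (I₀ : Ideal (𝓞 K))), mul_assoc,
        inv_mul_cancel₀ hI0ne, mul_one]
    have hsum : ∑ C : ClassGroup (𝓞 K),
        (s48c_a m χ ((J C : (Ideal (𝓞 K))⁰) : Ideal (𝓞 K)))⁻¹ =
        s48c_a m χ (I₀ : Ideal (𝓞 K)) * ∑ C : ClassGroup (𝓞 K),
          (s48c_a m χ ((J C : (Ideal (𝓞 K))⁰) : Ideal (𝓞 K)))⁻¹ := by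
      rw [Finset.mul_sum, ← Equiv.sum_comp (Equiv.mulRight C₀)
        (fun C => (s48c_a m χ ((J C : (Ideal (𝓞 K))⁰) : Ideal (𝓞 K)))⁻¹)]
      exact Finset.sum_congr rfl fun C _ => hstep C
    have : (1 - s48c_a m χ (I₀ : Ideal (𝓞 K))) * ∑ C : ClassGroup (𝓞 K),
        (s48c_a m χ ((J C : (Ideal (𝓞 K))⁰) : Ideal (𝓞 K)))⁻¹ = 0 := by
      rw [sub_mul, one_mul, ← hsum, sub_self]
    rcases mul_eq_zero.mp this with h | h
    · exact absurd (sub_eq_zero.mp h).symm hI₀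
    · exact h

end Fermat.Agent.Lib.S48
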