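/-
[CHEB] Chebotarev density theorem, brick B (final): **the character sum bound**.  For an even
Dirichlet character `χ` modulo `m` such that `χ (N I₀) ≠ 1` for some ideal `I₀` prime to `m` of the
number field `K`,  `∑_{N I ≤ x} χ (N I) = O(x^(1-1/n))`, `n = [K : ℚ]`.
-/
import Fermat.Agent.Lib.S48.ChebCharSum

set_option autoImplicit false
set_option linter.unusedSectionVars false

open NumberField NumberField.mixedEmbedding NumberField.mixedEmbedding.fundamentalCone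
  NumberField.InfinitePlace NumberField.Units MeasureTheory Module Fermat.Agent.Lib.CFT

namespace Fermat.Agent.Lib.S48

open Ideal Submodule
open scoped nonZeroDivisors

variable (K : Type*) [Field K] [NumberField K]

open scoped Classical

variable (m : ℕ) [NeZero m] (χ : DirichletCharacter ℂ m)

theorem s48c_charSum_bound (hχ : χ.Even) (I₀ : (Ideal (𝓞 K))⁰)
    (hI₀m : (I₀ : Ideal (𝓞 K)) ⊔ span {(m : 𝓞 K)} = ⊤)
    (hI₀ : s48c_a m χ (I₀ : Ideal (𝓞 K)) ≠ 1) :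
    ∃ B : ℝ, ∀ x : ℝ, 1 ≤ x →
      ‖∑ I ∈ s48c_idealsLe K x, s48c_a m χ (I : Ideal (𝓞 K))‖
        ≤ B * x ^ (1 - (finrank ℚ K : ℝ)⁻¹) := by
  have hex : ∀ C : ClassGroup (𝓞 K), ∃ J : (Ideal (𝓞 K))⁰, ClassGroup.mk0 J = C⁻¹ ∧
      (J : Ideal (𝓞 K)) ⊔ span {(m : 𝓞 K)} = ⊤ :=
    fun C => cfe_exists_mk0_eq_coprime C⁻¹ (s48c_span_m_ne_bot K m)
  choose J hJ hJm using hex
  have hasymp := fun C => s48c_TC_asymp K m χ hχ C (J C) (hJ C) (hJm C)
  choose B hB using hasymp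
  have hzero := s48c_main_term_zero K m χ hχ I₀ hI₀m hI₀ J hJ hJm
  set e : ℝ := 1 - (finrank ℚ K : ℝ)⁻¹ with he
  refine ⟨∑ C : ClassGroup (𝓞 K), |B C|, fun x hx => ?_⟩
  have hx0 : 0 < x := lt_of_lt_of_le one_pos hx
  have hw : (0:ℝ) < torsionOrder K :=
    Nat.cast_pos.mpr (Nat.pos_of_ne_zero (torsionOrder_ne_zero K))
  have hw1 : (1:ℝ) ≤ torsionOrder K := by
    exact_mod_cast Nat.one_le_iff_ne_zero.mpr (torsionOrder_ne_zero K)
  have hwc : (torsionOrder K : ℂ) ≠ 0 := by exact_mod_cast (torsionOrder_ne_zero K)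
  have hnorm : ∀ C, ‖s48c_a m χ ((J C : (Ideal (𝓞 K))⁰) : Ideal (𝓞 K))‖ = 1 := fun C =>
    s48c_a_norm_eq_one m χ ((cft_coprime_iff
      (mem_nonZeroDivisors_iff_ne_zero.mp (J C).2)).mp (hJm C))
  have hane : ∀ C, s48c_a m χ ((J C : (Ideal (𝓞 K))⁰) : Ideal (𝓞 K)) ≠ 0 := fun C h0 => by
    have := hnorm C; rw [h0, norm_zero] at this; exact zero_ne_one this
  -- decomposition into classes
  have hsplit : ∑ I ∈ s48c_idealsLe K x, s48c_a m χ (I : Ideal (𝓞 K)) =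
      ∑ C : ClassGroup (𝓞 K), s48c_TC K m χ C x := by
    unfold s48c_TC s48c_idealsClass
    exact (Finset.sum_fiberwise (s48c_idealsLe K x) (fun I => ClassGroup.mk0 I)
      (fun I => s48c_a m χ (I : Ideal (𝓞 K)))).symm
  -- the main terms add up to zero
  have hmain : ∑ C : ClassGroup (𝓞 K),
      (s48c_a m χ ((J C : (Ideal (𝓞 K))⁰) : Ideal (𝓞 K)) * (torsionOrder K : ℂ))⁻¹ *
        (((s48c_kappa0 K m * x : ℝ) : ℂ) * s48c_S0 K m χ) = 0 := by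
    have : ∀ C : ClassGroup (𝓞 K),
        (s48c_a m χ ((J C : (Ideal (𝓞 K))⁰) : Ideal (𝓞 K)) * (torsionOrder K : ℂ))⁻¹ *
          (((s48c_kappa0 K m * x : ℝ) : ℂ) * s48c_S0 K m χ) =
        (((s48c_kappa0 K m * x : ℝ) : ℂ) * (torsionOrder K : ℂ)⁻¹) *
          (s48c_S0 K m χ * (s48c_a m χ ((J C : (Ideal (𝓞 K))⁰) : Ideal (𝓞 K)))⁻¹) := by
      intro C; rw [mul_inv]; ring
    rw [Finset.sum_congr rfl fun C _ => this C, ← Finset.mul_sum, ← Finset.mul_sum, hzero,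
      mul_zero]
  rw [hsplit, ← sub_zero (∑ C : ClassGroup (𝓞 K), s48c_TC K m χ C x), ← hmain,
    ← Finset.sum_sub_distrib]
  have hterm : ∀ C : ClassGroup (𝓞 K), ‖s48c_TC K m χ C x -
      (s48c_a m χ ((J C : (Ideal (𝓞 K))⁰) : Ideal (𝓞 K)) * (torsionOrder K : ℂ))⁻¹ *
        (((s48c_kappa0 K m * x : ℝ) : ℂ) * s48c_S0 K m χ)‖ ≤ |B C| * x ^ e := by
    intro C
    have h1 := hB C x hx
    set A := s48c_a m χ ((J C : (Ideal (𝓞 K))⁰) : Ideal (𝓞 K)) * (torsionOrder K : ℂ) with hA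
    have hA0 : A ≠ 0 := mul_ne_zero (hane C) hwc
    have hAn : ‖A‖ = torsionOrder K := by
      rw [hA, norm_mul, hnorm C, one_mul, Complex.norm_natCast]
    have h2 : s48c_TC K m χ C x - A⁻¹ * (((s48c_kappa0 K m * x : ℝ) : ℂ) * s48c_S0 K m χ) =
        A⁻¹ * (A * s48c_TC K m χ C x - ((s48c_kappa0 K m * x : ℝ) : ℂ) * s48c_S0 K m χ) := by
      rw [mul_sub, ← mul_assoc A⁻¹ A, inv_mul_cancel₀ hA0, one_mul]
    rw [h2, norm_mul, norm_inv, hAn]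
    have hxe : 0 ≤ x ^ e := Real.rpow_nonneg hx0.le _
    calc (torsionOrder K : ℝ)⁻¹ * _ ≤ 1 * (B C * x ^ e) := by
          apply mul_le_mul (inv_le_one_of_one_le₀ hw1) h1 (norm_nonneg _) zero_le_one
      _ ≤ |B C| * x ^ e := by rw [one_mul]; gcongr; exact le_abs_self _
  calc _ ≤ ∑ C : ClassGroup (𝓞 K), ‖s48c_TC K m χ C x -
      (s48c_a m χ ((J C : (Ideal (𝓞 K))⁰) : Ideal (𝓞 K)) * (torsionOrder K : ℂ))⁻¹ *
        (((s48c_kappa0 K m * x : ℝ) : ℂ) * s48c_S0 K m χ)‖ := norm_sum_le _ _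
    _ ≤ ∑ C : ClassGroup (𝓞 K), |B C| * x ^ e := Finset.sum_le_sum fun C _ => hterm C
    _ = (∑ C : ClassGroup (𝓞 K), |B C|) * x ^ e := by rw [Finset.sum_mul]

end Fermat.Agent.Lib.S48
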