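/-
[CHEB] Chebotarev density theorem, brick A2: a continuous logarithm on `(1, 2]` of a function
which is continuous and nowhere zero on `[1, 2]` is bounded.
-/
import Mathlib

set_option autoImplicit false

namespace Fermat.Agent.Lib.S48

open Complex Set Filter Topology

/-- a continuous function on a preconnected set with `exp (k s) = 1` is constant -/
theorem s48c_const_of_exp_eq_one {S : Set ℝ} (hS : IsPreconnected S) {k : ℝ → ℂ}
    (hk : ContinuousOn k S) (hexp : ∀ s ∈ S, Complex.exp (k s) = 1) {x y : ℝ} (hx : x ∈ S)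
    (hy : y ∈ S) : k x = k y := by
  have hT : IsDiscrete ((AddSubgroup.zmultiples (2 * (Real.pi : ℂ) * I) : AddSubgroup ℂ) : Set ℂ) :=
    isDiscrete_iff_discreteTopology.mpr (NormedSpace.discreteTopology_zmultiples _)
  refine hS.constant_of_mapsTo hT hk ?_ hx hy
  intro s hs
  obtain ⟨n, hn⟩ := Complex.exp_eq_one_iff.mp (hexp s hs)
  rw [SetLike.mem_coe, AddSubgroup.mem_zmultiples_iff]
  exact ⟨n, by rw [hn, zsmul_eq_mul]⟩

theorem s48c_log_bounded {ℓ L : ℝ → ℂ} (hℓ : ContinuousOn ℓ (Ioc 1 2))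
    (hL : ContinuousOn L (Icc 1 2)) (hne : L 1 ≠ 0)
    (hexp : ∀ s ∈ Ioc (1:ℝ) 2, Complex.exp (ℓ s) = L s) :
    ∃ C : ℝ, ∀ s ∈ Ioc (1:ℝ) 2, ‖ℓ s‖ ≤ C := by
  have hL1 : 0 < ‖L 1‖ := norm_pos_iff.mpr hne
  -- a neighbourhood of `1` where `L s / L 1` is close to `1`
  have hcont1 : ContinuousWithinAt L (Icc 1 2) 1 := hL 1 (left_mem_Icc.mpr one_le_two)
  have hev : ∀ᶠ s in 𝓝[Icc 1 2] (1:ℝ), ‖L s - L 1‖ < ‖L 1‖ / 2 := by
    have := (Metric.tendsto_nhds.mp hcont1) (‖L 1‖ / 2) (by positivity)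
    simpa [dist_eq_norm] using this
  obtain ⟨δ₀, hδ₀, hδ₀'⟩ := Metric.mem_nhdsWithin_iff.mp hev
  set δ : ℝ := min (δ₀ / 2) 1 with hδ
  have hδpos : 0 < δ := lt_min (by positivity) one_pos
  have hδ1 : δ ≤ 1 := min_le_right _ _
  have hδlt : δ < δ₀ := lt_of_le_of_lt (min_le_left _ _) (by linarith)
  have hclose : ∀ s ∈ Icc (1:ℝ) (1 + δ), ‖L s / L 1 - 1‖ < 1 / 2 := by
    intro s hs
    have hmem : s ∈ Metric.ball (1:ℝ) δ₀ ∩ Icc 1 2 := by
      refine ⟨?_, hs.1, by linarith [hs.2]⟩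
      rw [Metric.mem_ball, Real.dist_eq, abs_lt]
      constructor <;> linarith [hs.1, hs.2]
    have h1 : ‖L s - L 1‖ < ‖L 1‖ / 2 := hδ₀' hmem
    have h2 : L s / L 1 - 1 = (L s - L 1) / L 1 := by field_simp
    rw [h2, norm_div, div_lt_iff₀ hL1]
    linarith
  -- the auxiliary function
  set φ : ℝ → ℂ := fun s => ℓ s - Complex.log (L s / L 1) with hφ
  have hsub : Ioc (1:ℝ) (1 + δ) ⊆ Ioc 1 2 := fun s hs => ⟨hs.1, by linarith [hs.2]⟩
  have hsub' : Ioc (1:ℝ) (1 + δ) ⊆ Icc 1 2 := fun s hs => ⟨hs.1.le, by linarith [hs.2]⟩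
  have hslit : ∀ s ∈ Icc (1:ℝ) (1 + δ), L s / L 1 ∈ slitPlane := by
    intro s hs
    have h := hclose s hs
    rw [Complex.mem_slitPlane_iff]
    left
    have h3 : |(L s / L 1 - 1).re| ≤ ‖L s / L 1 - 1‖ := Complex.abs_re_le_norm _
    have h4 : (L s / L 1 - 1).re = (L s / L 1).re - 1 := by simp
    rw [h4] at h3
    have := abs_lt.mp (lt_of_le_of_lt h3 h)
    linarith [this.1]
  have hφc : ContinuousOn φ (Ioc 1 (1 + δ)) := by
    refine (hℓ.mono hsub).sub ?_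
    refine ContinuousOn.clog ?_ (fun s hs => hslit s ⟨hs.1.le, hs.2⟩)
    exact (hL.mono hsub').div_const _
  have hexpφ : ∀ s ∈ Ioc (1:ℝ) (1 + δ), Complex.exp (φ s) = L 1 := by
    intro s hs
    have hne' : L s / L 1 ≠ 0 := Complex.slitPlane_ne_zero (hslit s ⟨hs.1.le, hs.2⟩)
    rw [hφ]
    simp only
    rw [Complex.exp_sub, hexp s (hsub hs), Complex.exp_log hne']
    have hLs : L s ≠ 0 := by
      intro h0; rw [h0, zero_div] at hne'; exact hne' rfl
    field_simp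
  have hs₁ : (1 + δ) ∈ Ioc (1:ℝ) (1 + δ) := ⟨by linarith, le_rfl⟩
  have hconst : ∀ s ∈ Ioc (1:ℝ) (1 + δ), φ s = φ (1 + δ) := by
    intro s hs
    have hk : ContinuousOn (fun t => φ t - φ (1 + δ)) (Ioc 1 (1 + δ)) :=
      hφc.sub continuousOn_const
    have := s48c_const_of_exp_eq_one isPreconnected_Ioc hk (fun t ht => by
      rw [Complex.exp_sub, hexpφ t ht, hexpφ _ hs₁, div_self hne]) hs hs₁
    simp only [sub_self] at this
    exact sub_eq_zero.mp this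
  -- bound on `[1 + δ, 2]`
  have hcomp : IsCompact (Icc (1 + δ) 2) := isCompact_Icc
  have hsub2 : Icc (1 + δ) 2 ⊆ Ioc (1:ℝ) 2 := fun s hs => ⟨by linarith [hs.1], hs.2⟩
  obtain ⟨C₁, hC₁⟩ := hcomp.exists_bound_of_continuousOn (hℓ.mono hsub2)
  refine ⟨max C₁ (‖φ (1 + δ)‖ + 1), fun s hs => ?_⟩
  rcases le_or_gt s (1 + δ) with h | h
  · have hs' : s ∈ Ioc (1:ℝ) (1 + δ) := ⟨hs.1, h⟩
    have h1 : ℓ s = φ (1 + δ) + Complex.log (L s / L 1) := by
      rw [← hconst s hs', hφ]; ring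
    have h2 : ‖Complex.log (L s / L 1)‖ ≤ 1 := by
      have hz := hclose s ⟨hs.1.le, h⟩
      have := Complex.norm_log_one_add_half_le_self (z := L s / L 1 - 1) hz.le
      rw [add_sub_cancel] at this
      linarith
    rw [h1]
    exact (norm_add_le _ _).trans ((add_le_add_right h2 _).trans (le_max_right _ _))
  · exact (hC₁ s ⟨h.le, hs.2⟩).trans (le_max_left _ _)

end Fermat.Agent.Lib.S48
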