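/-
[CHEB] Chebotarev density theorem, brick A3: abstract prime sums `S ψ s = ∑_p ψ(p) N(p)^(-s)`
versus logarithms of Euler products.  If the Euler product extends continuously to `[1, 2]`,
then `Re S` is bounded above; if moreover `Re S` is bounded below, then `S` is bounded.
-/
import Fermat.Agent.Lib.S48.ChebLog

set_option autoImplicit false
set_option linter.unusedSectionVars false

namespace Fermat.Agent.Lib.S48

open Complex Set Filter Topology

variable {P : Type*} (N : P → ℝ) (ψ : P → ℂ)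

/-- the term `ψ(p) N(p)^(-s)` -/
noncomputable def s48c_z (s : ℝ) (p : P) : ℂ := ψ p * (((N p) ^ (-s) : ℝ) : ℂ)

/-- the prime sum -/
noncomputable def s48c_S (s : ℝ) : ℂ := ∑' p, s48c_z N ψ s p

/-- the logarithm of the Euler product -/
noncomputable def s48c_ell (s : ℝ) : ℂ := ∑' p, Complex.log ((1 - s48c_z N ψ s p)⁻¹)

variable {N ψ}

section
variable (hN : ∀ p, 2 ≤ N p) (hψ : ∀ p, ‖ψ p‖ ≤ 1)
include hN hψ

theorem s48c_rpow_le_half {s : ℝ} (hs : 1 ≤ s) (p : P) : (N p) ^ (-s) ≤ 1 / 2 := by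
  have h2 := hN p
  have h0 : (0:ℝ) < N p := by linarith
  calc (N p) ^ (-s) ≤ (N p) ^ (-(1:ℝ)) :=
        Real.rpow_le_rpow_of_exponent_le (by linarith) (by linarith)
    _ = (N p)⁻¹ := Real.rpow_neg_one _
    _ ≤ 1 / 2 := by rw [one_div]; exact inv_anti₀ (by norm_num) h2

theorem s48c_norm_z_le (s : ℝ) (p : P) : ‖s48c_z N ψ s p‖ ≤ (N p) ^ (-s) := by
  unfold s48c_z
  have h0 : (0:ℝ) ≤ (N p) ^ (-s) := Real.rpow_nonneg (by linarith [hN p]) _
  rw [norm_mul, Complex.norm_real, Real.norm_eq_abs, abs_of_nonneg h0]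
  calc ‖ψ p‖ * (N p) ^ (-s) ≤ 1 * (N p) ^ (-s) := mul_le_mul_of_nonneg_right (hψ p) h0
    _ = (N p) ^ (-s) := one_mul _

theorem s48c_norm_z_le_half {s : ℝ} (hs : 1 ≤ s) (p : P) : ‖s48c_z N ψ s p‖ ≤ 1 / 2 :=
  (s48c_norm_z_le hN hψ s p).trans (s48c_rpow_le_half hN hψ hs p)

theorem s48c_one_sub_z_mem_slitPlane {s : ℝ} (hs : 1 ≤ s) (p : P) :
    1 - s48c_z N ψ s p ∈ slitPlane := by
  rw [Complex.mem_slitPlane_iff]
  left
  have h1 := s48c_norm_z_le_half hN hψ hs p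
  have h2 : |(s48c_z N ψ s p).re| ≤ ‖s48c_z N ψ s p‖ := Complex.abs_re_le_norm _
  have h3 := abs_le.mp (h2.trans h1)
  simp only [Complex.sub_re, Complex.one_re]
  linarith [h3.2]

theorem s48c_log_inv_eq {s : ℝ} (hs : 1 ≤ s) (p : P) :
    Complex.log ((1 - s48c_z N ψ s p)⁻¹) = -Complex.log (1 - s48c_z N ψ s p) :=
  Complex.log_inv _ (Complex.mem_slitPlane_iff_arg.mp
    (s48c_one_sub_z_mem_slitPlane hN hψ hs p)).1

theorem s48c_norm_log_le {s : ℝ} (hs : 1 ≤ s) (p : P) :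
    ‖Complex.log ((1 - s48c_z N ψ s p)⁻¹)‖ ≤ 3 / 2 * (N p) ^ (-s) := by
  rw [s48c_log_inv_eq hN hψ hs, norm_neg]
  have h1 : ‖-s48c_z N ψ s p‖ ≤ 1 / 2 := by
    rw [norm_neg]; exact s48c_norm_z_le_half hN hψ hs p
  have h2 := Complex.norm_log_one_add_half_le_self h1
  rw [← sub_eq_add_neg, norm_neg] at h2
  exact h2.trans (mul_le_mul_of_nonneg_left (s48c_norm_z_le hN hψ s p) (by norm_num))

theorem s48c_norm_log_sub_le {s : ℝ} (hs : 1 ≤ s) (p : P) :
    ‖Complex.log ((1 - s48c_z N ψ s p)⁻¹) - s48c_z N ψ s p‖ ≤ (N p) ^ (-(2:ℝ)) := by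
  rw [s48c_log_inv_eq hN hψ hs]
  have h1 : ‖-s48c_z N ψ s p‖ < 1 := by
    rw [norm_neg]
    exact lt_of_le_of_lt (s48c_norm_z_le_half hN hψ hs p) (by norm_num)
  have h2 := Complex.norm_log_one_add_sub_self_le h1
  rw [← sub_eq_add_neg, norm_neg] at h2
  have h3 : -Complex.log (1 - s48c_z N ψ s p) - s48c_z N ψ s p =
      -(Complex.log (1 - s48c_z N ψ s p) - -s48c_z N ψ s p) := by ring
  rw [h3, norm_neg]
  refine h2.trans ?_
  have hz := s48c_norm_z_le_half hN hψ hs p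
  have hz0 := norm_nonneg (s48c_z N ψ s p)
  have hinv : (1 - ‖s48c_z N ψ s p‖)⁻¹ ≤ 2 := by
    rw [inv_le_comm₀ (by linarith) (by norm_num)]
    linarith
  have h0 : (0:ℝ) < N p := by linarith [hN p]
  calc ‖s48c_z N ψ s p‖ ^ 2 * (1 - ‖s48c_z N ψ s p‖)⁻¹ / 2
      ≤ ‖s48c_z N ψ s p‖ ^ 2 * 2 / 2 := by gcongr
    _ = ‖s48c_z N ψ s p‖ ^ 2 := by ring
    _ ≤ ((N p) ^ (-s)) ^ 2 := by
        gcongr
        exact s48c_norm_z_le hN hψ s p
    _ = (N p) ^ (-s * 2) := by rw [← Real.rpow_natCast, ← Real.rpow_mul h0.le]; norm_num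
    _ ≤ (N p) ^ (-(2:ℝ)) := Real.rpow_le_rpow_of_exponent_le (by linarith [hN p]) (by linarith)

variable (hsum : ∀ s : ℝ, 1 < s → Summable fun p => (N p) ^ (-s))
include hsum

theorem s48c_summable_z {s : ℝ} (hs : 1 < s) : Summable (s48c_z N ψ s) :=
  Summable.of_norm_bounded (hsum s hs) (s48c_norm_z_le hN hψ s)

theorem s48c_summable_log {s : ℝ} (hs : 1 < s) :
    Summable fun p => Complex.log ((1 - s48c_z N ψ s p)⁻¹) :=
  Summable.of_norm_bounded ((hsum s hs).mul_left (3 / 2)) (s48c_norm_log_le hN hψ hs.le)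

/-- `ℓ - S` is bounded by `∑ N(p)^(-2)` -/
theorem s48c_norm_ell_sub_S_le {s : ℝ} (hs : 1 < s) :
    ‖s48c_ell N ψ s - s48c_S N ψ s‖ ≤ ∑' p, (N p) ^ (-(2:ℝ)) := by
  unfold s48c_ell s48c_S
  rw [← (s48c_summable_log hN hψ hsum hs).tsum_sub (s48c_summable_z hN hψ hsum hs)]
  have h2 := hsum 2 (by norm_num)
  exact tsum_of_norm_bounded h2.hasSum (s48c_norm_log_sub_le hN hψ hs.le)

/-- the exponential of `ℓ` is the Euler product -/
theorem s48c_exp_ell {s : ℝ} (hs : 1 < s) {L : ℂ}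
    (hL : HasProd (fun p => (1 - s48c_z N ψ s p)⁻¹) L) : Complex.exp (s48c_ell N ψ s) = L := by
  unfold s48c_ell
  rw [Complex.cexp_tsum_eq_tprod (fun p => inv_ne_zero
    (Complex.slitPlane_ne_zero (s48c_one_sub_z_mem_slitPlane hN hψ hs.le p)))
    (s48c_summable_log hN hψ hsum hs)]
  exact hL.tprod_eq

theorem s48c_continuous_z (p : P) : Continuous fun s : ℝ => s48c_z N ψ s p := by
  unfold s48c_z
  have h0 : N p ≠ 0 := by linarith [hN p]
  exact continuous_const.mul (Complex.continuous_ofReal.comp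
    ((Real.continuous_const_rpow h0).comp continuous_neg))

/-- `ℓ` is continuous on `(1, ∞)` -/
theorem s48c_continuousOn_ell : ContinuousOn (s48c_ell N ψ) (Ioi 1) := by
  intro s₁ hs₁
  obtain ⟨s₀, hs₀1, hs₀s₁⟩ := exists_between (mem_Ioi.mp hs₁)
  have hcont : ContinuousOn (s48c_ell N ψ) (Ici s₀) := by
    unfold s48c_ell
    refine continuousOn_tsum (u := fun p => 3 / 2 * (N p) ^ (-s₀)) ?_
      ((hsum s₀ hs₀1).mul_left _) ?_
    · intro p s hs
      have hs1 : 1 ≤ s := hs₀1.le.trans hs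
      refine ContinuousAt.continuousWithinAt ?_
      refine ContinuousAt.clog ?_ ?_
      · refine ContinuousAt.inv₀ ?_ (Complex.slitPlane_ne_zero
          (s48c_one_sub_z_mem_slitPlane hN hψ hs1 p))
        exact (continuous_const.sub (s48c_continuous_z hN hψ hsum p)).continuousAt
      · have hmem := s48c_one_sub_z_mem_slitPlane hN hψ hs1 p
        rw [Complex.mem_slitPlane_iff] at hmem ⊢
        left
        rcases hmem with h | h
        · rw [Complex.inv_re]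
          exact div_pos h (Complex.normSq_pos.mpr (Complex.slitPlane_ne_zero
            (s48c_one_sub_z_mem_slitPlane hN hψ hs1 p)))
        · -- impossible branch is fine too: re > 0 always
          have h1 := s48c_norm_z_le_half hN hψ hs1 p
          have h2 : |(s48c_z N ψ s p).re| ≤ ‖s48c_z N ψ s p‖ := Complex.abs_re_le_norm _
          have h3 := abs_le.mp (h2.trans h1)
          have hre : 0 < (1 - s48c_z N ψ s p).re := by
            simp only [Complex.sub_re, Complex.one_re]; linarith [h3.2]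
          rw [Complex.inv_re]
          exact div_pos hre (Complex.normSq_pos.mpr (Complex.slitPlane_ne_zero
            (s48c_one_sub_z_mem_slitPlane hN hψ hs1 p)))
    · intro p s hs
      have hs1 : 1 ≤ s := hs₀1.le.trans hs
      refine (s48c_norm_log_le hN hψ hs1 p).trans ?_
      gcongr
      · linarith [hN p]
      · exact mem_Ici.mp hs
  exact (hcont.continuousAt (Ici_mem_nhds hs₀s₁)).continuousWithinAt

/-- upper bound for `Re S` from a continuous extension of the Euler product -/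
theorem s48c_re_S_le {L : ℝ → ℂ} (hLc : ContinuousOn L (Icc 1 2))
    (hL : ∀ s ∈ Ioc (1:ℝ) 2, HasProd (fun p => (1 - s48c_z N ψ s p)⁻¹) (L s)) :
    ∃ C : ℝ, ∀ s ∈ Ioc (1:ℝ) 2, (s48c_S N ψ s).re ≤ C := by
  obtain ⟨M, hM⟩ := isCompact_Icc.exists_bound_of_continuousOn hLc
  refine ⟨Real.log (max M 1) + ∑' p, (N p) ^ (-(2:ℝ)), fun s hs => ?_⟩
  have h1 := s48c_norm_ell_sub_S_le hN hψ hsum hs.1
  have h2 := s48c_exp_ell hN hψ hsum hs.1 (hL s hs)
  have h3 : ‖L s‖ = Real.exp (s48c_ell N ψ s).re := by rw [← h2, Complex.norm_exp]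
  have h4 : (s48c_ell N ψ s).re ≤ Real.log (max M 1) := by
    have : Real.exp (s48c_ell N ψ s).re ≤ max M 1 := by
      rw [← h3]; exact (hM s ⟨hs.1.le, hs.2⟩).trans (le_max_left _ _)
    calc (s48c_ell N ψ s).re = Real.log (Real.exp (s48c_ell N ψ s).re) := (Real.log_exp _).symm
      _ ≤ Real.log (max M 1) := Real.log_le_log (Real.exp_pos _) this
  have h5 : (s48c_S N ψ s).re - (s48c_ell N ψ s).re ≤ ‖s48c_ell N ψ s - s48c_S N ψ s‖ := by
    rw [← Complex.sub_re, ← norm_neg (s48c_ell N ψ s - s48c_S N ψ s), neg_sub]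
    exact Complex.re_le_norm _
  linarith

/-- boundedness of `S` from a continuous extension of the Euler product and a lower bound
for `Re S` -/
theorem s48c_norm_S_le {L : ℝ → ℂ} (hLc : ContinuousOn L (Icc 1 2))
    (hL : ∀ s ∈ Ioc (1:ℝ) 2, HasProd (fun p => (1 - s48c_z N ψ s p)⁻¹) (L s))
    {C₀ : ℝ} (hlow : ∀ᶠ s in 𝓝[>] (1:ℝ), -C₀ ≤ (s48c_S N ψ s).re) :
    ∃ C : ℝ, ∀ s ∈ Ioc (1:ℝ) 2, ‖s48c_S N ψ s‖ ≤ C := by
  set C₂ : ℝ := ∑' p, (N p) ^ (-(2:ℝ)) with hC₂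
  -- lower bound for `‖L s‖`
  have hIoc : Ioc (1:ℝ) 2 ∈ 𝓝[>] (1:ℝ) := Ioc_mem_nhdsGT (by norm_num)
  have hlowL : ∀ᶠ s in 𝓝[>] (1:ℝ), Real.exp (-C₀ - C₂) ≤ ‖L s‖ := by
    filter_upwards [hlow, hIoc] with s hlows hs
    have h1 := s48c_norm_ell_sub_S_le hN hψ hsum hs.1
    have h2 := s48c_exp_ell hN hψ hsum hs.1 (hL s hs)
    rw [← h2, Complex.norm_exp]
    apply Real.exp_le_exp.mpr
    have h5 : (s48c_ell N ψ s).re - (s48c_S N ψ s).re ≥ -‖s48c_ell N ψ s - s48c_S N ψ s‖ := by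
      rw [← Complex.sub_re]
      have := Complex.abs_re_le_norm (s48c_ell N ψ s - s48c_S N ψ s)
      linarith [neg_abs_le (s48c_ell N ψ s - s48c_S N ψ s).re]
    linarith [hlows]
  -- hence `L 1 ≠ 0`
  have hL1 : L 1 ≠ 0 := by
    have hcl : (1:ℝ) ∈ closure (Ioc (1:ℝ) 2) := by
      rw [closure_Ioc (by norm_num)]; exact left_mem_Icc.mpr one_le_two
    have hsub : Ioc (1:ℝ) 2 ⊆ Icc 1 2 := Ioc_subset_Icc_self
    have hcont : ContinuousWithinAt (fun s => ‖L s‖) (Ioc 1 2) 1 :=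
      ((hLc 1 (left_mem_Icc.mpr one_le_two)).mono hsub).norm
    have hge : Real.exp (-C₀ - C₂) ≤ ‖L 1‖ := by
      have hmem : ∀ᶠ s in 𝓝[Ioc 1 2] (1:ℝ), Real.exp (-C₀ - C₂) ≤ ‖L s‖ := by
        rw [nhdsWithin_Ioc_eq_nhdsGT (by norm_num : (1:ℝ) < 2)]
        exact hlowL
      have hne : (𝓝[Ioc 1 2] (1:ℝ)).NeBot := mem_closure_iff_nhdsWithin_neBot.mp hcl
      exact ge_of_tendsto hcont hmem
    intro h0
    rw [h0, norm_zero] at hge
    exact absurd hge (not_le.mpr (Real.exp_pos _))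
  have hℓc : ContinuousOn (s48c_ell N ψ) (Ioc 1 2) :=
    (s48c_continuousOn_ell hN hψ hsum).mono Ioc_subset_Ioi_self
  obtain ⟨C, hC⟩ := s48c_log_bounded hℓc hLc hL1
    (fun s hs => s48c_exp_ell hN hψ hsum hs.1 (hL s hs))
  refine ⟨C + C₂, fun s hs => ?_⟩
  have h1 := s48c_norm_ell_sub_S_le hN hψ hsum hs.1
  calc ‖s48c_S N ψ s‖ = ‖s48c_ell N ψ s - (s48c_ell N ψ s - s48c_S N ψ s)‖ := by
        rw [sub_sub_cancel]
    _ ≤ ‖s48c_ell N ψ s‖ + ‖s48c_ell N ψ s - s48c_S N ψ s‖ := norm_sub_le _ _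
    _ ≤ C + C₂ := add_le_add (hC s hs) h1

end

end Fermat.Agent.Lib.S48
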