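/-
[CHEB] Chebotarev density theorem, brick AB: the `L`-function `L_K(s, χ ∘ N)` of an even Dirichlet
character `χ` modulo `m` with `χ ∘ N` non trivial: its Euler product over the primes of `K`
extends continuously to `[1, 2]`; consequences for the prime sums `∑_𝔮 χ(N 𝔮) N𝔮^(-s)`.
-/
import Fermat.Agent.Lib.S48.ChebCharBound
import Fermat.Agent.Lib.S48.ChebAbel
import Fermat.Agent.Lib.S48.ChebEuler
import Fermat.Agent.Lib.CFT.ZetaPrime

set_option autoImplicit false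
set_option linter.unusedSectionVars false

open NumberField Module Fermat.Agent.Lib.CFT IsDedekindDomain

namespace Fermat.Agent.Lib.S48

open Ideal Set
open scoped nonZeroDivisors

variable (K : Type*) [Field K] [NumberField K]

open scoped Classical

variable (m : ℕ) [NeZero m] (χ : DirichletCharacter ℂ m)

/-- the norm of a prime, as a real number -/
noncomputable def s48c_Np (𝔮 : HeightOneSpectrum (𝓞 K)) : ℝ := (absNorm 𝔮.asIdeal : ℝ)

/-- the value of the character at a prime -/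
noncomputable def s48c_chi (𝔮 : HeightOneSpectrum (𝓞 K)) : ℂ := s48c_a m χ 𝔮.asIdeal

theorem s48c_two_le_Np (𝔮 : HeightOneSpectrum (𝓞 K)) : 2 ≤ s48c_Np K 𝔮 := by
  unfold s48c_Np
  exact_mod_cast cfi_two_le_absNorm K 𝔮

theorem s48c_norm_chi_le (𝔮 : HeightOneSpectrum (𝓞 K)) : ‖s48c_chi K m χ 𝔮‖ ≤ 1 :=
  s48c_a_norm_le m χ _

theorem s48c_summable_Np (s : ℝ) (hs : 1 < s) : Summable fun 𝔮 => (s48c_Np K 𝔮) ^ (-s) :=
  cfi_primeSum_summable K hs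

/-- the monoid homomorphism `I ↦ χ(N I) N(I)^(-s)` -/
noncomputable def s48c_fhom (s : ℝ) : (Ideal (𝓞 K))⁰ →* ℂ where
  toFun I := s48c_a m χ (I : Ideal (𝓞 K)) * (((absNorm (I : Ideal (𝓞 K)) : ℝ) ^ (-s) : ℝ) : ℂ)
  map_one' := by
    simp [s48c_a]
  map_mul' I J := by
    simp only [Submonoid.coe_mul, s48c_a_mul, map_mul, Nat.cast_mul]
    rw [Real.mul_rpow (Nat.cast_nonneg _) (Nat.cast_nonneg _)]
    push_cast
    ring

theorem s48c_fhom_summable {s : ℝ} (hs : 1 < s) :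
    Summable fun I : (Ideal (𝓞 K))⁰ => ‖s48c_fhom K m χ s I‖ := by
  refine Summable.of_nonneg_of_le (fun _ => norm_nonneg _) (fun I => ?_) (cfi_zeta_summable K hs)
  show ‖s48c_a m χ (I : Ideal (𝓞 K)) * _‖ ≤ _
  have h0 : (0:ℝ) ≤ (absNorm (I : Ideal (𝓞 K)) : ℝ) ^ (-s) :=
    Real.rpow_nonneg (Nat.cast_nonneg _) _
  rw [norm_mul, Complex.norm_real, Real.norm_eq_abs, abs_of_nonneg h0]
  calc _ ≤ 1 * (absNorm (I : Ideal (𝓞 K)) : ℝ) ^ (-s) :=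
        mul_le_mul_of_nonneg_right (s48c_a_norm_le m χ _) h0
    _ = _ := one_mul _

theorem s48c_finite_absNorm_le (k : ℕ) :
    {I : (Ideal (𝓞 K))⁰ | absNorm (I : Ideal (𝓞 K)) ≤ k}.Finite :=
  Ideal.finite_setOfPred_absNorm_le₀ k

theorem s48c_toFinset_eq (k : ℕ) :
    (s48c_finite_absNorm_le K k).toFinset = s48c_idealsLe K ((k : ℕ) : ℝ) := by
  ext I
  rw [Set.Finite.mem_toFinset, s48c_mem_idealsLe, Set.mem_ofPred_eq, Nat.cast_le]

/-- **continuity of the `L`-function at `s = 1`** -/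
theorem s48c_exists_L (hχ : χ.Even) (I₀ : (Ideal (𝓞 K))⁰)
    (hI₀m : (I₀ : Ideal (𝓞 K)) ⊔ span {(m : 𝓞 K)} = ⊤)
    (hI₀ : s48c_a m χ (I₀ : Ideal (𝓞 K)) ≠ 1) :
    ∃ L : ℝ → ℂ, ContinuousOn L (Icc 1 2) ∧ ∀ s ∈ Ioc (1:ℝ) 2,
      HasProd (fun 𝔮 : HeightOneSpectrum (𝓞 K) =>
        (1 - s48c_z (s48c_Np K) (s48c_chi K m χ) s 𝔮)⁻¹) (L s) := by
  obtain ⟨B, hB⟩ := s48c_charSum_bound K m χ hχ I₀ hI₀m hI₀
  set A : ℕ → ℂ := fun k => ∑ I ∈ (s48c_finite_absNorm_le K (k + 1)).toFinset,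
    s48c_a m χ (I : Ideal (𝓞 K)) with hA
  have hn : (1 : ℝ) - (finrank ℚ K : ℝ)⁻¹ < 1 := by
    have : (0:ℝ) < (finrank ℚ K : ℝ)⁻¹ :=
      inv_pos.mpr (Nat.cast_pos.mpr (finrank_pos (R := ℚ) (M := K)))
    linarith
  have hAb : ∀ k : ℕ, ‖A k‖ ≤ B * ((k + 1 : ℕ) : ℝ) ^ (1 - (finrank ℚ K : ℝ)⁻¹) := by
    intro k
    rw [hA]
    simp only
    rw [s48c_toFinset_eq]
    apply hB
    have : 1 ≤ k + 1 := by omega
    exact_mod_cast this
  refine ⟨fun s => ∑' k : ℕ, A k * ((cfb_w s k : ℝ) : ℂ), s48c_abel_continuousOn A hn hAb,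
    fun s hs => ?_⟩
  have hs0 : 0 < s := by linarith [hs.1]
  have h1 := s48c_abel_hasSum (fun I : (Ideal (𝓞 K))⁰ => absNorm (I : Ideal (𝓞 K)))
    (fun I => Nat.one_le_iff_ne_zero.mpr (absNorm_pos_of_nonZeroDivisors I).ne')
    (s48c_finite_absNorm_le K) (fun I => s48c_a m χ (I : Ideal (𝓞 K)))
    (fun I => s48c_a_norm_le m χ _) hs0 (cfi_zeta_summable K hs.1)
  have h2 : (∑' k : ℕ, A k * ((cfb_w s k : ℝ) : ℂ)) = ∑' I, s48c_fhom K m χ s I := h1.tsum_eq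
  simp only
  rw [h2]
  have h3 := cfi_eulerProduct_hasProd' (s48c_fhom K m χ s) (s48c_fhom_summable K m χ hs.1)
  exact h3

end Fermat.Agent.Lib.S48
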