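/-
[CHEB] Chebotarev density theorem, brick C3b: the Dirichlet step, comparison part.  For a subgroup
`H` of the Galois group of `L ∋ ζ_m`, the cyclotomic character `κ̄ : Gal(L/ℚ) → (ℤ/m)ˣ/±1` and a
character `Ψ` of `(ℤ/m)ˣ/±1`, the prime sum `∑_𝔮 χ_Ψ(N𝔮) N𝔮^(-s)` over the primes of `L^H` equals,
up to a bounded error, `|H|⁻¹ ∑_t Ψ(t) Φ_H({γ ∈ H | κ̄ γ = t})(s)`.
-/
import Fermat.Agent.Lib.S48.ChebDirA
import Fermat.Agent.Lib.S48.ChebLK

set_option autoImplicit false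
set_option linter.unusedSectionVars false

namespace Fermat.Agent.Lib.S48

open NumberField IsDedekindDomain Filter Topology Pointwise Fermat.Agent.Lib.S29
  Fermat.Agent.Lib.CFT

/-- `(ℤ/m)ˣ/±1` -/
abbrev s48c_Q (m : ℕ) : Type := (ZMod m)ˣ ⧸ Subgroup.zpowers (-1 : (ZMod m)ˣ)

section chi

variable {m : ℕ} [NeZero m]

/-- the even Dirichlet character attached to a character of `(ℤ/m)ˣ/±1` -/
noncomputable def s48c_chiOf (Ψ : s48c_Q m →* ℂˣ) : DirichletCharacter ℂ m :=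
  MulChar.ofUnitHom (Ψ.comp (QuotientGroup.mk' _))

theorem s48c_chiOf_unit (Ψ : s48c_Q m →* ℂˣ) (u : (ZMod m)ˣ) :
    s48c_chiOf Ψ (u : ZMod m) = ((Ψ (QuotientGroup.mk u) : ℂˣ) : ℂ) := by
  unfold s48c_chiOf
  rw [MulChar.ofUnitHom_coe]
  rfl

theorem s48c_chiOf_even (Ψ : s48c_Q m →* ℂˣ) : (s48c_chiOf Ψ).Even := by
  unfold DirichletCharacter.Even
  have h1 : ((-1 : (ZMod m)ˣ) : ZMod m) = -1 := by simp
  rw [← h1, s48c_chiOf_unit]
  have h2 : (QuotientGroup.mk (-1 : (ZMod m)ˣ) : s48c_Q m) = 1 :=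
    (QuotientGroup.eq_one_iff _).mpr (Subgroup.mem_zpowers _)
  rw [h2, map_one, Units.val_one]

end chi

variable {L : Type*} [Field L] [NumberField L] [IsGalois ℚ L]

section kap

variable {m : ℕ} [NeZero m] {ζ : L} (hζ : IsPrimitiveRoot ζ m)

/-- the cyclotomic character modulo `±1` -/
noncomputable def s48c_kap : Gal(L/ℚ) →* s48c_Q m :=
  (QuotientGroup.mk' _).comp (hζ.autToPow ℚ)

theorem s48c_chiOf_nu (Ψ : s48c_Q m →* ℂˣ) {H : Subgroup Gal(L/ℚ)}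
    {w : HeightOneSpectrum (𝓞 L)} {γ : Gal(L/ℚ)} (h : s48c_IsFrob H w γ)
    (hm : (m : 𝓞 L) ∉ w.asIdeal) :
    s48c_chiOf Ψ ((s29d_nu H w : ℕ) : ZMod m) = ((Ψ (s48c_kap hζ γ) : ℂˣ) : ℂ) := by
  rw [s48c_nu_eq_kappa h hζ hm, s48c_chiOf_unit]
  rfl

end kap

section compare

variable (H : Subgroup Gal(L/ℚ)) {m : ℕ} [NeZero m] {ζ : L} (hζ : IsPrimitiveRoot ζ m)
  (Ψ : s48c_Q m →* ℂˣ)

/-- the common real weight `N(w ∩ L^H)^(-s) |H ∩ D_w| / |H|` -/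
noncomputable def s48c_wt (s : ℝ) (w : HeightOneSpectrum (𝓞 L)) : ℝ :=
  s29d_xu H s w * s29d_stG H w / Nat.card H

theorem s48c_wt_nonneg (s : ℝ) (w : HeightOneSpectrum (𝓞 L)) : 0 ≤ s48c_wt H s w := by
  unfold s48c_wt
  have := s29d_xu_nonneg H s w
  positivity

theorem s48c_wt_le_one {s : ℝ} (hs : 1 ≤ s) (w : HeightOneSpectrum (𝓞 L)) :
    s48c_wt H s w ≤ 1 := by
  unfold s48c_wt
  have h0 := s29d_xu_nonneg H s w
  have h1 := s29d_xu_le_one H hs w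
  have h2 : (s29d_stG H w : ℝ) ≤ Nat.card H := by exact_mod_cast s29d_stG_le H w
  have h3 : (0 : ℝ) < Nat.card H := by exact_mod_cast Nat.card_pos
  rw [div_le_one h3]
  calc s29d_xu H s w * s29d_stG H w ≤ 1 * Nat.card H :=
        mul_le_mul h1 h2 (Nat.cast_nonneg _) zero_le_one
    _ = _ := one_mul _

theorem s48c_wt_summable {s : ℝ} (hs : 1 < s) : Summable (s48c_wt H s) :=
  (s29d_sum_xu H hs).1.div_const _

open Classical in
/-- the Frobenius side -/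
noncomputable def s48c_t1 (s : ℝ) (w : HeightOneSpectrum (𝓞 L)) : ℂ :=
  (if s29d_good w then ((Ψ (s48c_kap hζ (s48c_fr H w)) : ℂˣ) : ℂ) else 0) *
    ((s48c_wt H s w : ℝ) : ℂ)

/-- the norm side -/
noncomputable def s48c_t2 (s : ℝ) (w : HeightOneSpectrum (𝓞 L)) : ℂ :=
  s48c_chiOf Ψ ((s29d_nu H w : ℕ) : ZMod m) * ((s48c_wt H s w : ℝ) : ℂ)

theorem s48c_norm_unit_le (u : ℂˣ) (hu : ∃ n : ℕ, 0 < n ∧ u ^ n = 1) : ‖(u : ℂ)‖ = 1 := by
  obtain ⟨n, hn, h⟩ := hu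
  have : (u : ℂ) ^ n = 1 := by rw [← Units.val_pow_eq_pow_val, h, Units.val_one]
  exact Complex.norm_eq_one_of_pow_eq_one this hn.ne'

theorem s48c_norm_Psi (q : s48c_Q m) : ‖((Ψ q : ℂˣ) : ℂ)‖ = 1 := by
  refine s48c_norm_unit_le _ ⟨Nat.card (s48c_Q m), Nat.card_pos, ?_⟩
  rw [← map_pow, pow_card_eq_one', map_one]

theorem s48c_norm_t1_le (s : ℝ) (w : HeightOneSpectrum (𝓞 L)) :
    ‖s48c_t1 H hζ Ψ s w‖ ≤ s48c_wt H s w := by
  unfold s48c_t1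
  rw [norm_mul, Complex.norm_real, Real.norm_eq_abs, abs_of_nonneg (s48c_wt_nonneg H s w)]
  have h0 := s48c_wt_nonneg H s w
  split_ifs
  · rw [s48c_norm_Psi, one_mul]
  · rw [norm_zero, zero_mul]; exact h0

theorem s48c_norm_t2_le (s : ℝ) (w : HeightOneSpectrum (𝓞 L)) :
    ‖s48c_t2 H Ψ s w‖ ≤ s48c_wt H s w := by
  unfold s48c_t2
  rw [norm_mul, Complex.norm_real, Real.norm_eq_abs, abs_of_nonneg (s48c_wt_nonneg H s w)]
  have h0 := s48c_wt_nonneg H s w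
  calc _ ≤ 1 * s48c_wt H s w :=
        mul_le_mul_of_nonneg_right (DirichletCharacter.norm_le_one _ _) h0
    _ = _ := one_mul _

theorem s48c_t1_eq_t2 (s : ℝ) (w : HeightOneSpectrum (𝓞 L)) (hw : s29d_good w)
    (hm : (m : 𝓞 L) ∉ w.asIdeal) : s48c_t1 H hζ Ψ s w = s48c_t2 H Ψ s w := by
  unfold s48c_t1 s48c_t2
  rw [if_pos hw, s48c_chiOf_nu hζ Ψ (s48c_fr_spec H w) hm]

theorem s48c_over_finite {q : ℕ} (hq : q ≠ 0) :
    {v : HeightOneSpectrum (𝓞 L) | (q : 𝓞 L) ∈ v.asIdeal}.Finite := by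
  have hne : Ideal.span {(q : 𝓞 L)} ≠ 0 := by
    simpa using hq
  refine (Ideal.finite_factors hne).subset fun v hv ↦ ?_
  rw [Set.mem_ofPred_eq, Ideal.dvd_iff_le, Ideal.span_singleton_le_iff_mem]
  exact hv

/-- the exceptional set -/
theorem s48c_exc_finite :
    {w : HeightOneSpectrum (𝓞 L) | ¬ (s29d_good w ∧ (m : 𝓞 L) ∉ w.asIdeal)}.Finite := by
  have h1 := s29d_bad_finite (L := L)
  have h2 := s48c_over_finite (L := L) (NeZero.ne m)
  refine (h1.union h2).subset fun w hw => ?_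
  rw [Set.mem_ofPred_eq, not_and_or, not_not] at hw
  rcases hw with hw | hw
  · exact Or.inl hw
  · exact Or.inr hw

/-- **comparison of the two sides** -/
theorem s48c_t1_t2_close {s : ℝ} (hs : 1 < s) :
    ‖∑' w, s48c_t1 H hζ Ψ s w - ∑' w, s48c_t2 H Ψ s w‖ ≤
      2 * ((s48c_exc_finite (L := L) (m := m)).toFinset.card : ℝ) := by
  have hs1 : Summable (s48c_t1 H hζ Ψ s) :=
    Summable.of_norm_bounded (s48c_wt_summable H hs) (s48c_norm_t1_le H hζ Ψ s)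
  have hs2 : Summable (s48c_t2 H Ψ s) :=
    Summable.of_norm_bounded (s48c_wt_summable H hs) (s48c_norm_t2_le H Ψ s)
  rw [← hs1.tsum_sub hs2, tsum_eq_sum (s := (s48c_exc_finite (L := L) (m := m)).toFinset)]
  · refine (norm_sum_le _ _).trans ?_
    rw [mul_comm, ← nsmul_eq_mul, ← Finset.sum_const]
    refine Finset.sum_le_sum fun w _ => ?_
    refine (norm_sub_le _ _).trans ?_
    have h1 := (s48c_norm_t1_le H hζ Ψ s w).trans (s48c_wt_le_one H hs.le w)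
    have h2 := (s48c_norm_t2_le H Ψ s w).trans (s48c_wt_le_one H hs.le w)
    linarith
  · intro w hw
    rw [Set.Finite.mem_toFinset, Set.mem_ofPred_eq, not_not] at hw
    rw [s48c_t1_eq_t2 H hζ Ψ s w hw.1 hw.2, sub_self]

end compare

end Fermat.Agent.Lib.S48
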