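/-
[CHEB] Chebotarev density theorem, brick C3c: the Dirichlet step, evaluation of both sides of the
comparison: the Frobenius side is a finite combination of the sums `Φ_H`, the norm side is the prime
sum of the fixed field `L^H` twisted by an even Dirichlet character.
-/
import Fermat.Agent.Lib.S48.ChebDirB

set_option autoImplicit false
set_option linter.unusedSectionVars false

namespace Fermat.Agent.Lib.S48

open NumberField IsDedekindDomain Filter Topology Pointwise Fermat.Agent.Lib.S29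
  Fermat.Agent.Lib.CFT

theorem s48c_card_map_mul {G Q : Type*} [Group G] [Group Q] (f : G →* Q) (H : Subgroup G) :
    Nat.card (H.map f) * Nat.card ↥(H ⊓ f.ker) = Nat.card H := by
  set g : ↥H →* Q := f.comp H.subtype with hg
  have h1 : g.range = H.map f := by
    rw [hg, MonoidHom.range_comp, Subgroup.range_subtype]
  have h2 : g.ker = f.ker.subgroupOf H := by
    rw [hg, ← MonoidHom.comap_ker]
    rfl
  have h3 : Nat.card g.ker = Nat.card ↥(H ⊓ f.ker) := by
    rw [h2, ← Subgroup.inf_subgroupOf_left]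
    exact Nat.card_congr (Subgroup.subgroupOfEquivOfLe inf_le_left).toEquiv
  have h4 := Subgroup.card_mul_index g.ker
  rw [Subgroup.index_ker, h1, h3] at h4
  rw [mul_comm]
  exact h4

theorem s48c_sum_subgroup {G : Type*} [Group G] [Fintype G] (A : Subgroup G) [Fintype A]
    {M : Type*} [AddCommMonoid M] (F : G → M) (hF : ∀ t, t ∉ A → F t = 0) :
    ∑ t, F t = ∑ a : A, F a := by
  classical
  rw [← Finset.sum_filter_of_ne (p := fun t => t ∈ A)]
  · exact Finset.sum_subtype _ (fun x => by simp) F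
  · intro t _ ht
    by_contra h
    exact ht (hF t h)

noncomputable instance s48c_fintypeQ (m : ℕ) [NeZero m] : Fintype (s48c_Q m) := Fintype.ofFinite _

variable {L : Type*} [Field L] [NumberField L] [IsGalois ℚ L]

theorem s48c_Phi_eq_zero (H : Subgroup Gal(L/ℚ)) (S : Set Gal(L/ℚ)) (hS : ∀ γ ∈ H, γ ∉ S) (s : ℝ) :
    s48c_Phi H S s = 0 := by
  unfold s48c_Phi
  rw [tsum_congr (fun w => ?_), tsum_zero]
  unfold s48c_phi
  rw [if_neg]
  rintro ⟨-, h⟩
  exact hS _ (s48c_fr_mem H w) h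

section compare

variable (H : Subgroup Gal(L/ℚ)) {m : ℕ} [NeZero m] {ζ : L} (hζ : IsPrimitiveRoot ζ m)
  (Ψ : s48c_Q m →* ℂˣ)

/-- the Frobenius side, evaluated -/
theorem s48c_tsum_t1 {s : ℝ} (hs : 1 < s) :
    ∑' w, s48c_t1 H hζ Ψ s w =
      ∑ t : s48c_Q m, ((Ψ t : ℂˣ) : ℂ) *
        ((s48c_Phi H {γ | γ ∈ H ∧ s48c_kap hζ γ = t} s / Nat.card H : ℝ) : ℂ) := by
  classical
  have hsum : ∀ t : s48c_Q m, Summable fun w => ((Ψ t : ℂˣ) : ℂ) *
      ((s48c_phi H {γ | γ ∈ H ∧ s48c_kap hζ γ = t} s w / Nat.card H : ℝ) : ℂ) := fun t =>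
    (Complex.ofRealCLM.summable ((s48c_phi_summable H _ hs).div_const _)).mul_left _
  have h1 : ∀ t : s48c_Q m, ((Ψ t : ℂˣ) : ℂ) *
      ((s48c_Phi H {γ | γ ∈ H ∧ s48c_kap hζ γ = t} s / Nat.card H : ℝ) : ℂ) =
      ∑' w, ((Ψ t : ℂˣ) : ℂ) *
        ((s48c_phi H {γ | γ ∈ H ∧ s48c_kap hζ γ = t} s w / Nat.card H : ℝ) : ℂ) := by
    intro t
    unfold s48c_Phi
    rw [← tsum_div_const, Complex.ofReal_tsum, tsum_mul_left]
  rw [Finset.sum_congr rfl fun t _ => h1 t, ← Summable.tsum_finsetSum fun t _ => hsum t]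
  refine tsum_congr fun w => ?_
  unfold s48c_t1 s48c_phi s48c_wt
  by_cases hw : s29d_good w
  · rw [if_pos hw, Finset.sum_eq_single (s48c_kap hζ (s48c_fr H w))]
    · rw [if_pos ⟨hw, s48c_fr_mem H w, rfl⟩]
    · intro t _ ht
      rw [if_neg]
      · simp
      · rintro ⟨-, -, h3⟩
        exact ht h3.symm
    · intro h
      exact absurd (Finset.mem_univ _) h
  · rw [if_neg hw, zero_mul]
    symm
    refine Finset.sum_eq_zero fun t _ => ?_
    rw [if_neg (fun h => hw h.1)]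
    simp

/-- the norm side, evaluated -/
theorem s48c_tsum_t2 {s : ℝ} (hs : 1 < s) :
    ∑' w, s48c_t2 H Ψ s w =
      s48c_S (s48c_Np (s29d_E L H)) (s48c_chi (s29d_E L H) m (s48c_chiOf Ψ)) s := by
  have hg : Summable fun 𝔮 : HeightOneSpectrum (𝓞 (s29d_E L H)) =>
      ‖s48c_z (s48c_Np (s29d_E L H)) (s48c_chi (s29d_E L H) m (s48c_chiOf Ψ)) s 𝔮‖ :=
    Summable.of_nonneg_of_le (fun _ => norm_nonneg _)
      (fun 𝔮 => s48c_norm_z_le (s48c_two_le_Np _) (s48c_norm_chi_le _ m _) s 𝔮)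
      (s48c_summable_Np (s29d_E L H) s hs)
  obtain ⟨-, h2⟩ := s48c_tsum_fibre (fun v : HeightOneSpectrum (𝓞 L) ↦ v.under (𝓞 (s29d_E L H)))
    (s29d_under_surjective (s29d_E L H)) (fun v ↦ s29d_stab H v) (Nat.card H) Nat.card_pos
    (fun v ↦ s29d_fibre_card (s29d_E L H) H v)
    (s48c_z (s48c_Np (s29d_E L H)) (s48c_chi (s29d_E L H) m (s48c_chiOf Ψ)) s) hg
  unfold s48c_S
  rw [← h2]
  refine tsum_congr fun w => ?_
  unfold s48c_t2 s48c_wt s48c_z s48c_chi s48c_a s48c_Np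
  rw [s29d_stab_eq, s29d_xu_eq]
  unfold s29d_nu
  push_cast
  ring

end compare

end Fermat.Agent.Lib.S48
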