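/-
[CHEB] Chebotarev density theorem, brick A4: characters of a finite abelian group: orthogonality
relations, and the abstract equidistribution lemma.
-/
import Mathlib

set_option autoImplicit false

namespace Fermat.Agent.Lib.S48

open Filter Topology
open scoped Classical

section orth

variable (A : Type*) [CommGroup A] [Finite A]

noncomputable instance s48c_fintypeChar : Fintype (A →* ℂˣ) := Fintype.ofFinite _

/-- first orthogonality relation -/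
theorem s48c_sum_char (a : A) :
    ∑ ψ : A →* ℂˣ, ((ψ a : ℂˣ) : ℂ) = if a = 1 then (Nat.card A : ℂ) else 0 := by
  split_ifs with ha
  · subst ha
    simp only [map_one, Units.val_one, Finset.sum_const, Finset.card_univ, nsmul_eq_mul, mul_one]
    rw [← Nat.card_eq_fintype_card, CommGroup.card_monoidHom_of_hasEnoughRootsOfUnity A ℂ]
  · obtain ⟨ψ₀, hψ₀⟩ := CommGroup.exists_apply_ne_one_of_hasEnoughRootsOfUnity A ℂ ha
    have h1 : ∑ ψ : A →* ℂˣ, ((ψ a : ℂˣ) : ℂ) =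
        ((ψ₀ a : ℂˣ) : ℂ) * ∑ ψ : A →* ℂˣ, ((ψ a : ℂˣ) : ℂ) := by
      rw [Finset.mul_sum, ← Equiv.sum_comp (Equiv.mulLeft ψ₀)
        (fun ψ : A →* ℂˣ => ((ψ a : ℂˣ) : ℂ))]
      refine Finset.sum_congr rfl fun ψ _ => ?_
      simp [MonoidHom.mul_apply]
    have h2 : (1 - ((ψ₀ a : ℂˣ) : ℂ)) * ∑ ψ : A →* ℂˣ, ((ψ a : ℂˣ) : ℂ) = 0 := by
      rw [sub_mul, one_mul, ← h1, sub_self]
    rcases mul_eq_zero.mp h2 with h | h
    · exfalso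
      apply hψ₀
      have : ((ψ₀ a : ℂˣ) : ℂ) = 1 := (sub_eq_zero.mp h).symm
      exact Units.ext this
    · exact h

/-- second orthogonality relation -/
theorem s48c_sum_char_inv_mul (a b : A) :
    ∑ ψ : A →* ℂˣ, (((ψ a)⁻¹ : ℂˣ) : ℂ) * ((ψ b : ℂˣ) : ℂ) =
      if a = b then (Nat.card A : ℂ) else 0 := by
  have h := s48c_sum_char A (a⁻¹ * b)
  have h2 : (a⁻¹ * b = 1) ↔ a = b := by
    rw [inv_mul_eq_one]
  simp only [h2] at h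
  rw [← h]
  refine Finset.sum_congr rfl fun ψ _ => ?_
  rw [map_mul, map_inv, Units.val_mul]

end orth

section equid

variable {A : Type*} [CommGroup A] [Fintype A]

/-- the character transform -/
noncomputable def s48c_T (D : A → ℝ → ℝ) (ψ : A →* ℂˣ) (s : ℝ) : ℂ :=
  ∑ a : A, ((ψ a : ℂˣ) : ℂ) * ((D a s : ℝ) : ℂ)

/-- **abstract equidistribution lemma** -/
theorem s48c_equid (D : A → ℝ → ℝ)
    (h1 : ∃ C : ℝ, ∀ᶠ s in 𝓝[>] (1:ℝ),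
      |(∑ a : A, D a s) - Real.log (1 / (s - 1))| ≤ C)
    (h2 : ∃ C : ℝ, ∀ᶠ s in 𝓝[>] (1:ℝ),
      |(Nat.card A : ℝ) * D 1 s - Real.log (1 / (s - 1))| ≤ C)
    (h3 : ∀ ψ : A →* ℂˣ, ψ ≠ 1 → ∃ C : ℝ, ∀ᶠ s in 𝓝[>] (1:ℝ), (s48c_T D ψ s).re ≤ C)
    (h4 : ∀ ψ : A →* ℂˣ, ψ ≠ 1 → (∃ C₀ : ℝ, ∀ᶠ s in 𝓝[>] (1:ℝ), -C₀ ≤ (s48c_T D ψ s).re) →
      ∃ C : ℝ, ∀ᶠ s in 𝓝[>] (1:ℝ), ‖s48c_T D ψ s‖ ≤ C) (a : A) :
    ∃ C : ℝ, ∀ᶠ s in 𝓝[>] (1:ℝ),
      |(Nat.card A : ℝ) * D a s - Real.log (1 / (s - 1))| ≤ C := by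
  obtain ⟨C₁, hC₁⟩ := h1
  obtain ⟨C₂, hC₂⟩ := h2
  choose! C₃ hC₃ using h3
  -- the trivial character
  have hT1 : ∀ s, s48c_T D 1 s = ((∑ a : A, D a s : ℝ) : ℂ) := by
    intro s
    unfold s48c_T
    push_cast
    refine Finset.sum_congr rfl fun a _ => ?_
    simp
  -- sum over all characters
  have hTsum : ∀ s, ∑ ψ : A →* ℂˣ, s48c_T D ψ s = (((Nat.card A : ℝ) * D 1 s : ℝ) : ℂ) := by
    intro s
    unfold s48c_T
    rw [Finset.sum_comm]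
    simp_rw [← Finset.sum_mul, s48c_sum_char A]
    rw [Finset.sum_eq_single 1]
    · simp
    · intro b _ hb; simp [hb]
    · intro h; exact absurd (Finset.mem_univ _) h
  -- inversion formula
  have hinv : ∀ (b : A) (s : ℝ), ∑ ψ : A →* ℂˣ, (((ψ b)⁻¹ : ℂˣ) : ℂ) * s48c_T D ψ s =
      (((Nat.card A : ℝ) * D b s : ℝ) : ℂ) := by
    intro b s
    unfold s48c_T
    simp_rw [Finset.mul_sum, ← mul_assoc]
    rw [Finset.sum_comm]
    simp_rw [← Finset.sum_mul, s48c_sum_char_inv_mul A]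
    rw [Finset.sum_eq_single b]
    · simp
    · intro c _ hc; simp [Ne.symm hc]
    · intro h; exact absurd (Finset.mem_univ _) h
  -- lower bounds for the non trivial characters
  have hlow : ∀ ψ₀ : A →* ℂˣ, ψ₀ ≠ 1 →
      ∃ C₀ : ℝ, ∀ᶠ s in 𝓝[>] (1:ℝ), -C₀ ≤ (s48c_T D ψ₀ s).re := by
    intro ψ₀ hψ₀
    refine ⟨C₁ + C₂ + ∑ ψ ∈ (Finset.univ.erase (1 : A →* ℂˣ)).erase ψ₀, C₃ ψ, ?_⟩
    have hall : ∀ᶠ s in 𝓝[>] (1:ℝ), ∀ ψ ∈ (Finset.univ.erase (1 : A →* ℂˣ)).erase ψ₀,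
        (s48c_T D ψ s).re ≤ C₃ ψ := by
      rw [Filter.eventually_all_finset]
      intro ψ hψ
      exact hC₃ ψ (Finset.ne_of_mem_erase (Finset.mem_of_mem_erase hψ))
    filter_upwards [hC₁, hC₂, hall] with s hs1 hs2 hs3
    have e1 : ∑ ψ : A →* ℂˣ, s48c_T D ψ s = s48c_T D 1 s + (s48c_T D ψ₀ s +
        ∑ ψ ∈ (Finset.univ.erase (1 : A →* ℂˣ)).erase ψ₀, s48c_T D ψ s) := by
      rw [← Finset.add_sum_erase Finset.univ _ (Finset.mem_univ (1 : A →* ℂˣ)),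
        ← Finset.add_sum_erase (Finset.univ.erase (1 : A →* ℂˣ)) _
          (Finset.mem_erase.mpr ⟨hψ₀, Finset.mem_univ ψ₀⟩)]
    have e2 := congrArg Complex.re e1
    rw [hTsum, hT1, Complex.add_re, Complex.add_re, Complex.ofReal_re, Complex.ofReal_re,
      Complex.re_sum] at e2
    have e3 : ∑ ψ ∈ (Finset.univ.erase (1 : A →* ℂˣ)).erase ψ₀, (s48c_T D ψ s).re ≤
        ∑ ψ ∈ (Finset.univ.erase (1 : A →* ℂˣ)).erase ψ₀, C₃ ψ := Finset.sum_le_sum hs3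
    have := abs_le.mp hs1
    have := abs_le.mp hs2
    linarith
  -- hence bounds
  have hbd : ∀ ψ : A →* ℂˣ, ψ ≠ 1 → ∃ C : ℝ, ∀ᶠ s in 𝓝[>] (1:ℝ), ‖s48c_T D ψ s‖ ≤ C :=
    fun ψ hψ => h4 ψ hψ (hlow ψ hψ)
  choose! C₄ hC₄ using hbd
  refine ⟨C₁ + ∑ ψ ∈ Finset.univ.erase (1 : A →* ℂˣ), C₄ ψ, ?_⟩
  have hall : ∀ᶠ s in 𝓝[>] (1:ℝ), ∀ ψ ∈ Finset.univ.erase (1 : A →* ℂˣ),
      ‖s48c_T D ψ s‖ ≤ C₄ ψ := by
    rw [Filter.eventually_all_finset]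
    intro ψ hψ
    exact hC₄ ψ (Finset.ne_of_mem_erase hψ)
  filter_upwards [hC₁, hall] with s hs1 hs3
  have e1 := hinv a s
  rw [← Finset.add_sum_erase Finset.univ _ (Finset.mem_univ (1 : A →* ℂˣ))] at e1
  simp only [MonoidHom.one_apply, inv_one, Units.val_one, one_mul] at e1
  rw [hT1] at e1
  have e2 : (((Nat.card A : ℝ) * D a s - Real.log (1 / (s - 1)) : ℝ) : ℂ) =
      (((∑ b : A, D b s) - Real.log (1 / (s - 1)) : ℝ) : ℂ) +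
        ∑ ψ ∈ Finset.univ.erase (1 : A →* ℂˣ), (((ψ a)⁻¹ : ℂˣ) : ℂ) * s48c_T D ψ s := by
    rw [Complex.ofReal_sub, ← e1, Complex.ofReal_sub]; ring
  have e3 : |(Nat.card A : ℝ) * D a s - Real.log (1 / (s - 1))| =
      ‖(((Nat.card A : ℝ) * D a s - Real.log (1 / (s - 1)) : ℝ) : ℂ)‖ := by
    rw [Complex.norm_real, Real.norm_eq_abs]
  rw [e3, e2]
  refine (norm_add_le _ _).trans (add_le_add ?_ ?_)
  · rw [Complex.norm_real, Real.norm_eq_abs]; exact hs1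
  · refine (norm_sum_le _ _).trans (Finset.sum_le_sum fun ψ hψ => ?_)
    rw [norm_mul]
    have hu : ‖(((ψ a)⁻¹ : ℂˣ) : ℂ)‖ = 1 := by
      have hpow : (((ψ a)⁻¹ : ℂˣ) : ℂ) ^ Fintype.card A = 1 := by
        rw [← Units.val_pow_eq_pow_val, ← map_inv, ← map_pow, pow_card_eq_one, map_one,
          Units.val_one]
      exact Complex.norm_eq_one_of_pow_eq_one hpow Fintype.card_ne_zero
    rw [hu, one_mul]
    exact hs3 ψ hψ

end equid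

end Fermat.Agent.Lib.S48
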