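/-
[CHEB] Chebotarev density theorem, brick C3d: the Dirichlet step.  For a subgroup `H` of the Galois
group of `L ∋ ζ_m` and `γ₀ ∈ H`, the good primes `w` of `L` whose Frobenius relative to `L^H` has
the same cyclotomic character modulo `±1` as `γ₀` satisfy
`Φ_H({γ ∈ H | κ̄ γ = κ̄ γ₀})(s) = |H ∩ ker κ̄| log (1/(s-1)) + O(1)`.
-/
import Fermat.Agent.Lib.S48.ChebDirC
import Fermat.Agent.Lib.S48.ChebGroup

set_option autoImplicit false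
set_option linter.unusedSectionVars false

namespace Fermat.Agent.Lib.S48

open NumberField IsDedekindDomain Filter Topology Pointwise Fermat.Agent.Lib.S29
  Fermat.Agent.Lib.CFT

variable {L : Type*} [Field L] [NumberField L] [IsGalois ℚ L]

variable (H : Subgroup Gal(L/ℚ)) {m : ℕ} [NeZero m] {ζ : L} (hζ : IsPrimitiveRoot ζ m)
  (Ψ : s48c_Q m →* ℂˣ)

/-- a non trivial character is non trivial on some Frobenius -/
theorem s48c_exists_witness (hΨ : ∃ γ ∈ H, Ψ (s48c_kap hζ γ) ≠ 1) :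
    ∃ w : HeightOneSpectrum (𝓞 L), s29d_good w ∧ (m : 𝓞 L) ∉ w.asIdeal ∧
      Ψ (s48c_kap hζ (s48c_fr H w)) ≠ 1 := by
  classical
  by_contra hcon
  push Not at hcon
  obtain ⟨γ, hγH, hγ⟩ := hΨ
  set H' : Subgroup Gal(L/ℚ) := H ⊓ (Ψ.comp (s48c_kap hζ)).ker with hH'
  have hle : H' ≤ H := inf_le_left
  have hlt : Nat.card H' < Nat.card H := by
    by_contra hge
    rw [not_lt] at hge
    have := Subgroup.eq_of_le_of_card_ge hle hge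
    have hγ' : γ ∈ H' := by rw [this]; exact hγH
    exact hγ (MonoidHom.mem_ker.mp (Subgroup.mem_inf.mp hγ').2)
  obtain ⟨C₁, hC₁⟩ := s48c_Phi_subgroup_asymp H H le_rfl
  obtain ⟨C₂, hC₂⟩ := s48c_Phi_subgroup_asymp H H' hle
  set B := (s48c_exc_finite (L := L) (m := m)).toFinset with hB
  have key : ∀ s : ℝ, 1 < s → s48c_Phi H (H : Set Gal(L/ℚ)) s - s48c_Phi H (H' : Set Gal(L/ℚ)) s
      ≤ Nat.card H * B.card := by
    intro s hs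
    unfold s48c_Phi
    rw [← (s48c_phi_summable H _ hs).tsum_sub (s48c_phi_summable H _ hs),
      tsum_eq_sum (s := B)]
    · have hconst : ∑ _w ∈ B, (Nat.card H : ℝ) = Nat.card H * B.card := by
        rw [Finset.sum_const, nsmul_eq_mul, mul_comm]
      rw [← hconst]
      refine Finset.sum_le_sum fun w _ => ?_
      have h1 := s48c_phi_le H (H : Set Gal(L/ℚ)) s w
      have h2 := s48c_phi_nonneg H (H' : Set Gal(L/ℚ)) s w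
      have h3 : s29d_xu H s w * s29d_stG H w ≤ 1 * Nat.card H :=
        mul_le_mul (s29d_xu_le_one H hs.le w) (by exact_mod_cast s29d_stG_le H w)
          (Nat.cast_nonneg _) zero_le_one
      linarith
    · intro w hw
      rw [hB, Set.Finite.mem_toFinset, Set.mem_ofPred_eq, not_not] at hw
      have h1 : s48c_fr H w ∈ H' :=
        Subgroup.mem_inf.mpr ⟨s48c_fr_mem H w, MonoidHom.mem_ker.mpr (hcon w hw.1 hw.2)⟩
      unfold s48c_phi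
      rw [if_pos ⟨hw.1, s48c_fr_mem H w⟩, if_pos ⟨hw.1, h1⟩, sub_self]
  have hlog := s29d_tendsto_log.eventually_gt_atTop (max (C₁ + C₂ + Nat.card H * B.card) 0)
  obtain ⟨s, ⟨⟨hs1, hs2⟩, hs3⟩, hs4⟩ := (((hC₁.and hC₂).and hlog).and self_mem_nhdsWithin).exists
  have hs4' : (1 : ℝ) < s := hs4
  have hk := key s hs4'
  have hl1 : C₁ + C₂ + Nat.card H * B.card < Real.log (1 / (s - 1)) :=
    lt_of_le_of_lt (le_max_left _ _) hs3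
  have hl0 : 0 < Real.log (1 / (s - 1)) := lt_of_le_of_lt (le_max_right _ _) hs3
  have h1 := (abs_le.mp hs1).1
  have h2 := (abs_le.mp hs2).2
  have h3 : (Nat.card H' : ℝ) + 1 ≤ Nat.card H := by exact_mod_cast hlt
  nlinarith

/-- the analytic input of the Dirichlet step -/
theorem s48c_dir_analytic (hne : ∃ γ ∈ H, Ψ (s48c_kap hζ γ) ≠ 1) :
    ∃ C₁ C₂ : ℝ,
      (∀ s ∈ Set.Ioc (1:ℝ) 2, (∑' w, s48c_t2 H Ψ s w).re ≤ C₁) ∧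
      ((∃ C₀ : ℝ, ∀ᶠ s in 𝓝[>] (1:ℝ), -C₀ ≤ (∑' w, s48c_t2 H Ψ s w).re) →
        ∀ s ∈ Set.Ioc (1:ℝ) 2, ‖∑' w, s48c_t2 H Ψ s w‖ ≤ C₂) := by
  obtain ⟨w, hw, hmw, hΨw⟩ := s48c_exists_witness H hζ Ψ hne
  have hI₀mem : (w.under (𝓞 (s29d_E L H))).asIdeal ∈ nonZeroDivisors (Ideal (𝓞 (s29d_E L H))) :=
    mem_nonZeroDivisors_of_ne_zero (w.under (𝓞 (s29d_E L H))).ne_bot
  have hI₀m : (w.under (𝓞 (s29d_E L H))).asIdeal ⊔ Ideal.span {(m : 𝓞 (s29d_E L H))} = ⊤ := by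
    by_contra hne'
    have hmax : (w.under (𝓞 (s29d_E L H))).asIdeal.IsMaximal :=
      (w.under (𝓞 (s29d_E L H))).isMaximal
    have heq := hmax.eq_of_le hne' le_sup_left
    have hmem : (m : 𝓞 (s29d_E L H)) ∈ (w.under (𝓞 (s29d_E L H))).asIdeal := by
      rw [heq]
      exact Ideal.mem_sup_right (Ideal.mem_span_singleton_self _)
    have hmem' : algebraMap (𝓞 (s29d_E L H)) (𝓞 L) (m : 𝓞 (s29d_E L H)) ∈ w.asIdeal := hmem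
    rw [map_natCast] at hmem'
    exact hmw hmem'
  have hI₀ : s48c_a m (s48c_chiOf Ψ) (w.under (𝓞 (s29d_E L H))).asIdeal ≠ 1 := by
    have h1 : s48c_a m (s48c_chiOf Ψ) (w.under (𝓞 (s29d_E L H))).asIdeal =
        s48c_chiOf Ψ ((s29d_nu H w : ℕ) : ZMod m) := rfl
    rw [h1, s48c_chiOf_nu hζ Ψ (s48c_fr_spec H w) hmw]
    intro h
    exact hΨw (Units.ext h)
  obtain ⟨Lf, hLc, hL⟩ := s48c_exists_L (s29d_E L H) m (s48c_chiOf Ψ) (s48c_chiOf_even Ψ)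
    ⟨_, hI₀mem⟩ hI₀m hI₀
  obtain ⟨C₁, hC₁⟩ := s48c_re_S_le (s48c_two_le_Np (s29d_E L H))
    (s48c_norm_chi_le (s29d_E L H) m (s48c_chiOf Ψ)) (s48c_summable_Np (s29d_E L H)) hLc hL
  have hS : ∀ s ∈ Set.Ioc (1:ℝ) 2, ∑' w, s48c_t2 H Ψ s w =
      s48c_S (s48c_Np (s29d_E L H)) (s48c_chi (s29d_E L H) m (s48c_chiOf Ψ)) s :=
    fun s hs => s48c_tsum_t2 H Ψ hs.1
  by_cases hlow : ∃ C₀ : ℝ, ∀ᶠ s in 𝓝[>] (1:ℝ), -C₀ ≤ (∑' w, s48c_t2 H Ψ s w).re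
  · obtain ⟨C₀, hC₀⟩ := hlow
    have hlow' : ∀ᶠ s in 𝓝[>] (1:ℝ), -C₀ ≤
        (s48c_S (s48c_Np (s29d_E L H)) (s48c_chi (s29d_E L H) m (s48c_chiOf Ψ)) s).re := by
      have hmem : Set.Ioc (1:ℝ) 2 ∈ 𝓝[>] (1:ℝ) := Ioc_mem_nhdsGT (by norm_num)
      filter_upwards [hC₀, hmem] with s hs1 hs2
      rw [← hS s hs2]
      exact hs1
    obtain ⟨C₂, hC₂⟩ := s48c_norm_S_le (s48c_two_le_Np (s29d_E L H))
      (s48c_norm_chi_le (s29d_E L H) m (s48c_chiOf Ψ)) (s48c_summable_Np (s29d_E L H)) hLc hL hlow'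
    refine ⟨C₁, C₂, fun s hs => ?_, fun _ s hs => ?_⟩
    · rw [hS s hs]; exact hC₁ s hs
    · rw [hS s hs]; exact hC₂ s hs
  · refine ⟨C₁, 0, fun s hs => ?_, fun h => absurd h hlow⟩
    rw [hS s hs]; exact hC₁ s hs

set_option maxHeartbeats 800000 in
/-- **the Dirichlet step** -/
theorem s48c_dirichlet (γ₀ : Gal(L/ℚ)) (hγ₀ : γ₀ ∈ H) :
    ∃ C : ℝ, ∀ᶠ s in 𝓝[>] (1:ℝ),
      |s48c_Phi H {γ | γ ∈ H ∧ s48c_kap hζ γ = s48c_kap hζ γ₀} s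
        - Nat.card ↥(H ⊓ (s48c_kap hζ).ker) * Real.log (1 / (s - 1))| ≤ C := by
  classical
  obtain ⟨A, hA⟩ : ∃ A : Subgroup (s48c_Q m), A = H.map (s48c_kap hζ) := ⟨_, rfl⟩
  obtain ⟨instA⟩ : Nonempty (Fintype A) := ⟨Fintype.ofFinite _⟩
  obtain ⟨D, hD⟩ : ∃ D : A → ℝ → ℝ, ∀ a s, D a s =
    s48c_Phi H {γ | γ ∈ H ∧ s48c_kap hζ γ = (a : s48c_Q m)} s / Nat.card H := ⟨_, fun _ _ => rfl⟩
  have hcH : (0 : ℝ) < Nat.card H := by exact_mod_cast Nat.card_pos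
  have hcards := s48c_card_map_mul (s48c_kap hζ) H
  rw [← hA] at hcards
  have hcA : (0 : ℝ) < Nat.card A := by exact_mod_cast Nat.card_pos
  have hcards' : (Nat.card A : ℝ) * Nat.card ↥(H ⊓ (s48c_kap hζ).ker) = Nat.card H := by
    exact_mod_cast hcards
  have hzero : ∀ (t : s48c_Q m) (s : ℝ), t ∉ A →
      s48c_Phi H {γ | γ ∈ H ∧ s48c_kap hζ γ = t} s = 0 := by
    intro t s ht
    refine s48c_Phi_eq_zero H _ (fun γ hγ h => ht ?_) s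
    rw [← h.2, hA]
    exact Subgroup.mem_map_of_mem _ hγ
  -- (h1)
  have hsumD : ∀ s : ℝ, 1 < s → ∑ a : A, D a s = s48c_Phi H (H : Set Gal(L/ℚ)) s / Nat.card H := by
    intro s hs
    simp only [hD]
    rw [← Finset.sum_div, ← s48c_Phi_fibre H (s48c_kap hζ) (H : Set Gal(L/ℚ)) hs]
    congr 1
    symm
    exact s48c_sum_subgroup A (fun t => s48c_Phi H {γ | γ ∈ (H : Set Gal(L/ℚ)) ∧
      s48c_kap hζ γ = t} s) (fun t ht => hzero t s ht)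
  have h1 : ∃ C : ℝ, ∀ᶠ s in 𝓝[>] (1:ℝ), |(∑ a : A, D a s) - Real.log (1 / (s - 1))| ≤ C := by
    obtain ⟨C, hC⟩ := s48c_Phi_subgroup_asymp H H le_rfl
    refine ⟨C / Nat.card H, ?_⟩
    filter_upwards [hC, self_mem_nhdsWithin] with s hs hs1
    rw [hsumD s hs1]
    have : s48c_Phi H (H : Set Gal(L/ℚ)) s / Nat.card H - Real.log (1 / (s - 1)) =
        (s48c_Phi H (H : Set Gal(L/ℚ)) s - Nat.card H * Real.log (1 / (s - 1))) / Nat.card H := by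
      field_simp
    rw [this, abs_div, abs_of_pos hcH]
    exact div_le_div_of_nonneg_right hs hcH.le
  -- (h2)
  have h2 : ∃ C : ℝ, ∀ᶠ s in 𝓝[>] (1:ℝ),
      |(Nat.card A : ℝ) * D 1 s - Real.log (1 / (s - 1))| ≤ C := by
    obtain ⟨C, hC⟩ := s48c_Phi_subgroup_asymp H (H ⊓ (s48c_kap hζ).ker) inf_le_left
    refine ⟨Nat.card A * C / Nat.card H, ?_⟩
    filter_upwards [hC] with s hs
    have e1 : D 1 s = s48c_Phi H ((H ⊓ (s48c_kap hζ).ker : Subgroup Gal(L/ℚ)) : Set Gal(L/ℚ)) s /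
        Nat.card H := by
      rw [hD]
      rw [s48c_Phi_congr H (S' := ((H ⊓ (s48c_kap hζ).ker : Subgroup Gal(L/ℚ)) :
        Set Gal(L/ℚ))) (fun γ hγ => ?_) s]
      simp [MonoidHom.mem_ker, hγ]
    rw [e1]
    have : (Nat.card A : ℝ) * (s48c_Phi H ((H ⊓ (s48c_kap hζ).ker : Subgroup Gal(L/ℚ)) :
        Set Gal(L/ℚ)) s / Nat.card H) - Real.log (1 / (s - 1)) =
        Nat.card A * (s48c_Phi H ((H ⊓ (s48c_kap hζ).ker : Subgroup Gal(L/ℚ)) :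
          Set Gal(L/ℚ)) s - Nat.card ↥(H ⊓ (s48c_kap hζ).ker) * Real.log (1 / (s - 1))) /
          Nat.card H := by
      rw [mul_sub, ← mul_assoc, hcards']
      field_simp
    rw [this, abs_div, abs_mul, abs_of_pos hcH, abs_of_pos hcA]
    exact div_le_div_of_nonneg_right (mul_le_mul_of_nonneg_left hs hcA.le) hcH.le
  -- the transform of `D` as a series
  have hT : ∀ (ψ : A →* ℂˣ) (Ψ : s48c_Q m →* ℂˣ), (∀ a : A, Ψ a = ψ a) → ∀ s : ℝ, 1 < s →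
      s48c_T D ψ s = ∑' w, s48c_t1 H hζ Ψ s w := by
    intro ψ Ψ hΨ s hs
    rw [s48c_tsum_t1 H hζ Ψ hs]
    unfold s48c_T
    rw [s48c_sum_subgroup A (fun t => ((Ψ t : ℂˣ) : ℂ) *
      ((s48c_Phi H {γ | γ ∈ H ∧ s48c_kap hζ γ = t} s / Nat.card H : ℝ) : ℂ))
      (fun t ht => by rw [hzero t s ht]; simp)]
    refine Finset.sum_congr rfl fun a _ => ?_
    rw [hΨ a, hD]
  -- the analytic input
  have hana : ∀ ψ : A →* ℂˣ, ψ ≠ 1 → ∃ (Ψ : s48c_Q m →* ℂˣ) (C₁ C₂ : ℝ),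
      (∀ a : A, Ψ a = ψ a) ∧
      (∀ s ∈ Set.Ioc (1:ℝ) 2, (∑' w, s48c_t2 H Ψ s w).re ≤ C₁) ∧
      ((∃ C₀ : ℝ, ∀ᶠ s in 𝓝[>] (1:ℝ), -C₀ ≤ (∑' w, s48c_t2 H Ψ s w).re) →
        ∀ s ∈ Set.Ioc (1:ℝ) 2, ‖∑' w, s48c_t2 H Ψ s w‖ ≤ C₂) := by
    intro ψ hψ
    obtain ⟨Ψ, hΨ⟩ := s48c_exists_extend (G := s48c_Q m) A ψ
    have hne : ∃ γ ∈ H, Ψ (s48c_kap hζ γ) ≠ 1 := by
      by_contra hcon
      push Not at hcon
      apply hψ
      ext a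
      have ha2 : (a : s48c_Q m) ∈ H.map (s48c_kap hζ) := by
        rw [← hA]; exact a.2
      obtain ⟨γ, hγ, hγa⟩ := Subgroup.mem_map.mp ha2
      rw [← hΨ a, ← hγa, hcon γ hγ]
      simp
    obtain ⟨C₁, C₂, h1, h2⟩ := s48c_dir_analytic H hζ Ψ hne
    exact ⟨Ψ, C₁, C₂, hΨ, h1, h2⟩
  have hmemIoc : Set.Ioc (1:ℝ) 2 ∈ 𝓝[>] (1:ℝ) := Ioc_mem_nhdsGT (by norm_num)
  set E : ℝ := 2 * ((s48c_exc_finite (L := L) (m := m)).toFinset.card : ℝ) with hE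
  have hclose : ∀ (ψ : A →* ℂˣ) (Ψ : s48c_Q m →* ℂˣ), (∀ a : A, Ψ a = ψ a) → ∀ s : ℝ, 1 < s →
      ‖s48c_T D ψ s - ∑' w, s48c_t2 H Ψ s w‖ ≤ E := by
    intro ψ Ψ hΨ s hs
    rw [hT ψ Ψ hΨ s hs]
    exact s48c_t1_t2_close H hζ Ψ hs
  -- (h3)
  have h3 : ∀ ψ : A →* ℂˣ, ψ ≠ 1 → ∃ C : ℝ, ∀ᶠ s in 𝓝[>] (1:ℝ), (s48c_T D ψ s).re ≤ C := by
    intro ψ hψ
    obtain ⟨Ψ, C₁, C₂, hΨ, hre, -⟩ := hana ψ hψ
    refine ⟨C₁ + E, ?_⟩
    filter_upwards [hmemIoc] with s hs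
    have h := hclose ψ Ψ hΨ s hs.1
    have h' := (Complex.abs_re_le_norm _).trans h
    rw [Complex.sub_re] at h'
    have := (abs_le.mp h').2
    have := hre s hs
    linarith
  -- (h4)
  have h4 : ∀ ψ : A →* ℂˣ, ψ ≠ 1 →
      (∃ C₀ : ℝ, ∀ᶠ s in 𝓝[>] (1:ℝ), -C₀ ≤ (s48c_T D ψ s).re) →
      ∃ C : ℝ, ∀ᶠ s in 𝓝[>] (1:ℝ), ‖s48c_T D ψ s‖ ≤ C := by
    intro ψ hψ ⟨C₀, hC₀⟩
    obtain ⟨Ψ, C₁, C₂, hΨ, -, hnorm⟩ := hana ψ hψ
    have hlow : ∃ C₀' : ℝ, ∀ᶠ s in 𝓝[>] (1:ℝ), -C₀' ≤ (∑' w, s48c_t2 H Ψ s w).re := by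
      refine ⟨C₀ + E, ?_⟩
      filter_upwards [hC₀, hmemIoc] with s hs1 hs2
      have h := hclose ψ Ψ hΨ s hs2.1
      have h' := (Complex.abs_re_le_norm _).trans h
      rw [Complex.sub_re] at h'
      have := (abs_le.mp h').2
      linarith
    refine ⟨C₂ + E, ?_⟩
    filter_upwards [hmemIoc] with s hs
    have h := hclose ψ Ψ hΨ s hs.1
    have h5 := hnorm hlow s hs
    calc ‖s48c_T D ψ s‖ = ‖(s48c_T D ψ s - ∑' w, s48c_t2 H Ψ s w) + ∑' w, s48c_t2 H Ψ s w‖ := by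
          rw [sub_add_cancel]
      _ ≤ ‖s48c_T D ψ s - ∑' w, s48c_t2 H Ψ s w‖ + ‖∑' w, s48c_t2 H Ψ s w‖ := norm_add_le _ _
      _ ≤ E + C₂ := add_le_add h h5
      _ = C₂ + E := add_comm _ _
  -- conclusion
  have hmem₀ : s48c_kap hζ γ₀ ∈ A := by
    rw [hA]
    exact Subgroup.mem_map_of_mem _ hγ₀
  obtain ⟨C, hC⟩ := s48c_equid D h1 h2 h3 h4 ⟨s48c_kap hζ γ₀, hmem₀⟩
  refine ⟨Nat.card ↥(H ⊓ (s48c_kap hζ).ker) * C, ?_⟩
  filter_upwards [hC] with s hs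
  have hc1 : (0 : ℝ) < Nat.card ↥(H ⊓ (s48c_kap hζ).ker) := by exact_mod_cast Nat.card_pos
  have e : s48c_Phi H {γ | γ ∈ H ∧ s48c_kap hζ γ = s48c_kap hζ γ₀} s
      - Nat.card ↥(H ⊓ (s48c_kap hζ).ker) * Real.log (1 / (s - 1)) =
      Nat.card ↥(H ⊓ (s48c_kap hζ).ker) *
        ((Nat.card A : ℝ) * D ⟨s48c_kap hζ γ₀, hmem₀⟩ s -
          Real.log (1 / (s - 1))) := by
    rw [hD, ← hcards']
    field_simp
  rw [e, abs_mul, abs_of_pos hc1]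
  exact mul_le_mul_of_nonneg_left hs hc1.le

end Fermat.Agent.Lib.S48
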