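/-
[CHEB] Chebotarev density theorem, brick C4b: the crossing argument.  `L ∋ ζ_m` Galois over `ℚ`,
`π : Gal(L/ℚ) → G` a homomorphism such that `(π, κ̄) : Gal(L/ℚ) → G × (ℤ/m)ˣ/±1` is onto.  If the
cyclic group `(ℤ/m)ˣ/±1` has order divisible by `(ord g) ^ k`, the good primes `w` of `L` with
`π(Frob_w) = g` satisfy `Φ_⊤(π⁻¹ g)(s) ≥ |ker π| (1 - ord g / 2^k) log (1/(s-1)) - C`.
-/
import Fermat.Agent.Lib.S48.ChebDirD
import Fermat.Agent.Lib.S48.ChebCount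

set_option autoImplicit false
set_option linter.unusedSectionVars false

namespace Fermat.Agent.Lib.S48

open NumberField IsDedekindDomain Filter Topology Pointwise Fermat.Agent.Lib.S29
  Fermat.Agent.Lib.CFT

variable {L : Type*} [Field L] [NumberField L] [IsGalois ℚ L]
variable {G : Type*} [Group G] (π : Gal(L/ℚ) →* G)
variable {m : ℕ} [NeZero m] {ζ : L} (hζ : IsPrimitiveRoot ζ m)

/-- the crossing subgroup: the preimage of the cyclic group generated by `(g, τ)` -/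
noncomputable def s48c_Gam (g : G) (τ : s48c_Q m) : Subgroup Gal(L/ℚ) :=
  (Subgroup.zpowers ((g, τ) : G × s48c_Q m)).comap (π.prod (s48c_kap hζ))

variable {π hζ} in
theorem s48c_mem_Gam {g : G} {τ : s48c_Q m} {x : Gal(L/ℚ)} :
    x ∈ s48c_Gam π hζ g τ ↔ ∃ j : ℤ, g ^ j = π x ∧ τ ^ j = s48c_kap hζ x := by
  unfold s48c_Gam
  rw [Subgroup.mem_comap, Subgroup.mem_zpowers_iff]
  have e1 : ∀ j : ℤ, (((g, τ) : G × s48c_Q m) ^ j).1 = g ^ j := fun j =>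
    map_zpow (MonoidHom.fst G (s48c_Q m)) (g, τ) j
  have e2 : ∀ j : ℤ, (((g, τ) : G × s48c_Q m) ^ j).2 = τ ^ j := fun j =>
    map_zpow (MonoidHom.snd G (s48c_Q m)) (g, τ) j
  constructor
  · rintro ⟨j, hj⟩
    refine ⟨j, ?_, ?_⟩
    · rw [← e1, hj]; rfl
    · rw [← e2, hj]; rfl
  · rintro ⟨j, h1, h2⟩
    refine ⟨j, ?_⟩
    ext
    · rw [e1, h1]; rfl
    · rw [e2, h2]; rfl

variable {π hζ}

theorem s48c_cross_set {g : G} {τ : s48c_Q m} (hdvd : orderOf g ∣ orderOf τ) {γ₀ : Gal(L/ℚ)}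
    (h2 : s48c_kap hζ γ₀ = τ) :
    {γ | γ ∈ s48c_Gam π hζ g τ ∧ s48c_kap hζ γ = s48c_kap hζ γ₀} =
      {x | π x = g ∧ s48c_kap hζ x = τ} := by
  ext γ
  simp only [Set.mem_ofPred_eq]
  rw [h2]
  constructor
  · rintro ⟨hγ, hk⟩
    obtain ⟨j, hj1, hj2⟩ := s48c_mem_Gam.mp hγ
    refine ⟨?_, hk⟩
    rw [hk] at hj2
    have h3 : τ ^ (j - 1) = 1 := by
      rw [zpow_sub, zpow_one, hj2, mul_inv_cancel]
    have h4 : (orderOf τ : ℤ) ∣ j - 1 := orderOf_dvd_iff_zpow_eq_one.mpr h3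
    have h5 : (orderOf g : ℤ) ∣ j - 1 := (Int.natCast_dvd_natCast.mpr hdvd).trans h4
    have h6 : g ^ (j - 1) = 1 := orderOf_dvd_iff_zpow_eq_one.mp h5
    rw [← hj1]
    rw [zpow_sub, zpow_one, mul_inv_eq_one] at h6
    exact h6
  · rintro ⟨hπ, hk⟩
    exact ⟨s48c_mem_Gam.mpr ⟨1, by rw [zpow_one, hπ], by rw [zpow_one, hk]⟩, hk⟩

theorem s48c_cross_ker {g : G} {τ : s48c_Q m} (hdvd : orderOf g ∣ orderOf τ) :
    s48c_Gam π hζ g τ ⊓ (s48c_kap hζ).ker = π.ker ⊓ (s48c_kap hζ).ker := by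
  ext γ
  simp only [Subgroup.mem_inf, MonoidHom.mem_ker]
  constructor
  · rintro ⟨hγ, hk⟩
    obtain ⟨j, hj1, hj2⟩ := s48c_mem_Gam.mp hγ
    refine ⟨?_, hk⟩
    rw [hk] at hj2
    have h4 : (orderOf τ : ℤ) ∣ j := orderOf_dvd_iff_zpow_eq_one.mpr hj2
    have h5 : (orderOf g : ℤ) ∣ j := (Int.natCast_dvd_natCast.mpr hdvd).trans h4
    rw [← hj1]
    exact orderOf_dvd_iff_zpow_eq_one.mp h5
  · rintro ⟨hπ, hk⟩
    exact ⟨s48c_mem_Gam.mpr ⟨0, by rw [zpow_zero, hπ], by rw [zpow_zero, hk]⟩, hk⟩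

variable (π hζ)

/-- Dirichlet + Deuring for one pair `(g, τ)` -/
theorem s48c_cross_one (hsurj : ∀ (g : G) (t : s48c_Q m), ∃ x : Gal(L/ℚ), π x = g ∧
    s48c_kap hζ x = t) (g : G) (τ : s48c_Q m) (hdvd : orderOf g ∣ orderOf τ) :
    ∃ C : ℝ, ∀ᶠ s in 𝓝[>] (1:ℝ),
      |s48c_Phi (⊤ : Subgroup Gal(L/ℚ)) {x | π x = g ∧ s48c_kap hζ x = τ} s -
        Nat.card ↥(π.ker ⊓ (s48c_kap hζ).ker) * Real.log (1 / (s - 1))| ≤ C := by
  obtain ⟨γ₀, h1, h2⟩ := hsurj g τ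
  have hγ₀ : γ₀ ∈ s48c_Gam π hζ g τ :=
    s48c_mem_Gam.mpr ⟨1, by rw [zpow_one, h1], by rw [zpow_one, h2]⟩
  obtain ⟨C, hC⟩ := s48c_dirichlet (s48c_Gam π hζ g τ) hζ γ₀ hγ₀
  rw [s48c_cross_set hdvd h2, s48c_cross_ker hdvd] at hC
  have hS : {x | π x = g ∧ s48c_kap hζ x = τ} ⊆ (s48c_Gam π hζ g τ : Set Gal(L/ℚ)) := by
    rintro x ⟨hx1, hx2⟩
    exact s48c_mem_Gam.mpr ⟨1, by rw [zpow_one, hx1], by rw [zpow_one, hx2]⟩
  refine ⟨C + ∑' w, s29d_beta (⊤ : Subgroup Gal(L/ℚ)) w, ?_⟩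
  filter_upwards [hC, self_mem_nhdsWithin] with s hs hs1
  have hcl := s48c_Phi_close (⊤ : Subgroup Gal(L/ℚ)) (s48c_Gam π hζ g τ) le_top _ hS hs1
  rw [abs_sub_comm] at hcl
  have := abs_sub_le (s48c_Phi (⊤ : Subgroup Gal(L/ℚ)) {x | π x = g ∧ s48c_kap hζ x = τ} s)
    (s48c_Phi (s48c_Gam π hζ g τ) {x | π x = g ∧ s48c_kap hζ x = τ} s)
    (Nat.card ↥(π.ker ⊓ (s48c_kap hζ).ker) * Real.log (1 / (s - 1)))
  linarith

theorem s48c_card_ker_mul (hsurj : ∀ (g : G) (t : s48c_Q m), ∃ x : Gal(L/ℚ), π x = g ∧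
    s48c_kap hζ x = t) :
    Nat.card (s48c_Q m) * Nat.card ↥(π.ker ⊓ (s48c_kap hζ).ker) = Nat.card π.ker := by
  have h := s48c_card_map_mul (s48c_kap hζ) π.ker
  have htop : π.ker.map (s48c_kap hζ) = ⊤ := by
    rw [eq_top_iff]
    intro t _
    obtain ⟨x, hx1, hx2⟩ := hsurj 1 t
    exact Subgroup.mem_map.mpr ⟨x, MonoidHom.mem_ker.mpr hx1, hx2⟩
  rw [htop, Subgroup.card_top] at h
  exact h

/-- **the crossing lower bound** -/
theorem s48c_cross [IsCyclic (s48c_Q m)]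
    (hsurj : ∀ (g : G) (t : s48c_Q m), ∃ x : Gal(L/ℚ), π x = g ∧ s48c_kap hζ x = t) (g : G)
    (hg : orderOf g ≠ 0) (k : ℕ) (hk : orderOf g ^ k ∣ Nat.card (s48c_Q m)) :
    ∃ C : ℝ, ∀ᶠ s in 𝓝[>] (1:ℝ),
      (Nat.card π.ker : ℝ) * (1 - orderOf g / 2 ^ k) * Real.log (1 / (s - 1)) - C ≤
        s48c_Phi (⊤ : Subgroup Gal(L/ℚ)) {x | π x = g} s := by
  classical
  set T := Finset.univ.filter fun τ : s48c_Q m => orderOf g ∣ orderOf τ with hT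
  have hone := fun τ (hτ : orderOf g ∣ orderOf τ) => s48c_cross_one π hζ hsurj g τ hτ
  choose! C hC using hone
  have hall : ∀ᶠ s in 𝓝[>] (1:ℝ), ∀ τ ∈ T,
      |s48c_Phi (⊤ : Subgroup Gal(L/ℚ)) {x | π x = g ∧ s48c_kap hζ x = τ} s -
        Nat.card ↥(π.ker ⊓ (s48c_kap hζ).ker) * Real.log (1 / (s - 1))| ≤ C τ := by
    rw [Filter.eventually_all_finset]
    intro τ hτ
    exact hC τ (Finset.mem_filter.mp hτ).2
  have hlog := s29d_tendsto_log.eventually_gt_atTop 0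
  have hcount := s48c_card_order_dvd (Q := s48c_Q m) hg hk
  have hcards := s48c_card_ker_mul π hζ hsurj
  have hcards' : (Nat.card (s48c_Q m) : ℝ) * Nat.card ↥(π.ker ⊓ (s48c_kap hζ).ker) =
      Nat.card π.ker := by exact_mod_cast hcards
  refine ⟨∑ τ ∈ T, C τ, ?_⟩
  filter_upwards [hall, hlog, self_mem_nhdsWithin] with s hs hlog0 hs1
  have hs1' : (1:ℝ) < s := hs1
  -- the sum over `T` is at most the whole
  have hle : ∑ τ ∈ T, s48c_Phi (⊤ : Subgroup Gal(L/ℚ)) {x | π x = g ∧ s48c_kap hζ x = τ} s ≤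
      s48c_Phi (⊤ : Subgroup Gal(L/ℚ)) {x | π x = g} s := by
    rw [← s48c_Phi_fibre (⊤ : Subgroup Gal(L/ℚ)) (s48c_kap hζ) {x | π x = g} hs1']
    exact Finset.sum_le_sum_of_subset_of_nonneg (Finset.subset_univ _)
      fun τ _ _ => s48c_Phi_nonneg _ _ _
  have hge : ∑ τ ∈ T, (Nat.card ↥(π.ker ⊓ (s48c_kap hζ).ker) * Real.log (1 / (s - 1)) - C τ) ≤
      ∑ τ ∈ T, s48c_Phi (⊤ : Subgroup Gal(L/ℚ)) {x | π x = g ∧ s48c_kap hζ x = τ} s := by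
    refine Finset.sum_le_sum fun τ hτ => ?_
    have := (abs_le.mp (hs τ hτ)).1
    linarith
  rw [Finset.sum_sub_distrib, Finset.sum_const, nsmul_eq_mul] at hge
  have hc0 : (0:ℝ) ≤ Nat.card ↥(π.ker ⊓ (s48c_kap hζ).ker) := Nat.cast_nonneg _
  have hmain : (Nat.card π.ker : ℝ) * (1 - orderOf g / 2 ^ k) * Real.log (1 / (s - 1)) ≤
      T.card * (Nat.card ↥(π.ker ⊓ (s48c_kap hζ).ker) * Real.log (1 / (s - 1))) := by
    rw [← hcards']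
    have : (Nat.card (s48c_Q m) : ℝ) * Nat.card ↥(π.ker ⊓ (s48c_kap hζ).ker) *
        (1 - orderOf g / 2 ^ k) * Real.log (1 / (s - 1)) =
        ((Nat.card (s48c_Q m) : ℝ) * (1 - orderOf g / 2 ^ k)) *
          (Nat.card ↥(π.ker ⊓ (s48c_kap hζ).ker) * Real.log (1 / (s - 1))) := by ring
    rw [this]
    exact mul_le_mul_of_nonneg_right hcount (mul_nonneg hc0 hlog0.le)
  linarith

end Fermat.Agent.Lib.S48
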