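/-
[CHEB] Chebotarev density theorem, brick C5: the primes `w` of a Galois number field `L/ℚ` above a
rational prime `p`: transitivity of the Galois action, the norm of the prime below `w` in the fixed
field of the full Galois group is `p`, and `∑_{w ∣ p} |D_w| ≤ |Gal(L/ℚ)|`.
-/
import Fermat.Agent.Lib.S48.ChebPhi

set_option autoImplicit false
set_option linter.unusedSectionVars false

namespace Fermat.Agent.Lib.S48

open NumberField IsDedekindDomain Filter Topology Pointwise Fermat.Agent.Lib.S29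
  Fermat.Agent.Lib.CFT

variable {L : Type*} [Field L] [NumberField L] [IsGalois ℚ L]

/-- the rational prime below `w` -/
theorem s48c_under_int_eq {p : ℕ} (hp : p.Prime) {w : HeightOneSpectrum (𝓞 L)}
    (hpw : (p : 𝓞 L) ∈ w.asIdeal) : w.asIdeal.under ℤ = Ideal.span {(p : ℤ)} := by
  have : Fact p.Prime := ⟨hp⟩
  have hmax : (Ideal.span {(p : ℤ)}).IsMaximal := Int.ideal_span_isMaximal_of_prime p
  have hprime : (w.asIdeal.under ℤ).IsPrime := Ideal.IsPrime.under ℤ w.asIdeal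
  have hle : Ideal.span {(p : ℤ)} ≤ w.asIdeal.under ℤ := by
    rw [Ideal.span_singleton_le_iff_mem, Ideal.mem_comap]
    simpa using hpw
  exact (hmax.eq_of_le hprime.ne_top hle).symm

/-- transitivity of the Galois action on the primes above `p` -/
theorem s48c_exists_smul_eq {p : ℕ} (hp : p.Prime) {w w' : HeightOneSpectrum (𝓞 L)}
    (hpw : (p : 𝓞 L) ∈ w.asIdeal) (hpw' : (p : 𝓞 L) ∈ w'.asIdeal) :
    ∃ g : Gal(L/ℚ), w'.asIdeal = g • w.asIdeal := by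
  have h1 : w.asIdeal.IsPrime := w.isPrime
  have h2 : w'.asIdeal.IsPrime := w'.isPrime
  exact Algebra.IsInvariant.exists_smul_of_under_eq ℤ (𝓞 L) Gal(L/ℚ) w.asIdeal w'.asIdeal
    ((s48c_under_int_eq hp hpw).trans (s48c_under_int_eq hp hpw').symm)

theorem s48c_finrank_E_top : Module.finrank ℚ ↥(s29d_E L ⊤) = 1 :=
  IntermediateField.finrank_eq_one_iff.mpr IsGalois.fixedField_top

/-- the norm of the prime below `w` in the fixed field of the full group is `p` -/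
theorem s48c_nu_top_eq {p : ℕ} (hp : p.Prime) {w : HeightOneSpectrum (𝓞 L)}
    (hpw : (p : 𝓞 L) ∈ w.asIdeal) : s29d_nu (⊤ : Subgroup Gal(L/ℚ)) w = p := by
  unfold s29d_nu
  set 𝔭 := (w.under (𝓞 (s29d_E L ⊤))).asIdeal with h𝔭
  have hmem : ((p : ℕ) : 𝓞 (s29d_E L ⊤)) ∈ 𝔭 := by
    have : algebraMap (𝓞 (s29d_E L ⊤)) (𝓞 L) ((p : ℕ) : 𝓞 (s29d_E L ⊤)) ∈ w.asIdeal := by
      rw [map_natCast]; exact hpw
    exact this
  have hle : Ideal.span {((p : ℕ) : 𝓞 (s29d_E L ⊤))} ≤ 𝔭 :=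
    (Ideal.span_singleton_le_iff_mem _).mpr hmem
  have hdvd := Ideal.absNorm_dvd_absNorm_of_le hle
  rw [Ideal.absNorm_span_natCast, RingOfIntegers.rank, s48c_finrank_E_top, pow_one] at hdvd
  rcases (Nat.dvd_prime hp).mp hdvd with h | h
  · exfalso
    have h2 := s29d_two_le_nu (⊤ : Subgroup Gal(L/ℚ)) w
    unfold s29d_nu at h2
    rw [← h𝔭, h] at h2
    omega
  · exact h

/-- two primes above `p` have the same trace on the fixed field of the full group -/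
theorem s48c_under_top_eq {p : ℕ} (hp : p.Prime) {w w' : HeightOneSpectrum (𝓞 L)}
    (hpw : (p : 𝓞 L) ∈ w.asIdeal) (hpw' : (p : 𝓞 L) ∈ w'.asIdeal) :
    w'.under (𝓞 (s29d_E L ⊤)) = w.under (𝓞 (s29d_E L ⊤)) := by
  obtain ⟨g, hg⟩ := s48c_exists_smul_eq hp hpw hpw'
  refine HeightOneSpectrum.ext ?_
  ext x
  show algebraMap (𝓞 (s29d_E L ⊤)) (𝓞 L) x ∈ w'.asIdeal ↔
    algebraMap (𝓞 (s29d_E L ⊤)) (𝓞 L) x ∈ w.asIdeal
  rw [hg, Ideal.mem_pointwise_smul_iff_inv_smul_mem]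
  have hfix : g⁻¹ • algebraMap (𝓞 (s29d_E L ⊤)) (𝓞 L) x = algebraMap (𝓞 (s29d_E L ⊤)) (𝓞 L) x := by
    apply RingOfIntegers.ext
    have hx : ((x : s29d_E L ⊤) : L) ∈ s29d_E L ⊤ := (x : s29d_E L ⊤).2
    exact hx ⟨g⁻¹, Subgroup.mem_top _⟩
  rw [hfix]

/-- the decomposition groups of the primes above `p` have total size at most `|G|` -/
theorem s48c_sum_stG_le {p : ℕ} (hp : p.Prime) (W : Finset (HeightOneSpectrum (𝓞 L)))
    (hW : ∀ w ∈ W, (p : 𝓞 L) ∈ w.asIdeal) :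
    ∑ w ∈ W, (s29d_stG (⊤ : Subgroup Gal(L/ℚ)) w : ℝ) ≤ Nat.card Gal(L/ℚ) := by
  classical
  rcases W.eq_empty_or_nonempty with rfl | ⟨w₀, hw₀⟩
  · simp
  have hfib : ∀ w ∈ W, Nat.card {w' : HeightOneSpectrum (𝓞 L) //
      w'.under (𝓞 (s29d_E L ⊤)) = w₀.under (𝓞 (s29d_E L ⊤))} *
        s29d_stG (⊤ : Subgroup Gal(L/ℚ)) w = Nat.card Gal(L/ℚ) := by
    intro w hw
    have h1 := s29d_fibre_card (s29d_E L ⊤) (⊤ : Subgroup Gal(L/ℚ)) w
    rw [s29d_stab_eq, Subgroup.card_top, s48c_under_top_eq hp (hW w₀ hw₀) (hW w hw)] at h1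
    exact h1
  set F := {w' : HeightOneSpectrum (𝓞 L) //
      w'.under (𝓞 (s29d_E L ⊤)) = w₀.under (𝓞 (s29d_E L ⊤))} with hF
  have hFfin : Finite F := by
    refine Nat.finite_of_card_ne_zero fun h0 => ?_
    have := hfib w₀ hw₀
    rw [h0, zero_mul] at this
    exact absurd this.symm (Nat.card_pos (α := Gal(L/ℚ))).ne'
  have hWcard : W.card ≤ Nat.card F := by
    have hinj : Function.Injective (fun w : W => (⟨w.1,
        s48c_under_top_eq hp (hW w₀ hw₀) (hW w.1 w.2)⟩ : F)) := by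
      intro a b hab
      dsimp only at hab
      exact Subtype.ext (Subtype.mk_eq_mk.mp hab)
    have := Nat.card_le_card_of_injective _ hinj
    simpa using this
  have hcF : (0 : ℝ) < Nat.card F := by exact_mod_cast Nat.card_pos_iff.mpr ⟨⟨⟨w₀, rfl⟩⟩, hFfin⟩
  have hterm : ∀ w ∈ W, (s29d_stG (⊤ : Subgroup Gal(L/ℚ)) w : ℝ) =
      Nat.card Gal(L/ℚ) / Nat.card F := by
    intro w hw
    rw [eq_div_iff hcF.ne', mul_comm]
    exact_mod_cast hfib w hw
  rw [Finset.sum_congr rfl hterm, Finset.sum_const, nsmul_eq_mul, ← mul_div_assoc,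
    div_le_iff₀ hcF, mul_comm]
  exact mul_le_mul_of_nonneg_left (by exact_mod_cast hWcard) (Nat.cast_nonneg _)

/-- an element acting as `x ↦ x ^ p` modulo some prime above `p` is conjugate to the Frobenius
element of any unramified prime above `p` -/
theorem s48c_conj_frob {p : ℕ} (hp : p.Prime) {w₀ w : HeightOneSpectrum (𝓞 L)}
    (hpw₀ : (p : 𝓞 L) ∈ w₀.asIdeal) (hpw : (p : 𝓞 L) ∈ w.asIdeal) (hgood : s29d_good w₀)
    (γ : Gal(L/ℚ)) (hγ : ∀ x : 𝓞 L, γ • x - x ^ p ∈ w.asIdeal) :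
    ∃ g : Gal(L/ℚ), γ = g * s48c_fr (⊤ : Subgroup Gal(L/ℚ)) w₀ * g⁻¹ := by
  obtain ⟨g, hg⟩ := s48c_exists_smul_eq hp hpw₀ hpw
  refine ⟨g, ?_⟩
  have hfrob : s48c_IsFrob (⊤ : Subgroup Gal(L/ℚ)) w₀ (g⁻¹ * γ * g) := by
    refine ⟨Subgroup.mem_top _, fun y => ?_⟩
    rw [s48c_nu_top_eq hp hpw₀]
    have h := hγ (g • y)
    rw [hg, Ideal.mem_pointwise_smul_iff_inv_smul_mem, smul_sub, smul_pow', inv_smul_smul] at h
    rw [mul_smul, mul_smul]
    exact h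
  rw [s48c_fr_eq hgood hfrob]
  group

end Fermat.Agent.Lib.S48
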