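/-
[CHEB] Chebotarev density theorem, brick C6: from the weighted sums `Φ_⊤` over the primes `w` of the
Galois number field `L` to finite sums over rational primes.
-/
import Fermat.Agent.Lib.S48.ChebPrimes
import Fermat.Agent.Lib.S48.ChebCross

set_option autoImplicit false
set_option linter.unusedSectionVars false

namespace Fermat.Agent.Lib.S48

open NumberField IsDedekindDomain Filter Topology Pointwise Fermat.Agent.Lib.S29
  Fermat.Agent.Lib.CFT

variable {L : Type*} [Field L] [NumberField L] [IsGalois ℚ L]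

theorem s48c_exists_prime_mem (v : HeightOneSpectrum (𝓞 L)) :
    ∃ ℓ : ℕ, ℓ.Prime ∧ (ℓ : 𝓞 L) ∈ v.asIdeal := by
  set p : Ideal ℤ := v.asIdeal.under ℤ with hp
  have hprime : p.IsPrime := Ideal.IsPrime.under ℤ v.asIdeal
  have hne : p ≠ ⊥ := Ideal.under_ne_bot ℤ v.ne_bot
  have hgen := Submodule.IsPrincipal.prime_generator_of_isPrime p hne
  refine ⟨(Submodule.IsPrincipal.generator p).natAbs, Int.prime_iff_natAbs_prime.mp hgen, ?_⟩
  have hmem : ((Submodule.IsPrincipal.generator p).natAbs : ℤ) ∈ p := by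
    have h1 : ((Submodule.IsPrincipal.generator p).natAbs : ℤ)
        ∈ Ideal.span {Submodule.IsPrincipal.generator p} :=
      Ideal.mem_span_singleton.mpr Int.dvd_natAbs_self
    rwa [Ideal.span_singleton_generator p] at h1
  have := (Ideal.mem_comap.mp hmem)
  simpa using this

/-- the rational prime below `w` -/
noncomputable def s48c_pr (w : HeightOneSpectrum (𝓞 L)) : ℕ :=
  Classical.choose (s48c_exists_prime_mem w)

theorem s48c_pr_prime (w : HeightOneSpectrum (𝓞 L)) : (s48c_pr w).Prime :=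
  (Classical.choose_spec (s48c_exists_prime_mem w)).1

theorem s48c_pr_mem (w : HeightOneSpectrum (𝓞 L)) : (s48c_pr w : 𝓞 L) ∈ w.asIdeal :=
  (Classical.choose_spec (s48c_exists_prime_mem w)).2

theorem s48c_excP_finite (Sexc : Finset ℕ) :
    {w : HeightOneSpectrum (𝓞 L) | s48c_pr w ∈ Sexc}.Finite := by
  have h : ∀ q ∈ Sexc, {v : HeightOneSpectrum (𝓞 L) | q ≠ 0 ∧ (q : 𝓞 L) ∈ v.asIdeal}.Finite := by
    intro q _
    by_cases hq : q = 0
    · exact Set.Finite.subset Set.finite_empty fun v hv ↦ (hv.1 hq).elim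
    · exact (s48c_over_finite (L := L) hq).subset fun v hv => hv.2
  refine (Set.Finite.biUnion Sexc.finite_toSet h).subset fun w hw => ?_
  exact Set.mem_biUnion (Finset.mem_coe.mpr hw) ⟨(s48c_pr_prime w).ne_zero, s48c_pr_mem w⟩

/-- **extraction of a finite set of rational primes** -/
theorem s48c_extract (S : Set Gal(L/ℚ)) (Sexc : Finset ℕ) {s : ℝ} (hs : 1 < s) :
    ∃ P : Finset ℕ, (∀ p ∈ P, p.Prime ∧ p ∉ Sexc ∧ ∃ w : HeightOneSpectrum (𝓞 L),
        (p : 𝓞 L) ∈ w.asIdeal ∧ s29d_good w ∧ s48c_fr (⊤ : Subgroup Gal(L/ℚ)) w ∈ S) ∧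
      s48c_Phi (⊤ : Subgroup Gal(L/ℚ)) S s - 1 -
        Nat.card Gal(L/ℚ) * (s48c_excP_finite (L := L) Sexc).toFinset.card ≤
        Nat.card Gal(L/ℚ) * ∑ p ∈ P, (p : ℝ) ^ (-s) := by
  classical
  set Gc : ℝ := ((Nat.card Gal(L/ℚ) : ℕ) : ℝ) with hGc
  have hGc0 : 0 ≤ Gc := Nat.cast_nonneg _
  have hsum := s48c_phi_summable (⊤ : Subgroup Gal(L/ℚ)) S hs
  obtain ⟨W, hW⟩ := (hsum.hasSum.eventually (lt_mem_nhds (sub_one_lt _))).exists
  change s48c_Phi (⊤ : Subgroup Gal(L/ℚ)) S s - 1 < _ at hW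
  set B := (s48c_excP_finite (L := L) Sexc).toFinset with hB
  set W' := W.filter fun w => s29d_good w ∧ s48c_fr (⊤ : Subgroup Gal(L/ℚ)) w ∈ S ∧
    s48c_pr w ∉ Sexc with hW'
  refine ⟨W'.image s48c_pr, ?_, ?_⟩
  · intro p hp
    obtain ⟨w, hw, rfl⟩ := Finset.mem_image.mp hp
    rw [hW', Finset.mem_filter] at hw
    exact ⟨s48c_pr_prime w, hw.2.2.2, w, s48c_pr_mem w, hw.2.1, hw.2.2.1⟩
  · -- bound on each term
    have hterm_le : ∀ w, s48c_phi (⊤ : Subgroup Gal(L/ℚ)) S s w ≤ Gc := by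
      intro w
      refine (s48c_phi_le _ S s w).trans ?_
      have h1 := s29d_xu_le_one (⊤ : Subgroup Gal(L/ℚ)) hs.le w
      have h2 : (s29d_stG (⊤ : Subgroup Gal(L/ℚ)) w : ℝ) ≤ Gc := by
        rw [hGc, ← Subgroup.card_top (G := Gal(L/ℚ))]
        exact_mod_cast s29d_stG_le (⊤ : Subgroup Gal(L/ℚ)) w
      calc _ ≤ 1 * Gc := mul_le_mul h1 h2 (Nat.cast_nonneg _) zero_le_one
        _ = Gc := one_mul _
    -- split `W`
    have hsplit : ∑ w ∈ W, s48c_phi (⊤ : Subgroup Gal(L/ℚ)) S s w ≤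
        ∑ w ∈ W', s48c_phi (⊤ : Subgroup Gal(L/ℚ)) S s w + Gc * B.card := by
      have h1 : ∀ w ∈ W, s48c_phi (⊤ : Subgroup Gal(L/ℚ)) S s w ≤
          (if w ∈ W' then s48c_phi (⊤ : Subgroup Gal(L/ℚ)) S s w else 0) +
            (if w ∈ B then Gc else 0) := by
        intro w hw
        by_cases hw' : w ∈ W'
        · rw [if_pos hw']
          have : (0:ℝ) ≤ if w ∈ B then Gc else 0 := by split_ifs <;> [exact hGc0; exact le_rfl]
          linarith
        · rw [if_neg hw', zero_add]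
          by_cases hwB : w ∈ B
          · rw [if_pos hwB]; exact hterm_le w
          · rw [if_neg hwB]
            have : s48c_phi (⊤ : Subgroup Gal(L/ℚ)) S s w = 0 := by
              unfold s48c_phi
              rw [if_neg]
              rintro ⟨h1, h2⟩
              apply hw'
              rw [hW', Finset.mem_filter]
              refine ⟨hw, h1, h2, fun h3 => hwB ?_⟩
              rw [hB, Set.Finite.mem_toFinset]
              exact h3
            rw [this]
      refine (Finset.sum_le_sum h1).trans ?_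
      rw [Finset.sum_add_distrib]
      refine add_le_add ?_ ?_
      · rw [← Finset.sum_filter]
        refine le_of_eq (Finset.sum_congr ?_ fun _ _ => rfl)
        ext w
        simp only [Finset.mem_filter]
        constructor
        · exact fun h => h.2
        · exact fun h => ⟨(Finset.mem_filter.mp (hW' ▸ h)).1, h⟩
      · rw [← Finset.sum_filter, Finset.sum_const, nsmul_eq_mul, mul_comm]
        refine mul_le_mul_of_nonneg_left ?_ hGc0
        have hsub : W.filter (fun w => w ∈ B) ⊆ B := fun w hw => (Finset.mem_filter.mp hw).2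
        exact_mod_cast Finset.card_le_card hsub
    -- regroup `W'` along the rational primes
    have hregroup : ∑ w ∈ W', s48c_phi (⊤ : Subgroup Gal(L/ℚ)) S s w ≤
        Gc * ∑ p ∈ W'.image s48c_pr, (p : ℝ) ^ (-s) := by
      rw [← Finset.sum_fiberwise_of_maps_to (g := s48c_pr) (t := W'.image s48c_pr)
        (fun w hw => Finset.mem_image_of_mem _ hw), Finset.mul_sum]
      refine Finset.sum_le_sum fun p hp => ?_
      have hpp : p.Prime := by
        obtain ⟨w, -, rfl⟩ := Finset.mem_image.mp hp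
        exact s48c_pr_prime w
      have h1 : ∀ w ∈ W'.filter (fun w => s48c_pr w = p),
          s48c_phi (⊤ : Subgroup Gal(L/ℚ)) S s w =
            (p : ℝ) ^ (-s) * s29d_stG (⊤ : Subgroup Gal(L/ℚ)) w := by
        intro w hw
        rw [Finset.mem_filter, hW', Finset.mem_filter] at hw
        unfold s48c_phi
        rw [if_pos ⟨hw.1.2.1, hw.1.2.2.1⟩, s29d_xu_eq,
          s48c_nu_top_eq hpp (hw.2 ▸ s48c_pr_mem w)]
      rw [Finset.sum_congr rfl h1, ← Finset.mul_sum, mul_comm Gc]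
      refine mul_le_mul_of_nonneg_left ?_ (Real.rpow_nonneg (Nat.cast_nonneg _) _)
      exact s48c_sum_stG_le hpp _ fun w hw => by
        rw [Finset.mem_filter] at hw
        exact hw.2 ▸ s48c_pr_mem w
    linarith

section lower

variable {G : Type*} [Group G] [Finite G] (π : Gal(L/ℚ) →* G)
variable {m : ℕ} [NeZero m] {ζ : L} (hζ : IsPrimitiveRoot ζ m)

/-- lower bound for the sum attached to the preimage of an arbitrary subset of `G` -/
theorem s48c_Phi_preimage_ge [IsCyclic (s48c_Q m)]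
    (hsurj : ∀ (g : G) (t : s48c_Q m), ∃ x : Gal(L/ℚ), π x = g ∧ s48c_kap hζ x = t)
    (k : ℕ) (hk : Nat.card G ^ k ∣ Nat.card (s48c_Q m)) (C : Set G) :
    ∃ C₀ : ℝ, ∀ᶠ s in 𝓝[>] (1:ℝ),
      (Nat.card C : ℝ) * Nat.card π.ker * (1 - Nat.card G / 2 ^ k) * Real.log (1 / (s - 1)) - C₀ ≤
        s48c_Phi (⊤ : Subgroup Gal(L/ℚ)) (π ⁻¹' C) s := by
  classical
  have : Fintype G := Fintype.ofFinite G
  have hone : ∀ g : G, ∃ C₁ : ℝ, ∀ᶠ s in 𝓝[>] (1:ℝ),
      (Nat.card π.ker : ℝ) * (1 - orderOf g / 2 ^ k) * Real.log (1 / (s - 1)) - C₁ ≤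
        s48c_Phi (⊤ : Subgroup Gal(L/ℚ)) {x | π x = g} s := fun g =>
    s48c_cross π hζ hsurj g (orderOf_pos g).ne' k
      ((pow_dvd_pow_of_dvd (orderOf_dvd_natCard g) k).trans hk)
  choose C₁ hC₁ using hone
  set Cf := Finset.univ.filter fun g : G => g ∈ C with hCf
  have hCfcard : (Cf.card : ℝ) = Nat.card C := by
    rw [hCf, Nat.card_eq_fintype_card, Fintype.card_subtype]
  refine ⟨∑ g ∈ Cf, C₁ g, ?_⟩
  have hall : ∀ᶠ s in 𝓝[>] (1:ℝ), ∀ g : G,
      (Nat.card π.ker : ℝ) * (1 - orderOf g / 2 ^ k) * Real.log (1 / (s - 1)) - C₁ g ≤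
        s48c_Phi (⊤ : Subgroup Gal(L/ℚ)) {x | π x = g} s := Filter.eventually_all.mpr hC₁
  have hlog := s29d_tendsto_log.eventually_gt_atTop 0
  filter_upwards [hall, hlog, self_mem_nhdsWithin] with s hs hlog0 hs1
  have hs1' : (1:ℝ) < s := hs1
  have h1 : ∑ g ∈ Cf, s48c_Phi (⊤ : Subgroup Gal(L/ℚ)) {x | π x = g} s ≤
      s48c_Phi (⊤ : Subgroup Gal(L/ℚ)) (π ⁻¹' C) s := by
    rw [← s48c_Phi_fibre (⊤ : Subgroup Gal(L/ℚ)) (fun x => π x) (π ⁻¹' C) hs1']
    refine (le_of_eq (Finset.sum_congr rfl fun g hg => ?_)).trans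
      (Finset.sum_le_sum_of_subset_of_nonneg (Finset.subset_univ Cf)
        fun g _ _ => s48c_Phi_nonneg _ _ _)
    refine s48c_Phi_congr _ (fun γ _ => ?_) s
    rw [hCf, Finset.mem_filter] at hg
    simp only [Set.mem_ofPred_eq, Set.mem_preimage]
    constructor
    · exact fun h => ⟨h ▸ hg.2, h⟩
    · exact fun h => h.2
  have h2 : ∀ g ∈ Cf, (Nat.card π.ker : ℝ) * (1 - Nat.card G / 2 ^ k) *
      Real.log (1 / (s - 1)) - C₁ g ≤ s48c_Phi (⊤ : Subgroup Gal(L/ℚ)) {x | π x = g} s := by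
    intro g _
    refine le_trans ?_ (hs g)
    have hord : (orderOf g : ℝ) ≤ Nat.card G := by
      exact_mod_cast Nat.le_of_dvd Nat.card_pos (orderOf_dvd_natCard g)
    have h3 : (1 : ℝ) - Nat.card G / 2 ^ k ≤ 1 - orderOf g / 2 ^ k := by
      have : (orderOf g : ℝ) / 2 ^ k ≤ Nat.card G / 2 ^ k :=
        div_le_div_of_nonneg_right hord (by positivity)
      linarith
    have h4 : (0:ℝ) ≤ Nat.card π.ker := Nat.cast_nonneg _
    have := mul_le_mul_of_nonneg_right (mul_le_mul_of_nonneg_left h3 h4) hlog0.le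
    linarith
  have h3 := Finset.sum_le_sum h2
  rw [Finset.sum_sub_distrib, Finset.sum_const, nsmul_eq_mul, hCfcard] at h3
  have : (Nat.card C : ℝ) * Nat.card π.ker * (1 - Nat.card G / 2 ^ k) * Real.log (1 / (s - 1)) =
      Nat.card C * ((Nat.card π.ker : ℝ) * (1 - Nat.card G / 2 ^ k) * Real.log (1 / (s - 1))) := by
    ring
  rw [this]
  linarith

/-- **Chebotarev lower bound at finite level** -/
theorem s48c_fin_lower [IsCyclic (s48c_Q m)]
    (hsurj : ∀ (g : G) (t : s48c_Q m), ∃ x : Gal(L/ℚ), π x = g ∧ s48c_kap hζ x = t)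
    (k : ℕ) (hk : Nat.card G ^ k ∣ Nat.card (s48c_Q m)) (C : Set G) (Sexc : Finset ℕ) :
    ∃ C₀ : ℝ, ∀ᶠ s in 𝓝[>] (1:ℝ), ∃ P : Finset ℕ,
      (∀ p ∈ P, p.Prime ∧ p ∉ Sexc ∧ ∃ w : HeightOneSpectrum (𝓞 L),
        (p : 𝓞 L) ∈ w.asIdeal ∧ s29d_good w ∧ π (s48c_fr (⊤ : Subgroup Gal(L/ℚ)) w) ∈ C) ∧
      (Nat.card C : ℝ) / Nat.card G * (1 - Nat.card G / 2 ^ k) * Real.log (1 / (s - 1)) - C₀ ≤
        ∑ p ∈ P, (p : ℝ) ^ (-s) := by
  obtain ⟨C₁, hC₁⟩ := s48c_Phi_preimage_ge π hζ hsurj k hk C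
  have hπsurj : Function.Surjective π := fun g => by
    obtain ⟨x, hx, -⟩ := hsurj g 1
    exact ⟨x, hx⟩
  have hcard : Nat.card π.ker * Nat.card G = Nat.card Gal(L/ℚ) := by
    have h1 := Subgroup.card_mul_index π.ker
    rw [Subgroup.index_ker, MonoidHom.range_eq_top.mpr hπsurj, Subgroup.card_top] at h1
    exact h1
  have hcard' : (Nat.card π.ker : ℝ) * Nat.card G = Nat.card Gal(L/ℚ) := by exact_mod_cast hcard
  have hG0 : (0:ℝ) < Nat.card G := by exact_mod_cast Nat.card_pos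
  have hGt0 : (0:ℝ) < Nat.card Gal(L/ℚ) := by exact_mod_cast Nat.card_pos
  refine ⟨(C₁ + 1 + Nat.card Gal(L/ℚ) * (s48c_excP_finite (L := L) Sexc).toFinset.card) /
    Nat.card Gal(L/ℚ), ?_⟩
  filter_upwards [hC₁, self_mem_nhdsWithin] with s hs hs1
  obtain ⟨P, hP1, hP2⟩ := s48c_extract (π ⁻¹' C) Sexc (Set.mem_Ioi.mp hs1)
  refine ⟨P, hP1, ?_⟩
  have e : (Nat.card C : ℝ) / Nat.card G * (1 - Nat.card G / 2 ^ k) * Real.log (1 / (s - 1)) =
      ((Nat.card C : ℝ) * Nat.card π.ker * (1 - Nat.card G / 2 ^ k) * Real.log (1 / (s - 1))) /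
        Nat.card Gal(L/ℚ) := by
    have hker0 : (Nat.card π.ker : ℝ) ≠ 0 := by
      have : (0:ℝ) < Nat.card π.ker := by exact_mod_cast Nat.card_pos
      exact this.ne'
    rw [← hcard']
    field_simp
  rw [e, ← sub_div, div_le_iff₀ hGt0]
  linarith

end lower

end Fermat.Agent.Lib.S48
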