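/-
[CHEB] Chebotarev density theorem, brick C7: finite Galois subextensions `M` of `ℚ̄/ℚ`, places of
`ℚ̄` versus primes of `M`, Frobenius elements of `Gal(ℚ̄/ℚ)` versus Frobenius elements of `Gal(M/ℚ)`,
and automorphisms of `ℚ̄` moving a primitive `ℓ`-th root of unity while fixing a given number field.
-/
import Fermat.Agent.Lib.S48.ChebFin
import Fermat.Agent.Lib.S29.FDPlace

set_option autoImplicit false
set_option linter.unusedSectionVars false

namespace Fermat.Agent.Lib.S48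

open NumberField IsDedekindDomain Filter Topology Pointwise Polynomial IntermediateField
  Fermat.Agent.Lib.S29 Fermat.Agent.Lib.CFT Fermat.Agent.Lib

local notation "ℚbar" => AlgebraicClosure ℚ
local notation "Γℚ" => (AlgebraicClosure ℚ ≃ₐ[ℚ] AlgebraicClosure ℚ)

theorem s48c_normal_Qbar : Normal ℚ ℚbar := Frobenius.isGalois_QBar.to_normal

/-- moving a primitive root by an automorphism fixing a field over which the cyclotomic polynomial
is irreducible -/
theorem s48c_exists_aut_zeta (L₀ : IntermediateField ℚ ℚbar) {ℓ : ℕ} [NeZero ℓ]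
    (hirr : Irreducible (cyclotomic ℓ ↥L₀)) {ζ : ℚbar} (hζ : IsPrimitiveRoot ζ ℓ) (t : ℕ)
    (ht : t.Coprime ℓ) : ∃ σ : Γℚ, (∀ x ∈ L₀, σ x = x) ∧ σ ζ = ζ ^ t := by
  have hn := s48c_normal_Qbar
  have : Normal ↥L₀ ℚbar := Normal.tower_top_of_normal ℚ ↥L₀ ℚbar
  have hζt : IsPrimitiveRoot (ζ ^ t) ℓ := hζ.pow_of_coprime t ht
  have hne : NeZero ((ℓ : ℕ) : ↥L₀) := ⟨by exact_mod_cast NeZero.ne ℓ⟩
  have h1 := hζ.minpoly_eq_cyclotomic_of_irreducible hirr
  have h2 := hζt.minpoly_eq_cyclotomic_of_irreducible hirr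
  have hconj : IsConjRoot ↥L₀ (ζ ^ t) ζ := by
    rw [isConjRoot_def, ← h1, ← h2]
  obtain ⟨σ, hσ⟩ := hconj.exists_algEquiv
  refine ⟨σ.restrictScalars ℚ, fun x hx => ?_, hσ⟩
  exact σ.commutes ⟨x, hx⟩

section place

variable (M : IntermediateField ℚ ℚbar) [NumberField ↥M]

/-- the embedding of the integers of `M` into `ℚ̄` -/
noncomputable def s48c_iota : 𝓞 ↥M →+* ℚbar :=
  (algebraMap ↥M ℚbar).comp (algebraMap (𝓞 ↥M) ↥M)

theorem s48c_iota_injective : Function.Injective (s48c_iota M) :=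
  (algebraMap ↥M ℚbar).injective.comp RingOfIntegers.coe_injective

theorem s48c_iota_mem (A : ValuationSubring ℚbar) (x : 𝓞 ↥M) : s48c_iota M x ∈ A := by
  refine Frobenius.integralClosure_le A _ ?_
  have h1 : IsIntegral ℤ (x : ↥M) := x.2
  exact h1.map (IsScalarTower.toAlgHom ℤ ↥M ℚbar)

/-- the prime of `M` below a place of `ℚ̄` -/
noncomputable def s48c_wIdeal (A : ValuationSubring ℚbar) : Ideal (𝓞 ↥M) where
  carrier := {x | s48c_iota M x ∈ A.nonunits}
  add_mem' ha hb := by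
    simp only [Set.mem_ofPred_eq, map_add] at *
    exact A.nonunits.add_mem ha hb
  zero_mem' := by
    simp only [Set.mem_ofPred_eq, map_zero]
    exact A.nonunits.zero_mem
  smul_mem' c b hb := by
    simp only [Set.mem_ofPred_eq, smul_eq_mul, map_mul] at *
    rw [mul_comm]
    exact Frobenius.mul_mem_nonunits A hb (s48c_iota_mem M A c)

theorem s48c_mem_wIdeal (A : ValuationSubring ℚbar) (x : 𝓞 ↥M) :
    x ∈ s48c_wIdeal M A ↔ s48c_iota M x ∈ A.nonunits := Iff.rfl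

theorem s48c_wIdeal_isPrime (A : ValuationSubring ℚbar) : (s48c_wIdeal M A).IsPrime := by
  refine ⟨fun h => ?_, fun {a b} hab => ?_⟩
  · have : (1 : 𝓞 ↥M) ∈ s48c_wIdeal M A := by rw [h]; trivial
    rw [s48c_mem_wIdeal, map_one] at this
    exact Frobenius.one_notMem_nonunits A this
  · by_contra hcon
    rw [not_or] at hcon
    obtain ⟨ha, hb⟩ := hcon
    rw [s48c_mem_wIdeal, ValuationSubring.mem_nonunits_iff, not_lt] at ha hb
    rw [s48c_mem_wIdeal, ValuationSubring.mem_nonunits_iff, map_mul, map_mul] at hab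
    exact absurd hab (not_lt.mpr (one_le_mul_of_one_le_of_one_le ha hb))

theorem s48c_natCast_mem_wIdeal (A : ValuationSubring ℚbar) {p : ℕ} (hA : A.LiesOverPrime p) :
    (p : 𝓞 ↥M) ∈ s48c_wIdeal M A := by
  rw [s48c_mem_wIdeal, map_natCast]
  exact hA

/-- the prime of `M` below a place of `ℚ̄` above `p` -/
noncomputable def s48c_wOf (A : ValuationSubring ℚbar) {p : ℕ} (hp : p.Prime)
    (hA : A.LiesOverPrime p) : HeightOneSpectrum (𝓞 ↥M) :=
  ⟨s48c_wIdeal M A, s48c_wIdeal_isPrime M A, fun h => by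
    have h1 := s48c_natCast_mem_wIdeal M A hA
    rw [h, Ideal.mem_bot] at h1
    have : (p : ℕ) = 0 := by exact_mod_cast h1
    exact hp.ne_zero this⟩

end place

section frob

variable (M : IntermediateField ℚ ℚbar) [NumberField ↥M] [IsGalois ℚ ↥M]

/-- a Frobenius element of `Gal(ℚ̄/ℚ)` restricts to an element acting as `x ↦ x ^ p` modulo the
prime below -/
theorem s48c_restrict_frob (A : ValuationSubring ℚbar) {p : ℕ} (σ : Γℚ)
    (hσ : A.IsFrobeniusAt σ p) (x : 𝓞 ↥M) :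
    AlgEquiv.restrictNormalHom ↥M σ • x - x ^ p ∈ s48c_wIdeal M A := by
  rw [s48c_mem_wIdeal, map_sub, map_pow]
  have hcomm : s48c_iota M (AlgEquiv.restrictNormalHom ↥M σ • x) = σ (s48c_iota M x) :=
    AlgEquiv.restrictNormal_commutes σ ↥M (x : ↥M)
  rw [hcomm]
  exact s29d_frob_sub_mem A σ p hσ (s48c_iota M x) (s48c_iota_mem M A x)

/-- **bridge**: if some unramified prime of `M` above `p` has its Frobenius class in `C`, every
Frobenius element of `Gal(ℚ̄/ℚ)` above `p` maps into `C` -/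
theorem s48c_bridge {G : Type*} [Group G] (rM : Gal(↥M/ℚ) →* G) (C : Set G)
    (hC : ∀ g h : G, g ∈ C → h * g * h⁻¹ ∈ C) {p : ℕ} (hp : p.Prime)
    (w₀ : HeightOneSpectrum (𝓞 ↥M)) (hpw₀ : (p : 𝓞 ↥M) ∈ w₀.asIdeal) (hgood : s29d_good w₀)
    (hfr : rM (s48c_fr (⊤ : Subgroup Gal(↥M/ℚ)) w₀) ∈ C) (A : ValuationSubring ℚbar)
    (hA : A.LiesOverPrime p) (σ : Γℚ) (hσ : A.IsFrobeniusAt σ p) :
    rM (AlgEquiv.restrictNormalHom ↥M σ) ∈ C := by
  obtain ⟨g, hg⟩ := s48c_conj_frob hp (w := s48c_wOf M A hp hA) hpw₀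
    (s48c_natCast_mem_wIdeal M A hA) hgood (AlgEquiv.restrictNormalHom ↥M σ)
    (fun x => s48c_restrict_frob M A σ hσ x)
  rw [hg, map_mul, map_mul, map_inv]
  exact hC _ _ hfr

end frob

end Fermat.Agent.Lib.S48
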