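/-
[CHEB] **Chebotarev density theorem** (lower Dirichlet density form, in the Prelude's Frobenius
language): for a surjection `r : Gal(ℚ̄/ℚ) → G` of finite level onto a finite group and a subset
`C ⊆ G` stable under conjugation, the primes `p` all of whose Frobenius elements map into `C` have
lower Dirichlet density at least `|C| / |G|`.
-/
import Fermat.Agent.Lib.S48.ChebQbar
import Fermat.Prelude.Def_GaloisRep_Residual

set_option autoImplicit false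
set_option linter.unusedSectionVars false

namespace Fermat.Agent.Lib.S48

open NumberField IsDedekindDomain Filter Topology Pointwise Polynomial IntermediateField
  Fermat.Agent.Lib.S29 Fermat.Agent.Lib.CFT Fermat.Agent.Lib

local notation "ℚbar" => AlgebraicClosure ℚ
local notation "Γℚ" => (AlgebraicClosure ℚ ≃ₐ[ℚ] AlgebraicClosure ℚ)

theorem s48c_isCyclic_Q (ℓ : ℕ) [Fact ℓ.Prime] : IsCyclic (s48c_Q ℓ) :=
  isCyclic_of_surjective (QuotientGroup.mk' _) (QuotientGroup.mk'_surjective _)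

theorem s48c_card_Q {ℓ : ℕ} [Fact ℓ.Prime] (hℓ2 : ℓ ≠ 2) : Nat.card (s48c_Q ℓ) * 2 = ℓ - 1 := by
  have h1 := Subgroup.card_eq_card_quotient_mul_card_subgroup
    (Subgroup.zpowers (-1 : (ZMod ℓ)ˣ))
  have h2 : Nat.card (Subgroup.zpowers (-1 : (ZMod ℓ)ˣ)) = 2 := by
    rw [Nat.card_zpowers, ← orderOf_units, Units.val_neg, Units.val_one, orderOf_neg_one,
      ZMod.ringChar_zmod_n, if_neg hℓ2]
  have h3 : Nat.card (ZMod ℓ)ˣ = ℓ - 1 := by
    rw [Nat.card_eq_fintype_card, ZMod.card_units_eq_totient, Nat.totient_prime Fact.out]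
  rw [h2, h3] at h1
  exact h1.symm

/-- the cyclotomic character is determined by the action on the root of unity -/
theorem s48c_autToPow_eq {K : Type*} [Field K] [Algebra ℚ K] {m : ℕ} [NeZero m] {ζ : K}
    (hζ : IsPrimitiveRoot ζ m) (x : K ≃ₐ[ℚ] K) (t : (ZMod m)ˣ)
    (hx : x ζ = ζ ^ (t : ZMod m).val) : hζ.autToPow ℚ x = t := by
  have h1 := hζ.autToPow_spec ℚ x
  rw [hx] at h1
  have h2 := hζ.pow_inj (ZMod.val_lt _) (ZMod.val_lt _) h1
  exact Units.ext (ZMod.val_injective m h2)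

section level

variable {G : Type*} [Group G] [Finite G] (r : Γℚ →* G)

/-- **the lower bound at the level of one auxiliary prime** -/
theorem s48c_level_lower (hr : Function.Surjective r) (L₀ : IntermediateField ℚ ℚbar)
    (hL₀ : ∀ σ : Γℚ, (∀ x ∈ L₀, σ x = x) → r σ = 1) {ℓ : ℕ} [hℓ : Fact ℓ.Prime]
    (hirr : Irreducible (cyclotomic ℓ ↥L₀)) {ζ : ℚbar} (hζ : IsPrimitiveRoot ζ ℓ)
    (M : IntermediateField ℚ ℚbar) [NumberField ↥M] [IsGalois ℚ ↥M] (hLM : L₀ ≤ M)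
    (hζM : ζ ∈ M) (k : ℕ) (hk : 2 * Nat.card G ^ k ∣ ℓ - 1) (C : Set G)
    (hC : ∀ g h : G, g ∈ C → h * g * h⁻¹ ∈ C) (S : Finset ℕ) :
    ∃ C₀ : ℝ, ∀ᶠ s in 𝓝[>] (1:ℝ), ∃ P : Finset ℕ,
      (∀ p ∈ P, p.Prime ∧ p ∉ S ∧ ∀ A : ValuationSubring ℚbar, A.LiesOverPrime p →
        ∀ σ : Γℚ, A.IsFrobeniusAt σ p → r σ ∈ C) ∧
      (Nat.card C : ℝ) / Nat.card G * (1 - Nat.card G / 2 ^ k) * Real.log (1 / (s - 1)) - C₀ ≤
        ∑ p ∈ P, (p : ℝ) ^ (-s) := by
  have hnQ := s48c_normal_Qbar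
  have hℓ2 : ℓ ≠ 2 := by
    rintro rfl
    have h1 : 2 * Nat.card G ^ k ≤ 1 := Nat.le_of_dvd (by norm_num) hk
    have h2 : 0 < Nat.card G ^ k := pow_pos Nat.card_pos k
    omega
  -- the root of unity in `M`
  set ζM : ↥M := ⟨ζ, hζM⟩ with hζMdef
  have hζM' : IsPrimitiveRoot ζM ℓ := IsPrimitiveRoot.coe_submonoidClass_iff.mp hζ
  -- restriction and the factorisation of `r`
  set res : Γℚ →* Gal(↥M/ℚ) := AlgEquiv.restrictNormalHom ↥M with hres
  have hres_surj : Function.Surjective res := AlgEquiv.restrictNormalHom_surjective ℚbar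
  have hres_apply : ∀ (σ : Γℚ) (x : ↥M), ((res σ x : ↥M) : ℚbar) = σ (x : ℚbar) := fun σ x =>
    AlgEquiv.restrictNormal_commutes σ ↥M x
  have hker : res.ker ≤ r.ker := by
    intro σ hσ
    rw [MonoidHom.mem_ker] at hσ ⊢
    refine hL₀ σ fun x hx => ?_
    have := hres_apply σ ⟨x, hLM hx⟩
    rw [hσ] at this
    exact this.symm
  set rM : Gal(↥M/ℚ) →* G := res.liftOfSurjective hres_surj ⟨r, hker⟩ with hrM
  have hrM_apply : ∀ σ : Γℚ, rM (res σ) = r σ := fun σ =>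
    MonoidHom.liftOfRightInverse_comp_apply _ _ _ ⟨r, hker⟩ σ
  -- independence
  have hsurj : ∀ (g : G) (t : s48c_Q ℓ), ∃ x : Gal(↥M/ℚ), rM x = g ∧ s48c_kap hζM' x = t := by
    intro g t
    obtain ⟨u, rfl⟩ := QuotientGroup.mk_surjective t
    obtain ⟨σ₀, hσ₀⟩ := hr g
    set u₀ : (ZMod ℓ)ˣ := hζM'.autToPow ℚ (res σ₀) with hu₀
    have hcop : ((u₀⁻¹ * u : (ZMod ℓ)ˣ) : ZMod ℓ).val.Coprime ℓ := ZMod.val_coe_unit_coprime _
    obtain ⟨σ₁, hσ₁fix, hσ₁ζ⟩ := s48c_exists_aut_zeta L₀ hirr hζ _ hcop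
    refine ⟨res (σ₀ * σ₁), ?_, ?_⟩
    · rw [hrM_apply, map_mul, hσ₀, hL₀ σ₁ hσ₁fix, mul_one]
    · have h1 : hζM'.autToPow ℚ (res σ₁) = u₀⁻¹ * u := by
        refine s48c_autToPow_eq hζM' _ _ ?_
        apply Subtype.ext
        rw [hres_apply]
        simp only [hζMdef, SubmonoidClass.coe_pow]
        exact hσ₁ζ
      unfold s48c_kap
      rw [MonoidHom.comp_apply, map_mul, map_mul, ← hu₀, h1, mul_inv_cancel_left]
      rfl
  -- the cyclic group
  have hcyc := s48c_isCyclic_Q ℓ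
  have hk' : Nat.card G ^ k ∣ Nat.card (s48c_Q ℓ) := by
    have h1 := s48c_card_Q hℓ2
    rw [← h1, mul_comm] at hk
    exact Nat.dvd_of_mul_dvd_mul_right (by norm_num) hk
  obtain ⟨C₀, hC₀⟩ := s48c_fin_lower rM hζM' hsurj k hk' C S
  refine ⟨C₀, ?_⟩
  filter_upwards [hC₀] with s hs
  obtain ⟨P, hP1, hP2⟩ := hs
  refine ⟨P, fun p hp => ?_, hP2⟩
  obtain ⟨hpp, hpS, w₀, hpw₀, hgood, hfr⟩ := hP1 p hp
  refine ⟨hpp, hpS, fun A hA σ hσ => ?_⟩
  rw [← hrM_apply]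
  exact s48c_bridge M rM C hC hpp w₀ hpw₀ hgood hfr A hA σ hσ

end level

end Fermat.Agent.Lib.S48
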