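/-
[CHEB] **Chebotarev density theorem**, final statement (lower Dirichlet density, finite-sum form,
in the Prelude's Frobenius language).
-/
import Fermat.Agent.Lib.S48.ChebMain
import Fermat.Agent.Lib.CFT.CycloIrred

set_option autoImplicit false
set_option linter.unusedSectionVars false

namespace Fermat.Agent.Lib.S48

open NumberField IsDedekindDomain Filter Topology Pointwise Polynomial IntermediateField
  Fermat.Agent.Lib.S29 Fermat.Agent.Lib.CFT Fermat.Agent.Lib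

local notation "ℚbar" => AlgebraicClosure ℚ
local notation "Γℚ" => (AlgebraicClosure ℚ ≃ₐ[ℚ] AlgebraicClosure ℚ)

/-- a finite Galois subextension of `ℚ̄` containing a given finite subextension and a given element -/
theorem s48c_exists_M (L₀ : IntermediateField ℚ ℚbar) (hfd : FiniteDimensional ℚ ↥L₀) (ζ : ℚbar) :
    ∃ (M : IntermediateField ℚ ℚbar) (_ : NumberField ↥M) (_ : IsGalois ℚ ↥M), L₀ ≤ M ∧ ζ ∈ M := by
  have hnQ := s48c_normal_Qbar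
  have hζint : IsIntegral ℚ ζ := (Frobenius.isAlgebraic_QBar.isAlgebraic ζ).isIntegral
  have h1 : FiniteDimensional ℚ ↥ℚ⟮ζ⟯ := IntermediateField.adjoin.finiteDimensional hζint
  have h2 : FiniteDimensional ℚ ↥(L₀ ⊔ ℚ⟮ζ⟯) := IntermediateField.finiteDimensional_sup L₀ ℚ⟮ζ⟯
  set M := normalClosure ℚ ↥(L₀ ⊔ ℚ⟮ζ⟯) ℚbar with hM
  have h3 : FiniteDimensional ℚ ↥M := normalClosure.is_finiteDimensional ℚ ↥(L₀ ⊔ ℚ⟮ζ⟯) ℚbar
  have h4 : Normal ℚ ↥M := normalClosure.normal ℚ ↥(L₀ ⊔ ℚ⟮ζ⟯) ℚbar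
  have hNF : NumberField ↥M :=
    { to_charZero := inferInstance
      to_finiteDimensional := by convert h3 }
  have hN : Normal ℚ ↥M := by convert h4
  have hG : IsGalois ℚ ↥M := ⟨⟩
  have hle : L₀ ⊔ ℚ⟮ζ⟯ ≤ M := IntermediateField.le_normalClosure _
  exact ⟨M, hNF, hG, le_sup_left.trans hle,
    hle (le_sup_right (a := L₀) (IntermediateField.mem_adjoin_simple_self ℚ ζ))⟩

/-- **Chebotarev density theorem**, lower density form -/
theorem s48c_chebotarev (G : Type) [Group G] [Fintype G] (r : Γℚ →* G)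
    (hr : Function.Surjective r) (hfin : GaloisFactorsThroughFiniteLevel r) (S : Finset ℕ)
    (C : Set G) (hC : ∀ g h : G, g ∈ C → h * g * h⁻¹ ∈ C) :
    ∀ ε : ℝ, 0 < ε → ∃ s₀ : ℝ, 1 < s₀ ∧ ∀ s : ℝ, 1 < s → s < s₀ →
      ∃ P : Finset ℕ,
        (∀ p ∈ P, p ∈ {p : ℕ | p.Prime ∧ p ∉ S ∧
          ∀ A : ValuationSubring (AlgebraicClosure ℚ), A.LiesOverPrime p →
            ∀ σ : Γℚ, A.IsFrobeniusAt σ p → r σ ∈ C}) ∧
        ((Nat.card C : ℝ) / Nat.card G - ε) * Real.log (1 / (s - 1)) ≤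
          ∑ p ∈ P, (p : ℝ) ^ (-s) := by
  intro ε hε
  obtain ⟨L₀, hfd, hL₀⟩ := hfin
  have hNF₀ : NumberField ↥L₀ :=
    { to_charZero := inferInstance
      to_finiteDimensional := by convert hfd }
  set n := Nat.card G with hn
  have hn0 : 0 < n := Nat.card_pos
  have hn0' : (0:ℝ) < n := by exact_mod_cast hn0
  -- the precision
  obtain ⟨k, hk⟩ : ∃ k : ℕ, (n : ℝ) / 2 ^ k < ε / 2 := by
    obtain ⟨k, hk⟩ := pow_unbounded_of_one_lt (2 * n / ε) (by norm_num : (1:ℝ) < 2)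
    refine ⟨k, ?_⟩
    rw [div_lt_iff₀ (by positivity)] at hk ⊢
    linarith
  -- the auxiliary prime
  obtain ⟨Sirr, hSirr⟩ := cfc_cyclotomic_irreducible_of_notMem ↥L₀
  obtain ⟨ℓ, hℓp, hℓgt, hℓmod⟩ := Nat.exists_prime_gt_modEq_one (k := 2 * n ^ k) (Sirr.sup id)
    (by positivity)
  have hℓS : ℓ ∉ Sirr := fun h => absurd (Finset.le_sup (f := id) h) (not_le.mpr hℓgt)
  have hdvd : 2 * n ^ k ∣ ℓ - 1 := (Nat.modEq_iff_dvd' hℓp.one_le).mp hℓmod.symm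
  have hfact : Fact ℓ.Prime := ⟨hℓp⟩
  have hirr := hSirr ℓ hℓp hℓS
  have hne : NeZero ((ℓ : ℕ) : ℚ) := ⟨by exact_mod_cast hℓp.ne_zero⟩
  obtain ⟨ζ, hζ⟩ : ∃ ζ : ℚbar, IsPrimitiveRoot ζ ℓ :=
    HasEnoughRootsOfUnity.exists_primitiveRoot ℚbar ℓ
  obtain ⟨M, hNF, hG, hLM, hζM⟩ := s48c_exists_M L₀ hfd ζ
  obtain ⟨C₀, hC₀⟩ := s48c_level_lower r hr L₀ hL₀ hirr hζ M hLM hζM k hdvd C hC S
  have hlog := s29d_tendsto_log.eventually_gt_atTop (max (2 * C₀ / ε) 0)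
  obtain ⟨s₀, hs₀, hsub⟩ := mem_nhdsGT_iff_exists_Ioo_subset.mp (hC₀.and hlog)
  refine ⟨s₀, hs₀, fun s hs1 hs2 => ?_⟩
  obtain ⟨⟨P, hP1, hP2⟩, hl⟩ := hsub ⟨hs1, hs2⟩
  refine ⟨P, hP1, ?_⟩
  have hl1 : 2 * C₀ / ε < Real.log (1 / (s - 1)) := lt_of_le_of_lt (le_max_left _ _) hl
  have hl0 : 0 < Real.log (1 / (s - 1)) := lt_of_le_of_lt (le_max_right _ _) hl
  have hC₀' : C₀ < ε / 2 * Real.log (1 / (s - 1)) := by
    rw [div_lt_iff₀ hε] at hl1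
    linarith
  set δ : ℝ := (Nat.card C : ℝ) / n with hδ
  have hδ1 : δ ≤ 1 := by
    rw [hδ, div_le_one hn0']
    exact_mod_cast Finite.card_subtype_le _
  have hδ0 : 0 ≤ δ := by positivity
  have h1 : δ - ε / 2 ≤ δ * (1 - n / 2 ^ k) := by
    have : δ * ((n:ℝ) / 2 ^ k) ≤ 1 * (ε / 2) :=
      mul_le_mul hδ1 hk.le (by positivity) zero_le_one
    nlinarith
  have h2 : (δ - ε / 2) * Real.log (1 / (s - 1)) ≤
      δ * (1 - n / 2 ^ k) * Real.log (1 / (s - 1)) := mul_le_mul_of_nonneg_right h1 hl0.le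
  have h3 : (δ - ε) * Real.log (1 / (s - 1)) =
      (δ - ε / 2) * Real.log (1 / (s - 1)) - ε / 2 * Real.log (1 / (s - 1)) := by ring
  rw [h3]
  linarith

end Fermat.Agent.Lib.S48
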