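/-
DS-1 (S48), Stage A, brick (D5) (helper7, prefix `s48r_`): **the density form of the Rankin bound**.
If pairwise disjoint sets of primes `T i` have lower Dirichlet density `≥ δ i` and `b_p ≥ v i` on `T i`, then
the (elementary) Rankin bound forces `∑ i, δ i * v i ≤ 1`.  With Chebotarev (`T_C` = primes with Frobenius
class `C`, `δ_C = |C|/|G|`, `v_C = |χ(C)|²`) this reads `⟨χ, χ⟩ ≤ 1`.
-/
import Mathlib

set_option autoImplicit false

noncomputable section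

namespace Fermat.Agent.Lib.S48

open Finset

/-- the conclusion of the elementary Rankin bound (`s48r_rankin`, `s48r_rankin_cusp`) as a property of
`b` on a set `Pr` of primes. -/
def s48r_RankinProp (b : ℕ → ℝ) (Pr : Set ℕ) : Prop :=
  ∃ C : ℝ, ∀ (P : Finset ℕ), (∀ p ∈ P, p ∈ Pr) → ∀ (v : ℕ → ℝ) (V : ℝ),
    (∀ p ∈ P, 0 ≤ v p) → (∀ p ∈ P, v p ≤ b p) → (∀ p ∈ P, v p ≤ V) →
    ∀ s : ℝ, 1 < s → s ≤ 2 →
      ∑ p ∈ P, v p * (p : ℝ) ^ (-s) ≤ Real.log (1 / (s - 1)) + C + V ^ 2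

/-- lower Dirichlet density `≥ δ`, in finite-sum form. -/
def s48r_LowerDensity (T : Set ℕ) (δ : ℝ) : Prop :=
  ∀ ε : ℝ, 0 < ε → ∃ s₀ : ℝ, 1 < s₀ ∧ ∀ s : ℝ, 1 < s → s < s₀ →
    ∃ P : Finset ℕ, (∀ p ∈ P, p ∈ T) ∧
      (δ - ε) * Real.log (1 / (s - 1)) ≤ ∑ p ∈ P, (p : ℝ) ^ (-s)

/-- **(D5b)**: the density form of the Rankin bound. -/
theorem s48r_density_le_one {b : ℕ → ℝ} {Pr : Set ℕ} (hR : s48r_RankinProp b Pr)
    {ι : Type*} [Fintype ι] (T : ι → Set ℕ)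
    (hdisj : ∀ i j, i ≠ j → Disjoint (T i) (T j)) (hT : ∀ i, T i ⊆ Pr)
    (δ v : ι → ℝ) (hv0 : ∀ i, 0 ≤ v i) (hvb : ∀ i, ∀ p ∈ T i, v i ≤ b p)
    (hδ : ∀ i, s48r_LowerDensity (T i) (δ i)) :
    ∑ i, δ i * v i ≤ 1 := by
  classical
  by_contra hcon
  rw [not_le] at hcon
  obtain ⟨C, hC⟩ := hR
  set η : ℝ := ∑ i, δ i * v i - 1 with hη
  have hη0 : 0 < η := by linarith
  set Vs : ℝ := ∑ i, v i with hVs
  have hVs0 : 0 ≤ Vs := sum_nonneg fun i _ => hv0 i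
  have hvV : ∀ i, v i ≤ Vs := fun i =>
    single_le_sum (f := v) (fun j _ => hv0 j) (mem_univ i)
  set ε : ℝ := η / (2 * (Vs + 1)) with hε
  have hε0 : 0 < ε := by positivity
  have hεV : ε * Vs ≤ η / 2 := by
    rw [hε, div_mul_eq_mul_div, div_le_div_iff₀ (by positivity) (by norm_num)]
    nlinarith
  choose s₀ hs₀1 hs₀ using fun i => hδ i ε hε0
  -- a common threshold
  obtain ⟨s₁, hs₁1, hs₁2, hs₁⟩ : ∃ s₁ : ℝ, 1 < s₁ ∧ s₁ ≤ 2 ∧ ∀ i, s₁ ≤ s₀ i := by
    have key : ∀ S : Finset ι, ∃ s₁ : ℝ, 1 < s₁ ∧ s₁ ≤ 2 ∧ ∀ i ∈ S, s₁ ≤ s₀ i := by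
      intro S
      induction S using Finset.induction_on with
      | empty => exact ⟨2, by norm_num, le_refl _, by simp⟩
      | insert a S _ ih =>
        obtain ⟨t, ht1, ht2, ht⟩ := ih
        refine ⟨min t (s₀ a), lt_min ht1 (hs₀1 a), (min_le_left _ _).trans ht2, fun i hi => ?_⟩
        rcases mem_insert.mp hi with rfl | hi
        · exact min_le_right _ _
        · exact (min_le_left _ _).trans (ht i hi)
    obtain ⟨t, ht1, ht2, ht⟩ := key univ
    exact ⟨t, ht1, ht2, fun i => ht i (mem_univ i)⟩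
  -- choose `s` close to `1`
  set Λ : ℝ := 2 * (|C| + Vs ^ 2) / η + 1 with hΛ
  have hΛ0 : 0 < Λ := by positivity
  set s : ℝ := 1 + min ((s₁ - 1) / 2) (Real.exp (-Λ)) with hs
  have hs_gt : 1 < s := by
    have : 0 < min ((s₁ - 1) / 2) (Real.exp (-Λ)) :=
      lt_min (by linarith) (Real.exp_pos _)
    linarith
  have hs_lt : s < s₁ := by
    have : min ((s₁ - 1) / 2) (Real.exp (-Λ)) ≤ (s₁ - 1) / 2 := min_le_left _ _
    linarith
  have hs2 : s ≤ 2 := by linarith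
  have hs1 : 0 < s - 1 := by linarith
  set L : ℝ := Real.log (1 / (s - 1)) with hL
  have hLΛ : Λ ≤ L := by
    have h1 : s - 1 ≤ Real.exp (-Λ) := by
      rw [hs]
      simp
    rw [hL, one_div, Real.log_inv, le_neg]
    calc Real.log (s - 1) ≤ Real.log (Real.exp (-Λ)) := Real.log_le_log hs1 h1
      _ = -Λ := Real.log_exp _
  have hL0 : 0 < L := lt_of_lt_of_le hΛ0 hLΛ
  -- the finite sets
  choose P hPT hPsum using fun i => hs₀ i s hs_gt (lt_of_lt_of_le hs_lt (hs₁ i))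
  have hPdisj : (↑(univ : Finset ι) : Set ι).PairwiseDisjoint P := by
    intro i _ j _ hij
    rw [Function.onFun, Finset.disjoint_left]
    intro p hpi hpj
    exact Set.disjoint_left.mp (hdisj i j hij) (hPT i p hpi) (hPT j p hpj)
  set Pall : Finset ℕ := univ.biUnion P with hPall
  -- the weight
  set v' : ℕ → ℝ := fun p => ∑ i, if p ∈ T i then v i else 0 with hv'
  have hv'eq : ∀ i, ∀ p ∈ T i, v' p = v i := by
    intro i p hp
    rw [hv']
    simp only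
    rw [sum_eq_single i]
    · rw [if_pos hp]
    · intro j _ hji
      rw [if_neg]
      intro hpj
      exact Set.disjoint_left.mp (hdisj j i hji) hpj hp
    · intro h; exact absurd (mem_univ i) h
  have hmemP : ∀ p ∈ Pall, ∃ i, p ∈ P i := by
    intro p hp
    obtain ⟨i, _, hi⟩ := mem_biUnion.mp hp
    exact ⟨i, hi⟩
  have hR1 := hC Pall (fun p hp => by
      obtain ⟨i, hi⟩ := hmemP p hp
      exact hT i (hPT i p hi)) v' Vs
    (fun p hp => by
      obtain ⟨i, hi⟩ := hmemP p hp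
      rw [hv'eq i p (hPT i p hi)]; exact hv0 i)
    (fun p hp => by
      obtain ⟨i, hi⟩ := hmemP p hp
      rw [hv'eq i p (hPT i p hi)]; exact hvb i p (hPT i p hi))
    (fun p hp => by
      obtain ⟨i, hi⟩ := hmemP p hp
      rw [hv'eq i p (hPT i p hi)]; exact hvV i) s hs_gt hs2
  rw [hPall, sum_biUnion hPdisj] at hR1
  have hlow : ∑ i, v i * ((δ i - ε) * L) ≤ ∑ i, ∑ p ∈ P i, v' p * (p : ℝ) ^ (-s) := by
    refine sum_le_sum fun i _ => ?_
    have h1 : ∑ p ∈ P i, v' p * (p : ℝ) ^ (-s) = v i * ∑ p ∈ P i, (p : ℝ) ^ (-s) := by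
      rw [mul_sum]
      exact sum_congr rfl fun p hp => by rw [hv'eq i p (hPT i p hp)]
    rw [h1]
    exact mul_le_mul_of_nonneg_left (hPsum i) (hv0 i)
  have hexp : ∑ i, v i * ((δ i - ε) * L) = (η + 1 - ε * Vs) * L := by
    have : ∑ i, v i * ((δ i - ε) * L) = (∑ i, δ i * v i - ε * ∑ i, v i) * L := by
      rw [mul_sum, ← sum_sub_distrib, sum_mul]
      exact sum_congr rfl fun i _ => by ring
    rw [this, hη, ← hVs]
    ring
  have hfin : (η / 2) * L ≤ |C| + Vs ^ 2 := by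
    have h1 : (η + 1 - ε * Vs) * L ≤ L + C + Vs ^ 2 := by
      rw [← hexp]; exact hlow.trans hR1
    have h2 : C ≤ |C| := le_abs_self C
    nlinarith
  have hcontra : (η / 2) * Λ ≤ |C| + Vs ^ 2 :=
    le_trans (mul_le_mul_of_nonneg_left hLΛ (by positivity)) hfin
  have : (η / 2) * Λ = |C| + Vs ^ 2 + η / 2 := by
    rw [hΛ]
    field_simp
  linarith

end Fermat.Agent.Lib.S48
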