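/-
DS-1 (S48), wall [T1] (helper7, prefix `s48t_`): **the INPUT interfaces of the top reduction (DS §8)**.
Statements only.  `a p = qCoeff f p`, `e p = ε p` are the eigenvalue / character sequences in `ℂ`;
`ℤ̄ = integralClosure ℤ ℂ`.

* `s48t_UpperDensity X η`  : upper Dirichlet density `≤ η` (finite-sum form, cf. `s48r_LowerDensity`);
* `s48t_P55 N a`           : [T3] + (D3): DS Prop. 5.5 — off a set of primes of arbitrarily small upper density
                             the `a_p` take finitely many values;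
* `s48t_Family N a e`      : (D2): the `a_p`, `ε(p)` are algebraic integers, and there are `d` and infinitely
                             many `ℓ` with a finite field `F ⊆ kf` of characteristic `ℓ`, `|F| ≤ ℓ ^ d`, a residue
                             map `φ : ℤ̄ →+* kf` and `ρ̄ : G_ℚ → GL₂(F)` (NOT nec. semisimple) of finite level,
                             unramified outside `Nℓ`, `tr ρ̄(Frob_p) = φ(a_p)`, `det ρ̄(Frob_p) = φ(ε(p))` in `kf`
                             for `p ∤ Nℓ`;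
* `s48t_FamilyR N a e`     : the same with `φ₀ : R →+* F` on a subring `R ⊆ ℂ` of algebraic integers containing the
                             `a_p`, `ε(p)` (implies `s48t_Family`, see `TExtend.lean`);
* `s48t_Chebotarev`        : [T2]: for `r : G_ℚ ↠ G` finite, unramified outside `S`, and `C ⊆ G` stable under
                             conjugation, the primes with Frobenius in `C` have lower density `≥ |C|/|G|`;
* `s48t_Lift`              : (D4-b): a representation `ρ̄ : G → GL₂(F)` of a finite group of order prime to `ℓ`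
                             lifts to `GL₂(ℂ)` with integral trace and determinant, compatible with a GIVEN
                             `φ : ℤ̄ →+* kf` (helper2's `s48l_lift_complex`, over a finite field `F ⊆ kf`).
-/
import Fermat.Agent.Lib.S48.RDensity
import Fermat.Prelude.Def_GaloisRep_Residual
import Fermat.Prelude.Def_EllipticCurve_FrobeniusTrace

set_option autoImplicit false

noncomputable section

namespace Fermat.Agent.Lib.S48

open Finset Matrix

local notation "Γℚ" => (AlgebraicClosure ℚ ≃ₐ[ℚ] AlgebraicClosure ℚ)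

/-- upper Dirichlet density `≤ η`, in finite-sum form. -/
def s48t_UpperDensity (X : Set ℕ) (η : ℝ) : Prop :=
  ∃ C : ℝ, ∀ P : Finset ℕ, (∀ p ∈ P, p ∈ X) → ∀ s : ℝ, 1 < s → s ≤ 2 →
    ∑ p ∈ P, (p : ℝ) ^ (-s) ≤ η * Real.log (1 / (s - 1)) + C

/-- **DS Prop. 5.5** ([T3] + (D3)). -/
def s48t_P55 (N : ℕ) (a : ℕ → ℂ) : Prop :=
  ∀ η : ℝ, 0 < η → ∃ (X : Set ℕ) (S : Finset ℂ), s48t_UpperDensity X η ∧
    ∀ p : ℕ, p.Prime → ¬ p ∣ N → p ∉ X → a p ∈ S

/-- **(D2)**: the family of mod-`ℓ` representations, with residue maps on all of `ℤ̄`. -/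
def s48t_Family (N : ℕ) (a e : ℕ → ℂ) : Prop :=
  (∀ p : ℕ, p.Prime → ¬ p ∣ N → IsIntegral ℤ (a p) ∧ IsIntegral ℤ (e p)) ∧
  ∃ d : ℕ, ∀ B : ℕ, ∃ (ℓ : ℕ) (_ : Fact ℓ.Prime), B < ℓ ∧
    ∃ (F : Type) (_ : Field F) (_ : Fintype F) (_ : CharP F ℓ), Fintype.card F ≤ ℓ ^ d ∧
    ∃ (kf : Type) (_ : Field kf) (j : F →+* kf) (φ : integralClosure ℤ ℂ →+* kf)
      (ρ : Γℚ →* GL (Fin 2) F),
      GaloisFactorsThroughFiniteLevel ρ ∧
      ∀ p : ℕ, p.Prime → ¬ p ∣ N * ℓ →
        ∀ A : ValuationSubring (AlgebraicClosure ℚ), A.LiesOverPrime p →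
          (∀ σ ∈ A.inertiaSubgroupIn ℚ, ρ σ = 1) ∧
          ∀ σ : Γℚ, A.IsFrobeniusAt σ p →
            ∀ x y : integralClosure ℤ ℂ, (x : ℂ) = a p → (y : ℂ) = e p →
              j (ρ σ).val.trace = φ x ∧ j (ρ σ).val.det = φ y

/-- **(D2)**, ring form: residue maps `φ₀ : R →+* F` on a ring `R ⊆ ℂ` of algebraic integers. -/
def s48t_FamilyR (N : ℕ) (a e : ℕ → ℂ) : Prop :=
  ∃ (R : Subring ℂ) (α β : ℕ → R), (∀ x : R, IsIntegral ℤ (x : ℂ)) ∧
    (∀ p : ℕ, p.Prime → ¬ p ∣ N → (α p : ℂ) = a p ∧ (β p : ℂ) = e p) ∧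
    ∃ d : ℕ, ∀ B : ℕ, ∃ (ℓ : ℕ) (_ : Fact ℓ.Prime), B < ℓ ∧
      ∃ (F : Type) (_ : Field F) (_ : Fintype F) (_ : CharP F ℓ), Fintype.card F ≤ ℓ ^ d ∧
      ∃ (φ₀ : R →+* F) (ρ : Γℚ →* GL (Fin 2) F),
        GaloisFactorsThroughFiniteLevel ρ ∧
        ∀ p : ℕ, p.Prime → ¬ p ∣ N * ℓ →
          ∀ A : ValuationSubring (AlgebraicClosure ℚ), A.LiesOverPrime p →
            (∀ σ ∈ A.inertiaSubgroupIn ℚ, ρ σ = 1) ∧
            ∀ σ : Γℚ, A.IsFrobeniusAt σ p →
              (ρ σ).val.trace = φ₀ (α p) ∧ (ρ σ).val.det = φ₀ (β p)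

/-- **[T2]**: Chebotarev, lower-density form, in the Prelude's Frobenius language. -/
def s48t_Chebotarev : Prop :=
  ∀ (G : Type) [Group G] [Fintype G] (r : Γℚ →* G), Function.Surjective r →
    GaloisFactorsThroughFiniteLevel r →
    ∀ S : Finset ℕ, (∀ p : ℕ, p.Prime → p ∉ S →
      ∀ A : ValuationSubring (AlgebraicClosure ℚ), A.LiesOverPrime p →
        ∀ σ ∈ A.inertiaSubgroupIn ℚ, r σ = 1) →
    ∀ C : Set G, (∀ g h : G, g ∈ C → h * g * h⁻¹ ∈ C) →
      s48r_LowerDensity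
        {p | p.Prime ∧ p ∉ S ∧ ∀ A : ValuationSubring (AlgebraicClosure ℚ), A.LiesOverPrime p →
          ∀ σ : Γℚ, A.IsFrobeniusAt σ p → r σ ∈ C}
        ((Nat.card C : ℝ) / Nat.card G)

/-- **(D4-b)**: lifting of representations of groups of order prime to `ℓ`, relative to a given residue map
`φ : ℤ̄ →+* kf`. -/
def s48t_Lift : Prop :=
  ∀ (ℓ : ℕ) [Fact ℓ.Prime] (F : Type) [Field F] [Fintype F] [CharP F ℓ] (kf : Type) [Field kf]
    (j : F →+* kf) (φ : integralClosure ℤ ℂ →+* kf)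
    (G : Type) [Group G] [Fintype G], ¬ ℓ ∣ Fintype.card G →
    ∀ ρb : G →* GL (Fin 2) F,
      ∃ ρ : G →* GL (Fin 2) ℂ, ∀ g : G, ∃ t d : integralClosure ℤ ℂ,
        (t : ℂ) = (ρ g).val.trace ∧ (d : ℂ) = (ρ g).val.det ∧
        φ t = j (ρb g).val.trace ∧ φ d = j (ρb g).val.det

end Fermat.Agent.Lib.S48
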