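/-
DS-1 (S48), wall [T1] (helper7, prefix `s48t_`): elementary density comparison lemmas.
* `s48t_density_le`     : lower density `≥ δ` of `T`, upper density `≤ η` of `X ⊇ T` ⇒ `δ ≤ η`;
* `s48t_nonempty_of_lowerDensity` : positive lower density ⇒ nonempty;
* `s48t_lowerDensity_mono` : monotone in the set.
-/
import Fermat.Agent.Lib.S48.TIface

set_option autoImplicit false

noncomputable section

namespace Fermat.Agent.Lib.S48

open Finset

theorem s48t_lowerDensity_mono {T T' : Set ℕ} {δ : ℝ} (h : s48r_LowerDensity T δ) (hsub : T ⊆ T') :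
    s48r_LowerDensity T' δ := by
  intro ε hε
  obtain ⟨s₀, hs₀, h₀⟩ := h ε hε
  refine ⟨s₀, hs₀, fun s hs hss => ?_⟩
  obtain ⟨P, hP, hsum⟩ := h₀ s hs hss
  exact ⟨P, fun p hp => hsub (hP p hp), hsum⟩

theorem s48t_density_le {T X : Set ℕ} {δ η : ℝ} (hT : s48r_LowerDensity T δ)
    (hX : s48t_UpperDensity X η) (hTX : T ⊆ X) : δ ≤ η := by
  by_contra hcon
  rw [not_le] at hcon
  obtain ⟨C, hC⟩ := hX
  set ε : ℝ := (δ - η) / 2 with hε
  have hε0 : 0 < ε := by rw [hε]; linarith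
  obtain ⟨s₀, hs₀, h₀⟩ := hT ε hε0
  set Λ : ℝ := |C| / ε + 1 with hΛ
  have hΛ0 : 0 < Λ := by positivity
  set s : ℝ := 1 + min ((s₀ - 1) / 2) (Real.exp (-Λ)) with hs
  have hmin0 : 0 < min ((s₀ - 1) / 2) (Real.exp (-Λ)) := lt_min (by linarith) (Real.exp_pos _)
  have hs_gt : 1 < s := by linarith
  have hs_lt : s < s₀ := by
    have : min ((s₀ - 1) / 2) (Real.exp (-Λ)) ≤ (s₀ - 1) / 2 := min_le_left _ _
    linarith
  have hexp1 : Real.exp (-Λ) < 1 := by
    rw [Real.exp_lt_one_iff]; linarith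
  have hs2 : s ≤ 2 := by
    have : min ((s₀ - 1) / 2) (Real.exp (-Λ)) ≤ Real.exp (-Λ) := min_le_right _ _
    linarith
  have hs1 : 0 < s - 1 := by linarith
  have hlog : Λ ≤ Real.log (1 / (s - 1)) := by
    have h1 : s - 1 ≤ Real.exp (-Λ) := by
      have : min ((s₀ - 1) / 2) (Real.exp (-Λ)) ≤ Real.exp (-Λ) := min_le_right _ _
      linarith
    have h2 : Real.exp Λ ≤ 1 / (s - 1) := by
      rw [le_div_iff₀ hs1]
      calc Real.exp Λ * (s - 1) ≤ Real.exp Λ * Real.exp (-Λ) :=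
            mul_le_mul_of_nonneg_left h1 (Real.exp_pos _).le
        _ = 1 := by rw [← Real.exp_add]; simp
    calc Λ = Real.log (Real.exp Λ) := (Real.log_exp Λ).symm
      _ ≤ Real.log (1 / (s - 1)) := Real.log_le_log (Real.exp_pos _) h2
  obtain ⟨P, hP, hsum⟩ := h₀ s hs_gt hs_lt
  have hup := hC P (fun p hp => hTX (hP p hp)) s hs_gt hs2
  have hkey : ε * Real.log (1 / (s - 1)) ≤ C := by
    have : (δ - ε) - η = ε := by rw [hε]; ring
    nlinarith
  have hεΛ : ε * Λ = |C| + ε := by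
    rw [hΛ]; field_simp
  have : ε * Λ ≤ C := le_trans (mul_le_mul_of_nonneg_left hlog hε0.le) hkey
  have habs : C ≤ |C| := le_abs_self C
  linarith

theorem s48t_upperDensity_empty : s48t_UpperDensity (∅ : Set ℕ) 0 := by
  refine ⟨0, fun P hP s _ _ => ?_⟩
  have : P = ∅ := by
    apply Finset.eq_empty_of_forall_notMem
    intro p hp
    exact hP p hp
  simp [this]

theorem s48t_nonempty_of_lowerDensity {T : Set ℕ} {δ : ℝ} (hδ : 0 < δ)
    (hT : s48r_LowerDensity T δ) : T.Nonempty := by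
  by_contra hne
  rw [Set.not_nonempty_iff_eq_empty] at hne
  have := s48t_density_le hT s48t_upperDensity_empty (by rw [hne])
  linarith

end Fermat.Agent.Lib.S48
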