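/-
DS-1 (S48), wall [T1] (helper7, prefix `s48t_`): small facts about `G_ℚ`-representations of finite level.
* `s48t_exists_frob`            : Frobenius elements exist at every prime;
* `s48t_finiteLevel_comp/prod/rangeRestrict` : stability of `GaloisFactorsThroughFiniteLevel`;
* `s48t_finite_range`           : finite level ⇒ finite image.
-/
import Fermat.Agent.Lib.S48.TIface
import Fermat.Agent.Lib.Frobenius.Exists

set_option autoImplicit false

noncomputable section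

namespace Fermat.Agent.Lib.S48

local notation "Γℚ" => (AlgebraicClosure ℚ ≃ₐ[ℚ] AlgebraicClosure ℚ)

theorem s48t_exists_frob (p : ℕ) (hp : p.Prime) :
    ∃ (A : ValuationSubring (AlgebraicClosure ℚ)) (σ : Γℚ),
      A.LiesOverPrime p ∧ A.IsFrobeniusAt σ p :=
  Fermat.Agent.Lib.Frobenius.exists_isFrobeniusAt p hp

theorem s48t_finiteLevel_comp {M M' : Type} [MulOneClass M] [MulOneClass M'] {ρ : Γℚ →* M}
    (h : GaloisFactorsThroughFiniteLevel ρ) (f : M →* M') :
    GaloisFactorsThroughFiniteLevel (f.comp ρ) := by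
  obtain ⟨L, hL, hρ⟩ := h
  exact ⟨L, hL, fun σ hσ => by rw [MonoidHom.comp_apply, hρ σ hσ, map_one]⟩

theorem s48t_finiteLevel_prod {M M' : Type} [MulOneClass M] [MulOneClass M'] {ρ : Γℚ →* M}
    {ρ' : Γℚ →* M'} (h : GaloisFactorsThroughFiniteLevel ρ)
    (h' : GaloisFactorsThroughFiniteLevel ρ') :
    GaloisFactorsThroughFiniteLevel (ρ.prod ρ') := by
  obtain ⟨L, hL, hρ⟩ := h
  obtain ⟨L', hL', hρ'⟩ := h'
  have := hL
  have := hL'
  refine ⟨L ⊔ L', IntermediateField.finiteDimensional_sup L L', fun σ hσ => ?_⟩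
  rw [MonoidHom.prod_apply, hρ σ fun x hx => hσ x ((le_sup_left : L ≤ L ⊔ L') hx),
    hρ' σ fun x hx => hσ x ((le_sup_right : L' ≤ L ⊔ L') hx)]
  rfl

theorem s48t_finiteLevel_rangeRestrict {M : Type} [Group M] {ρ : Γℚ →* M}
    (h : GaloisFactorsThroughFiniteLevel ρ) :
    GaloisFactorsThroughFiniteLevel ρ.rangeRestrict := by
  obtain ⟨L, hL, hρ⟩ := h
  refine ⟨L, hL, fun σ hσ => ?_⟩
  apply Subtype.ext
  rw [MonoidHom.coe_rangeRestrict, hρ σ hσ]
  rfl

theorem s48t_finite_range {M : Type} [MulOneClass M] {ρ : Γℚ →* M}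
    (h : GaloisFactorsThroughFiniteLevel ρ) : (Set.range ρ).Finite := by
  classical
  obtain ⟨L, hL, hρ⟩ := h
  have := hL
  -- `ρ σ` only depends on the restriction of `σ` to `L`
  let res : Γℚ → (L →ₐ[ℚ] AlgebraicClosure ℚ) := fun σ => (σ : AlgebraicClosure ℚ →ₐ[ℚ] AlgebraicClosure ℚ).comp L.val
  have hres : ∀ σ τ : Γℚ, res σ = res τ → ρ σ = ρ τ := by
    intro σ τ hστ
    have hfix : ∀ x ∈ L, (σ⁻¹ * τ) x = x := by
      intro x hx
      have h2 : σ x = τ x := DFunLike.congr_fun hστ ⟨x, hx⟩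
      rw [AlgEquiv.mul_apply, ← h2]
      exact σ.symm_apply_apply x
    have h1 := hρ (σ⁻¹ * τ) hfix
    calc ρ σ = ρ σ * ρ (σ⁻¹ * τ) := by rw [h1, mul_one]
      _ = ρ (σ * (σ⁻¹ * τ)) := (map_mul ρ _ _).symm
      _ = ρ τ := by rw [mul_inv_cancel_left]
  let g : (L →ₐ[ℚ] AlgebraicClosure ℚ) → M := fun f =>
    if hf : ∃ σ : Γℚ, res σ = f then ρ hf.choose else 1
  have hsub : Set.range ρ ⊆ Set.range g := by
    rintro _ ⟨σ, rfl⟩
    refine ⟨res σ, ?_⟩
    have hf : ∃ τ : Γℚ, res τ = res σ := ⟨σ, rfl⟩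
    simp only [g, dif_pos hf]
    exact hres _ _ hf.choose_spec
  exact (Set.finite_range g).subset hsub

end Fermat.Agent.Lib.S48
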