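/-
DS-1 (S48), wall [T3] (helper1, prefix `s48a_`): "Eisenstein division", part B — the quotient function.

Data: a multiplier `G` (1-periodic, holomorphic, bounded at `i∞`, `a₁(G) = 1`), a formal power series `W`
with `W₀ = 0`, and for every `d ≥ 1` a function `H d` whose `q`-expansion is `W · (G(q^d))`.
Then `s48a_F G H` is a function on `ℍ` with `F · G(d·) = H d` for all `d ≥ 1`; it is holomorphic.
-/
import Mathlib
import Fermat.Agent.Lib.S48.ADivA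

set_option autoImplicit false

noncomputable section

namespace Fermat.Agent.Lib.S48

open Matrix.SpecialLinearGroup ModularForm CongruenceSubgroup UpperHalfPlane ModularFormClass Filter
open scoped MatrixGroups ModularForm Manifold Topology

/-! ### dilations -/

/-- the dilation `τ ↦ F(dτ)` (weight one slash by `diag(d,1)`). -/
def s48a_dil (d : ℕ) (F : ℍ → ℂ) : ℍ → ℂ := F ∣[(1 : ℤ)] heckeDiagMatrix d

theorem s48a_dil_apply {d : ℕ} (hd : d ≠ 0) (F : ℍ → ℂ) (τ : ℍ) :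
    s48a_dil d F τ = F (heckeDiagMatrix d • τ) := by
  rw [s48a_dil, slash_heckeDiagMatrix_apply 1 hd]
  simp

theorem s48a_qnice_dil {F : ℍ → ℂ} (hF : s48h_QNice F) (d : ℕ) : s48h_QNice (s48a_dil d F) :=
  hF.slash_diag 1 d

theorem s48a_qCoeff_dil {F : ℍ → ℂ} (hF : s48h_QNice F) {d : ℕ} (hd : d ≠ 0) (n : ℕ) :
    qCoeff (s48a_dil d F) n = if d ∣ n then qCoeff F (n / d) else 0 := by
  rw [s48a_dil, s48h_qCoeff_slash_diag hF 1 hd]
  simp

theorem s48a_heckeDiagMatrix_one : heckeDiagMatrix 1 = 1 := by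
  apply Units.ext
  rw [val_heckeDiagMatrix one_ne_zero]
  ext i j
  fin_cases i <;> fin_cases j <;> simp

theorem s48a_dil_one (F : ℍ → ℂ) : s48a_dil 1 F = F := by
  rw [s48a_dil, s48a_heckeDiagMatrix_one, SlashAction.slash_one]

theorem s48a_diag_smul_smul {a b : ℕ} (ha : a ≠ 0) (hb : b ≠ 0) (τ : ℍ) :
    heckeDiagMatrix a • heckeDiagMatrix b • τ = heckeDiagMatrix (a * b) • τ := by
  apply UpperHalfPlane.ext
  rw [coe_heckeDiagMatrix_smul ha, coe_heckeDiagMatrix_smul hb,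
    coe_heckeDiagMatrix_smul (Nat.mul_ne_zero ha hb)]
  push_cast
  ring

theorem s48a_im_diag_smul {d : ℕ} (hd : d ≠ 0) (τ : ℍ) :
    (heckeDiagMatrix d • τ).im = d * τ.im := by
  have h := congrArg Complex.im (coe_heckeDiagMatrix_smul hd τ)
  rw [UpperHalfPlane.coe_im] at h
  rw [h]
  simp

/-! ### the second multiplier family `E_d = G(d·) - G(2d·)` -/

/-- `E_d(τ) = G(dτ) - G(2dτ)`. -/
def s48a_E (G : ℍ → ℂ) (d : ℕ) : ℍ → ℂ := s48a_dil d G - s48a_dil (2 * d) G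

theorem s48a_qnice_E {G : ℍ → ℂ} (hG : s48h_QNice G) (d : ℕ) : s48h_QNice (s48a_E G d) :=
  (s48a_qnice_dil hG d).sub (s48a_qnice_dil hG (2 * d))

theorem s48a_E_apply {G : ℍ → ℂ} {d : ℕ} (hd : d ≠ 0) (τ : ℍ) :
    s48a_E G d τ = s48a_E G 1 (heckeDiagMatrix d • τ) := by
  have h2d : 2 * d ≠ 0 := Nat.mul_ne_zero two_ne_zero hd
  simp only [s48a_E, Pi.sub_apply, mul_one]
  rw [s48a_dil_apply hd, s48a_dil_apply h2d, s48a_dil_one, s48a_dil_apply two_ne_zero,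
    s48a_diag_smul_smul two_ne_zero hd]

theorem s48a_qCoeff_E_zero {G : ℍ → ℂ} (hG : s48h_QNice G) : qCoeff (s48a_E G 1) 0 = 0 := by
  rw [s48a_E, s48h_qCoeff_sub (s48a_qnice_dil hG 1) (s48a_qnice_dil hG (2 * 1)),
    s48a_qCoeff_dil hG one_ne_zero, s48a_qCoeff_dil hG (by norm_num)]
  simp

theorem s48a_qCoeff_E_one {G : ℍ → ℂ} (hG : s48h_QNice G) : qCoeff (s48a_E G 1) 1 = qCoeff G 1 := by
  rw [s48a_E, s48h_qCoeff_sub (s48a_qnice_dil hG 1) (s48a_qnice_dil hG (2 * 1)),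
    s48a_qCoeff_dil hG one_ne_zero, s48a_qCoeff_dil hG (by norm_num)]
  simp

/-- for every `τ` some `E_d` does not vanish at `τ`. -/
theorem s48a_exists_E_ne_zero {G : ℍ → ℂ} (hG : s48h_QNice G) (hG1 : qCoeff G 1 = 1) (τ : ℍ) :
    ∃ d : ℕ, 1 ≤ d ∧ s48a_E G d τ ≠ 0 := by
  obtain ⟨A, hA⟩ := s48a_exists_ne_zero (s48a_qnice_E hG 1) (s48a_qCoeff_E_zero hG)
    ((s48a_qCoeff_E_one hG).trans hG1)
  obtain ⟨d, hd⟩ := exists_nat_ge (max 1 (A / τ.im))
  have hd1 : (1 : ℝ) ≤ d := (le_max_left _ _).trans hd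
  have hd1' : 1 ≤ d := by exact_mod_cast hd1
  have hd0 : d ≠ 0 := by omega
  refine ⟨d, hd1', ?_⟩
  rw [s48a_E_apply hd0]
  apply hA
  rw [s48a_im_diag_smul hd0]
  have h2 : A / τ.im ≤ d := (le_max_right _ _).trans hd
  rwa [div_le_iff₀ τ.im_pos] at h2

/-! ### the data and the quotient -/

/-- the hypotheses of the division lemma. -/
structure s48a_Data (G : ℍ → ℂ) (W : PowerSeries ℂ) (H : ℕ → ℍ → ℂ) : Prop where
  hG : s48h_QNice G
  hG1 : qCoeff G 1 = 1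
  hW0 : PowerSeries.coeff 0 W = 0
  hH : ∀ d : ℕ, 1 ≤ d → s48h_QNice (H d)
  hHq : ∀ d : ℕ, 1 ≤ d → qExpansion 1 (H d) = W * qExpansion 1 (s48a_dil d G)

/-- `H^E_d = H_d - H_{2d}`. -/
def s48a_HE (H : ℕ → ℍ → ℂ) (d : ℕ) : ℍ → ℂ := H d - H (2 * d)

/-- the quotient function. -/
def s48a_F (G : ℍ → ℂ) (H : ℕ → ℍ → ℂ) (τ : ℍ) : ℂ := by
  classical
  exact if h : ∃ d : ℕ, 1 ≤ d ∧ s48a_E G d τ ≠ 0 then
    s48a_HE H h.choose τ / s48a_E G h.choose τ else 0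

namespace s48a_Data

variable {G : ℍ → ℂ} {W : PowerSeries ℂ} {H : ℕ → ℍ → ℂ}

theorem qnice_HE (D : s48a_Data G W H) {d : ℕ} (hd : 1 ≤ d) : s48h_QNice (s48a_HE H d) :=
  (D.hH d hd).sub (D.hH (2 * d) (by omega))

theorem qExpansion_E (D : s48a_Data G W H) (d : ℕ) :
    qExpansion 1 (s48a_E G d)
      = qExpansion 1 (s48a_dil d G) - qExpansion 1 (s48a_dil (2 * d) G) := by
  rw [s48a_E, qExpansion_sub (s48a_qnice_dil D.hG d).analytic (s48a_qnice_dil D.hG (2 * d)).analytic]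

theorem qExpansion_HE (D : s48a_Data G W H) {d : ℕ} (hd : 1 ≤ d) :
    qExpansion 1 (s48a_HE H d) = W * qExpansion 1 (s48a_E G d) := by
  rw [s48a_HE, qExpansion_sub (D.hH d hd).analytic (D.hH (2 * d) (by omega)).analytic,
    D.hHq d hd, D.hHq (2 * d) (by omega), D.qExpansion_E, mul_sub]

/-- the cross identity `H^E_e · G(d·) = H_d · E_e`. -/
theorem cross (D : s48a_Data G W H) {d e : ℕ} (hd : 1 ≤ d) (he : 1 ≤ e) :
    s48a_HE H e * s48a_dil d G = H d * s48a_E G e := by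
  have h1 : s48h_QNice (s48a_HE H e * s48a_dil d G) := (D.qnice_HE he).mul (s48a_qnice_dil D.hG d)
  have h2 : s48h_QNice (H d * s48a_E G e) := (D.hH d hd).mul (s48a_qnice_E D.hG e)
  refine h1.ext h2 fun n => ?_
  simp only [qCoeff]
  rw [qExpansion_mul (D.qnice_HE he).analytic (s48a_qnice_dil D.hG d).analytic,
    qExpansion_mul (D.hH d hd).analytic (s48a_qnice_E D.hG e).analytic,
    D.qExpansion_HE he, D.hHq d hd]
  ring_nf

/-- `F · G(d·) = H_d` everywhere. -/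
theorem F_mul (D : s48a_Data G W H) {d : ℕ} (hd : 1 ≤ d) (τ : ℍ) :
    s48a_F G H τ * s48a_dil d G τ = H d τ := by
  have hex := s48a_exists_E_ne_zero D.hG D.hG1 τ
  have hspec := hex.choose_spec
  have hF : s48a_F G H τ = s48a_HE H hex.choose τ / s48a_E G hex.choose τ := by
    simp only [s48a_F]
    rw [dif_pos hex]
  have hc := congrFun (D.cross hd hspec.1) τ
  simp only [Pi.mul_apply] at hc
  rw [hF, div_mul_eq_mul_div, hc, mul_div_assoc, div_self hspec.2, mul_one]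

theorem F_mul_E (D : s48a_Data G W H) {d : ℕ} (hd : 1 ≤ d) (τ : ℍ) :
    s48a_F G H τ * s48a_E G d τ = s48a_HE H d τ := by
  simp only [s48a_E, s48a_HE, Pi.sub_apply]
  rw [mul_sub, D.F_mul hd, D.F_mul (by omega : 1 ≤ 2 * d)]

theorem F_eq_div (D : s48a_Data G W H) {d : ℕ} (hd : 1 ≤ d) {τ : ℍ} (hτ : s48a_E G d τ ≠ 0) :
    s48a_F G H τ = s48a_HE H d τ / s48a_E G d τ := by
  rw [← D.F_mul_E hd, mul_div_assoc, div_self hτ, mul_one]

/-- `F` is holomorphic. -/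
theorem mdiff_F (D : s48a_Data G W H) : MDiff (s48a_F G H) := by
  intro τ₀
  obtain ⟨d, hd, hne⟩ := s48a_exists_E_ne_zero D.hG D.hG1 τ₀
  rw [UpperHalfPlane.mdifferentiableAt_iff]
  have hE : DifferentiableAt ℂ (s48a_E G d ∘ ofComplex) (τ₀ : ℂ) :=
    UpperHalfPlane.mdifferentiableAt_iff.mp ((s48a_qnice_E D.hG d).hol τ₀)
  have hH : DifferentiableAt ℂ (s48a_HE H d ∘ ofComplex) (τ₀ : ℂ) :=
    UpperHalfPlane.mdifferentiableAt_iff.mp ((D.qnice_HE hd).hol τ₀)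
  have hne' : (s48a_E G d ∘ ofComplex) (τ₀ : ℂ) ≠ 0 := by
    rw [Function.comp_apply, ofComplex_apply]
    exact hne
  have hdiv := hH.div hE hne'
  refine hdiv.congr_of_eventuallyEq ?_
  have hev : ∀ᶠ z in 𝓝 (τ₀ : ℂ), (s48a_E G d ∘ ofComplex) z ≠ 0 :=
    hE.continuousAt.eventually_ne hne'
  filter_upwards [hev] with z hz
  simp only [Function.comp_apply, Pi.div_apply] at hz ⊢
  exact D.F_eq_div hd hz

end s48a_Data

end Fermat.Agent.Lib.S48
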