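/-
DS-1 (S48), wall [T3] (helper1, prefix `s48a_`): "Eisenstein division", part C — modularity, cusps, bundling.

`s48a_division`: under `s48a_Data G W H` (part B), if moreover `G` has nebentypus `χinv` on `Γ₀(N')`,
`G ∣ S` tends to a nonzero constant at `i∞`, every `H d` vanishes at all cusps and `H 1` is
`Γ₀(N')`-invariant of weight two, then there is a weight-one cusp form on `Γ₁(N')` with `q`-expansion `W`
and nebentypus `χ = χinv⁻¹`.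
-/
import Mathlib
import Fermat.Agent.Lib.S48.ADivB

set_option autoImplicit false

noncomputable section

namespace Fermat.Agent.Lib.S48

open Matrix.SpecialLinearGroup ModularForm CongruenceSubgroup UpperHalfPlane ModularFormClass Filter
open scoped MatrixGroups ModularForm Manifold Topology

/-! ### limits at `i∞` under translations and dilations -/

theorem s48a_tendsto_diag_smul {n : ℕ} (hn : n ≠ 0) :
    Tendsto (fun τ : ℍ => heckeDiagMatrix n • τ) atImInfty atImInfty := by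
  rw [atImInfty, tendsto_comap_iff]
  have h : (UpperHalfPlane.im ∘ fun τ : ℍ => heckeDiagMatrix n • τ) = fun τ : ℍ => (n : ℝ) * τ.im := by
    funext τ
    exact s48a_im_diag_smul hn τ
  rw [h]
  have hn' : (0 : ℝ) < n := by exact_mod_cast Nat.pos_of_ne_zero hn
  exact Tendsto.const_mul_atTop hn' tendsto_comap

theorem s48a_tendsto_T_zpow_smul (d : ℤ) :
    Tendsto (fun τ : ℍ => ModularGroup.T ^ d • τ) atImInfty atImInfty := by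
  rw [atImInfty, tendsto_comap_iff]
  have h : (UpperHalfPlane.im ∘ fun τ : ℍ => ModularGroup.T ^ d • τ) = fun τ : ℍ => τ.im := by
    funext τ
    exact ModularGroup.im_T_zpow_smul τ d
  rw [h]
  exact tendsto_comap

theorem s48a_tendsto_dil {f : ℍ → ℂ} {c : ℂ} (hf : Tendsto f atImInfty (𝓝 c)) {n : ℕ} (hn : n ≠ 0) :
    Tendsto (s48a_dil n f) atImInfty (𝓝 c) := by
  have h : s48a_dil n f = f ∘ fun τ : ℍ => heckeDiagMatrix n • τ := by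
    funext τ
    exact s48a_dil_apply hn f τ
  rw [h]
  exact hf.comp (s48a_tendsto_diag_smul hn)

theorem s48a_tendsto_slash_T {f : ℍ → ℂ} {c : ℂ} (hf : Tendsto f atImInfty (𝓝 c)) (k d : ℤ) :
    Tendsto (f ∣[k] (mapGL ℝ (ModularGroup.T ^ d) : GL (Fin 2) ℝ)) atImInfty (𝓝 c) := by
  have h : f ∣[k] (mapGL ℝ (ModularGroup.T ^ d) : GL (Fin 2) ℝ)
      = f ∘ fun τ : ℍ => ModularGroup.T ^ d • τ := by
    funext τ
    have h1 := ModularForm.SL_slash_apply (f := f) (k := k) (ModularGroup.T ^ d) τ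
    have e10 : (ModularGroup.T ^ d : SL(2, ℤ)) 1 0 = 0 := by
      show (ModularGroup.T ^ d : SL(2, ℤ)).1 1 0 = 0
      rw [ModularGroup.coe_T_zpow]; simp
    have e11 : (ModularGroup.T ^ d : SL(2, ℤ)) 1 1 = 1 := by
      show (ModularGroup.T ^ d : SL(2, ℤ)).1 1 1 = 1
      rw [ModularGroup.coe_T_zpow]; simp
    rw [ModularGroup.denom_apply, e10, e11] at h1
    simp only [Int.cast_zero, zero_mul, Int.cast_one, zero_add, one_zpow, mul_one] at h1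
    exact h1
  rw [h]
  exact hf.comp (s48a_tendsto_T_zpow_smul d)

/-! ### the matrix identity `diag(n,1)·γ = (T^a S T^d)·diag(n,1)` for `γ = (a b; n d)` -/

theorem s48a_TST (a d : ℤ) :
    (ModularGroup.T ^ a * ModularGroup.S * ModularGroup.T ^ d : SL(2, ℤ)).1
      = !![a, a * d - 1; 1, d] := by
  rw [Matrix.SpecialLinearGroup.coe_mul, Matrix.SpecialLinearGroup.coe_mul, ModularGroup.coe_T_zpow,
    ModularGroup.coe_T_zpow, ModularGroup.coe_S]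
  ext i j
  fin_cases i <;> fin_cases j <;> simp [Matrix.mul_apply, Fin.sum_univ_two] <;> ring

theorem s48a_diag_mul (γ : SL(2, ℤ)) {n : ℕ} (hn : n ≠ 0) (hc : γ 1 0 = (n : ℤ)) :
    heckeDiagMatrix n * (mapGL ℝ γ : GL (Fin 2) ℝ)
      = (mapGL ℝ (ModularGroup.T ^ (γ 0 0) * ModularGroup.S * ModularGroup.T ^ (γ 1 1)) :
          GL (Fin 2) ℝ) * heckeDiagMatrix n := by
  apply Units.ext
  have hdet := s48h_det_eq γ
  have hdetR : (γ 0 0 : ℝ) * (γ 1 1 : ℝ) - (γ 0 1 : ℝ) * (n : ℝ) = 1 := by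
    have := congrArg (Int.cast : ℤ → ℝ) hdet
    rw [hc] at this
    push_cast at this
    exact this
  have hcR : ((γ 1 0 : ℤ) : ℝ) = (n : ℝ) := by rw [hc]; simp
  set γ' : SL(2, ℤ) := ModularGroup.T ^ (γ 0 0) * ModularGroup.S * ModularGroup.T ^ (γ 1 1) with hγ'
  have hM : γ'.1 = !![γ 0 0, γ 0 0 * γ 1 1 - 1; 1, γ 1 1] := s48a_TST _ _
  have h00 : γ' 0 0 = γ 0 0 := by
    show γ'.1 0 0 = _
    rw [hM]; simp
  have h01 : γ' 0 1 = γ 0 0 * γ 1 1 - 1 := by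
    show γ'.1 0 1 = _
    rw [hM]; simp
  have h10 : γ' 1 0 = 1 := by
    show γ'.1 1 0 = _
    rw [hM]; simp
  have h11 : γ' 1 1 = γ 1 1 := by
    show γ'.1 1 1 = _
    rw [hM]; simp
  rw [Units.val_mul, Units.val_mul, val_heckeDiagMatrix hn]
  ext i j
  fin_cases i <;> fin_cases j <;>
    simp [Matrix.mul_apply, Fin.sum_univ_two, s48h_mapGL_apply, h00, h01, h10, h11, hcR] <;> linarith

/-! ### the main theorem -/

namespace s48a_Data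

variable {G : ℍ → ℂ} {W : PowerSeries ℂ} {H : ℕ → ℍ → ℂ}

theorem F_mul_G (D : s48a_Data G W H) : s48a_F G H * G = H 1 := by
  funext τ
  have h := D.F_mul (le_refl 1) τ
  rwa [s48a_dil_one] at h

theorem G_ne_zero (D : s48a_Data G W H) : G ≠ 0 := by
  intro h
  have h1 := D.hG1
  rw [h, s48h_qCoeff_zero] at h1
  exact zero_ne_one h1

/-- nebentypus of the quotient. -/
theorem neben_F (D : s48a_Data G W H) {N' : ℕ} {χ χinv : ℤ → ℂ}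
    (hGn : ∀ γ : SL(2, ℤ), γ ∈ Gamma0 N' →
      G ∣[(1 : ℤ)] (mapGL ℝ γ : GL (Fin 2) ℝ) = χinv (γ 1 1) • G)
    (hHinv : ∀ γ : SL(2, ℤ), γ ∈ Gamma0 N' → H 1 ∣[(2 : ℤ)] (mapGL ℝ γ : GL (Fin 2) ℝ) = H 1)
    {γ : SL(2, ℤ)} (hγ : γ ∈ Gamma0 N') (hχ : χ (γ 1 1) * χinv (γ 1 1) = 1) :
    s48a_F G H ∣[(1 : ℤ)] (mapGL ℝ γ : GL (Fin 2) ℝ) = χ (γ 1 1) • s48a_F G H := by
  have hmul : (s48a_F G H * G) ∣[(1 : ℤ) + 1] (mapGL ℝ γ : GL (Fin 2) ℝ)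
      = s48a_F G H ∣[(1 : ℤ)] (mapGL ℝ γ : GL (Fin 2) ℝ)
        * G ∣[(1 : ℤ)] (mapGL ℝ γ : GL (Fin 2) ℝ) :=
    ModularForm.mul_slash_SL2 1 1 γ (s48a_F G H) G
  have h2 : ((1 : ℤ) + 1) = 2 := by norm_num
  rw [h2, D.F_mul_G, hHinv γ hγ, hGn γ hγ, ← D.F_mul_G] at hmul
  -- `F * G = (F ∣ γ) * (χinv • G)`
  have hD : (s48a_F G H ∣[(1 : ℤ)] (mapGL ℝ γ : GL (Fin 2) ℝ) - χ (γ 1 1) • s48a_F G H) * G = 0 := by
    funext τ
    have h3 := congrFun hmul τ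
    simp only [Pi.mul_apply, Pi.smul_apply, smul_eq_mul, Pi.sub_apply, Pi.zero_apply] at h3 ⊢
    linear_combination (-(χ (γ 1 1))) * h3
      - ((s48a_F G H ∣[(1 : ℤ)] (mapGL ℝ γ : GL (Fin 2) ℝ)) τ * G τ) * hχ
  have hmd : MDiff (s48a_F G H ∣[(1 : ℤ)] (mapGL ℝ γ : GL (Fin 2) ℝ) - χ (γ 1 1) • s48a_F G H) :=
    (D.mdiff_F.slash 1 _).sub (D.mdiff_F.const_smul _)
  rcases (UpperHalfPlane.mul_eq_zero_iff hmd D.hG.hol).mp hD with h | h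
  · exact sub_eq_zero.mp h
  · exact absurd h D.G_ne_zero

theorem qCoeff_HE_zero (D : s48a_Data G W H) : qCoeff (s48a_HE H 1) 0 = 0 := by
  simp only [qCoeff]
  rw [D.qExpansion_HE (le_refl 1), PowerSeries.coeff_mul]
  simp [D.hW0]

theorem qCoeff_HE_one (D : s48a_Data G W H) : qCoeff (s48a_HE H 1) 1 = 0 := by
  have h0 : PowerSeries.coeff 0 (qExpansion 1 (s48a_E G 1)) = 0 := s48a_qCoeff_E_zero D.hG
  simp only [qCoeff]
  rw [D.qExpansion_HE (le_refl 1), PowerSeries.coeff_mul]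
  simp [Finset.Nat.antidiagonal_succ, D.hW0, h0]

/-- the quotient vanishes at `i∞`. -/
theorem tendsto_F (D : s48a_Data G W H) : Tendsto (s48a_F G H) atImInfty (𝓝 0) := by
  have hE := s48a_qnice_E D.hG 1
  have hE0 := s48a_qCoeff_E_zero D.hG
  have hE1 := (s48a_qCoeff_E_one D.hG).trans D.hG1
  have h := s48a_tendsto_div_zero hE hE0 hE1 (D.qnice_HE (le_refl 1)) D.qCoeff_HE_zero D.qCoeff_HE_one
  refine h.congr' ?_
  filter_upwards [s48a_eventually_ne_zero hE hE0 hE1] with τ hτ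
  exact (D.F_eq_div (le_refl 1) hτ).symm

/-- `G(n·) ∣ γ → c` at `i∞` for `γ = (a b; n d)`, `n > 0`, where `c` is the value of `G` at the cusp `0`. -/
theorem tendsto_dil_slash (D : s48a_Data G W H) {N' : ℕ} {χinv : ℤ → ℂ}
    (hGn : ∀ γ : SL(2, ℤ), γ ∈ Gamma0 N' →
      G ∣[(1 : ℤ)] (mapGL ℝ γ : GL (Fin 2) ℝ) = χinv (γ 1 1) • G)
    (hχinv1 : χinv 1 = 1) {c : ℂ}
    (hGS : Tendsto (G ∣[(1 : ℤ)] (mapGL ℝ ModularGroup.S : GL (Fin 2) ℝ)) atImInfty (𝓝 c))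
    (γ : SL(2, ℤ)) {n : ℕ} (hn : n ≠ 0) (hc : γ 1 0 = (n : ℤ)) :
    Tendsto (s48a_dil n G ∣[(1 : ℤ)] (mapGL ℝ γ : GL (Fin 2) ℝ)) atImInfty (𝓝 c) := by
  have e10 : ∀ a : ℤ, (ModularGroup.T ^ a : SL(2, ℤ)) 1 0 = 0 := fun a => by
    show (ModularGroup.T ^ a : SL(2, ℤ)).1 1 0 = 0
    rw [ModularGroup.coe_T_zpow]; simp
  have e11 : ∀ a : ℤ, (ModularGroup.T ^ a : SL(2, ℤ)) 1 1 = 1 := fun a => by
    show (ModularGroup.T ^ a : SL(2, ℤ)).1 1 1 = 1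
    rw [ModularGroup.coe_T_zpow]; simp
  have hT : ∀ a : ℤ, G ∣[(1 : ℤ)] (mapGL ℝ (ModularGroup.T ^ a) : GL (Fin 2) ℝ) = G := fun a => by
    have hmem : (ModularGroup.T ^ a : SL(2, ℤ)) ∈ Gamma0 N' := by
      rw [Gamma0_mem, e10]; simp
    rw [hGn _ hmem, e11, hχinv1, one_smul]
  have h1 : s48a_dil n G ∣[(1 : ℤ)] (mapGL ℝ γ : GL (Fin 2) ℝ)
      = s48a_dil n ((G ∣[(1 : ℤ)] (mapGL ℝ ModularGroup.S : GL (Fin 2) ℝ))
          ∣[(1 : ℤ)] (mapGL ℝ (ModularGroup.T ^ (γ 1 1)) : GL (Fin 2) ℝ)) := by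
    simp only [s48a_dil]
    rw [← SlashAction.slash_mul, s48a_diag_mul γ hn hc, SlashAction.slash_mul, map_mul, map_mul,
      SlashAction.slash_mul, SlashAction.slash_mul, hT]
  rw [h1]
  exact s48a_tendsto_dil (s48a_tendsto_slash_T hGS 1 (γ 1 1)) hn

/-- vanishing of `F ∣ γ` at `i∞` when the lower left entry of `γ` is positive. -/
theorem zero_slash_pos (D : s48a_Data G W H) {N' : ℕ} {χinv : ℤ → ℂ}
    (hGn : ∀ γ : SL(2, ℤ), γ ∈ Gamma0 N' →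
      G ∣[(1 : ℤ)] (mapGL ℝ γ : GL (Fin 2) ℝ) = χinv (γ 1 1) • G)
    (hχinv1 : χinv 1 = 1) {c : ℂ} (hc0 : c ≠ 0)
    (hGS : Tendsto (G ∣[(1 : ℤ)] (mapGL ℝ ModularGroup.S : GL (Fin 2) ℝ)) atImInfty (𝓝 c))
    (hH0 : ∀ d : ℕ, 1 ≤ d → s48h_ZeroCusps 2 (H d))
    (γ : SL(2, ℤ)) (hpos : 0 < γ 1 0) :
    IsZeroAtImInfty (s48a_F G H ∣[(1 : ℤ)] (mapGL ℝ γ : GL (Fin 2) ℝ)) := by
  set n : ℕ := (γ 1 0).toNat with hn
  have hc : γ 1 0 = (n : ℤ) := (Int.toNat_of_nonneg hpos.le).symm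
  have hn0 : n ≠ 0 := by
    intro h
    rw [h] at hc
    simp only [Nat.cast_zero] at hc
    omega
  have hn1 : 1 ≤ n := Nat.one_le_iff_ne_zero.mpr hn0
  have hFG : s48a_F G H * s48a_dil n G = H n := by
    funext τ
    exact D.F_mul hn1 τ
  have hmul : (s48a_F G H * s48a_dil n G) ∣[(1 : ℤ) + 1] (mapGL ℝ γ : GL (Fin 2) ℝ)
      = s48a_F G H ∣[(1 : ℤ)] (mapGL ℝ γ : GL (Fin 2) ℝ)
        * s48a_dil n G ∣[(1 : ℤ)] (mapGL ℝ γ : GL (Fin 2) ℝ) :=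
    ModularForm.mul_slash_SL2 1 1 γ (s48a_F G H) (s48a_dil n G)
  have h2 : ((1 : ℤ) + 1) = 2 := by norm_num
  rw [h2, hFG] at hmul
  have hHz : Tendsto (H n ∣[(2 : ℤ)] (mapGL ℝ γ : GL (Fin 2) ℝ)) atImInfty (𝓝 0) :=
    s48h_zeroCusps_iff.mp (hH0 n hn1) γ
  have hGt := D.tendsto_dil_slash hGn hχinv1 hGS γ hn0 hc
  have hdiv := hHz.div hGt hc0
  rw [zero_div] at hdiv
  refine hdiv.congr' ?_
  filter_upwards [hGt.eventually_ne hc0] with τ hτ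
  have h3 := congrFun hmul τ
  simp only [Pi.mul_apply, Pi.div_apply] at h3 ⊢
  rw [h3, mul_div_assoc, div_self hτ, mul_one]

/-- the quotient vanishes at all cusps. -/
theorem zeroCusps_F (D : s48a_Data G W H) {N' : ℕ} {χ χinv : ℤ → ℂ}
    (hχ : ∀ γ : SL(2, ℤ), γ ∈ Gamma0 N' → χ (γ 1 1) * χinv (γ 1 1) = 1)
    (hGn : ∀ γ : SL(2, ℤ), γ ∈ Gamma0 N' →
      G ∣[(1 : ℤ)] (mapGL ℝ γ : GL (Fin 2) ℝ) = χinv (γ 1 1) • G)
    (hχinv1 : χinv 1 = 1) {c : ℂ} (hc0 : c ≠ 0)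
    (hGS : Tendsto (G ∣[(1 : ℤ)] (mapGL ℝ ModularGroup.S : GL (Fin 2) ℝ)) atImInfty (𝓝 c))
    (hH0 : ∀ d : ℕ, 1 ≤ d → s48h_ZeroCusps 2 (H d))
    (hHinv : ∀ γ : SL(2, ℤ), γ ∈ Gamma0 N' → H 1 ∣[(2 : ℤ)] (mapGL ℝ γ : GL (Fin 2) ℝ) = H 1) :
    s48h_ZeroCusps 1 (s48a_F G H) := by
  rw [s48h_zeroCusps_iff]
  intro γ
  have hzero : ∀ γ : SL(2, ℤ), γ ∈ Gamma0 N' →
      IsZeroAtImInfty (s48a_F G H ∣[(1 : ℤ)] (mapGL ℝ γ : GL (Fin 2) ℝ)) := fun γ hγ => by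
    rw [D.neben_F hGn hHinv hγ (hχ γ hγ)]
    have h := D.tendsto_F.const_smul (χ (γ 1 1))
    rw [smul_zero] at h
    exact h
  rcases lt_trichotomy (γ 1 0) 0 with hneg | h0 | hpos
  · -- negative lower left entry
    have hm1 : (-1 : SL(2, ℤ)) ∈ Gamma0 N' := by
      rw [Gamma0_mem]
      simp
    have hγ : γ = (-1 : SL(2, ℤ)) * (-γ) := by rw [neg_mul_neg, one_mul]
    have hpos' : 0 < (-γ) 1 0 := by
      have : (-γ) 1 0 = -(γ 1 0) := by simp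
      rw [this]
      omega
    have h1 := D.zero_slash_pos hGn hχinv1 hc0 hGS hH0 (-γ) hpos'
    have h2 : s48a_F G H ∣[(1 : ℤ)] (mapGL ℝ γ : GL (Fin 2) ℝ)
        = χ ((-1 : SL(2, ℤ)) 1 1) •
          (s48a_F G H ∣[(1 : ℤ)] (mapGL ℝ (-γ) : GL (Fin 2) ℝ)) := by
      conv_lhs => rw [hγ, map_mul, SlashAction.slash_mul, D.neben_F hGn hHinv hm1 (hχ _ hm1)]
      exact ModularForm.SL_smul_slash 1 (-γ) (s48a_F G H) _
    rw [h2]
    have h3 := Filter.Tendsto.const_smul h1 (χ ((-1 : SL(2, ℤ)) 1 1))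
    rw [smul_zero] at h3
    exact h3
  · exact hzero γ (by rw [Gamma0_mem, h0]; simp)
  · exact D.zero_slash_pos hGn hχinv1 hc0 hGS hH0 γ hpos

/-- the quotient is `s48h_Good` on `Γ₁(N')`. -/
theorem good_F (D : s48a_Data G W H) {N' : ℕ} {χ χinv : ℤ → ℂ}
    (hχ : ∀ γ : SL(2, ℤ), γ ∈ Gamma0 N' → χ (γ 1 1) * χinv (γ 1 1) = 1)
    (hχ1 : ∀ γ : SL(2, ℤ), γ ∈ Gamma1 N' → χ (γ 1 1) = 1)
    (hGn : ∀ γ : SL(2, ℤ), γ ∈ Gamma0 N' →
      G ∣[(1 : ℤ)] (mapGL ℝ γ : GL (Fin 2) ℝ) = χinv (γ 1 1) • G)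
    (hHinv : ∀ γ : SL(2, ℤ), γ ∈ Gamma0 N' → H 1 ∣[(2 : ℤ)] (mapGL ℝ γ : GL (Fin 2) ℝ) = H 1)
    (h0 : s48h_ZeroCusps 1 (s48a_F G H)) : s48h_Good N' 1 (s48a_F G H) where
  inv := fun γ hγ => by
    have hγ0 := Gamma1_in_Gamma0 N' hγ
    rw [D.neben_F hGn hHinv hγ0 (hχ γ hγ0), hχ1 γ hγ, one_smul]
  hol := D.mdiff_F
  bdd := fun γ => (s48h_zeroCusps_iff.mp h0 γ).boundedAtFilter

theorem qExpansion_F (D : s48a_Data G W H) (hF : s48h_QNice (s48a_F G H)) :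
    qExpansion 1 (s48a_F G H) = W := by
  have h1 : qExpansion 1 (s48a_F G H * G) = qExpansion 1 (s48a_F G H) * qExpansion 1 G :=
    qExpansion_mul hF.analytic D.hG.analytic
  have h2 := D.hHq 1 (le_refl 1)
  rw [s48a_dil_one] at h2
  rw [D.F_mul_G, h2] at h1
  have hne : qExpansion 1 G ≠ 0 := by
    intro h
    have h3 := D.hG1
    simp only [qCoeff] at h3
    rw [h] at h3
    simp at h3
  exact (mul_right_cancel₀ hne h1).symm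

end s48a_Data

/-- **Eisenstein division.**  If `W · G(q^d)` is, for every `d ≥ 1`, the `q`-expansion of a function `H d`
vanishing at all cusps (with `H 1` invariant of weight two under `Γ₀(N')`), where `G` is a weight-one
multiplier with nebentypus `χinv` on `Γ₀(N')`, `a₁(G) = 1`, whose value at the cusp `0` is nonzero, then
`W` is the `q`-expansion of a weight-one cusp form on `Γ₁(N')` with nebentypus `χ = χinv⁻¹`. -/
theorem s48a_division {N' : ℕ} [NeZero N'] {χ χinv : ℤ → ℂ}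
    (hχ : ∀ γ : SL(2, ℤ), γ ∈ Gamma0 N' → χ (γ 1 1) * χinv (γ 1 1) = 1)
    (hχ1 : ∀ γ : SL(2, ℤ), γ ∈ Gamma1 N' → χ (γ 1 1) = 1)
    {G : ℍ → ℂ} {W : PowerSeries ℂ} {H : ℕ → ℍ → ℂ} (D : s48a_Data G W H)
    (hGn : ∀ γ : SL(2, ℤ), γ ∈ Gamma0 N' →
      G ∣[(1 : ℤ)] (mapGL ℝ γ : GL (Fin 2) ℝ) = χinv (γ 1 1) • G)
    {c : ℂ} (hc0 : c ≠ 0)
    (hGS : Tendsto (G ∣[(1 : ℤ)] (mapGL ℝ ModularGroup.S : GL (Fin 2) ℝ)) atImInfty (𝓝 c))
    (hH0 : ∀ d : ℕ, 1 ≤ d → s48h_ZeroCusps 2 (H d))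
    (hHinv : ∀ γ : SL(2, ℤ), γ ∈ Gamma0 N' → H 1 ∣[(2 : ℤ)] (mapGL ℝ γ : GL (Fin 2) ℝ) = H 1) :
    ∃ F : CuspForm (Gamma1 N') 1, (∀ n : ℕ, qCoeff F n = PowerSeries.coeff n W) ∧
      ∀ γ : SL(2, ℤ), γ ∈ Gamma0 N' →
        (⇑F) ∣[(1 : ℤ)] (mapGL ℝ γ : GL (Fin 2) ℝ) = χ (γ 1 1) • ⇑F := by
  have h1 : (1 : SL(2, ℤ)) ∈ Gamma1 N' := one_mem _
  have hχ11 : χ 1 = 1 := by
    have := hχ1 1 h1
    simpa using this
  have hχinv1 : χinv 1 = 1 := by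
    have := hχ 1 (Gamma1_in_Gamma0 N' h1)
    simp only [Matrix.SpecialLinearGroup.coe_one, Matrix.one_apply_eq] at this
    rw [hχ11, one_mul] at this
    exact this
  have h0 := D.zeroCusps_F hχ hGn hχinv1 hc0 hGS hH0 hHinv
  have hgood := D.good_F hχ hχ1 hGn hHinv h0
  refine ⟨s48h_toCuspForm hgood h0, fun n => ?_, fun γ hγ => ?_⟩
  · rw [s48h_coe_toCuspForm]
    simp only [qCoeff]
    rw [D.qExpansion_F hgood.qnice]
  · rw [s48h_coe_toCuspForm]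
    exact D.neben_F hGn hHinv hγ (hχ γ hγ)


end Fermat.Agent.Lib.S48
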