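/-
DS-1 (S48), wall [T3] (helper1, prefix `s48a_`): weight-two forms on `Γ₀(L)`.

* `s48a_toCuspForm0`: bundling of a `Γ₀(L)`-invariant holomorphic function vanishing at all cusps;
* `s48a_neben_dil`: the dilation `G(d·)` has the nebentypus of `G` on `Γ₀(M d)`;
* `s48a_prodForm`: `F · G(d·)` as a cusp form of weight two on `Γ₀(M d)`;
* `s48a_exists_map_form` ([PROJ]): under `CuspForm.HasIntegralStructure L 2` every ADDITIVE map
  `φ : ℂ → ℂ` acts on the `q`-expansions of `S₂(Γ₀(L))`.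
-/
import Mathlib
import Fermat.Agent.Lib.S48.ADivC
import Fermat.Agent.Lib.Hecke.Lattice

set_option autoImplicit false

noncomputable section

namespace Fermat.Agent.Lib.S48

open Matrix.SpecialLinearGroup ModularForm CongruenceSubgroup UpperHalfPlane ModularFormClass Filter
open scoped MatrixGroups ModularForm Manifold Topology

/-! ### bundling on `Γ₀(L)` -/

/-- Bundling: a `Γ₀(L)`-invariant holomorphic function of weight two vanishing at all cusps. -/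
def s48a_toCuspForm0 {L : ℕ} [NeZero L] {F : ℍ → ℂ}
    (hinv : ∀ γ : SL(2, ℤ), γ ∈ Gamma0 L → F ∣[(2 : ℤ)] (mapGL ℝ γ : GL (Fin 2) ℝ) = F)
    (hol : MDiff F) (h0 : s48h_ZeroCusps 2 F) : CuspForm (Gamma0 L) 2 where
  toSlashInvariantForm :=
    { toFun := F
      slash_action_eq' := fun γ hγ => by
        obtain ⟨γ', hγ', rfl⟩ := hγ
        exact hinv γ' hγ' }
  holo' := hol
  zero_at_cusps' := fun {c} hc =>
    h0 c ((Subgroup.IsArithmetic.isCusp_iff_isCusp_SL2Z _).mp hc)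

@[simp] theorem s48a_coe_toCuspForm0 {L : ℕ} [NeZero L] {F : ℍ → ℂ}
    (hinv : ∀ γ : SL(2, ℤ), γ ∈ Gamma0 L → F ∣[(2 : ℤ)] (mapGL ℝ γ : GL (Fin 2) ℝ) = F)
    (hol : MDiff F) (h0 : s48h_ZeroCusps 2 F) : ⇑(s48a_toCuspForm0 hinv hol h0) = F := rfl

/-! ### dilations and nebentypus -/

theorem s48a_dvd_of_mem_Gamma0 {L : ℕ} {γ : SL(2, ℤ)} (hγ : γ ∈ Gamma0 L) : (L : ℤ) ∣ γ 1 0 :=
  (CharP.intCast_eq_zero_iff (ZMod L) L _).mp (Gamma0_mem.mp hγ)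

theorem s48a_mem_Gamma0_of_dvd {L : ℕ} {γ : SL(2, ℤ)} (h : (L : ℤ) ∣ γ 1 0) : γ ∈ Gamma0 L :=
  Gamma0_mem.mpr ((CharP.intCast_eq_zero_iff (ZMod L) L _).mpr h)

/-- the dilation `G(d·)` has the nebentypus of `G` on `Γ₀(M d)`. -/
theorem s48a_neben_dil {M : ℕ} {χ : ℤ → ℂ} {G : ℍ → ℂ}
    (hG : ∀ γ : SL(2, ℤ), γ ∈ Gamma0 M →
      G ∣[(1 : ℤ)] (mapGL ℝ γ : GL (Fin 2) ℝ) = χ (γ 1 1) • G)
    {d : ℕ} (hd : d ≠ 0) {γ : SL(2, ℤ)} (hγ : γ ∈ Gamma0 (M * d)) :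
    s48a_dil d G ∣[(1 : ℤ)] (mapGL ℝ γ : GL (Fin 2) ℝ) = χ (γ 1 1) • s48a_dil d G := by
  obtain ⟨t, ht⟩ := s48a_dvd_of_mem_Gamma0 hγ
  have he : γ 1 0 = (d : ℤ) * ((M : ℤ) * t) := by
    rw [ht]; push_cast; ring
  obtain ⟨g', h10, h11, hmul⟩ := s48h_heckeDiagMatrix_mul' hd γ _ he
  have hg' : g' ∈ Gamma0 M := s48a_mem_Gamma0_of_dvd ⟨t, h10⟩
  simp only [s48a_dil]
  rw [← SlashAction.slash_mul, hmul, SlashAction.slash_mul, hG g' hg', h11,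
    ModularForm.smul_slash, σ_heckeDiagMatrix, ContinuousAlgEquiv.refl_apply]

/-- A modular form on `Γ₁(N)` is `s48h_Good`. -/
theorem s48a_good_of_modularForm {N : ℕ} [NeZero N] {k : ℤ} (f : ModularForm (Gamma1 N) k) :
    s48h_Good N k ⇑f where
  inv := fun γ hγ => SlashInvariantFormClass.slash_action_eq f _ (Subgroup.mem_map_of_mem _ hγ)
  hol := ModularFormClass.holo f
  bdd := fun γ => ModularFormClass.bdd_at_infty_slash f γ

/-! ### products -/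

/-- `F · G(d·)` is a cusp form of weight two on `Γ₀(M d)`. -/
theorem s48a_exists_prodForm {M : ℕ} [NeZero M] {χ χinv : ℤ → ℂ}
    (hχ : ∀ γ : SL(2, ℤ), γ ∈ Gamma0 M → χ (γ 1 1) * χinv (γ 1 1) = 1)
    {F G : ℍ → ℂ}
    (hFn : ∀ γ : SL(2, ℤ), γ ∈ Gamma0 M →
      F ∣[(1 : ℤ)] (mapGL ℝ γ : GL (Fin 2) ℝ) = χ (γ 1 1) • F)
    (hFhol : MDiff F) (hF0 : s48h_ZeroCusps 1 F)
    (hGn : ∀ γ : SL(2, ℤ), γ ∈ Gamma0 M →
      G ∣[(1 : ℤ)] (mapGL ℝ γ : GL (Fin 2) ℝ) = χinv (γ 1 1) • G)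
    (hGhol : MDiff G) (hGb : s48h_BddCusps 1 G)
    {d : ℕ} (hd : d ≠ 0) :
    ∃ h : CuspForm (Gamma0 (M * d)) 2, ⇑h = F * s48a_dil d G := by
  haveI : NeZero (M * d) := ⟨Nat.mul_ne_zero (NeZero.ne M) hd⟩
  have h2 : ((1 : ℤ) + 1) = 2 := by norm_num
  have hinv : ∀ γ : SL(2, ℤ), γ ∈ Gamma0 (M * d) →
      (F * s48a_dil d G) ∣[(2 : ℤ)] (mapGL ℝ γ : GL (Fin 2) ℝ) = F * s48a_dil d G := by
    intro γ hγ
    have hγM : γ ∈ Gamma0 M := s48h_Gamma0_le_of_dvd (Dvd.intro _ rfl) hγ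
    have hmul : (F * s48a_dil d G) ∣[(1 : ℤ) + 1] (mapGL ℝ γ : GL (Fin 2) ℝ)
        = F ∣[(1 : ℤ)] (mapGL ℝ γ : GL (Fin 2) ℝ)
          * s48a_dil d G ∣[(1 : ℤ)] (mapGL ℝ γ : GL (Fin 2) ℝ) :=
      ModularForm.mul_slash_SL2 1 1 γ F (s48a_dil d G)
    rw [h2] at hmul
    rw [hmul, hFn γ hγM, s48a_neben_dil hGn hd hγ]
    funext τ
    simp only [Pi.mul_apply, Pi.smul_apply, smul_eq_mul]
    linear_combination (F τ * s48a_dil d G τ) * hχ γ hγM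
  have hol : MDiff (F * s48a_dil d G) := hFhol.mul (hGhol.slash 1 _)
  have h0 : s48h_ZeroCusps 2 (F * s48a_dil d G) := by
    have := hF0.mul_bdd (hGb.slash_heckeDiagMatrix d)
    rwa [h2] at this
  exact ⟨s48a_toCuspForm0 hinv hol h0, rfl⟩

/-! ### [PROJ]: additive maps act on `q`-expansions of `S₂(Γ₀(L))` -/

open Fermat.Agent.Lib.QCoeff in
/-- **[PROJ]**: if `S₂(Γ₀(L))` is spanned by forms with integral `q`-expansion, then for every additive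
map `φ : ℂ → ℂ` and every cusp form `h` the series `Σ φ(a_n(h)) qⁿ` is again the `q`-expansion of a cusp
form. -/
theorem s48a_exists_map_form {L : ℕ} (hS : CuspForm.HasIntegralStructure L 2)
    (h : CuspForm (Gamma0 L) 2) (φ : ℂ →+ ℂ) :
    ∃ h' : CuspForm (Gamma0 L) 2, ∀ n : ℕ, qCoeff h' n = φ (qCoeff h n) := by
  have hmem : h ∈ Submodule.span ℂ
      ((CuspForm.intLattice L 2 : Submodule ℤ (CuspForm (Gamma0 L) 2)) :
        Set (CuspForm (Gamma0 L) 2)) := by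
    rw [hS]; trivial
  revert φ
  refine Submodule.span_induction (p := fun (x : CuspForm (Gamma0 L) 2) _ => ∀ φ : ℂ →+ ℂ,
    ∃ h' : CuspForm (Gamma0 L) 2, ∀ n : ℕ, qCoeff ⇑h' n = φ (qCoeff ⇑x n)) ?_ ?_ ?_ ?_ hmem
  · intro x hx φ
    have hx' := (Fermat.Agent.Lib.Lattice.mem_intLattice_iff x).mp hx
    refine ⟨φ 1 • x, fun n => ?_⟩
    obtain ⟨m, hm⟩ := hx' n
    rw [qCoeff_smul, hm]
    have : φ (m : ℂ) = m • φ 1 := by
      rw [← map_zsmul]; simp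
    rw [this]; simp [mul_comm]
  · intro φ
    exact ⟨0, fun n => by rw [qCoeff_zero_form]; simp⟩
  · intro x y _ _ hx hy φ
    obtain ⟨x', hx'⟩ := hx φ
    obtain ⟨y', hy'⟩ := hy φ
    exact ⟨x' + y', fun n => by rw [qCoeff_add, qCoeff_add, hx', hy', map_add]⟩
  · intro c x _ hx φ
    obtain ⟨x', hx'⟩ := hx (φ.comp (AddMonoidHom.mulLeft c))
    exact ⟨x', fun n => by rw [hx', qCoeff_smul]; rfl⟩

end Fermat.Agent.Lib.S48
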