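/-
DS-1 (S48), wall [T3] (helper1, prefix `s48a_`): the FORMAL space `W`.

`s48a_W M b` = sequences `w` with `w 0 = 0` such that for every `d ≥ 1` the Cauchy product
`w ⋆ b(q^d)` is the `q`-expansion of a cusp form of weight two on `Γ₀(M d)`.  (For `b` = the
`q`-expansion of the Eisenstein multiplier this is the space of `q`-expansions of weight-one cusp forms
with nebentypus, by the division theorem.)  Here: the purely algebraic properties
* `s48a_W_map`: stability under coefficientwise `K₀`-linear maps (`b` rational over `K₀`), from [PROJ];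
* `s48a_W_sturm`: a Sturm bound;
* `s48a_W_span_rat`: `W` is spanned by its `K₀`-rational elements;
* `s48a_W_denom`: `K₀`-rational elements have bounded denominators.
-/
import Mathlib
import Fermat.Agent.Lib.S48.AForm

set_option autoImplicit false

noncomputable section

namespace Fermat.Agent.Lib.S48

open CongruenceSubgroup UpperHalfPlane ModularFormClass
open scoped MatrixGroups ModularForm

/-- dilation of sequences: the coefficients of `b(q^d)`. -/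
def s48a_sdil (d : ℕ) (b : ℕ → ℂ) : ℕ → ℂ := fun n => if d ∣ n then b (n / d) else 0

/-- Cauchy product of sequences. -/
def s48a_cmul (w v : ℕ → ℂ) : ℕ → ℂ :=
  fun n => ∑ ij ∈ (Finset.HasAntidiagonal.antidiagonal n : Finset (ℕ × ℕ)), w ij.1 * v ij.2

theorem s48a_cmul_add (w w' v : ℕ → ℂ) : s48a_cmul (w + w') v = s48a_cmul w v + s48a_cmul w' v := by
  funext n
  simp only [s48a_cmul, Pi.add_apply, add_mul, Finset.sum_add_distrib]

theorem s48a_cmul_smul (c : ℂ) (w v : ℕ → ℂ) : s48a_cmul (c • w) v = c • s48a_cmul w v := by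
  funext n
  simp only [s48a_cmul, Pi.smul_apply, smul_eq_mul, Finset.mul_sum, mul_assoc]

theorem s48a_cmul_zero (v : ℕ → ℂ) : s48a_cmul 0 v = 0 := by
  funext n
  simp [s48a_cmul]

theorem s48a_coeff_mk_mul (w v : ℕ → ℂ) (n : ℕ) :
    PowerSeries.coeff n (PowerSeries.mk w * PowerSeries.mk v) = s48a_cmul w v n := by
  simp [PowerSeries.coeff_mul, s48a_cmul]

open Fermat.Agent.Lib.QCoeff in
/-- the formal space `W`. -/
def s48a_W (M : ℕ) (b : ℕ → ℂ) : Submodule ℂ (ℕ → ℂ) where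
  carrier := {w | w 0 = 0 ∧ ∀ d : ℕ, 1 ≤ d → ∃ h : CuspForm (Gamma0 (M * d)) 2,
    ∀ n : ℕ, qCoeff ⇑h n = s48a_cmul w (s48a_sdil d b) n}
  add_mem' := by
    rintro w w' ⟨h0, h⟩ ⟨h0', h'⟩
    refine ⟨by simp [h0, h0'], fun d hd => ?_⟩
    obtain ⟨x, hx⟩ := h d hd
    obtain ⟨x', hx'⟩ := h' d hd
    exact ⟨x + x', fun n => by rw [qCoeff_add, hx, hx', s48a_cmul_add]; rfl⟩
  zero_mem' := ⟨rfl, fun d _ => ⟨0, fun n => by rw [qCoeff_zero_form, s48a_cmul_zero]; rfl⟩⟩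
  smul_mem' := by
    rintro c w ⟨h0, h⟩
    refine ⟨by simp [h0], fun d hd => ?_⟩
    obtain ⟨x, hx⟩ := h d hd
    exact ⟨c • x, fun n => by rw [qCoeff_smul, hx, s48a_cmul_smul]; rfl⟩

theorem s48a_mem_W {M : ℕ} {b w : ℕ → ℂ} : w ∈ s48a_W M b ↔
    w 0 = 0 ∧ ∀ d : ℕ, 1 ≤ d → ∃ h : CuspForm (Gamma0 (M * d)) 2,
      ∀ n : ℕ, qCoeff ⇑h n = s48a_cmul w (s48a_sdil d b) n := Iff.rfl

/-! ### stability under coefficientwise `K₀`-linear maps -/

theorem s48a_map_mul_mem (K₀ : IntermediateField ℚ ℂ) (φ : ℂ →ₗ[K₀] ℂ) (z x : ℂ) (hx : x ∈ K₀) :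
    φ (z * x) = φ z * x := by
  have : z * x = (⟨x, hx⟩ : K₀) • z := by
    rw [Algebra.smul_def, mul_comm]; rfl
  rw [this, map_smul, Algebra.smul_def, mul_comm]; rfl

theorem s48a_sdil_mem (K₀ : IntermediateField ℚ ℂ) {b : ℕ → ℂ} (hb : ∀ n, b n ∈ K₀) (d n : ℕ) :
    s48a_sdil d b n ∈ K₀ := by
  simp only [s48a_sdil]
  split_ifs
  · exact hb _
  · exact zero_mem _

/-- `W` is stable under coefficientwise `K₀`-linear maps if `b` is `K₀`-rational. -/
theorem s48a_W_map {M : ℕ} (hS : ∀ d : ℕ, 1 ≤ d → CuspForm.HasIntegralStructure (M * d) 2)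
    (K₀ : IntermediateField ℚ ℂ) {b : ℕ → ℂ} (hb : ∀ n, b n ∈ K₀) (φ : ℂ →ₗ[K₀] ℂ)
    {w : ℕ → ℂ} (hw : w ∈ s48a_W M b) : (fun n => φ (w n)) ∈ s48a_W M b := by
  obtain ⟨h0, h⟩ := hw
  refine ⟨by simp [h0], fun d hd => ?_⟩
  obtain ⟨x, hx⟩ := h d hd
  obtain ⟨x', hx'⟩ := s48a_exists_map_form (hS d hd) x φ.toAddMonoidHom
  refine ⟨x', fun n => ?_⟩
  rw [hx', hx]
  simp only [s48a_cmul, LinearMap.toAddMonoidHom_coe, map_sum]
  refine Finset.sum_congr rfl fun ij _ => ?_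
  exact s48a_map_mul_mem K₀ φ _ _ (s48a_sdil_mem K₀ hb d _)

/-! ### Sturm bound -/

theorem s48a_sdil_one (b : ℕ → ℂ) : s48a_sdil 1 b = b := by
  funext n
  simp [s48a_sdil]

/-- a Sturm bound for `W`. -/
theorem s48a_W_sturm (M : ℕ) [NeZero M] {b : ℕ → ℂ} (hb1 : b 1 = 1) :
    ∃ B : ℕ, ∀ w ∈ s48a_W M b, (∀ n : ℕ, n ≤ B → w n = 0) → w = 0 := by
  haveI : NeZero (M * 1) := ⟨by simpa using NeZero.ne M⟩
  refine ⟨((2 : ℤ) * (Gamma0 (M * 1)).index).toNat / 12, fun w hw hz => ?_⟩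
  obtain ⟨x, hx⟩ := hw.2 1 (le_refl 1)
  have hx0 : x = 0 := by
    refine Fermat.Agent.Lib.Level.cuspForm_eq_zero_of_qCoeff_eq_zero x fun n _ hn => ?_
    rw [hx, s48a_sdil_one]
    simp only [s48a_cmul]
    refine Finset.sum_eq_zero fun ij hij => ?_
    have : ij.1 ≤ n := by
      have := Finset.HasAntidiagonal.mem_antidiagonal.mp hij
      omega
    rw [hz _ (this.trans hn), zero_mul]
  have hprod : PowerSeries.mk w * PowerSeries.mk b = 0 := by
    ext n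
    rw [s48a_coeff_mk_mul, map_zero, ← s48a_sdil_one b, ← hx, hx0,
      Fermat.Agent.Lib.QCoeff.qCoeff_zero_form]
  rcases mul_eq_zero.mp hprod with h | h
  · funext n
    have := congrArg (PowerSeries.coeff n) h
    simpa using this
  · have := congrArg (PowerSeries.coeff 1) h
    rw [PowerSeries.coeff_mk, hb1] at this
    simp at this

/-! ### `W` is spanned by its `K₀`-rational elements -/

/-- finitely many complex numbers have `K₀`-rational coordinates w.r.t. finitely many `e i`, through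
`K₀`-linear maps `π i : ℂ → K₀ ⊆ ℂ`. -/
theorem s48a_exists_coords (K₀ : IntermediateField ℚ ℂ) {ι : Type*} [Finite ι] (v : ι → ℂ) :
    ∃ (s : ℕ) (e : Fin s → ℂ) (π : Fin s → ℂ →ₗ[K₀] ℂ),
      (∀ i z, π i z ∈ K₀) ∧ ∀ j, v j = ∑ i, e i * π i (v j) := by
  classical
  let V : Submodule K₀ ℂ := Submodule.span K₀ (Set.range v)
  have : FiniteDimensional K₀ V := FiniteDimensional.span_of_finite K₀ (Set.finite_range v)
  let bas := Module.finBasis K₀ V
  have hext : ∀ i, ∃ g : ℂ →ₗ[K₀] K₀, g ∘ₗ V.subtype = bas.coord i := fun i =>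
    LinearMap.exists_extend (bas.coord i)
  choose g hg using hext
  refine ⟨_, fun i => (bas i : ℂ), fun i => (Algebra.linearMap K₀ ℂ) ∘ₗ g i, ?_, ?_⟩
  · intro i z
    exact (g i z).2
  · intro j
    have hvj : v j ∈ V := Submodule.subset_span ⟨j, rfl⟩
    have h1 := bas.sum_repr ⟨v j, hvj⟩
    have h2 := congrArg (Subtype.val) h1
    simp only [Submodule.coe_sum, Submodule.coe_smul] at h2
    refine h2.symm.trans ?_
    refine Finset.sum_congr rfl fun i _ => ?_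
    have h3 : g i (v j) = bas.repr ⟨v j, hvj⟩ i := by
      have := LinearMap.congr_fun (hg i) ⟨v j, hvj⟩
      simpa using this
    simp only [LinearMap.coe_comp, Function.comp_apply, Algebra.linearMap_apply, h3]
    rw [Algebra.smul_def, mul_comm]

/-- the `K₀`-rational elements of `W`. -/
def s48a_Wrat (M : ℕ) (b : ℕ → ℂ) (K₀ : IntermediateField ℚ ℂ) : Set (ℕ → ℂ) :=
  {v | v ∈ s48a_W M b ∧ ∀ n, v n ∈ K₀}

theorem s48a_W_span_rat {M : ℕ} [NeZero M]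
    (hS : ∀ d : ℕ, 1 ≤ d → CuspForm.HasIntegralStructure (M * d) 2)
    (K₀ : IntermediateField ℚ ℂ) {b : ℕ → ℂ} (hb : ∀ n, b n ∈ K₀) (hb1 : b 1 = 1)
    {w : ℕ → ℂ} (hw : w ∈ s48a_W M b) : w ∈ Submodule.span ℂ (s48a_Wrat M b K₀) := by
  obtain ⟨B, hB⟩ := s48a_W_sturm M hb1
  obtain ⟨s, e, π, hπ, hv⟩ := s48a_exists_coords K₀ (fun j : Fin (B + 1) => w j)
  have hle : Submodule.span ℂ (s48a_Wrat M b K₀) ≤ s48a_W M b :=
    Submodule.span_le.mpr fun v hv => hv.1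
  have hgen : ∀ i, (fun n => π i (w n)) ∈ s48a_Wrat M b K₀ := fun i =>
    ⟨s48a_W_map hS K₀ hb (π i) hw, fun n => hπ i _⟩
  have hw' : (∑ i, e i • (fun n => π i (w n))) ∈ Submodule.span ℂ (s48a_Wrat M b K₀) :=
    Submodule.sum_mem _ fun i _ => Submodule.smul_mem _ _ (Submodule.subset_span (hgen i))
  have hdiff : w - ∑ i, e i • (fun n => π i (w n)) = 0 := by
    refine hB _ (Submodule.sub_mem _ hw (hle hw')) fun n hn => ?_
    have := hv ⟨n, Nat.lt_succ_of_le hn⟩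
    simp only [Pi.sub_apply, Finset.sum_apply, Pi.smul_apply, smul_eq_mul]
    rw [sub_eq_zero]
    exact this
  rw [sub_eq_zero.mp hdiff]
  exact hw'

/-! ### bounded denominators -/

theorem s48a_exists_int_mul (K₀ : IntermediateField ℚ ℂ) [FiniteDimensional ℚ K₀] {x : ℂ}
    (hx : x ∈ K₀) : ∃ D : ℤ, D ≠ 0 ∧ IsIntegral ℤ ((D : ℂ) * x) := by
  have h1 : IsAlgebraic ℚ (⟨x, hx⟩ : K₀) := Algebra.IsAlgebraic.isAlgebraic _
  have h2 : IsAlgebraic ℚ x := by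
    have := h1.algebraMap (A := ℂ)
    simpa using this
  have h3 : IsAlgebraic ℤ x := (IsFractionRing.isAlgebraic_iff ℤ ℚ ℂ).mpr h2
  obtain ⟨D, hD, hi⟩ := h3.exists_integral_multiple
  refine ⟨D, hD, ?_⟩
  rwa [zsmul_eq_mul] at hi

open Fermat.Agent.Lib.QCoeff in
/-- images of `q`-expansions of `S₂(Γ₀(L))` under additive maps into `K₀` have bounded denominators. -/
theorem s48a_exists_denom_map {L : ℕ} (hS : CuspForm.HasIntegralStructure L 2)
    (K₀ : IntermediateField ℚ ℂ) [FiniteDimensional ℚ K₀]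
    (h : CuspForm (Gamma0 L) 2) (φ : ℂ →+ ℂ) (hφ : ∀ z, φ z ∈ K₀) :
    ∃ D : ℤ, D ≠ 0 ∧ ∀ n : ℕ, IsIntegral ℤ ((D : ℂ) * φ (qCoeff ⇑h n)) := by
  have hmem : h ∈ Submodule.span ℂ
      ((CuspForm.intLattice L 2 : Submodule ℤ (CuspForm (Gamma0 L) 2)) :
        Set (CuspForm (Gamma0 L) 2)) := by
    rw [hS]; trivial
  revert φ
  refine Submodule.span_induction (p := fun (x : CuspForm (Gamma0 L) 2) _ => ∀ φ : ℂ →+ ℂ,
    (∀ z, φ z ∈ K₀) → ∃ D : ℤ, D ≠ 0 ∧ ∀ n : ℕ, IsIntegral ℤ ((D : ℂ) * φ (qCoeff ⇑x n)))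
    ?_ ?_ ?_ ?_ hmem
  · intro x hx φ hφ
    have hx' := (Fermat.Agent.Lib.Lattice.mem_intLattice_iff x).mp hx
    obtain ⟨D, hD, hi⟩ := s48a_exists_int_mul K₀ (hφ 1)
    refine ⟨D, hD, fun n => ?_⟩
    obtain ⟨m, hm⟩ := hx' n
    have : φ (m : ℂ) = m • φ 1 := by
      rw [← map_zsmul]; simp
    rw [hm, this, zsmul_eq_mul, mul_left_comm]
    exact IsIntegral.mul isIntegral_algebraMap hi
  · intro φ _
    exact ⟨1, one_ne_zero, fun n => by rw [qCoeff_zero_form]; simpa using isIntegral_zero⟩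
  · intro x y _ _ hx hy φ hφ
    obtain ⟨D, hD, hi⟩ := hx φ hφ
    obtain ⟨D', hD', hi'⟩ := hy φ hφ
    refine ⟨D * D', mul_ne_zero hD hD', fun n => ?_⟩
    rw [qCoeff_add, map_add]
    have : ((D * D' : ℤ) : ℂ) * (φ (qCoeff ⇑x n) + φ (qCoeff ⇑y n))
        = (D' : ℂ) * ((D : ℂ) * φ (qCoeff ⇑x n)) + (D : ℂ) * ((D' : ℂ) * φ (qCoeff ⇑y n)) := by
      push_cast; ring
    rw [this]
    exact (IsIntegral.mul isIntegral_algebraMap (hi n)).add
      (IsIntegral.mul isIntegral_algebraMap (hi' n))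
  · intro c x _ hx φ hφ
    obtain ⟨D, hD, hi⟩ := hx (φ.comp (AddMonoidHom.mulLeft c)) (fun z => hφ _)
    exact ⟨D, hD, fun n => by rw [qCoeff_smul]; exact hi n⟩

theorem s48a_exists_retraction (K₀ : IntermediateField ℚ ℂ) :
    ∃ ρ : ℂ →ₗ[K₀] ℂ, (∀ z, ρ z ∈ K₀) ∧ ∀ x ∈ K₀, ρ x = x := by
  have hinj : LinearMap.ker (Algebra.linearMap K₀ ℂ) = ⊥ :=
    LinearMap.ker_eq_bot.mpr (algebraMap K₀ ℂ).injective
  obtain ⟨g, hg⟩ := (Algebra.linearMap K₀ ℂ).exists_leftInverse_of_injective hinj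
  refine ⟨(Algebra.linearMap K₀ ℂ) ∘ₗ g, fun z => (g z).2, fun x hx => ?_⟩
  have := LinearMap.congr_fun hg ⟨x, hx⟩
  simp only [LinearMap.coe_comp, Function.comp_apply, Algebra.linearMap_apply,
    LinearMap.id_coe, id_eq] at this ⊢
  have h2 : (algebraMap K₀ ℂ) ⟨x, hx⟩ = x := rfl
  rw [h2] at this
  rw [this]; rfl

theorem s48a_cmul_mem (K₀ : IntermediateField ℚ ℂ) {v u : ℕ → ℂ} (hv : ∀ n, v n ∈ K₀)
    (hu : ∀ n, u n ∈ K₀) (n : ℕ) : s48a_cmul v u n ∈ K₀ :=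
  sum_mem fun _ _ => mul_mem (hv _) (hu _)

/-- an inversion lemma: if `E 0 = 0`, `E 1 = 1`, `E n` integral, and `D · (v ⋆ E)` is integral, then
`D · v` is integral. -/
theorem s48a_isIntegral_of_cmul {v E : ℕ → ℂ} (hE0 : E 0 = 0) (hE1 : E 1 = 1)
    (hEint : ∀ n, IsIntegral ℤ (E n)) (D : ℂ) (h : ∀ n, IsIntegral ℤ (D * s48a_cmul v E n)) (n : ℕ) :
    IsIntegral ℤ (D * v n) := by
  induction n using Nat.strong_induction_on with
  | _ n ih =>
    have key : D * v n = D * s48a_cmul v E (n + 1)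
        - ∑ k ∈ Finset.range n, (D * v k) * E (n + 1 - k) := by
      simp only [s48a_cmul]
      rw [Finset.Nat.sum_antidiagonal_eq_sum_range_succ_mk, Finset.sum_range_succ,
        Finset.sum_range_succ]
      simp only [Nat.sub_self, hE0, mul_zero, add_zero]
      have h1 : n + 1 - n = 1 := by omega
      rw [h1, hE1, mul_one, mul_add, Finset.mul_sum]
      have : ∀ k ∈ Finset.range n, D * (v k * E (n + 1 - k)) = D * v k * E (n + 1 - k) :=
        fun k _ => by ring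
      rw [Finset.sum_congr rfl this]
      ring
    rw [key]
    refine (h (n + 1)).sub (IsIntegral.sum _ fun k hk => ?_)
    exact (ih k (Finset.mem_range.mp hk)).mul (hEint _)

theorem s48a_cmul_sub_right (v u u' : ℕ → ℂ) (n : ℕ) :
    s48a_cmul v (fun m => u m - u' m) n = s48a_cmul v u n - s48a_cmul v u' n := by
  simp only [s48a_cmul, mul_sub, Finset.sum_sub_distrib]

/-- `K₀`-rational elements of `W` have bounded denominators. -/
theorem s48a_W_denom {M : ℕ} (hS : ∀ d : ℕ, 1 ≤ d → CuspForm.HasIntegralStructure (M * d) 2)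
    (K₀ : IntermediateField ℚ ℂ) [FiniteDimensional ℚ K₀] {b : ℕ → ℂ} (hb : ∀ n, b n ∈ K₀)
    (hb1 : b 1 = 1) (hbint : ∀ n, 1 ≤ n → IsIntegral ℤ (b n)) {v : ℕ → ℂ}
    (hv : v ∈ s48a_Wrat M b K₀) :
    ∃ D : ℤ, D ≠ 0 ∧ ∀ n, IsIntegral ℤ ((D : ℂ) * v n) := by
  obtain ⟨ρ, hρ, hρid⟩ := s48a_exists_retraction K₀
  have hden : ∀ d : ℕ, 1 ≤ d → ∃ D : ℤ, D ≠ 0 ∧
      ∀ n, IsIntegral ℤ ((D : ℂ) * s48a_cmul v (s48a_sdil d b) n) := by
    intro d hd
    obtain ⟨x, hx⟩ := hv.1.2 d hd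
    obtain ⟨D, hD, hi⟩ := s48a_exists_denom_map (hS d hd) K₀ x ρ.toAddMonoidHom hρ
    refine ⟨D, hD, fun n => ?_⟩
    have := hi n
    rw [hx] at this
    have h2 : ρ.toAddMonoidHom (s48a_cmul v (s48a_sdil d b) n) = s48a_cmul v (s48a_sdil d b) n :=
      hρid _ (s48a_cmul_mem K₀ hv.2 (s48a_sdil_mem K₀ hb d) n)
    rwa [h2] at this
  obtain ⟨D₁, hD₁, hi₁⟩ := hden 1 (le_refl 1)
  obtain ⟨D₂, hD₂, hi₂⟩ := hden 2 (by norm_num)
  refine ⟨D₁ * D₂, mul_ne_zero hD₁ hD₂, ?_⟩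
  set E : ℕ → ℂ := fun m => s48a_sdil 1 b m - s48a_sdil 2 b m with hEdef
  have hE0 : E 0 = 0 := by simp [hEdef, s48a_sdil]
  have hE1 : E 1 = 1 := by simp [hEdef, s48a_sdil, hb1]
  have hEint : ∀ n, IsIntegral ℤ (E n) := by
    intro n
    rcases Nat.eq_zero_or_pos n with rfl | hn
    · rw [hE0]; exact isIntegral_zero
    · refine IsIntegral.sub ?_ ?_
      · rw [s48a_sdil_one]; exact hbint n hn
      · simp only [s48a_sdil]
        split_ifs with h2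
        · refine hbint _ ?_
          obtain ⟨t, rfl⟩ := h2
          omega
        · exact isIntegral_zero
  refine s48a_isIntegral_of_cmul hE0 hE1 hEint _ fun n => ?_
  rw [s48a_cmul_sub_right]
  have : ((D₁ * D₂ : ℤ) : ℂ) * (s48a_cmul v (s48a_sdil 1 b) n - s48a_cmul v (s48a_sdil 2 b) n)
      = (D₂ : ℂ) * ((D₁ : ℂ) * s48a_cmul v (s48a_sdil 1 b) n)
        - (D₁ : ℂ) * ((D₂ : ℂ) * s48a_cmul v (s48a_sdil 2 b) n) := by
    push_cast; ring
  rw [this]
  exact (IsIntegral.mul isIntegral_algebraMap (hi₁ n)).sub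
    (IsIntegral.mul isIntegral_algebraMap (hi₂ n))


end Fermat.Agent.Lib.S48
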