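/-
DS-1 (S48), wall [T3] (helper1, prefix `s48a_`): Galois conjugation of the formal space `W`.

For a subfield `K ⊆ ℂ` and a ring homomorphism `σ : K → ℂ`: if `b`, `x` are `K`-rational, `x ∈ W M b`,
then `σ(x) ∈ W M σ(b)` (from [PROJ], `AForm.lean`).
-/
import Mathlib
import Fermat.Agent.Lib.S48.AW

set_option autoImplicit false

noncomputable section

namespace Fermat.Agent.Lib.S48

open CongruenceSubgroup UpperHalfPlane ModularFormClass
open scoped MatrixGroups ModularForm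

/-- extension by zero of `σ : K →+* ℂ` to a function on `ℂ`. -/
def s48a_ext (K : IntermediateField ℚ ℂ) (σ : K →+* ℂ) (z : ℂ) : ℂ := by
  classical exact if h : z ∈ K then σ ⟨z, h⟩ else 0

variable {K : IntermediateField ℚ ℂ} {σ : K →+* ℂ}

theorem s48a_ext_of_mem {z : ℂ} (hz : z ∈ K) : s48a_ext K σ z = σ ⟨z, hz⟩ := by
  classical exact dif_pos hz

theorem s48a_ext_zero : s48a_ext K σ 0 = 0 := by
  rw [s48a_ext_of_mem (zero_mem K)]
  exact map_zero σ

theorem s48a_ext_one : s48a_ext K σ 1 = 1 := by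
  rw [s48a_ext_of_mem (one_mem K)]
  exact map_one σ

theorem s48a_ext_add {z z' : ℂ} (hz : z ∈ K) (hz' : z' ∈ K) :
    s48a_ext K σ (z + z') = s48a_ext K σ z + s48a_ext K σ z' := by
  rw [s48a_ext_of_mem (add_mem hz hz'), s48a_ext_of_mem hz, s48a_ext_of_mem hz', ← map_add]
  rfl

theorem s48a_ext_mul {z z' : ℂ} (hz : z ∈ K) (hz' : z' ∈ K) :
    s48a_ext K σ (z * z') = s48a_ext K σ z * s48a_ext K σ z' := by
  rw [s48a_ext_of_mem (mul_mem hz hz'), s48a_ext_of_mem hz, s48a_ext_of_mem hz', ← map_mul]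
  rfl

theorem s48a_ext_neg {z : ℂ} (hz : z ∈ K) : s48a_ext K σ (-z) = -s48a_ext K σ z := by
  rw [s48a_ext_of_mem (neg_mem hz), s48a_ext_of_mem hz, ← map_neg]
  rfl

theorem s48a_ext_sub {z z' : ℂ} (hz : z ∈ K) (hz' : z' ∈ K) :
    s48a_ext K σ (z - z') = s48a_ext K σ z - s48a_ext K σ z' := by
  rw [sub_eq_add_neg, s48a_ext_add hz (neg_mem hz'), s48a_ext_neg hz', sub_eq_add_neg]

theorem s48a_ext_ratCast (q : ℚ) : s48a_ext K σ (q : ℂ) = q := by
  have hq : (q : ℂ) ∈ K := by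
    have := K.algebraMap_mem q
    simpa using this
  rw [s48a_ext_of_mem hq]
  have : (⟨(q : ℂ), hq⟩ : K) = (q : K) := by
    apply Subtype.ext
    simp
  rw [this, map_ratCast]

theorem s48a_ext_natCast (n : ℕ) : s48a_ext K σ (n : ℂ) = n := by
  have := s48a_ext_ratCast (K := K) (σ := σ) (n : ℚ)
  simpa using this

theorem s48a_ext_sum {ι : Type*} (s : Finset ι) {f : ι → ℂ} (hf : ∀ i ∈ s, f i ∈ K) :
    s48a_ext K σ (∑ i ∈ s, f i) = ∑ i ∈ s, s48a_ext K σ (f i) := by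
  classical
  induction s using Finset.induction_on with
  | empty => simp [s48a_ext_zero]
  | insert a s ha ih =>
    rw [Finset.sum_insert ha, Finset.sum_insert ha,
      s48a_ext_add (hf a (Finset.mem_insert_self a s))
        (sum_mem fun i hi => hf i (Finset.mem_insert_of_mem hi)),
      ih fun i hi => hf i (Finset.mem_insert_of_mem hi)]

/-- an additive extension of `σ` to `ℂ`. -/
theorem s48a_exists_addExt (K : IntermediateField ℚ ℂ) (σ : K →+* ℂ) :
    ∃ φ : ℂ →+ ℂ, ∀ z ∈ K, φ z = s48a_ext K σ z := by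
  have hinj : LinearMap.ker (Algebra.linearMap K ℂ) = ⊥ :=
    LinearMap.ker_eq_bot.mpr (algebraMap K ℂ).injective
  obtain ⟨g, hg⟩ := (Algebra.linearMap K ℂ).exists_leftInverse_of_injective hinj
  refine ⟨(σ : K →+ ℂ).comp g.toAddMonoidHom, fun z hz => ?_⟩
  have h1 := LinearMap.congr_fun hg ⟨z, hz⟩
  simp only [LinearMap.coe_comp, Function.comp_apply, Algebra.linearMap_apply,
    LinearMap.id_coe, id_eq] at h1
  have h2 : (algebraMap K ℂ) ⟨z, hz⟩ = z := rfl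
  rw [h2] at h1
  rw [s48a_ext_of_mem hz]
  simp only [AddMonoidHom.coe_comp, AddMonoidHom.coe_coe, Function.comp_apply,
    LinearMap.toAddMonoidHom_coe, h1]

/-- **conjugation of `W`**. -/
theorem s48a_W_conj {M : ℕ} (hS : ∀ d : ℕ, 1 ≤ d → CuspForm.HasIntegralStructure (M * d) 2)
    (K : IntermediateField ℚ ℂ) (σ : K →+* ℂ) {b bσ x : ℕ → ℂ} (hbK : ∀ n, b n ∈ K)
    (hxK : ∀ n, x n ∈ K) (hbσ : ∀ n, bσ n = s48a_ext K σ (b n)) (hx : x ∈ s48a_W M b) :
    (fun n => s48a_ext K σ (x n)) ∈ s48a_W M bσ := by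
  obtain ⟨φ, hφ⟩ := s48a_exists_addExt K σ
  obtain ⟨h0, h⟩ := hx
  refine ⟨by simp only [h0, s48a_ext_zero], fun d hd => ?_⟩
  obtain ⟨y, hy⟩ := h d hd
  obtain ⟨y', hy'⟩ := s48a_exists_map_form (hS d hd) y φ
  refine ⟨y', fun n => ?_⟩
  have hsd : ∀ j, s48a_sdil d b j ∈ K := fun j => s48a_sdil_mem K hbK d j
  rw [hy', hy, hφ _ (s48a_cmul_mem K hxK hsd n)]
  simp only [s48a_cmul]
  rw [s48a_ext_sum _ fun ij _ => mul_mem (hxK _) (hsd _)]
  refine Finset.sum_congr rfl fun ij _ => ?_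
  rw [s48a_ext_mul (hxK _) (hsd _)]
  congr 1
  simp only [s48a_sdil]
  split_ifs
  · exact (hbσ _).symm
  · exact s48a_ext_zero

end Fermat.Agent.Lib.S48
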