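/-
DS-1 (S48), wall [T3] (helper1, prefix `s48a_`): "Eisenstein division", part A — behaviour at `i∞`.

For `s48h_QNice` functions (1-periodic, holomorphic, bounded at `i∞`):
* `s48a_tendsto_div_q`: if `a₀(F) = 0` then `F(τ)/q(τ) → a₁(F)`;
* `s48a_eventually_ne_zero`: if `a₀(E) = 0`, `a₁(E) = 1` then `E(τ) ≠ 0` for `Im τ` large;
* `s48a_tendsto_div_zero`: if moreover `a₀(H) = a₁(H) = 0` then `H/E → 0` at `i∞`.
-/
import Mathlib
import Fermat.Agent.Lib.S48.HProd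

set_option autoImplicit false

noncomputable section

namespace Fermat.Agent.Lib.S48

open Matrix.SpecialLinearGroup ModularForm CongruenceSubgroup UpperHalfPlane ModularFormClass Filter
open scoped MatrixGroups ModularForm Manifold Topology

local notation "𝕢" => Function.Periodic.qParam

variable {F E H : ℍ → ℂ}

theorem s48a_cusp_zero (F : ℍ → ℂ) : cuspFunction 1 F 0 = qCoeff F 0 := by
  simp [qCoeff, qExpansion_coeff]

theorem s48a_cusp_deriv (F : ℍ → ℂ) : deriv (cuspFunction 1 F) 0 = qCoeff F 1 := by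
  simp [qCoeff, qExpansion_coeff, iteratedDeriv_one]

theorem s48a_qParam_ne_zero (τ : ℍ) : 𝕢 1 (τ : ℂ) ≠ 0 := by
  simp [Function.Periodic.qParam]

/-- if `a₀(F) = 0` then `F/q → a₁(F)` at `i∞`. -/
theorem s48a_tendsto_div_q (hF : s48h_QNice F) (h0 : qCoeff F 0 = 0) :
    Tendsto (fun τ : ℍ => F τ / 𝕢 1 (τ : ℂ)) atImInfty (𝓝 (qCoeff F 1)) := by
  set ϕ := cuspFunction 1 F with hϕ
  have hd : DifferentiableAt ℂ ϕ 0 := hF.analytic.differentiableAt
  have hc : ContinuousAt (dslope ϕ 0) 0 := continuousAt_dslope_same.mpr hd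
  have hval : dslope ϕ 0 0 = qCoeff F 1 := by rw [dslope_same, s48a_cusp_deriv]
  have hϕ0 : ϕ 0 = 0 := by rw [hϕ, s48a_cusp_zero, h0]
  have h1 : Tendsto (fun τ : ℍ => dslope ϕ 0 (𝕢 1 (τ : ℂ))) atImInfty (𝓝 (qCoeff F 1)) := by
    rw [← hval]
    exact hc.tendsto.comp (qParam_tendsto_atImInfty one_pos)
  refine h1.congr fun τ => ?_
  rw [dslope_of_ne _ (s48a_qParam_ne_zero τ), slope_def_field, hϕ0, sub_zero, sub_zero,
    hϕ, eq_cuspFunction τ one_ne_zero hF.per]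

/-- if `a₀(E) = 0` and `a₁(E) = 1` then `E ≠ 0` near `i∞`. -/
theorem s48a_eventually_ne_zero (hE : s48h_QNice E) (h0 : qCoeff E 0 = 0) (h1 : qCoeff E 1 = 1) :
    ∀ᶠ τ in atImInfty, E τ ≠ 0 := by
  have h := s48a_tendsto_div_q hE h0
  rw [h1] at h
  have h2 : ∀ᶠ τ in atImInfty, E τ / 𝕢 1 (τ : ℂ) ≠ 0 := h.eventually_ne one_ne_zero
  filter_upwards [h2] with τ hτ h0'
  exact hτ (by rw [h0', zero_div])

/-- explicit form: `E ≠ 0` on a half plane `Im τ ≥ A`. -/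
theorem s48a_exists_ne_zero (hE : s48h_QNice E) (h0 : qCoeff E 0 = 0) (h1 : qCoeff E 1 = 1) :
    ∃ A : ℝ, ∀ τ : ℍ, A ≤ τ.im → E τ ≠ 0 := by
  have h := s48a_eventually_ne_zero hE h0 h1
  rw [Filter.eventually_iff, atImInfty_mem] at h
  obtain ⟨A, hA⟩ := h
  exact ⟨A, fun τ hτ => hA τ hτ⟩

/-- `H/E → 0` at `i∞` if `a₀(H) = a₁(H) = 0`, `a₀(E) = 0`, `a₁(E) = 1`. -/
theorem s48a_tendsto_div_zero (hE : s48h_QNice E) (hE0 : qCoeff E 0 = 0) (hE1 : qCoeff E 1 = 1)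
    (hH : s48h_QNice H) (hH0 : qCoeff H 0 = 0) (hH1 : qCoeff H 1 = 0) :
    Tendsto (fun τ : ℍ => H τ / E τ) atImInfty (𝓝 0) := by
  have h1 := s48a_tendsto_div_q hE hE0
  have h2 := s48a_tendsto_div_q hH hH0
  rw [hE1] at h1
  rw [hH1] at h2
  have h3 := h2.div h1 one_ne_zero
  rw [zero_div] at h3
  refine h3.congr fun τ => ?_
  have hq := s48a_qParam_ne_zero τ
  simp only [Pi.div_apply]
  field_simp

end Fermat.Agent.Lib.S48
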