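/-
S48 Stage A, brick (D0) [AL] (helper3): matrix identities in `GL (Fin 2) ℝ` relating the Hecke
coset representatives `β_j = heckeMatrix p j = (1 j; 0 p)`, `δ = heckeDiagMatrix p = (p 0; 0 1)` and
elements of `SL(2, ℤ)`, with the FULL integer matrix `g'` exported, plus the existence of the
auxiliary elements `σ` (diamond representative adapted to `p`) and `w ≡ (0 −1; 1 0) mod p`,
`w ∈ Γ₁(N)`.
-/
import Mathlib
import Fermat.Prelude.Def_ModularForm_HeckeOperator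

set_option autoImplicit false

noncomputable section

namespace Fermat.Agent.Lib.S48

open Matrix.SpecialLinearGroup ModularForm CongruenceSubgroup
open scoped MatrixGroups

theorem s48h_mapGL_apply (g : SL(2, ℤ)) (i j : Fin 2) :
    (mapGL ℝ g : GL (Fin 2) ℝ) i j = ((g i j : ℤ) : ℝ) := by
  simp

theorem s48h_det_eq (g : SL(2, ℤ)) : g 0 0 * g 1 1 - g 0 1 * g 1 0 = 1 := by
  have h := g.det_coe
  rwa [Matrix.det_fin_two] at h

section commutation

variable {p : ℕ} (hp : p ≠ 0)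
include hp

/-- `β_j g = g' β_{j'}` with `g' = (a + jc, e; pc, d − cj')`. -/
theorem s48h_heckeMatrix_mul (g : SL(2, ℤ)) (j j' : ℕ) (e : ℤ)
    (he : g 0 1 + j * g 1 1 = j' * (g 0 0 + j * g 1 0) + p * e) :
    ∃ g' : SL(2, ℤ), g' 0 0 = g 0 0 + j * g 1 0 ∧ g' 1 0 = p * g 1 0 ∧
      g' 1 1 = g 1 1 - g 1 0 * j' ∧
      heckeMatrix p j * mapGL ℝ g = mapGL ℝ g' * heckeMatrix p j' := by
  have hdet := s48h_det_eq g
  refine ⟨⟨!![g 0 0 + j * g 1 0, e; p * g 1 0, g 1 1 - g 1 0 * j'], ?_⟩, rfl, rfl, rfl, ?_⟩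
  · rw [Matrix.det_fin_two_of]
    linear_combination hdet + (g 1 0) * he
  · ext i j
    fin_cases i <;> fin_cases j <;>
      simp [hp, Matrix.mul_apply, Fin.sum_univ_two]
    all_goals first
      | (have := congrArg (Int.cast : ℤ → ℝ) he; push_cast at this ⊢; linear_combination this)
      | (have := congrArg (Int.cast : ℤ → ℝ) he; push_cast at this ⊢; linear_combination -this)
      | ring1

/-- `β_j g = g' δ` with `g' = (e, b + jd; c, pd)` when `a + jc = pe`. -/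
theorem s48h_heckeMatrix_mul' (g : SL(2, ℤ)) (j : ℕ) (e : ℤ)
    (he : g 0 0 + j * g 1 0 = p * e) :
    ∃ g' : SL(2, ℤ), g' 1 0 = g 1 0 ∧ g' 1 1 = p * g 1 1 ∧
      heckeMatrix p j * mapGL ℝ g = mapGL ℝ g' * heckeDiagMatrix p := by
  have hdet := s48h_det_eq g
  refine ⟨⟨!![e, g 0 1 + j * g 1 1; g 1 0, p * g 1 1], ?_⟩, rfl, rfl, ?_⟩
  · rw [Matrix.det_fin_two_of]
    linear_combination hdet - (g 1 1) * he
  · ext i j
    fin_cases i <;> fin_cases j <;>
      simp [hp, Matrix.mul_apply, Fin.sum_univ_two]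
    all_goals first
      | (have := congrArg (Int.cast : ℤ → ℝ) he; push_cast at this ⊢; linear_combination this)
      | (have := congrArg (Int.cast : ℤ → ℝ) he; push_cast at this ⊢; linear_combination -this)
      | ring1

/-- `δ g = g' β_{j'}` with `g' = (pa, b − aj'; c, e)` when `d = cj' + pe`. -/
theorem s48h_heckeDiagMatrix_mul (g : SL(2, ℤ)) (j' : ℕ) (e : ℤ)
    (he : g 1 1 = g 1 0 * j' + p * e) :
    ∃ g' : SL(2, ℤ), g' 1 0 = g 1 0 ∧ g' 1 1 = e ∧
      heckeDiagMatrix p * mapGL ℝ g = mapGL ℝ g' * heckeMatrix p j' := by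
  have hdet := s48h_det_eq g
  refine ⟨⟨!![p * g 0 0, g 0 1 - g 0 0 * j'; g 1 0, e], ?_⟩, rfl, rfl, ?_⟩
  · rw [Matrix.det_fin_two_of]
    linear_combination hdet - (g 0 0) * he
  · ext i j
    fin_cases i <;> fin_cases j <;>
      simp [hp, Matrix.mul_apply, Fin.sum_univ_two]
    all_goals first
      | (have := congrArg (Int.cast : ℤ → ℝ) he; push_cast at this ⊢; linear_combination this)
      | (have := congrArg (Int.cast : ℤ → ℝ) he; push_cast at this ⊢; linear_combination -this)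
      | ring1

/-- `δ g = g' δ` with `g' = (a, pb; e, d)` when `c = pe`. -/
theorem s48h_heckeDiagMatrix_mul' (g : SL(2, ℤ)) (e : ℤ) (he : g 1 0 = p * e) :
    ∃ g' : SL(2, ℤ), g' 1 0 = e ∧ g' 1 1 = g 1 1 ∧
      heckeDiagMatrix p * mapGL ℝ g = mapGL ℝ g' * heckeDiagMatrix p := by
  have hdet := s48h_det_eq g
  refine ⟨⟨!![g 0 0, p * g 0 1; e, g 1 1], ?_⟩, rfl, rfl, ?_⟩
  · rw [Matrix.det_fin_two_of]
    linear_combination hdet + (g 0 1) * he
  · ext i j
    fin_cases i <;> fin_cases j <;>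
      simp [hp, Matrix.mul_apply, Fin.sum_univ_two]
    all_goals first
      | (have := congrArg (Int.cast : ℤ → ℝ) he; push_cast at this ⊢; linear_combination this)
      | (have := congrArg (Int.cast : ℤ → ℝ) he; push_cast at this ⊢; linear_combination -this)
      | ring1

/-- `β_0 δ = p • 1` (a scalar matrix). -/
theorem s48h_heckeMatrix_zero_mul_diag :
    ((heckeMatrix p 0 * heckeDiagMatrix p : GL (Fin 2) ℝ) : Matrix (Fin 2) (Fin 2) ℝ)
      = !![(p : ℝ), 0; 0, (p : ℝ)] := by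
  ext i j
  fin_cases i <;> fin_cases j <;>
    simp [hp, Matrix.mul_apply, Fin.sum_univ_two]

end commutation

/-! ### Auxiliary elements of `SL(2, ℤ)` -/

/-- Given a unit `u` mod `N` and `p` coprime to `N`: a `σ ∈ SL(2, ℤ)` with `Np ∣ σ₁₀`, `p ∣ σ₀₁`
and `σ₁₁ ≡ u mod N`. -/
theorem s48h_exists_sigma (N p : ℕ) (hpN : Nat.Coprime p N) (u : (ZMod N)ˣ) :
    ∃ σ : SL(2, ℤ), ((N : ℤ) * p) ∣ σ 1 0 ∧ (p : ℤ) ∣ σ 0 1 ∧ ((σ 1 1 : ℤ) : ZMod N) = u := by
  -- `s p + t N = 1`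
  obtain ⟨s, t, hst⟩ : IsCoprime (p : ℤ) (N : ℤ) := Nat.isCoprime_iff_coprime.mpr hpN
  -- an integer `x` representing `u`
  obtain ⟨x, hx⟩ : ∃ x : ℤ, ((x : ℤ) : ZMod N) = u := ⟨((u : ZMod N).cast : ℤ), by simp⟩
  set d : ℤ := x * s * p + t * N with hd
  have hdN : ((d : ℤ) : ZMod N) = u := by
    have h1 : ((s * p : ℤ) : ZMod N) = 1 := by
      have := congrArg (Int.cast : ℤ → ZMod N) hst
      push_cast at this
      simpa using this
    rw [hd]
    push_cast at h1 ⊢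
    rw [mul_assoc, h1, ZMod.natCast_self, mul_zero, add_zero, mul_one, hx]
  have hcopN : IsCoprime d (N : ℤ) := by
    have hu : IsUnit ((d : ℤ) : ZMod N) := hdN ▸ u.isUnit
    exact ((ZMod.coe_int_isUnit_iff_isCoprime d N).mp hu).symm
  have hcopp : IsCoprime d (p : ℤ) := ⟨1, -((x - 1) * s), by rw [hd]; linear_combination hst⟩
  obtain ⟨a, b, hab⟩ : IsCoprime d ((N : ℤ) * p * p) := (hcopN.mul_right hcopp).mul_right hcopp
  refine ⟨⟨!![a, -(b * p); N * p, d], ?_⟩, ?_, ?_, ?_⟩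
  · rw [Matrix.det_fin_two_of]
    linear_combination hab
  · exact dvd_refl _
  · exact ⟨-b, by simp [mul_comm]⟩
  · simpa using hdN

/-- For `p` coprime to `N`: a `w ∈ Γ₁(N)` with `w ≡ (0 −1; 1 0) mod p`. -/
theorem s48h_exists_w (N p : ℕ) (hpN : Nat.Coprime p N) :
    ∃ w : SL(2, ℤ), w ∈ Gamma1 N ∧ (p : ℤ) ∣ w 0 0 ∧ (p : ℤ) ∣ w 1 1 ∧
      (p : ℤ) ∣ w 1 0 - 1 ∧ (p : ℤ) ∣ w 0 1 + 1 ∧ ((w 1 1 : ℤ) : ZMod N) = 1 ∧
      (N : ℤ) ∣ w 1 0 := by
  obtain ⟨s, t, hst⟩ : IsCoprime (p : ℤ) (N : ℤ) := Nat.isCoprime_iff_coprime.mpr hpN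
  have h1 : ((s * p : ℤ) : ZMod N) = 1 := by
    have := congrArg (Int.cast : ℤ → ZMod N) hst
    push_cast at this
    simpa using this
  refine ⟨⟨!![s * p, -(s * p + 1); t * N, s * p], ?_⟩, ?_, ?_, ?_, ?_, ?_, ?_, ?_⟩
  · rw [Matrix.det_fin_two_of]
    linear_combination (1 + s * p) * hst
  · rw [Gamma1_mem]
    refine ⟨by simpa using h1, by simpa using h1, by simp⟩
  · exact ⟨s, by simp [mul_comm]⟩
  · exact ⟨s, by simp [mul_comm]⟩
  · exact ⟨-s, by simp; linear_combination hst⟩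
  · exact ⟨-s, by simp [mul_comm]⟩
  · simpa using h1
  · exact ⟨t, by simp [mul_comm]⟩

end Fermat.Agent.Lib.S48
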