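/-
S48 Stage A, brick (D0) [AL] (helper3): function-level infrastructure.

* `s48h_QNice F`: `F : ℍ → ℂ` is `1`-periodic, holomorphic and bounded at `i∞` (so it has a
  `q`-expansion); closure properties and the `q`-coefficients of sums, multiples, `U_p F`,
  `F ∣ diag(p,1)`; the `q`-expansion principle.
* `s48h_Good N k F`: `F` is `Γ₁(N)`-invariant of weight `k`, holomorphic, and ALL its
  `SL(2,ℤ)`-translates are bounded at `i∞`.  Stable under slashing by `Γ₀(N)`; `F ∣ σ` for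
  `σ ∈ Γ₀(N)` only depends on the lower right entry of `σ` mod `N` (the diamond operator).
-/
import Mathlib
import Fermat.Prelude.Def_ModularForm_HeckeOperator
import Fermat.Prelude.Def_FLTPrelim_Modularity
import Fermat.Prelude.Thm_UpperHalfPlane_qCoeff_heckeU
import Fermat.Prelude.Thm_UpperHalfPlane_qCoeff_heckeT
import Fermat.Prelude.Thm_UpperHalfPlane_eq_of_forall_qCoeff_eq
import Fermat.Prelude.Thm_ModularForm_periodic_heckeU_comp_ofComplex
import Fermat.Prelude.Thm_ModularForm_periodic_heckeT_comp_ofComplex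
import Fermat.Prelude.Thm_ModularForm_mdifferentiable_heckeU
import Fermat.Prelude.Thm_ModularForm_mdifferentiable_heckeT
import Fermat.Prelude.Thm_ModularForm_isBoundedAtImInfty_heckeU
import Fermat.Prelude.Thm_ModularForm_isBoundedAtImInfty_heckeT
import Fermat.Agent.Lib.S48.HMat

set_option autoImplicit false

noncomputable section

namespace Fermat.Agent.Lib.S48

open Matrix.SpecialLinearGroup ModularForm CongruenceSubgroup UpperHalfPlane ModularFormClass
open scoped MatrixGroups ModularForm Manifold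

/-! ### Functions with a `q`-expansion at `i∞` -/

/-- `F` is `1`-periodic, holomorphic and bounded at `i∞`. -/
structure s48h_QNice (F : ℍ → ℂ) : Prop where
  per : Function.Periodic (F ∘ UpperHalfPlane.ofComplex) 1
  hol : MDiff F
  bdd : IsBoundedAtImInfty F

namespace s48h_QNice

variable {F G : ℍ → ℂ}

theorem analytic (hF : s48h_QNice F) : AnalyticAt ℂ (cuspFunction 1 F) 0 :=
  analyticAt_cuspFunction_zero one_pos hF.per hF.hol hF.bdd

theorem zero : s48h_QNice (0 : ℍ → ℂ) where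
  per := fun z => by simp
  hol := mdifferentiable_const
  bdd := UpperHalfPlane.zero_form_isBoundedAtImInfty

theorem add (hF : s48h_QNice F) (hG : s48h_QNice G) : s48h_QNice (F + G) where
  per := fun z => by
    have h1 := hF.per z
    have h2 := hG.per z
    simp only [Function.comp_apply, Pi.add_apply] at *
    rw [h1, h2]
  hol := hF.hol.add hG.hol
  bdd := hF.bdd.add hG.bdd

theorem smul (hF : s48h_QNice F) (c : ℂ) : s48h_QNice (c • F) where
  per := fun z => by
    have h1 := hF.per z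
    simp only [Function.comp_apply, Pi.smul_apply] at *
    rw [h1]
  hol := hF.hol.const_smul c
  bdd := hF.bdd.const_smul_left c

theorem neg (hF : s48h_QNice F) : s48h_QNice (-F) := by
  have := hF.smul (-1)
  simpa using this

theorem sub (hF : s48h_QNice F) (hG : s48h_QNice G) : s48h_QNice (F - G) := by
  rw [sub_eq_add_neg]
  exact hF.add hG.neg

theorem heckeU (hF : s48h_QNice F) (k : ℤ) (p : ℕ) : s48h_QNice (heckeU k p F) where
  per := ModularForm.periodic_heckeU_comp_ofComplex hF.per k p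
  hol := ModularForm.mdifferentiable_heckeU hF.hol k p
  bdd := ModularForm.isBoundedAtImInfty_heckeU hF.bdd k p

theorem heckeT (hF : s48h_QNice F) (k : ℤ) (p : ℕ) : s48h_QNice (heckeT k p F) where
  per := ModularForm.periodic_heckeT_comp_ofComplex hF.per k p
  hol := ModularForm.mdifferentiable_heckeT hF.hol k p
  bdd := ModularForm.isBoundedAtImInfty_heckeT hF.bdd k p

theorem slash_diag (hF : s48h_QNice F) (k : ℤ) (p : ℕ) :
    s48h_QNice (F ∣[k] heckeDiagMatrix p) := by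
  have h : F ∣[k] heckeDiagMatrix p = ModularForm.heckeT k p F - ModularForm.heckeU k p F := by
    rw [heckeT_eq_heckeU_add]; abel
  rw [h]
  exact (hF.heckeT k p).sub (hF.heckeU k p)

end s48h_QNice

section qCoeff

variable {F G : ℍ → ℂ}

theorem s48h_qCoeff_add (hF : s48h_QNice F) (hG : s48h_QNice G) (n : ℕ) :
    qCoeff (F + G) n = qCoeff F n + qCoeff G n := by
  simp only [qCoeff]
  rw [qExpansion_add hF.analytic hG.analytic, map_add]

theorem s48h_qCoeff_sub (hF : s48h_QNice F) (hG : s48h_QNice G) (n : ℕ) :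
    qCoeff (F - G) n = qCoeff F n - qCoeff G n := by
  simp only [qCoeff]
  rw [qExpansion_sub hF.analytic hG.analytic, map_sub]

theorem s48h_qCoeff_smul (hF : s48h_QNice F) (c : ℂ) (n : ℕ) :
    qCoeff (c • F) n = c * qCoeff F n := by
  simp only [qCoeff]
  rw [qExpansion_smul hF.analytic c]
  simp

theorem s48h_qCoeff_zero (n : ℕ) : qCoeff (0 : ℍ → ℂ) n = 0 := by
  simp only [qCoeff]
  rw [qExpansion_zero]
  simp

theorem s48h_qCoeff_heckeU (hF : s48h_QNice F) (k : ℤ) {p : ℕ} (hp : p ≠ 0) (n : ℕ) :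
    qCoeff (ModularForm.heckeU k p F) n = qCoeff F (n * p) := by
  rw [UpperHalfPlane.qCoeff_heckeU hF.per hF.hol hF.bdd k hp n, coeffHeckeU_apply]

theorem s48h_qCoeff_slash_diag (hF : s48h_QNice F) (k : ℤ) {p : ℕ} (hp : p ≠ 0) (n : ℕ) :
    qCoeff (F ∣[k] heckeDiagMatrix p) n
      = if p ∣ n then (p : ℂ) ^ (k - 1) * qCoeff F (n / p) else 0 := by
  have h : F ∣[k] heckeDiagMatrix p = ModularForm.heckeT k p F - ModularForm.heckeU k p F := by
    rw [heckeT_eq_heckeU_add]; abel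
  rw [h, s48h_qCoeff_sub (hF.heckeT k p) (hF.heckeU k p),
    UpperHalfPlane.qCoeff_heckeT hF.per hF.hol hF.bdd k hp n,
    UpperHalfPlane.qCoeff_heckeU hF.per hF.hol hF.bdd k hp n, coeffHeckeT_apply, coeffHeckeU_apply]
  ring

theorem s48h_QNice.ext (hF : s48h_QNice F) (hG : s48h_QNice G)
    (h : ∀ n : ℕ, qCoeff F n = qCoeff G n) : F = G :=
  UpperHalfPlane.eq_of_forall_qCoeff_eq hF.per hF.hol hF.bdd hG.per hG.hol hG.bdd h

theorem s48h_QNice.eq_zero (hF : s48h_QNice F) (h : ∀ n : ℕ, qCoeff F n = 0) : F = 0 :=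
  hF.ext s48h_QNice.zero fun n => by rw [h n, s48h_qCoeff_zero]

end qCoeff

/-! ### `Γ₁(N)`-invariant functions -/

/-- `F` is `Γ₁(N)`-invariant of weight `k`, holomorphic, and all its `SL(2,ℤ)`-translates are
bounded at `i∞`. -/
structure s48h_Good (N : ℕ) (k : ℤ) (F : ℍ → ℂ) : Prop where
  inv : ∀ γ ∈ Gamma1 N, F ∣[k] (mapGL ℝ γ : GL (Fin 2) ℝ) = F
  hol : MDiff F
  bdd : ∀ γ : SL(2, ℤ), IsBoundedAtImInfty (F ∣[k] (mapGL ℝ γ : GL (Fin 2) ℝ))

/-- For `γ ∈ Γ₀(N)`: `γ ∈ Γ₁(N)` iff its lower right entry is `≡ 1 mod N`. -/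
theorem s48h_mem_Gamma1_iff {N : ℕ} {γ : SL(2, ℤ)} (hγ : γ ∈ Gamma0 N) :
    γ ∈ Gamma1 N ↔ ((γ 1 1 : ℤ) : ZMod N) = 1 := by
  rw [Gamma1_mem]
  refine ⟨fun h => h.2.1, fun h => ⟨?_, h, Gamma0_mem.mp hγ⟩⟩
  have hdet := congrArg (Int.cast : ℤ → ZMod N) (s48h_det_eq γ)
  push_cast at hdet
  rw [h, Gamma0_mem.mp hγ, mul_one, mul_zero, sub_zero] at hdet
  exact hdet

/-- Lower right entry of a product in `Γ₀(N)`, mod `N`. -/
theorem s48h_lowerRight_mul {N : ℕ} {σ τ : SL(2, ℤ)} (hσ : σ ∈ Gamma0 N) :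
    (((σ * τ) 1 1 : ℤ) : ZMod N) = ((σ 1 1 : ℤ) : ZMod N) * ((τ 1 1 : ℤ) : ZMod N) := by
  have h := (Matrix.two_mul_expl σ.1 τ.1).2.2.2
  rw [Matrix.SpecialLinearGroup.coe_mul]
  simp only [h]
  push_cast
  rw [Gamma0_mem.mp hσ, zero_mul, zero_add]

/-- Lower right entry of an inverse in `Γ₀(N)`, mod `N`: it is the upper left entry, which is the
inverse of the lower right entry. -/
theorem s48h_lowerRight_inv_mul {N : ℕ} {σ : SL(2, ℤ)} (hσ : σ ∈ Gamma0 N) :
    (((σ⁻¹) 1 1 : ℤ) : ZMod N) * ((σ 1 1 : ℤ) : ZMod N) = 1 := by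
  have h := s48h_lowerRight_mul (σ := σ⁻¹) (τ := σ) (inv_mem hσ)
  rw [inv_mul_cancel] at h
  rw [← h]
  simp

namespace s48h_Good

variable {N : ℕ} {k : ℤ} {F G : ℍ → ℂ}

theorem zero : s48h_Good N k (0 : ℍ → ℂ) where
  inv := fun γ _ => SlashAction.zero_slash _ _
  hol := mdifferentiable_const
  bdd := fun γ => by
    rw [SlashAction.zero_slash]
    exact UpperHalfPlane.zero_form_isBoundedAtImInfty

theorem add (hF : s48h_Good N k F) (hG : s48h_Good N k G) : s48h_Good N k (F + G) where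
  inv := fun γ hγ => by rw [SlashAction.add_slash, hF.inv γ hγ, hG.inv γ hγ]
  hol := hF.hol.add hG.hol
  bdd := fun γ => by
    rw [SlashAction.add_slash]
    exact (hF.bdd γ).add (hG.bdd γ)

theorem smul (hF : s48h_Good N k F) (c : ℂ) : s48h_Good N k (c • F) where
  inv := fun γ hγ => by
    have h : (c • F) ∣[k] (mapGL ℝ γ : GL (Fin 2) ℝ) = c • (F ∣[k] (mapGL ℝ γ : GL (Fin 2) ℝ)) :=
      ModularForm.SL_smul_slash k γ F c
    rw [h, hF.inv γ hγ]
  hol := hF.hol.const_smul c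
  bdd := fun γ => by
    have h : (c • F) ∣[k] (mapGL ℝ γ : GL (Fin 2) ℝ) = c • (F ∣[k] (mapGL ℝ γ : GL (Fin 2) ℝ)) :=
      ModularForm.SL_smul_slash k γ F c
    rw [h]
    exact (hF.bdd γ).const_smul_left c

theorem neg (hF : s48h_Good N k F) : s48h_Good N k (-F) := by
  have := hF.smul (-1)
  simpa using this

theorem sub (hF : s48h_Good N k F) (hG : s48h_Good N k G) : s48h_Good N k (F - G) := by
  rw [sub_eq_add_neg]
  exact hF.add hG.neg

/-- Slashing by `Γ₀(N)` preserves `s48h_Good` (`Γ₀(N)` normalises `Γ₁(N)`). -/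
theorem slash (hF : s48h_Good N k F) {σ : SL(2, ℤ)} (hσ : σ ∈ Gamma0 N) :
    s48h_Good N k (F ∣[k] (mapGL ℝ σ : GL (Fin 2) ℝ)) where
  inv := fun γ hγ => by
    have hconj : σ * γ * σ⁻¹ ∈ Gamma1 N := by
      have h0 : σ * γ * σ⁻¹ ∈ Gamma0 N :=
        mul_mem (mul_mem hσ (Gamma1_in_Gamma0 N hγ)) (inv_mem hσ)
      rw [s48h_mem_Gamma1_iff h0, s48h_lowerRight_mul (mul_mem hσ (Gamma1_in_Gamma0 N hγ)),
        s48h_lowerRight_mul hσ, ((Gamma1_mem N γ).mp hγ).2.1, mul_one, mul_comm]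
      exact s48h_lowerRight_inv_mul hσ
    have h := hF.inv _ hconj
    rw [← SlashAction.slash_mul, ← map_mul]
    have h2 : σ * γ = (σ * γ * σ⁻¹) * σ := by group
    rw [h2, map_mul, SlashAction.slash_mul, h]
  hol := hF.hol.slash k _
  bdd := fun γ => by
    rw [← SlashAction.slash_mul, ← map_mul]
    exact hF.bdd _

/-- The invariance under `Γ₁(N)` gives a bundled `SlashInvariantForm`. -/
def toSIF (hF : s48h_Good N k F) : SlashInvariantForm (Gamma1 N) k where
  toFun := F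
  slash_action_eq' := fun γ hγ => by
    obtain ⟨γ', hγ', rfl⟩ := hγ
    exact hF.inv γ' hγ'

theorem qnice (hF : s48h_Good N k F) : s48h_QNice F where
  per := by
    have h : (1 : ℝ) ∈ (Gamma1 N : Subgroup (GL (Fin 2) ℝ)).strictPeriods := by
      rw [strictPeriods_Gamma1]
      exact AddSubgroup.mem_zmultiples 1
    exact SlashInvariantFormClass.periodic_comp_ofComplex hF.toSIF h
  hol := hF.hol
  bdd := by
    have h := hF.bdd 1
    rwa [map_one, SlashAction.slash_one] at h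

/-- `F ∣ σ`, `σ ∈ Γ₀(N)`, depends only on the lower right entry of `σ` mod `N`. -/
theorem slash_eq_of_lowerRight (hF : s48h_Good N k F) {σ σ' : SL(2, ℤ)} (hσ : σ ∈ Gamma0 N)
    (hσ' : σ' ∈ Gamma0 N) (h : ((σ 1 1 : ℤ) : ZMod N) = ((σ' 1 1 : ℤ) : ZMod N)) :
    F ∣[k] (mapGL ℝ σ : GL (Fin 2) ℝ) = F ∣[k] (mapGL ℝ σ' : GL (Fin 2) ℝ) := by
  have hmem : σ * σ'⁻¹ ∈ Gamma1 N := by
    rw [s48h_mem_Gamma1_iff (mul_mem hσ (inv_mem hσ')), s48h_lowerRight_mul hσ, h, mul_comm]
    exact s48h_lowerRight_inv_mul hσ'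
  have h2 : σ = (σ * σ'⁻¹) * σ' := by group
  conv_lhs => rw [h2, map_mul, SlashAction.slash_mul, hF.inv _ hmem]

/-- Slashing by an element of `Γ₁(N)`-class (lower right entry `≡ 1`) does nothing. -/
theorem slash_eq_self_of_lowerRight (hF : s48h_Good N k F) {σ : SL(2, ℤ)} (hσ : σ ∈ Gamma0 N)
    (h : ((σ 1 1 : ℤ) : ZMod N) = 1) : F ∣[k] (mapGL ℝ σ : GL (Fin 2) ℝ) = F :=
  hF.inv σ ((s48h_mem_Gamma1_iff hσ).mpr h)

end s48h_Good

/-- A cusp form on `Γ₁(N)` is `s48h_Good`. -/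
theorem s48h_good_of_cuspForm {N : ℕ} [NeZero N] {k : ℤ} (f : CuspForm (Gamma1 N) k) :
    s48h_Good N k ⇑f where
  inv := fun γ hγ => SlashInvariantFormClass.slash_action_eq f _ (Subgroup.mem_map_of_mem _ hγ)
  hol := CuspFormClass.holo f
  bdd := fun γ => ModularFormClass.bdd_at_infty_slash f γ

end Fermat.Agent.Lib.S48
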