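/-
S48 Stage A, brick (D0) [AL] (helper3): the function-level Hecke relation slashed by
`w ∈ Γ₁(N)`, `w ≡ (0 −1; 1 0) mod p`.

For a `Γ₁(N)`-invariant `F` (weight `k`) with `U_p F + c • (F ∣ δ) = a • F` (`δ = diag(p,1)`,
`p ∤ N` prime) we get `(F ∣ γ' − c • F) ∣ δ = (F − c • (F ∣ γ'')) ∣ β₀` with `γ', γ'' ∈ Γ₀(N)` of
lower right entries `≡ p`, `≡ p⁻¹ mod N` (`s48h_E2`).
-/
import Mathlib
import Fermat.Agent.Lib.S48.HGood

set_option autoImplicit false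

noncomputable section

namespace Fermat.Agent.Lib.S48

open Matrix.SpecialLinearGroup ModularForm CongruenceSubgroup UpperHalfPlane ModularFormClass
open scoped MatrixGroups ModularForm Manifold

variable {N : ℕ} {k : ℤ} {F : ℍ → ℂ} {p : ℕ}

/-- (C1) slashing by `δ = diag(p,1)` commutes with slashing by `σ`, `Np ∣ σ₁₀`. -/
theorem s48h_slash_diag_comm (hF : s48h_Good N k F) (hp : p ≠ 0) {σ : SL(2, ℤ)}
    (h1 : ((N : ℤ) * p) ∣ σ 1 0) :
    (F ∣[k] heckeDiagMatrix p) ∣[k] (mapGL ℝ σ : GL (Fin 2) ℝ)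
      = (F ∣[k] (mapGL ℝ σ : GL (Fin 2) ℝ)) ∣[k] heckeDiagMatrix p := by
  obtain ⟨t, ht⟩ := h1
  obtain ⟨g', hg10, hg11, hmul⟩ := s48h_heckeDiagMatrix_mul' hp σ (N * t) (by rw [ht]; ring)
  have hσ : σ ∈ Gamma0 N := by
    rw [Gamma0_mem, ht]; push_cast; simp
  have hg' : g' ∈ Gamma0 N := by
    rw [Gamma0_mem, hg10]; push_cast; simp
  rw [← SlashAction.slash_mul, hmul, SlashAction.slash_mul,
    hF.slash_eq_of_lowerRight hg' hσ (by rw [hg11])]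

/-- (C2) slashing by `β₀ = (1 0; 0 p)` commutes with slashing by `σ`, `N ∣ σ₁₀`, `p ∣ σ₀₁`. -/
theorem s48h_slash_beta0_comm (hF : s48h_Good N k F) (hp : p ≠ 0) {σ : SL(2, ℤ)}
    (h1 : (N : ℤ) ∣ σ 1 0) (h2 : (p : ℤ) ∣ σ 0 1) :
    (F ∣[k] heckeMatrix p 0) ∣[k] (mapGL ℝ σ : GL (Fin 2) ℝ)
      = (F ∣[k] (mapGL ℝ σ : GL (Fin 2) ℝ)) ∣[k] heckeMatrix p 0 := by
  obtain ⟨e, he⟩ := h2
  obtain ⟨t, ht⟩ := h1
  obtain ⟨g', hg00, hg10, hg11, hmul⟩ :=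
    s48h_heckeMatrix_mul hp σ 0 0 e (by rw [he]; push_cast; ring)
  have hσ : σ ∈ Gamma0 N := by
    rw [Gamma0_mem, ht]; push_cast; simp
  have hg' : g' ∈ Gamma0 N := by
    rw [Gamma0_mem, hg10, ht]; push_cast; simp
  rw [← SlashAction.slash_mul, hmul, SlashAction.slash_mul,
    hF.slash_eq_of_lowerRight hg' hσ (by rw [hg11]; simp)]

/-- The involution `j ↦ −1/j` on `{1, …, p−1}`. -/
def s48h_negInv (p : ℕ) (j : ℕ) : ℕ := (-((j : ZMod p))⁻¹).val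

section negInv

variable [Fact p.Prime]

theorem s48h_negInv_cast (j : ℕ) : ((s48h_negInv p j : ℕ) : ZMod p) = -((j : ZMod p))⁻¹ := by
  rw [s48h_negInv, ZMod.natCast_zmod_val]

theorem s48h_cast_ne_zero {j : ℕ} (hj : j ∈ (Finset.range p).erase 0) : ((j : ℕ) : ZMod p) ≠ 0 := by
  rw [Finset.mem_erase, Finset.mem_range] at hj
  intro h
  rw [ZMod.natCast_eq_zero_iff] at h
  exact hj.1 (Nat.eq_zero_of_dvd_of_lt h hj.2)

theorem s48h_negInv_mem {j : ℕ} (hj : j ∈ (Finset.range p).erase 0) :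
    s48h_negInv p j ∈ (Finset.range p).erase 0 := by
  have hj0 := s48h_cast_ne_zero hj
  rw [Finset.mem_erase, Finset.mem_range]
  refine ⟨fun h => ?_, ZMod.val_lt _⟩
  have h2 := s48h_negInv_cast (p := p) j
  rw [h, Nat.cast_zero] at h2
  have : ((j : ZMod p))⁻¹ = 0 := by
    rw [← neg_eq_zero]; exact h2.symm
  exact hj0 (inv_eq_zero.mp this)

theorem s48h_negInv_negInv {j : ℕ} (hj : j ∈ (Finset.range p).erase 0) :
    s48h_negInv p (s48h_negInv p j) = j := by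
  have hj' := hj
  rw [Finset.mem_erase, Finset.mem_range] at hj'
  rw [s48h_negInv, s48h_negInv_cast, inv_neg, inv_inv, neg_neg, ZMod.val_natCast,
    Nat.mod_eq_of_lt hj'.2]

end negInv

/-- For `j ≠ 0`: `(F ∣ β_j) ∣ w = F ∣ β_{−1/j}`. -/
theorem s48h_slash_beta_w (hF : s48h_Good N k F) (hp : p.Prime) {w : SL(2, ℤ)}
    (hw : w ∈ Gamma1 N) (h00 : (p : ℤ) ∣ w 0 0) (h11 : (p : ℤ) ∣ w 1 1)
    (h10 : (p : ℤ) ∣ w 1 0 - 1) (h01 : (p : ℤ) ∣ w 0 1 + 1)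
    {j : ℕ} (hj : j ∈ (Finset.range p).erase 0) :
    (F ∣[k] heckeMatrix p j) ∣[k] (mapGL ℝ w : GL (Fin 2) ℝ)
      = F ∣[k] heckeMatrix p (s48h_negInv p j) := by
  haveI : Fact p.Prime := ⟨hp⟩
  have hj0 := s48h_cast_ne_zero hj
  have c00 : ((w 0 0 : ℤ) : ZMod p) = 0 := (ZMod.intCast_zmod_eq_zero_iff_dvd _ _).mpr h00
  have c11 : ((w 1 1 : ℤ) : ZMod p) = 0 := (ZMod.intCast_zmod_eq_zero_iff_dvd _ _).mpr h11
  have c10 : ((w 1 0 : ℤ) : ZMod p) = 1 := by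
    have := (ZMod.intCast_zmod_eq_zero_iff_dvd _ _).mpr h10
    push_cast at this
    exact sub_eq_zero.mp this
  have c01 : ((w 0 1 : ℤ) : ZMod p) = -1 := by
    have := (ZMod.intCast_zmod_eq_zero_iff_dvd _ _).mpr h01
    push_cast at this
    exact eq_neg_of_add_eq_zero_left this
  obtain ⟨e, he⟩ : (p : ℤ) ∣ w 0 1 + j * w 1 1 - (s48h_negInv p j) * (w 0 0 + j * w 1 0) := by
    rw [← ZMod.intCast_zmod_eq_zero_iff_dvd]
    push_cast
    rw [c00, c11, c10, c01, s48h_negInv_cast]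
    field_simp
    ring
  obtain ⟨g', hg00, hg10, hg11, hmul⟩ :=
    s48h_heckeMatrix_mul hp.ne_zero w j (s48h_negInv p j) e (by linear_combination he)
  obtain ⟨w00, w11, w10⟩ := (Gamma1_mem N w).mp hw
  have hg' : g' ∈ Gamma1 N := by
    rw [Gamma1_mem, hg00, hg10, hg11]
    push_cast
    rw [w00, w11, w10]
    simp
  rw [← SlashAction.slash_mul, hmul, SlashAction.slash_mul, hF.inv g' hg']

/-- The Hecke relation slashed by `w` and subtracted from itself. -/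
theorem s48h_E2 (hF : s48h_Good N k F) (hp : p.Prime) (hpN : ¬ p ∣ N) (c a : ℂ)
    (hE1 : ModularForm.heckeU k p F + c • (F ∣[k] heckeDiagMatrix p) = a • F) :
    ∃ γ' γ'' : SL(2, ℤ), γ' ∈ Gamma0 N ∧ γ'' ∈ Gamma0 N ∧
      ((γ' 1 1 : ℤ) : ZMod N) = (p : ZMod N) ∧
      ((γ'' 1 1 : ℤ) : ZMod N) * (p : ZMod N) = 1 ∧
      (F ∣[k] (mapGL ℝ γ' : GL (Fin 2) ℝ) - c • F) ∣[k] heckeDiagMatrix p
        = (F - c • (F ∣[k] (mapGL ℝ γ'' : GL (Fin 2) ℝ))) ∣[k] heckeMatrix p 0 := by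
  have hcop : Nat.Coprime p N := (Nat.Prime.coprime_iff_not_dvd hp).mpr hpN
  obtain ⟨w, hw, h00, h11, h10, h01, hw11, hwN⟩ := s48h_exists_w N p hcop
  obtain ⟨e, he⟩ := h00
  obtain ⟨e', he'⟩ := h11
  obtain ⟨γ', hγ'10, hγ'11, hmul'⟩ :=
    s48h_heckeMatrix_mul' hp.ne_zero w 0 e (by rw [he]; push_cast; ring)
  obtain ⟨γ'', hγ''10, hγ''11, hmul''⟩ :=
    s48h_heckeDiagMatrix_mul hp.ne_zero w 0 e' (by rw [he']; push_cast; ring)
  have hw10 : ((w 1 0 : ℤ) : ZMod N) = 0 := ((Gamma1_mem N w).mp hw).2.2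
  have hγ' : γ' ∈ Gamma0 N := by rw [Gamma0_mem, hγ'10]; exact hw10
  have hγ'' : γ'' ∈ Gamma0 N := by rw [Gamma0_mem, hγ''10]; exact hw10
  refine ⟨γ', γ'', hγ', hγ'', ?_, ?_, ?_⟩
  · rw [hγ'11]; push_cast; rw [hw11, mul_one]
  · rw [hγ''11]
    have := congrArg (Int.cast : ℤ → ZMod N) he'
    push_cast at this
    rw [mul_comm, ← this, hw11]
  · -- slash the relation by `w`
    have hsl : (ModularForm.heckeU k p F + c • (F ∣[k] heckeDiagMatrix p))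
        ∣[k] (mapGL ℝ w : GL (Fin 2) ℝ) = (a • F) ∣[k] (mapGL ℝ w : GL (Fin 2) ℝ) := by
      rw [hE1]
    have hsm1 : (c • (F ∣[k] heckeDiagMatrix p)) ∣[k] (mapGL ℝ w : GL (Fin 2) ℝ)
        = c • ((F ∣[k] heckeDiagMatrix p) ∣[k] (mapGL ℝ w : GL (Fin 2) ℝ)) :=
      ModularForm.SL_smul_slash k w _ c
    have hsm2 : (a • F) ∣[k] (mapGL ℝ w : GL (Fin 2) ℝ)
        = a • (F ∣[k] (mapGL ℝ w : GL (Fin 2) ℝ)) :=
      ModularForm.SL_smul_slash k w _ a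
    rw [SlashAction.add_slash, hsm1, hsm2, hF.inv w hw, heckeU_def, SlashAction.sum_slash] at hsl
    have h0mem : 0 ∈ Finset.range p := Finset.mem_range.mpr hp.pos
    rw [← Finset.add_sum_erase _ _ h0mem] at hsl
    have hE1' := hE1
    rw [heckeU_def, ← Finset.add_sum_erase _ _ h0mem] at hE1'
    -- the terms `j ≠ 0`
    have hperm : ∑ j ∈ (Finset.range p).erase 0,
        (F ∣[k] heckeMatrix p j) ∣[k] (mapGL ℝ w : GL (Fin 2) ℝ)
          = ∑ j ∈ (Finset.range p).erase 0, F ∣[k] heckeMatrix p j := by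
      haveI : Fact p.Prime := ⟨hp⟩
      rw [Finset.sum_congr rfl fun j hj =>
        s48h_slash_beta_w hF hp hw ⟨e, he⟩ ⟨e', he'⟩ h10 h01 hj]
      exact Finset.sum_nbij' (s48h_negInv p) (s48h_negInv p)
        (fun j hj => s48h_negInv_mem hj) (fun j hj => s48h_negInv_mem hj)
        (fun j hj => s48h_negInv_negInv hj) (fun j hj => s48h_negInv_negInv hj)
        (fun j _ => rfl)
    rw [hperm] at hsl
    -- the terms `j = 0` and `δ`
    have hb0 : (F ∣[k] heckeMatrix p 0) ∣[k] (mapGL ℝ w : GL (Fin 2) ℝ)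
        = (F ∣[k] (mapGL ℝ γ' : GL (Fin 2) ℝ)) ∣[k] heckeDiagMatrix p := by
      rw [← SlashAction.slash_mul, hmul', SlashAction.slash_mul]
    have hd : (F ∣[k] heckeDiagMatrix p) ∣[k] (mapGL ℝ w : GL (Fin 2) ℝ)
        = (F ∣[k] (mapGL ℝ γ'' : GL (Fin 2) ℝ)) ∣[k] heckeMatrix p 0 := by
      rw [← SlashAction.slash_mul, hmul'', SlashAction.slash_mul]
    rw [hb0, hd] at hsl
    have hs1 : (c • F) ∣[k] heckeDiagMatrix p = c • (F ∣[k] heckeDiagMatrix p) := by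
      rw [ModularForm.smul_slash, σ_heckeDiagMatrix, ContinuousAlgEquiv.refl_apply]
    have hs2 : (c • (F ∣[k] (mapGL ℝ γ'' : GL (Fin 2) ℝ))) ∣[k] heckeMatrix p 0
        = c • ((F ∣[k] (mapGL ℝ γ'' : GL (Fin 2) ℝ)) ∣[k] heckeMatrix p 0) := by
      rw [ModularForm.smul_slash, σ_heckeMatrix, ContinuousAlgEquiv.refl_apply]
    rw [sub_eq_add_neg, sub_eq_add_neg, SlashAction.add_slash, SlashAction.add_slash,
      SlashAction.neg_slash, SlashAction.neg_slash, hs1, hs2, ← sub_eq_add_neg, ← sub_eq_add_neg]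
    have := hsl.trans hE1'.symm
    -- `this : A' + S + c • D' = A + S + c • D`
    rw [sub_eq_sub_iff_add_eq_add]
    have h3 := add_right_cancel (b := ∑ j ∈ (Finset.range p).erase 0, F ∣[k] heckeMatrix p j)
      (a := (F ∣[k] (mapGL ℝ γ' : GL (Fin 2) ℝ)) ∣[k] heckeDiagMatrix p
        + c • ((F ∣[k] (mapGL ℝ γ'' : GL (Fin 2) ℝ)) ∣[k] heckeMatrix p 0))
      (c := F ∣[k] heckeMatrix p 0 + c • (F ∣[k] heckeDiagMatrix p))
      (by rw [add_right_comm, this, add_right_comm])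
    exact h3

end Fermat.Agent.Lib.S48
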