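/-
S48 Stage A, brick (D0) [AL] (helper3): the descent and the nebentypus.

* `s48h_descent`: a weight `1`, `Γ₁(N)`-invariant `H` with `(H ∣ σ) ∣ δ = H ∣ β₀`
  (`σ ∈ Γ₀(N)` of lower right entry `≡ p`, adapted to `p`) vanishes.
* `s48h_diamond_prime`: if `U_p F + c • (F ∣ δ) = a • F` then `F ∣ σ = c • F` for all `σ ∈ Γ₀(N)` with
  lower right entry `≡ p mod N`.
* `s48h_nebentypus`: under the hypotheses of S48 (verbatim), `f ∣[1] γ = ε(γ₁₁) • f` for all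
  `γ ∈ Γ₀(N)`.
-/
import Mathlib
import Fermat.Agent.Lib.S48.HHecke

set_option autoImplicit false

noncomputable section

namespace Fermat.Agent.Lib.S48

open Matrix.SpecialLinearGroup ModularForm CongruenceSubgroup UpperHalfPlane ModularFormClass
open scoped MatrixGroups ModularForm Manifold

variable {N : ℕ} {F H : ℍ → ℂ} {p : ℕ}

/-- At weight `1`: `(G ∣ β₀) ∣ δ = p⁻¹ • G`. -/
theorem s48h_slash_beta0_diag (hp : p ≠ 0) (G : ℍ → ℂ) :
    (G ∣[(1 : ℤ)] heckeMatrix p 0) ∣[(1 : ℤ)] heckeDiagMatrix p = ((p : ℂ)⁻¹) • G := by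
  have hp' : (p : ℂ) ≠ 0 := by exact_mod_cast hp
  funext τ
  rw [slash_heckeDiagMatrix_apply 1 hp, slash_heckeMatrix_apply 1 hp, Pi.smul_apply, smul_eq_mul,
    sub_self, zpow_zero, one_mul]
  congr 2
  apply UpperHalfPlane.ext
  rw [coe_heckeMatrix_smul hp, coe_heckeDiagMatrix_smul hp]
  push_cast
  field_simp
  ring

theorem s48h_pow_mem_Gamma0 {σ : SL(2, ℤ)} (hσ : σ ∈ Gamma0 N) (i : ℕ) : σ ^ i ∈ Gamma0 N :=
  pow_mem hσ i

theorem s48h_lowerRight_pow {σ : SL(2, ℤ)} (hσ : σ ∈ Gamma0 N) (i : ℕ) :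
    (((σ ^ i) 1 1 : ℤ) : ZMod N) = (((σ 1 1 : ℤ) : ZMod N)) ^ i := by
  induction i with
  | zero => simp
  | succ i ih => rw [pow_succ, s48h_lowerRight_mul (pow_mem hσ i), ih, pow_succ]

/-- The descent: `(H ∣ σ) ∣ δ = H ∣ β₀` forces `H = 0` (weight `1`). -/
theorem s48h_descent (hH : s48h_Good N 1 H) (hp : p.Prime) (hpN : ¬ p ∣ N) {σ : SL(2, ℤ)}
    (h10 : ((N : ℤ) * p) ∣ σ 1 0) (h01 : (p : ℤ) ∣ σ 0 1)
    (h11 : ((σ 1 1 : ℤ) : ZMod N) = (p : ZMod N))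
    (hP : (H ∣[(1 : ℤ)] (mapGL ℝ σ : GL (Fin 2) ℝ)) ∣[(1 : ℤ)] heckeDiagMatrix p
      = H ∣[(1 : ℤ)] heckeMatrix p 0) : H = 0 := by
  have hp0 : p ≠ 0 := hp.ne_zero
  have hpC : (p : ℂ) ≠ 0 := by exact_mod_cast hp0
  have hN10 : (N : ℤ) ∣ σ 1 0 := (Dvd.intro _ rfl).trans h10
  have hσ : σ ∈ Gamma0 N := by
    rw [Gamma0_mem]
    exact (ZMod.intCast_zmod_eq_zero_iff_dvd _ _).mpr hN10
  -- the iterates
  set Hi : ℕ → ℍ → ℂ := fun i => H ∣[(1 : ℤ)] (mapGL ℝ (σ ^ i) : GL (Fin 2) ℝ) with hHi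
  have hHi0 : Hi 0 = H := by
    simp only [hHi, pow_zero, map_one, SlashAction.slash_one]
  have hHisucc : ∀ i, Hi (i + 1) = (Hi i) ∣[(1 : ℤ)] (mapGL ℝ σ : GL (Fin 2) ℝ) := by
    intro i
    simp only [hHi, pow_succ, map_mul, SlashAction.slash_mul]
  have hgood : ∀ i, s48h_Good N 1 (Hi i) := fun i => hH.slash (pow_mem hσ i)
  -- the relation for all iterates
  have hPi : ∀ i, (Hi (i + 1)) ∣[(1 : ℤ)] heckeDiagMatrix p = (Hi i) ∣[(1 : ℤ)] heckeMatrix p 0 := by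
    intro i
    induction i with
    | zero => rw [hHisucc 0, hHi0]; exact hP
    | succ i ih =>
      rw [hHisucc (i + 1), ← s48h_slash_diag_comm (hgood (i + 1)) hp0 h10, ih,
        s48h_slash_beta0_comm (hgood i) hp0 hN10 h01, ← hHisucc i]
  -- coefficient relation
  have hcoef : ∀ i n, qCoeff (Hi i) n
      = (p : ℂ) * (if p ∣ n then (if p ∣ n / p then qCoeff (Hi (i + 1)) (n / p / p) else 0) else 0) := by
    intro i n
    have h1 : qCoeff (((Hi (i + 1)) ∣[(1 : ℤ)] heckeDiagMatrix p) ∣[(1 : ℤ)] heckeDiagMatrix p) n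
        = qCoeff (((Hi i) ∣[(1 : ℤ)] heckeMatrix p 0) ∣[(1 : ℤ)] heckeDiagMatrix p) n := by
      rw [hPi i]
    rw [s48h_slash_beta0_diag hp0, s48h_qCoeff_smul (hgood i).qnice,
      s48h_qCoeff_slash_diag ((hgood (i + 1)).qnice.slash_diag 1 p) 1 hp0] at h1
    have h2 : qCoeff (Hi i) n = (p : ℂ) * ((p : ℂ)⁻¹ * qCoeff (Hi i) n) := by
      field_simp
    rw [h2, ← h1]
    congr 1
    by_cases hd : p ∣ n
    · rw [if_pos hd, if_pos hd, s48h_qCoeff_slash_diag (hgood (i + 1)).qnice 1 hp0]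
      simp
    · rw [if_neg hd, if_neg hd]
  -- Claim A: positive coefficients vanish
  have hA : ∀ n, 0 < n → ∀ i, qCoeff (Hi i) n = 0 := by
    intro n
    induction n using Nat.strong_induction_on with
    | _ n ih =>
      intro hn i
      rw [hcoef i n]
      by_cases hd : p ∣ n
      · by_cases hd2 : p ∣ n / p
        · rw [if_pos hd, if_pos hd2]
          have hnp : 0 < n / p := Nat.div_pos (Nat.le_of_dvd hn hd) hp.pos
          have hnpp : 0 < n / p / p := Nat.div_pos (Nat.le_of_dvd hnp hd2) hp.pos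
          have hlt : n / p / p < n :=
            lt_of_le_of_lt (Nat.div_le_self _ _) (Nat.div_lt_self hn hp.one_lt)
          rw [ih _ hlt hnpp (i + 1), mul_zero]
        · rw [if_pos hd, if_neg hd2, mul_zero]
      · rw [if_neg hd, mul_zero]
  -- Claim B: the constant coefficient vanishes
  have hB0 : ∀ i, qCoeff (Hi i) 0 = (p : ℂ) * qCoeff (Hi (i + 1)) 0 := by
    intro i
    rw [hcoef i 0]
    simp
  have hBm : ∀ m, qCoeff (Hi 0) 0 = (p : ℂ) ^ m * qCoeff (Hi m) 0 := by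
    intro m
    induction m with
    | zero => simp
    | succ m ih => rw [ih, hB0 m, pow_succ, mul_assoc]
  have hNpos : 0 < N := Nat.pos_of_ne_zero (fun h => hpN (h ▸ dvd_zero p))
  have hcop : Nat.Coprime p N := (Nat.Prime.coprime_iff_not_dvd hp).mpr hpN
  set m := Nat.totient N with hm
  have hmpos : 0 < m := Nat.totient_pos.mpr hNpos
  have hcycle : Hi m = H := by
    have hpm : (((σ ^ m) 1 1 : ℤ) : ZMod N) = 1 := by
      rw [s48h_lowerRight_pow hσ, h11, ← Nat.cast_pow]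
      have := Nat.ModEq.pow_totient hcop
      rw [← ZMod.natCast_eq_natCast_iff] at this
      rw [this, Nat.cast_one]
    exact hH.slash_eq_self_of_lowerRight (pow_mem hσ m) hpm
  have hzero : qCoeff H 0 = 0 := by
    have h := hBm m
    rw [hcycle, hHi0] at h
    have hne : (p : ℂ) ^ m ≠ 1 := by
      have h2 : (1 : ℝ) < (p : ℝ) ^ m := one_lt_pow₀ (by exact_mod_cast hp.one_lt) hmpos.ne'
      intro h3
      have h4 : ((p : ℝ) ^ m : ℂ) = ((1 : ℝ) : ℂ) := by push_cast; exact h3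
      have h5 := Complex.ofReal_injective (by simpa using h4 : (((p : ℝ) ^ m : ℝ) : ℂ) = ((1 : ℝ) : ℂ))
      linarith
    have h6 : ((p : ℂ) ^ m - 1) * qCoeff H 0 = 0 := by
      rw [sub_mul, one_mul, ← h, sub_self]
    rcases mul_eq_zero.mp h6 with h7 | h7
    · exact absurd (sub_eq_zero.mp h7) hne
    · exact h7
  refine hH.qnice.eq_zero fun n => ?_
  rcases Nat.eq_zero_or_pos n with rfl | hn
  · exact hzero
  · have := hA n hn 0
    rwa [hHi0] at this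

/-- If `U_p F + c • (F ∣ δ) = a • F` then the diamond operator `⟨p⟩` acts on `F` by `c`. -/
theorem s48h_diamond_prime (hF : s48h_Good N 1 F) (hp : p.Prime) (hpN : ¬ p ∣ N) (c a : ℂ)
    (hE1 : ModularForm.heckeU 1 p F + c • (F ∣[(1 : ℤ)] heckeDiagMatrix p) = a • F)
    {σ : SL(2, ℤ)} (hσ : σ ∈ Gamma0 N) (hσ11 : ((σ 1 1 : ℤ) : ZMod N) = (p : ZMod N)) :
    F ∣[(1 : ℤ)] (mapGL ℝ σ : GL (Fin 2) ℝ) = c • F := by
  have hcop : Nat.Coprime p N := (Nat.Prime.coprime_iff_not_dvd hp).mpr hpN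
  obtain ⟨γ', γ'', hγ', hγ'', h'11, h''11, hE2⟩ := s48h_E2 hF hp hpN c a hE1
  obtain ⟨σp, s10, s01, s11⟩ := s48h_exists_sigma N p hcop (ZMod.unitOfCoprime p hcop)
  rw [ZMod.coe_unitOfCoprime] at s11
  have hN10 : (N : ℤ) ∣ σp 1 0 := (Dvd.intro _ rfl).trans s10
  have hσp : σp ∈ Gamma0 N := by
    rw [Gamma0_mem]
    exact (ZMod.intCast_zmod_eq_zero_iff_dvd _ _).mpr hN10
  -- slashing `F ∣ γ''` by anything of class `p` gives back `F`
  have hback : ∀ τ : SL(2, ℤ), τ ∈ Gamma0 N → ((τ 1 1 : ℤ) : ZMod N) = (p : ZMod N) →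
      (F ∣[(1 : ℤ)] (mapGL ℝ γ'' : GL (Fin 2) ℝ)) ∣[(1 : ℤ)] (mapGL ℝ τ : GL (Fin 2) ℝ) = F := by
    intro τ hτ hτ11
    rw [← SlashAction.slash_mul, ← map_mul]
    refine hF.slash_eq_self_of_lowerRight (mul_mem hγ'' hτ) ?_
    rw [s48h_lowerRight_mul hγ'', hτ11, h''11]
  set H : ℍ → ℂ := F - c • (F ∣[(1 : ℤ)] (mapGL ℝ γ'' : GL (Fin 2) ℝ)) with hH
  have hHgood : s48h_Good N 1 H := hF.sub ((hF.slash hγ'').smul c)
  have hHσ : H ∣[(1 : ℤ)] (mapGL ℝ σp : GL (Fin 2) ℝ)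
      = F ∣[(1 : ℤ)] (mapGL ℝ γ' : GL (Fin 2) ℝ) - c • F := by
    have hsm : (c • (F ∣[(1 : ℤ)] (mapGL ℝ γ'' : GL (Fin 2) ℝ))) ∣[(1 : ℤ)]
        (mapGL ℝ σp : GL (Fin 2) ℝ)
        = c • ((F ∣[(1 : ℤ)] (mapGL ℝ γ'' : GL (Fin 2) ℝ)) ∣[(1 : ℤ)]
          (mapGL ℝ σp : GL (Fin 2) ℝ)) :=
      ModularForm.SL_smul_slash 1 σp _ c
    rw [hH, sub_eq_add_neg, SlashAction.add_slash, SlashAction.neg_slash, hsm, hback σp hσp s11,
      ← sub_eq_add_neg, hF.slash_eq_of_lowerRight hσp hγ' (by rw [s11, h'11])]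
  have hzero : H = 0 := by
    refine s48h_descent hHgood hp hpN s10 s01 s11 ?_
    rw [hHσ]
    exact hE2
  have hFeq : F = c • (F ∣[(1 : ℤ)] (mapGL ℝ γ'' : GL (Fin 2) ℝ)) := sub_eq_zero.mp hzero
  have hsm : (c • (F ∣[(1 : ℤ)] (mapGL ℝ γ'' : GL (Fin 2) ℝ))) ∣[(1 : ℤ)]
      (mapGL ℝ σ : GL (Fin 2) ℝ)
      = c • ((F ∣[(1 : ℤ)] (mapGL ℝ γ'' : GL (Fin 2) ℝ)) ∣[(1 : ℤ)]
        (mapGL ℝ σ : GL (Fin 2) ℝ)) :=
    ModularForm.SL_smul_slash 1 σ _ c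
  conv_lhs => rw [hFeq, hsm, hback σ hσ hσ11]

/-- The function-level Hecke relation from the relation on `q`-coefficients. -/
theorem s48h_E1_of_qCoeff (hF : s48h_QNice F) (hp : p ≠ 0) (c : ℂ)
    (hT : ∀ n : ℕ, qCoeff F (p * n) + c * (if p ∣ n then qCoeff F (n / p) else 0)
      = qCoeff F p * qCoeff F n) :
    ModularForm.heckeU 1 p F + c • (F ∣[(1 : ℤ)] heckeDiagMatrix p) = qCoeff F p • F := by
  refine ((hF.heckeU 1 p).add ((hF.slash_diag 1 p).smul c)).ext (hF.smul _) fun n => ?_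
  rw [s48h_qCoeff_add (hF.heckeU 1 p) ((hF.slash_diag 1 p).smul c), s48h_qCoeff_heckeU hF 1 hp,
    s48h_qCoeff_smul (hF.slash_diag 1 p), s48h_qCoeff_slash_diag hF 1 hp, s48h_qCoeff_smul hF,
    ← hT n, mul_comm n p]
  simp

/-- **Nebentypus** (D0): under the hypotheses of S48, `f` has nebentypus `ε`. -/
theorem s48h_nebentypus (N : ℕ) [NeZero N] (ε : DirichletCharacter ℂ N)
    (f : CuspForm (Gamma1 N) 1)
    (hT : ∀ p : ℕ, p.Prime → ¬ p ∣ N → ∀ n : ℕ,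
        ModularFormClass.qCoeff f (p * n) +
            ε (p : ZMod N) * (if p ∣ n then ModularFormClass.qCoeff f (n / p) else 0) =
          ModularFormClass.qCoeff f p * ModularFormClass.qCoeff f n)
    (γ : SL(2, ℤ)) (hγ : γ ∈ Gamma0 N) :
    (⇑f) ∣[(1 : ℤ)] (mapGL ℝ γ : GL (Fin 2) ℝ) = ε ((γ 1 1 : ℤ) : ZMod N) • ⇑f := by
  have hF := s48h_good_of_cuspForm f
  have hunit : IsUnit (((γ 1 1 : ℤ) : ZMod N)) := by
    have hdet := congrArg (Int.cast : ℤ → ZMod N) (s48h_det_eq γ)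
    push_cast at hdet
    rw [Gamma0_mem.mp hγ, mul_zero, sub_zero] at hdet
    exact IsUnit.of_mul_eq_one _ (by rw [mul_comm]; exact hdet)
  obtain ⟨p, -, hp, hpγ⟩ := Nat.forall_exists_prime_gt_and_eq_mod hunit 0
  have hpN : ¬ p ∣ N := by
    intro hdvd
    have h1 : IsUnit ((p : ℕ) : ZMod N) := hpγ ▸ hunit
    rw [ZMod.isUnit_iff_coprime] at h1
    exact hp.one_lt.ne' (Nat.Coprime.eq_one_of_dvd h1 hdvd)
  have hE1 := s48h_E1_of_qCoeff hF.qnice hp.ne_zero (ε (p : ZMod N)) (hT p hp hpN)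
  rw [← hpγ]
  exact s48h_diamond_prime hF hp hpN _ _ hE1 hγ hpγ.symm

end Fermat.Agent.Lib.S48
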