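/-
DS-1 (S48), bricks [OFG], [REC], [CHAR] (lead, prefix `s48n_`; requested by helper1 #2376).  Mathlib only.

* [OFG]  `s48n_intSubring K₀` = the algebraic integers of `K₀ ⊆ ℂ` as a subring of `ℂ`; it is a finitely
         generated `ℤ`-module when `K₀/ℚ` is finite (`s48n_intSubring_fg`, the `hO` of `NLat.lean`).
* [REC]  `s48n_mem_of_hecke_rec`: a sequence with `a 0 = 0`, `a 1 = 1`, supported on `(n, N) = 1` and satisfying
         the Hecke recursion at all `p ∤ N` has all its terms in any subring containing the `a p`, `e p`.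
* [CHAR] `s48n_conjChar K σ ψ hψ` = the conjugate `σ ∘ ψ` of a Dirichlet character with values in `K`,
         with `_apply`, `_inv`, `_odd`, and `s48n_inv_mem`.
-/
import Mathlib

set_option autoImplicit false

namespace Fermat.Agent.Lib.S48

/-! ### [OFG] the ring of integers of a number field `K₀ ⊆ ℂ`, as a subring of `ℂ` -/

/-- [OFG] -/
noncomputable def s48n_intSubring (K₀ : IntermediateField ℚ ℂ) : Subring ℂ :=
  K₀.toSubring ⊓ (integralClosure ℤ ℂ).toSubring

theorem s48n_mem_intSubring (K₀ : IntermediateField ℚ ℂ) (x : ℂ) :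
    x ∈ s48n_intSubring K₀ ↔ x ∈ K₀ ∧ IsIntegral ℤ x := by
  unfold s48n_intSubring
  rw [Subring.mem_inf]
  exact Iff.rfl

theorem s48n_intSubring_fg (K₀ : IntermediateField ℚ ℂ) [FiniteDimensional ℚ K₀] :
    (Subring.toAddSubgroup (s48n_intSubring K₀)).toIntSubmodule.FG := by
  have : NumberField K₀ := { to_charZero := inferInstance, to_finiteDimensional := inferInstance }
  -- the `ℤ`-linear map `𝓞 K₀ → ℂ`
  let f : NumberField.RingOfIntegers K₀ →ₗ[ℤ] ℂ :=
    ((algebraMap K₀ ℂ).comp (algebraMap (NumberField.RingOfIntegers K₀) K₀)).toIntAlgHom.toLinearMap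
  have hrange : (Subring.toAddSubgroup (s48n_intSubring K₀)).toIntSubmodule = LinearMap.range f := by
    ext x
    rw [← SetLike.mem_coe, AddSubgroup.coe_toIntSubmodule, SetLike.mem_coe,
      Subring.mem_toAddSubgroup, s48n_mem_intSubring, LinearMap.mem_range]
    constructor
    · rintro ⟨hxK, hxint⟩
      have h1 : IsIntegral ℤ (⟨x, hxK⟩ : K₀) :=
        (isIntegral_algebraMap_iff (A := K₀) (B := ℂ) (algebraMap K₀ ℂ).injective).mp hxint
      exact ⟨⟨⟨x, hxK⟩, h1⟩, rfl⟩
    · rintro ⟨y, rfl⟩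
      refine ⟨(y : K₀).2, ?_⟩
      exact (NumberField.RingOfIntegers.isIntegral_coe y).map (IsScalarTower.toAlgHom ℤ K₀ ℂ)
  rw [hrange, LinearMap.range_eq_map]
  exact (Module.Finite.fg_top).map f

/-! ### [REC] the Hecke recursion keeps the coefficients in a subring -/

/-- [REC] -/
theorem s48n_mem_of_hecke_rec (S : Subring ℂ) (N : ℕ) (a e : ℕ → ℂ) (h0 : a 0 = 0) (h1 : a 1 = 1)
    (hcop : ∀ n : ℕ, ¬ n.Coprime N → a n = 0)
    (hrec : ∀ p : ℕ, p.Prime → ¬ p ∣ N → ∀ n : ℕ,
      a (p * n) + e p * (if p ∣ n then a (n / p) else 0) = a p * a n)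
    (he : ∀ p : ℕ, p.Prime → ¬ p ∣ N → e p ∈ S) (ha : ∀ p : ℕ, p.Prime → ¬ p ∣ N → a p ∈ S)
    (n : ℕ) : a n ∈ S := by
  induction n using Nat.strong_induction_on with
  | _ n ih =>
    rcases Nat.lt_or_ge n 2 with hn | hn
    · interval_cases n
      · rw [h0]; exact S.zero_mem
      · rw [h1]; exact S.one_mem
    · by_cases hc : n.Coprime N
      · have hn1 : n ≠ 1 := by omega
        have hp : (n.minFac).Prime := Nat.minFac_prime hn1
        have hpn : n.minFac ∣ n := Nat.minFac_dvd n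
        have hpN : ¬ n.minFac ∣ N := by
          intro h
          have := Nat.Coprime.eq_one_of_dvd (hc.coprime_dvd_left hpn) h
          exact hp.one_lt.ne' this
        obtain ⟨m, hm⟩ := hpn
        have hp2 : 2 ≤ n.minFac := hp.two_le
        have hmpos : 0 < m := by
          rcases Nat.eq_zero_or_pos m with h | h
          · rw [h, mul_zero] at hm; omega
          · exact h
        have hmlt : m < n := by
          rw [hm]; nlinarith
        have hdivlt : m / n.minFac < n := lt_of_le_of_lt (Nat.div_le_self _ _) hmlt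
        have h := hrec n.minFac hp hpN m
        have h2 : a n = a n.minFac * a m
            - e n.minFac * (if n.minFac ∣ m then a (m / n.minFac) else 0) := by
          rw [← h, ← hm]; ring
        rw [h2]
        refine S.sub_mem (S.mul_mem (ha _ hp hpN) (ih m hmlt)) (S.mul_mem (he _ hp hpN) ?_)
        split_ifs
        · exact ih _ hdivlt
        · exact S.zero_mem
      · rw [hcop n hc]; exact S.zero_mem

/-! ### [CHAR] Galois conjugates of Dirichlet characters with values in a subfield -/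

/-- the character `ψ` with values in `K`. -/
noncomputable def s48n_charK {M : ℕ} (K : IntermediateField ℚ ℂ) (ψ : DirichletCharacter ℂ M)
    (hψ : ∀ a, ψ a ∈ K) : MulChar (ZMod M) K where
  toFun a := ⟨ψ a, hψ a⟩
  map_one' := Subtype.ext (by simp)
  map_mul' a b := Subtype.ext (by simp)
  map_nonunit' a ha := Subtype.ext (by simpa using ψ.map_nonunit ha)

/-- [CHAR] the conjugate character `σ ∘ ψ`. -/
noncomputable def s48n_conjChar {M : ℕ} (K : IntermediateField ℚ ℂ) (σ : K →+* ℂ)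
    (ψ : DirichletCharacter ℂ M) (hψ : ∀ a, ψ a ∈ K) : DirichletCharacter ℂ M :=
  (s48n_charK K ψ hψ).ringHomComp σ

theorem s48n_conjChar_apply {M : ℕ} (K : IntermediateField ℚ ℂ) (σ : K →+* ℂ)
    (ψ : DirichletCharacter ℂ M) (hψ : ∀ a, ψ a ∈ K) (a : ZMod M) :
    s48n_conjChar K σ ψ hψ a = σ ⟨ψ a, hψ a⟩ := rfl

theorem s48n_inv_mem {M : ℕ} (K : IntermediateField ℚ ℂ) (ψ : DirichletCharacter ℂ M)
    (hψ : ∀ a, ψ a ∈ K) (a : ZMod M) : ψ⁻¹ a ∈ K := by
  rw [MulChar.inv_apply]
  exact hψ _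

theorem s48n_conjChar_inv {M : ℕ} (K : IntermediateField ℚ ℂ) (σ : K →+* ℂ)
    (ψ : DirichletCharacter ℂ M) (hψ : ∀ a, ψ a ∈ K) (hψ' : ∀ a, ψ⁻¹ a ∈ K) :
    (s48n_conjChar K σ ψ hψ)⁻¹ = s48n_conjChar K σ ψ⁻¹ hψ' := by
  ext a
  rw [MulChar.inv_apply, s48n_conjChar_apply, s48n_conjChar_apply]
  congr 1
  exact Subtype.ext (MulChar.inv_apply ψ _).symm

theorem s48n_conjChar_odd {M : ℕ} (K : IntermediateField ℚ ℂ) (σ : K →+* ℂ)
    (ψ : DirichletCharacter ℂ M) (hψ : ∀ a, ψ a ∈ K) (hodd : ψ (-1) = -1) :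
    s48n_conjChar K σ ψ hψ (-1) = -1 := by
  rw [s48n_conjChar_apply]
  have h : (⟨ψ (-1), hψ (-1)⟩ : K) = -1 := Subtype.ext (by simpa using hodd)
  rw [h, map_neg, map_one]

end Fermat.Agent.Lib.S48
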