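/-
DS-1 (S48), wall [T3] (helper1, prefix `s48a_`): **`s48a_rat : s48i_Eis → s48i_Dep → S23 → s48i_Rat`**.

For `f` as in S48: depletion `f'` on `Γ₁(N²)` (nebentypus `ψ` = `ε` at level `N²`), Eisenstein multiplier `G`
for `ψ`, formal space `W = W (N²) (a_n(G))` (`AW`, `ATp`), lattice argument (`ALat`) ⇒ the `a_p` are integral
and generate a number field `K₁`; `K := ℚ(ψ) ⊔ K₁`; conjugates by `AConj` + Eisenstein division.
-/
import Mathlib
import Fermat.Agent.Lib.S48.ARatA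
import Fermat.Agent.Lib.S48.NBricks
import Fermat.Agent.Lib.S48.HNeben

set_option autoImplicit false

noncomputable section

namespace Fermat.Agent.Lib.S48

open Matrix.SpecialLinearGroup ModularForm CongruenceSubgroup UpperHalfPlane ModularFormClass Filter
open scoped MatrixGroups ModularForm Manifold Topology

theorem s48a_rat (hEis : s48i_Eis) (hDep : s48i_Dep)
    (hS : ∀ L : ℕ, [NeZero L] → CuspForm.HasIntegralStructure L 2) : s48i_Rat := by
  intro N _ ε f hf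
  obtain ⟨hf1, hT⟩ := hf
  have hneb : s48i_Neben N 1 (fun d => ε (d : ZMod N)) f :=
    fun γ hγ => s48h_nebentypus N ε f hT γ hγ
  obtain ⟨f', hneb', hq⟩ := hDep N _ f hneb
  have hNM : N ∣ N ^ 2 := dvd_pow_self N two_ne_zero
  haveI hMne : NeZero (N ^ 2) := ⟨pow_ne_zero 2 (NeZero.ne N)⟩
  set ψ : DirichletCharacter ℂ (N ^ 2) := DirichletCharacter.changeLevel hNM ε with hψdef
  have hF : ∀ γ : SL(2, ℤ), γ ∈ Gamma0 (N ^ 2) →
      (⇑f') ∣[(1 : ℤ)] (mapGL ℝ γ : GL (Fin 2) ℝ) = ψ ((γ 1 1 : ℤ) : ZMod (N ^ 2)) • ⇑f' := by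
    intro γ hγ
    rw [hψdef, s48a_changeLevel_lowerRight hNM ε hγ]
    exact hneb' γ hγ
  set x : ℕ → ℂ := fun n => qCoeff f' n with hxdef
  have hx1 : x 1 = 1 := by
    show qCoeff f' 1 = 1
    rw [hq 1, if_pos (Nat.coprime_one_left N)]
    exact hf1
  have hx0 : x 0 = 0 := s48a_qCoeff_zero_cuspForm f'
  have hf'0 : (⇑f' : ℍ → ℂ) ≠ 0 := by
    intro h
    have h1 : qCoeff f' 1 = 0 := by rw [h]; exact s48h_qCoeff_zero 1
    rw [show qCoeff f' 1 = x 1 from rfl, hx1] at h1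
    exact one_ne_zero h1
  have hodd : ψ (-1) = -1 := s48a_odd_of_neben ψ hf'0 hF
  obtain ⟨G, c, hG, hGq, hGq0⟩ := s48a_mult_of_eis hEis (N ^ 2) ψ hodd
  have hpM : ∀ p : ℕ, p.Prime → ¬ p ∣ N → ¬ p ∣ N ^ 2 := fun p hp hpN h =>
    hpN (hp.dvd_of_dvd_pow h)
  have hpM' : ∀ p : ℕ, ¬ p ∣ N ^ 2 → ¬ p ∣ N := fun p hpM h => hpM (h.trans hNM)
  have hψp : ∀ p : ℕ, p.Prime → ¬ p ∣ N → ψ (p : ZMod (N ^ 2)) = ε (p : ZMod N) := by
    intro p hp hpN
    exact s48a_changeLevel_natCast hNM ε ((Nat.Prime.coprime_iff_not_dvd hp).mpr (hpM p hp hpN))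
  have hxH : ∀ p : ℕ, p.Prime → ¬ p ∣ N → ∀ n : ℕ,
      x (p * n) + ψ (p : ZMod (N ^ 2)) * (if p ∣ n then x (n / p) else 0) = x p * x n := by
    intro p hp hpN n
    rw [hψp p hp hpN]
    exact s48a_hecke_depleted (fun p => ε (p : ZMod N)) (fun n => qCoeff f n) x hq hT hp hpN n
  have hxp : ∀ p : ℕ, p.Prime → ¬ p ∣ N → x p = qCoeff f p := by
    intro p hp hpN
    show qCoeff f' p = _
    rw [hq p, if_pos ((Nat.Prime.coprime_iff_not_dvd hp).mpr hpN)]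
  -- the field of values of `ψ`
  set K₀ : IntermediateField ℚ ℂ := IntermediateField.adjoin ℚ (Set.range ψ) with hK₀
  haveI : Finite (Set.range ψ) := (Set.finite_range ψ).to_subtype
  haveI hK₀fin : FiniteDimensional ℚ K₀ := IntermediateField.finiteDimensional_adjoin (fun z hz => by
    obtain ⟨a, rfl⟩ := hz
    exact (s48h_isIntegral_dirichlet ψ a).tower_top)
  have hψK₀ : ∀ a, ψ a ∈ K₀ := fun a => IntermediateField.subset_adjoin _ _ ⟨a, rfl⟩
  have hψinvK₀ : ∀ a, ψ⁻¹ a ∈ K₀ := s48n_inv_mem K₀ ψ hψK₀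
  have hbK₀ : ∀ n, qCoeff G n ∈ K₀ := s48a_eis_coeff_mem ψ K₀ hψinvK₀ hGq hGq0
  have hbint := s48a_eis_coeff_integral ψ hGq
  have hxW : x ∈ s48a_W (N ^ 2) (fun n => qCoeff G n) := s48a_mem_W_of_form hG f' hF
  have hxT : ∀ p : ℕ, p.Prime → ¬ p ∣ N ^ 2 →
      s48a_Tp p (ψ (p : ZMod (N ^ 2))) x = x p • x := by
    intro p hp hpM2
    funext n
    rw [s48a_Tp_apply, mul_comm n p, hxH p hp (hpM' p hpM2) n]
    rfl
  have hSd : ∀ d : ℕ, 1 ≤ d → CuspForm.HasIntegralStructure (N ^ 2 * d) 2 := fun d hd => by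
    haveI : NeZero (N ^ 2 * d) := ⟨Nat.mul_ne_zero (NeZero.ne _) (by omega)⟩
    exact hS _
  obtain ⟨hint, hfin⟩ := s48a_eigen_integral hG hSd K₀ (s48n_intSubring K₀)
    (s48n_intSubring_fg K₀) (s48n_mem_intSubring K₀) hbK₀ hbint
    (fun a => (s48n_mem_intSubring K₀ _).mpr ⟨hψK₀ a, s48h_isIntegral_dirichlet ψ a⟩) hxW hx1 hxT
  set K₁ : IntermediateField ℚ ℂ :=
    IntermediateField.adjoin ℚ {z : ℂ | ∃ p : ℕ, p.Prime ∧ ¬ p ∣ N ^ 2 ∧ z = x p} with hK₁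
  haveI : FiniteDimensional ℚ K₁ := hfin
  set K : IntermediateField ℚ ℂ := K₀ ⊔ K₁ with hKdef
  have hKfin : FiniteDimensional ℚ K :=
    IntermediateField.finiteDimensional_sup K₀ K₁
  have hle0 : K₀ ≤ K := le_sup_left
  have hle1 : K₁ ≤ K := le_sup_right
  have hK : ∀ p : ℕ, p.Prime → ¬ p ∣ N → qCoeff f p ∈ K := by
    intro p hp hpN
    rw [← hxp p hp hpN]
    exact hle1 (IntermediateField.subset_adjoin _ _ ⟨p, hp, hpM p hp hpN, rfl⟩)
  refine ⟨K, hKfin, ?_, ?_, hK, ?_⟩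
  · -- values of `ε`
    intro a
    by_cases ha : IsUnit a
    · obtain ⟨u, rfl⟩ := ha
      obtain ⟨v, hv⟩ := ZMod.unitsMap_surjective hNM u
      have h1 := DirichletCharacter.changeLevel_eq_cast_of_dvd ε hNM v
      have h2 : (ZMod.cast (v : ZMod (N ^ 2)) : ZMod N) = (u : ZMod N) := by
        rw [← hv, ZMod.unitsMap_val]
      rw [h2] at h1
      rw [← h1]
      exact hle0 (hψK₀ _)
    · rw [MulChar.map_nonunit ε ha]
      exact zero_mem _
  · intro p hp hpN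
    rw [← hxp p hp hpN]
    exact hint p hp (hpM p hp hpN)
  · -- conjugates
    intro σ
    have hψK : ∀ a, ψ a ∈ K := fun a => hle0 (hψK₀ a)
    have hxK : ∀ n, x n ∈ K := by
      intro n
      refine s48n_mem_of_hecke_rec K.toSubring N x (fun p => ψ (p : ZMod (N ^ 2))) hx0 hx1 ?_ hxH
        (fun p _ _ => hψK _) (fun p hp hpN => ?_) n
      · intro n hn
        show qCoeff f' n = 0
        rw [hq n, if_neg hn]
      · have := hK p hp hpN
        rwa [← hxp p hp hpN] at this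
    set ψσ : DirichletCharacter ℂ (N ^ 2) := s48n_conjChar K σ ψ hψK with hψσ
    have hoddσ : ψσ (-1) = -1 := s48n_conjChar_odd K σ ψ hψK hodd
    obtain ⟨Gσ, cσ, hGσ, hGσq, hGσq0⟩ := s48a_mult_of_eis hEis (N ^ 2) ψσ hoddσ
    have hψinvK : ∀ a, ψ⁻¹ a ∈ K := s48n_inv_mem K ψ hψK
    have hσinv : ∀ a, ψσ⁻¹ a = s48a_ext K σ (ψ⁻¹ a) := by
      intro a
      rw [hψσ, s48n_conjChar_inv K σ ψ hψK hψinvK, s48n_conjChar_apply, s48a_ext_of_mem]
    have hbσ : ∀ n, qCoeff Gσ n = s48a_ext K σ (qCoeff G n) :=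
      s48a_eis_coeff_conj ψ ψσ K σ hψinvK hσinv hGq hGq0 hGσq hGσq0
    have hbK : ∀ n, qCoeff G n ∈ K := fun n => hle0 (hbK₀ n)
    have hxσW := s48a_W_conj hSd K σ hbK hxK hbσ hxW
    obtain ⟨Fσ, hFσq, hFσn⟩ := s48a_form_of_mem_W hGσ hxσW
    refine ⟨N ^ 2, hMne, ψσ, Fσ, hNM, fun q hq hqd => hq.dvd_of_dvd_pow hqd, ⟨?_, ?_⟩, ?_⟩
    · rw [hFσq, hx1, s48a_ext_one]
    · intro p hp hpM2 n
      have hpN := hpM' p hpM2
      have h1 : ψσ (p : ZMod (N ^ 2)) = s48a_ext K σ (ψ (p : ZMod (N ^ 2))) := by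
        rw [hψσ, s48n_conjChar_apply, s48a_ext_of_mem]
      have h2 : (if p ∣ n then qCoeff Fσ (n / p) else 0)
          = s48a_ext K σ (if p ∣ n then x (n / p) else 0) := by
        split_ifs
        · exact hFσq _
        · exact s48a_ext_zero.symm
      have h3 : (if p ∣ n then x (n / p) else 0) ∈ K := by
        split_ifs
        · exact hxK _
        · exact zero_mem _
      rw [h2, hFσq, hFσq, hFσq, h1, ← s48a_ext_mul (hψK _) h3,
        ← s48a_ext_add (hxK _) (mul_mem (hψK _) h3), ← s48a_ext_mul (hxK _) (hxK _),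
        hxH p hp hpN n]
    · intro p hp hpN
      rw [hFσq p, s48a_ext_of_mem (hxK p)]
      exact congrArg σ (Subtype.mk_eq_mk.mpr (hxp p hp hpN))

end Fermat.Agent.Lib.S48
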