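/-
DS-1 (S48), wall [T4] = [EIS-1], part 1 (owner: helper5).

Elementary facts about `c(w) = π cot(π w)`:
periodicity, oddness, the exponential forms `c(w) + πi = -2πi r/(1-r)`, `c(w) - πi = -2πi/(1-r)`
(`r = exp(2πi w)`), the resulting exponential decay bounds in the upper and lower half planes,
differentiability off `ℤ`, and analyticity of `c(w) - 1/w` at `0`.
-/
import Mathlib

set_option autoImplicit false

noncomputable section

namespace Fermat.Agent.Lib.S48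

open Complex Filter Topology
open scoped Real

/-- `c(w) = π cot(π w)`. -/
def s48eis_c (w : ℂ) : ℂ := π * Complex.cot (π * w)

/-- `r(w) = exp(2π i w)`. -/
def s48eis_r (w : ℂ) : ℂ := Complex.exp (2 * π * I * w)

theorem s48eis_r_ne_zero (w : ℂ) : s48eis_r w ≠ 0 := Complex.exp_ne_zero _

theorem s48eis_norm_r (w : ℂ) : ‖s48eis_r w‖ = Real.exp (-2 * π * w.im) := by
  rw [s48eis_r, Complex.norm_exp]
  congr 1
  simp [Complex.mul_re, Complex.mul_im]

theorem s48eis_r_add (w v : ℂ) : s48eis_r (w + v) = s48eis_r w * s48eis_r v := by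
  rw [s48eis_r, s48eis_r, s48eis_r, ← Complex.exp_add]; congr 1; ring

theorem s48eis_r_int (n : ℤ) : s48eis_r n = 1 := by
  rw [s48eis_r]
  have := Complex.exp_int_mul_two_pi_mul_I n
  rw [← this]; congr 1; ring

theorem s48eis_r_add_int (w : ℂ) (n : ℤ) : s48eis_r (w + n) = s48eis_r w := by
  rw [s48eis_r_add, s48eis_r_int, mul_one]

theorem s48eis_r_neg (w : ℂ) : s48eis_r (-w) = (s48eis_r w)⁻¹ := by
  rw [s48eis_r, s48eis_r, ← Complex.exp_neg]; congr 1; ring

theorem s48eis_c_eq (w : ℂ) : s48eis_c w = -(π * I) * (s48eis_r w + 1) / (1 - s48eis_r w) := by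
  rw [s48eis_c, Complex.cot_pi_eq_exp_ratio, s48eis_r]
  rw [div_mul_eq_div_div_swap, div_I]
  ring

theorem s48eis_r_eq_one_iff (w : ℂ) : s48eis_r w = 1 ↔ ∃ n : ℤ, w = n := by
  rw [s48eis_r, Complex.exp_eq_one_iff]
  constructor
  · rintro ⟨n, hn⟩
    refine ⟨n, ?_⟩
    have h2 : (2 * π * I : ℂ) ≠ 0 := by
      simp [Real.pi_ne_zero, Complex.I_ne_zero]
    apply mul_left_cancel₀ h2
    rw [hn]; ring
  · rintro ⟨n, rfl⟩
    exact ⟨n, by ring⟩

theorem s48eis_c_add_int (w : ℂ) (n : ℤ) : s48eis_c (w + n) = s48eis_c w := by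
  rw [s48eis_c_eq, s48eis_c_eq, s48eis_r_add_int]

theorem s48eis_c_neg (w : ℂ) : s48eis_c (-w) = -s48eis_c w := by
  rw [s48eis_c, s48eis_c, mul_neg, Complex.cot, Complex.cot, Complex.cos_neg, Complex.sin_neg]
  ring

/-- `c(w) + πi = -2πi r/(1-r)` when `r ≠ 1`. -/
theorem s48eis_c_add (w : ℂ) (h : s48eis_r w ≠ 1) :
    s48eis_c w + π * I = -(2 * π * I) * s48eis_r w / (1 - s48eis_r w) := by
  have h1 : (1 - s48eis_r w) ≠ 0 := sub_ne_zero.mpr (Ne.symm h)
  rw [s48eis_c_eq]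
  field_simp
  ring

/-- `c(w) - πi = -2πi/(1-r)` when `r ≠ 1`. -/
theorem s48eis_c_sub (w : ℂ) (h : s48eis_r w ≠ 1) :
    s48eis_c w - π * I = -(2 * π * I) / (1 - s48eis_r w) := by
  have h1 : (1 - s48eis_r w) ≠ 0 := sub_ne_zero.mpr (Ne.symm h)
  rw [s48eis_c_eq]
  field_simp
  ring

theorem s48eis_norm_two_pi_I : ‖(2 * π * I : ℂ)‖ = 2 * π := by
  simp [abs_of_pos Real.pi_pos]

/-- Decay in the upper half plane: if `‖r(w)‖ ≤ 1/2` then `‖c(w) + πi‖ ≤ 4π ‖r(w)‖`. -/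
theorem s48eis_norm_c_add_le (w : ℂ) (h : ‖s48eis_r w‖ ≤ 1 / 2) :
    ‖s48eis_c w + π * I‖ ≤ 4 * π * ‖s48eis_r w‖ := by
  have hne : s48eis_r w ≠ 1 := by
    intro h1; rw [h1, norm_one] at h; linarith
  rw [s48eis_c_add w hne, norm_div, norm_mul, norm_neg, s48eis_norm_two_pi_I]
  have h2 : (1 : ℝ) / 2 ≤ ‖1 - s48eis_r w‖ := by
    have := norm_sub_norm_le (1 : ℂ) (s48eis_r w)
    rw [norm_one] at this
    linarith
  rw [div_le_iff₀ (by linarith)]
  have hpi := Real.pi_pos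
  have h3 : 0 ≤ ‖s48eis_r w‖ := norm_nonneg _
  nlinarith [mul_nonneg hpi.le h3]

/-- Decay in the lower half plane: if `2 ≤ ‖r(w)‖` then `‖c(w) - πi‖ ≤ 4π / ‖r(w)‖`. -/
theorem s48eis_norm_c_sub_le (w : ℂ) (h : 2 ≤ ‖s48eis_r w‖) :
    ‖s48eis_c w - π * I‖ ≤ 4 * π / ‖s48eis_r w‖ := by
  have hne : s48eis_r w ≠ 1 := by
    intro h1; rw [h1, norm_one] at h; linarith
  rw [s48eis_c_sub w hne, norm_div, norm_neg, s48eis_norm_two_pi_I]
  have h2 : ‖s48eis_r w‖ / 2 ≤ ‖1 - s48eis_r w‖ := by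
    have := norm_sub_norm_le (s48eis_r w) (1 : ℂ)
    rw [norm_one, norm_sub_rev] at this
    linarith
  have hpos : 0 < ‖s48eis_r w‖ := by linarith
  rw [div_le_div_iff₀ (by linarith) hpos]
  have hpi := Real.pi_pos
  nlinarith [mul_le_mul_of_nonneg_left h2 (by positivity : (0:ℝ) ≤ 4 * π)]

/-- `c` is differentiable at every `w ∉ ℤ`. -/
theorem s48eis_differentiableAt_c {w : ℂ} (h : ¬ ∃ n : ℤ, w = n) : DifferentiableAt ℂ s48eis_c w := by
  have hr : s48eis_r w ≠ 1 := fun h1 => h ((s48eis_r_eq_one_iff w).mp h1)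
  have h1 : (1 - s48eis_r w) ≠ 0 := sub_ne_zero.mpr (Ne.symm hr)
  have : s48eis_c = fun w => -(π * I) * (s48eis_r w + 1) / (1 - s48eis_r w) := funext s48eis_c_eq
  rw [this]
  have hd : Differentiable ℂ s48eis_r := by
    unfold s48eis_r; fun_prop
  exact ((hd.differentiableAt.add_const 1).const_mul _).div
    ((differentiableAt_const _).sub hd.differentiableAt) h1

/-! ### The regular part of `c` at `0` -/

/-- `κ(w) = ∑_{n ≥ 1} (1/(w - n) + 1/(w + n))`, the regular part of `c` at `0`. -/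
def s48eis_kap (w : ℂ) : ℂ := ∑' n : ℕ, (1 / (w - (n + 1)) + 1 / (w + (n + 1)))

theorem s48eis_c_eq_inv_add_kap {w : ℂ} (h : ¬ ∃ n : ℤ, w = n) :
    s48eis_c w = 1 / w + s48eis_kap w := by
  have hz : w ∈ Complex.integerComplement := by
    rw [Complex.mem_integerComplement_iff]; rintro ⟨n, hn⟩; exact h ⟨n, hn.symm⟩
  have := cot_series_rep' hz
  rw [s48eis_c, s48eis_kap, ← this]; ring

theorem s48eis_kap_zero : s48eis_kap 0 = 0 := by
  rw [s48eis_kap]
  have : ∀ n : ℕ, (1 / ((0 : ℂ) - (n + 1)) + 1 / (0 + (n + 1))) = 0 := by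
    intro n
    rw [zero_sub, zero_add, one_div, one_div, inv_neg, neg_add_cancel]
  simp only [this, tsum_zero]

theorem s48eis_kap_term_bound (n : ℕ) (w : ℂ) (hw : ‖w‖ < 1 / 2) :
    ‖1 / (w - (n + 1)) + 1 / (w + (n + 1))‖ ≤ 4 / ((n : ℝ) + 1) ^ 2 := by
  have ha : (1 : ℝ) ≤ (n : ℝ) + 1 := by linarith [Nat.cast_nonneg (α := ℝ) n]
  have hna : ‖((n : ℂ) + 1)‖ = (n : ℝ) + 1 := by
    have : ((n : ℂ) + 1) = (((n : ℝ) + 1 : ℝ) : ℂ) := by push_cast; ring
    rw [this, Complex.norm_real, Real.norm_eq_abs, abs_of_pos (by linarith)]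
  have h1 : ((n : ℝ) + 1) / 2 ≤ ‖w - ((n : ℂ) + 1)‖ := by
    have := norm_sub_norm_le ((n : ℂ) + 1) w
    rw [hna, norm_sub_rev] at this
    linarith
  have h2 : ((n : ℝ) + 1) / 2 ≤ ‖w + ((n : ℂ) + 1)‖ := by
    have := norm_sub_norm_le ((n : ℂ) + 1) (-w)
    rw [hna, norm_neg, sub_neg_eq_add] at this
    rw [add_comm w]
    linarith
  have hne1 : w - ((n : ℂ) + 1) ≠ 0 := by
    intro h; rw [h, norm_zero] at h1; linarith
  have hne2 : w + ((n : ℂ) + 1) ≠ 0 := by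
    intro h; rw [h, norm_zero] at h2; linarith
  have heq : 1 / (w - ((n : ℂ) + 1)) + 1 / (w + ((n : ℂ) + 1)) =
      2 * w / ((w - ((n : ℂ) + 1)) * (w + ((n : ℂ) + 1))) := by
    field_simp
    ring
  rw [heq, norm_div, norm_mul, norm_mul, Complex.norm_ofNat]
  rw [div_le_div_iff₀ (mul_pos (by linarith) (by linarith)) (by positivity)]
  have h3 : ((n : ℝ) + 1) / 2 * (((n : ℝ) + 1) / 2) ≤
      ‖w - ((n : ℂ) + 1)‖ * ‖w + ((n : ℂ) + 1)‖ :=
    mul_le_mul h1 h2 (by linarith) (le_trans (by linarith) h1)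
  have h4 : 0 ≤ ‖w‖ := norm_nonneg _
  nlinarith

theorem s48eis_differentiableOn_kap : DifferentiableOn ℂ s48eis_kap (Metric.ball 0 (1 / 2)) := by
  have hu : Summable fun n : ℕ => 4 / ((n : ℝ) + 1) ^ 2 := by
    have h := (Real.summable_one_div_nat_pow (p := 2)).mpr (by norm_num)
    have h' := (summable_nat_add_iff 1).mpr h
    have h'' := h'.mul_left 4
    refine h''.congr fun n => ?_
    push_cast
    ring
  apply differentiableOn_tsum_of_summable_norm hu _ Metric.isOpen_ball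
  · intro n w hw
    rw [Metric.mem_ball, dist_zero_right] at hw
    exact s48eis_kap_term_bound n w hw
  · intro n w hw
    rw [Metric.mem_ball, dist_zero_right] at hw
    have ha : (1 : ℝ) ≤ (n : ℝ) + 1 := by linarith [Nat.cast_nonneg (α := ℝ) n]
    have hna : ‖((n : ℂ) + 1)‖ = (n : ℝ) + 1 := by
      have : ((n : ℂ) + 1) = (((n : ℝ) + 1 : ℝ) : ℂ) := by push_cast; ring
      rw [this, Complex.norm_real, Real.norm_eq_abs, abs_of_pos (by linarith)]
    have hne1 : w - ((n : ℂ) + 1) ≠ 0 := by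
      intro h
      have : w = (n : ℂ) + 1 := sub_eq_zero.mp h
      rw [this, hna] at hw; linarith
    have hne2 : w + ((n : ℂ) + 1) ≠ 0 := by
      intro h
      have : w = -((n : ℂ) + 1) := eq_neg_of_add_eq_zero_left h
      rw [this, norm_neg, hna] at hw; linarith
    apply DifferentiableAt.differentiableWithinAt
    apply DifferentiableAt.add
    · exact (differentiableAt_const _).div (differentiableAt_id.sub_const _) hne1
    · exact (differentiableAt_const _).div (differentiableAt_id.add_const _) hne2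

theorem s48eis_analyticAt_kap : AnalyticAt ℂ s48eis_kap 0 :=
  s48eis_differentiableOn_kap.analyticAt (Metric.ball_mem_nhds 0 (by norm_num))

end Fermat.Agent.Lib.S48
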