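/-
DS-1 (S48), wall [T4] = [EIS-1], part 2 (owner: helper5).

The Eisenstein-summed function `E₁(z, τ) = ∑_{m ∈ ℤ} (π cot(π(z + mτ)) + πi·sgn m)`
(absolutely convergent for `Im τ > 0`): summability, periodicity `z ↦ z + 1`, quasi-periodicity
`E₁(z + τ) = E₁(z) - 2πi`, `τ ↦ τ + 1`, oddness.
-/
import Mathlib
import Fermat.Agent.Lib.S48.Eis1Cot

set_option autoImplicit false

noncomputable section

namespace Fermat.Agent.Lib.S48

open Complex Filter Topology
open scoped Real

/-- The `m`-th term of `E₁`: `c(z + mτ) + πi·sgn m`. -/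
def s48eis_term (z τ : ℂ) (m : ℤ) : ℂ := s48eis_c (z + m * τ) + π * I * ((Int.sign m : ℤ) : ℂ)

/-- `E₁(z, τ) = ∑_{m ∈ ℤ} (π cot(π(z + mτ)) + πi·sgn m)`. -/
def s48eis_E1 (z τ : ℂ) : ℂ := ∑' m : ℤ, s48eis_term z τ m

/-- The summable majorant `4π e^{2πB} e^{-2π Im τ |m|}`. -/
def s48eis_maj (τ : ℂ) (B : ℝ) (m : ℤ) : ℝ :=
  4 * π * Real.exp (2 * π * B) * Real.exp (-(2 * π * τ.im) * |(m : ℝ)|)

theorem s48eis_maj_nonneg (τ : ℂ) (B : ℝ) (m : ℤ) : 0 ≤ s48eis_maj τ B m := by
  unfold s48eis_maj; positivity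

theorem s48eis_summable_exp_neg_abs {a : ℝ} (ha : 0 < a) :
    Summable fun m : ℤ => Real.exp (-a * |(m : ℝ)|) := by
  have hgeo : Summable fun n : ℕ => Real.exp (-a) ^ n :=
    summable_geometric_of_lt_one (Real.exp_pos _).le (by rw [Real.exp_lt_one_iff]; linarith)
  have h1 : Summable fun n : ℕ => Real.exp (-a * |((n : ℤ) : ℝ)|) := by
    refine hgeo.congr fun n => ?_
    rw [← Real.exp_nat_mul]
    congr 1
    push_cast
    rw [abs_of_nonneg (Nat.cast_nonneg n)]; ring
  have h2 : Summable fun n : ℕ => Real.exp (-a * |((-(n : ℤ) : ℤ) : ℝ)|) := by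
    refine hgeo.congr fun n => ?_
    rw [← Real.exp_nat_mul]
    congr 1
    push_cast
    rw [abs_neg, abs_of_nonneg (Nat.cast_nonneg n)]; ring
  exact Summable.of_nat_of_neg h1 h2

theorem s48eis_summable_maj {τ : ℂ} (hτ : 0 < τ.im) (B : ℝ) : Summable (s48eis_maj τ B) := by
  unfold s48eis_maj
  exact (s48eis_summable_exp_neg_abs (a := 2 * π * τ.im) (by positivity)).mul_left _

/-- The "good index" condition. -/
def s48eis_good (τ : ℂ) (B : ℝ) (m : ℤ) : Prop :=
  Real.exp (2 * π * B) * Real.exp (-(2 * π * τ.im) * |(m : ℝ)|) ≤ 1 / 2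

theorem s48eis_good_eventually {τ : ℂ} (hτ : 0 < τ.im) (B : ℝ) :
    ∀ᶠ m : ℤ in cofinite, s48eis_good τ B m := by
  have h := (s48eis_summable_maj hτ B).tendsto_cofinite_zero
  have hpos : (0 : ℝ) < 2 * π := by positivity
  have := h.eventually (gt_mem_nhds hpos)
  filter_upwards [this] with m hm
  unfold s48eis_maj at hm
  unfold s48eis_good
  have hpi := Real.pi_pos
  nlinarith [Real.exp_pos (2 * π * B), Real.exp_pos (-(2 * π * τ.im) * |(m : ℝ)|)]

theorem s48eis_good_imp {τ : ℂ} {B : ℝ} {m : ℤ} (h : s48eis_good τ B m) :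
    B < τ.im * |(m : ℝ)| := by
  unfold s48eis_good at h
  rw [← Real.exp_add] at h
  have h1 : Real.exp (2 * π * B + -(2 * π * τ.im) * |(m : ℝ)|) < 1 := by linarith
  rw [Real.exp_lt_one_iff] at h1
  have hpi := Real.pi_pos
  nlinarith

theorem s48eis_im_add_mul (z τ : ℂ) (m : ℤ) : (z + m * τ).im = z.im + m * τ.im := by
  simp [Complex.add_im, Complex.mul_im]

/-- The main termwise bound. -/
theorem s48eis_term_bound {τ : ℂ} (hτ : 0 < τ.im) {B : ℝ} {z : ℂ} (hz : |z.im| ≤ B) {m : ℤ}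
    (hm : s48eis_good τ B m) : ‖s48eis_term z τ m‖ ≤ s48eis_maj τ B m := by
  have hpi := Real.pi_pos
  have hB := s48eis_good_imp hm
  have hB0 : 0 ≤ B := le_trans (abs_nonneg _) hz
  have hzB := abs_le.mp hz
  rcases lt_trichotomy m 0 with hneg | h0 | hpos
  · -- m < 0
    have hsign : Int.sign m = -1 := Int.sign_eq_neg_one_of_neg hneg
    have habs : |(m : ℝ)| = -(m : ℝ) := abs_of_neg (by exact_mod_cast hneg)
    have hnorm : ‖s48eis_r (z + m * τ)‖ =
        Real.exp (-2 * π * z.im) * Real.exp ((2 * π * τ.im) * |(m : ℝ)|) := by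
      rw [s48eis_norm_r, s48eis_im_add_mul, ← Real.exp_add, habs]; congr 1; ring
    have hge : 2 ≤ ‖s48eis_r (z + m * τ)‖ := by
      rw [hnorm]
      unfold s48eis_good at hm
      have e1 : Real.exp (-2 * π * z.im) ≥ Real.exp (-(2 * π * B)) := by
        apply Real.exp_le_exp.mpr; nlinarith [hzB.2]
      have e2 : Real.exp (-(2 * π * B)) * Real.exp (2 * π * B) = 1 := by
        rw [← Real.exp_add]; simp
      have e3 : Real.exp (-(2 * π * τ.im) * |(m : ℝ)|) * Real.exp ((2 * π * τ.im) * |(m : ℝ)|) = 1 := by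
        rw [← Real.exp_add]; simp
      have p1 := Real.exp_pos (2 * π * B)
      have p2 := Real.exp_pos ((2 * π * τ.im) * |(m : ℝ)|)
      have p3 := Real.exp_pos (-(2 * π * τ.im) * |(m : ℝ)|)
      have p4 := Real.exp_pos (-(2 * π * B))
      -- exp(2πB) e^{-a|m|} ≤ 1/2 ⇒ e^{-2πB} e^{a|m|} ≥ 2
      have key : 2 ≤ Real.exp (-(2 * π * B)) * Real.exp ((2 * π * τ.im) * |(m : ℝ)|) := by
        have : Real.exp (-(2 * π * B)) * Real.exp ((2 * π * τ.im) * |(m : ℝ)|) *
            (Real.exp (2 * π * B) * Real.exp (-(2 * π * τ.im) * |(m : ℝ)|)) = 1 := by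
          calc _ = (Real.exp (-(2 * π * B)) * Real.exp (2 * π * B)) *
              (Real.exp (-(2 * π * τ.im) * |(m : ℝ)|) * Real.exp ((2 * π * τ.im) * |(m : ℝ)|)) := by
                ring
            _ = 1 := by rw [e2, e3, one_mul]
        have hpos' : 0 < Real.exp (-(2 * π * B)) * Real.exp ((2 * π * τ.im) * |(m : ℝ)|) := by
          positivity
        nlinarith
      calc (2 : ℝ) ≤ Real.exp (-(2 * π * B)) * Real.exp ((2 * π * τ.im) * |(m : ℝ)|) := key
        _ ≤ Real.exp (-2 * π * z.im) * Real.exp ((2 * π * τ.im) * |(m : ℝ)|) :=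
          mul_le_mul_of_nonneg_right e1 p2.le
    have hterm : s48eis_term z τ m = s48eis_c (z + m * τ) - π * I := by
      rw [s48eis_term, hsign]; push_cast; ring
    rw [hterm]
    refine (s48eis_norm_c_sub_le _ hge).trans ?_
    rw [hnorm]
    unfold s48eis_maj
    have e1 : Real.exp (-2 * π * z.im) ≥ Real.exp (-(2 * π * B)) := by
      apply Real.exp_le_exp.mpr; nlinarith [hzB.2]
    have p2 := Real.exp_pos ((2 * π * τ.im) * |(m : ℝ)|)
    have p4 := Real.exp_pos (-(2 * π * B))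
    rw [div_le_iff₀ (by positivity)]
    have e2 : Real.exp (-(2 * π * B)) * Real.exp (2 * π * B) = 1 := by
      rw [← Real.exp_add]; simp
    have e3 : Real.exp (-(2 * π * τ.im) * |(m : ℝ)|) * Real.exp ((2 * π * τ.im) * |(m : ℝ)|) = 1 := by
      rw [← Real.exp_add]; simp
    have : 4 * π * Real.exp (2 * π * B) * Real.exp (-(2 * π * τ.im) * |(m : ℝ)|) *
        (Real.exp (-(2 * π * B)) * Real.exp ((2 * π * τ.im) * |(m : ℝ)|)) = 4 * π := by
      calc _ = 4 * π * (Real.exp (-(2 * π * B)) * Real.exp (2 * π * B)) *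
          (Real.exp (-(2 * π * τ.im) * |(m : ℝ)|) * Real.exp ((2 * π * τ.im) * |(m : ℝ)|)) := by
            ring
        _ = 4 * π := by rw [e2, e3]; ring
    calc 4 * π = 4 * π * Real.exp (2 * π * B) * Real.exp (-(2 * π * τ.im) * |(m : ℝ)|) *
        (Real.exp (-(2 * π * B)) * Real.exp ((2 * π * τ.im) * |(m : ℝ)|)) := this.symm
      _ ≤ 4 * π * Real.exp (2 * π * B) * Real.exp (-(2 * π * τ.im) * |(m : ℝ)|) *
        (Real.exp (-2 * π * z.im) * Real.exp ((2 * π * τ.im) * |(m : ℝ)|)) := by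
          apply mul_le_mul_of_nonneg_left _ (by positivity)
          exact mul_le_mul_of_nonneg_right e1 p2.le
  · -- m = 0 : impossible
    exfalso
    rw [h0] at hB
    simp at hB
    linarith
  · -- m > 0
    have hsign : Int.sign m = 1 := Int.sign_eq_one_of_pos hpos
    have habs : |(m : ℝ)| = (m : ℝ) := abs_of_pos (by exact_mod_cast hpos)
    have hnorm : ‖s48eis_r (z + m * τ)‖ =
        Real.exp (-2 * π * z.im) * Real.exp (-(2 * π * τ.im) * |(m : ℝ)|) := by
      rw [s48eis_norm_r, s48eis_im_add_mul, ← Real.exp_add, habs]; congr 1; ring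
    have e1 : Real.exp (-2 * π * z.im) ≤ Real.exp (2 * π * B) := by
      apply Real.exp_le_exp.mpr; nlinarith [hzB.1]
    have p3 := Real.exp_pos (-(2 * π * τ.im) * |(m : ℝ)|)
    have hle : ‖s48eis_r (z + m * τ)‖ ≤
        Real.exp (2 * π * B) * Real.exp (-(2 * π * τ.im) * |(m : ℝ)|) := by
      rw [hnorm]; exact mul_le_mul_of_nonneg_right e1 p3.le
    have hhalf : ‖s48eis_r (z + m * τ)‖ ≤ 1 / 2 := hle.trans hm
    have hterm : s48eis_term z τ m = s48eis_c (z + m * τ) + π * I := by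
      rw [s48eis_term, hsign]; push_cast; ring
    rw [hterm]
    refine (s48eis_norm_c_add_le _ hhalf).trans ?_
    unfold s48eis_maj
    calc 4 * π * ‖s48eis_r (z + m * τ)‖ ≤
        4 * π * (Real.exp (2 * π * B) * Real.exp (-(2 * π * τ.im) * |(m : ℝ)|)) :=
          mul_le_mul_of_nonneg_left hle (by positivity)
      _ = _ := by ring

/-- `E₁` is given by a summable series. -/
theorem s48eis_summable_term {τ : ℂ} (hτ : 0 < τ.im) (z : ℂ) : Summable (s48eis_term z τ) := by
  apply Summable.of_norm_bounded_eventually (s48eis_summable_maj hτ |z.im|)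
  filter_upwards [s48eis_good_eventually hτ |z.im|] with m hm
  exact s48eis_term_bound hτ le_rfl hm

/-! ### Functional equations -/

theorem s48eis_term_add_one (z τ : ℂ) (m : ℤ) : s48eis_term (z + 1) τ m = s48eis_term z τ m := by
  unfold s48eis_term
  have : z + 1 + m * τ = z + m * τ + ((1 : ℤ) : ℂ) := by push_cast; ring
  rw [this, s48eis_c_add_int]

/-- `E₁(z + 1, τ) = E₁(z, τ)`. -/
theorem s48eis_E1_add_one (z τ : ℂ) : s48eis_E1 (z + 1) τ = s48eis_E1 z τ := by
  unfold s48eis_E1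
  exact tsum_congr fun m => s48eis_term_add_one z τ m

theorem s48eis_term_tau_add_one (z τ : ℂ) (m : ℤ) : s48eis_term z (τ + 1) m = s48eis_term z τ m := by
  unfold s48eis_term
  have : z + m * (τ + 1) = z + m * τ + (m : ℂ) := by ring
  rw [this, s48eis_c_add_int]

/-- `E₁(z, τ + 1) = E₁(z, τ)`. -/
theorem s48eis_E1_tau_add_one (z τ : ℂ) : s48eis_E1 z (τ + 1) = s48eis_E1 z τ := by
  unfold s48eis_E1
  exact tsum_congr fun m => s48eis_term_tau_add_one z τ m

theorem s48eis_term_neg (z τ : ℂ) (m : ℤ) : s48eis_term (-z) τ m = -s48eis_term z τ (-m) := by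
  unfold s48eis_term
  have : -z + m * τ = -(z + ((-m : ℤ) : ℂ) * τ) := by push_cast; ring
  rw [this, s48eis_c_neg, Int.sign_neg]
  push_cast; ring

/-- `E₁(-z, τ) = -E₁(z, τ)`. -/
theorem s48eis_E1_neg (z τ : ℂ) : s48eis_E1 (-z) τ = -s48eis_E1 z τ := by
  unfold s48eis_E1
  rw [← tsum_neg, ← (Equiv.neg ℤ).tsum_eq (fun m => -s48eis_term z τ m)]
  exact tsum_congr fun m => s48eis_term_neg z τ m

theorem s48eis_term_add_tau (z τ : ℂ) (m : ℤ) :
    s48eis_term (z + τ) τ m =
      s48eis_term z τ (m + 1) + π * I * (((Int.sign m - Int.sign (m + 1) : ℤ)) : ℂ) := by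
  unfold s48eis_term
  have : z + τ + m * τ = z + ((m + 1 : ℤ) : ℂ) * τ := by push_cast; ring
  rw [this]; push_cast; ring

theorem s48eis_sign_diff_tsum :
    ∑' m : ℤ, (π * I * (((Int.sign m - Int.sign (m + 1) : ℤ)) : ℂ)) = -(2 * π * I) := by
  rw [tsum_eq_sum (s := {-1, 0})]
  · rw [Finset.sum_pair (by norm_num)]
    simp
    ring
  · intro m hm
    simp only [Finset.mem_insert, Finset.mem_singleton, not_or] at hm
    rcases lt_trichotomy m (-1) with h | h | h
    · have h1 : Int.sign m = -1 := Int.sign_eq_neg_one_of_neg (by omega)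
      have h2 : Int.sign (m + 1) = -1 := Int.sign_eq_neg_one_of_neg (by omega)
      rw [h1, h2]; simp
    · exact absurd h hm.1
    · have h0 : 0 < m := by omega
      have h1 : Int.sign m = 1 := Int.sign_eq_one_of_pos h0
      have h2 : Int.sign (m + 1) = 1 := Int.sign_eq_one_of_pos (by omega)
      rw [h1, h2]; simp

theorem s48eis_summable_sign_diff :
    Summable fun m : ℤ => (π * I * (((Int.sign m - Int.sign (m + 1) : ℤ)) : ℂ)) := by
  apply summable_of_ne_finset_zero (s := {-1, 0})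
  intro m hm
  simp only [Finset.mem_insert, Finset.mem_singleton, not_or] at hm
  rcases lt_trichotomy m (-1) with h | h | h
  · have h1 : Int.sign m = -1 := Int.sign_eq_neg_one_of_neg (by omega)
    have h2 : Int.sign (m + 1) = -1 := Int.sign_eq_neg_one_of_neg (by omega)
    rw [h1, h2]; simp
  · exact absurd h hm.1
  · have h0 : 0 < m := by omega
    have h1 : Int.sign m = 1 := Int.sign_eq_one_of_pos h0
    have h2 : Int.sign (m + 1) = 1 := Int.sign_eq_one_of_pos (by omega)
    rw [h1, h2]; simp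

/-- `E₁(z + τ, τ) = E₁(z, τ) - 2πi`. -/
theorem s48eis_E1_add_tau {τ : ℂ} (hτ : 0 < τ.im) (z : ℂ) :
    s48eis_E1 (z + τ) τ = s48eis_E1 z τ - 2 * π * I := by
  unfold s48eis_E1
  have hs : Summable fun m : ℤ => s48eis_term z τ (m + 1) :=
    (Equiv.addRight (1 : ℤ)).summable_iff.mpr (s48eis_summable_term hτ z)
  have h1 : ∑' m : ℤ, s48eis_term z τ (m + 1) = ∑' m : ℤ, s48eis_term z τ m :=
    (Equiv.addRight (1 : ℤ)).tsum_eq (s48eis_term z τ)
  rw [tsum_congr (s48eis_term_add_tau z τ), hs.tsum_add s48eis_summable_sign_diff, h1,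
    s48eis_sign_diff_tsum]
  ring

/-- `E₁(z - τ, τ) = E₁(z, τ) + 2πi`. -/
theorem s48eis_E1_sub_tau {τ : ℂ} (hτ : 0 < τ.im) (z : ℂ) :
    s48eis_E1 (z - τ) τ = s48eis_E1 z τ + 2 * π * I := by
  have := s48eis_E1_add_tau hτ (z - τ)
  rw [sub_add_cancel] at this
  rw [this]; ring

theorem s48eis_E1_add_int (z τ : ℂ) (n : ℤ) : s48eis_E1 (z + n) τ = s48eis_E1 z τ := by
  unfold s48eis_E1
  refine tsum_congr fun m => ?_
  unfold s48eis_term
  have : z + n + m * τ = z + m * τ + (n : ℂ) := by ring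
  rw [this, s48eis_c_add_int]

/-- `E₁(z + mτ + n, τ) = E₁(z, τ) - 2πi·m`. -/
theorem s48eis_E1_add_lattice {τ : ℂ} (hτ : 0 < τ.im) (z : ℂ) (m n : ℤ) :
    s48eis_E1 (z + m * τ + n) τ = s48eis_E1 z τ - 2 * π * I * m := by
  rw [s48eis_E1_add_int]
  induction m using Int.induction_on with
  | zero => simp
  | succ k ih =>
    have : z + ((k : ℤ) + 1 : ℤ) * τ = z + (k : ℤ) * τ + τ := by push_cast; ring
    rw [this, s48eis_E1_add_tau hτ, ih]; push_cast; ring
  | pred k ih =>
    have : z + ((-(k : ℤ) - 1 : ℤ) : ℂ) * τ = z + ((-(k : ℤ) : ℤ) : ℂ) * τ - τ := by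
      push_cast; ring
    rw [this, s48eis_E1_sub_tau hτ, ih]; push_cast; ring

/-! ### Differentiability in `z` -/

theorem s48eis_tsum_split (f : ℤ → ℂ) (hf : Summable f) (s : Finset ℤ) :
    ∑' m, f m = ∑ m ∈ s, f m + ∑' m, (if m ∈ s then 0 else f m) := by
  rw [← hf.sum_add_tsum_compl (s := s), tsum_subtype]
  congr 1
  refine tsum_congr fun m => ?_
  by_cases h : m ∈ s
  · simp [h]
  · simp [h]

/-- Sum of the terms of `E₁` outside a finite set of indices. -/
def s48eis_E1ex (s0 : Finset ℤ) (z τ : ℂ) : ℂ :=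
  ∑' m : ℤ, if m ∈ s0 then 0 else s48eis_term z τ m

theorem s48eis_summable_term_ex {τ : ℂ} (hτ : 0 < τ.im) (s0 : Finset ℤ) (z : ℂ) :
    Summable fun m : ℤ => if m ∈ s0 then 0 else s48eis_term z τ m := by
  have := (s48eis_summable_term hτ z).indicator ((s0 : Set ℤ)ᶜ)
  refine this.congr fun m => ?_
  by_cases h : m ∈ s0
  · simp [h]
  · simp [h]

theorem s48eis_E1_eq_sum_add {τ : ℂ} (hτ : 0 < τ.im) (s0 : Finset ℤ) (z : ℂ) :
    s48eis_E1 z τ = ∑ m ∈ s0, s48eis_term z τ m + s48eis_E1ex s0 z τ :=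
  s48eis_tsum_split _ (s48eis_summable_term hτ z) s0

theorem s48eis_E1ex_empty (z τ : ℂ) : s48eis_E1ex ∅ z τ = s48eis_E1 z τ := by
  unfold s48eis_E1ex s48eis_E1; simp

theorem s48eis_not_int_of_im_ne {w : ℂ} (h : w.im ≠ 0) : ¬ ∃ n : ℤ, w = n := by
  rintro ⟨n, rfl⟩; simp at h

theorem s48eis_differentiableAt_term {τ z0 : ℂ} {m : ℤ} (h : ¬ ∃ n : ℤ, z0 + m * τ = n) :
    DifferentiableAt ℂ (fun z => s48eis_term z τ m) z0 := by
  unfold s48eis_term
  have h1 : DifferentiableAt ℂ (fun z : ℂ => z + m * τ) z0 := differentiableAt_id.add_const _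
  have h2 : DifferentiableAt ℂ s48eis_c (z0 + m * τ) := s48eis_differentiableAt_c h
  exact (DifferentiableAt.comp z0 h2 h1).add_const _

theorem s48eis_differentiableAt_E1ex {τ : ℂ} (hτ : 0 < τ.im) (s0 : Finset ℤ) {z0 : ℂ}
    (hz0 : ∀ m : ℤ, m ∉ s0 → ¬ ∃ n : ℤ, z0 + m * τ = n) :
    DifferentiableAt ℂ (fun z => s48eis_E1ex s0 z τ) z0 := by
  classical
  set B : ℝ := |z0.im| + 1 with hB
  have hfin : {m : ℤ | ¬ s48eis_good τ B m}.Finite := by
    have := s48eis_good_eventually hτ B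
    rwa [Filter.eventually_cofinite] at this
  set s : Finset ℤ := hfin.toFinset with hs
  have hmem : ∀ m, m ∉ s → s48eis_good τ B m := by
    intro m hm
    by_contra hg
    exact hm (by rw [hs, Set.Finite.mem_toFinset]; exact hg)
  -- the tail
  set T : ℂ → ℂ := fun z => ∑' m : ℤ, if m ∈ s then 0 else
    (if m ∈ s0 then 0 else s48eis_term z τ m) with hT
  have hsplit : (fun z => s48eis_E1ex s0 z τ) = fun z =>
      ∑ m ∈ s, (if m ∈ s0 then 0 else s48eis_term z τ m) + T z := by
    funext z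
    exact s48eis_tsum_split _ (s48eis_summable_term_ex hτ s0 z) s
  rw [hsplit]
  apply DifferentiableAt.add
  · apply DifferentiableAt.fun_sum
    intro m _
    by_cases h : m ∈ s0
    · simp only [h, if_true]; exact differentiableAt_const _
    · simp only [h, if_false]; exact s48eis_differentiableAt_term (hz0 m h)
  · set U : Set ℂ := {z : ℂ | |z.im| < B} with hU
    have hUo : IsOpen U := by
      have : Continuous fun z : ℂ => |z.im| := (Complex.continuous_im).abs
      exact isOpen_lt this continuous_const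
    have hz0U : z0 ∈ U := by
      show |z0.im| < B
      rw [hB]; linarith
    have hTd : DifferentiableOn ℂ T U := by
      apply differentiableOn_tsum_of_summable_norm (s48eis_summable_maj hτ B) _ hUo
      · intro m z hz
        by_cases h1 : m ∈ s
        · simp only [h1, if_true, norm_zero]; exact s48eis_maj_nonneg _ _ _
        · by_cases h2 : m ∈ s0
          · simp only [h1, h2, if_true, if_false, norm_zero]; exact s48eis_maj_nonneg _ _ _
          · simp only [h1, h2, if_false]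
            exact s48eis_term_bound hτ (le_of_lt hz) (hmem m h1)
      · intro m
        by_cases h1 : m ∈ s
        · simp only [h1, if_true]; exact differentiableOn_const _
        · by_cases h2 : m ∈ s0
          · simp only [h1, h2, if_true, if_false]; exact differentiableOn_const _
          · simp only [h1, h2, if_false]
            intro z hz
            apply DifferentiableAt.differentiableWithinAt
            apply s48eis_differentiableAt_term
            apply s48eis_not_int_of_im_ne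
            rw [s48eis_im_add_mul]
            have hg := s48eis_good_imp (hmem m h1)
            have hz' : |z.im| < B := hz
            intro h0
            have : |(m : ℝ) * τ.im| = |z.im| := by
              have : (m : ℝ) * τ.im = -z.im := by linarith
              rw [this, abs_neg]
            rw [abs_mul, abs_of_pos hτ] at this
            nlinarith
    exact (hTd z0 hz0U).differentiableAt (hUo.mem_nhds hz0U)

/-- `E₁(·, τ)` is differentiable off the lattice `ℤ + ℤτ`. -/
theorem s48eis_differentiableAt_E1 {τ : ℂ} (hτ : 0 < τ.im) {z0 : ℂ}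
    (hz0 : ∀ m : ℤ, ¬ ∃ n : ℤ, z0 + m * τ = n) :
    DifferentiableAt ℂ (fun z => s48eis_E1 z τ) z0 := by
  have := s48eis_differentiableAt_E1ex hτ ∅ (z0 := z0) (fun m _ => hz0 m)
  simpa only [s48eis_E1ex_empty] using this

end Fermat.Agent.Lib.S48
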