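/-
DS-1 (S48), wall [T4] = [EIS-1], part 3 (owner: helper5).

The `S`-transformation law of `E₁`:  `E₁(z/τ, -1/τ) = τ·E₁(z, τ) + 2πi·z`  for `z ∉ ℤ + ℤτ`,
by Liouville's theorem applied to the difference (doubly periodic, removable singularities).
-/
import Mathlib
import Fermat.Agent.Lib.S48.Eis1E1

set_option autoImplicit false
set_option linter.unusedSimpArgs false

noncomputable section

namespace Fermat.Agent.Lib.S48

open Complex Filter Topology
open scoped Real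

theorem s48eis_im_neg_inv {τ : ℂ} (hτ : 0 < τ.im) : 0 < (-τ⁻¹).im := by
  rw [Complex.neg_im, Complex.inv_im, neg_div, neg_neg]
  have : 0 < Complex.normSq τ := by
    rw [Complex.normSq_pos]; intro h; rw [h] at hτ; simp at hτ
  positivity

theorem s48eis_ne_zero_of_im_pos {τ : ℂ} (hτ : 0 < τ.im) : τ ≠ 0 := by
  intro h; rw [h] at hτ; simp at hτ

/-- The period pair `(1, τ)`. -/
def s48eis_pp (τ : ℂ) (hτ : 0 < τ.im) : PeriodPair where
  ω₁ := 1
  ω₂ := τ
  indep := by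
    rw [LinearIndependent.pair_iff]
    intro a b h
    have him := congrArg Complex.im h
    have hre := congrArg Complex.re h
    simp only [Matrix.cons_val_zero, Matrix.cons_val_one, Complex.add_im,
      Complex.real_smul, Complex.mul_im, Complex.ofReal_re, Complex.one_im, mul_zero,
      Complex.ofReal_im, Complex.one_re, zero_mul, add_zero, Complex.zero_im, Complex.add_re,
      Complex.mul_re, mul_one, sub_zero, Complex.zero_re, zero_add] at him hre
    have hb : b = 0 := by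
      rcases mul_eq_zero.mp him with h | h
      · exact h
      · exact absurd h hτ.ne'
    rw [hb] at hre
    simp at hre
    exact ⟨hre, hb⟩

theorem s48eis_mem_lattice {τ : ℂ} (hτ : 0 < τ.im) (z : ℂ) :
    z ∈ (s48eis_pp τ hτ).lattice ↔ ∃ m n : ℤ, z = m + n * τ := by
  rw [PeriodPair.mem_lattice]
  constructor
  · rintro ⟨m, n, h⟩
    exact ⟨m, n, by rw [← h]; simp [s48eis_pp]⟩
  · rintro ⟨m, n, h⟩
    exact ⟨m, n, by rw [h]; simp [s48eis_pp]⟩

/-- Off the lattice, no `z + mτ` is an integer. -/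
theorem s48eis_not_int_of_not_mem {τ : ℂ} (hτ : 0 < τ.im) {z : ℂ}
    (hz : z ∉ (s48eis_pp τ hτ).lattice) (m : ℤ) : ¬ ∃ n : ℤ, z + m * τ = n := by
  rintro ⟨n, hn⟩
  apply hz
  rw [s48eis_mem_lattice]
  exact ⟨n, -m, by push_cast; linear_combination hn⟩

/-- Off the lattice, no `z/τ + m(-1/τ)` is an integer. -/
theorem s48eis_not_int_of_not_mem' {τ : ℂ} (hτ : 0 < τ.im) {z : ℂ}
    (hz : z ∉ (s48eis_pp τ hτ).lattice) (m : ℤ) : ¬ ∃ n : ℤ, z / τ + m * (-τ⁻¹) = n := by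
  have hτ0 := s48eis_ne_zero_of_im_pos hτ
  rintro ⟨n, hn⟩
  apply hz
  rw [s48eis_mem_lattice]
  refine ⟨m, n, ?_⟩
  field_simp at hn
  linear_combination hn

/-- The difference function of the `S`-law. -/
def s48eis_F (τ z : ℂ) : ℂ := s48eis_E1 (z / τ) (-τ⁻¹) - τ * s48eis_E1 z τ - 2 * π * I * z

theorem s48eis_F_add_one {τ : ℂ} (hτ : 0 < τ.im) (z : ℂ) : s48eis_F τ (z + 1) = s48eis_F τ z := by
  have hτ0 := s48eis_ne_zero_of_im_pos hτ
  unfold s48eis_F
  have h1 : (z + 1) / τ = z / τ - (-τ⁻¹) := by field_simp; ring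
  rw [h1, s48eis_E1_sub_tau (s48eis_im_neg_inv hτ), s48eis_E1_add_one]
  ring

theorem s48eis_F_add_tau {τ : ℂ} (hτ : 0 < τ.im) (z : ℂ) : s48eis_F τ (z + τ) = s48eis_F τ z := by
  have hτ0 := s48eis_ne_zero_of_im_pos hτ
  unfold s48eis_F
  have h1 : (z + τ) / τ = z / τ + 1 := by field_simp
  rw [h1, s48eis_E1_add_one, s48eis_E1_add_tau hτ]
  ring

theorem s48eis_F_sub_one {τ : ℂ} (hτ : 0 < τ.im) (z : ℂ) : s48eis_F τ (z - 1) = s48eis_F τ z := by
  have := s48eis_F_add_one hτ (z - 1)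
  rw [sub_add_cancel] at this
  exact this.symm

theorem s48eis_F_sub_tau {τ : ℂ} (hτ : 0 < τ.im) (z : ℂ) : s48eis_F τ (z - τ) = s48eis_F τ z := by
  have := s48eis_F_add_tau hτ (z - τ)
  rw [sub_add_cancel] at this
  exact this.symm

theorem s48eis_F_add_int {τ : ℂ} (hτ : 0 < τ.im) (z : ℂ) (m : ℤ) :
    s48eis_F τ (z + m) = s48eis_F τ z := by
  induction m using Int.induction_on with
  | zero => simp
  | succ k ih =>
    have : z + ((k : ℤ) + 1 : ℤ) = z + (k : ℤ) + 1 := by push_cast; ring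
    rw [this, s48eis_F_add_one hτ, ih]
  | pred k ih =>
    have : z + ((-(k : ℤ) - 1 : ℤ) : ℂ) = z + ((-(k : ℤ) : ℤ) : ℂ) - 1 := by push_cast; ring
    rw [this, s48eis_F_sub_one hτ, ih]

theorem s48eis_F_add_int_mul_tau {τ : ℂ} (hτ : 0 < τ.im) (z : ℂ) (n : ℤ) :
    s48eis_F τ (z + n * τ) = s48eis_F τ z := by
  induction n using Int.induction_on with
  | zero => simp
  | succ k ih =>
    have : z + ((k : ℤ) + 1 : ℤ) * τ = z + (k : ℤ) * τ + τ := by push_cast; ring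
    rw [this, s48eis_F_add_tau hτ, ih]
  | pred k ih =>
    have : z + ((-(k : ℤ) - 1 : ℤ) : ℂ) * τ = z + ((-(k : ℤ) : ℤ) : ℂ) * τ - τ := by
      push_cast; ring
    rw [this, s48eis_F_sub_tau hτ, ih]

theorem s48eis_F_add_lattice {τ : ℂ} (hτ : 0 < τ.im) (z w : ℂ)
    (hw : w ∈ (s48eis_pp τ hτ).lattice) : s48eis_F τ (z + w) = s48eis_F τ z := by
  obtain ⟨m, n, rfl⟩ := (s48eis_mem_lattice hτ w).mp hw
  rw [← add_assoc, s48eis_F_add_int_mul_tau hτ, s48eis_F_add_int hτ]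

/-- The extension by `0` over the lattice. -/
def s48eis_Ft (τ : ℂ) (hτ : 0 < τ.im) (z : ℂ) : ℂ :=
  letI := Classical.propDecidable
  if z ∈ (s48eis_pp τ hτ).lattice then 0 else s48eis_F τ z

theorem s48eis_Ft_add_lattice {τ : ℂ} (hτ : 0 < τ.im) (z w : ℂ)
    (hw : w ∈ (s48eis_pp τ hτ).lattice) : s48eis_Ft τ hτ (z + w) = s48eis_Ft τ hτ z := by
  classical
  unfold s48eis_Ft
  have hiff : z + w ∈ (s48eis_pp τ hτ).lattice ↔ z ∈ (s48eis_pp τ hτ).lattice :=
    (s48eis_pp τ hτ).lattice.toAddSubgroup.add_mem_cancel_right hw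
  by_cases hz : z ∈ (s48eis_pp τ hτ).lattice
  · rw [if_pos hz, if_pos (hiff.mpr hz)]
  · rw [if_neg hz, if_neg (fun h => hz (hiff.mp h)), s48eis_F_add_lattice hτ z w hw]

/-! ### The regular part at `0` -/

/-- `R(z) = ∑_{m ≠ 0} term`, the regular part of `E₁(·, τ)` at `0`. -/
def s48eis_R (τ z : ℂ) : ℂ := s48eis_E1ex {0} z τ

theorem s48eis_E1_eq_c_add_R {τ : ℂ} (hτ : 0 < τ.im) (z : ℂ) :
    s48eis_E1 z τ = s48eis_c z + s48eis_R τ z := by
  rw [s48eis_E1_eq_sum_add hτ {0} z, Finset.sum_singleton, s48eis_R]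
  congr 1
  unfold s48eis_term
  simp

theorem s48eis_R_neg (τ z : ℂ) : s48eis_R τ (-z) = -s48eis_R τ z := by
  unfold s48eis_R s48eis_E1ex
  rw [← tsum_neg, ← (Equiv.neg ℤ).tsum_eq
    (fun m => -(if m ∈ ({0} : Finset ℤ) then (0 : ℂ) else s48eis_term z τ m))]
  refine tsum_congr fun m => ?_
  simp only [Equiv.neg_apply, Finset.mem_singleton, neg_eq_zero]
  by_cases h : m = 0
  · simp [h]
  · simp only [h, if_false]; exact s48eis_term_neg z τ m

theorem s48eis_R_zero (τ : ℂ) : s48eis_R τ 0 = 0 := by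
  have := s48eis_R_neg τ 0
  rw [neg_zero] at this
  exact self_eq_neg.mp this

theorem s48eis_differentiableAt_R {τ : ℂ} (hτ : 0 < τ.im) {z0 : ℂ} (hz0 : |z0.im| < τ.im) :
    DifferentiableAt ℂ (s48eis_R τ) z0 := by
  have : s48eis_R τ = fun z => s48eis_E1ex {0} z τ := rfl
  rw [this]
  apply s48eis_differentiableAt_E1ex hτ
  intro m hm
  have hm0 : m ≠ 0 := by simpa using hm
  apply s48eis_not_int_of_im_ne
  rw [s48eis_im_add_mul]
  intro h0
  have h1 : |(m : ℝ) * τ.im| = |z0.im| := by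
    have : (m : ℝ) * τ.im = -z0.im := by linarith
    rw [this, abs_neg]
  rw [abs_mul, abs_of_pos hτ] at h1
  have h2 : (1 : ℝ) ≤ |(m : ℝ)| := by
    have : (1 : ℤ) ≤ |m| := Int.one_le_abs hm0
    have h3 : ((1 : ℤ) : ℝ) ≤ ((|m| : ℤ) : ℝ) := by exact_mod_cast this
    simpa using h3
  nlinarith

theorem s48eis_analyticAt_R {τ : ℂ} (hτ : 0 < τ.im) : AnalyticAt ℂ (s48eis_R τ) 0 := by
  set U : Set ℂ := {z : ℂ | |z.im| < τ.im} with hU
  have hUo : IsOpen U := isOpen_lt (Complex.continuous_im).abs continuous_const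
  have h0 : (0 : ℂ) ∈ U := by show |(0 : ℂ).im| < τ.im; simpa using hτ
  have hd : DifferentiableOn ℂ (s48eis_R τ) U := fun z hz =>
    (s48eis_differentiableAt_R hτ hz).differentiableWithinAt
  exact hd.analyticAt (hUo.mem_nhds h0)

/-- The analytic function agreeing with `F` near `0`. -/
def s48eis_G (τ z : ℂ) : ℂ :=
  s48eis_kap (z / τ) + s48eis_R (-τ⁻¹) (z / τ) - τ * s48eis_kap z - τ * s48eis_R τ z - 2 * π * I * z

theorem s48eis_analyticAt_G {τ : ℂ} (hτ : 0 < τ.im) : AnalyticAt ℂ (s48eis_G τ) 0 := by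
  have hdiv : AnalyticAt ℂ (fun z : ℂ => z / τ) 0 := analyticAt_id.div_const
  have h1 : AnalyticAt ℂ (fun z => s48eis_kap (z / τ)) 0 :=
    AnalyticAt.comp_of_eq (f := fun z : ℂ => z / τ) s48eis_analyticAt_kap hdiv (by simp)
  have h2 : AnalyticAt ℂ (fun z => s48eis_R (-τ⁻¹) (z / τ)) 0 :=
    AnalyticAt.comp_of_eq (f := fun z : ℂ => z / τ) (s48eis_analyticAt_R (s48eis_im_neg_inv hτ)) hdiv
      (by simp)
  have h3 : AnalyticAt ℂ (fun z => τ * s48eis_kap z) 0 := analyticAt_const.mul s48eis_analyticAt_kap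
  have h4 : AnalyticAt ℂ (fun z => τ * s48eis_R τ z) 0 := analyticAt_const.mul (s48eis_analyticAt_R hτ)
  have h5 : AnalyticAt ℂ (fun z : ℂ => 2 * π * I * z) 0 := analyticAt_const.mul analyticAt_id
  exact (((h1.add h2).sub h3).sub h4).sub h5

theorem s48eis_G_zero (τ : ℂ) : s48eis_G τ 0 = 0 := by
  unfold s48eis_G
  simp [s48eis_kap_zero, s48eis_R_zero]

theorem s48eis_F_eq_G {τ : ℂ} (hτ : 0 < τ.im) {z : ℂ} (hz : z ∉ (s48eis_pp τ hτ).lattice) :
    s48eis_F τ z = s48eis_G τ z := by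
  have hτ0 := s48eis_ne_zero_of_im_pos hτ
  have hz0 : z ≠ 0 := by
    intro h; apply hz; rw [h]; exact zero_mem _
  have hi1 : ¬ ∃ n : ℤ, z = n := by
    have := s48eis_not_int_of_not_mem hτ hz 0
    simpa using this
  have hi2 : ¬ ∃ n : ℤ, z / τ = n := by
    have := s48eis_not_int_of_not_mem' hτ hz 0
    simpa using this
  unfold s48eis_F s48eis_G
  rw [s48eis_E1_eq_c_add_R hτ z, s48eis_E1_eq_c_add_R (s48eis_im_neg_inv hτ) (z / τ),
    s48eis_c_eq_inv_add_kap hi1, s48eis_c_eq_inv_add_kap hi2]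
  field_simp
  ring

theorem s48eis_analyticAt_Ft_zero {τ : ℂ} (hτ : 0 < τ.im) : AnalyticAt ℂ (s48eis_Ft τ hτ) 0 := by
  classical
  refine (s48eis_analyticAt_G hτ).congr ?_
  filter_upwards [(s48eis_pp τ hτ).compl_lattice_sdiff_singleton_mem_nhds 0] with z hz
  by_cases h0 : z = 0
  · rw [h0, s48eis_G_zero]
    unfold s48eis_Ft
    rw [if_pos (zero_mem _)]
  · have hzL : z ∉ (s48eis_pp τ hτ).lattice := by
      intro h
      exact hz ⟨h, h0⟩
    unfold s48eis_Ft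
    rw [if_neg hzL, s48eis_F_eq_G hτ hzL]

theorem s48eis_differentiableAt_F {τ : ℂ} (hτ : 0 < τ.im) {z0 : ℂ}
    (hz0 : z0 ∉ (s48eis_pp τ hτ).lattice) : DifferentiableAt ℂ (s48eis_F τ) z0 := by
  have h1 : DifferentiableAt ℂ (fun z => s48eis_E1 z (-τ⁻¹)) (z0 / τ) :=
    s48eis_differentiableAt_E1 (s48eis_im_neg_inv hτ) (s48eis_not_int_of_not_mem' hτ hz0)
  have h2 : DifferentiableAt ℂ (fun z : ℂ => z / τ) z0 := differentiableAt_id.div_const _
  have h3 : DifferentiableAt ℂ (fun z => s48eis_E1 (z / τ) (-τ⁻¹)) z0 :=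
    DifferentiableAt.comp (g := fun z => s48eis_E1 z (-τ⁻¹)) (f := fun z : ℂ => z / τ) z0 h1 h2
  have h4 : DifferentiableAt ℂ (fun z => s48eis_E1 z τ) z0 :=
    s48eis_differentiableAt_E1 hτ (s48eis_not_int_of_not_mem hτ hz0)
  have h5 : DifferentiableAt ℂ (fun z : ℂ => 2 * π * I * z) z0 :=
    (differentiableAt_const _).mul differentiableAt_id
  exact (h3.sub ((differentiableAt_const τ).mul h4)).sub h5

theorem s48eis_analyticAt_Ft {τ : ℂ} (hτ : 0 < τ.im) (x : ℂ) : AnalyticAt ℂ (s48eis_Ft τ hτ) x := by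
  classical
  by_cases hx : x ∈ (s48eis_pp τ hτ).lattice
  · have h0 := s48eis_analyticAt_Ft_zero hτ
    have hsub : AnalyticAt ℂ (fun z : ℂ => z - x) x := analyticAt_id.sub analyticAt_const
    have hcomp : AnalyticAt ℂ (fun z => s48eis_Ft τ hτ (z - x)) x :=
      AnalyticAt.comp_of_eq (f := fun z : ℂ => z - x) h0 hsub (by simp)
    refine hcomp.congr (Filter.Eventually.of_forall fun z => ?_)
    have := s48eis_Ft_add_lattice hτ (z - x) x hx
    rw [sub_add_cancel] at this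
    exact this.symm
  · have hopen : IsOpen ((s48eis_pp τ hτ).lattice : Set ℂ)ᶜ :=
      (s48eis_pp τ hτ).isClosed_lattice.isOpen_compl
    have hd : DifferentiableOn ℂ (s48eis_F τ) ((s48eis_pp τ hτ).lattice : Set ℂ)ᶜ := fun z hz =>
      (s48eis_differentiableAt_F hτ hz).differentiableWithinAt
    have ha : AnalyticAt ℂ (s48eis_F τ) x := hd.analyticAt (hopen.mem_nhds hx)
    refine ha.congr ?_
    filter_upwards [hopen.mem_nhds hx] with z hz
    have hz' : z ∉ (s48eis_pp τ hτ).lattice := hz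
    unfold s48eis_Ft
    rw [if_neg hz']

theorem s48eis_Ft_eq_zero {τ : ℂ} (hτ : 0 < τ.im) (z : ℂ) : s48eis_Ft τ hτ z = 0 := by
  classical
  have hd : Differentiable ℂ (s48eis_Ft τ hτ) := fun x => (s48eis_analyticAt_Ft hτ x).differentiableAt
  have hb := (IsZLattice.isCompact_range_of_periodic (s48eis_pp τ hτ).lattice _ hd.continuous
    (fun z w hw => s48eis_Ft_add_lattice hτ z w hw)).isBounded
  have h := hd.apply_eq_apply_of_bounded hb z 0
  rw [h]
  unfold s48eis_Ft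
  rw [if_pos (zero_mem _)]

/-- **The `S`-law**: `E₁(z/τ, -1/τ) = τ·E₁(z, τ) + 2πi·z` for `z ∉ ℤ + ℤτ`. -/
theorem s48eis_E1_S {τ : ℂ} (hτ : 0 < τ.im) {z : ℂ} (hz : ∀ m n : ℤ, z ≠ m + n * τ) :
    s48eis_E1 (z / τ) (-τ⁻¹) = τ * s48eis_E1 z τ + 2 * π * I * z := by
  classical
  have hzL : z ∉ (s48eis_pp τ hτ).lattice := by
    rw [s48eis_mem_lattice]
    rintro ⟨m, n, h⟩
    exact hz m n h
  have h := s48eis_Ft_eq_zero hτ z
  unfold s48eis_Ft at h
  rw [if_neg hzL] at h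
  unfold s48eis_F at h
  linear_combination h

end Fermat.Agent.Lib.S48
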