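/-
DS-1 (S48), wall [T4] = [EIS-1], part 4 (owner: helper5).

Division values `h_a(τ) = E₁((a₀τ + a₁)/N, τ) + 2πi·a₀/N` (`a ∈ ℤ²`, set to `0` if `a ≡ 0 mod N`)
and their transformation law under `SL(2, ℤ)`:  `h_a ∣[1] γ = h_{a·γ}`, and `h_{a + N·k} = h_a`.
-/
import Mathlib
import Fermat.Agent.Lib.S48.Eis1S

set_option autoImplicit false

noncomputable section

namespace Fermat.Agent.Lib.S48

open UpperHalfPlane hiding I
open Complex Filter Topology Matrix ModularForm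
open scoped Real MatrixGroups

/-- The division point `(a₀ τ + a₁)/N`. -/
def s48eis_zdiv (N : ℕ) (a : Fin 2 → ℤ) (τ : ℂ) : ℂ := (a 0 * τ + a 1) / N

/-- `a ≡ 0 mod N`. -/
def s48eis_bad (N : ℕ) (a : Fin 2 → ℤ) : Prop := (N : ℤ) ∣ a 0 ∧ (N : ℤ) ∣ a 1

/-- The division value `h_a(τ)`. -/
def s48eis_h (N : ℕ) (a : Fin 2 → ℤ) (τ : ℂ) : ℂ :=
  letI := Classical.propDecidable
  if s48eis_bad N a then 0 else s48eis_E1 (s48eis_zdiv N a τ) τ + 2 * π * I * a 0 / N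

theorem s48eis_zdiv_not_lattice {N : ℕ} [NeZero N] {a : Fin 2 → ℤ} (ha : ¬ s48eis_bad N a) {τ : ℂ}
    (hτ : 0 < τ.im) (m n : ℤ) : s48eis_zdiv N a τ ≠ m + n * τ := by
  intro h
  apply ha
  have hN : (N : ℂ) ≠ 0 := Nat.cast_ne_zero.mpr (NeZero.ne N)
  unfold s48eis_zdiv at h
  rw [div_eq_iff hN] at h
  have h1 : ((a 0 - N * n : ℤ) : ℂ) * τ = ((N * m - a 1 : ℤ) : ℂ) := by
    push_cast; linear_combination h
  have him := congrArg Complex.im h1
  rw [Complex.mul_im] at him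
  simp only [Complex.intCast_re, Complex.intCast_im, zero_mul, add_zero] at him
  have h0 : ((a 0 - N * n : ℤ) : ℝ) = 0 := by
    rcases mul_eq_zero.mp him with h | h
    · exact h
    · exact absurd h hτ.ne'
  have h0' : a 0 - N * n = 0 := by exact_mod_cast h0
  rw [h0'] at h1
  simp only [Int.cast_zero, zero_mul] at h1
  have h1' : (N : ℤ) * m - a 1 = 0 := by exact_mod_cast h1.symm
  exact ⟨⟨n, by linarith⟩, ⟨m, by linarith⟩⟩

/-! ### The `S`- and `T`-laws -/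

theorem s48eis_bad_S (N : ℕ) (a : Fin 2 → ℤ) : s48eis_bad N ![a 1, -a 0] ↔ s48eis_bad N a := by
  unfold s48eis_bad
  simp only [Matrix.cons_val_zero, Matrix.cons_val_one, dvd_neg]
  exact and_comm

theorem s48eis_h_S (N : ℕ) [NeZero N] (a : Fin 2 → ℤ) {τ : ℂ} (hτ : 0 < τ.im) :
    s48eis_h N a (-τ⁻¹) = τ * s48eis_h N ![a 1, -a 0] τ := by
  classical
  have hN : (N : ℂ) ≠ 0 := Nat.cast_ne_zero.mpr (NeZero.ne N)
  have hτ0 := s48eis_ne_zero_of_im_pos hτ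
  unfold s48eis_h
  by_cases hb : s48eis_bad N a
  · rw [if_pos hb, if_pos ((s48eis_bad_S N a).mpr hb), mul_zero]
  · have hb' : ¬ s48eis_bad N ![a 1, -a 0] := fun h => hb ((s48eis_bad_S N a).mp h)
    rw [if_neg hb, if_neg hb']
    have hz : s48eis_zdiv N a (-τ⁻¹) = s48eis_zdiv N ![a 1, -a 0] τ / τ := by
      unfold s48eis_zdiv
      simp only [Matrix.cons_val_zero, Matrix.cons_val_one]
      push_cast
      field_simp
      ring
    rw [hz, s48eis_E1_S hτ (s48eis_zdiv_not_lattice hb' hτ)]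
    unfold s48eis_zdiv
    simp only [Matrix.cons_val_zero, Matrix.cons_val_one]
    push_cast
    field_simp
    ring

theorem s48eis_bad_T (N : ℕ) (a : Fin 2 → ℤ) : s48eis_bad N ![a 0, a 0 + a 1] ↔ s48eis_bad N a := by
  unfold s48eis_bad
  simp only [Matrix.cons_val_zero, Matrix.cons_val_one]
  constructor
  · rintro ⟨h0, h1⟩
    exact ⟨h0, (Int.dvd_add_right h0).mp h1⟩
  · rintro ⟨h0, h1⟩
    exact ⟨h0, dvd_add h0 h1⟩

theorem s48eis_h_T (N : ℕ) (a : Fin 2 → ℤ) (τ : ℂ) :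
    s48eis_h N a (τ + 1) = s48eis_h N ![a 0, a 0 + a 1] τ := by
  classical
  unfold s48eis_h
  by_cases hb : s48eis_bad N a
  · rw [if_pos hb, if_pos ((s48eis_bad_T N a).mpr hb)]
  · have hb' : ¬ s48eis_bad N ![a 0, a 0 + a 1] := fun h => hb ((s48eis_bad_T N a).mp h)
    rw [if_neg hb, if_neg hb', s48eis_E1_tau_add_one]
    have hz : s48eis_zdiv N a (τ + 1) = s48eis_zdiv N ![a 0, a 0 + a 1] τ := by
      unfold s48eis_zdiv
      simp only [Matrix.cons_val_zero, Matrix.cons_val_one]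
      push_cast
      ring
    rw [hz]
    simp only [Matrix.cons_val_zero]

/-! ### Periodicity in `a` -/

theorem s48eis_bad_add (N : ℕ) (a k : Fin 2 → ℤ) :
    s48eis_bad N (a + (N : ℤ) • k) ↔ s48eis_bad N a := by
  unfold s48eis_bad
  simp only [Pi.add_apply, Pi.smul_apply, smul_eq_mul]
  constructor
  · rintro ⟨h0, h1⟩
    exact ⟨(Int.dvd_add_left (dvd_mul_right _ _)).mp h0, (Int.dvd_add_left (dvd_mul_right _ _)).mp h1⟩
  · rintro ⟨h0, h1⟩
    exact ⟨dvd_add h0 (dvd_mul_right _ _), dvd_add h1 (dvd_mul_right _ _)⟩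

theorem s48eis_h_add (N : ℕ) [NeZero N] (a k : Fin 2 → ℤ) {τ : ℂ} (hτ : 0 < τ.im) :
    s48eis_h N (a + (N : ℤ) • k) τ = s48eis_h N a τ := by
  classical
  have hN : (N : ℂ) ≠ 0 := Nat.cast_ne_zero.mpr (NeZero.ne N)
  unfold s48eis_h
  by_cases hb : s48eis_bad N a
  · rw [if_pos hb, if_pos ((s48eis_bad_add N a k).mpr hb)]
  · have hb' : ¬ s48eis_bad N (a + (N : ℤ) • k) := fun h => hb ((s48eis_bad_add N a k).mp h)
    rw [if_neg hb, if_neg hb']
    have hz : s48eis_zdiv N (a + (N : ℤ) • k) τ = s48eis_zdiv N a τ + (k 0 : ℤ) * τ + (k 1 : ℤ) := by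
      unfold s48eis_zdiv
      simp only [Pi.add_apply, Pi.smul_apply, smul_eq_mul]
      push_cast
      field_simp
      ring
    rw [hz, s48eis_E1_add_lattice hτ]
    simp only [Pi.add_apply, Pi.smul_apply, smul_eq_mul]
    push_cast
    field_simp
    ring

/-! ### The slash action of `SL(2, ℤ)` -/

/-- `h_a` as a function on `ℍ`. -/
def s48eis_H (N : ℕ) (a : Fin 2 → ℤ) : ℍ → ℂ := fun τ => s48eis_h N a (τ : ℂ)

theorem s48eis_vecMul_S (a : Fin 2 → ℤ) :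
    a ᵥ* (ModularGroup.S : Matrix (Fin 2) (Fin 2) ℤ) = ![a 1, -a 0] := by
  ext i
  fin_cases i <;> simp [ModularGroup.S, Matrix.vecMul, dotProduct, Fin.sum_univ_two]

theorem s48eis_vecMul_T (a : Fin 2 → ℤ) :
    a ᵥ* (ModularGroup.T : Matrix (Fin 2) (Fin 2) ℤ) = ![a 0, a 0 + a 1] := by
  ext i
  fin_cases i <;> simp [ModularGroup.T, Matrix.vecMul, dotProduct, Fin.sum_univ_two]

theorem s48eis_H_slash_S (N : ℕ) [NeZero N] (a : Fin 2 → ℤ) :
    s48eis_H N a ∣[(1 : ℤ)] ModularGroup.S = s48eis_H N ![a 1, -a 0] := by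
  ext τ
  rw [SL_slash_apply, ModularGroup.denom_S, UpperHalfPlane.modular_S_smul]
  unfold s48eis_H
  have hτ0 : (τ : ℂ) ≠ 0 := UpperHalfPlane.ne_zero τ
  have hc : ((UpperHalfPlane.mk (-(τ : ℂ))⁻¹ τ.im_inv_neg_coe_pos : ℍ) : ℂ) = -(τ : ℂ)⁻¹ := by
    rw [UpperHalfPlane.coe_mk, inv_neg]
  rw [hc, s48eis_h_S N a τ.im_pos]
  rw [_root_.zpow_neg, zpow_one]
  field_simp

theorem s48eis_H_slash_T (N : ℕ) (a : Fin 2 → ℤ) :
    s48eis_H N a ∣[(1 : ℤ)] ModularGroup.T = s48eis_H N ![a 0, a 0 + a 1] := by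
  ext τ
  rw [SL_slash_apply, UpperHalfPlane.modular_T_smul]
  unfold s48eis_H
  have hd : UpperHalfPlane.denom (ModularGroup.T : SL(2, ℤ)) (τ : ℂ) = 1 := by
    rw [ModularGroup.denom_apply]
    simp [ModularGroup.T]
  have hc : (((1 : ℝ) +ᵥ τ : ℍ) : ℂ) = (τ : ℂ) + 1 := by
    rw [UpperHalfPlane.coe_vadd]; push_cast; ring
  rw [hc, s48eis_h_T]
  simp [hd]

/-- **The transformation law of the division values**: `h_a ∣[1] γ = h_{a·γ}`. -/
theorem s48eis_H_slash (N : ℕ) [NeZero N] (γ : SL(2, ℤ)) :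
    ∀ a : Fin 2 → ℤ, s48eis_H N a ∣[(1 : ℤ)] γ = s48eis_H N (a ᵥ* (γ : Matrix (Fin 2) (Fin 2) ℤ)) := by
  have hγ : γ ∈ Subgroup.closure {ModularGroup.S, ModularGroup.T} := by
    simp [SpecialLinearGroup.SL2Z_generators]
  induction hγ using Subgroup.closure_induction with
  | one =>
    intro a
    have h1 : ((1 : SL(2, ℤ)) : Matrix (Fin 2) (Fin 2) ℤ) = 1 := rfl
    rw [SlashAction.slash_one, h1, Matrix.vecMul_one]
  | mem g hg =>
    intro a
    simp only [Set.mem_insert_iff, Set.mem_singleton_iff] at hg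
    rcases hg with rfl | rfl
    · rw [s48eis_H_slash_S, s48eis_vecMul_S]
    · rw [s48eis_H_slash_T, s48eis_vecMul_T]
  | mul g h _ _ ig ih =>
    intro a
    have h1 : ((g * h : SL(2, ℤ)) : Matrix (Fin 2) (Fin 2) ℤ) =
        (g : Matrix (Fin 2) (Fin 2) ℤ) * (h : Matrix (Fin 2) (Fin 2) ℤ) := rfl
    rw [SlashAction.slash_mul, ig, ih, h1, Matrix.vecMul_vecMul]
  | inv g _ ig =>
    intro a
    have h1 := ig (a ᵥ* ((g⁻¹ : SL(2, ℤ)) : Matrix (Fin 2) (Fin 2) ℤ))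
    have h2 : (a ᵥ* ((g⁻¹ : SL(2, ℤ)) : Matrix (Fin 2) (Fin 2) ℤ)) ᵥ*
        (g : Matrix (Fin 2) (Fin 2) ℤ) = a := by
      have h3 : ((g⁻¹ : SL(2, ℤ)) : Matrix (Fin 2) (Fin 2) ℤ) * (g : Matrix (Fin 2) (Fin 2) ℤ) =
          1 := by
        have h4 : ((g⁻¹ * g : SL(2, ℤ)) : Matrix (Fin 2) (Fin 2) ℤ) = 1 := by
          rw [inv_mul_cancel]; rfl
        exact h4
      rw [Matrix.vecMul_vecMul, h3, Matrix.vecMul_one]
    rw [h2] at h1
    rw [← h1, ← SlashAction.slash_mul, mul_inv_cancel, SlashAction.slash_one]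

end Fermat.Agent.Lib.S48
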