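/-
DS-1 (S48), wall [T4] = [EIS-1], part 5 (owner: helper5).

The division values `h_a(τ)` are holomorphic on the upper half plane and bounded at `i∞`.
-/
import Mathlib
import Fermat.Agent.Lib.S48.Eis1Div

set_option autoImplicit false

noncomputable section

namespace Fermat.Agent.Lib.S48

open UpperHalfPlane hiding I
open Complex Filter Topology Matrix ModularForm
open scoped Real MatrixGroups Manifold

/-! ### Holomorphy in `τ` -/

theorem s48eis_zdiv_add_not_int {N : ℕ} [NeZero N] {a : Fin 2 → ℤ} (ha : ¬ s48eis_bad N a) {τ : ℂ}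
    (hτ : 0 < τ.im) (m : ℤ) : ¬ ∃ n : ℤ, s48eis_zdiv N a τ + m * τ = n := by
  rintro ⟨n, hn⟩
  exact s48eis_zdiv_not_lattice ha hτ n (-m) (by push_cast; linear_combination hn)

theorem s48eis_differentiableAt_term_tau {N : ℕ} [NeZero N] {a : Fin 2 → ℤ}
    (ha : ¬ s48eis_bad N a) {τ0 : ℂ} (hτ0 : 0 < τ0.im) (m : ℤ) :
    DifferentiableAt ℂ (fun τ => s48eis_term (s48eis_zdiv N a τ) τ m) τ0 := by
  unfold s48eis_term
  have h1 : DifferentiableAt ℂ (fun τ : ℂ => s48eis_zdiv N a τ + m * τ) τ0 := by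
    unfold s48eis_zdiv
    fun_prop
  have h2 : DifferentiableAt ℂ s48eis_c (s48eis_zdiv N a τ0 + m * τ0) :=
    s48eis_differentiableAt_c (s48eis_zdiv_add_not_int ha hτ0 m)
  exact (DifferentiableAt.comp (g := s48eis_c) (f := fun τ : ℂ => s48eis_zdiv N a τ + m * τ)
    τ0 h2 h1).add_const _

theorem s48eis_zdiv_im (N : ℕ) (a : Fin 2 → ℤ) (τ : ℂ) :
    (s48eis_zdiv N a τ).im = a 0 * τ.im / N := by
  unfold s48eis_zdiv
  have : ((a 0 : ℂ) * τ + a 1) / (N : ℂ) = (((N : ℝ)⁻¹ : ℝ) : ℂ) * ((a 0 : ℂ) * τ + a 1) := by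
    push_cast; rw [div_eq_inv_mul]
  rw [this, Complex.im_ofReal_mul]
  simp only [Complex.add_im, Complex.mul_im, Complex.intCast_re, Complex.intCast_im, zero_mul,
    add_zero]
  ring

theorem s48eis_good_mono {τ σ : ℂ} {B : ℝ} {m : ℤ} (h : σ.im ≤ τ.im)
    (hg : s48eis_good σ B m) : s48eis_good τ B m := by
  unfold s48eis_good at hg ⊢
  have hpi := Real.pi_pos
  have h1 : Real.exp (-(2 * π * τ.im) * |(m : ℝ)|) ≤ Real.exp (-(2 * π * σ.im) * |(m : ℝ)|) := by
    apply Real.exp_le_exp.mpr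
    have := abs_nonneg (m : ℝ)
    nlinarith [mul_le_mul_of_nonneg_right h this]
  calc Real.exp (2 * π * B) * Real.exp (-(2 * π * τ.im) * |(m : ℝ)|)
      ≤ Real.exp (2 * π * B) * Real.exp (-(2 * π * σ.im) * |(m : ℝ)|) :=
        mul_le_mul_of_nonneg_left h1 (Real.exp_pos _).le
    _ ≤ 1 / 2 := hg

theorem s48eis_maj_mono {τ σ : ℂ} {B : ℝ} {m : ℤ} (h : σ.im ≤ τ.im) :
    s48eis_maj τ B m ≤ s48eis_maj σ B m := by
  unfold s48eis_maj
  have hpi := Real.pi_pos
  have h1 : Real.exp (-(2 * π * τ.im) * |(m : ℝ)|) ≤ Real.exp (-(2 * π * σ.im) * |(m : ℝ)|) := by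
    apply Real.exp_le_exp.mpr
    have := abs_nonneg (m : ℝ)
    nlinarith [mul_le_mul_of_nonneg_right h this]
  exact mul_le_mul_of_nonneg_left h1 (by positivity)

/-- The division values are holomorphic on the upper half plane. -/
theorem s48eis_differentiableAt_h (N : ℕ) [NeZero N] (a : Fin 2 → ℤ) {τ0 : ℂ}
    (hτ0 : 0 < τ0.im) : DifferentiableAt ℂ (s48eis_h N a) τ0 := by
  classical
  by_cases hb : s48eis_bad N a
  · have : s48eis_h N a = fun _ => 0 := by
      funext τ; unfold s48eis_h; rw [if_pos hb]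
    rw [this]; exact differentiableAt_const _
  have hNpos : (0 : ℝ) < N := Nat.cast_pos.mpr (Nat.pos_of_ne_zero (NeZero.ne N))
  set δ : ℝ := τ0.im / 2 with hδ
  have hδpos : 0 < δ := by rw [hδ]; linarith
  set σ : ℂ := ⟨0, δ⟩ with hσ
  have hσim : σ.im = δ := rfl
  set B : ℝ := |(a 0 : ℝ)| * (τ0.im + 1) / N with hB
  set V : Set ℂ := {τ : ℂ | δ < τ.im ∧ τ.im < τ0.im + 1} with hV
  have hVo : IsOpen V :=
    (isOpen_lt continuous_const Complex.continuous_im).inter
      (isOpen_lt Complex.continuous_im continuous_const)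
  have hτ0V : τ0 ∈ V := ⟨by rw [hδ]; linarith, by linarith⟩
  have hVpos : ∀ τ ∈ V, 0 < τ.im := fun τ hτ => lt_trans hδpos hτ.1
  have hzB : ∀ τ ∈ V, |(s48eis_zdiv N a τ).im| ≤ B := by
    intro τ hτ
    rw [s48eis_zdiv_im, abs_div, abs_mul, abs_of_pos hNpos, abs_of_pos (hVpos τ hτ), hB]
    apply div_le_div_of_nonneg_right _ hNpos.le
    exact mul_le_mul_of_nonneg_left hτ.2.le (abs_nonneg _)
  have hfin : {m : ℤ | ¬ s48eis_good σ B m}.Finite := by
    have := s48eis_good_eventually (τ := σ) (by rw [hσim]; exact hδpos) B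
    rwa [Filter.eventually_cofinite] at this
  set s : Finset ℤ := hfin.toFinset with hs
  have hmem : ∀ m, m ∉ s → s48eis_good σ B m := by
    intro m hm
    by_contra hg
    exact hm (by rw [hs, Set.Finite.mem_toFinset]; exact hg)
  set T : ℂ → ℂ := fun τ => ∑' m : ℤ, if m ∈ s then 0 else
    s48eis_term (s48eis_zdiv N a τ) τ m with hT
  have hEq : ∀ τ ∈ V, s48eis_h N a τ =
      ∑ m ∈ s, s48eis_term (s48eis_zdiv N a τ) τ m + T τ + 2 * π * I * a 0 / N := by
    intro τ hτ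
    unfold s48eis_h
    rw [if_neg hb]
    congr 1
    exact s48eis_tsum_split _ (s48eis_summable_term (hVpos τ hτ) _) s
  have hTd : DifferentiableOn ℂ T V := by
    apply differentiableOn_tsum_of_summable_norm
      (s48eis_summable_maj (τ := σ) (by rw [hσim]; exact hδpos) B) _ hVo
    · intro m τ hτ
      by_cases h1 : m ∈ s
      · simp only [h1, if_true, norm_zero]; exact s48eis_maj_nonneg _ _ _
      · simp only [h1, if_false]
        have hle : σ.im ≤ τ.im := by rw [hσim]; exact hτ.1.le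
        exact (s48eis_term_bound (hVpos τ hτ) (hzB τ hτ)
          (s48eis_good_mono hle (hmem m h1))).trans (s48eis_maj_mono hle)
    · intro m
      by_cases h1 : m ∈ s
      · simp only [h1, if_true]; exact differentiableOn_const _
      · simp only [h1, if_false]
        intro τ hτ
        exact (s48eis_differentiableAt_term_tau hb (hVpos τ hτ) m).differentiableWithinAt
  have hmain : DifferentiableAt ℂ (fun τ =>
      ∑ m ∈ s, s48eis_term (s48eis_zdiv N a τ) τ m + T τ + 2 * π * I * a 0 / N) τ0 := by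
    apply DifferentiableAt.add_const
    apply DifferentiableAt.add
    · apply DifferentiableAt.fun_sum
      intro m _
      exact s48eis_differentiableAt_term_tau hb hτ0 m
    · exact (hTd τ0 hτ0V).differentiableAt (hVo.mem_nhds hτ0V)
  refine hmain.congr_of_eventuallyEq ?_
  filter_upwards [hVo.mem_nhds hτ0V] with τ hτ
  exact hEq τ hτ

/-- `H_a` is holomorphic on `ℍ`. -/
theorem s48eis_mdifferentiable_H (N : ℕ) [NeZero N] (a : Fin 2 → ℤ) :
    MDifferentiable 𝓘(ℂ) 𝓘(ℂ) (s48eis_H N a) := by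
  rw [UpperHalfPlane.mdifferentiable_iff]
  intro τ hτ
  have hτ' : 0 < τ.im := hτ
  have h1 : DifferentiableAt ℂ (s48eis_h N a) τ := s48eis_differentiableAt_h N a hτ'
  refine (h1.congr_of_eventuallyEq ?_).differentiableWithinAt
  have hopen : IsOpen {z : ℂ | 0 < z.im} := isOpen_lt continuous_const Complex.continuous_im
  filter_upwards [hopen.mem_nhds hτ'] with z hz
  simp only [Function.comp_apply, s48eis_H]
  rw [UpperHalfPlane.ofComplex_apply_of_im_pos hz]

/-! ### Boundedness at `i∞` -/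

theorem s48eis_exp_neg_le_half {x : ℝ} (hx : 1 ≤ x) : Real.exp (-x) ≤ 1 / 2 := by
  rw [Real.exp_neg, inv_eq_one_div]
  apply div_le_div_of_nonneg_left (by norm_num) (by norm_num)
  linarith [Real.add_one_le_exp x]

/-- The constant majorant `4π e^{-2π|m|}`. -/
def s48eis_cmaj (m : ℤ) : ℝ := 4 * π * Real.exp (-(2 * π) * |(m : ℝ)|)

theorem s48eis_summable_cmaj : Summable s48eis_cmaj := by
  unfold s48eis_cmaj
  exact (s48eis_summable_exp_neg_abs (a := 2 * π) (by positivity)).mul_left _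

theorem s48eis_h_bound_reduced (N : ℕ) [NeZero N] (a : Fin 2 → ℤ) (ha : ¬ s48eis_bad N a)
    (h0 : 0 ≤ a 0) (h1 : a 0 < N) :
    ∀ τ : ℂ, (N : ℝ) ≤ τ.im →
      ‖s48eis_h N a τ‖ ≤ ‖s48eis_c ((a 1 : ℂ) / N)‖ + 3 * π + (∑' m, s48eis_cmaj m) + 2 * π := by
  classical
  intro τ hτN
  have hpi := Real.pi_pos
  have hN1 : (1 : ℝ) ≤ N := by exact_mod_cast Nat.one_le_iff_ne_zero.mpr (NeZero.ne N)
  have hNpos : (0 : ℝ) < N := by linarith
  have hτ : 0 < τ.im := by linarith
  have ha0 : (0 : ℝ) ≤ (a 0 : ℝ) := by exact_mod_cast h0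
  have ha1 : (a 0 : ℝ) ≤ N - 1 := by
    have : a 0 ≤ (N : ℤ) - 1 := by omega
    exact_mod_cast this
  set z := s48eis_zdiv N a τ with hz
  have hzim : z.im = a 0 * τ.im / N := s48eis_zdiv_im N a τ
  have hzabs : |z.im| = a 0 * τ.im / N := by
    rw [hzim]; exact abs_of_nonneg (by positivity)
  unfold s48eis_h
  rw [if_neg ha, s48eis_E1_eq_sum_add hτ {0} z, Finset.sum_singleton]
  -- the three pieces
  have hp1 : ‖s48eis_term z τ 0‖ ≤ ‖s48eis_c ((a 1 : ℂ) / N)‖ + 3 * π := by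
    have hterm : s48eis_term z τ 0 = s48eis_c z := by
      unfold s48eis_term; simp
    rw [hterm]
    by_cases h00 : a 0 = 0
    · have : z = (a 1 : ℂ) / N := by
        rw [hz]; unfold s48eis_zdiv; rw [h00]; simp
      rw [this]; linarith [norm_nonneg (s48eis_c ((a 1 : ℂ) / N))]
    · have h01 : (1 : ℝ) ≤ (a 0 : ℝ) := by
        have : (1 : ℤ) ≤ a 0 := by omega
        exact_mod_cast this
      have him : 1 ≤ z.im := by
        rw [hzim, le_div_iff₀ hNpos]
        nlinarith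
      have hr : ‖s48eis_r z‖ ≤ 1 / 2 := by
        rw [s48eis_norm_r]
        have : -2 * π * z.im = -(2 * π * z.im) := by ring
        rw [this]
        apply s48eis_exp_neg_le_half
        nlinarith [Real.pi_gt_three]
      have hb := s48eis_norm_c_add_le z hr
      have : ‖s48eis_c z‖ ≤ ‖s48eis_c z + π * I‖ + ‖(π * I : ℂ)‖ := by
        have := norm_sub_le (s48eis_c z + π * I) (π * I)
        simpa using this
      have hpiI : ‖(π * I : ℂ)‖ = π := by
        simp [abs_of_pos hpi]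
      rw [hpiI] at this
      have hnn := norm_nonneg (s48eis_c ((a 1 : ℂ) / N))
      nlinarith [norm_nonneg (s48eis_r z)]
  have hp2 : ‖s48eis_E1ex {0} z τ‖ ≤ ∑' m, s48eis_cmaj m := by
    unfold s48eis_E1ex
    apply tsum_of_norm_bounded s48eis_summable_cmaj.hasSum
    intro m
    by_cases hm : m ∈ ({0} : Finset ℤ)
    · rw [if_pos hm, norm_zero]; unfold s48eis_cmaj; positivity
    · rw [if_neg hm]
      have hm0 : m ≠ 0 := by simpa using hm
      have hm1 : (1 : ℝ) ≤ |(m : ℝ)| := by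
        have : (1 : ℤ) ≤ |m| := Int.one_le_abs hm0
        have h3 : ((1 : ℤ) : ℝ) ≤ ((|m| : ℤ) : ℝ) := by exact_mod_cast this
        simpa using h3
      -- the key exponent inequality
      have hkey : 2 * π * (a 0 * τ.im / N) + -(2 * π * τ.im) * |(m : ℝ)| ≤
          -(2 * π) * |(m : ℝ)| := by
        have e1 : (a 0 : ℝ) * τ.im / N ≤ τ.im - τ.im / N := by
          rw [div_le_iff₀ hNpos]
          have : (τ.im - τ.im / N) * N = τ.im * N - τ.im := by field_simp
          rw [this]; nlinarith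
        have e2 : 1 ≤ τ.im / N := by rw [le_div_iff₀ hNpos]; linarith
        have e3 : τ.im * |(m : ℝ)| - (τ.im - τ.im / N) ≥ |(m : ℝ)| := by
          nlinarith [mul_nonneg (sub_nonneg.mpr hτN) (sub_nonneg.mpr hm1),
            mul_nonneg (sub_nonneg.mpr hN1) (sub_nonneg.mpr hm1)]
        nlinarith
      have hgood : s48eis_good τ (a 0 * τ.im / N) m := by
        unfold s48eis_good
        rw [← Real.exp_add]
        have : Real.exp (2 * π * (a 0 * τ.im / N) + -(2 * π * τ.im) * |(m : ℝ)|) ≤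
            Real.exp (-(2 * π * |(m : ℝ)|)) := by
          apply Real.exp_le_exp.mpr; linarith
        refine this.trans (s48eis_exp_neg_le_half ?_)
        nlinarith [Real.pi_gt_three]
      refine (s48eis_term_bound hτ (le_of_eq hzabs) hgood).trans ?_
      unfold s48eis_maj s48eis_cmaj
      rw [mul_assoc, ← Real.exp_add]
      apply mul_le_mul_of_nonneg_left _ (by positivity)
      exact Real.exp_le_exp.mpr hkey
  have hp3 : ‖(2 * π * I * a 0 / N : ℂ)‖ ≤ 2 * π := by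
    rw [norm_div, norm_mul, s48eis_norm_two_pi_I]
    have e1 : ‖((a 0 : ℤ) : ℂ)‖ = (a 0 : ℝ) := by
      rw [Complex.norm_intCast]; exact abs_of_nonneg ha0
    have e2 : ‖((N : ℕ) : ℂ)‖ = (N : ℝ) := Complex.norm_natCast N
    rw [e1, e2, div_le_iff₀ hNpos]
    nlinarith
  calc ‖s48eis_term z τ 0 + s48eis_E1ex {0} z τ + 2 * π * I * a 0 / N‖
      ≤ ‖s48eis_term z τ 0‖ + ‖s48eis_E1ex {0} z τ‖ + ‖(2 * π * I * a 0 / N : ℂ)‖ :=
        norm_add₃_le
    _ ≤ _ := by linarith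

/-- `H_b = H_a` if `b ≡ a mod N`. -/
theorem s48eis_H_congr (N : ℕ) [NeZero N] (a b : Fin 2 → ℤ) (h : ∀ i, (N : ℤ) ∣ b i - a i) :
    s48eis_H N b = s48eis_H N a := by
  have hN : (N : ℤ) ≠ 0 := by exact_mod_cast NeZero.ne N
  have hb : b = a + (N : ℤ) • (fun i => (b i - a i) / N) := by
    funext i
    simp only [Pi.add_apply, Pi.smul_apply, smul_eq_mul]
    rw [Int.mul_ediv_cancel' (h i)]; ring
  funext τ
  unfold s48eis_H
  rw [hb, s48eis_h_add N a _ τ.im_pos]

theorem s48eis_isBoundedAtImInfty_H (N : ℕ) [NeZero N] (a : Fin 2 → ℤ) :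
    IsBoundedAtImInfty (s48eis_H N a) := by
  classical
  rw [UpperHalfPlane.isBoundedAtImInfty_iff]
  by_cases hb : s48eis_bad N a
  · refine ⟨0, 0, fun z _ => ?_⟩
    unfold s48eis_H s48eis_h
    rw [if_pos hb, norm_zero]
  · have hN : (N : ℤ) ≠ 0 := by exact_mod_cast NeZero.ne N
    have hNpos : (0 : ℤ) < N := by exact_mod_cast Nat.pos_of_ne_zero (NeZero.ne N)
    set a' : Fin 2 → ℤ := ![a 0 % N, a 1] with ha'
    have hcong : s48eis_H N a = s48eis_H N a' := by
      apply s48eis_H_congr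
      intro i
      fin_cases i
      · simp only [ha', Fin.zero_eta, Matrix.cons_val_zero]
        exact ⟨a 0 / N, by have := Int.emod_add_mul_ediv (a 0) N; linarith⟩
      · simp [ha']
    have hb' : ¬ s48eis_bad N a' := by
      intro h
      apply hb
      unfold s48eis_bad at h ⊢
      simp only [ha', Matrix.cons_val_zero, Matrix.cons_val_one] at h
      exact ⟨(Int.dvd_iff_emod_eq_zero).mpr (by
        have := (Int.dvd_iff_emod_eq_zero).mp h.1
        rwa [Int.emod_emod_of_dvd _ (dvd_refl _)] at this), h.2⟩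
    have hbound := s48eis_h_bound_reduced N a' hb'
      (by simp only [ha', Matrix.cons_val_zero]; exact Int.emod_nonneg _ hN)
      (by simp only [ha', Matrix.cons_val_zero]; exact Int.emod_lt_of_pos _ hNpos)
    refine ⟨‖s48eis_c ((a' 1 : ℂ) / N)‖ + 3 * π + (∑' m, s48eis_cmaj m) + 2 * π, N,
      fun z hz => ?_⟩
    rw [hcong]
    exact hbound z hz

/-! ### The modular forms `H_{(0,a₂)}` on `Γ₁(N)` -/

theorem s48eis_vecMul_zero_a (a2 : ℤ) (γ : SL(2, ℤ)) :
    ![0, a2] ᵥ* (γ : Matrix (Fin 2) (Fin 2) ℤ) = ![a2 * γ 1 0, a2 * γ 1 1] := by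
  ext i
  fin_cases i <;> simp [Matrix.vecMul, dotProduct, Fin.sum_univ_two]

/-- For `γ ∈ Γ₀(N)`: `H_{(0,a₂)} ∣[1] γ = H_{(0, a₂·d)}`. -/
theorem s48eis_H_slash_Gamma0 (N : ℕ) [NeZero N] (a2 : ℤ) {γ : SL(2, ℤ)}
    (hγ : γ ∈ CongruenceSubgroup.Gamma0 N) :
    s48eis_H N ![0, a2] ∣[(1 : ℤ)] γ = s48eis_H N ![0, a2 * γ 1 1] := by
  rw [s48eis_H_slash, s48eis_vecMul_zero_a]
  apply s48eis_H_congr
  rw [CongruenceSubgroup.Gamma0_mem] at hγ
  have hc : (N : ℤ) ∣ γ 1 0 := (ZMod.intCast_zmod_eq_zero_iff_dvd _ _).mp hγ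
  intro i
  fin_cases i
  · simp only [Fin.zero_eta, Matrix.cons_val_zero, sub_zero]
    exact Dvd.dvd.mul_left hc a2
  · simp

/-- For `γ ∈ Γ₁(N)`: `H_{(0,a₂)} ∣[1] γ = H_{(0,a₂)}`. -/
theorem s48eis_H_slash_Gamma1 (N : ℕ) [NeZero N] (a2 : ℤ) {γ : SL(2, ℤ)}
    (hγ : γ ∈ CongruenceSubgroup.Gamma1 N) :
    s48eis_H N ![0, a2] ∣[(1 : ℤ)] γ = s48eis_H N ![0, a2] := by
  rw [s48eis_H_slash_Gamma0 N a2 (CongruenceSubgroup.Gamma1_in_Gamma0 N hγ)]
  apply s48eis_H_congr
  rw [CongruenceSubgroup.Gamma1_mem] at hγ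
  have hd : (N : ℤ) ∣ γ 1 1 - 1 := by
    have : ((γ 1 1 - 1 : ℤ) : ZMod N) = 0 := by push_cast; rw [hγ.2.1]; ring
    exact (ZMod.intCast_zmod_eq_zero_iff_dvd _ _).mp this
  intro i
  fin_cases i
  · simp
  · have : a2 * γ 1 1 - a2 = a2 * (γ 1 1 - 1) := by ring
    show (N : ℤ) ∣ a2 * γ 1 1 - a2
    rw [this]
    exact Dvd.dvd.mul_left hd a2

/-- `H_{(0,a₂)}` as a modular form of weight `1` on `Γ₁(N)`. -/
def s48eis_HMF (N : ℕ) [NeZero N] (a2 : ℤ) : ModularForm (CongruenceSubgroup.Gamma1 N) 1 where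
  toFun := s48eis_H N ![0, a2]
  slash_action_eq' A hA := by
    obtain ⟨γ, hγ, rfl⟩ := hA
    exact s48eis_H_slash_Gamma1 N a2 hγ
  holo' := s48eis_mdifferentiable_H N _
  bdd_at_cusps' {c} hc := by
    rw [Subgroup.IsArithmetic.isCusp_iff_isCusp_SL2Z] at hc
    rw [OnePoint.isBoundedAt_iff_forall_SL2Z hc]
    intro σ _
    rw [s48eis_H_slash]
    exact s48eis_isBoundedAtImInfty_H N _

@[simp]
theorem s48eis_HMF_apply (N : ℕ) [NeZero N] (a2 : ℤ) (τ : ℍ) :
    s48eis_HMF N a2 τ = s48eis_H N ![0, a2] τ := rfl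

end Fermat.Agent.Lib.S48
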