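/-
DS-1 (S48), wall [T4] = [EIS-1], part 6 (owner: helper5).

The `q`-expansion of the division values `H_{(0,a₂)}`:
`H_{(0,a₂)}(τ) = π cot(π a₂/N) - 2πi ∑_{n ≥ 1} (∑_{k ∣ n} (ζ^{k a₂} - ζ^{-k a₂})) qⁿ`, `ζ = e^{2πi/N}`.
-/
import Mathlib
import Fermat.Agent.Lib.S48.Eis1Hol

set_option autoImplicit false

noncomputable section

namespace Fermat.Agent.Lib.S48

open UpperHalfPlane hiding I
open Complex Filter Topology Matrix ModularForm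
open scoped Real MatrixGroups Manifold

/-! ### A Lambert series rearrangement with bounded coefficients -/

theorem s48eis_summable_prod (f : ℕ → ℂ) {C : ℝ} (hf : ∀ k, ‖f k‖ ≤ C) {r : ℂ}
    (hr : ‖r‖ < 1) : Summable fun c : ℕ+ × ℕ+ => f c.2 * r ^ (c.1 * c.2 : ℕ) := by
  have h0 := summable_prod_mul_pow (𝕜 := ℝ) 0 (r := ‖r‖) (by simpa using hr)
  have h1 : Summable fun c : ℕ+ × ℕ+ => C * ‖r‖ ^ (c.1 * c.2 : ℕ) := by
    have := h0.mul_left C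
    simpa using this
  apply Summable.of_norm_bounded h1
  intro c
  rw [norm_mul, norm_pow]
  exact mul_le_mul_of_nonneg_right (hf _) (by positivity)

theorem s48eis_lambert_term (f : ℕ → ℂ) (r : ℂ) (n : ℕ+) :
    ∑ y : Nat.divisorsAntidiagonal (n : ℕ),
      (fun c : ℕ+ × ℕ+ => f c.2 * r ^ (c.1 * c.2 : ℕ)) (sigmaAntidiagonalEquivProd ⟨n, y⟩) =
      (∑ k ∈ (n : ℕ).divisors, f k) * r ^ (n : ℕ) := by
  have hterm : ∀ y : Nat.divisorsAntidiagonal (n : ℕ),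
      (fun c : ℕ+ × ℕ+ => f c.2 * r ^ (c.1 * c.2 : ℕ)) (sigmaAntidiagonalEquivProd ⟨n, y⟩) =
        f y.1.2 * r ^ (n : ℕ) := by
    intro y
    have h1 := divisorsAntidiagonalFactors_eq y
    have h2 : (sigmaAntidiagonalEquivProd ⟨n, y⟩ : ℕ+ × ℕ+) = divisorsAntidiagonalFactors n y := rfl
    have h3 : (((divisorsAntidiagonalFactors n y).2 : ℕ+) : ℕ) = y.1.2 := rfl
    show f ((sigmaAntidiagonalEquivProd ⟨n, y⟩).2 : ℕ) *
      r ^ (((sigmaAntidiagonalEquivProd ⟨n, y⟩).1 : ℕ) * ((sigmaAntidiagonalEquivProd ⟨n, y⟩).2 : ℕ)) = _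
    have h1' : (((divisorsAntidiagonalFactors n y).1 : ℕ+) : ℕ) *
        (((divisorsAntidiagonalFactors n y).2 : ℕ+) : ℕ) = (n : ℕ) := h1
    rw [h2, h1', h3]
  simp only [hterm]
  rw [← Finset.sum_mul]
  congr 1
  rw [Finset.univ_eq_attach, (Nat.divisorsAntidiagonal (n : ℕ)).sum_attach (fun y => f y.2)]
  rw [Nat.sum_divisorsAntidiagonal' (f := fun _ y => f y)]

theorem s48eis_lambert_hasSum (f : ℕ → ℂ) {C : ℝ} (hf : ∀ k, ‖f k‖ ≤ C) {r : ℂ} (hr : ‖r‖ < 1) :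
    HasSum (fun e : ℕ+ => (∑ k ∈ (e : ℕ).divisors, f k) * r ^ (e : ℕ))
      (∑' d : ℕ+, ∑' c : ℕ+, f c * r ^ (d * c : ℕ)) := by
  have hs := s48eis_summable_prod f hf hr
  rw [← hs.tsum_prod (f := fun c : ℕ+ × ℕ+ => f c.2 * r ^ (c.1 * c.2 : ℕ))]
  rw [← sigmaAntidiagonalEquivProd.tsum_eq]
  have hs' : Summable fun x : (Σ n : ℕ+, Nat.divisorsAntidiagonal n) =>
      (fun c : ℕ+ × ℕ+ => f c.2 * r ^ (c.1 * c.2 : ℕ)) (sigmaAntidiagonalEquivProd x) :=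
    sigmaAntidiagonalEquivProd.summable_iff.mpr hs
  have h := hs'.hasSum.sigma (g := fun n : ℕ+ => (∑ k ∈ (n : ℕ).divisors, f k) * r ^ (n : ℕ))
    (fun n => by
      rw [← s48eis_lambert_term f r n]
      exact hasSum_fintype _)
  exact h

theorem s48eis_lambert (f : ℕ → ℂ) {C : ℝ} (hf : ∀ k, ‖f k‖ ≤ C) {r : ℂ} (hr : ‖r‖ < 1) :
    ∑' d : ℕ+, ∑' c : ℕ+, f c * r ^ (d * c : ℕ) =
      ∑' e : ℕ+, (∑ k ∈ (e : ℕ).divisors, f k) * r ^ (e : ℕ) :=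
  (s48eis_lambert_hasSum f hf hr).tsum_eq.symm

/-! ### Geometric expansions of `c(w) ± πi` -/

theorem s48eis_norm_r_lt_one {w : ℂ} (hw : 0 < w.im) : ‖s48eis_r w‖ < 1 := by
  rw [s48eis_norm_r, Real.exp_lt_one_iff]
  have := Real.pi_pos
  nlinarith

theorem s48eis_hasSum_pnat_geom {r : ℂ} (hr : ‖r‖ < 1) :
    HasSum (fun k : ℕ+ => r ^ (k : ℕ)) (r / (1 - r)) := by
  rw [hasSum_pnat_iff_hasSum_succ (f := fun k => r ^ k)]
  have h := (hasSum_geometric_of_norm_lt_one hr).mul_left r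
  have h2 : r * (1 - r)⁻¹ = r / (1 - r) := by rw [div_eq_mul_inv]
  rw [h2] at h
  have h3 : (fun n : ℕ => r ^ (n + 1)) = fun n => r * r ^ n := by
    funext n; rw [pow_succ']
  rw [h3]; exact h

/-- For `Im w > 0`: `c(w) + πi = -2πi ∑_{k ≥ 1} r(w)^k`. -/
theorem s48eis_c_add_hasSum {w : ℂ} (hw : 0 < w.im) :
    HasSum (fun k : ℕ+ => -(2 * π * I) * s48eis_r w ^ (k : ℕ)) (s48eis_c w + π * I) := by
  have hr := s48eis_norm_r_lt_one hw
  have hne : s48eis_r w ≠ 1 := by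
    intro h; rw [h, norm_one] at hr; exact lt_irrefl _ hr
  rw [s48eis_c_add w hne]
  have h := (s48eis_hasSum_pnat_geom hr).mul_left (-(2 * π * I))
  have : -(2 * π * I) * (s48eis_r w / (1 - s48eis_r w)) =
      -(2 * π * I) * s48eis_r w / (1 - s48eis_r w) := by ring
  rw [this] at h
  exact h

/-- For `Im w < 0`: `c(w) - πi = 2πi ∑_{k ≥ 1} r(-w)^k`. -/
theorem s48eis_c_sub_hasSum {w : ℂ} (hw : w.im < 0) :
    HasSum (fun k : ℕ+ => (2 * π * I) * s48eis_r (-w) ^ (k : ℕ)) (s48eis_c w - π * I) := by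
  have hw' : 0 < (-w).im := by rw [Complex.neg_im]; linarith
  have h := (s48eis_c_add_hasSum hw').neg
  have e1 : -(s48eis_c (-w) + π * I) = s48eis_c w - π * I := by
    rw [s48eis_c_neg]; ring
  rw [e1] at h
  have e2 : (fun k : ℕ+ => -(-(2 * π * I) * s48eis_r (-w) ^ (k : ℕ))) =
      fun k : ℕ+ => (2 * π * I) * s48eis_r (-w) ^ (k : ℕ) := by
    funext k; ring
  rw [e2] at h
  exact h

/-! ### The `q`-expansion of `E₁(x, τ)` for real `x ∉ ℤ` -/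

theorem s48eis_r_nat_mul (m : ℕ) (τ : ℂ) : s48eis_r ((m : ℂ) * τ) = s48eis_r τ ^ m := by
  unfold s48eis_r
  rw [← Complex.exp_nat_mul]; congr 1; ring

theorem s48eis_norm_r_real (x : ℝ) : ‖s48eis_r (x : ℂ)‖ = 1 := by
  rw [s48eis_norm_r]; simp

/-- The coefficient function `f(k) = -2πi (r(x)^k - r(-x)^k)`. -/
def s48eis_fk (x : ℝ) (k : ℕ) : ℂ :=
  -(2 * π * I) * (s48eis_r (x : ℂ) ^ k - s48eis_r (-(x : ℂ)) ^ k)

theorem s48eis_norm_fk_le (x : ℝ) (k : ℕ) : ‖s48eis_fk x k‖ ≤ 4 * π := by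
  unfold s48eis_fk
  rw [norm_mul, norm_neg, s48eis_norm_two_pi_I]
  have h1 : ‖s48eis_r (x : ℂ) ^ k‖ = 1 := by rw [norm_pow, s48eis_norm_r_real, one_pow]
  have h2 : ‖s48eis_r (-(x : ℂ)) ^ k‖ = 1 := by
    have : (-(x : ℂ)) = ((-x : ℝ) : ℂ) := by push_cast; ring
    rw [this, norm_pow, s48eis_norm_r_real, one_pow]
  have h3 := norm_sub_le (s48eis_r (x : ℂ) ^ k) (s48eis_r (-(x : ℂ)) ^ k)
  rw [h1, h2] at h3
  have := Real.pi_pos
  nlinarith [norm_nonneg (s48eis_r (x : ℂ) ^ k - s48eis_r (-(x : ℂ)) ^ k)]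

theorem s48eis_pair_hasSum (x : ℝ) {τ : ℂ} (hτ : 0 < τ.im) (m : ℕ+) :
    HasSum (fun k : ℕ+ => s48eis_fk x k * s48eis_r τ ^ ((m : ℕ) * (k : ℕ)))
      (s48eis_term (x : ℂ) τ (m : ℕ) + s48eis_term (x : ℂ) τ (-((m : ℕ) : ℤ))) := by
  have hm : (0 : ℝ) < ((m : ℕ) : ℝ) := by exact_mod_cast m.pos
  have him1 : 0 < ((x : ℂ) + ((m : ℕ) : ℂ) * τ).im := by
    simp only [Complex.add_im, Complex.ofReal_im, Complex.mul_im, Complex.natCast_re,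
      Complex.natCast_im, zero_mul, add_zero, zero_add]
    positivity
  have him2 : ((x : ℂ) - ((m : ℕ) : ℂ) * τ).im < 0 := by
    simp only [Complex.sub_im, Complex.ofReal_im, Complex.mul_im, Complex.natCast_re,
      Complex.natCast_im, zero_mul, add_zero, zero_sub]
    have : 0 < ((m : ℕ) : ℝ) * τ.im := by positivity
    linarith
  have ht1 : s48eis_term (x : ℂ) τ ((m : ℕ) : ℤ) = s48eis_c ((x : ℂ) + ((m : ℕ) : ℂ) * τ) + π * I := by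
    unfold s48eis_term
    have : Int.sign ((m : ℕ) : ℤ) = 1 := Int.sign_eq_one_of_pos (by exact_mod_cast m.pos)
    rw [this]; push_cast; ring
  have ht2 : s48eis_term (x : ℂ) τ (-((m : ℕ) : ℤ)) =
      s48eis_c ((x : ℂ) - ((m : ℕ) : ℂ) * τ) - π * I := by
    unfold s48eis_term
    have : Int.sign (-((m : ℕ) : ℤ)) = -1 :=
      Int.sign_eq_neg_one_of_neg (by have : (0 : ℤ) < ((m : ℕ) : ℤ) := by exact_mod_cast m.pos
                                     omega)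
    rw [this]; push_cast; ring_nf
  have h1 := s48eis_c_add_hasSum him1
  have h2 := s48eis_c_sub_hasSum him2
  have hsum := h1.add h2
  rw [← ht1, ← ht2] at hsum
  have e1 : s48eis_r ((x : ℂ) + ((m : ℕ) : ℂ) * τ) = s48eis_r (x : ℂ) * s48eis_r τ ^ (m : ℕ) := by
    rw [s48eis_r_add, s48eis_r_nat_mul]
  have e2 : s48eis_r (-((x : ℂ) - ((m : ℕ) : ℂ) * τ)) =
      s48eis_r (-(x : ℂ)) * s48eis_r τ ^ (m : ℕ) := by
    have : -((x : ℂ) - ((m : ℕ) : ℂ) * τ) = -(x : ℂ) + ((m : ℕ) : ℂ) * τ := by ring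
    rw [this, s48eis_r_add, s48eis_r_nat_mul]
  have efun : (fun k : ℕ+ => s48eis_fk x k * s48eis_r τ ^ ((m : ℕ) * (k : ℕ))) =
      fun b : ℕ+ => -(2 * π * I) * s48eis_r ((x : ℂ) + ((m : ℕ) : ℂ) * τ) ^ (b : ℕ) +
        2 * π * I * s48eis_r (-((x : ℂ) - ((m : ℕ) : ℂ) * τ)) ^ (b : ℕ) := by
    funext k
    rw [e1, e2, mul_pow, mul_pow, ← pow_mul]
    unfold s48eis_fk
    ring
  rw [efun]
  exact hsum

theorem s48eis_E1_real_hasSum (x : ℝ) {τ : ℂ} (hτ : 0 < τ.im) :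
    HasSum (fun e : ℕ+ => (∑ k ∈ (e : ℕ).divisors, s48eis_fk x k) * s48eis_r τ ^ (e : ℕ))
      (s48eis_E1 (x : ℂ) τ - s48eis_c (x : ℂ)) := by
  have hsum := s48eis_summable_term hτ (x : ℂ)
  have h0 : s48eis_term (x : ℂ) τ 0 = s48eis_c (x : ℂ) := by
    unfold s48eis_term; simp
  have hE : s48eis_E1 (x : ℂ) τ = s48eis_c (x : ℂ) +
      (∑' n : ℕ+, s48eis_term (x : ℂ) τ ((n : ℕ) : ℤ)) +
      (∑' n : ℕ+, s48eis_term (x : ℂ) τ (-((n : ℕ) : ℤ))) := by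
    unfold s48eis_E1
    rw [tsum_int_eq_zero_add_tsum_pnat hsum, h0]
  have hs1 : Summable fun n : ℕ+ => s48eis_term (x : ℂ) τ ((n : ℕ) : ℤ) :=
    hsum.comp_injective (i := fun n : ℕ+ => ((n : ℕ) : ℤ))
      (fun a b h => by
        have h' : ((a : ℕ) : ℤ) = ((b : ℕ) : ℤ) := h
        exact PNat.coe_injective (by exact_mod_cast h'))
  have hs2 : Summable fun n : ℕ+ => s48eis_term (x : ℂ) τ (-((n : ℕ) : ℤ)) :=
    hsum.comp_injective (i := fun n : ℕ+ => (-((n : ℕ) : ℤ)))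
      (fun a b h => by
        have h' : ((a : ℕ) : ℤ) = ((b : ℕ) : ℤ) := neg_injective h
        exact PNat.coe_injective (by exact_mod_cast h'))
  have hpair : (∑' n : ℕ+, s48eis_term (x : ℂ) τ ((n : ℕ) : ℤ)) +
      (∑' n : ℕ+, s48eis_term (x : ℂ) τ (-((n : ℕ) : ℤ))) =
      ∑' m : ℕ+, ∑' k : ℕ+, s48eis_fk x k * s48eis_r τ ^ ((m : ℕ) * (k : ℕ)) := by
    rw [← hs1.tsum_add hs2]
    exact tsum_congr fun m => (s48eis_pair_hasSum x hτ m).tsum_eq.symm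
  have hL := s48eis_lambert_hasSum (s48eis_fk x) (s48eis_norm_fk_le x) (s48eis_norm_r_lt_one hτ)
  have : s48eis_E1 (x : ℂ) τ - s48eis_c (x : ℂ) =
      ∑' m : ℕ+, ∑' k : ℕ+, s48eis_fk x k * s48eis_r τ ^ ((m : ℕ) * (k : ℕ)) := by
    rw [hE, ← hpair]; ring
  rw [this]
  exact hL

/-! ### The `q`-expansion of `H_{(0,a₂)}` -/

/-- The `q`-expansion coefficients of `H_{(0,a₂)}`. -/
def s48eis_coef (N : ℕ) (a2 : ℤ) (n : ℕ) : ℂ :=
  (if n = 0 then s48eis_c ((((a2 : ℝ) / N : ℝ)) : ℂ) else 0) +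
    ∑ k ∈ n.divisors, s48eis_fk ((a2 : ℝ) / N) k

theorem s48eis_qParam_one (τ : ℂ) : Function.Periodic.qParam (1 : ℝ) τ = s48eis_r τ := by
  unfold Function.Periodic.qParam s48eis_r
  simp

theorem s48eis_H_zero_a_eq (N : ℕ) [NeZero N] (a2 : ℤ) (ha : ¬ (N : ℤ) ∣ a2) (τ : ℍ) :
    s48eis_H N ![0, a2] τ = s48eis_E1 ((((a2 : ℝ) / N : ℝ)) : ℂ) (τ : ℂ) := by
  classical
  have hb : ¬ s48eis_bad N ![0, a2] := by
    intro h; exact ha (by simpa using h.2)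
  unfold s48eis_H s48eis_h
  rw [if_neg hb]
  unfold s48eis_zdiv
  simp

theorem s48eis_H_hasSum (N : ℕ) [NeZero N] (a2 : ℤ) (ha : ¬ (N : ℤ) ∣ a2) (τ : ℍ) :
    HasSum (fun n : ℕ => s48eis_coef N a2 n • Function.Periodic.qParam (1 : ℝ) (τ : ℂ) ^ n)
      (s48eis_H N ![0, a2] τ) := by
  rw [s48eis_H_zero_a_eq N a2 ha τ, s48eis_qParam_one]
  have h := s48eis_E1_real_hasSum ((a2 : ℝ) / N) τ.im_pos
  have key := (hasSum_pnat_iff (f := fun n : ℕ => s48eis_coef N a2 n • s48eis_r (τ : ℂ) ^ n)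
    (a := s48eis_E1 ((((a2 : ℝ) / N : ℝ)) : ℂ) (τ : ℂ) - s48eis_c ((((a2 : ℝ) / N : ℝ)) : ℂ))).mp
  have h0 : s48eis_coef N a2 0 • s48eis_r (τ : ℂ) ^ 0 = s48eis_c ((((a2 : ℝ) / N : ℝ)) : ℂ) := by
    unfold s48eis_coef; simp
  have hfun : (fun x : ℕ+ => s48eis_coef N a2 (x : ℕ) • s48eis_r (τ : ℂ) ^ (x : ℕ)) =
      fun e : ℕ+ => (∑ k ∈ (e : ℕ).divisors, s48eis_fk ((a2 : ℝ) / N) k) *
        s48eis_r (τ : ℂ) ^ (e : ℕ) := by
    funext e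
    unfold s48eis_coef
    rw [if_neg e.ne_zero, zero_add, smul_eq_mul]
  have := key (by rw [hfun]; exact h)
  rw [h0, sub_add_cancel] at this
  exact this

end Fermat.Agent.Lib.S48
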