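/-
DS-1 (S48), wall [T4] = [EIS-1], part 7 (owner: helper5).

Distribution relations: `∑_{j<m} c((w+j)/m) = m·c(w)` for `c(w) = π cot(πw)`, hence
`∑_{j<m} E₁((z+j)/m, τ) = m·E₁(z, mτ)` and `∑_{j<m} h_{(a,j)}(τ) = m·(E₁(aτ, mτ) + 2πi a/m)`.
-/
import Mathlib
import Fermat.Agent.Lib.S48.Eis1Q

set_option autoImplicit false

noncomputable section

namespace Fermat.Agent.Lib.S48

open UpperHalfPlane hiding I
open Complex Filter Topology Matrix ModularForm
open scoped Real MatrixGroups Manifold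

/-! ### A finite partial fraction identity -/

theorem s48eis_sum_pow_primitive {m : ℕ} {ζ : ℂ} (hζ : IsPrimitiveRoot ζ m) {k : ℕ} (hk0 : k ≠ 0)
    (hkm : k < m) : ∑ j ∈ Finset.range m, (ζ ^ k) ^ j = 0 := by
  have h1 : ζ ^ k ≠ 1 := hζ.pow_ne_one_of_pos_of_lt hk0 hkm
  rw [geom_sum_eq h1, ← pow_mul, mul_comm k m, pow_mul, hζ.pow_eq_one, one_pow, sub_self, zero_div]

theorem s48eis_sum_inv_one_sub {m : ℕ} {ζ : ℂ} (hζ : IsPrimitiveRoot ζ m) (hm : m ≠ 0) {x : ℂ}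
    (hx : x ^ m ≠ 1) : ∑ j ∈ Finset.range m, (1 - x * ζ ^ j)⁻¹ = (m : ℂ) / (1 - x ^ m) := by
  have hx1 : (1 - x ^ m) ≠ 0 := sub_ne_zero.mpr (Ne.symm hx)
  have hpow : ∀ j : ℕ, (x * ζ ^ j) ^ m = x ^ m := by
    intro j
    rw [mul_pow, ← pow_mul, mul_comm j m, pow_mul, hζ.pow_eq_one, one_pow, mul_one]
  have hterm : ∀ j ∈ Finset.range m, (1 - x * ζ ^ j)⁻¹ =
      (∑ k ∈ Finset.range m, (x * ζ ^ j) ^ k) / (1 - x ^ m) := by
    intro j _
    have hne : (1 - x * ζ ^ j) ≠ 0 := by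
      intro h
      have h1 : x * ζ ^ j = 1 := (sub_eq_zero.mp h).symm
      apply hx; rw [← hpow j, h1, one_pow]
    have hg : (∑ k ∈ Finset.range m, (x * ζ ^ j) ^ k) * (1 - x * ζ ^ j) = 1 - x ^ m := by
      rw [geom_sum_mul_neg, hpow]
    rw [eq_div_iff hx1, ← hg]
    field_simp
  rw [Finset.sum_congr rfl hterm, ← Finset.sum_div, Finset.sum_comm]
  have hinner : ∀ k ∈ Finset.range m,
      ∑ j ∈ Finset.range m, (x * ζ ^ j) ^ k = if k = 0 then (m : ℂ) else 0 := by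
    intro k hk
    by_cases hk0 : k = 0
    · subst hk0; simp
    · rw [if_neg hk0]
      have : ∀ j ∈ Finset.range m, (x * ζ ^ j) ^ k = x ^ k * (ζ ^ k) ^ j := by
        intro j _
        rw [mul_pow, ← pow_mul, mul_comm j k, pow_mul]
      rw [Finset.sum_congr rfl this, ← Finset.mul_sum,
        s48eis_sum_pow_primitive hζ hk0 (Finset.mem_range.mp hk), mul_zero]
  rw [Finset.sum_congr rfl hinner, Finset.sum_ite_eq' (Finset.range m) 0 (fun _ => (m : ℂ))]
  rw [if_pos (Finset.mem_range.mpr (Nat.pos_of_ne_zero hm))]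

/-! ### The distribution relation for `c(w) = π cot(πw)` -/

theorem s48eis_isPrimitiveRoot (m : ℕ) (hm : m ≠ 0) :
    IsPrimitiveRoot (s48eis_r (1 / (m : ℂ))) m := by
  have h := Complex.isPrimitiveRoot_exp m hm
  have e : s48eis_r (1 / (m : ℂ)) = Complex.exp (2 * π * I / m) := by
    unfold s48eis_r; congr 1; ring
  rw [e]; exact h

theorem s48eis_c_distrib (m : ℕ) (hm : m ≠ 0) (w : ℂ) (hw : s48eis_r w ≠ 1) :
    ∑ j ∈ Finset.range m, s48eis_c ((w + j) / m) = m * s48eis_c w := by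
  have hmC : (m : ℂ) ≠ 0 := Nat.cast_ne_zero.mpr hm
  have hζ := s48eis_isPrimitiveRoot m hm
  set ζ := s48eis_r (1 / (m : ℂ)) with hζdef
  set x := s48eis_r (w / m) with hxdef
  have hxm : x ^ m = s48eis_r w := by
    rw [hxdef, ← s48eis_r_nat_mul]; congr 1; field_simp
  have hr : ∀ j : ℕ, s48eis_r ((w + j) / m) = x * ζ ^ j := by
    intro j
    have : (w + j) / m = w / m + (j : ℂ) * (1 / (m : ℂ)) := by field_simp
    rw [this, s48eis_r_add, s48eis_r_nat_mul]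
  have hpow : ∀ j : ℕ, (x * ζ ^ j) ^ m = x ^ m := by
    intro j
    rw [mul_pow, ← pow_mul, mul_comm j m, pow_mul, hζ.pow_eq_one, one_pow, mul_one]
  have hne : ∀ j : ℕ, s48eis_r ((w + j) / m) ≠ 1 := by
    intro j h
    apply hw
    rw [← hxm, ← hpow j, ← hr j, h, one_pow]
  have hx : x ^ m ≠ 1 := by rw [hxm]; exact hw
  have hterm : ∀ j ∈ Finset.range m, s48eis_c ((w + j) / m) =
      π * I - 2 * π * I * (1 - x * ζ ^ j)⁻¹ := by
    intro j _
    have h := s48eis_c_sub ((w + j) / m) (hne j)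
    rw [hr j] at h
    rw [sub_eq_iff_eq_add] at h
    rw [h]; ring
  rw [Finset.sum_congr rfl hterm, Finset.sum_sub_distrib, Finset.sum_const, Finset.card_range,
    ← Finset.mul_sum, s48eis_sum_inv_one_sub hζ hm hx, hxm]
  have h := s48eis_c_sub w hw
  rw [sub_eq_iff_eq_add] at h
  rw [h, nsmul_eq_mul]
  ring

/-! ### The distribution relation for `E₁` -/

theorem s48eis_E1_distrib (m : ℕ) (hm : m ≠ 0) {τ : ℂ} (hτ : 0 < τ.im) (z : ℂ)
    (hz : ∀ n : ℤ, s48eis_r (z + n * (m * τ)) ≠ 1) :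
    ∑ j ∈ Finset.range m, s48eis_E1 ((z + j) / m) τ = m * s48eis_E1 z (m * τ) := by
  have hmC : (m : ℂ) ≠ 0 := Nat.cast_ne_zero.mpr hm
  unfold s48eis_E1
  rw [← tsum_mul_left, ← Summable.tsum_finsetSum (fun j _ => s48eis_summable_term hτ _)]
  refine tsum_congr fun n => ?_
  unfold s48eis_term
  rw [Finset.sum_add_distrib, Finset.sum_const, Finset.card_range, nsmul_eq_mul]
  have : ∀ j ∈ Finset.range m, s48eis_c ((z + j) / m + n * τ) =
      s48eis_c ((z + n * (m * τ) + j) / m) := by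
    intro j _
    congr 1
    field_simp
    ring
  rw [Finset.sum_congr rfl this, s48eis_c_distrib m hm _ (hz n)]
  ring

/-! ### Column sums of the division values -/

theorem s48eis_not_bad_of_not_dvd {m : ℕ} {a : ℤ} (ha : ¬ (m : ℤ) ∣ a) (b : ℤ) :
    ¬ s48eis_bad m ![a, b] := by
  intro h; exact ha (by simpa using h.1)

theorem s48eis_r_mul_ne_one {m : ℕ} {a : ℤ} (ha : ¬ (m : ℤ) ∣ a) {τ : ℂ} (hτ : 0 < τ.im) (n : ℤ) :
    s48eis_r ((a : ℂ) * τ + n * (m * τ)) ≠ 1 := by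
  intro h
  obtain ⟨k, hk⟩ := (s48eis_r_eq_one_iff _).mp h
  have h1 : ((a + n * m : ℤ) : ℂ) * τ = (k : ℂ) := by push_cast; linear_combination hk
  have him := congrArg Complex.im h1
  rw [Complex.mul_im] at him
  simp only [Complex.intCast_re, Complex.intCast_im, zero_mul, add_zero] at him
  have h0 : ((a + n * m : ℤ) : ℝ) = 0 := by
    rcases mul_eq_zero.mp him with h | h
    · exact h
    · exact absurd h hτ.ne'
  have h0' : a + n * m = 0 := by exact_mod_cast h0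
  exact ha ⟨-n, by linarith⟩

theorem s48eis_sum_h_col (m : ℕ) [NeZero m] (a : ℤ) (ha : ¬ (m : ℤ) ∣ a) {τ : ℂ} (hτ : 0 < τ.im) :
    ∑ j ∈ Finset.range m, s48eis_h m ![a, (j : ℤ)] τ =
      m * (s48eis_E1 ((a : ℂ) * τ) (m * τ) + 2 * π * I * a / m) := by
  classical
  have hm : m ≠ 0 := NeZero.ne m
  have hmC : (m : ℂ) ≠ 0 := Nat.cast_ne_zero.mpr hm
  have hterm : ∀ j ∈ Finset.range m, s48eis_h m ![a, (j : ℤ)] τ =
      s48eis_E1 (((a : ℂ) * τ + j) / m) τ + 2 * π * I * a / m := by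
    intro j _
    unfold s48eis_h
    rw [if_neg (s48eis_not_bad_of_not_dvd ha _)]
    unfold s48eis_zdiv
    simp only [Matrix.cons_val_zero, Matrix.cons_val_one]
    push_cast
    rfl
  rw [Finset.sum_congr rfl hterm, Finset.sum_add_distrib, Finset.sum_const, Finset.card_range,
    nsmul_eq_mul, s48eis_E1_distrib m hm hτ _ (s48eis_r_mul_ne_one ha hτ)]
  ring

end Fermat.Agent.Lib.S48
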