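/-
DS-1 (S48), wall [T4] = [EIS-1], part 8 (owner: helper5).

The expansion at `∞` of `∑_a χ(a)·E₁(aτ, mτ)` for an odd Dirichlet character `χ` mod `m`:
`∑_a χ(a)·E₁(aτ, mτ) = -4πi ∑_{d ≥ 1} χ(d) q^d/(1-q^d) = -4πi ∑_{n ≥ 1} (∑_{d ∣ n} χ(d)) qⁿ`.
-/
import Mathlib
import Fermat.Agent.Lib.S48.Eis1Dist

set_option autoImplicit false

noncomputable section

namespace Fermat.Agent.Lib.S48

open UpperHalfPlane hiding I
open Complex Filter Topology Matrix ModularForm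
open scoped Real MatrixGroups Manifold

/-! ### The Lambert summands `L(d) = q^d/(1-q^d)` -/

/-- `L_τ(d) = q^d/(1 - q^d)`, `q = e^{2πiτ}`. -/
def s48eis_L (τ : ℂ) (d : ℕ) : ℂ := s48eis_r τ ^ d / (1 - s48eis_r τ ^ d)

theorem s48eis_L_zero (τ : ℂ) : s48eis_L τ 0 = 0 := by simp [s48eis_L]

theorem s48eis_norm_r_pow_lt_one {τ : ℂ} (hτ : 0 < τ.im) {d : ℕ} (hd : d ≠ 0) :
    ‖s48eis_r τ ^ d‖ < 1 := by
  rw [norm_pow]
  exact pow_lt_one₀ (norm_nonneg _) (s48eis_norm_r_lt_one hτ) hd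

theorem s48eis_c_nat_mul {τ : ℂ} (hτ : 0 < τ.im) {d : ℕ} (hd : d ≠ 0) :
    s48eis_c ((d : ℂ) * τ) + π * I = -(2 * π * I) * s48eis_L τ d := by
  have hr := s48eis_norm_r_pow_lt_one hτ hd
  have hne : s48eis_r ((d : ℂ) * τ) ≠ 1 := by
    rw [s48eis_r_nat_mul]
    intro h; rw [h, norm_one] at hr; exact lt_irrefl _ hr
  rw [s48eis_c_add _ hne, s48eis_r_nat_mul]
  unfold s48eis_L
  ring

theorem s48eis_norm_L_le {τ : ℂ} (hτ : 0 < τ.im) (d : ℕ) :
    ‖s48eis_L τ d‖ ≤ ‖s48eis_r τ‖ ^ d / (1 - ‖s48eis_r τ‖) := by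
  have hq := s48eis_norm_r_lt_one hτ
  have hq0 : 0 ≤ ‖s48eis_r τ‖ := norm_nonneg _
  have h1q : 0 < 1 - ‖s48eis_r τ‖ := by linarith
  by_cases hd : d = 0
  · subst hd
    rw [s48eis_L_zero, norm_zero]
    positivity
  · unfold s48eis_L
    rw [norm_div, norm_pow]
    have hqd : ‖s48eis_r τ‖ ^ d ≤ ‖s48eis_r τ‖ := by
      calc ‖s48eis_r τ‖ ^ d ≤ ‖s48eis_r τ‖ ^ 1 :=
            pow_le_pow_of_le_one hq0 hq.le (Nat.one_le_iff_ne_zero.mpr hd)
        _ = ‖s48eis_r τ‖ := pow_one _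
    have hden : 1 - ‖s48eis_r τ‖ ≤ ‖1 - s48eis_r τ ^ d‖ := by
      have := norm_sub_norm_le (1 : ℂ) (s48eis_r τ ^ d)
      rw [norm_one, norm_pow] at this
      linarith
    exact div_le_div_of_nonneg_left (by positivity) h1q hden

theorem s48eis_summable_mul_L (f : ℕ → ℂ) {C : ℝ} (hf : ∀ k, ‖f k‖ ≤ C) {τ : ℂ} (hτ : 0 < τ.im) :
    Summable fun d : ℕ => f d * s48eis_L τ d := by
  have hq := s48eis_norm_r_lt_one hτ
  have hq0 : 0 ≤ ‖s48eis_r τ‖ := norm_nonneg _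
  have h1q : 0 < 1 - ‖s48eis_r τ‖ := by linarith
  have hC : 0 ≤ C := le_trans (norm_nonneg _) (hf 0)
  have hg : Summable fun d : ℕ => C * (‖s48eis_r τ‖ ^ d / (1 - ‖s48eis_r τ‖)) :=
    ((summable_geometric_of_lt_one hq0 hq).div_const _).mul_left C
  apply Summable.of_norm_bounded hg
  intro d
  rw [norm_mul]
  exact mul_le_mul (hf d) (s48eis_norm_L_le hτ d) (norm_nonneg _) hC

theorem s48eis_summable_L {τ : ℂ} (hτ : 0 < τ.im) : Summable (s48eis_L τ) := by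
  have := s48eis_summable_mul_L (fun _ => (1 : ℂ)) (C := 1) (fun _ => by simp) hτ
  simpa using this

/-- The Lambert rearrangement: `∑_d f(d) q^d/(1-q^d) = ∑_n (∑_{d ∣ n} f(d)) qⁿ`. -/
theorem s48eis_lambert_L (f : ℕ → ℂ) {C : ℝ} (hf : ∀ k, ‖f k‖ ≤ C) {τ : ℂ} (hτ : 0 < τ.im) :
    HasSum (fun e : ℕ+ => (∑ k ∈ (e : ℕ).divisors, f k) * s48eis_r τ ^ (e : ℕ))
      (∑' d : ℕ, f d * s48eis_L τ d) := by
  have hr := s48eis_norm_r_lt_one hτ
  have hL := s48eis_lambert_hasSum f hf hr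
  have hs := s48eis_summable_prod f hf hr
  have hsL := s48eis_summable_mul_L f hf hτ
  have e1 : ∑' d : ℕ, f d * s48eis_L τ d = ∑' c : ℕ+, f c * s48eis_L τ c := by
    rw [← tsum_zero_pnat_eq_tsum_nat hsL, s48eis_L_zero, mul_zero, zero_add]
  have e2 : ∀ c : ℕ+, f c * s48eis_L τ c = ∑' d : ℕ+, f c * s48eis_r τ ^ ((d : ℕ) * (c : ℕ)) := by
    intro c
    have hc := s48eis_norm_r_pow_lt_one hτ c.ne_zero
    have h := (s48eis_hasSum_pnat_geom hc).mul_left (f c)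
    have efun : (fun d : ℕ+ => f c * (s48eis_r τ ^ (c : ℕ)) ^ (d : ℕ)) =
        fun d : ℕ+ => f c * s48eis_r τ ^ ((d : ℕ) * (c : ℕ)) := by
      funext d; rw [← pow_mul, mul_comm (c : ℕ) (d : ℕ)]
    rw [efun] at h
    rw [h.tsum_eq]; rfl
  have e3 : ∑' c : ℕ+, ∑' d : ℕ+, f c * s48eis_r τ ^ ((d : ℕ) * (c : ℕ)) =
      ∑' d : ℕ+, ∑' c : ℕ+, f c * s48eis_r τ ^ ((d : ℕ) * (c : ℕ)) :=
    Summable.tsum_comm (f := fun (d c : ℕ+) => f c * s48eis_r τ ^ ((d : ℕ) * (c : ℕ))) hs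
  rw [e1, tsum_congr e2, e3]
  exact hL

/-! ### `E₁(aτ, mτ)` for `0 < a < m` -/

theorem s48eis_im_nat_mul {τ : ℂ} (hτ : 0 < τ.im) {d : ℕ} (hd : d ≠ 0) : 0 < ((d : ℂ) * τ).im := by
  rw [Complex.mul_im]
  simp only [Complex.natCast_re, Complex.natCast_im, zero_mul, add_zero]
  have : (0 : ℝ) < d := by exact_mod_cast Nat.pos_of_ne_zero hd
  positivity

theorem s48eis_summable_L_arith {τ : ℂ} (hτ : 0 < τ.im) {m : ℕ} (hm : m ≠ 0) (a : ℕ) :
    Summable fun n : ℕ => s48eis_L τ (a + m * n) :=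
  (s48eis_summable_L hτ).comp_injective (i := fun n : ℕ => a + m * n)
    (fun x y h => by
      have h' : a + m * x = a + m * y := h
      exact Nat.eq_of_mul_eq_mul_left (Nat.pos_of_ne_zero hm) (Nat.add_left_cancel h'))

theorem s48eis_E1_cusp {m a : ℕ} (ha0 : 0 < a) (ham : a < m) {τ : ℂ} (hτ : 0 < τ.im) :
    s48eis_E1 ((a : ℂ) * τ) ((m : ℂ) * τ) = -(π * I) - 2 * π * I *
      ((∑' n : ℕ, s48eis_L τ (a + m * n)) - ∑' n : ℕ, s48eis_L τ ((m - a) + m * n)) := by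
  have hm : m ≠ 0 := by omega
  have hτ' := s48eis_im_nat_mul hτ hm
  have hsum := s48eis_summable_term hτ' ((a : ℂ) * τ)
  have h0 : s48eis_term ((a : ℂ) * τ) ((m : ℂ) * τ) 0 = -(π * I) - 2 * π * I * s48eis_L τ a := by
    have h := s48eis_c_nat_mul hτ (d := a) (by omega)
    unfold s48eis_term
    simp only [Int.cast_zero, zero_mul, add_zero, Int.sign_zero, mul_zero]
    linear_combination h
  have hpos : ∀ n : ℕ+, s48eis_term ((a : ℂ) * τ) ((m : ℂ) * τ) (((n : ℕ) : ℤ)) =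
      -(2 * π * I) * s48eis_L τ (a + m * (n : ℕ)) := by
    intro n
    have hd : a + m * (n : ℕ) ≠ 0 := by omega
    have h := s48eis_c_nat_mul hτ hd
    unfold s48eis_term
    have hs : Int.sign ((n : ℕ) : ℤ) = 1 := Int.sign_eq_one_of_pos (by exact_mod_cast n.pos)
    rw [hs]
    have e : (a : ℂ) * τ + (((n : ℕ) : ℤ) : ℂ) * ((m : ℂ) * τ) = ((a + m * (n : ℕ) : ℕ) : ℂ) * τ := by
      push_cast; ring
    rw [e, ← h]; push_cast; ring
  have hneg : ∀ n : ℕ+, s48eis_term ((a : ℂ) * τ) ((m : ℂ) * τ) (-(((n : ℕ) : ℤ))) =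
      (2 * π * I) * s48eis_L τ (m * (n : ℕ) - a) := by
    intro n
    have hn : 1 ≤ (n : ℕ) := n.pos
    have hle : a ≤ m * (n : ℕ) := by nlinarith
    have hd : m * (n : ℕ) - a ≠ 0 := by
      have : a < m * (n : ℕ) := by nlinarith
      omega
    have h := s48eis_c_nat_mul hτ hd
    unfold s48eis_term
    have hs : Int.sign (-((n : ℕ) : ℤ)) = -1 :=
      Int.sign_eq_neg_one_of_neg (by have : (0 : ℤ) < ((n : ℕ) : ℤ) := by exact_mod_cast n.pos
                                     omega)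
    rw [hs]
    have e : (a : ℂ) * τ + ((-((n : ℕ) : ℤ) : ℤ) : ℂ) * ((m : ℂ) * τ) =
        -(((m * (n : ℕ) - a : ℕ) : ℂ) * τ) := by
      rw [Nat.cast_sub hle]; push_cast; ring
    rw [e, s48eis_c_neg]
    linear_combination (-1 : ℂ) * h
  have hS1 := s48eis_summable_L_arith hτ hm a
  have hS2 := s48eis_summable_L_arith hτ hm (m - a)
  have e1 : ∑' n : ℕ+, s48eis_L τ (a + m * (n : ℕ)) =
      (∑' n : ℕ, s48eis_L τ (a + m * n)) - s48eis_L τ a := by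
    rw [tsum_pnat_eq_tsum_succ (f := fun n => s48eis_L τ (a + m * n)), hS1.tsum_eq_zero_add]
    simp
  have e2 : ∑' n : ℕ+, s48eis_L τ (m * (n : ℕ) - a) = ∑' n : ℕ, s48eis_L τ ((m - a) + m * n) := by
    rw [tsum_pnat_eq_tsum_succ (f := fun n => s48eis_L τ (m * n - a))]
    refine tsum_congr fun n => ?_
    congr 1
    rw [Nat.mul_succ]
    omega
  unfold s48eis_E1
  rw [tsum_int_eq_zero_add_tsum_pnat hsum, h0, tsum_congr hpos, tsum_congr hneg, tsum_mul_left,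
    tsum_mul_left, e1, e2]
  ring

/-! ### The character sum -/

theorem s48eis_chi_zero {m : ℕ} (χ : DirichletCharacter ℂ m) (hχ : χ (-1) = -1) :
    χ (0 : ZMod m) = 0 := by
  have hm1 : m ≠ 1 := by
    rintro rfl
    have : (-1 : ZMod 1) = 1 := Subsingleton.elim _ _
    rw [this, map_one] at hχ
    norm_num at hχ
  have : Nontrivial (ZMod m) := ZMod.nontrivial_iff.mpr hm1
  exact MulChar.map_zero χ

theorem s48eis_chi_ne_one {m : ℕ} (χ : DirichletCharacter ℂ m) (hχ : χ (-1) = -1) : χ ≠ 1 := by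
  intro h
  have h1 : χ (-1) * χ (-1) = 1 := by rw [← map_mul]; simp
  rw [h] at hχ
  have hu : IsUnit (-1 : ZMod m) := isUnit_one.neg
  rw [MulChar.one_apply hu] at hχ
  norm_num at hχ

theorem s48eis_chi_neg {m : ℕ} (χ : DirichletCharacter ℂ m) (hχ : χ (-1) = -1) (j : ZMod m) :
    χ (-j) = -χ j := by
  rw [← neg_one_mul j, map_mul, hχ, neg_one_mul]

theorem s48eis_chi_natCast_add {m : ℕ} [NeZero m] (χ : DirichletCharacter ℂ m) (j : ZMod m) (n : ℕ) :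
    χ (((j.val + m * n : ℕ)) : ZMod m) = χ j := by
  congr 1
  push_cast
  rw [ZMod.natCast_self, zero_mul, add_zero, ZMod.natCast_val, ZMod.cast_id', id]

/-- **The expansion at `∞`**: `∑_j χ(j)·E₁(jτ, mτ) = -4πi ∑_{d} χ(d) q^d/(1-q^d)`. -/
theorem s48eis_sum_chi_E1 (m : ℕ) [NeZero m] (χ : DirichletCharacter ℂ m) (hχ : χ (-1) = -1)
    {τ : ℂ} (hτ : 0 < τ.im) :
    ∑ j : ZMod m, χ j * s48eis_E1 ((j.val : ℂ) * τ) ((m : ℂ) * τ) =
      -(4 * π * I) * ∑' d : ℕ, χ (d : ZMod m) * s48eis_L τ d := by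
  have hm : m ≠ 0 := NeZero.ne m
  set S : ℕ → ℂ := fun a => ∑' n : ℕ, s48eis_L τ (a + m * n) with hS
  have step1 : ∀ j : ZMod m, χ j * s48eis_E1 ((j.val : ℂ) * τ) ((m : ℂ) * τ) =
      χ j * (-(π * I)) - 2 * π * I * (χ j * S j.val) + 2 * π * I * (χ j * S (-j).val) := by
    intro j
    by_cases hj : j = 0
    · subst hj
      rw [s48eis_chi_zero χ hχ]; ring
    · have h1 : 0 < j.val := ZMod.val_pos.mpr hj
      have h2 : j.val < m := ZMod.val_lt j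
      rw [s48eis_E1_cusp h1 h2 hτ, ZMod.neg_val, if_neg hj]
      ring
  have step2 : ∑ j : ZMod m, χ j * (-(π * I)) = 0 := by
    rw [← Finset.sum_mul, MulChar.sum_eq_zero_of_ne_one (s48eis_chi_ne_one χ hχ), zero_mul]
  have step3 : ∑ j : ZMod m, χ j * S (-j).val = -∑ j : ZMod m, χ j * S j.val := by
    have := Equiv.sum_comp (Equiv.neg (ZMod m)) (fun j => χ (-j) * S j.val)
    simp only [Equiv.neg_apply, neg_neg] at this
    rw [this, ← Finset.sum_neg_distrib]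
    refine Finset.sum_congr rfl fun j _ => ?_
    rw [s48eis_chi_neg χ hχ]; ring
  have hsum : Summable fun d : ℕ => χ (d : ZMod m) * s48eis_L τ d :=
    s48eis_summable_mul_L (fun d : ℕ => χ (d : ZMod m)) (C := 1)
      (fun k => DirichletCharacter.norm_le_one χ _) hτ
  have step4 : ∑ j : ZMod m, χ j * S j.val = ∑' d : ℕ, χ (d : ZMod m) * s48eis_L τ d := by
    rw [Nat.sumByResidueClasses hsum m]
    refine Finset.sum_congr rfl fun j _ => ?_
    rw [hS, ← tsum_mul_left]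
    refine tsum_congr fun n => ?_
    rw [s48eis_chi_natCast_add]
  rw [Finset.sum_congr rfl (fun j _ => step1 j), Finset.sum_add_distrib, Finset.sum_sub_distrib,
    step2, ← Finset.mul_sum, ← Finset.mul_sum, step3, step4]
  ring

end Fermat.Agent.Lib.S48
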