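/-
DS-1 (S48), wall [T4] = [EIS-1], part 9 (owner: helper5).

The weight-one Eisenstein series `G_χ = -(1/(4πi m)) ∑_{a,j} χ(a)·h_{(a,j)}` on `Γ₁(m)` for a Dirichlet
character `χ` mod `m`: modularity, nebentypus `χ`, boundedness at all cusps.
-/
import Mathlib
import Fermat.Agent.Lib.S48.Eis1QA

set_option autoImplicit false

noncomputable section

namespace Fermat.Agent.Lib.S48

open UpperHalfPlane hiding I
open Complex Filter Topology Matrix ModularForm CongruenceSubgroup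
open scoped Real MatrixGroups Manifold

/-! ### Division values indexed by `(ℤ/m)²` -/

/-- `h_v` for `v ∈ (ℤ/m)²`. -/
def s48eis_HZ (m : ℕ) (v : ZMod m × ZMod m) : ℍ → ℂ :=
  s48eis_H m ![(v.1.val : ℤ), (v.2.val : ℤ)]

theorem s48eis_H_eq_HZ (m : ℕ) [NeZero m] (a : Fin 2 → ℤ) :
    s48eis_H m a = s48eis_HZ m ((a 0 : ZMod m), (a 1 : ZMod m)) := by
  unfold s48eis_HZ
  apply s48eis_H_congr
  intro i
  fin_cases i
  · show (m : ℤ) ∣ a 0 - (((a 0 : ℤ) : ZMod m).val : ℤ)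
    rw [ZMod.val_intCast]
    exact ⟨a 0 / m, by have := Int.emod_add_mul_ediv (a 0) m; linarith⟩
  · show (m : ℤ) ∣ a 1 - (((a 1 : ℤ) : ZMod m).val : ℤ)
    rw [ZMod.val_intCast]
    exact ⟨a 1 / m, by have := Int.emod_add_mul_ediv (a 1) m; linarith⟩

/-- The right action of `γ` on `(ℤ/m)²`. -/
def s48eis_act (m : ℕ) (γ : SL(2, ℤ)) (v : ZMod m × ZMod m) : ZMod m × ZMod m :=
  (v.1 * ((γ 0 0 : ℤ) : ZMod m) + v.2 * ((γ 1 0 : ℤ) : ZMod m),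
   v.1 * ((γ 0 1 : ℤ) : ZMod m) + v.2 * ((γ 1 1 : ℤ) : ZMod m))

theorem s48eis_vecMul_pair (x y : ℤ) (γ : SL(2, ℤ)) :
    ![x, y] ᵥ* (γ : Matrix (Fin 2) (Fin 2) ℤ) =
      ![x * γ 0 0 + y * γ 1 0, x * γ 0 1 + y * γ 1 1] := by
  ext i
  fin_cases i <;> simp [Matrix.vecMul, dotProduct, Fin.sum_univ_two]

theorem s48eis_HZ_slash (m : ℕ) [NeZero m] (γ : SL(2, ℤ)) (v : ZMod m × ZMod m) :
    s48eis_HZ m v ∣[(1 : ℤ)] γ = s48eis_HZ m (s48eis_act m γ v) := by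
  have h1 : s48eis_HZ m v = s48eis_H m ![(v.1.val : ℤ), (v.2.val : ℤ)] := rfl
  rw [h1, s48eis_H_slash, s48eis_vecMul_pair, s48eis_H_eq_HZ]
  congr 1
  unfold s48eis_act
  simp only [Matrix.cons_val_zero, Matrix.cons_val_one]
  push_cast
  simp only [ZMod.natCast_val, ZMod.cast_id', id]

theorem s48eis_det_zmod (m : ℕ) (γ : SL(2, ℤ)) :
    ((γ 0 0 : ℤ) : ZMod m) * ((γ 1 1 : ℤ) : ZMod m) -
      ((γ 0 1 : ℤ) : ZMod m) * ((γ 1 0 : ℤ) : ZMod m) = 1 := by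
  have h := γ.det_coe
  rw [Matrix.det_fin_two] at h
  have := congrArg (Int.cast : ℤ → ZMod m) h
  push_cast at this
  exact this

theorem s48eis_act_bijective (m : ℕ) (γ : SL(2, ℤ)) : Function.Bijective (s48eis_act m γ) := by
  have hdet := s48eis_det_zmod m γ
  refine Function.bijective_iff_has_inverse.mpr
    ⟨fun w => (w.1 * ((γ 1 1 : ℤ) : ZMod m) - w.2 * ((γ 1 0 : ℤ) : ZMod m),
      -(w.1 * ((γ 0 1 : ℤ) : ZMod m)) + w.2 * ((γ 0 0 : ℤ) : ZMod m)), ?_, ?_⟩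
  · intro v
    unfold s48eis_act
    ext
    · simp only; linear_combination v.1 * hdet
    · simp only; linear_combination v.2 * hdet
  · intro w
    unfold s48eis_act
    ext
    · simp only; linear_combination w.1 * hdet
    · simp only; linear_combination w.2 * hdet

/-! ### The sum `∑_v χ(v₁) h_v` -/

/-- `∑_{v ∈ (ℤ/m)²} χ(v₁)·h_v`. -/
def s48eis_Gsum (m : ℕ) [NeZero m] (χ : DirichletCharacter ℂ m) : ℍ → ℂ := fun τ =>
  ∑ v : ZMod m × ZMod m, χ v.1 * s48eis_HZ m v τ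

theorem s48eis_Gsum_slash (m : ℕ) [NeZero m] (χ : DirichletCharacter ℂ m) (γ : SL(2, ℤ)) :
    s48eis_Gsum m χ ∣[(1 : ℤ)] γ =
      fun τ => ∑ v : ZMod m × ZMod m, χ v.1 * s48eis_HZ m (s48eis_act m γ v) τ := by
  ext τ
  rw [SL_slash_apply]
  unfold s48eis_Gsum
  rw [Finset.sum_mul]
  refine Finset.sum_congr rfl fun v _ => ?_
  rw [← s48eis_HZ_slash, SL_slash_apply]
  ring

theorem s48eis_Gsum_slash_Gamma0 (m : ℕ) [NeZero m] (χ : DirichletCharacter ℂ m) {γ : SL(2, ℤ)}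
    (hγ : γ ∈ Gamma0 m) :
    s48eis_Gsum m χ ∣[(1 : ℤ)] γ = χ ((γ 1 1 : ℤ) : ZMod m) • s48eis_Gsum m χ := by
  rw [s48eis_Gsum_slash]
  ext τ
  rw [Pi.smul_apply, smul_eq_mul]
  unfold s48eis_Gsum
  rw [Finset.mul_sum]
  have hc : ((γ 1 0 : ℤ) : ZMod m) = 0 := Gamma0_mem.mp hγ
  have hdet := s48eis_det_zmod m γ
  rw [hc, mul_zero, sub_zero] at hdet
  have key : ∀ v : ZMod m × ZMod m,
      χ v.1 = χ ((γ 1 1 : ℤ) : ZMod m) * χ (s48eis_act m γ v).1 := by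
    intro v
    unfold s48eis_act
    simp only
    rw [hc, mul_zero, add_zero, ← map_mul]
    congr 1
    linear_combination (-(v.1)) * hdet
  have h2 := (s48eis_act_bijective m γ).sum_comp
    (fun w => χ ((γ 1 1 : ℤ) : ZMod m) * (χ w.1 * s48eis_HZ m w τ))
  rw [← h2]
  refine Finset.sum_congr rfl fun v _ => ?_
  rw [key v]; ring

theorem s48eis_Gsum_slash_Gamma1 (m : ℕ) [NeZero m] (χ : DirichletCharacter ℂ m) {γ : SL(2, ℤ)}
    (hγ : γ ∈ Gamma1 m) : s48eis_Gsum m χ ∣[(1 : ℤ)] γ = s48eis_Gsum m χ := by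
  rw [s48eis_Gsum_slash_Gamma0 m χ (Gamma1_in_Gamma0 m hγ)]
  rw [Gamma1_mem] at hγ
  rw [hγ.2.1, map_one, one_smul]

theorem s48eis_mdifferentiable_Gsum (m : ℕ) [NeZero m] (χ : DirichletCharacter ℂ m) :
    MDifferentiable 𝓘(ℂ) 𝓘(ℂ) (s48eis_Gsum m χ) := by
  rw [UpperHalfPlane.mdifferentiable_iff]
  have e : (s48eis_Gsum m χ ∘ ofComplex) =
      fun z => ∑ v : ZMod m × ZMod m, χ v.1 * (s48eis_HZ m v ∘ ofComplex) z := by
    funext z; rfl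
  rw [e]
  apply DifferentiableOn.fun_sum
  intro v _
  exact (UpperHalfPlane.mdifferentiable_iff.mp (s48eis_mdifferentiable_H m _)).const_mul _

theorem s48eis_isBoundedAtImInfty_Gsum_slash (m : ℕ) [NeZero m] (χ : DirichletCharacter ℂ m)
    (γ : SL(2, ℤ)) : IsBoundedAtImInfty (s48eis_Gsum m χ ∣[(1 : ℤ)] γ) := by
  rw [s48eis_Gsum_slash]
  have h : ∀ v ∈ (Finset.univ : Finset (ZMod m × ZMod m)),
      (fun τ => χ v.1 * s48eis_HZ m (s48eis_act m γ v) τ) =O[atImInfty] (1 : ℍ → ℝ) := by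
    intro v _
    exact (s48eis_isBoundedAtImInfty_H m _).const_mul_left _
  have h2 := Asymptotics.IsBigO.sum h
  have e : (fun τ => ∑ v : ZMod m × ZMod m, χ v.1 * s48eis_HZ m (s48eis_act m γ v) τ) =
      ∑ v : ZMod m × ZMod m, fun τ => χ v.1 * s48eis_HZ m (s48eis_act m γ v) τ := by
    funext τ; rw [Finset.sum_apply]
  rw [e]
  exact h2

/-- The normalising constant `-(1/(4πi m))`. -/
def s48eis_K (m : ℕ) : ℂ := -(1 / (4 * π * I * m))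

/-- **The weight-one Eisenstein series `G_χ`** as a modular form on `Γ₁(m)`. -/
def s48eis_Gchi (m : ℕ) [NeZero m] (χ : DirichletCharacter ℂ m) : ModularForm (Gamma1 m) 1 where
  toFun := s48eis_K m • s48eis_Gsum m χ
  slash_action_eq' A hA := by
    obtain ⟨γ, hγ, rfl⟩ := hA
    show (s48eis_K m • s48eis_Gsum m χ) ∣[(1 : ℤ)] γ = _
    rw [ModularForm.SL_smul_slash, s48eis_Gsum_slash_Gamma1 m χ hγ]
  holo' := (s48eis_mdifferentiable_Gsum m χ).const_smul _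
  bdd_at_cusps' {c} hc := by
    rw [Subgroup.IsArithmetic.isCusp_iff_isCusp_SL2Z] at hc
    rw [OnePoint.isBoundedAt_iff_forall_SL2Z hc]
    intro σ _
    rw [ModularForm.SL_smul_slash]
    exact (s48eis_isBoundedAtImInfty_Gsum_slash m χ σ).const_smul_left _

theorem s48eis_Gchi_apply (m : ℕ) [NeZero m] (χ : DirichletCharacter ℂ m) (τ : ℍ) :
    s48eis_Gchi m χ τ = s48eis_K m * s48eis_Gsum m χ τ := rfl

theorem s48eis_Gchi_coe (m : ℕ) [NeZero m] (χ : DirichletCharacter ℂ m) :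
    (⇑(s48eis_Gchi m χ) : ℍ → ℂ) = s48eis_K m • s48eis_Gsum m χ := rfl

/-- **Nebentypus**: `G_χ ∣[1] γ = χ(d_γ)·G_χ` for `γ ∈ Γ₀(m)`. -/
theorem s48eis_Gchi_slash_Gamma0 (m : ℕ) [NeZero m] (χ : DirichletCharacter ℂ m) {γ : SL(2, ℤ)}
    (hγ : γ ∈ Gamma0 m) :
    (⇑(s48eis_Gchi m χ) : ℍ → ℂ) ∣[(1 : ℤ)] γ =
      χ ((γ 1 1 : ℤ) : ZMod m) • (⇑(s48eis_Gchi m χ) : ℍ → ℂ) := by
  rw [s48eis_Gchi_coe, ModularForm.SL_smul_slash, s48eis_Gsum_slash_Gamma0 m χ hγ, smul_comm]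

end Fermat.Agent.Lib.S48
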