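/-
DS-1 (S48), wall [T4] = [EIS-1], part 10 (owner: helper5).

The `q`-expansion of `G_χ` at `∞` (`a₀ = -(1/2m)∑ χ(a)a`, `a_n = ∑_{d∣n} χ(d)`) and its value at the
cusp `0`: `(G_χ ∣[1] S)(τ) → (1/(4im)) ∑_a χ(a) cot(πa/m)` as `Im τ → ∞`.
-/
import Mathlib
import Fermat.Agent.Lib.S48.Eis1G
import Fermat.Prelude.Def_FLTPrelim_Modularity

set_option autoImplicit false

noncomputable section

namespace Fermat.Agent.Lib.S48

open UpperHalfPlane hiding I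
open Complex Filter Topology Matrix ModularForm CongruenceSubgroup
open scoped Real MatrixGroups Manifold

theorem s48eis_sum_zmod_val {M : Type*} [AddCommMonoid M] (m : ℕ) [NeZero m] (f : ℕ → M) :
    ∑ i : ZMod m, f i.val = ∑ i ∈ Finset.range m, f i := by
  refine Finset.sum_bij (fun i _ => i.val) (fun i _ => Finset.mem_range.mpr (ZMod.val_lt i))
    (fun i _ j _ h => ZMod.val_injective m h)
    (fun b hb => ⟨(b : ZMod m), Finset.mem_univ _,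
      ZMod.val_natCast_of_lt (Finset.mem_range.mp hb)⟩) (fun i _ => rfl)

theorem s48eis_not_dvd_val {m : ℕ} [NeZero m] {j : ZMod m} (hj : j ≠ 0) :
    ¬ (m : ℤ) ∣ (j.val : ℤ) := by
  intro h
  have h1 : m ∣ j.val := Int.natCast_dvd_natCast.mp h
  have h2 : 0 < j.val := ZMod.val_pos.mpr hj
  have h3 := Nat.le_of_dvd h2 h1
  have h4 := ZMod.val_lt j
  omega

/-! ### `G_χ` in terms of `E₁(aτ, mτ)` -/

theorem s48eis_Gsum_eq (m : ℕ) [NeZero m] (χ : DirichletCharacter ℂ m) (hχ : χ (-1) = -1) (τ : ℍ) :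
    s48eis_Gsum m χ τ = ∑ j : ZMod m, χ j * ((m : ℂ) *
      (s48eis_E1 ((j.val : ℂ) * τ) ((m : ℂ) * τ) + 2 * π * I * (j.val : ℂ) / m)) := by
  unfold s48eis_Gsum
  rw [Fintype.sum_prod_type]
  refine Finset.sum_congr rfl fun j _ => ?_
  show ∑ y : ZMod m, χ j * s48eis_HZ m (j, y) τ = _
  rw [← Finset.mul_sum]
  by_cases hj : j = 0
  · subst hj; rw [s48eis_chi_zero χ hχ, zero_mul, zero_mul]
  · congr 1
    have h := s48eis_sum_h_col m (j.val : ℤ) (s48eis_not_dvd_val hj) τ.im_pos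
    rw [← s48eis_sum_zmod_val m (fun i => s48eis_h m ![(j.val : ℤ), (i : ℤ)] (τ : ℂ))] at h
    push_cast at h
    exact h

theorem s48eis_K_mul (m : ℕ) [NeZero m] : s48eis_K m * ((m : ℂ) * -(4 * π * I)) = 1 := by
  have hm : (m : ℂ) ≠ 0 := Nat.cast_ne_zero.mpr (NeZero.ne m)
  have hpi : (π : ℂ) ≠ 0 := Complex.ofReal_ne_zero.mpr Real.pi_ne_zero
  unfold s48eis_K
  field_simp

theorem s48eis_Gchi_eq_tsum (m : ℕ) [NeZero m] (χ : DirichletCharacter ℂ m) (hχ : χ (-1) = -1)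
    (τ : ℍ) :
    s48eis_Gchi m χ τ = -(1 / (2 * (m : ℂ))) * ∑ j : ZMod m, χ j * (j.val : ℂ) +
      ∑' d : ℕ, χ (d : ZMod m) * s48eis_L τ d := by
  have hm : (m : ℂ) ≠ 0 := Nat.cast_ne_zero.mpr (NeZero.ne m)
  have hpi : (π : ℂ) ≠ 0 := Complex.ofReal_ne_zero.mpr Real.pi_ne_zero
  rw [s48eis_Gchi_apply, s48eis_Gsum_eq m χ hχ]
  have e : ∀ j : ZMod m, χ j * ((m : ℂ) *
      (s48eis_E1 ((j.val : ℂ) * τ) ((m : ℂ) * τ) + 2 * π * I * (j.val : ℂ) / m)) =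
      (m : ℂ) * (χ j * s48eis_E1 ((j.val : ℂ) * τ) ((m : ℂ) * τ)) +
        2 * π * I * (χ j * (j.val : ℂ)) := by
    intro j; field_simp
  rw [Finset.sum_congr rfl (fun j _ => e j), Finset.sum_add_distrib, ← Finset.mul_sum,
    ← Finset.mul_sum, s48eis_sum_chi_E1 m χ hχ τ.im_pos]
  have hK := s48eis_K_mul m
  have hK2 : s48eis_K m * (2 * π * I) = -(1 / (2 * (m : ℂ))) := by
    unfold s48eis_K; field_simp; ring
  rw [mul_add, ← mul_assoc (s48eis_K m) (2 * π * I), hK2]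
  have : s48eis_K m * ((m : ℂ) * (-(4 * π * I) * ∑' d : ℕ, χ (d : ZMod m) * s48eis_L τ d)) =
      (s48eis_K m * ((m : ℂ) * -(4 * π * I))) * ∑' d : ℕ, χ (d : ZMod m) * s48eis_L τ d := by ring
  rw [this, hK, one_mul, add_comm]

/-! ### The `q`-expansion -/

/-- The `q`-expansion coefficients of `G_χ`. -/
def s48eis_gcoef (m : ℕ) [NeZero m] (χ : DirichletCharacter ℂ m) (n : ℕ) : ℂ :=
  if n = 0 then -(1 / (2 * (m : ℂ))) * ∑ a ∈ Finset.range m, χ (a : ZMod m) * (a : ℂ)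
  else ∑ d ∈ n.divisors, χ (d : ZMod m)

theorem s48eis_sum_chi_val (m : ℕ) [NeZero m] (χ : DirichletCharacter ℂ m) :
    ∑ j : ZMod m, χ j * (j.val : ℂ) = ∑ a ∈ Finset.range m, χ (a : ZMod m) * (a : ℂ) := by
  rw [← s48eis_sum_zmod_val m (fun a => χ (a : ZMod m) * (a : ℂ))]
  refine Finset.sum_congr rfl fun j _ => ?_
  simp only [ZMod.natCast_val, ZMod.cast_id', id]

theorem s48eis_Gchi_hasSum (m : ℕ) [NeZero m] (χ : DirichletCharacter ℂ m) (hχ : χ (-1) = -1)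
    (τ : ℍ) :
    HasSum (fun n : ℕ => s48eis_gcoef m χ n • Function.Periodic.qParam (1 : ℝ) (τ : ℂ) ^ n)
      (s48eis_Gchi m χ τ) := by
  rw [s48eis_Gchi_eq_tsum m χ hχ, s48eis_qParam_one, s48eis_sum_chi_val]
  have h := s48eis_lambert_L (fun d : ℕ => χ (d : ZMod m)) (C := 1)
    (fun k => DirichletCharacter.norm_le_one χ _) τ.im_pos
  have key := (hasSum_pnat_iff (f := fun n : ℕ => s48eis_gcoef m χ n • s48eis_r (τ : ℂ) ^ n)
    (a := ∑' d : ℕ, χ (d : ZMod m) * s48eis_L τ d)).mp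
  have h0 : s48eis_gcoef m χ 0 • s48eis_r (τ : ℂ) ^ 0 =
      -(1 / (2 * (m : ℂ))) * ∑ a ∈ Finset.range m, χ (a : ZMod m) * (a : ℂ) := by
    unfold s48eis_gcoef; simp
  have hfun : (fun x : ℕ+ => s48eis_gcoef m χ (x : ℕ) • s48eis_r (τ : ℂ) ^ (x : ℕ)) =
      fun e : ℕ+ => (∑ k ∈ (e : ℕ).divisors, χ (k : ZMod m)) * s48eis_r (τ : ℂ) ^ (e : ℕ) := by
    funext e
    unfold s48eis_gcoef
    rw [if_neg e.ne_zero, smul_eq_mul]
  have := key (by rw [hfun]; exact h)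
  rw [h0, add_comm] at this
  exact this

theorem s48eis_one_mem_strictPeriods (m : ℕ) :
    (1 : ℝ) ∈ ((Gamma1 m : Subgroup SL(2, ℤ)) : Subgroup (GL (Fin 2) ℝ)).strictPeriods := by simp

theorem s48eis_Gchi_qCoeff (m : ℕ) [NeZero m] (χ : DirichletCharacter ℂ m) (hχ : χ (-1) = -1)
    (n : ℕ) : ModularFormClass.qCoeff (s48eis_Gchi m χ) n = s48eis_gcoef m χ n := by
  unfold ModularFormClass.qCoeff
  exact (ModularFormClass.qExpansion_coeff_unique one_pos (s48eis_one_mem_strictPeriods m)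
    (f := s48eis_Gchi m χ) (s48eis_Gchi_hasSum m χ hχ) n).symm

/-! ### The value at the cusp `0` -/

theorem s48eis_Gsum_eq_scaled (m : ℕ) [NeZero m] (χ : DirichletCharacter ℂ m) (hχ : χ (-1) = -1)
    (τ : ℍ) :
    s48eis_Gsum m χ τ = (m : ℂ) * ∑ j : ZMod m, χ j * s48eis_h m ![(j.val : ℤ), 0] ((m : ℂ) * τ) := by
  classical
  have hm : (m : ℂ) ≠ 0 := Nat.cast_ne_zero.mpr (NeZero.ne m)
  rw [s48eis_Gsum_eq m χ hχ, Finset.mul_sum]
  refine Finset.sum_congr rfl fun j _ => ?_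
  by_cases hj : j = 0
  · subst hj; rw [s48eis_chi_zero χ hχ]; ring
  · unfold s48eis_h
    rw [if_neg (s48eis_not_bad_of_not_dvd (s48eis_not_dvd_val hj) _)]
    unfold s48eis_zdiv
    simp only [Matrix.cons_val_zero, Matrix.cons_val_one]
    have e : (((j.val : ℤ) : ℂ) * ((m : ℂ) * τ) + ((0 : ℤ) : ℂ)) / (m : ℂ) = (j.val : ℂ) * τ := by
      push_cast; field_simp; ring
    rw [e]
    push_cast
    ring

/-- `τ ↦ τ/m` on `ℍ`. -/
def s48eis_divH (m : ℕ) [NeZero m] (τ : ℍ) : ℍ :=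
  ⟨(τ : ℂ) / m, by
    have hm : (0 : ℝ) < m := by exact_mod_cast Nat.pos_of_ne_zero (NeZero.ne m)
    have : ((τ : ℂ) / (m : ℂ)).im = τ.im / m := by
      rw [show ((m : ℂ)) = ((m : ℝ) : ℂ) by push_cast; rfl, Complex.div_ofReal_im]; rfl
    rw [this]; exact div_pos τ.im_pos hm⟩

theorem s48eis_divH_coe (m : ℕ) [NeZero m] (τ : ℍ) : ((s48eis_divH m τ : ℍ) : ℂ) = (τ : ℂ) / m := rfl

theorem s48eis_divH_im (m : ℕ) [NeZero m] (τ : ℍ) : (s48eis_divH m τ).im = τ.im / m := by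
  show ((τ : ℂ) / (m : ℂ)).im = τ.im / m
  rw [show ((m : ℂ)) = ((m : ℝ) : ℂ) by push_cast; rfl, Complex.div_ofReal_im]; rfl

theorem s48eis_tendsto_divH (m : ℕ) [NeZero m] : Tendsto (s48eis_divH m) atImInfty atImInfty := by
  have hm : (0 : ℝ) < m := by exact_mod_cast Nat.pos_of_ne_zero (NeZero.ne m)
  unfold atImInfty
  rw [tendsto_comap_iff]
  have : (UpperHalfPlane.im ∘ s48eis_divH m) = fun τ : ℍ => τ.im / m := by
    funext τ; exact s48eis_divH_im m τ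
  rw [this]
  exact Filter.Tendsto.atTop_div_const hm tendsto_comap

theorem s48eis_Gchi_slash_S (m : ℕ) [NeZero m] (χ : DirichletCharacter ℂ m) (hχ : χ (-1) = -1)
    (τ : ℍ) :
    ((⇑(s48eis_Gchi m χ) : ℍ → ℂ) ∣[(1 : ℤ)] ModularGroup.S) τ =
      s48eis_K m * ∑ j : ZMod m, χ j * s48eis_H m ![0, -(j.val : ℤ)] (s48eis_divH m τ) := by
  have hm : (m : ℂ) ≠ 0 := Nat.cast_ne_zero.mpr (NeZero.ne m)
  have hτ0 : (τ : ℂ) ≠ 0 := UpperHalfPlane.ne_zero τ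
  rw [SL_slash_apply, ModularGroup.denom_S, UpperHalfPlane.modular_S_smul, s48eis_Gchi_apply,
    s48eis_Gsum_eq_scaled m χ hχ]
  have hc : ((UpperHalfPlane.mk (-(τ : ℂ))⁻¹ τ.im_inv_neg_coe_pos : ℍ) : ℂ) = (-(τ : ℂ))⁻¹ := rfl
  rw [hc]
  have harg : (m : ℂ) * (-(τ : ℂ))⁻¹ = -((s48eis_divH m τ : ℍ) : ℂ)⁻¹ := by
    rw [s48eis_divH_coe]; field_simp
  rw [harg]
  have hS : ∀ j : ZMod m, s48eis_h m ![(j.val : ℤ), 0] (-((s48eis_divH m τ : ℍ) : ℂ)⁻¹) =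
      ((s48eis_divH m τ : ℍ) : ℂ) * s48eis_H m ![0, -(j.val : ℤ)] (s48eis_divH m τ) := by
    intro j
    rw [s48eis_h_S m _ (s48eis_divH m τ).im_pos]
    simp only [Matrix.cons_val_zero, Matrix.cons_val_one]
    rfl
  simp only [hS]
  rw [s48eis_divH_coe, _root_.zpow_neg, zpow_one]
  have : ∀ j : ZMod m, χ j * ((τ : ℂ) / m * s48eis_H m ![0, -(j.val : ℤ)] (s48eis_divH m τ)) =
      (τ : ℂ) / m * (χ j * s48eis_H m ![0, -(j.val : ℤ)] (s48eis_divH m τ)) := by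
    intro j; ring
  simp only [this]
  rw [← Finset.mul_sum]
  field_simp

theorem s48eis_tendsto_H_zero (N : ℕ) [NeZero N] (a2 : ℤ) (ha : ¬ (N : ℤ) ∣ a2) :
    Tendsto (s48eis_H N ![0, a2]) atImInfty (𝓝 (s48eis_c ((((a2 : ℝ) / N : ℝ)) : ℂ))) := by
  have h1 := s48eis_one_mem_strictPeriods N
  have han := ModularFormClass.analyticAt_cuspFunction_zero (s48eis_HMF N a2) one_pos h1
  have hco := ModularFormClass.qExpansion_coeff_unique one_pos h1 (f := s48eis_HMF N a2)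
    (s48eis_H_hasSum N a2 ha) 0
  have hq0 : (qExpansion 1 (s48eis_HMF N a2)).coeff 0 = cuspFunction 1 (s48eis_HMF N a2) 0 := by
    simp [qExpansion_coeff]
  have hc0 : s48eis_coef N a2 0 = s48eis_c ((((a2 : ℝ) / N : ℝ)) : ℂ) := by
    unfold s48eis_coef; simp
  have ht := han.continuousAt.tendsto.comp (qParam_tendsto_atImInfty (h := 1) one_pos)
  have hfun : (cuspFunction 1 (s48eis_HMF N a2) ∘ fun τ : ℍ => Function.Periodic.qParam 1 (τ : ℂ)) =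
      s48eis_H N ![0, a2] := by
    funext τ
    exact SlashInvariantFormClass.eq_cuspFunction (s48eis_HMF N a2) τ h1 one_ne_zero
  rw [hfun, ← hq0, ← hco, hc0] at ht
  exact ht

/-- **The value of `G_χ` at the cusp `0`**. -/
theorem s48eis_Gchi_tendsto_S (m : ℕ) [NeZero m] (χ : DirichletCharacter ℂ m) (hχ : χ (-1) = -1) :
    Tendsto (fun τ : ℍ => ((⇑(s48eis_Gchi m χ) : ℍ → ℂ) ∣[(1 : ℤ)] ModularGroup.S) τ) atImInfty
      (𝓝 ((1 / (4 * I * (m : ℂ))) *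
        ∑ a ∈ Finset.range m, χ (a : ZMod m) * Complex.cot (π * a / m))) := by
  have hm : (m : ℂ) ≠ 0 := Nat.cast_ne_zero.mpr (NeZero.ne m)
  have hpi : (π : ℂ) ≠ 0 := Complex.ofReal_ne_zero.mpr Real.pi_ne_zero
  have hfun : (fun τ : ℍ => ((⇑(s48eis_Gchi m χ) : ℍ → ℂ) ∣[(1 : ℤ)] ModularGroup.S) τ) =
      fun τ : ℍ => s48eis_K m *
        ∑ j : ZMod m, χ j * s48eis_H m ![0, -(j.val : ℤ)] (s48eis_divH m τ) := by
    funext τ; exact s48eis_Gchi_slash_S m χ hχ τ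
  rw [hfun]
  have hterm : ∀ j ∈ (Finset.univ : Finset (ZMod m)),
      Tendsto (fun τ : ℍ => χ j * s48eis_H m ![0, -(j.val : ℤ)] (s48eis_divH m τ)) atImInfty
        (𝓝 (χ j * s48eis_c ((((-(j.val : ℤ) : ℤ) : ℝ) / m : ℝ) : ℂ))) := by
    intro j _
    by_cases hj : j = 0
    · subst hj
      rw [s48eis_chi_zero χ hχ]
      simp only [zero_mul]
      exact tendsto_const_nhds
    · have hnd : ¬ (m : ℤ) ∣ -(j.val : ℤ) := by
        rw [dvd_neg]; exact s48eis_not_dvd_val hj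
      exact ((s48eis_tendsto_H_zero m _ hnd).comp (s48eis_tendsto_divH m)).const_mul _
  have hsum := (tendsto_finsetSum _ hterm).const_mul (s48eis_K m)
  convert hsum using 2
  rw [← s48eis_sum_zmod_val m (fun a => χ (a : ZMod m) * Complex.cot (π * a / m)), Finset.mul_sum,
    Finset.mul_sum]
  refine Finset.sum_congr rfl fun j _ => ?_
  rw [ZMod.natCast_zmod_val]
  have e : ((((-(j.val : ℤ) : ℤ) : ℝ) / m : ℝ) : ℂ) = -((j.val : ℂ) / m) := by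
    push_cast; ring
  rw [e, s48eis_c_neg]
  unfold s48eis_c s48eis_K
  have e2 : (π : ℂ) * ((j.val : ℂ) / m) = π * (j.val : ℂ) / m := by ring
  rw [e2]
  have hI : (I : ℂ) ≠ 0 := Complex.I_ne_zero
  field_simp

end Fermat.Agent.Lib.S48
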