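/-
Programme DS-1 (S48, Deligne–Serre in weight one), TOP-LEVEL INTERFACE v2 (programme lead: helper1).
Statements only (Mathlib + Prelude).  Namespace `Fermat.Agent.Lib.S48`, prefix `s48i_`.

LEVEL 1 (top reduction [T1], DS §8, helper7):
  S48  ⇐  `s48i_Rat` [T3]  +  `s48i_ModL` [MODL]  +  Chebotarev [T2]  (+ DS 7.2, lifting: done)
LEVEL 2:
  `s48i_Rat`   ⇐  `s48i_Dep` + `s48i_Eis` + landed S23                 ("Eisenstein division", helper1)
  `s48i_ModL`  ⇐  `s48i_Rat` + `s48i_Dep` + `s48i_Eis` + `s48i_S29H`    (wiring, helper1)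
LEVEL 3 (`KIfaceH.lean`, to be fixed by the [T5] owner):
  `s48i_S29H`  ⇐  [T5]–[T9]: layer model, analytic core, reduction, Eichler–Shimura, wild steps, [GS]/[PACK].

All nebentypus conditions are at FUNCTION level with a character `χ : ℤ → ℂ` evaluated at the lower
right entry, so that no `DirichletCharacter.changeLevel` appears in the interfaces.
-/
import Mathlib
import Fermat.Prelude.Def_FLTPrelim_Modularity
import Fermat.Prelude.Def_GaloisRep_Residual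
import Fermat.Prelude.Def_Deformations_MatrixRepresentation

set_option autoImplicit false

open CongruenceSubgroup Polynomial UpperHalfPlane ModularForm Matrix.SpecialLinearGroup
open scoped MatrixGroups ModularForm

namespace Fermat.Agent.Lib.S48

local notation "Γℚ" => (AlgebraicClosure ℚ ≃ₐ[ℚ] AlgebraicClosure ℚ)
local notation "𝓞" => integralClosure ℤ ℂ

/-! ### Level 1 -/

/-- the hypotheses of S48. -/
def s48i_Hyp (N : ℕ) [NeZero N] (ε : DirichletCharacter ℂ N) (f : CuspForm (Gamma1 N) 1) : Prop :=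
  ModularFormClass.qCoeff f 1 = 1 ∧
  ∀ p : ℕ, p.Prime → ¬ p ∣ N → ∀ n : ℕ,
    ModularFormClass.qCoeff f (p * n) +
        ε (p : ZMod N) * (if p ∣ n then ModularFormClass.qCoeff f (n / p) else 0) =
      ModularFormClass.qCoeff f p * ModularFormClass.qCoeff f n

/-- the conclusion of S48. -/
def s48i_Concl (N : ℕ) [NeZero N] (ε : DirichletCharacter ℂ N) (f : CuspForm (Gamma1 N) 1) :
    Prop :=
  ∃ ρ : Γℚ →* GL (Fin 2) ℂ, GaloisFactorsThroughFiniteLevel ρ ∧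
    (Deformation.matrixRepresentation ρ).IsIrreducible ∧
    ∀ p : ℕ, p.Prime → ¬ p ∣ N →
      ∀ A : ValuationSubring (AlgebraicClosure ℚ), A.LiesOverPrime p →
        (∀ σ ∈ A.inertiaSubgroupIn ℚ, ρ σ = 1) ∧
        ∀ σ : Γℚ, A.IsFrobeniusAt σ p →
          ((ρ σ : GL (Fin 2) ℂ) : Matrix (Fin 2) (Fin 2) ℂ).trace = ModularFormClass.qCoeff f p ∧
          ((ρ σ : GL (Fin 2) ℂ) : Matrix (Fin 2) (Fin 2) ℂ).det = ε (p : ZMod N)

/-- **[T3] = [RAT-1]**.  The eigenvalues `a_p` (`p ∤ N`) and the values of `ε` are algebraic integers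
of ONE number field `K ⊆ ℂ`, and for EVERY embedding `σ : K → ℂ` the conjugate system `σ(a_p)` is again
the eigen-system of a weight-one cusp form satisfying the hypotheses of S48 (at a level `N'` with the same
prime divisors as `N`). -/
def s48i_Rat : Prop :=
  ∀ (N : ℕ) [NeZero N] (ε : DirichletCharacter ℂ N) (f : CuspForm (Gamma1 N) 1),
    s48i_Hyp N ε f →
    ∃ K : IntermediateField ℚ ℂ, FiniteDimensional ℚ K ∧
      (∀ a : ZMod N, ε a ∈ K) ∧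
      (∀ p : ℕ, p.Prime → ¬ p ∣ N → IsIntegral ℤ (ModularFormClass.qCoeff f p)) ∧
      ∃ hK : ∀ p : ℕ, p.Prime → ¬ p ∣ N → ModularFormClass.qCoeff f p ∈ K,
      ∀ σ : K →+* ℂ, ∃ (N' : ℕ) (_ : NeZero N') (ε' : DirichletCharacter ℂ N')
          (f' : CuspForm (Gamma1 N') 1),
        N ∣ N' ∧ (∀ q : ℕ, q.Prime → q ∣ N' → q ∣ N) ∧ s48i_Hyp N' ε' f' ∧
        ∀ p : ℕ, ∀ hp : p.Prime, ∀ hpN : ¬ p ∣ N,
          ModularFormClass.qCoeff f' p = σ ⟨ModularFormClass.qCoeff f p, hK p hp hpN⟩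

/-- a residual representation is attached to `(f, ε)` at the prime `p` (via `φ`). -/
def s48i_AttachedAt {N : ℕ} [NeZero N] (ε : DirichletCharacter ℂ N) (f : CuspForm (Gamma1 N) 1)
    {k : Type} [Field k] (φ : 𝓞 →+* k) (ρ : ResidualGaloisRep k) (p : ℕ) : Prop :=
  ρ.IsUnramifiedAt p ∧
  ∀ A : ValuationSubring (AlgebraicClosure ℚ), A.LiesOverPrime p →
    ∀ σ : Γℚ, A.IsFrobeniusAt σ p →
      ∃ a e : 𝓞, (a : ℂ) = ModularFormClass.qCoeff f p ∧ (e : ℂ) = ε (p : ZMod N) ∧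
        LinearMap.charpoly (ρ.ρ σ) = X ^ 2 - C (φ a) * X + C (φ e)

/-- **[MODL]** (= DS Thm 6.7 for all `λ`): for all large primes `ℓ ≡ 11 mod 12` and EVERY residue map
`φ : 𝓞 → k`, `char k = ℓ`, there is a two-dimensional residual representation over the SAME `k`
attached to `(f, ε)` at all primes `p ∤ Nℓ`.  (No semisimplicity is claimed.  `ℓ ≡ 11 mod 12`: no
elliptic points on `X₀(N²ℓ)`, so that the layer `X_H → X₀(N²ℓ)` is unramified.) -/
def s48i_ModL : Prop :=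
  ∀ (N : ℕ) [NeZero N] (ε : DirichletCharacter ℂ N) (f : CuspForm (Gamma1 N) 1),
    s48i_Hyp N ε f →
    ∃ B : ℕ, ∀ ℓ : ℕ, ℓ.Prime → B < ℓ → ℓ % 12 = 11 →
      ∀ (k : Type) [Field k] [CharP k ℓ] (φ : 𝓞 →+* k),
        ∃ ρ : ResidualGaloisRep k,
          ∀ p : ℕ, p.Prime → ¬ p ∣ N * ℓ → s48i_AttachedAt ε f φ ρ p

/-- **the shape of the top reduction [T1]** (DS §8); `hCheb` = the Chebotarev statement [T2] in the
form agreed between helper7 and helper9 (`s48t_Chebotarev`). -/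
def s48i_Top (hCheb : Prop) : Prop :=
  s48i_Rat → s48i_ModL → hCheb →
    ∀ (N : ℕ) [NeZero N] (ε : DirichletCharacter ℂ N) (f : CuspForm (Gamma1 N) 1),
      s48i_Hyp N ε f → s48i_Concl N ε f

/-! ### Level 2 -/

/-- nebentypus at function level: `F ∣[k] γ = χ(d_γ) F` for `γ ∈ Γ₀(M)`. -/
def s48i_Neben (M : ℕ) (k : ℤ) (χ : ℤ → ℂ) (F : ℍ → ℂ) : Prop :=
  ∀ γ : SL(2, ℤ), γ ∈ Gamma0 M →
    F ∣[k] (mapGL ℝ γ : GL (Fin 2) ℝ) = χ (γ 1 1) • F

/-- **[DEP]** depletion in weight one: the form `Σ_{(n,N)=1} a_n qⁿ` on `Γ₁(N²)`. -/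
def s48i_Dep : Prop :=
  ∀ (N : ℕ) [NeZero N] (χ : ℤ → ℂ) (f : CuspForm (Gamma1 N) 1), s48i_Neben N 1 χ f →
    ∃ f' : CuspForm (Gamma1 (N ^ 2)) 1, s48i_Neben (N ^ 2) 1 χ f' ∧
      ∀ n : ℕ, ModularFormClass.qCoeff f' n =
        if n.Coprime N then ModularFormClass.qCoeff f n else 0

/-- **[T4] = [EIS-1]** (with [NV]): for every ODD Dirichlet character `χ` mod `m` the weight-one
Eisenstein series `G_χ = c₀(χ) + Σ_{n ≥ 1} (Σ_{d ∣ n} χ(d)) qⁿ`, `c₀(χ) = -(1/2m) Σ_{0<a<m} χ(a) a`,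
is a modular form on `Γ₁(m)` with nebentypus `χ`, and its value at the cusp `0` is NONZERO
(`= L(1, χ)/(2πi)`, Dirichlet). -/
def s48i_Eis : Prop :=
  ∀ (m : ℕ) [NeZero m] (χ : DirichletCharacter ℂ m), χ (-1) = -1 →
    ∃ G : ModularForm (Gamma1 m) 1,
      s48i_Neben m 1 (fun d => χ (d : ZMod m)) G ∧
      (∀ n : ℕ, 1 ≤ n →
        ModularFormClass.qCoeff G n = ∑ d ∈ n.divisors, χ (d : ZMod m)) ∧
      ModularFormClass.qCoeff G 0
        = -(1 / (2 * (m : ℂ))) * ∑ a ∈ Finset.range m, χ (a : ZMod m) * (a : ℂ) ∧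
      ∃ c : ℂ, c ≠ 0 ∧
        Filter.Tendsto (fun τ : ℍ => ((⇑G) ∣[(1 : ℤ)] (mapGL ℝ ModularGroup.S : GL (Fin 2) ℝ)) τ)
          atImInfty (nhds c)

/-- a weight-two cusp form on `Γ₁(M)` with nebentypus `ψ` and coefficients `c n ∈ 𝓞` is a
mod-`φ` eigenform away from `M` with eigenvalues `φ (α p)`. -/
def s48i_ModEigen (M : ℕ) [NeZero M] (ψ : DirichletCharacter ℂ M) (g : CuspForm (Gamma1 M) 2)
    {k : Type} [Field k] (φ : 𝓞 →+* k) (α c : ℕ → 𝓞) (ψ' : ZMod M → 𝓞) : Prop :=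
  s48i_Neben M 2 (fun d => ψ (d : ZMod M)) g ∧
  (∀ a : ZMod M, (ψ' a : ℂ) = ψ a) ∧
  (∀ n : ℕ, ModularFormClass.qCoeff g n = (c n : ℂ)) ∧
  (∃ n : ℕ, φ (c n) ≠ 0) ∧
  ∀ p : ℕ, p.Prime → ¬ p ∣ M → ∀ n : ℕ,
    φ (c (p * n) + ψ' (p : ZMod M) * (p : 𝓞) * (if p ∣ n then c (n / p) else 0))
      = φ (α p) * φ (c n)

/-- **[(D2)] = twisted S29** ([T5]–[T9]), at the level `M = N²ℓ`, `ℓ ≡ 11 mod 12`, `ℓ ∤ N`, for a
character `ψ` mod `M` of conductor dividing `Nℓ` and of order prime to `ℓ` (`ℓ` = the residue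
characteristic): a mod-`φ` eigenform of weight two with nebentypus `ψ` has a two-dimensional residual
representation over the same `k`, unramified at every `p ∤ Nℓ`, with Frobenius characteristic polynomial
`X² - φ(α_p) X + p·φ(ψ(p))`. -/
def s48i_S29H : Prop :=
  ∀ (N ℓ : ℕ) [NeZero N] [NeZero (N ^ 2 * ℓ)], ℓ.Prime → ℓ % 12 = 11 → ¬ ℓ ∣ N →
    ∀ (ψ : DirichletCharacter ℂ (N ^ 2 * ℓ)) (g : CuspForm (Gamma1 (N ^ 2 * ℓ)) 2),
    ψ.FactorsThrough (N * ℓ) → ¬ ℓ ∣ orderOf ψ →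
    ∀ (k : Type) [Field k] [CharP k ℓ] (φ : 𝓞 →+* k) (α c : ℕ → 𝓞) (ψ' : ZMod (N ^ 2 * ℓ) → 𝓞),
      s48i_ModEigen (N ^ 2 * ℓ) ψ g φ α c ψ' →
      ∃ ρ : ResidualGaloisRep k,
        ∀ p : ℕ, p.Prime → ¬ p ∣ N * ℓ →
          ρ.IsUnramifiedAt p ∧
          ∀ A : ValuationSubring (AlgebraicClosure ℚ), A.LiesOverPrime p →
            ∀ σ : Γℚ, A.IsFrobeniusAt σ p →
              LinearMap.charpoly (ρ.ρ σ)
                = X ^ 2 - C (φ (α p)) * X + C ((p : k) * φ (ψ' (p : ZMod (N ^ 2 * ℓ))))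

end Fermat.Agent.Lib.S48
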