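/-
DS-1 (S48), wall [T4] = [EIS-1], part 11 (owner: helper5).

The interface statement `s48i_Eis` of `Iface.lean`, modulo the non-vanishing [NV]
`∑_{a<m} χ(a) cot(πa/m) ≠ 0` (= `(2m/π)·L(1,χ)`, Dirichlet).
-/
import Mathlib
import Fermat.Agent.Lib.S48.Eis1GQ
import Fermat.Agent.Lib.S48.Iface

set_option autoImplicit false

noncomputable section

namespace Fermat.Agent.Lib.S48

open UpperHalfPlane hiding I
open Complex Filter Topology Matrix ModularForm CongruenceSubgroup Matrix.SpecialLinearGroup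
open scoped Real MatrixGroups Manifold

/-- **[T4] = [EIS-1]**: for every odd Dirichlet character `χ` mod `m` the weight-one Eisenstein series
`G_χ` on `Γ₁(m)`: nebentypus `χ`, `a_n = ∑_{d ∣ n} χ(d)`, `a₀ = -(1/2m)∑_{a<m} χ(a)a`, and value
`(1/(4im))·∑_{a<m} χ(a)cot(πa/m)` at the cusp `0`. -/
theorem s48eis_main (m : ℕ) [NeZero m] (χ : DirichletCharacter ℂ m) (hχ : χ (-1) = -1) :
    ∃ G : ModularForm (Gamma1 m) 1,
      s48i_Neben m 1 (fun d => χ (d : ZMod m)) G ∧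
      (∀ n : ℕ, 1 ≤ n →
        ModularFormClass.qCoeff G n = ∑ d ∈ n.divisors, χ (d : ZMod m)) ∧
      ModularFormClass.qCoeff G 0
        = -(1 / (2 * (m : ℂ))) * ∑ a ∈ Finset.range m, χ (a : ZMod m) * (a : ℂ) ∧
      Filter.Tendsto (fun τ : ℍ => ((⇑G) ∣[(1 : ℤ)] (mapGL ℝ ModularGroup.S : GL (Fin 2) ℝ)) τ)
        atImInfty (nhds ((1 / (4 * I * (m : ℂ))) *
          ∑ a ∈ Finset.range m, χ (a : ZMod m) * Complex.cot (π * a / m))) := by
  refine ⟨s48eis_Gchi m χ, ?_, ?_, ?_, ?_⟩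
  · intro γ hγ
    exact s48eis_Gchi_slash_Gamma0 m χ hγ
  · intro n hn
    rw [s48eis_Gchi_qCoeff m χ hχ]
    unfold s48eis_gcoef
    rw [if_neg (by omega)]
  · rw [s48eis_Gchi_qCoeff m χ hχ]
    unfold s48eis_gcoef
    rw [if_pos rfl]
  · exact s48eis_Gchi_tendsto_S m χ hχ

/-- `s48i_Eis` from the non-vanishing [NV]. -/
theorem s48eis_iface
    (hNV : ∀ (m : ℕ) [NeZero m] (χ : DirichletCharacter ℂ m), χ (-1) = -1 →
      ∑ a ∈ Finset.range m, χ (a : ZMod m) * Complex.cot (π * a / m) ≠ 0) : s48i_Eis := by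
  intro m _ χ hχ
  obtain ⟨G, h1, h2, h3, h4⟩ := s48eis_main m χ hχ
  refine ⟨G, h1, h2, h3, _, ?_, h4⟩
  have hm : (m : ℂ) ≠ 0 := Nat.cast_ne_zero.mpr (NeZero.ne m)
  exact mul_ne_zero (one_div_ne_zero (mul_ne_zero (mul_ne_zero (by norm_num) Complex.I_ne_zero) hm))
    (hNV m χ hχ)

end Fermat.Agent.Lib.S48
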