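/-
DS-1 (S48), brick [NV] (lead, prefix `s48n_`): **the value at the cusp `0` of the weight-one Eisenstein
series `G_χ` is nonzero**, in the form
  `Σ_{0 ≤ a < m} χ(a) · cot(π a / m) = (2m/π) · L(1, χ) ≠ 0`   for every ODD Dirichlet character `χ` mod `m`.
Mathlib only.  Route: `hurwitzZetaOdd a 1 = (π/2) cot(π a)` for `0 < a < 1`, obtained from the paired series
`Σ_{n ≥ 0} ((n+a)^{-s} − (n+1−a)^{-s})/2` (Mathlib: `hasSum_nat_hurwitzZetaOdd_of_mem_Icc`, `s > 1`) by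
dominated convergence as `s → 1⁺` (bound `1/n²`, uniform for `s ∈ [1,2]`), the continuity of
`hurwitzZetaOdd`, and Euler's partial fractions of the cotangent (`tendsto_logDeriv_euler_cot_sub`);
then `ZMod.LFunction_def_odd` and `DirichletCharacter.LFunction_apply_one_ne_zero`.
-/
import Mathlib

set_option autoImplicit false

open Complex Filter Topology HurwitzZeta
open scoped Real

namespace Fermat.Agent.Lib.S48

/-- elementary bound for a difference of negative real powers, uniform for `s ∈ [1, 2]`. -/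
lemma s48n_rpow_diff_bound {x y s : ℝ} (hx : 1 ≤ x) (hxy : x ≤ y) (hs1 : 1 ≤ s) (hs2 : s ≤ 2) :
    |x ^ (-s) - y ^ (-s)| ≤ 2 * (y - x) / (x * y) := by
  have hx0 : 0 < x := by linarith
  have hy0 : 0 < y := by linarith
  have hr0 : 0 < x / y := div_pos hx0 hy0
  have hr1 : x / y ≤ 1 := (div_le_one hy0).mpr hxy
  have h1 : y ^ (-s) = x ^ (-s) * (x / y) ^ s := by
    rw [Real.div_rpow hx0.le hy0.le, Real.rpow_neg hx0.le, Real.rpow_neg hy0.le]
    have : x ^ s ≠ 0 := (Real.rpow_pos_of_pos hx0 s).ne'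
    field_simp
  have h2 : (x / y) ^ (2 : ℝ) ≤ (x / y) ^ s :=
    Real.rpow_le_rpow_of_exponent_ge hr0 hr1 hs2
  have h3 : (x / y) ^ s ≤ 1 := Real.rpow_le_one hr0.le hr1 (by linarith)
  have h4 : x ^ (-s) ≤ x ^ (-1 : ℝ) :=
    Real.rpow_le_rpow_of_exponent_le hx (by linarith)
  have h5 : x ^ (-1 : ℝ) = 1 / x := by rw [Real.rpow_neg_one, one_div]
  have h6 : 0 < x ^ (-s) := Real.rpow_pos_of_pos hx0 _
  have h7 : (x / y) ^ (2 : ℝ) = (x / y) ^ 2 := by
    rw [← Real.rpow_natCast]; norm_num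
  have h8 : 1 - (x / y) ^ 2 ≤ 2 * (y - x) / y := by
    rw [div_pow, ← sub_nonneg]
    have : 2 * (y - x) / y - (1 - x ^ 2 / y ^ 2) = (y - x) ^ 2 / y ^ 2 := by
      field_simp; ring
    rw [this]; positivity
  have h9 : 0 ≤ 1 - (x / y) ^ s := by linarith
  rw [h7] at h2
  rw [h1, abs_of_nonneg (by nlinarith)]
  calc x ^ (-s) - x ^ (-s) * (x / y) ^ s = x ^ (-s) * (1 - (x / y) ^ s) := by ring
    _ ≤ (1 / x) * (2 * (y - x) / y) := by
        apply mul_le_mul (by rw [← h5]; exact h4) (by linarith) h9 (by positivity)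
    _ = 2 * (y - x) / (x * y) := by field_simp

/-- symmetric version. -/
lemma s48n_rpow_diff_bound' {x y s : ℝ} (hx : 1 ≤ x) (hy : 1 ≤ y) (hs1 : 1 ≤ s) (hs2 : s ≤ 2) :
    |x ^ (-s) - y ^ (-s)| ≤ 2 * |y - x| / (x * y) := by
  rcases le_total x y with h | h
  · rw [abs_of_nonneg (sub_nonneg.mpr h)]
    exact s48n_rpow_diff_bound hx h hs1 hs2
  · rw [abs_sub_comm, abs_of_nonpos (sub_nonpos.mpr h), neg_sub, mul_comm x y]
    exact s48n_rpow_diff_bound hy h hs1 hs2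

/-- the paired term of the odd Hurwitz zeta function (real version). -/
noncomputable def s48n_rterm (a : ℝ) (n : ℕ) (s : ℝ) : ℝ :=
  (((n : ℝ) + a) ^ (-s) - ((n : ℝ) + 1 - a) ^ (-s)) / 2

/-- the summable bound. -/
noncomputable def s48n_bound (a : ℝ) (n : ℕ) : ℝ :=
  if n = 0 then (a ^ (-2 : ℝ) + (1 - a) ^ (-2 : ℝ)) / 2 else 1 / (n : ℝ) ^ 2

lemma s48n_summable_bound (a : ℝ) : Summable (s48n_bound a) := by
  have h : Summable (fun n : ℕ => 1 / (n : ℝ) ^ 2) := Real.summable_one_div_nat_pow.mpr one_lt_two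
  refine (summable_nat_add_iff 1).mp ?_
  refine ((summable_nat_add_iff 1).mpr h).congr fun n => ?_
  simp [s48n_bound]

lemma s48n_rterm_bound {a : ℝ} (ha : 0 < a) (ha' : a < 1) (n : ℕ) {s : ℝ} (hs1 : 1 ≤ s)
    (hs2 : s ≤ 2) : |s48n_rterm a n s| ≤ s48n_bound a n := by
  unfold s48n_rterm s48n_bound
  split_ifs with hn
  · subst hn
    simp only [Nat.cast_zero, zero_add]
    have h1 : a ^ (-s) ≤ a ^ (-2 : ℝ) :=
      Real.rpow_le_rpow_of_exponent_ge ha ha'.le (by linarith)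
    have h2 : (1 - a) ^ (-s) ≤ (1 - a) ^ (-2 : ℝ) :=
      Real.rpow_le_rpow_of_exponent_ge (by linarith) (by linarith) (by linarith)
    have h3 : 0 < a ^ (-s) := Real.rpow_pos_of_pos ha _
    have h4 : 0 < (1 - a) ^ (-s) := Real.rpow_pos_of_pos (by linarith) _
    rw [abs_le]
    constructor <;> linarith
  · have hn1 : (1 : ℝ) ≤ n := by exact_mod_cast Nat.one_le_iff_ne_zero.mpr hn
    have hb := s48n_rpow_diff_bound' (x := (n : ℝ) + a) (y := (n : ℝ) + 1 - a) (s := s)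
      (by linarith) (by linarith) hs1 hs2
    rw [abs_div, abs_of_pos (by norm_num : (0 : ℝ) < 2)]
    have h5 : |(n : ℝ) + 1 - a - ((n : ℝ) + a)| ≤ 1 := by
      rw [abs_le]; constructor <;> linarith
    have h6 : (n : ℝ) ^ 2 ≤ ((n : ℝ) + a) * ((n : ℝ) + 1 - a) := by nlinarith
    have h7 : (0 : ℝ) < (n : ℝ) ^ 2 := by positivity
    calc |((n : ℝ) + a) ^ (-s) - ((n : ℝ) + 1 - a) ^ (-s)| / 2
        ≤ (2 * |(n : ℝ) + 1 - a - ((n : ℝ) + a)| / (((n : ℝ) + a) * ((n : ℝ) + 1 - a))) / 2 := by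
          gcongr
      _ = |(n : ℝ) + 1 - a - ((n : ℝ) + a)| / (((n : ℝ) + a) * ((n : ℝ) + 1 - a)) := by ring
      _ ≤ 1 / (n : ℝ) ^ 2 := by
          apply div_le_div₀ zero_le_one h5 h7 h6

/-- the complex term of Mathlib's series is the cast of the real term. -/
lemma s48n_term_eq {a : ℝ} (ha : 0 < a) (ha' : a < 1) (n : ℕ) (s : ℝ) :
    (1 / ((n : ℂ) + a) ^ (s : ℂ) - 1 / ((n : ℂ) + 1 - a) ^ (s : ℂ)) / 2
      = ((s48n_rterm a n s : ℝ) : ℂ) := by
  have h1 : (0 : ℝ) ≤ (n : ℝ) + a := by positivity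
  have h2 : (0 : ℝ) ≤ (n : ℝ) + 1 - a := by
    have : (0 : ℝ) ≤ n := Nat.cast_nonneg n
    linarith
  unfold s48n_rterm
  rw [Real.rpow_neg h1, Real.rpow_neg h2]
  push_cast
  rw [Complex.ofReal_cpow h1, Complex.ofReal_cpow h2]
  push_cast
  simp only [one_div]

lemma s48n_rterm_continuous {a : ℝ} (ha : 0 < a) (ha' : a < 1) (n : ℕ) :
    Continuous (fun s : ℝ => s48n_rterm a n s) := by
  unfold s48n_rterm
  have h1 : (0 : ℝ) < (n : ℝ) + a := by positivity
  have h2 : (0 : ℝ) < (n : ℝ) + 1 - a := by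
    have : (0 : ℝ) ≤ n := Nat.cast_nonneg n
    linarith
  have c1 : Continuous (fun s : ℝ => ((n : ℝ) + a) ^ (-s)) :=
    (Real.continuous_const_rpow h1.ne').comp continuous_neg
  have c2 : Continuous (fun s : ℝ => ((n : ℝ) + 1 - a) ^ (-s)) :=
    (Real.continuous_const_rpow h2.ne').comp continuous_neg
  exact (c1.sub c2).div_const 2

lemma s48n_summable_rterm {a : ℝ} (ha : 0 < a) (ha' : a < 1) {s : ℝ} (hs1 : 1 ≤ s)
    (hs2 : s ≤ 2) : Summable (fun n => s48n_rterm a n s) :=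
  Summable.of_norm_bounded (s48n_summable_bound a)
    (fun n => by simpa using s48n_rterm_bound ha ha' n hs1 hs2)

/-- **the value of the odd Hurwitz zeta function at `s = 1` as a (conditionally convergent, paired)
series.** -/
lemma s48n_hurwitzZetaOdd_one_eq_tsum {a : ℝ} (ha : 0 < a) (ha' : a < 1) :
    hurwitzZetaOdd (a : UnitAddCircle) 1 = ((∑' n : ℕ, s48n_rterm a n 1 : ℝ) : ℂ) := by
  -- the sum is continuous from the right at `1`
  have hT : Tendsto (fun s : ℝ => ∑' n : ℕ, s48n_rterm a n s) (𝓝[>] (1 : ℝ))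
      (𝓝 (∑' n : ℕ, s48n_rterm a n 1)) := by
    refine tendsto_tsum_of_dominated_convergence (s48n_summable_bound a) (fun n => ?_) ?_
    · exact ((s48n_rterm_continuous ha ha' n).tendsto 1).mono_left nhdsWithin_le_nhds
    · have : Set.Ioc (1 : ℝ) 2 ∈ 𝓝[>] (1 : ℝ) := Ioc_mem_nhdsGT (by norm_num)
      filter_upwards [this] with s hs n
      simpa using s48n_rterm_bound ha ha' n hs.1.le hs.2
  have hT' : Tendsto (fun s : ℝ => ((∑' n : ℕ, s48n_rterm a n s : ℝ) : ℂ)) (𝓝[>] (1 : ℝ))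
      (𝓝 ((∑' n : ℕ, s48n_rterm a n 1 : ℝ) : ℂ)) :=
    (Complex.continuous_ofReal.tendsto _).comp hT
  -- the zeta function is continuous
  have hZ : Tendsto (fun s : ℝ => hurwitzZetaOdd (a : UnitAddCircle) (s : ℂ)) (𝓝[>] (1 : ℝ))
      (𝓝 (hurwitzZetaOdd (a : UnitAddCircle) 1)) := by
    have hc : Continuous (fun s : ℝ => hurwitzZetaOdd (a : UnitAddCircle) (s : ℂ)) :=
      (differentiable_hurwitzZetaOdd (a : UnitAddCircle)).continuous.comp Complex.continuous_ofReal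
    have := (hc.tendsto 1).mono_left (nhdsWithin_le_nhds (s := Set.Ioi (1 : ℝ)))
    simpa using this
  refine tendsto_nhds_unique hZ (hT'.congr' ?_)
  have : Set.Ioi (1 : ℝ) ∈ 𝓝[>] (1 : ℝ) := self_mem_nhdsWithin
  filter_upwards [this] with s hs
  have hs' : 1 < re (s : ℂ) := by simpa using hs
  have h := hasSum_nat_hurwitzZetaOdd_of_mem_Icc (a := a) ⟨ha.le, ha'.le⟩ hs'
  rw [← h.tsum_eq, Complex.ofReal_tsum]
  exact tsum_congr fun n => (s48n_term_eq ha ha' n s).symm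

lemma s48n_real_mem_integerComplement {a : ℝ} (ha : 0 < a) (ha' : a < 1) :
    (a : ℂ) ∈ Complex.integerComplement := by
  rw [Complex.mem_integerComplement_iff]
  rintro ⟨k, hk⟩
  have hk' : (k : ℝ) = a := by exact_mod_cast hk
  have h1 : (0 : ℝ) < k := by rw [hk']; exact ha
  have h2 : (k : ℝ) < 1 := by rw [hk']; exact ha'
  have h3 : (0 : ℤ) < k := by exact_mod_cast h1
  have h4 : k < 1 := by exact_mod_cast h2
  omega

lemma s48n_rterm_one_cast (a : ℝ) (n : ℕ) :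
    ((s48n_rterm a n 1 : ℝ) : ℂ) = (1 / ((n : ℂ) + a) - 1 / ((n : ℂ) + 1 - a)) / 2 := by
  unfold s48n_rterm
  rw [Real.rpow_neg_one, Real.rpow_neg_one]
  push_cast
  simp only [one_div]

/-- telescoping comparison of the partial sums with Mathlib's `cotTerm`. -/
lemma s48n_partial_sum {a : ℝ} (ha : 0 < a) (ha' : a < 1) (N : ℕ) :
    ∑ n ∈ Finset.range N, (1 / ((n : ℂ) + a) - 1 / ((n : ℂ) + 1 - a))
      = ∑ j ∈ Finset.range N, cotTerm (a : ℂ) j + 1 / (a : ℂ) - 1 / ((a : ℂ) + N) := by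
  have hmem := s48n_real_mem_integerComplement ha ha'
  induction N with
  | zero => simp
  | succ N ih =>
    rw [Finset.sum_range_succ, Finset.sum_range_succ, ih]
    have h1 : (a : ℂ) + (N : ℂ) ≠ 0 := by
      simpa using Complex.integerComplement_add_ne_zero hmem (N : ℤ)
    have h2 : (a : ℂ) + ((N : ℂ) + 1) ≠ 0 := by
      simpa using Complex.integerComplement_add_ne_zero hmem ((N : ℤ) + 1)
    have h3 : (a : ℂ) - ((N : ℂ) + 1) ≠ 0 := by
      have := Complex.integerComplement_add_ne_zero hmem (-((N : ℤ) + 1))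
      simpa [sub_eq_add_neg] using this
    have h4 : (N : ℂ) + (a : ℂ) ≠ 0 := by rwa [add_comm]
    have h5 : (N : ℂ) + 1 - (a : ℂ) ≠ 0 := by
      intro h; apply h3; linear_combination -h
    have h6 : (a : ℂ) + ((N + 1 : ℕ) : ℂ) ≠ 0 := by push_cast; exact h2
    simp only [cotTerm]
    push_cast
    field_simp
    ring

/-- **`Σ_{n ≥ 0} (1/(n+a) − 1/(n+1−a)) = π cot(π a)`** for `0 < a < 1`. -/
lemma s48n_tsum_rterm_one {a : ℝ} (ha : 0 < a) (ha' : a < 1) :
    ((∑' n : ℕ, s48n_rterm a n 1 : ℝ) : ℂ) = (π : ℂ) / 2 * Complex.cot (π * a) := by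
  have hmem := s48n_real_mem_integerComplement ha ha'
  have hsum := (s48n_summable_rterm ha ha' le_rfl one_le_two).hasSum
  have h1 : Tendsto (fun N : ℕ => ((∑ n ∈ Finset.range N, s48n_rterm a n 1 : ℝ) : ℂ)) atTop
      (𝓝 ((∑' n : ℕ, s48n_rterm a n 1 : ℝ) : ℂ)) :=
    (Complex.continuous_ofReal.tendsto _).comp hsum.tendsto_sum_nat
  have h2 : Tendsto (fun N : ℕ => (1 : ℂ) / ((a : ℂ) + N)) atTop (𝓝 0) := by
    have h3 : Tendsto (fun N : ℕ => ‖(a : ℂ) + N‖) atTop atTop := by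
      have : ∀ N : ℕ, (N : ℝ) ≤ ‖(a : ℂ) + N‖ := fun N => by
        have h4 : (a : ℂ) + N = ((a + N : ℝ) : ℂ) := by push_cast; ring
        rw [h4, Complex.norm_real, Real.norm_eq_abs, abs_of_nonneg (by positivity)]
        linarith
      exact tendsto_atTop_mono this tendsto_natCast_atTop_atTop
    have := tendsto_inv_atTop_zero.comp h3
    rw [tendsto_zero_iff_norm_tendsto_zero]
    refine this.congr fun N => ?_
    simp [norm_inv]
  have h5 : Tendsto (fun N : ℕ => (∑ j ∈ Finset.range N, cotTerm (a : ℂ) j + 1 / (a : ℂ)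
      - 1 / ((a : ℂ) + N)) / 2) atTop
      (𝓝 (((π : ℂ) * Complex.cot (π * a) - 1 / (a : ℂ) + 1 / (a : ℂ) - 0) / 2)) :=
    (((tendsto_logDeriv_euler_cot_sub hmem).add_const _).sub h2).div_const 2
  have h6 : ∀ N : ℕ, ((∑ n ∈ Finset.range N, s48n_rterm a n 1 : ℝ) : ℂ)
      = (∑ j ∈ Finset.range N, cotTerm (a : ℂ) j + 1 / (a : ℂ) - 1 / ((a : ℂ) + N)) / 2 := by
    intro N
    rw [← s48n_partial_sum ha ha' N, Complex.ofReal_sum, Finset.sum_div]
    exact Finset.sum_congr rfl fun n _ => s48n_rterm_one_cast a n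
  have h7 := tendsto_nhds_unique h1 (h5.congr fun N => (h6 N).symm)
  rw [h7]; ring

/-- **the value of the odd Hurwitz zeta function at `s = 1`**:
`hurwitzZetaOdd a 1 = (π/2) cot(π a)` for `0 < a < 1`. -/
theorem s48n_hurwitzZetaOdd_one {a : ℝ} (ha : 0 < a) (ha' : a < 1) :
    hurwitzZetaOdd (a : UnitAddCircle) 1 = (π : ℂ) / 2 * Complex.cot (π * a) := by
  rw [s48n_hurwitzZetaOdd_one_eq_tsum ha ha', s48n_tsum_rterm_one ha ha']

/-- sums over `ZMod m` as sums over `Finset.range m`. -/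
lemma s48n_sum_zmod_eq_sum_range (m : ℕ) [NeZero m] (F : ZMod m → ℂ) :
    ∑ j : ZMod m, F j = ∑ a ∈ Finset.range m, F (a : ZMod m) := by
  obtain ⟨k, rfl⟩ : ∃ k, m = k + 1 := ⟨m - 1, by have := NeZero.pos m; omega⟩
  rw [← Fin.sum_univ_eq_sum_range (fun a => F (a : ZMod (k + 1))) (k + 1)]
  refine Finset.sum_congr rfl fun j _ => ?_
  congr 1
  exact (ZMod.natCast_zmod_val j).symm

/-- **[NV]**: for an odd Dirichlet character `χ` mod `m`,
`Σ_{0 ≤ a < m} χ(a) cot(π a / m) = (2m/π) · L(1, χ)`. -/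
theorem s48n_cot_sum (m : ℕ) [NeZero m] (χ : DirichletCharacter ℂ m) (hχ : χ (-1) = -1) :
    ∑ a ∈ Finset.range m, χ (a : ZMod m) * Complex.cot ((π : ℂ) * a / m)
      = 2 * (m : ℂ) / π * DirichletCharacter.LFunction χ 1 := by
  have hm0 : (m : ℂ) ≠ 0 := Nat.cast_ne_zero.mpr (NeZero.ne m)
  have hπ : (π : ℂ) ≠ 0 := Complex.ofReal_ne_zero.mpr Real.pi_ne_zero
  have hm1 : m ≠ 1 := by
    rintro rfl
    have h1 : (-1 : ZMod 1) = 1 := Subsingleton.elim _ _
    rw [h1, map_one] at hχ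
    norm_num at hχ
  have : Fact (1 < m) := ⟨by have := NeZero.pos m; omega⟩
  have hodd : Function.Odd χ := DirichletCharacter.Odd.to_fun hχ
  have hL : DirichletCharacter.LFunction χ 1
      = (m : ℂ)⁻¹ * ∑ a ∈ Finset.range m,
          χ (a : ZMod m) * ((π : ℂ) / 2 * Complex.cot ((π : ℂ) * a / m)) := by
    rw [DirichletCharacter.LFunction, ZMod.LFunction_def_odd hodd, Complex.cpow_neg_one,
      s48n_sum_zmod_eq_sum_range]
    congr 1
    refine Finset.sum_congr rfl fun a ha => ?_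
    rcases Nat.eq_zero_or_pos a with rfl | hapos
    · have h0 : χ ((0 : ℕ) : ZMod m) = 0 := by
        rw [Nat.cast_zero]; exact MulChar.map_zero χ
      rw [h0, zero_mul, zero_mul]
    · have hlt : a < m := Finset.mem_range.mp ha
      have hmpos : (0 : ℝ) < m := by exact_mod_cast NeZero.pos m
      have h1 : (0 : ℝ) < (a : ℝ) / m := div_pos (by exact_mod_cast hapos) hmpos
      have h2 : (a : ℝ) / m < 1 := (div_lt_one hmpos).mpr (by exact_mod_cast hlt)
      rw [ZMod.toAddCircle_natCast, s48n_hurwitzZetaOdd_one h1 h2]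
      push_cast
      rw [mul_div_assoc]
  have : ∀ a ∈ Finset.range m, χ (a : ZMod m) * ((π : ℂ) / 2 * Complex.cot ((π : ℂ) * a / m))
      = (π : ℂ) / 2 * (χ (a : ZMod m) * Complex.cot ((π : ℂ) * a / m)) := fun a _ => by ring
  rw [hL, Finset.sum_congr rfl this, ← Finset.mul_sum]
  field_simp

/-- the nonvanishing: the value of the weight-one Eisenstein series `G_χ` at the cusp `0`. -/
theorem s48n_cot_sum_ne_zero (m : ℕ) [NeZero m] (χ : DirichletCharacter ℂ m)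
    (hχ : χ (-1) = -1) :
    ∑ a ∈ Finset.range m, χ (a : ZMod m) * Complex.cot ((π : ℂ) * a / m) ≠ 0 := by
  have hm0 : (m : ℂ) ≠ 0 := Nat.cast_ne_zero.mpr (NeZero.ne m)
  have hπ : (π : ℂ) ≠ 0 := Complex.ofReal_ne_zero.mpr Real.pi_ne_zero
  have hne : χ ≠ 1 := by
    rintro rfl
    have : ((1 : DirichletCharacter ℂ m) (-1)) = 1 :=
      MulChar.one_apply (isUnit_one.neg)
    rw [this] at hχ
    norm_num at hχ
  rw [s48n_cot_sum m χ hχ]
  exact mul_ne_zero (div_ne_zero (mul_ne_zero two_ne_zero hm0) hπ)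
    (DirichletCharacter.LFunction_apply_one_ne_zero hne)

end Fermat.Agent.Lib.S48
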