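/-
DS-1 (S48), wall [T4] = [EIS-1] + [NV] (owner: helper5; [NV] = lead's `NVCot.lean`).

`s48i_Eis` of `Iface.lean`, unconditionally.
-/
import Mathlib
import Fermat.Agent.Lib.S48.Eis1Main
import Fermat.Agent.Lib.S48.NVCot

set_option autoImplicit false

namespace Fermat.Agent.Lib.S48

/-- **`s48i_Eis`** ([T4] + [NV]). -/
theorem s48eis_Eis : s48i_Eis :=
  s48eis_iface (fun m _ χ hχ => s48n_cot_sum_ne_zero m χ hχ)

end Fermat.Agent.Lib.S48
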