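/-
S48 Stage A (helper3): boundedness / vanishing at ALL rational cusps, function level.

`s48h_BddCusps k F` (`s48h_ZeroCusps k F`): `F` is bounded (zero) at every cusp of `SL(2,ℤ)`,
equivalently all `SL(2,ℤ)`-translates of `F` are bounded (zero) at `i∞`.  Stable under sums,
scalar multiples and slashing by ANY rational matrix (in particular by the Hecke matrices).
-/
import Mathlib
import Fermat.Prelude.Sol.S_ModularFormClass_isBoundedAt_heckeT
import Fermat.Agent.Lib.S48.HGood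

set_option autoImplicit false

noncomputable section

namespace Fermat.Agent.Lib.S48

open Matrix.SpecialLinearGroup ModularForm CongruenceSubgroup UpperHalfPlane OnePoint
open scoped MatrixGroups ModularForm

variable {k : ℤ} {F G : ℍ → ℂ}

/-- `F` is bounded at all rational cusps. -/
def s48h_BddCusps (k : ℤ) (F : ℍ → ℂ) : Prop :=
  ∀ c : OnePoint ℝ, IsCusp c 𝒮ℒ → c.IsBoundedAt F k

/-- `F` vanishes at all rational cusps. -/
def s48h_ZeroCusps (k : ℤ) (F : ℍ → ℂ) : Prop :=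
  ∀ c : OnePoint ℝ, IsCusp c 𝒮ℒ → c.IsZeroAt F k

theorem s48h_bddCusps_iff :
    s48h_BddCusps k F ↔ ∀ γ : SL(2, ℤ), IsBoundedAtImInfty (F ∣[k] (mapGL ℝ γ : GL (Fin 2) ℝ)) := by
  constructor
  · intro h γ
    exact h _ (isCusp_SL2Z_iff'.mpr ⟨γ, rfl⟩) (mapGL ℝ γ) rfl
  · intro h c hc
    obtain ⟨γ, rfl⟩ := isCusp_SL2Z_iff'.mp hc
    exact (isBoundedAt_iff (g := (mapGL ℝ γ : GL (Fin 2) ℝ)) rfl).mpr (h γ)

theorem s48h_zeroCusps_iff :
    s48h_ZeroCusps k F ↔ ∀ γ : SL(2, ℤ), IsZeroAtImInfty (F ∣[k] (mapGL ℝ γ : GL (Fin 2) ℝ)) := by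
  constructor
  · intro h γ
    exact h _ (isCusp_SL2Z_iff'.mpr ⟨γ, rfl⟩) (mapGL ℝ γ) rfl
  · intro h c hc
    obtain ⟨γ, rfl⟩ := isCusp_SL2Z_iff'.mp hc
    exact (isZeroAt_iff (g := (mapGL ℝ γ : GL (Fin 2) ℝ)) rfl).mpr (h γ)

theorem s48h_isCusp_ratCast_smul {c : OnePoint ℝ} (hc : IsCusp c 𝒮ℒ) (g : GL (Fin 2) ℚ) :
    IsCusp (Matrix.GeneralLinearGroup.map (Rat.castHom ℝ) g • c) 𝒮ℒ := by
  rw [isCusp_SL2Z_iff] at hc ⊢
  obtain ⟨c, rfl⟩ := hc
  exact ⟨g • c, by rw [← Rat.coe_castHom, OnePoint.map_smul]⟩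

theorem s48h_BddCusps.slash_rat (hF : s48h_BddCusps k F) (g : GL (Fin 2) ℚ) :
    s48h_BddCusps k (F ∣[k] (Matrix.GeneralLinearGroup.map (Rat.castHom ℝ) g)) :=
  fun _ hc => OnePoint.IsBoundedAt.smul_iff.mp (hF _ (s48h_isCusp_ratCast_smul hc g))

theorem s48h_ZeroCusps.slash_rat (hF : s48h_ZeroCusps k F) (g : GL (Fin 2) ℚ) :
    s48h_ZeroCusps k (F ∣[k] (Matrix.GeneralLinearGroup.map (Rat.castHom ℝ) g)) :=
  fun _ hc => OnePoint.IsZeroAt.smul_iff.mp (hF _ (s48h_isCusp_ratCast_smul hc g))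

theorem s48h_BddCusps.add (hF : s48h_BddCusps k F) (hG : s48h_BddCusps k G) :
    s48h_BddCusps k (F + G) := fun c hc => (hF c hc).add (hG c hc)

theorem s48h_ZeroCusps.add (hF : s48h_ZeroCusps k F) (hG : s48h_ZeroCusps k G) :
    s48h_ZeroCusps k (F + G) := fun c hc => (hF c hc).add (hG c hc)

theorem s48h_BddCusps.zero : s48h_BddCusps k (0 : ℍ → ℂ) := by
  rw [s48h_bddCusps_iff]
  intro γ
  rw [SlashAction.zero_slash]
  exact UpperHalfPlane.zero_form_isBoundedAtImInfty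

theorem s48h_ZeroCusps.zero : s48h_ZeroCusps k (0 : ℍ → ℂ) := by
  rw [s48h_zeroCusps_iff]
  intro γ
  rw [SlashAction.zero_slash]
  exact Filter.zero_zeroAtFilter _

theorem s48h_BddCusps.smul (hF : s48h_BddCusps k F) (c : ℂ) : s48h_BddCusps k (c • F) := by
  rw [s48h_bddCusps_iff] at hF ⊢
  intro γ
  have h : (c • F) ∣[k] (mapGL ℝ γ : GL (Fin 2) ℝ) = c • (F ∣[k] (mapGL ℝ γ : GL (Fin 2) ℝ)) :=
    ModularForm.SL_smul_slash k γ F c
  rw [h]
  exact (hF γ).const_smul_left c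

theorem s48h_ZeroCusps.smul (hF : s48h_ZeroCusps k F) (c : ℂ) : s48h_ZeroCusps k (c • F) := by
  rw [s48h_zeroCusps_iff] at hF ⊢
  intro γ
  have h : (c • F) ∣[k] (mapGL ℝ γ : GL (Fin 2) ℝ) = c • (F ∣[k] (mapGL ℝ γ : GL (Fin 2) ℝ)) :=
    ModularForm.SL_smul_slash k γ F c
  rw [h]
  exact (hF γ).smul c

theorem s48h_BddCusps.sum {ι : Type*} (s : Finset ι) {f : ι → ℍ → ℂ}
    (hf : ∀ i ∈ s, s48h_BddCusps k (f i)) : s48h_BddCusps k (∑ i ∈ s, f i) := by
  classical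
  induction s using Finset.induction_on with
  | empty => rw [Finset.sum_empty]; exact s48h_BddCusps.zero
  | insert a s ha ih =>
    rw [Finset.sum_insert ha]
    exact (hf a (Finset.mem_insert_self a s)).add (ih fun i hi => hf i (Finset.mem_insert_of_mem hi))

theorem s48h_ZeroCusps.sum {ι : Type*} (s : Finset ι) {f : ι → ℍ → ℂ}
    (hf : ∀ i ∈ s, s48h_ZeroCusps k (f i)) : s48h_ZeroCusps k (∑ i ∈ s, f i) := by
  classical
  induction s using Finset.induction_on with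
  | empty => rw [Finset.sum_empty]; exact s48h_ZeroCusps.zero
  | insert a s ha ih =>
    rw [Finset.sum_insert ha]
    exact (hf a (Finset.mem_insert_self a s)).add (ih fun i hi => hf i (Finset.mem_insert_of_mem hi))

open P2MW.S_ModularFormClass_isBoundedAt_heckeT.ModularForm.S06W2 in
theorem s48h_BddCusps.slash_heckeMatrix (hF : s48h_BddCusps k F) (p j : ℕ) :
    s48h_BddCusps k (F ∣[k] heckeMatrix p j) := by
  obtain ⟨g, hg⟩ := exists_heckeMatrix_eq_map p j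
  rw [hg]
  exact hF.slash_rat g

open P2MW.S_ModularFormClass_isBoundedAt_heckeT.ModularForm.S06W2 in
theorem s48h_BddCusps.slash_heckeDiagMatrix (hF : s48h_BddCusps k F) (p : ℕ) :
    s48h_BddCusps k (F ∣[k] heckeDiagMatrix p) := by
  obtain ⟨g, hg⟩ := exists_heckeDiagMatrix_eq_map p
  rw [hg]
  exact hF.slash_rat g

open P2MW.S_ModularFormClass_isBoundedAt_heckeT.ModularForm.S06W2 in
theorem s48h_ZeroCusps.slash_heckeMatrix (hF : s48h_ZeroCusps k F) (p j : ℕ) :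
    s48h_ZeroCusps k (F ∣[k] heckeMatrix p j) := by
  obtain ⟨g, hg⟩ := exists_heckeMatrix_eq_map p j
  rw [hg]
  exact hF.slash_rat g

open P2MW.S_ModularFormClass_isBoundedAt_heckeT.ModularForm.S06W2 in
theorem s48h_ZeroCusps.slash_heckeDiagMatrix (hF : s48h_ZeroCusps k F) (p : ℕ) :
    s48h_ZeroCusps k (F ∣[k] heckeDiagMatrix p) := by
  obtain ⟨g, hg⟩ := exists_heckeDiagMatrix_eq_map p
  rw [hg]
  exact hF.slash_rat g

theorem s48h_BddCusps.heckeU (hF : s48h_BddCusps k F) (p : ℕ) :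
    s48h_BddCusps k (ModularForm.heckeU k p F) := by
  rw [heckeU_def]
  exact s48h_BddCusps.sum _ fun j _ => hF.slash_heckeMatrix p j

theorem s48h_ZeroCusps.heckeU (hF : s48h_ZeroCusps k F) (p : ℕ) :
    s48h_ZeroCusps k (ModularForm.heckeU k p F) := by
  rw [heckeU_def]
  exact s48h_ZeroCusps.sum _ fun j _ => hF.slash_heckeMatrix p j

theorem s48h_ZeroCusps.bddCusps (hF : s48h_ZeroCusps k F) : s48h_BddCusps k F := by
  rw [s48h_zeroCusps_iff] at hF
  rw [s48h_bddCusps_iff]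
  exact fun γ => (hF γ).boundedAtFilter

/-- Cusp forms on `Γ₁(N)` vanish at all rational cusps. -/
theorem s48h_zeroCusps_of_cuspForm {N : ℕ} [NeZero N] (f : CuspForm (Gamma1 N) k) :
    s48h_ZeroCusps k ⇑f := by
  rw [s48h_zeroCusps_iff]
  exact fun γ => CuspFormClass.zero_at_infty_slash f γ

end Fermat.Agent.Lib.S48
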