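/-
S48 Stage A (helper3): the coset permutation for `T_p`, `p ∤ N`, WITH the lower right entries.

For `g ∈ Γ₀(N)` and `x ∈ ℙ¹(𝔽_p)`: `α_x g = g' α_{g·x}` with `g' ∈ Γ₀(N)` and
`g'₁₁ · s(x) ≡ g₁₁ · s(g·x) mod N`, where `s(∞) = p`, `s(j) = 1` (`s48h_heckeRep_mul`).
This is what makes `T_p = ∑_j [β_j] + ⟨p⟩[δ]` act on forms with nebentypus and on `Hom(Γ_H, A)`.
-/
import Mathlib
import Fermat.Prelude.Sol.S_ModularForm_heckeT_slash_eq_self_of_mem_Gamma0
import Fermat.Agent.Lib.S48.HGood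

set_option autoImplicit false

noncomputable section

namespace Fermat.Agent.Lib.S48

open Matrix.SpecialLinearGroup ModularForm CongruenceSubgroup UpperHalfPlane
open P2MW.S_ModularForm_heckeT_slash_eq_self_of_mem_Gamma0.ModularForm.HeckeSlashInvariance
open scoped MatrixGroups ModularForm OnePoint

/-- The diamond weight of a coset representative: `p` at `∞`, `1` at finite points. -/
def s48h_sfac (p : ℕ) (x : OnePoint (ZMod p)) : ℕ := x.elim p (fun _ => 1)

@[simp] theorem s48h_sfac_infty (p : ℕ) : s48h_sfac p (∞ : OnePoint (ZMod p)) = p := rfl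

@[simp] theorem s48h_sfac_coe (p : ℕ) (j : ZMod p) : s48h_sfac p (j : OnePoint (ZMod p)) = 1 := rfl

variable {p : ℕ} [Fact p.Prime]

/-- The coset permutation with lower right entries. -/
theorem s48h_heckeRep_mul {N : ℕ} (hpN : ¬ p ∣ N) (g : SL(2, ℤ)) (hg : g ∈ Gamma0 N)
    (x : OnePoint (ZMod p)) :
    ∃ g' : SL(2, ℤ), g' ∈ Gamma0 N ∧
      ((g' 1 1 : ℤ) : ZMod N) * (s48h_sfac p x : ZMod N)
        = ((g 1 1 : ℤ) : ZMod N) * (s48h_sfac p (redMatrix p g • x) : ZMod N) ∧
      heckeRep p x * mapGL ℝ g = mapGL ℝ g' * heckeRep p (redMatrix p g • x) := by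
  have hp : p ≠ 0 := (Fact.out : p.Prime).ne_zero
  have hg0 : ((g 1 0 : ℤ) : ZMod N) = 0 := Gamma0_mem.mp hg
  have hgN : (N : ℤ) ∣ g 1 0 := (CharP.intCast_eq_zero_iff (ZMod N) N _).mp hg0
  induction x using OnePoint.rec with
  | infty =>
    rw [OnePoint.smul_infty_eq_ite]
    by_cases hc : ((g 1 0 : ℤ) : ZMod p) = 0
    · rw [if_pos (by simpa using hc), heckeRep_infty]
      obtain ⟨e, he⟩ := (ZMod.intCast_zmod_eq_zero_iff_dvd _ _).mp hc
      obtain ⟨g', hg'10, hg'11, hmul⟩ := s48h_heckeDiagMatrix_mul' hp g e he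
      refine ⟨g', ?_, ?_, hmul⟩
      · rw [Gamma0_mem, hg'10]
        have hcop : IsCoprime (N : ℤ) (p : ℤ) :=
          Nat.isCoprime_iff_coprime.mpr ((Nat.Prime.coprime_iff_not_dvd Fact.out).mpr hpN).symm
        exact (CharP.intCast_eq_zero_iff (ZMod N) N _).mpr
          (hcop.dvd_of_dvd_mul_left (he ▸ hgN))
      · rw [hg'11]
    · rw [if_neg (by simpa using hc), heckeRep_infty, heckeRep_coe]
      set y : ZMod p := redMatrix p g 0 0 / redMatrix p g 1 0 with hy
      obtain ⟨e, he⟩ : (p : ℤ) ∣ g 1 1 - g 1 0 * y.val := by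
        rw [← ZMod.intCast_zmod_eq_zero_iff_dvd]
        push_cast
        rw [ZMod.natCast_zmod_val, hy, redMatrix_apply_zero_zero, redMatrix_apply_one_zero,
          mul_div_cancel₀ _ hc, sub_self]
      obtain ⟨g', hg'10, hg'11, hmul⟩ :=
        s48h_heckeDiagMatrix_mul hp g y.val e (by linear_combination he)
      refine ⟨g', ?_, ?_, hmul⟩
      · rw [Gamma0_mem, hg'10]; exact hg0
      · rw [hg'11, s48h_sfac_infty, s48h_sfac_coe, Nat.cast_one, mul_one]
        have h2 := congrArg (Int.cast : ℤ → ZMod N) he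
        push_cast at h2
        rw [hg0, zero_mul, sub_zero] at h2
        rw [h2, mul_comm]
  | coe j =>
    rw [OnePoint.smul_some_eq_ite]
    by_cases h : redMatrix p g 1 0 * j + redMatrix p g 1 1 = 0
    · rw [if_pos h, heckeRep_infty, heckeRep_coe]
      rw [redMatrix_apply_one_zero, redMatrix_apply_one_one] at h
      obtain ⟨e, he⟩ : (p : ℤ) ∣ g 0 0 + j.val * g 1 0 := by
        rw [← ZMod.intCast_zmod_eq_zero_iff_dvd]
        push_cast
        rw [ZMod.natCast_zmod_val]
        linear_combination h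
      obtain ⟨g', hg'10, hg'11, hmul⟩ := s48h_heckeMatrix_mul' hp g j.val e he
      refine ⟨g', ?_, ?_, hmul⟩
      · rw [Gamma0_mem, hg'10]; exact hg0
      · rw [hg'11, s48h_sfac_infty, s48h_sfac_coe, Nat.cast_one, mul_one]
        push_cast
        rw [mul_comm]
    · rw [if_neg h, heckeRep_coe, heckeRep_coe]
      set y : ZMod p := (redMatrix p g 0 0 * j + redMatrix p g 0 1) /
        (redMatrix p g 1 0 * j + redMatrix p g 1 1) with hy
      obtain ⟨e, he⟩ : (p : ℤ) ∣ g 0 1 + j.val * g 1 1 - y.val * (g 0 0 + j.val * g 1 0) := by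
        rw [← ZMod.intCast_zmod_eq_zero_iff_dvd]
        push_cast
        rw [ZMod.natCast_zmod_val, ZMod.natCast_zmod_val,
          show ((g 0 0 : ℤ) : ZMod p) + j * ((g 1 0 : ℤ) : ZMod p)
            = redMatrix p g 1 0 * j + redMatrix p g 1 1 by
              rw [redMatrix_apply_one_zero, redMatrix_apply_one_one]; ring,
          hy, div_mul_cancel₀ _ h, redMatrix_apply_zero_zero, redMatrix_apply_zero_one]
        ring
      obtain ⟨g', hg'00, hg'10, hg'11, hmul⟩ :=
        s48h_heckeMatrix_mul hp g j.val y.val e (by linear_combination he)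
      refine ⟨g', ?_, ?_, hmul⟩
      · rw [Gamma0_mem, hg'10]; push_cast; rw [hg0, mul_zero]
      · rw [hg'11, s48h_sfac_coe, s48h_sfac_coe]
        push_cast
        rw [hg0, zero_mul, sub_zero]

end Fermat.Agent.Lib.S48
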