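/-
S48 Stage A (helper3): forms with nebentypus at function level and their Hecke operators.

* `s48h_Neben N k ψ F`: `F` holomorphic, bounded at all rational cusps, and
  `F ∣[k] γ = ψ(γ₁₁) • F` for `γ ∈ Γ₀(N)` (`ψ` a Dirichlet character mod `N`).
* `s48h_heckeTψ k p c F = U_p F + c • F ∣[k] diag(p,1)`; for `c = ψ(p)`, `p ∤ N` prime, it preserves
  `s48h_Neben N k ψ` (`s48h_Neben.heckeT`) and vanishing at the cusps, and acts on `q`-expansions by
  `a_n ↦ a_{np} + ψ(p) p^{k-1} a_{n/p}` (`s48h_qCoeff_heckeTψ`).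
-/
import Mathlib
import Fermat.Agent.Lib.S48.HRep
import Fermat.Agent.Lib.S48.HCusp

set_option autoImplicit false

noncomputable section

namespace Fermat.Agent.Lib.S48

open Matrix.SpecialLinearGroup ModularForm CongruenceSubgroup UpperHalfPlane ModularFormClass
open P2MW.S_ModularForm_heckeT_slash_eq_self_of_mem_Gamma0.ModularForm.HeckeSlashInvariance
open scoped MatrixGroups ModularForm Manifold OnePoint

/-- `F` is a (holomorphic, bounded at the cusps) form of weight `k`, level `N`, nebentypus `ψ`. -/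
structure s48h_Neben (N : ℕ) (k : ℤ) (ψ : DirichletCharacter ℂ N) (F : ℍ → ℂ) : Prop where
  hol : MDiff F
  bdd : s48h_BddCusps k F
  neben : ∀ γ ∈ Gamma0 N,
    F ∣[k] (mapGL ℝ γ : GL (Fin 2) ℝ) = ψ ((γ 1 1 : ℤ) : ZMod N) • F

variable {N : ℕ} {k : ℤ} {ψ : DirichletCharacter ℂ N} {F G : ℍ → ℂ}

theorem s48h_Neben.good (hF : s48h_Neben N k ψ F) : s48h_Good N k F where
  inv := fun γ hγ => by
    rw [hF.neben γ (Gamma1_in_Gamma0 N hγ), ((Gamma1_mem N γ).mp hγ).2.1, map_one, one_smul]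
  hol := hF.hol
  bdd := s48h_bddCusps_iff.mp hF.bdd

theorem s48h_Neben.zero : s48h_Neben N k ψ (0 : ℍ → ℂ) where
  hol := mdifferentiable_const
  bdd := s48h_BddCusps.zero
  neben := fun γ _ => by rw [SlashAction.zero_slash, smul_zero]

theorem s48h_Neben.add (hF : s48h_Neben N k ψ F) (hG : s48h_Neben N k ψ G) :
    s48h_Neben N k ψ (F + G) where
  hol := hF.hol.add hG.hol
  bdd := hF.bdd.add hG.bdd
  neben := fun γ hγ => by rw [SlashAction.add_slash, hF.neben γ hγ, hG.neben γ hγ, smul_add]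

theorem s48h_Neben.smul (hF : s48h_Neben N k ψ F) (c : ℂ) : s48h_Neben N k ψ (c • F) where
  hol := hF.hol.const_smul c
  bdd := hF.bdd.smul c
  neben := fun γ hγ => by
    have h : (c • F) ∣[k] (mapGL ℝ γ : GL (Fin 2) ℝ) = c • (F ∣[k] (mapGL ℝ γ : GL (Fin 2) ℝ)) :=
      ModularForm.SL_smul_slash k γ F c
    rw [h, hF.neben γ hγ, smul_comm]

/-- The result of `(D0)`: an eigenform of weight one in the sense of S48 has nebentypus `ε`. -/
theorem s48h_neben_of_good (hF : s48h_Good N k F)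
    (h : ∀ γ ∈ Gamma0 N, F ∣[k] (mapGL ℝ γ : GL (Fin 2) ℝ) = ψ ((γ 1 1 : ℤ) : ZMod N) • F) :
    s48h_Neben N k ψ F where
  hol := hF.hol
  bdd := s48h_bddCusps_iff.mpr hF.bdd
  neben := h

/-- The Hecke operator `T_p` with the diamond factor `c` (`c = ψ(p)`). -/
def s48h_heckeTψ (k : ℤ) (p : ℕ) (c : ℂ) (F : ℍ → ℂ) : ℍ → ℂ :=
  ModularForm.heckeU k p F + c • (F ∣[k] heckeDiagMatrix p)

theorem s48h_heckeTψ_def (k : ℤ) (p : ℕ) (c : ℂ) (F : ℍ → ℂ) :
    s48h_heckeTψ k p c F = ModularForm.heckeU k p F + c • (F ∣[k] heckeDiagMatrix p) := rfl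

theorem s48h_qCoeff_heckeTψ (hF : s48h_QNice F) (k : ℤ) {p : ℕ} (hp : p ≠ 0) (c : ℂ) (n : ℕ) :
    qCoeff (s48h_heckeTψ k p c F) n
      = qCoeff F (n * p) + c * (if p ∣ n then (p : ℂ) ^ (k - 1) * qCoeff F (n / p) else 0) := by
  rw [s48h_heckeTψ_def, s48h_qCoeff_add (hF.heckeU k p) ((hF.slash_diag k p).smul c),
    s48h_qCoeff_heckeU hF k hp, s48h_qCoeff_smul (hF.slash_diag k p),
    s48h_qCoeff_slash_diag hF k hp]

theorem s48h_QNice.heckeTψ (hF : s48h_QNice F) (k : ℤ) (p : ℕ) (c : ℂ) :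
    s48h_QNice (s48h_heckeTψ k p c F) :=
  (hF.heckeU k p).add ((hF.slash_diag k p).smul c)

section Prime

variable {p : ℕ} [Fact p.Prime]

theorem s48h_smul_slash_heckeRep (c : ℂ) (F : ℍ → ℂ) (x : OnePoint (ZMod p)) :
    (c • F) ∣[k] heckeRep p x = c • (F ∣[k] heckeRep p x) := by
  induction x using OnePoint.rec with
  | infty =>
    rw [heckeRep_infty, ModularForm.smul_slash, σ_heckeDiagMatrix, ContinuousAlgEquiv.refl_apply]
  | coe j =>
    rw [heckeRep_coe, ModularForm.smul_slash, σ_heckeMatrix, ContinuousAlgEquiv.refl_apply]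

/-- `T_p^ψ F = ∑_{x ∈ ℙ¹(𝔽_p)} ψ(s(x)) • F ∣ α_x`. -/
theorem s48h_heckeTψ_eq_sum (ψ : DirichletCharacter ℂ N) (F : ℍ → ℂ) :
    s48h_heckeTψ k p (ψ (p : ZMod N)) F
      = ∑ x : OnePoint (ZMod p), ψ ((s48h_sfac p x : ℕ) : ZMod N) • (F ∣[k] heckeRep p x) := by
  rw [s48h_heckeTψ_def, heckeU_eq_sum_zmod, add_comm]
  symm
  refine (Fintype.sum_option (fun x : OnePoint (ZMod p) =>
    ψ ((s48h_sfac p x : ℕ) : ZMod N) • (F ∣[k] heckeRep p x))).trans ?_
  congr 1
  refine Finset.sum_congr rfl fun j _ => ?_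
  show ψ ((s48h_sfac p (j : OnePoint (ZMod p)) : ℕ) : ZMod N) • (F ∣[k] heckeRep p j) = _
  rw [s48h_sfac_coe, Nat.cast_one, map_one, one_smul, heckeRep_coe]

/-- `T_p^ψ` preserves the nebentypus. -/
theorem s48h_Neben.heckeT (hF : s48h_Neben N k ψ F) (hpN : ¬ p ∣ N) :
    s48h_Neben N k ψ (s48h_heckeTψ k p (ψ (p : ZMod N)) F) where
  hol := (ModularForm.mdifferentiable_heckeU hF.hol k p).add
    ((hF.hol.slash k _).const_smul _)
  bdd := (hF.bdd.heckeU p).add ((hF.bdd.slash_heckeDiagMatrix p).smul _)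
  neben := fun g hg => by
    rw [s48h_heckeTψ_eq_sum, SlashAction.sum_slash, Finset.smul_sum]
    calc ∑ x : OnePoint (ZMod p), (ψ ((s48h_sfac p x : ℕ) : ZMod N) • (F ∣[k] heckeRep p x))
            ∣[k] (mapGL ℝ g : GL (Fin 2) ℝ)
        = ∑ x : OnePoint (ZMod p), ψ ((g 1 1 : ℤ) : ZMod N) •
            (ψ ((s48h_sfac p (redMatrix p g • x) : ℕ) : ZMod N) •
              (F ∣[k] heckeRep p (redMatrix p g • x))) := by
          refine Finset.sum_congr rfl fun x _ => ?_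
          obtain ⟨g', hg', hlr, hmul⟩ := s48h_heckeRep_mul hpN g hg x
          have h1 : (ψ ((s48h_sfac p x : ℕ) : ZMod N) • (F ∣[k] heckeRep p x))
              ∣[k] (mapGL ℝ g : GL (Fin 2) ℝ)
              = ψ ((s48h_sfac p x : ℕ) : ZMod N) • ((F ∣[k] heckeRep p x)
                ∣[k] (mapGL ℝ g : GL (Fin 2) ℝ)) :=
            ModularForm.SL_smul_slash k g _ _
          rw [h1, ← SlashAction.slash_mul, hmul, SlashAction.slash_mul, hF.neben g' hg',
            s48h_smul_slash_heckeRep, smul_smul, smul_smul, ← map_mul, ← map_mul, mul_comm, hlr]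
      _ = ∑ x : OnePoint (ZMod p), ψ ((g 1 1 : ℤ) : ZMod N) •
            (ψ ((s48h_sfac p x : ℕ) : ZMod N) • (F ∣[k] heckeRep p x)) :=
          Equiv.sum_comp (MulAction.toPerm (redMatrix p g))
            (fun x => ψ ((g 1 1 : ℤ) : ZMod N) •
              (ψ ((s48h_sfac p x : ℕ) : ZMod N) • (F ∣[k] heckeRep p x)))

omit [Fact p.Prime] in
/-- `T_p^ψ` preserves vanishing at the cusps. -/
theorem s48h_ZeroCusps.heckeTψ (hF : s48h_ZeroCusps k F) (c : ℂ) :
    s48h_ZeroCusps k (s48h_heckeTψ k p c F) :=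
  (hF.heckeU p).add ((hF.slash_heckeDiagMatrix p).smul c)

end Prime

end Fermat.Agent.Lib.S48
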