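/-
S48 Stage A (helper3): the glue for `f ↦ f · E` at function level.

* `s48h_Neben.changeLevel`: a form of level `N` and nebentypus `ψ` is a form of level `M`
  (`N ∣ M`) with nebentypus `changeLevel ψ`.
* `s48h_Neben.mul`: the product of forms of weights `k, k'` and nebentypus `ψ, ψ'` (same level) has
  weight `k + k'` and nebentypus `ψ * ψ'`; `q`-expansion of the product (`s48h_qCoeff_mul`);
  vanishing at the cusps of the product (`s48h_ZeroCusps.mul_bdd`).
* `s48h_toCuspForm`: a `Γ₁(N)`-invariant holomorphic function vanishing at all cusps, bundled as a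
  Mathlib `CuspForm (Gamma1 N) k`.
-/
import Mathlib
import Fermat.Agent.Lib.S48.HNebT

set_option autoImplicit false

noncomputable section

namespace Fermat.Agent.Lib.S48

open Matrix.SpecialLinearGroup ModularForm CongruenceSubgroup UpperHalfPlane ModularFormClass
open scoped MatrixGroups ModularForm Manifold OnePoint

variable {N : ℕ} {k k' : ℤ} {ψ ψ' : DirichletCharacter ℂ N} {F E : ℍ → ℂ}

/-- The lower right entry of an element of `Γ₀(N)` is a unit mod `N`. -/
theorem s48h_isUnit_lowerRight {γ : SL(2, ℤ)} (hγ : γ ∈ Gamma0 N) :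
    IsUnit (((γ 1 1 : ℤ) : ZMod N)) := by
  have hdet := congrArg (Int.cast : ℤ → ZMod N) (s48h_det_eq γ)
  push_cast at hdet
  rw [Gamma0_mem.mp hγ, mul_zero, sub_zero] at hdet
  exact IsUnit.of_mul_eq_one _ (by rw [mul_comm]; exact hdet)

theorem s48h_Gamma0_le_of_dvd {M : ℕ} (h : N ∣ M) : Gamma0 M ≤ Gamma0 N := by
  intro γ hγ
  rw [Gamma0_mem] at hγ ⊢
  have h1 : (M : ℤ) ∣ γ 1 0 := (CharP.intCast_eq_zero_iff (ZMod M) M _).mp hγ
  exact (CharP.intCast_eq_zero_iff (ZMod N) N _).mpr ((Int.natCast_dvd_natCast.mpr h).trans h1)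

/-- Raising the level. -/
theorem s48h_Neben.changeLevel (hF : s48h_Neben N k ψ F) {M : ℕ} (h : N ∣ M) :
    s48h_Neben M k (DirichletCharacter.changeLevel h ψ) F where
  hol := hF.hol
  bdd := hF.bdd
  neben := fun γ hγ => by
    rw [hF.neben γ (s48h_Gamma0_le_of_dvd h hγ)]
    congr 1
    obtain ⟨u, hu⟩ := s48h_isUnit_lowerRight hγ
    rw [← hu, DirichletCharacter.changeLevel_eq_cast_of_dvd ψ h u, hu, ZMod.cast_intCast h]

/-- Products. -/
theorem s48h_Neben.mul (hF : s48h_Neben N k ψ F) (hE : s48h_Neben N k' ψ' E) :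
    s48h_Neben N (k + k') (ψ * ψ') (F * E) where
  hol := hF.hol.mul hE.hol
  bdd := by
    rw [s48h_bddCusps_iff]
    intro γ
    have h : (F * E) ∣[k + k'] (mapGL ℝ γ : GL (Fin 2) ℝ)
        = F ∣[k] (mapGL ℝ γ : GL (Fin 2) ℝ) * E ∣[k'] (mapGL ℝ γ : GL (Fin 2) ℝ) :=
      ModularForm.mul_slash_SL2 k k' γ F E
    rw [h]
    exact (s48h_bddCusps_iff.mp hF.bdd γ).mul (s48h_bddCusps_iff.mp hE.bdd γ)
  neben := fun γ hγ => by
    have h : (F * E) ∣[k + k'] (mapGL ℝ γ : GL (Fin 2) ℝ)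
        = F ∣[k] (mapGL ℝ γ : GL (Fin 2) ℝ) * E ∣[k'] (mapGL ℝ γ : GL (Fin 2) ℝ) :=
      ModularForm.mul_slash_SL2 k k' γ F E
    rw [h, hF.neben γ hγ, hE.neben γ hγ, MulChar.mul_apply, smul_mul_smul_comm]

/-- A cusp form times a form bounded at the cusps vanishes at the cusps. -/
theorem s48h_ZeroCusps.mul_bdd (hF : s48h_ZeroCusps k F) (hE : s48h_BddCusps k' E) :
    s48h_ZeroCusps (k + k') (F * E) := by
  rw [s48h_zeroCusps_iff]
  intro γ
  have h : (F * E) ∣[k + k'] (mapGL ℝ γ : GL (Fin 2) ℝ)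
      = F ∣[k] (mapGL ℝ γ : GL (Fin 2) ℝ) * E ∣[k'] (mapGL ℝ γ : GL (Fin 2) ℝ) :=
    ModularForm.mul_slash_SL2 k k' γ F E
  rw [h]
  exact (s48h_zeroCusps_iff.mp hF γ).mul_boundedAtFilter (s48h_bddCusps_iff.mp hE γ)

/-- `q`-expansion of a product. -/
theorem s48h_qCoeff_mul (hF : s48h_QNice F) (hE : s48h_QNice E) (n : ℕ) :
    qCoeff (F * E) n = ∑ ij ∈ Finset.HasAntidiagonal.antidiagonal n, qCoeff F ij.1 * qCoeff E ij.2 := by
  simp only [qCoeff]
  rw [qExpansion_mul hF.analytic hE.analytic, PowerSeries.coeff_mul]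

theorem s48h_QNice.mul (hF : s48h_QNice F) (hE : s48h_QNice E) : s48h_QNice (F * E) where
  per := fun z => by
    have h1 := hF.per z
    have h2 := hE.per z
    simp only [Function.comp_apply, Pi.mul_apply] at *
    rw [h1, h2]
  hol := hF.hol.mul hE.hol
  bdd := hF.bdd.mul hE.bdd

/-- Bundling: a `Γ₁(N)`-invariant holomorphic function vanishing at all cusps is a `CuspForm`. -/
def s48h_toCuspForm [NeZero N] (hF : s48h_Good N k F) (h0 : s48h_ZeroCusps k F) :
    CuspForm (Gamma1 N) k where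
  toSlashInvariantForm := hF.toSIF
  holo' := hF.hol
  zero_at_cusps' := fun {c} hc =>
    h0 c ((Subgroup.IsArithmetic.isCusp_iff_isCusp_SL2Z _).mp hc)

@[simp] theorem s48h_coe_toCuspForm [NeZero N] (hF : s48h_Good N k F) (h0 : s48h_ZeroCusps k F) :
    ⇑(s48h_toCuspForm hF h0) = F := rfl

end Fermat.Agent.Lib.S48
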