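/-
S48 / DS-1, brick [DEP] (helper3): DEPLETION in weight one.

For a cusp form `f = Σ a_n qⁿ` of weight one on `Γ₁(N)` the series `Σ_{(n,N)=1} a_n qⁿ` is a cusp
form on `Γ₁(N²)`, and the diamond action is preserved: if `f ∣ γ = χ(γ₁₁) f` on `Γ₀(N)` then
`f' ∣ γ = χ(γ₁₁) f'` on `Γ₀(N²)` (`s48h_dep` = helper1's `s48i_Dep`, unfolded).

Route: for a prime `p ∣ L` the operator `W_p F = F - (U_p F) ∣ diag(p,1)` maps level `L` to level
`L p`, kills the coefficients `a_n`, `p ∣ n`, and keeps the others; `U_p` and `∣ diag(p,1)` commute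
with the diamond action.  Induction over the prime factors of `N`.
-/
import Mathlib
import Fermat.Agent.Lib.S48.HHecke
import Fermat.Agent.Lib.S48.HProd
import Fermat.Agent.Lib.ES.HeckeCompat

set_option autoImplicit false
set_option linter.unusedSectionVars false

noncomputable section

namespace Fermat.Agent.Lib.S48

open Matrix.SpecialLinearGroup ModularForm CongruenceSubgroup UpperHalfPlane ModularFormClass
open Fermat.Agent.Lib.ES
open P2MW.S_ModularForm_heckeT_slash_eq_self_of_mem_Gamma0.ModularForm.HeckeSlashInvariance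
open scoped MatrixGroups ModularForm Manifold

variable {L : ℕ} {k : ℤ} {F G : ℍ → ℂ}

/-! ### The diamond eigen-property -/

/-- `F ∣ g = c • F` for all `g ∈ Γ₀(L)` with lower right entry `≡ d mod L`. -/
def s48h_DiaEig (L : ℕ) (k : ℤ) (d : ℤ) (c : ℂ) (F : ℍ → ℂ) : Prop :=
  ∀ g ∈ Gamma0 L, ((g 1 1 : ℤ) : ZMod L) = ((d : ℤ) : ZMod L) →
    F ∣[k] (mapGL ℝ g : GL (Fin 2) ℝ) = c • F

theorem s48h_intCast_eq_of_dvd {L L' : ℕ} (h : L ∣ L') {a b : ℤ}
    (hab : ((a : ℤ) : ZMod L') = ((b : ℤ) : ZMod L')) : ((a : ℤ) : ZMod L) = ((b : ℤ) : ZMod L) := by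
  have := congrArg (ZMod.castHom h (ZMod L)) hab
  simpa using this

theorem s48h_Gamma1_le_of_dvd {L L' : ℕ} (h : L ∣ L') : Gamma1 L' ≤ Gamma1 L := by
  intro γ hγ
  rw [Gamma1_mem] at hγ ⊢
  refine ⟨?_, ?_, ?_⟩
  · have := s48h_intCast_eq_of_dvd h (a := γ 0 0) (b := 1) (by simpa using hγ.1)
    simpa using this
  · have := s48h_intCast_eq_of_dvd h (a := γ 1 1) (b := 1) (by simpa using hγ.2.1)
    simpa using this
  · have := s48h_intCast_eq_of_dvd h (a := γ 1 0) (b := 0) (by simpa using hγ.2.2)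
    simpa using this

theorem s48h_Good.of_dvd {L' : ℕ} (hF : s48h_Good L k F) (h : L ∣ L') : s48h_Good L' k F where
  inv := fun γ hγ => hF.inv γ (s48h_Gamma1_le_of_dvd h hγ)
  hol := hF.hol
  bdd := hF.bdd

theorem s48h_DiaEig.of_dvd {L' : ℕ} {d : ℤ} {c : ℂ} (hF : s48h_DiaEig L k d c F) (h : L ∣ L') :
    s48h_DiaEig L' k d c F :=
  fun g hg hd => hF g (s48h_Gamma0_le_of_dvd h hg) (s48h_intCast_eq_of_dvd h hd)

theorem s48h_DiaEig.sub {d : ℤ} {c : ℂ} (hF : s48h_DiaEig L k d c F) (hG : s48h_DiaEig L k d c G) :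
    s48h_DiaEig L k d c (F - G) := by
  intro g hg hd
  rw [sub_eq_add_neg, SlashAction.add_slash, SlashAction.neg_slash, hF g hg hd, hG g hg hd,
    smul_add, smul_neg]

/-- The diamond eigen-property of a form with a given transformation law on `Γ₀(L)`. -/
theorem s48h_diaEig_of_slash (hF : s48h_Good L k F) {γ : SL(2, ℤ)} (hγ : γ ∈ Gamma0 L) {c : ℂ}
    (h : F ∣[k] (mapGL ℝ γ : GL (Fin 2) ℝ) = c • F) : s48h_DiaEig L k (γ 1 1) c F :=
  fun g hg hd => (hF.slash_eq_of_lowerRight hg hγ hd).trans h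

/-! ### `∣ diag(p,1)` raises the level and commutes with the diamond action -/

theorem s48h_Good.slash_diag' (hF : s48h_Good L k F) {p : ℕ} (hp : p ≠ 0) :
    s48h_Good (L * p) k (F ∣[k] heckeDiagMatrix p) where
  inv := fun γ hγ => by
    have h0 : γ ∈ Gamma0 (L * p) := Gamma1_in_Gamma0 _ hγ
    have h1 : ((L : ℤ) * p) ∣ γ 1 0 := by
      have := (CharP.intCast_eq_zero_iff (ZMod (L * p)) (L * p) _).mp (Gamma0_mem.mp h0)
      exact_mod_cast this
    rw [s48h_slash_diag_comm hF hp h1,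
      hF.inv γ (s48h_Gamma1_le_of_dvd (Dvd.intro _ rfl) hγ)]
  hol := hF.hol.slash k _
  bdd := s48h_bddCusps_iff.mp ((s48h_bddCusps_iff.mpr hF.bdd).slash_heckeDiagMatrix p)

theorem s48h_DiaEig.slash_diag (hF : s48h_Good L k F) {d : ℤ} {c : ℂ}
    (hE : s48h_DiaEig L k d c F) {p : ℕ} (hp : p ≠ 0) :
    s48h_DiaEig (L * p) k d c (F ∣[k] heckeDiagMatrix p) := by
  intro g hg hd
  have h1 : ((L : ℤ) * p) ∣ g 1 0 := by
    have := (CharP.intCast_eq_zero_iff (ZMod (L * p)) (L * p) _).mp (Gamma0_mem.mp hg)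
    exact_mod_cast this
  rw [s48h_slash_diag_comm hF hp h1,
    hE g (s48h_Gamma0_le_of_dvd (Dvd.intro _ rfl) hg) (s48h_intCast_eq_of_dvd (Dvd.intro _ rfl) hd),
    ModularForm.smul_slash, σ_heckeDiagMatrix, ContinuousAlgEquiv.refl_apply]

/-! ### `U_p`, `p ∣ L`, commutes with the diamond action -/

theorem s48h_heckeU_slash_comm (hF : s48h_Good L k F) {p : ℕ} [NeZero p] (hpL : p ∣ L)
    {g : SL(2, ℤ)} (hg : g ∈ Gamma0 L) :
    (ModularForm.heckeU k p F) ∣[k] (mapGL ℝ g : GL (Fin 2) ℝ)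
      = ModularForm.heckeU k p (F ∣[k] (mapGL ℝ g : GL (Fin 2) ℝ)) := by
  have hp : p ≠ 0 := NeZero.ne p
  obtain ⟨σ, γ', hγ', hmul⟩ := exists_family_heckeMatZ hpL g hg
  rw [heckeU_eq_sum_zmod, heckeU_eq_sum_zmod, SlashAction.sum_slash]
  rw [← Equiv.sum_comp σ (fun x : ZMod p =>
    (F ∣[k] (mapGL ℝ g : GL (Fin 2) ℝ)) ∣[k] heckeMatrix p x.val)]
  refine Finset.sum_congr rfl fun x _ => ?_
  -- the coset relation in `GL(2, ℝ)`
  have hGL : heckeMatrix p x.val * (mapGL ℝ g : GL (Fin 2) ℝ)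
      = (mapGL ℝ (γ' x) : GL (Fin 2) ℝ) * heckeMatrix p (σ x).val := by
    apply Units.ext
    rw [coe_mul_eq_map_mul (coe_heckeMatrix_eq_map hp _) (coe_mapGL_eq_map_intCast g),
      coe_mul_eq_map_mul (coe_mapGL_eq_map_intCast (γ' x)) (coe_heckeMatrix_eq_map hp _), hmul x]
  -- the lower right entry of `γ' x`
  have h10 := congrFun (congrFun (hmul x) 1) 0
  have h11 := congrFun (congrFun (hmul x) 1) 1
  simp only [heckeMatZ, Matrix.mul_apply, Fin.sum_univ_two, Matrix.of_apply, Matrix.cons_val',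
    Matrix.cons_val_zero, Matrix.cons_val_one, Matrix.empty_val', Matrix.cons_val_fin_one,
    Matrix.head_fin_const] at h10 h11
  have hp' : (p : ℤ) ≠ 0 := by exact_mod_cast hp
  have hlr : (γ' x) 1 1 = g 1 1 - g 1 0 * ((σ x).val : ℤ) := by
    apply mul_right_cancel₀ hp'
    linear_combination (-1 : ℤ) * h11 + ((σ x).val : ℤ) * h10
  have hcL : ((g 1 0 : ℤ) : ZMod L) = 0 := Gamma0_mem.mp hg
  have hlrL : (((γ' x) 1 1 : ℤ) : ZMod L) = ((g 1 1 : ℤ) : ZMod L) := by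
    rw [hlr]
    push_cast
    rw [hcL, zero_mul, sub_zero]
  rw [← SlashAction.slash_mul, hGL, SlashAction.slash_mul,
    hF.slash_eq_of_lowerRight (hγ' x) hg hlrL]

theorem s48h_Good.heckeU' (hF : s48h_Good L k F) {p : ℕ} [NeZero p] (hpL : p ∣ L) :
    s48h_Good L k (ModularForm.heckeU k p F) where
  inv := fun γ hγ => by
    rw [s48h_heckeU_slash_comm hF hpL (Gamma1_in_Gamma0 L hγ), hF.inv γ hγ]
  hol := ModularForm.mdifferentiable_heckeU hF.hol k p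
  bdd := s48h_bddCusps_iff.mp ((s48h_bddCusps_iff.mpr hF.bdd).heckeU p)

theorem s48h_DiaEig.heckeU (hF : s48h_Good L k F) {d : ℤ} {c : ℂ} (hE : s48h_DiaEig L k d c F)
    {p : ℕ} [NeZero p] (hpL : p ∣ L) : s48h_DiaEig L k d c (ModularForm.heckeU k p F) := by
  intro g hg hd
  rw [s48h_heckeU_slash_comm hF hpL hg, hE g hg hd, heckeU_smul]

/-! ### The operator `W_p` in weight one -/

/-- `W_p F = F - (U_p F) ∣ diag(p,1)` (weight one). -/
def s48h_Wp (p : ℕ) (F : ℍ → ℂ) : ℍ → ℂ := F - (ModularForm.heckeU 1 p F) ∣[(1 : ℤ)] heckeDiagMatrix p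

theorem s48h_Good.Wp (hF : s48h_Good L 1 F) {p : ℕ} [NeZero p] (hpL : p ∣ L) :
    s48h_Good (L * p) 1 (s48h_Wp p F) :=
  (hF.of_dvd (Dvd.intro _ rfl)).sub ((hF.heckeU' hpL).slash_diag' (NeZero.ne p))

theorem s48h_DiaEig.Wp (hF : s48h_Good L 1 F) {d : ℤ} {c : ℂ} (hE : s48h_DiaEig L 1 d c F)
    {p : ℕ} [NeZero p] (hpL : p ∣ L) : s48h_DiaEig (L * p) 1 d c (s48h_Wp p F) :=
  (hE.of_dvd (Dvd.intro _ rfl)).sub
    ((hE.heckeU hF hpL).slash_diag (hF.heckeU' hpL) (NeZero.ne p))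

theorem s48h_ZeroCusps.Wp (h0 : s48h_ZeroCusps 1 F) (p : ℕ) : s48h_ZeroCusps 1 (s48h_Wp p F) := by
  have h1 := ((h0.heckeU p).slash_heckeDiagMatrix p).smul (-1)
  have h2 := h0.add h1
  have : s48h_Wp p F = F + (-1 : ℂ) • ((ModularForm.heckeU 1 p F) ∣[(1 : ℤ)] heckeDiagMatrix p) := by
    rw [s48h_Wp, neg_one_smul, sub_eq_add_neg]
  rw [this]
  exact h2

theorem s48h_qCoeff_Wp (hF : s48h_QNice F) {p : ℕ} (hp : p ≠ 0) (n : ℕ) :
    qCoeff (s48h_Wp p F) n = if p ∣ n then 0 else qCoeff F n := by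
  rw [s48h_Wp, s48h_qCoeff_sub hF ((hF.heckeU 1 p).slash_diag 1 p),
    s48h_qCoeff_slash_diag (hF.heckeU 1 p) 1 hp]
  split_ifs with h
  · rw [s48h_qCoeff_heckeU hF 1 hp, Nat.div_mul_cancel h]
    norm_num
  · rw [sub_zero]

/-! ### Induction over the prime factors -/

theorem s48h_deplete_aux {N : ℕ} (hF : s48h_Good N 1 F) (h0 : s48h_ZeroCusps 1 F)
    (S : Finset ℕ) (hS : ∀ p ∈ S, p.Prime ∧ p ∣ N) :
    ∃ F' : ℍ → ℂ, s48h_Good (N * ∏ p ∈ S, p) 1 F' ∧ s48h_ZeroCusps 1 F' ∧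
      (∀ (d : ℤ) (c : ℂ), s48h_DiaEig N 1 d c F → s48h_DiaEig (N * ∏ p ∈ S, p) 1 d c F') ∧
      ∀ n, qCoeff F' n = if (∀ p ∈ S, ¬ p ∣ n) then qCoeff F n else 0 := by
  classical
  induction S using Finset.induction_on with
  | empty =>
    refine ⟨F, ?_, h0, ?_, fun n => ?_⟩
    · rw [Finset.prod_empty, mul_one]; exact hF
    · intro d c h
      rw [Finset.prod_empty, mul_one]; exact h
    · simp
  | insert p S hpS ih =>
    obtain ⟨F', hF', h0', hdia, hq⟩ := ih fun q hq => hS q (Finset.mem_insert_of_mem hq)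
    obtain ⟨hp, hpN⟩ := hS p (Finset.mem_insert_self p S)
    have : NeZero p := ⟨hp.ne_zero⟩
    have hpL : p ∣ N * ∏ q ∈ S, q := Dvd.dvd.mul_right hpN _
    have hlevel : N * ∏ q ∈ insert p S, q = (N * ∏ q ∈ S, q) * p := by
      rw [Finset.prod_insert hpS]; ring
    refine ⟨s48h_Wp p F', ?_, h0'.Wp p, ?_, fun n => ?_⟩
    · rw [hlevel]; exact hF'.Wp hpL
    · intro d c h
      rw [hlevel]; exact (hdia d c h).Wp hF' hpL
    · rw [s48h_qCoeff_Wp hF'.qnice hp.ne_zero, hq n]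
      by_cases hpn : p ∣ n
      · rw [if_pos hpn, if_neg]
        intro h
        exact h p (Finset.mem_insert_self p S) hpn
      · rw [if_neg hpn]
        by_cases hall : ∀ q ∈ S, ¬ q ∣ n
        · rw [if_pos hall, if_pos]
          intro q hq
          rcases Finset.mem_insert.mp hq with rfl | hq
          · exact hpn
          · exact hall q hq
        · rw [if_neg hall, if_neg]
          intro h
          exact hall fun q hq => h q (Finset.mem_insert_of_mem hq)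

theorem s48h_coprime_iff_primeFactors {N : ℕ} (hN : N ≠ 0) (n : ℕ) :
    n.Coprime N ↔ ∀ p ∈ N.primeFactors, ¬ p ∣ n := by
  constructor
  · intro h p hp hpn
    have hpN := Nat.dvd_of_mem_primeFactors hp
    have h1 : p ∣ Nat.gcd n N := Nat.dvd_gcd hpn hpN
    rw [h] at h1
    exact (Nat.prime_of_mem_primeFactors hp).one_lt.ne' (Nat.dvd_one.mp h1)
  · intro h
    by_contra hc
    obtain ⟨p, hp, hpd⟩ := Nat.exists_prime_and_dvd hc
    have hpn : p ∣ n := hpd.trans (Nat.gcd_dvd_left n N)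
    have hpN : p ∣ N := hpd.trans (Nat.gcd_dvd_right n N)
    exact h p (Nat.mem_primeFactors.mpr ⟨hp, hpN, hN⟩) hpn

/-- **[DEP]** (= helper1's `s48i_Dep`, with `s48i_Neben` unfolded). -/
theorem s48h_dep (N : ℕ) [NeZero N] (χ : ℤ → ℂ) (f : CuspForm (Gamma1 N) 1)
    (hf : ∀ γ : SL(2, ℤ), γ ∈ Gamma0 N →
      (⇑f) ∣[(1 : ℤ)] (mapGL ℝ γ : GL (Fin 2) ℝ) = χ (γ 1 1) • ⇑f) :
    ∃ f' : CuspForm (Gamma1 (N ^ 2)) 1,
      (∀ γ : SL(2, ℤ), γ ∈ Gamma0 (N ^ 2) →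
        (⇑f') ∣[(1 : ℤ)] (mapGL ℝ γ : GL (Fin 2) ℝ) = χ (γ 1 1) • ⇑f') ∧
      ∀ n : ℕ, qCoeff f' n = if n.Coprime N then qCoeff f n else 0 := by
  have hN : N ≠ 0 := NeZero.ne N
  have hF := s48h_good_of_cuspForm f
  have h0 := s48h_zeroCusps_of_cuspForm f
  obtain ⟨F', hF', h0', hdia, hq⟩ := s48h_deplete_aux hF h0 N.primeFactors
    (fun p hp => ⟨Nat.prime_of_mem_primeFactors hp, Nat.dvd_of_mem_primeFactors hp⟩)
  have hdvd : N * ∏ p ∈ N.primeFactors, p ∣ N ^ 2 := by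
    rw [pow_two]
    exact Nat.mul_dvd_mul_left N (Nat.prod_primeFactors_dvd N)
  have hF2 : s48h_Good (N ^ 2) 1 F' := hF'.of_dvd hdvd
  refine ⟨s48h_toCuspForm hF2 h0', fun γ hγ => ?_, fun n => ?_⟩
  · rw [s48h_coe_toCuspForm]
    have hγN : γ ∈ Gamma0 N := s48h_Gamma0_le_of_dvd (Dvd.intro _ (pow_two N).symm) hγ
    have h1 : s48h_DiaEig N 1 (γ 1 1) (χ (γ 1 1)) ⇑f := s48h_diaEig_of_slash hF hγN (hf γ hγN)
    exact ((hdia _ _ h1).of_dvd hdvd) γ hγ rfl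
  · rw [s48h_coe_toCuspForm, hq n]
    by_cases h : n.Coprime N
    · rw [if_pos h, if_pos ((s48h_coprime_iff_primeFactors hN n).mp h)]
    · rw [if_neg h, if_neg fun h' => h ((s48h_coprime_iff_primeFactors hN n).mpr h')]

end Fermat.Agent.Lib.S48
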