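/-
S48 / DS-1 (helper3): my results in the shapes of helper1's `Iface.lean`.

* `s48h_dep_iface : s48i_Dep`  ([DEP]);
* `s48h_DSCoreH_iface` : `s48i_ModEigen M ψ g φ α c ψ'` ⇒ a nonzero simultaneous eigenvector in
  `k ⊗ Hom_par(Γ_H, 𝔽_ℓ)` with eigenvalues `φ (α p)` of `T_p^H` (`p ∤ M`) and `φ (ψ' σ₁₁)` of `⟨σ⟩^H`
  ([T6]).
-/
import Mathlib
import Fermat.Agent.Lib.S48.Iface
import Fermat.Agent.Lib.S48.HDep
import Fermat.Agent.Lib.S48.HDS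

set_option autoImplicit false

noncomputable section

namespace Fermat.Agent.Lib.S48

open Matrix.SpecialLinearGroup ModularForm CongruenceSubgroup UpperHalfPlane ModularFormClass
open scoped MatrixGroups ModularForm TensorProduct

local notation "𝓞" => integralClosure ℤ ℂ

/-- **[DEP]**. -/
theorem s48h_dep_iface : s48i_Dep := fun N _ χ f hf => s48h_dep N χ f hf

/-- **[T6]** in the shape of `s48i_ModEigen`. -/
theorem s48h_DSCoreH_iface (M : ℕ) [NeZero M] (ψ : DirichletCharacter ℂ M)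
    (g : CuspForm (Gamma1 M) 2) (ℓ : ℕ) [Fact ℓ.Prime] (k : Type) [Field k] [CharP k ℓ]
    (φ : 𝓞 →+* k) (α c : ℕ → 𝓞) (ψ' : ZMod M → 𝓞) (h : s48i_ModEigen M ψ g φ α c ψ')
    (H : Subgroup (ZMod M)ˣ) (hH : ∀ u ∈ H, ψ (u : ZMod M) = 1) :
    letI : Algebra (ZMod ℓ) k := ZMod.algebra k ℓ
    ∃ v : k ⊗[ZMod ℓ] (s48h_Hpar (ZMod ℓ) (s48h_GammaH M H) (ZMod ℓ)), v ≠ 0 ∧
      (∀ (p : ℕ) [Fact p.Prime] (hpM : ¬ p ∣ M) (σp : SL(2, ℤ)) (hσp : σp ∈ Gamma0 M)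
        (hσp11 : ((σp 1 1 : ℤ) : ZMod M) = (p : ZMod M)),
        ((s48h_TpDatum H hpM σp hσp hσp11).heckeHpar (ZMod ℓ)).baseChange k v = φ (α p) • v) ∧
      (∀ (σ : SL(2, ℤ)) (hσ : σ ∈ Gamma0 M),
        ((s48h_diamondDatum H σ hσ).heckeHpar (ZMod ℓ)).baseChange k v
          = φ (ψ' ((σ 1 1 : ℤ) : ZMod M)) • v) := by
  letI : Algebra (ZMod ℓ) k := ZMod.algebra k ℓ
  obtain ⟨hneb, hψ', hc, hne, hcong⟩ := h
  have hg : s48h_Neben M 2 ψ ⇑g := s48h_neben_of_good (s48h_good_of_cuspForm g) hneb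
  refine s48h_DSCoreH M ψ H hH ⇑g hg (s48h_zeroCusps_of_cuspForm g) ℓ k φ c
    (fun n => (hc n).symm) hne ψ' hψ' α (fun p hp hpM n => ?_)
  rw [← hcong p hp hpM n, mul_comm n p]
  congr 2
  split_ifs
  · rw [mul_assoc]
  · rw [mul_zero, mul_zero]

end Fermat.Agent.Lib.S48
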