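/-
DS-1 (S48), wall [T3] (helper1): `s48i_Rat`, unconditionally
(= `s48a_rat` + helper5's `s48eis_Eis` + helper3's `s48h_dep_iface` + landed S23).
-/
import Mathlib
import Fermat.Agent.Lib.S48.ARat
import Fermat.Agent.Lib.S48.Eis1Iface
import Fermat.Agent.Lib.S48.HIface
import Fermat.Agent.S23

set_option autoImplicit false

namespace Fermat.Agent.Lib.S48

/-- **[T3] = [RAT-1]**, unconditionally. -/
theorem s48a_rat_final : s48i_Rat :=
  s48a_rat s48eis_Eis s48h_dep_iface (fun L _ => Fermat.Agent.S23.result L)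

end Fermat.Agent.Lib.S48
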