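/-
DS-1 (S48), wall [T3] (helper1, prefix `s48a_`): analytic glue between the formal space `W` and
weight-one cusp forms with nebentypus.

* `s48a_Mult M ψ G c`: `G` is an Eisenstein multiplier for `ψ` (nebentypus `ψ⁻¹` on `Γ₀(M)`, `a₁ = 1`,
  nonzero value `c` at the cusp `0`);
* `s48a_mem_W_of_form`: `q`-expansions of cusp forms with nebentypus `ψ` lie in `W M (a_n(G))`;
* `s48a_form_of_mem_W`: conversely (Eisenstein division);
* `s48a_W_Tp`: `W` is stable under the formal Hecke operators `T_p`, `p ∤ M`.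
-/
import Mathlib
import Fermat.Agent.Lib.S48.AW

set_option autoImplicit false

noncomputable section

namespace Fermat.Agent.Lib.S48

open Matrix.SpecialLinearGroup ModularForm CongruenceSubgroup UpperHalfPlane ModularFormClass Filter
open scoped MatrixGroups ModularForm Manifold Topology

/-- `G` is an Eisenstein multiplier for `ψ` at level `M`. -/
structure s48a_Mult (M : ℕ) (ψ : DirichletCharacter ℂ M) (G : ℍ → ℂ) (c : ℂ) : Prop where
  good : s48h_Good M 1 G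
  neben : ∀ γ : SL(2, ℤ), γ ∈ Gamma0 M →
    G ∣[(1 : ℤ)] (mapGL ℝ γ : GL (Fin 2) ℝ) = ψ⁻¹ ((γ 1 1 : ℤ) : ZMod M) • G
  a1 : qCoeff G 1 = 1
  c0 : c ≠ 0
  lim : Tendsto (G ∣[(1 : ℤ)] (mapGL ℝ ModularGroup.S : GL (Fin 2) ℝ)) atImInfty (𝓝 c)

theorem s48a_char_mul_inv {M : ℕ} (ψ : DirichletCharacter ℂ M) {γ : SL(2, ℤ)} (hγ : γ ∈ Gamma0 M) :
    ψ ((γ 1 1 : ℤ) : ZMod M) * ψ⁻¹ ((γ 1 1 : ℤ) : ZMod M) = 1 := by
  have hu := s48h_isUnit_lowerRight hγ
  rw [← MulChar.mul_apply, mul_inv_cancel, MulChar.one_apply hu]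

theorem s48a_char_Gamma1 {M : ℕ} (ψ : DirichletCharacter ℂ M) {γ : SL(2, ℤ)} (hγ : γ ∈ Gamma1 M) :
    ψ ((γ 1 1 : ℤ) : ZMod M) = 1 := by
  rw [((Gamma1_mem M γ).mp hγ).2.1, map_one]

theorem s48a_qCoeff_zero_cuspForm {N : ℕ} [NeZero N] {k : ℤ} (f : CuspForm (Gamma1 N) k) :
    qCoeff f 0 = 0 := by
  have h : (1 : ℝ) ∈ (Gamma1 N : Subgroup (GL (Fin 2) ℝ)).strictPeriods := by
    rw [strictPeriods_Gamma1]
    exact AddSubgroup.mem_zmultiples 1
  exact CuspFormClass.qExpansion_coeff_zero f one_pos h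

/-- cusp forms on `Γ₀(L)` are `q`-nice. -/
theorem s48a_qnice_of_cuspForm0 {L : ℕ} [NeZero L] {k : ℤ} (h : CuspForm (Gamma0 L) k) :
    s48h_QNice ⇑h where
  per := SlashInvariantFormClass.periodic_comp_ofComplex h
    (Fermat.Agent.Lib.QCoeff.one_mem_strictPeriods L)
  hol := CuspFormClass.holo h
  bdd := by
    have := ModularFormClass.bdd_at_infty_slash h 1
    rwa [SlashAction.slash_one] at this

theorem s48a_zeroCusps_of_cuspForm0 {L : ℕ} [NeZero L] {k : ℤ} (h : CuspForm (Gamma0 L) k) :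
    s48h_ZeroCusps k ⇑h := by
  rw [s48h_zeroCusps_iff]
  exact fun γ => CuspFormClass.zero_at_infty_slash h γ

variable {M : ℕ} [NeZero M] {ψ : DirichletCharacter ℂ M} {G : ℍ → ℂ} {c : ℂ}

/-- `q`-expansions of cusp forms with nebentypus `ψ` lie in `W`. -/
theorem s48a_mem_W_of_form (hG : s48a_Mult M ψ G c) (F : CuspForm (Gamma1 M) 1)
    (hF : ∀ γ : SL(2, ℤ), γ ∈ Gamma0 M →
      (⇑F) ∣[(1 : ℤ)] (mapGL ℝ γ : GL (Fin 2) ℝ) = ψ ((γ 1 1 : ℤ) : ZMod M) • ⇑F) :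
    (fun n => qCoeff F n) ∈ s48a_W M (fun n => qCoeff G n) := by
  refine ⟨s48a_qCoeff_zero_cuspForm F, fun d hd => ?_⟩
  have hd0 : d ≠ 0 := by omega
  obtain ⟨h, hh⟩ := s48a_exists_prodForm (χ := fun a => ψ (a : ZMod M))
    (χinv := fun a => ψ⁻¹ (a : ZMod M)) (fun γ hγ => s48a_char_mul_inv ψ hγ) hF
    (CuspFormClass.holo F) (s48h_zeroCusps_of_cuspForm F) hG.neben hG.good.hol
    (s48h_bddCusps_iff.mpr hG.good.bdd) hd0
  refine ⟨h, fun n => ?_⟩
  rw [hh, s48h_qCoeff_mul (s48h_good_of_cuspForm F).qnice (s48a_qnice_dil hG.good.qnice d)]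
  simp only [s48a_cmul]
  refine Finset.sum_congr rfl fun ij _ => ?_
  rw [s48a_qCoeff_dil hG.good.qnice hd0]
  rfl

theorem s48a_qExpansion_eq_mk (F : ℍ → ℂ) : qExpansion 1 F = PowerSeries.mk (fun n => qCoeff F n) := by
  ext n
  rw [PowerSeries.coeff_mk]
  rfl

/-- **Eisenstein division, formal version**: every element of `W` is the `q`-expansion of a cusp form of
weight one with nebentypus `ψ`. -/
theorem s48a_form_of_mem_W (hG : s48a_Mult M ψ G c) {w : ℕ → ℂ}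
    (hw : w ∈ s48a_W M (fun n => qCoeff G n)) :
    ∃ F : CuspForm (Gamma1 M) 1, (∀ n : ℕ, qCoeff F n = w n) ∧
      ∀ γ : SL(2, ℤ), γ ∈ Gamma0 M →
        (⇑F) ∣[(1 : ℤ)] (mapGL ℝ γ : GL (Fin 2) ℝ) = ψ ((γ 1 1 : ℤ) : ZMod M) • ⇑F := by
  classical
  obtain ⟨hw0, hw⟩ := hw
  choose h hh using hw
  let H : ℕ → ℍ → ℂ := fun d => if hd : 1 ≤ d then ⇑(h d hd) else 0
  have hH : ∀ d (hd : 1 ≤ d), H d = ⇑(h d hd) := fun d hd => dif_pos hd
  have hne : ∀ d : ℕ, 1 ≤ d → NeZero (M * d) := fun d hd =>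
    ⟨Nat.mul_ne_zero (NeZero.ne M) (by omega)⟩
  have hD : s48a_Data G (PowerSeries.mk w) H :=
    { hG := hG.good.qnice
      hG1 := hG.a1
      hW0 := by simp [hw0]
      hH := fun d hd => by
        haveI := hne d hd
        rw [hH d hd]
        exact s48a_qnice_of_cuspForm0 _
      hHq := fun d hd => by
        have hd0 : d ≠ 0 := by omega
        rw [hH d hd, s48a_qExpansion_eq_mk, s48a_qExpansion_eq_mk (s48a_dil d G)]
        ext n
        rw [s48a_coeff_mk_mul, PowerSeries.coeff_mk, hh d hd n]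
        simp only [s48a_cmul]
        refine Finset.sum_congr rfl fun ij _ => ?_
        rw [s48a_qCoeff_dil hG.good.qnice hd0]
        rfl }
  obtain ⟨F, hFq, hFn⟩ := s48a_division (N' := M) (χ := fun a => ψ (a : ZMod M))
    (χinv := fun a => ψ⁻¹ (a : ZMod M)) (fun γ hγ => s48a_char_mul_inv ψ hγ)
    (fun γ hγ => s48a_char_Gamma1 ψ hγ) hD hG.neben hG.c0 hG.lim
    (fun d hd => by
      haveI := hne d hd
      rw [hH d hd]
      exact s48a_zeroCusps_of_cuspForm0 _)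
    (fun γ hγ => by
      rw [hH 1 (le_refl 1)]
      refine SlashInvariantFormClass.slash_action_eq (h 1 (le_refl 1)) _
        (Subgroup.mem_map_of_mem _ ?_)
      rwa [mul_one])
  exact ⟨F, fun n => by rw [hFq n, PowerSeries.coeff_mk], hFn⟩

/-! ### formal Hecke operators -/

/-- the formal Hecke operator `T_p` (weight one, diamond factor `e`) on sequences. -/
def s48a_Tp (p : ℕ) (e : ℂ) : (ℕ → ℂ) →ₗ[ℂ] (ℕ → ℂ) where
  toFun w := fun n => w (n * p) + e * (if p ∣ n then w (n / p) else 0)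
  map_add' w w' := by
    funext n
    simp only [Pi.add_apply]
    split_ifs <;> ring
  map_smul' a w := by
    funext n
    simp only [Pi.smul_apply, smul_eq_mul, RingHom.id_apply]
    split_ifs <;> ring

theorem s48a_Tp_apply (p : ℕ) (e : ℂ) (w : ℕ → ℂ) (n : ℕ) :
    s48a_Tp p e w n = w (n * p) + e * (if p ∣ n then w (n / p) else 0) := rfl

/-- `W` is stable under `T_p`, `p ∤ M`. -/
theorem s48a_W_Tp (hG : s48a_Mult M ψ G c) {p : ℕ} (hp : p.Prime) (hpM : ¬ p ∣ M) {w : ℕ → ℂ}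
    (hw : w ∈ s48a_W M (fun n => qCoeff G n)) :
    s48a_Tp p (ψ (p : ZMod M)) w ∈ s48a_W M (fun n => qCoeff G n) := by
  haveI : Fact p.Prime := ⟨hp⟩
  obtain ⟨F, hFq, hFn⟩ := s48a_form_of_mem_W hG hw
  have hgood := s48h_good_of_cuspForm F
  have hN : s48h_Neben M 1 ψ ⇑F := s48h_neben_of_good hgood hFn
  have hT := hN.heckeT hpM
  have h0 : s48h_ZeroCusps 1 (s48h_heckeTψ 1 p (ψ (p : ZMod M)) ⇑F) :=
    (s48h_zeroCusps_of_cuspForm F).heckeTψ _
  have := s48a_mem_W_of_form hG (s48h_toCuspForm hT.good h0) (by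
    intro γ hγ
    rw [s48h_coe_toCuspForm]
    exact hT.neben γ hγ)
  convert this using 1
  funext n
  rw [s48h_coe_toCuspForm, s48h_qCoeff_heckeTψ hgood.qnice 1 hp.ne_zero, s48a_Tp_apply, hFq]
  congr 2
  split_ifs
  · rw [hFq]; simp
  · rfl

end Fermat.Agent.Lib.S48
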