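/-
DS-1 (S48), brick [LAT] (lead, prefix `s48n_`; requested by helper1 #2366): **a Hecke-stable lattice of
sequences forces the eigenvalues into a finitely generated `ℤ`-module.**  Mathlib only.

`O ⊆ ℂ` a subring which is a finitely generated `ℤ`-module, `Lam` a set of sequences with coefficients in
`O`, `x ∈ ℂ-span Lam` with `x 1 = 1`.  If every `c ∈ S` is the eigenvalue on `x` of some linear operator
preserving `Lam`, then `ℤ[S]` is a finitely generated `ℤ`-module; hence every `c ∈ S` is integral over `ℤ`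
and `ℚ(S)` is a number field.

Proof.  `x = Σ z_w • w` (finite), `Z := Σ z_w • O` (f.g.); the good scalars (eigenvalues on `x` of operators
preserving `Lam`) contain `1`, are closed under products, and a good `c` equals
`(T x) 1 = Σ z_w (T w) 1 ∈ Z`; so `ℤ[S] = span_ℤ (Submonoid.closure S) ⊆ Z`.
-/
import Mathlib

set_option autoImplicit false

namespace Fermat.Agent.Lib.S48

/-- the "good" scalars: eigenvalues on `x` of operators preserving `Lam`. -/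
def s48n_Good (Lam : Set (ℕ → ℂ)) (x : ℕ → ℂ) (c : ℂ) : Prop :=
  ∃ T : (ℕ → ℂ) →ₗ[ℂ] (ℕ → ℂ), (∀ w ∈ Lam, T w ∈ Lam) ∧ T x = c • x

lemma s48n_good_one (Lam : Set (ℕ → ℂ)) (x : ℕ → ℂ) : s48n_Good Lam x 1 :=
  ⟨LinearMap.id, fun _ hw => hw, by simp⟩

lemma s48n_good_mul {Lam : Set (ℕ → ℂ)} {x : ℕ → ℂ} {c d : ℂ} (hc : s48n_Good Lam x c)
    (hd : s48n_Good Lam x d) : s48n_Good Lam x (c * d) := by
  obtain ⟨T, hT, hTx⟩ := hc
  obtain ⟨T', hT', hTx'⟩ := hd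
  refine ⟨T.comp T', fun w hw => hT _ (hT' w hw), ?_⟩
  rw [LinearMap.comp_apply, hTx', map_smul, hTx, smul_smul, mul_comm]

lemma s48n_good_of_mem_closure {Lam : Set (ℕ → ℂ)} {x : ℕ → ℂ} {S : Set ℂ}
    (hS : ∀ c ∈ S, s48n_Good Lam x c) {c : ℂ} (hc : c ∈ Submonoid.closure S) :
    s48n_Good Lam x c := by
  induction hc using Submonoid.closure_induction with
  | mem c hc => exact hS c hc
  | one => exact s48n_good_one Lam x
  | mul c d _ _ hc hd => exact s48n_good_mul hc hd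

/-- the `ℤ`-module `Σ_w z_w • O`. -/
def s48n_Z (O : Subring ℂ) (z : (ℕ → ℂ) →₀ ℂ) : Submodule ℤ ℂ :=
  ⨆ w ∈ z.support, (Subring.toAddSubgroup O).toIntSubmodule.map
    ((LinearMap.mulLeft ℂ (z w)).restrictScalars ℤ)

lemma s48n_Z_fg (O : Subring ℂ) (hO : (Subring.toAddSubgroup O).toIntSubmodule.FG)
    (z : (ℕ → ℂ) →₀ ℂ) : (s48n_Z O z).FG := by
  unfold s48n_Z
  exact Submodule.fg_biSup _ _ fun w _ => hO.map _

lemma s48n_mul_mem_Z (O : Subring ℂ) (z : (ℕ → ℂ) →₀ ℂ) {w : ℕ → ℂ} (hw : w ∈ z.support)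
    {o : ℂ} (ho : o ∈ O) : z w * o ∈ s48n_Z O z := by
  unfold s48n_Z
  refine Submodule.mem_iSup_of_mem w (Submodule.mem_iSup_of_mem hw ?_)
  exact ⟨o, ho, rfl⟩

/-- a good scalar lies in `Z`. -/
lemma s48n_good_mem_Z (O : Subring ℂ) {Lam : Set (ℕ → ℂ)} (hLam : ∀ w ∈ Lam, ∀ n, w n ∈ O)
    {x : ℕ → ℂ} (hx1 : x 1 = 1) (z : (ℕ → ℂ) →₀ ℂ) (hz : (z.support : Set (ℕ → ℂ)) ⊆ Lam)
    (hzx : (z.sum fun w r => r • w) = x) {c : ℂ} (hc : s48n_Good Lam x c) :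
    c ∈ s48n_Z O z := by
  obtain ⟨T, hT, hTx⟩ := hc
  have h1 : c = (T x) 1 := by rw [hTx, Pi.smul_apply, hx1, smul_eq_mul, mul_one]
  rw [h1, ← hzx, Finsupp.sum, map_sum, Finset.sum_apply]
  refine Submodule.sum_mem _ fun w hw => ?_
  rw [map_smul, Pi.smul_apply, smul_eq_mul]
  exact s48n_mul_mem_Z O z hw (hLam _ (hT w (hz hw)) 1)

theorem s48n_adjoin_fg_of_lattice (O : Subring ℂ)
    (hO : (Subring.toAddSubgroup O).toIntSubmodule.FG)
    (Lam : Set (ℕ → ℂ)) (hLam : ∀ w ∈ Lam, ∀ n, w n ∈ O)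
    (x : ℕ → ℂ) (hx1 : x 1 = 1) (hx : x ∈ Submodule.span ℂ Lam)
    (S : Set ℂ)
    (hS : ∀ c ∈ S, ∃ T : (ℕ → ℂ) →ₗ[ℂ] (ℕ → ℂ), (∀ w ∈ Lam, T w ∈ Lam) ∧ T x = c • x) :
    (Subalgebra.toSubmodule (Algebra.adjoin ℤ S)).FG := by
  obtain ⟨z, hz, hzx⟩ := Submodule.mem_span_set.mp hx
  refine Submodule.FG.of_le (s48n_Z_fg O hO z) ?_
  rw [Algebra.adjoin_eq_span, Submodule.span_le]
  intro c hc
  exact s48n_good_mem_Z O hLam hx1 z hz hzx (s48n_good_of_mem_closure hS hc)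


theorem s48n_isIntegral_of_lattice (O : Subring ℂ)
    (hO : (Subring.toAddSubgroup O).toIntSubmodule.FG)
    (Lam : Set (ℕ → ℂ)) (hLam : ∀ w ∈ Lam, ∀ n, w n ∈ O)
    (x : ℕ → ℂ) (hx1 : x 1 = 1) (hx : x ∈ Submodule.span ℂ Lam)
    (S : Set ℂ)
    (hS : ∀ c ∈ S, ∃ T : (ℕ → ℂ) →ₗ[ℂ] (ℕ → ℂ), (∀ w ∈ Lam, T w ∈ Lam) ∧ T x = c • x) :
    (∀ c ∈ S, IsIntegral ℤ c) ∧ FiniteDimensional ℚ (IntermediateField.adjoin ℚ S) := by
  have hFG := s48n_adjoin_fg_of_lattice O hO Lam hLam x hx1 hx S hS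
  have hint : ∀ c ∈ S, IsIntegral ℤ c := fun c hc =>
    IsIntegral.of_mem_of_fg (Algebra.adjoin ℤ S) hFG c (Algebra.subset_adjoin hc)
  refine ⟨hint, ?_⟩
  have halg : ∀ c ∈ S, IsAlgebraic ℚ c := fun c hc => ((hint c hc).tower_top).isAlgebraic
  -- the `ℚ`-algebra generated by `S` is finite-dimensional
  have hQ : (Subalgebra.toSubmodule (Algebra.adjoin ℚ S)).FG := by
    obtain ⟨G, hG⟩ := hFG
    refine Submodule.FG.of_le (T := Submodule.span ℚ (G : Set ℂ)) ⟨G, rfl⟩ ?_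
    rw [Algebra.adjoin_eq_span, Submodule.span_le]
    intro c hc
    have h1 : c ∈ Subalgebra.toSubmodule (Algebra.adjoin ℤ S) := by
      rw [Algebra.adjoin_eq_span]
      exact Submodule.subset_span hc
    rw [← hG] at h1
    exact Submodule.span_le_restrictScalars ℤ ℚ (G : Set ℂ) h1
  have h := IntermediateField.adjoin_toSubalgebra_of_isAlgebraic halg
  change FiniteDimensional ℚ (IntermediateField.adjoin ℚ S).toSubalgebra
  rw [h]
  exact Module.Finite.of_fg hQ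

end Fermat.Agent.Lib.S48
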