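/-
DS-1 (S48), wall [T3] (helper1, prefix `s48a_`): the lattice argument.

A normalised Hecke eigen-sequence `x ∈ W` has integral eigenvalues `x p` (`p ∤ M`) generating a number
field (via lead's [LAT], `NLat.lean`).
-/
import Mathlib
import Fermat.Agent.Lib.S48.ATp
import Fermat.Agent.Lib.S48.NLat

set_option autoImplicit false

noncomputable section

namespace Fermat.Agent.Lib.S48

open Matrix.SpecialLinearGroup ModularForm CongruenceSubgroup UpperHalfPlane ModularFormClass Filter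
open scoped MatrixGroups ModularForm Manifold Topology

variable {M : ℕ} [NeZero M] {ψ : DirichletCharacter ℂ M} {G : ℍ → ℂ} {c : ℂ}

/-- the eigenvalues of a normalised eigen-sequence in `W` are integral and generate a number field. -/
theorem s48a_eigen_integral (hG : s48a_Mult M ψ G c)
    (hS : ∀ d : ℕ, 1 ≤ d → CuspForm.HasIntegralStructure (M * d) 2)
    (K₀ : IntermediateField ℚ ℂ) [FiniteDimensional ℚ K₀]
    (O : Subring ℂ) (hO : (Subring.toAddSubgroup O).toIntSubmodule.FG)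
    (hOmem : ∀ z : ℂ, z ∈ O ↔ z ∈ K₀ ∧ IsIntegral ℤ z)
    (hb : ∀ n, qCoeff G n ∈ K₀) (hbint : ∀ n, 1 ≤ n → IsIntegral ℤ (qCoeff G n))
    (hψ : ∀ a, ψ a ∈ O)
    {x : ℕ → ℂ} (hx : x ∈ s48a_W M (fun n => qCoeff G n)) (hx1 : x 1 = 1)
    (hxT : ∀ p : ℕ, p.Prime → ¬ p ∣ M → s48a_Tp p (ψ (p : ZMod M)) x = x p • x) :
    (∀ p : ℕ, p.Prime → ¬ p ∣ M → IsIntegral ℤ (x p)) ∧
      FiniteDimensional ℚ (IntermediateField.adjoin ℚ {z : ℂ | ∃ p : ℕ, p.Prime ∧ ¬ p ∣ M ∧ z = x p}) := by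
  set b : ℕ → ℂ := fun n => qCoeff G n with hbdef
  set Lam : Set (ℕ → ℂ) := {v | v ∈ s48a_W M b ∧ ∀ n, v n ∈ O} with hLam
  have hspan : x ∈ Submodule.span ℂ Lam := by
    have h1 := s48a_W_span_rat hS K₀ hb hG.a1 hx
    refine (Submodule.span_le.mpr ?_) h1
    intro v hv
    obtain ⟨D, hD, hi⟩ := s48a_W_denom hS K₀ hb hG.a1 hbint hv
    have hD' : (D : ℂ) ≠ 0 := by exact_mod_cast hD
    have hmem : ((D : ℂ) • v) ∈ Lam := by
      refine ⟨Submodule.smul_mem _ _ hv.1, fun n => ?_⟩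
      rw [hOmem]
      refine ⟨?_, hi n⟩
      simp only [Pi.smul_apply, smul_eq_mul]
      exact mul_mem (by simpa using (K₀.intCast_mem D)) (hv.2 n)
    have : v = (D : ℂ)⁻¹ • ((D : ℂ) • v) := by
      rw [smul_smul, inv_mul_cancel₀ hD', one_smul]
    rw [this]
    exact Submodule.smul_mem _ _ (Submodule.subset_span hmem)
  obtain ⟨h1, h2⟩ := s48n_isIntegral_of_lattice O hO Lam (fun w hw n => hw.2 n) x hx1 hspan
    {z : ℂ | ∃ p : ℕ, p.Prime ∧ ¬ p ∣ M ∧ z = x p} (by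
      rintro z ⟨p, hp, hpM, rfl⟩
      refine ⟨s48a_Tp p (ψ (p : ZMod M)), fun w hw => ⟨s48a_W_Tp hG hp hpM hw.1, fun n => ?_⟩,
        hxT p hp hpM⟩
      rw [s48a_Tp_apply]
      refine add_mem (hw.2 _) (mul_mem (hψ _) ?_)
      split_ifs
      · exact hw.2 _
      · exact zero_mem _)
  exact ⟨fun p hp hpM => h1 _ ⟨p, hp, hpM, rfl⟩, h2⟩

end Fermat.Agent.Lib.S48
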