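/-
S48 programme DS-1, Level-2 wiring (helper3), algebraic preliminaries:

* `s48h_isIntegral_dirichlet`: values of Dirichlet characters are algebraic integers;
* `s48h_dirichlet_pow_totient`: `χ ^ φ(n) = 1`;
* `s48h_exists_teich`: for a residue map `φ : 𝓞 → k`, `char k = ℓ`, the Teichmüller character
  `ω : (ℤ/ℓ)ˣ → μ_{ℓ-1}(ℂ)` with `φ (ω a) = a`;
* `s48h_exists_teich_inv`: its inverse `χ = ω⁻¹` (odd, `φ (χ d) · d = 1`).
-/
import Mathlib

set_option autoImplicit false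

noncomputable section

namespace Fermat.Agent.Lib.S48

local notation "𝓞" => integralClosure ℤ ℂ

/-- `χ ^ φ(n) = 1` for a Dirichlet character mod `n`. -/
theorem s48h_dirichlet_pow_totient {n : ℕ} (χ : DirichletCharacter ℂ n) :
    χ ^ n.totient = 1 := by
  refine MulChar.ext fun a => ?_
  rw [MulChar.pow_apply_coe, ← map_pow, ← Units.val_pow_eq_pow_val, ZMod.pow_totient]
  simp

/-- The order of a Dirichlet character mod `n` divides `φ(n)`. -/
theorem s48h_orderOf_dirichlet_dvd {n : ℕ} (χ : DirichletCharacter ℂ n) :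
    orderOf χ ∣ n.totient :=
  orderOf_dvd_of_pow_eq_one (s48h_dirichlet_pow_totient χ)

/-- Values of Dirichlet characters are algebraic integers. -/
theorem s48h_isIntegral_dirichlet {n : ℕ} [NeZero n] (χ : DirichletCharacter ℂ n) (a : ZMod n) :
    IsIntegral ℤ (χ a) := by
  by_cases ha : IsUnit a
  · obtain ⟨u, rfl⟩ := ha
    have h1 : (χ u) ^ n.totient = 1 := by
      rw [← MulChar.pow_apply_coe, s48h_dirichlet_pow_totient, MulChar.one_apply_coe]
    refine IsIntegral.of_pow (Nat.totient_pos.mpr (Nat.pos_of_ne_zero (NeZero.ne n))) ?_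
    rw [h1]
    exact isIntegral_one
  · rw [MulChar.map_nonunit χ ha]
    exact isIntegral_zero

/-- `φ` is injective on the `(ℓ-1)`-th roots of unity. -/
theorem s48h_root_eq_one_of_map {ℓ : ℕ} (hℓ : ℓ.Prime) {k : Type} [Field k] [CharP k ℓ]
    (φ : 𝓞 →+* k) (η : 𝓞) (h1 : η ^ (ℓ - 1) = 1) (h2 : φ η = 1) : η = 1 := by
  by_contra hne
  have hsum : ∑ i ∈ Finset.range (ℓ - 1), η ^ i = 0 := by
    have h := mul_geom_sum η (ℓ - 1)
    rw [h1, sub_self] at h
    exact (mul_eq_zero.mp h).resolve_left (sub_ne_zero.mpr hne)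
  have h3 := congrArg φ hsum
  rw [map_sum, map_zero] at h3
  simp only [map_pow, h2, one_pow, Finset.sum_const, Finset.card_range, nsmul_eq_mul,
    mul_one] at h3
  rw [CharP.cast_eq_zero_iff k ℓ] at h3
  have := Nat.le_of_dvd (Nat.sub_pos_of_lt hℓ.one_lt) h3
  have := hℓ.pos
  omega

/-- **Teichmüller character.** -/
theorem s48h_exists_teich {ℓ : ℕ} [hℓ : Fact ℓ.Prime] {k : Type} [Field k] [CharP k ℓ]
    (φ : 𝓞 →+* k) :
    ∃ ω : DirichletCharacter ℂ ℓ, ∀ (a : (ZMod ℓ)ˣ) (h : IsIntegral ℤ (ω a)),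
      φ ⟨ω a, h⟩ = ZMod.castHom (dvd_refl ℓ) k (a : ZMod ℓ) := by
  classical
  have hn : NeZero (ℓ - 1) := ⟨(Nat.sub_pos_of_lt hℓ.out.one_lt).ne'⟩
  -- a primitive root in `𝓞`
  have hprimC := Complex.isPrimitiveRoot_exp (ℓ - 1) hn.out
  set ζC := Complex.exp (2 * Real.pi * Complex.I / ((ℓ - 1 : ℕ) : ℂ)) with hζC
  have hζint : IsIntegral ℤ ζC := hprimC.isIntegral (Nat.pos_of_ne_zero hn.out)
  have hprim : IsPrimitiveRoot (⟨ζC, hζint⟩ : 𝓞) (ℓ - 1) :=
    IsPrimitiveRoot.of_map_of_injective (f := algebraMap 𝓞 ℂ) hprimC Subtype.val_injective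
  have hcard : Nat.card (rootsOfUnity (ℓ - 1) 𝓞) = ℓ - 1 := hprim.card_rootsOfUnity
  have hcardk : Nat.card (rootsOfUnity (ℓ - 1) k) ≤ ℓ - 1 := card_rootsOfUnity k (ℓ - 1)
  set r := restrictRootsOfUnity φ (ℓ - 1) with hr
  have hrinj : Function.Injective r := by
    rw [injective_iff_map_eq_one]
    intro ζ hζ
    have h1 : ((ζ : 𝓞ˣ) : 𝓞) ^ (ℓ - 1) = 1 := by
      have := ζ.2
      rw [mem_rootsOfUnity] at this
      rw [← Units.val_pow_eq_pow_val, this, Units.val_one]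
    have h2 : φ ((ζ : 𝓞ˣ) : 𝓞) = 1 := by
      have := congrArg (fun x : rootsOfUnity (ℓ - 1) k => ((x : kˣ) : k)) hζ
      simpa [hr, restrictRootsOfUnity_coe_apply] using this
    have h3 := s48h_root_eq_one_of_map hℓ.out φ _ h1 h2
    exact Subtype.ext (Units.ext h3)
  have hrbij : Function.Bijective r := by
    rw [Nat.bijective_iff_injective_and_card]
    refine ⟨hrinj, le_antisymm (Nat.card_le_card_of_injective r hrinj) ?_⟩
    rw [hcard]
    exact hcardk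
  -- the map `(ℤ/ℓ)ˣ → μ_{ℓ-1}(k)`
  let c : ZMod ℓ →+* k := ZMod.castHom (dvd_refl ℓ) k
  let u : (ZMod ℓ)ˣ →* rootsOfUnity (ℓ - 1) k :=
    (Units.map c.toMonoidHom).codRestrict (rootsOfUnity (ℓ - 1) k) (fun a => by
      rw [mem_rootsOfUnity, ← map_pow, ZMod.units_pow_card_sub_one_eq_one, map_one])
  let e := MulEquiv.ofBijective r hrbij
  let ω₀ : (ZMod ℓ)ˣ →* ℂˣ :=
    (Units.map (algebraMap 𝓞 ℂ).toMonoidHom).comp
      ((rootsOfUnity (ℓ - 1) 𝓞).subtype.comp (e.symm.toMonoidHom.comp u))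
  refine ⟨MulChar.ofUnitHom ω₀, fun a h => ?_⟩
  have h1 : (⟨MulChar.ofUnitHom ω₀ a, h⟩ : 𝓞) = (((e.symm (u a) : rootsOfUnity (ℓ - 1) 𝓞) : 𝓞ˣ) : 𝓞) := by
    apply Subtype.ext
    show MulChar.ofUnitHom ω₀ a = _
    rw [MulChar.ofUnitHom_coe]
    rfl
  rw [h1]
  have h2 : r (e.symm (u a)) = u a := e.apply_symm_apply (u a)
  have h3 := congrArg (fun x : rootsOfUnity (ℓ - 1) k => ((x : kˣ) : k)) h2
  simp only [hr, restrictRootsOfUnity_coe_apply] at h3
  rw [h3]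
  rfl

/-- **The inverse of the Teichmüller character**: an odd character `χ` mod `ℓ` with
`φ (χ d) · d = 1` for `ℓ ∤ d`. -/
theorem s48h_exists_teich_inv {ℓ : ℕ} [hℓ : Fact ℓ.Prime] (hℓ2 : ℓ ≠ 2) {k : Type} [Field k]
    [CharP k ℓ] (φ : 𝓞 →+* k) :
    ∃ χ : DirichletCharacter ℂ ℓ, χ (-1) = -1 ∧
      ∀ (d : ℕ) (h : IsIntegral ℤ (χ (d : ZMod ℓ))), ¬ ℓ ∣ d → φ ⟨χ d, h⟩ * (d : k) = 1 := by
  obtain ⟨ω, hω⟩ := s48h_exists_teich φ
  have hneg : ω (-1) = -1 := by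
    have h1 : ω (-1) * ω (-1) = 1 := by
      rw [← map_mul]
      simp
    rcases mul_self_eq_one_iff.mp h1 with h | h
    · exfalso
      have h2 := hω (-1) (s48h_isIntegral_dirichlet ω _)
      have h3 : (⟨ω ((-1 : (ZMod ℓ)ˣ) : ZMod ℓ), s48h_isIntegral_dirichlet ω _⟩ : 𝓞) = 1 := by
        apply Subtype.ext
        show ω ((-1 : (ZMod ℓ)ˣ) : ZMod ℓ) = 1
        rw [Units.val_neg, Units.val_one]
        exact h
      rw [h3, map_one, Units.val_neg, Units.val_one, map_neg, map_one] at h2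
      have h4 : ((2 : ℕ) : k) = 0 := by
        push_cast
        linear_combination h2
      rw [CharP.cast_eq_zero_iff k ℓ] at h4
      exact hℓ2 ((Nat.prime_dvd_prime_iff_eq hℓ.out Nat.prime_two).mp h4)
    · exact h
  refine ⟨ω⁻¹, ?_, fun d h hd => ?_⟩
  · rw [MulChar.inv_apply', inv_neg_one, hneg]
  · have hcop : Nat.Coprime d ℓ := ((Nat.Prime.coprime_iff_not_dvd hℓ.out).mpr hd).symm
    set u := ZMod.unitOfCoprime d hcop with hu
    have hud : ((u : (ZMod ℓ)ˣ) : ZMod ℓ) = (d : ZMod ℓ) := ZMod.coe_unitOfCoprime d hcop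
    have h1 : ω⁻¹ (d : ZMod ℓ) * ω (d : ZMod ℓ) = 1 := by
      rw [← hud, ← MulChar.mul_apply, inv_mul_cancel, MulChar.one_apply_coe]
    have h2 : (⟨ω⁻¹ (d : ZMod ℓ), h⟩ : 𝓞) * ⟨ω (d : ZMod ℓ), s48h_isIntegral_dirichlet ω _⟩ = 1 :=
      Subtype.ext h1
    have h3 := congrArg φ h2
    rw [map_mul, map_one] at h3
    have h4 : φ ⟨ω (d : ZMod ℓ), s48h_isIntegral_dirichlet ω _⟩ = (d : k) := by
      have := hω u (by rw [hud]; exact s48h_isIntegral_dirichlet ω _)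
      simp only [hud] at this
      rw [this, map_natCast]
    rw [h4] at h3
    exact h3

end Fermat.Agent.Lib.S48
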