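/-
DS-1 (S48), wall [T3] (helper1, prefix `s48a_`): auxiliary lemmas for the assembly of `s48i_Rat`
(characters, depleted Hecke relations, the Eisenstein multiplier from `s48i_Eis`).
-/
import Mathlib
import Fermat.Agent.Lib.S48.Iface
import Fermat.Agent.Lib.S48.HTeich
import Fermat.Agent.Lib.S48.ALat
import Fermat.Agent.Lib.S48.AConj

set_option autoImplicit false

noncomputable section

namespace Fermat.Agent.Lib.S48

open Matrix.SpecialLinearGroup ModularForm CongruenceSubgroup UpperHalfPlane ModularFormClass Filter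
open scoped MatrixGroups ModularForm Manifold Topology

/-! ### characters -/

theorem s48a_changeLevel_lowerRight {N M : ℕ} (h : N ∣ M) (ε : DirichletCharacter ℂ N)
    {γ : SL(2, ℤ)} (hγ : γ ∈ Gamma0 M) :
    DirichletCharacter.changeLevel h ε ((γ 1 1 : ℤ) : ZMod M) = ε ((γ 1 1 : ℤ) : ZMod N) := by
  obtain ⟨u, hu⟩ := s48h_isUnit_lowerRight hγ
  rw [← hu, DirichletCharacter.changeLevel_eq_cast_of_dvd ε h u, hu, ZMod.cast_intCast h]

theorem s48a_changeLevel_natCast {n m : ℕ} (hm : n ∣ m) (χ : DirichletCharacter ℂ n) {p : ℕ}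
    (hp : p.Coprime m) :
    DirichletCharacter.changeLevel hm χ (p : ZMod m) = χ (p : ZMod n) := by
  have h := DirichletCharacter.changeLevel_eq_cast_of_dvd' χ hm (a := (p : ℤ))
    (Nat.isCoprime_iff_coprime.mpr hp)
  simpa using h

theorem s48a_slash_neg_one (F : ℍ → ℂ) :
    F ∣[(1 : ℤ)] (mapGL ℝ (-1 : SL(2, ℤ)) : GL (Fin 2) ℝ) = -F := by
  funext τ
  have h := ModularForm.SL_slash_apply (f := F) (k := 1) (-1 : SL(2, ℤ)) τ
  rw [ModularForm.SL_slash] at h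
  have h2 : (F ∣[(1 : ℤ)] (mapGL ℝ (-1 : SL(2, ℤ)) : GL (Fin 2) ℝ)) τ
      = (F ∣[(1 : ℤ)] toGL ((Matrix.SpecialLinearGroup.map (Int.castRingHom ℝ)) (-1 : SL(2, ℤ)))) τ := rfl
  rw [h2, h]
  simp [UpperHalfPlane.denom]

/-- a nonzero function of weight one with nebentypus `ψ` forces `ψ` to be odd. -/
theorem s48a_odd_of_neben {M : ℕ} (ψ : DirichletCharacter ℂ M) {F : ℍ → ℂ} (hF0 : F ≠ 0)
    (hF : ∀ γ : SL(2, ℤ), γ ∈ Gamma0 M →
      F ∣[(1 : ℤ)] (mapGL ℝ γ : GL (Fin 2) ℝ) = ψ ((γ 1 1 : ℤ) : ZMod M) • F) :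
    ψ (-1) = -1 := by
  have hm1 : (-1 : SL(2, ℤ)) ∈ Gamma0 M := by
    rw [Gamma0_mem]; simp
  have h := hF _ hm1
  rw [s48a_slash_neg_one] at h
  have h11 : (((-1 : SL(2, ℤ)) 1 1 : ℤ) : ZMod M) = -1 := by simp
  rw [h11] at h
  obtain ⟨τ, hτ⟩ : ∃ τ, F τ ≠ 0 := by
    by_contra hcon
    push_neg at hcon
    exact hF0 (funext hcon)
  have h3 := congrFun h τ
  simp only [Pi.neg_apply, Pi.smul_apply, smul_eq_mul] at h3
  have : (ψ (-1) + 1) * F τ = 0 := by linear_combination -h3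
  rcases mul_eq_zero.mp this with h4 | h4
  · linear_combination h4
  · exact absurd h4 hτ

/-! ### Hecke relations of the depleted sequence -/

theorem s48a_hecke_depleted {N : ℕ} (e a a' : ℕ → ℂ)
    (hq : ∀ n, a' n = if n.Coprime N then a n else 0)
    (hT : ∀ p : ℕ, p.Prime → ¬ p ∣ N → ∀ n : ℕ,
      a (p * n) + e p * (if p ∣ n then a (n / p) else 0) = a p * a n)
    {p : ℕ} (hp : p.Prime) (hpN : ¬ p ∣ N) (n : ℕ) :
    a' (p * n) + e p * (if p ∣ n then a' (n / p) else 0) = a' p * a' n := by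
  have hpc : p.Coprime N := (Nat.Prime.coprime_iff_not_dvd hp).mpr hpN
  have hap : a' p = a p := by rw [hq p, if_pos hpc]
  rw [hap]
  by_cases hc : n.Coprime N
  · rw [hq (p * n), if_pos (Nat.Coprime.mul_left hpc hc), hq n, if_pos hc, ← hT p hp hpN n]
    congr 2
    split_ifs with hpn
    · rw [hq (n / p), if_pos (Nat.Coprime.coprime_div_left hc hpn)]
    · rfl
  · have h1 : ¬ (p * n).Coprime N := fun h => hc (Nat.Coprime.coprime_mul_left h)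
    rw [hq (p * n), if_neg h1, hq n, if_neg hc]
    split_ifs with hpn
    · have h2 : ¬ (n / p).Coprime N := by
        intro h
        apply hc
        obtain ⟨m, rfl⟩ := hpn
        rw [Nat.mul_div_cancel_left _ hp.pos] at h
        exact Nat.Coprime.mul_left hpc h
      rw [hq (n / p), if_neg h2]
      ring
    · ring

/-! ### the Eisenstein multiplier -/

theorem s48a_mult_of_eis (hEis : s48i_Eis) (M : ℕ) [NeZero M] (ψ : DirichletCharacter ℂ M)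
    (hodd : ψ (-1) = -1) :
    ∃ (G : ModularForm (Gamma1 M) 1) (c : ℂ), s48a_Mult M ψ ⇑G c ∧
      (∀ n : ℕ, 1 ≤ n → qCoeff G n = ∑ d ∈ n.divisors, ψ⁻¹ (d : ZMod M)) ∧
      qCoeff G 0 = -(1 / (2 * (M : ℂ))) * ∑ a ∈ Finset.range M, ψ⁻¹ (a : ZMod M) * (a : ℂ) := by
  have hodd' : ψ⁻¹ (-1) = -1 := by
    rw [MulChar.inv_apply_eq_inv', hodd]; norm_num
  obtain ⟨G, hneb, hq, hq0, c, hc0, hlim⟩ := hEis M ψ⁻¹ hodd'
  refine ⟨G, c, ⟨s48a_good_of_modularForm G, hneb, ?_, hc0, hlim⟩, hq, hq0⟩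
  rw [hq 1 (le_refl 1)]
  simp

/-- rationality of the coefficients of the multiplier. -/
theorem s48a_eis_coeff_mem {M : ℕ} (ψ : DirichletCharacter ℂ M) (K : IntermediateField ℚ ℂ)
    (hψ : ∀ a, ψ⁻¹ a ∈ K) {b : ℕ → ℂ}
    (hq : ∀ n : ℕ, 1 ≤ n → b n = ∑ d ∈ n.divisors, ψ⁻¹ (d : ZMod M))
    (hq0 : b 0 = -(1 / (2 * (M : ℂ))) * ∑ a ∈ Finset.range M, ψ⁻¹ (a : ZMod M) * (a : ℂ)) (n : ℕ) :
    b n ∈ K := by
  rcases Nat.eq_zero_or_pos n with rfl | hn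
  · rw [hq0]
    have h1 : -(1 / (2 * (M : ℂ))) ∈ K := by
      have := K.algebraMap_mem (-(1 / (2 * (M : ℚ))))
      simpa using this
    refine mul_mem h1 (sum_mem fun a _ => mul_mem (hψ _) ?_)
    have := K.algebraMap_mem (a : ℚ)
    simpa using this
  · rw [hq n hn]
    exact sum_mem fun d _ => hψ _

theorem s48a_eis_coeff_integral {M : ℕ} [NeZero M] (ψ : DirichletCharacter ℂ M) {b : ℕ → ℂ}
    (hq : ∀ n : ℕ, 1 ≤ n → b n = ∑ d ∈ n.divisors, ψ⁻¹ (d : ZMod M)) (n : ℕ) (hn : 1 ≤ n) :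
    IsIntegral ℤ (b n) := by
  rw [hq n hn]
  exact IsIntegral.sum _ fun d _ => s48h_isIntegral_dirichlet _ _

/-- conjugation of the coefficients of the multiplier. -/
theorem s48a_eis_coeff_conj {M : ℕ} (ψ ψσ : DirichletCharacter ℂ M) (K : IntermediateField ℚ ℂ)
    (σ : K →+* ℂ) (hψ : ∀ a, ψ⁻¹ a ∈ K) (hσ : ∀ a, ψσ⁻¹ a = s48a_ext K σ (ψ⁻¹ a)) {b bσ : ℕ → ℂ}
    (hq : ∀ n : ℕ, 1 ≤ n → b n = ∑ d ∈ n.divisors, ψ⁻¹ (d : ZMod M))
    (hq0 : b 0 = -(1 / (2 * (M : ℂ))) * ∑ a ∈ Finset.range M, ψ⁻¹ (a : ZMod M) * (a : ℂ))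
    (hqσ : ∀ n : ℕ, 1 ≤ n → bσ n = ∑ d ∈ n.divisors, ψσ⁻¹ (d : ZMod M))
    (hq0σ : bσ 0 = -(1 / (2 * (M : ℂ))) * ∑ a ∈ Finset.range M, ψσ⁻¹ (a : ZMod M) * (a : ℂ))
    (n : ℕ) : bσ n = s48a_ext K σ (b n) := by
  have hnat : ∀ a : ℕ, (a : ℂ) ∈ K := fun a => by
    have := K.algebraMap_mem (a : ℚ)
    simpa using this
  rcases Nat.eq_zero_or_pos n with rfl | hn
  · rw [hq0, hq0σ]
    have h1 : -(1 / (2 * (M : ℂ))) = ((-(1 / (2 * (M : ℚ))) : ℚ) : ℂ) := by push_cast; ring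
    have h1K : -(1 / (2 * (M : ℂ))) ∈ K := by
      rw [h1]
      have := K.algebraMap_mem (-(1 / (2 * (M : ℚ))))
      simpa using this
    rw [s48a_ext_mul h1K (sum_mem fun a _ => mul_mem (hψ _) (hnat a)),
      s48a_ext_sum _ fun a _ => mul_mem (hψ _) (hnat a)]
    congr 1
    · rw [h1, s48a_ext_ratCast]
    · refine Finset.sum_congr rfl fun a _ => ?_
      rw [s48a_ext_mul (hψ _) (hnat a), hσ, s48a_ext_natCast]
  · rw [hq n hn, hqσ n hn, s48a_ext_sum _ fun d _ => hψ _]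
    exact Finset.sum_congr rfl fun d _ => hσ _

end Fermat.Agent.Lib.S48
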