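/-
DS-1 (S48), wall [T5] (helper4), part 1: the weighted Eisenstein lattice sum
`∑_{(c,d) ≠ 0} ψ(c) (c z + d)^{-k}` for a Dirichlet character `ψ` modulo `M`.

* `s48k_Gan ψ k = ∑_a ψ(a₀) • (Mathlib's Eisenstein series of level Γ(M) with congruence class a)`;
* `s48k_tsum_wt_split`: the full lattice sum is `L(k,ψ) * s48k_Gan ψ k`;
* `s48k_tsum_wt_qexp`: the full lattice sum is `2 (-2πi)^k/(k-1)! ∑_{n ≥ 1} σ^ψ_{k-1}(n) qⁿ`
  (`ψ` even, `k` even, `M > 1`), with `σ^ψ_{k-1}(n) = ∑_{cd = n} ψ(c) d^{k-1}`.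
-/
import Mathlib

set_option autoImplicit false
set_option linter.unusedSectionVars false
set_option linter.style.haveILetI false

namespace Fermat.Agent.Lib.S48

open UpperHalfPlane hiding I
open EisensteinSeries Complex Matrix CongruenceSubgroup ModularForm
open scoped MatrixGroups Real Nat

noncomputable section

variable {M : ℕ} [NeZero M] (ψ : DirichletCharacter ℂ M)

/-- The analytic Eisenstein combination of level `Γ(M)`: `∑_a ψ(a₀) E_a`. -/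
def s48k_Gan (k : ℤ) (z : ℍ) : ℂ :=
  ∑ a : Fin 2 → ZMod M, ψ (a 0) * eisensteinSeries a k z

/-- The twisted divisor sum `σ^w_k(n) = ∑_{cd = n} w(c) d^k`. -/
def s48k_sigma {R : Type*} [CommSemiring R] (w : ℕ → R) (k n : ℕ) : R :=
  ∑ x ∈ n.divisorsAntidiagonal, w x.1 * (x.2 : R) ^ k

theorem s48k_sigma_one {R : Type*} [CommSemiring R] (w : ℕ → R) (k : ℕ) :
    s48k_sigma w k 1 = w 1 := by
  simp [s48k_sigma]

theorem s48k_sigma_zero {R : Type*} [CommSemiring R] (w : ℕ → R) (k : ℕ) :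
    s48k_sigma w k 0 = 0 := by
  simp [s48k_sigma]

theorem s48k_summable_prod_wt (w : ℕ → ℂ) (hw : ∀ n, ‖w n‖ ≤ 1) (k : ℕ) {r : ℂ} (hr : ‖r‖ < 1) :
    Summable fun c : ℕ+ × ℕ+ => w c.1 * (c.2 : ℂ) ^ k * r ^ (c.1 * c.2 : ℕ) := by
  have h := (summable_prod_mul_pow (𝕜 := ℂ) k hr).norm
  refine Summable.of_norm_bounded h fun c => ?_
  rw [mul_assoc, norm_mul]
  calc ‖w c.1‖ * ‖(c.2 : ℂ) ^ k * r ^ (c.1 * c.2 : ℕ)‖
      ≤ 1 * ‖(c.2 : ℂ) ^ k * r ^ (c.1 * c.2 : ℕ)‖ := by gcongr; exact hw _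
    _ = _ := one_mul _

theorem s48k_tsum_prod_wt (w : ℕ → ℂ) (hw : ∀ n, ‖w n‖ ≤ 1) (k : ℕ) {r : ℂ} (hr : ‖r‖ < 1) :
    ∑' d : ℕ+, ∑' c : ℕ+, w d * (c : ℂ) ^ k * r ^ (d * c : ℕ) =
      ∑' e : ℕ+, s48k_sigma w k e * r ^ (e : ℕ) := by
  have hs := s48k_summable_prod_wt w hw k hr
  rw [← hs.tsum_prod (f := fun c : ℕ+ × ℕ+ => w c.1 * (c.2 : ℂ) ^ k * r ^ (c.1 * c.2 : ℕ))]
  rw [← sigmaAntidiagonalEquivProd.tsum_eq]
  have hs' : Summable fun x : (Σ n : ℕ+, Nat.divisorsAntidiagonal n) =>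
      (fun c : ℕ+ × ℕ+ => w c.1 * (c.2 : ℂ) ^ k * r ^ (c.1 * c.2 : ℕ))
        (sigmaAntidiagonalEquivProd x) := sigmaAntidiagonalEquivProd.summable_iff.mpr hs
  rw [hs'.tsum_sigma]
  refine tsum_congr fun n => ?_
  rw [tsum_fintype, s48k_sigma, Finset.sum_mul, Finset.univ_eq_attach]
  rw [← Finset.sum_attach ((n : ℕ).divisorsAntidiagonal)
    (fun x => w x.1 * (x.2 : ℂ) ^ k * r ^ (n : ℕ))]
  refine Finset.sum_congr rfl fun x _ => ?_
  have hx := (Nat.mem_divisorsAntidiagonal.mp x.2).1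
  simp only [sigmaAntidiagonalEquivProd, divisorsAntidiagonalFactors, Equiv.coe_fn_mk, PNat.mk_coe]
  rw [hx]

theorem s48k_summable_prod_wt_eisSummand {k : ℕ} (hk : 3 ≤ k) (z : ℍ) :
    Summable fun x : ℤ × ℤ => ψ ((x.1 : ℤ) : ZMod M) * eisSummand k ![x.1, x.2] z := by
  have h := (summable_prod_eisSummand hk z).norm
  refine Summable.of_norm_bounded h fun x => ?_
  rw [norm_mul]
  calc ‖ψ ((x.1 : ℤ) : ZMod M)‖ * ‖eisSummand k ![x.1, x.2] z‖
      ≤ 1 * ‖eisSummand k ![x.1, x.2] z‖ := by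
        gcongr
        exact DirichletCharacter.norm_le_one ψ _
    _ = _ := one_mul _

theorem s48k_summable_wt_eisSummand {k : ℕ} (hk : 3 ≤ k) (z : ℍ) :
    Summable fun v : Fin 2 → ℤ => ψ ((v 0 : ℤ) : ZMod M) * eisSummand k v z := by
  have h := (summable_eisSummand hk z).norm
  refine Summable.of_norm_bounded h fun x => ?_
  rw [norm_mul]
  calc ‖ψ ((x 0 : ℤ) : ZMod M)‖ * ‖eisSummand k x z‖
      ≤ 1 * ‖eisSummand k x z‖ := by
        gcongr
        exact DirichletCharacter.norm_le_one ψ _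
    _ = _ := one_mul _

theorem s48k_tsum_wt_qexp {k : ℕ} (hk : 3 ≤ k) (hk2 : Even k) (hM : 1 < M) (hψ : ψ.Even) (z : ℍ) :
    ∑' v : Fin 2 → ℤ, ψ ((v 0 : ℤ) : ZMod M) * eisSummand k v z =
      2 * ((-2 * π * I) ^ k / (k - 1)!) *
        ∑' n : ℕ+, s48k_sigma (fun c => ψ (c : ZMod M)) (k - 1) n *
          cexp (2 * π * I * z) ^ (n : ℕ) := by
  have hsum := s48k_summable_prod_wt_eisSummand ψ hk z
  rw [← (finTwoArrowEquiv ℤ).symm.tsum_eq]
  simp only [finTwoArrowEquiv_symm_apply, Matrix.cons_val_zero]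
  rw [Summable.tsum_prod hsum,
    tsum_int_eq_zero_add_two_mul_tsum_pnat (fun n ↦ ?h₁) (by simpa using hsum.prod)]
  case h₁ =>
    nth_rewrite 1 [← tsum_comp_neg]
    refine tsum_congr fun y => ?_
    have e1 : ψ (((-n : ℤ) : ℤ) : ZMod M) = ψ ((n : ℤ) : ZMod M) := by
      rw [Int.cast_neg, ← neg_one_mul, map_mul, hψ, one_mul]
    rw [e1]
    congr 1
    simp [eisSummand, ← neg_add _ (y : ℂ), -neg_add_rev, hk2.neg_pow]
  have h0 : ψ (((0 : ℤ) : ℤ) : ZMod M) = 0 := by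
    haveI : Nontrivial (ZMod M) := ZMod.nontrivial_iff.mpr (by omega)
    rw [Int.cast_zero]
    exact MulChar.map_zero ψ
  have H (b : ℕ+) := qExpansion_identity_pnat (k := k - 1) (by grind) ⟨b * z, by simpa using z.2⟩
  simp_rw [show k - 1 + 1 = k by grind, one_div] at H
  simp only [neg_mul] at H
  simp only [h0, zero_mul, tsum_zero, zero_add]
  rw [nsmul_eq_mul, mul_assoc, Nat.cast_ofNat]
  congr 1
  have hr : ‖cexp (2 * π * I * z)‖ < 1 := norm_exp_two_pi_I_lt_one z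
  rw [← s48k_tsum_prod_wt (fun c => ψ (c : ZMod M)) (fun n => DirichletCharacter.norm_le_one ψ _)
    (k - 1) hr, ← tsum_mul_left]
  refine tsum_congr fun c => ?_
  rw [tsum_mul_left]
  have e2 : ∑' d : ℤ, eisSummand k ![(c : ℤ), d] z =
      (-(2 * π * I)) ^ k / (k - 1)! *
        ∑' n : ℕ+, (n : ℂ) ^ (k - 1) * cexp (2 * π * I * ((c : ℂ) * z)) ^ (n : ℕ) := by
    rw [← H c]
    refine tsum_congr fun d => ?_
    simp [eisSummand]
  simp only [Int.cast_natCast]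
  rw [e2, ← tsum_mul_left, ← tsum_mul_left, ← tsum_mul_left]
  refine tsum_congr fun n => ?_
  have e3 : cexp (2 * π * I * ((c : ℂ) * z)) ^ (n : ℕ) = cexp (2 * π * I * z) ^ ((c : ℕ) * (n : ℕ)) := by
    rw [← Complex.exp_nat_mul, ← Complex.exp_nat_mul]
    congr 1
    push_cast
    ring
  rw [e3]
  have e4 : (-(2 * (π : ℂ) * I)) = -2 * π * I := by ring
  rw [e4]
  ring

/-- The partition of the coprime pairs according to their residues mod `M`. -/
def s48k_residueEquiv (M : ℕ) :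
    gammaSet 1 1 0 ≃ (Σ a : Fin 2 → ZMod M, gammaSet M 1 a) where
  toFun v := ⟨((↑) : ℤ → ZMod M) ∘ v.1, ⟨v.1, rfl, v.2.2⟩⟩
  invFun x := ⟨x.2.1, Subsingleton.elim _ _, x.2.2.2⟩
  left_inv v := rfl
  right_inv x := by
    obtain ⟨a, v, hv1, hv2⟩ := x
    subst hv1
    rfl


/-- The weighted sum over coprime pairs is the finite combination of Mathlib's Eisenstein series. -/
theorem s48k_tsum_coprime {k : ℕ} (hk : 3 ≤ k) (z : ℍ) :
    ∑' v : gammaSet 1 1 0, ψ ((v.1 0 : ℤ) : ZMod M) * eisSummand k v.1 z = s48k_Gan ψ k z := by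
  have hs : Summable fun v : gammaSet 1 1 0 => ψ ((v.1 0 : ℤ) : ZMod M) * eisSummand k v.1 z :=
    (s48k_summable_wt_eisSummand ψ hk z).subtype _
  rw [← (s48k_residueEquiv M).symm.tsum_eq]
  have hs' : Summable fun x : (Σ a : Fin 2 → ZMod M, gammaSet M 1 a) =>
      ψ ((((s48k_residueEquiv M).symm x).1 0 : ℤ) : ZMod M) *
        eisSummand k ((s48k_residueEquiv M).symm x).1 z :=
    (s48k_residueEquiv M).symm.summable_iff.mpr hs
  rw [hs'.tsum_sigma, tsum_fintype, s48k_Gan]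
  refine Finset.sum_congr rfl fun a _ => ?_
  rw [eisensteinSeries, ← tsum_mul_left]
  refine tsum_congr fun v => ?_
  have : (((s48k_residueEquiv M).symm ⟨a, v⟩).1 : Fin 2 → ℤ) = v.1 := rfl
  rw [this]
  congr 2
  have := v.2.1
  exact congrFun this 0

theorem s48k_tsum_wt_split {k : ℕ} (hk : 3 ≤ k) (z : ℍ) :
    ∑' v : Fin 2 → ℤ, ψ ((v 0 : ℤ) : ZMod M) * eisSummand k v z =
      (∑' r : ℕ, ψ ((r : ℕ) : ZMod M) * ((r : ℂ) ^ k)⁻¹) * s48k_Gan ψ k z := by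
  have hfull := s48k_summable_wt_eisSummand ψ hk z
  rw [← gammaSetDivGcdSigmaEquiv.symm.tsum_eq]
  simp only [gammaSetDivGcdSigmaEquiv_symm_eq]
  have hs' : Summable fun x : (Σ r : ℕ, gammaSet 1 r 0) =>
      ψ (((x.2 : Fin 2 → ℤ) 0 : ℤ) : ZMod M) * eisSummand k (x.2 : Fin 2 → ℤ) z := by
    have := gammaSetDivGcdSigmaEquiv.symm.summable_iff.mpr hfull
    exact this
  rw [hs'.tsum_sigma, ← tsum_mul_right]
  refine tsum_congr fun r => ?_
  rcases eq_or_ne r 0 with rfl | hr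
  · have h0 : ((0 : ℂ) ^ k)⁻¹ = 0 := by
      rw [zero_pow (by omega), _root_.inv_zero]
    simp only [Nat.cast_zero, h0, mul_zero, zero_mul]
    rw [← tsum_zero (α := ℂ) (β := gammaSet 1 0 0)]
    refine tsum_congr fun v => ?_
    have hv : (v : Fin 2 → ℤ) = 0 := by
      have h2 := v.2.2
      simp only [Int.gcd_eq_zero_iff] at h2
      ext i
      fin_cases i
      · exact h2.1
      · exact h2.2
    rw [hv]
    have h1 : eisSummand (k : ℤ) (0 : Fin 2 → ℤ) z = 0 := by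
      simp only [eisSummand, Pi.zero_apply, Int.cast_zero, zero_mul, add_zero]
      exact _root_.zero_zpow _ (by omega)
    rw [h1, mul_zero]
  · haveI : NeZero r := ⟨hr⟩
    rw [← s48k_tsum_coprime ψ hk z, ← tsum_mul_left, ← (gammaSetDivGcdEquiv r).tsum_eq]
    refine tsum_congr fun v => ?_
    rw [gammaSetDivGcdEquiv_eq, eisSummand_of_gammaSet_eq_divIntMap k z v]
    have hv := gammaSet_eq_gcd_mul_divIntMap v.2
    have h0 : ((v : Fin 2 → ℤ) 0 : ℤ) = (r : ℤ) * (divIntMap (r : ℤ) (v : Fin 2 → ℤ)) 0 := by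
      conv_lhs => rw [hv]
      simp
    rw [h0]
    push_cast
    rw [map_mul, zpow_natCast]
    ring


theorem s48k_det_cast (M : ℕ) (γ : SL(2, ℤ)) :
    ((γ 0 0 : ℤ) : ZMod M) * ((γ 1 1 : ℤ) : ZMod M) -
      ((γ 0 1 : ℤ) : ZMod M) * ((γ 1 0 : ℤ) : ZMod M) = 1 := by
  have hd := Matrix.det_fin_two γ.1
  rw [γ.2] at hd
  have := congrArg (Int.cast : ℤ → ZMod M) hd
  push_cast at this
  exact this.symm

/-- Right multiplication by `γ mod M` as a permutation of `(ℤ/M)²`. -/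
def s48k_vecMulEquiv (M : ℕ) (γ : SL(2, ℤ)) : (Fin 2 → ZMod M) ≃ (Fin 2 → ZMod M) where
  toFun a := ![a 0 * ((γ 0 0 : ℤ) : ZMod M) + a 1 * ((γ 1 0 : ℤ) : ZMod M),
    a 0 * ((γ 0 1 : ℤ) : ZMod M) + a 1 * ((γ 1 1 : ℤ) : ZMod M)]
  invFun a := ![a 0 * ((γ 1 1 : ℤ) : ZMod M) - a 1 * ((γ 1 0 : ℤ) : ZMod M),
    - a 0 * ((γ 0 1 : ℤ) : ZMod M) + a 1 * ((γ 0 0 : ℤ) : ZMod M)]
  left_inv a := by
    have hd := s48k_det_cast M γ
    ext i
    fin_cases i
    · simp only [Fin.zero_eta, Matrix.cons_val_zero, Matrix.cons_val_one]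
      linear_combination (a 0) * hd
    · simp only [Fin.mk_one, Matrix.cons_val_zero, Matrix.cons_val_one]
      linear_combination (a 1) * hd
  right_inv a := by
    have hd := s48k_det_cast M γ
    ext i
    fin_cases i
    · simp only [Fin.zero_eta, Matrix.cons_val_zero, Matrix.cons_val_one]
      linear_combination (a 0) * hd
    · simp only [Fin.mk_one, Matrix.cons_val_zero, Matrix.cons_val_one]
      linear_combination (a 1) * hd

theorem s48k_vecMulEquiv_eq (γ : SL(2, ℤ)) (a : Fin 2 → ZMod M) :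
    s48k_vecMulEquiv M γ a = a ᵥ* γ := by
  ext i
  fin_cases i <;>
  simp [s48k_vecMulEquiv, vecMul, dotProduct, Fin.sum_univ_two]

theorem s48k_vecMulEquiv_zero {γ : SL(2, ℤ)} (hγ : γ ∈ Gamma0 M) (a : Fin 2 → ZMod M) :
    (s48k_vecMulEquiv M γ a) 0 = a 0 * ((γ 0 0 : ℤ) : ZMod M) := by
  have h10 : ((γ 1 0 : ℤ) : ZMod M) = 0 := Gamma0_mem.mp hγ
  simp only [s48k_vecMulEquiv, Equiv.coe_fn_mk, Matrix.cons_val_zero]
  rw [h10, mul_zero, add_zero]

theorem s48k_Gan_slash (k : ℤ) {γ : SL(2, ℤ)} (hγ : γ ∈ Gamma0 M) :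
    (s48k_Gan ψ k) ∣[k] γ = ψ ((γ 1 1 : ℤ) : ZMod M) • s48k_Gan ψ k := by
  have hfun : s48k_Gan ψ k = ∑ a : Fin 2 → ZMod M, ψ (a 0) • eisensteinSeries a k := by
    funext z
    simp [s48k_Gan, Finset.sum_apply]
  have hdet : ((γ 0 0 : ℤ) : ZMod M) * ((γ 1 1 : ℤ) : ZMod M) = 1 := by
    have h10 : ((γ 1 0 : ℤ) : ZMod M) = 0 := Gamma0_mem.mp hγ
    have hd := Matrix.det_fin_two γ.1
    rw [γ.2] at hd
    have := congrArg (Int.cast : ℤ → ZMod M) hd
    push_cast at this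
    rw [h10, mul_zero, sub_zero] at this
    exact this.symm
  rw [hfun, SlashAction.sum_slash, Finset.smul_sum]
  rw [← (s48k_vecMulEquiv M γ).sum_comp
    (fun b => ψ ((γ 1 1 : ℤ) : ZMod M) • (ψ (b 0) • eisensteinSeries b k))]
  refine Finset.sum_congr rfl fun a _ => ?_
  rw [ModularForm.SL_smul_slash, eisensteinSeries_slash_apply, s48k_vecMulEquiv_zero hγ, smul_smul,
    ← map_mul, ← s48k_vecMulEquiv_eq]
  congr 2
  rw [mul_comm, mul_assoc, hdet, mul_one]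

end

end Fermat.Agent.Lib.S48
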