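/-
DS-1 (S48), wall [T5] (helper4), part 2: the FORMAL generator of the layer,
`t = (∑_{n ≥ 1} σ^w_{11}(n) qⁿ) / Δ(q) ∈ 1 + q R[[q]]`, over any commutative ring `R`.
-/
import Fermat.Agent.Lib.S48.KEis
import Fermat.Prelude.Def_ModularCurve_X0

set_option autoImplicit false

namespace Fermat.Agent.Lib.S48

noncomputable section

/-- The formal power series `∑_{n ≥ 0} σ^w_{11}(n+1) qⁿ`. -/
def s48k_G1PS {R : Type*} [CommRing R] (w : ℕ → R) : PowerSeries R :=
  PowerSeries.mk fun n => s48k_sigma w 11 (n + 1)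

/-- The formal generator `t = (∑_{n ≥ 1} σ^w_{11}(n) qⁿ) / Δ(q) ∈ 1 + q R[[q]]`. -/
def s48k_tPS {R : Type*} [CommRing R] (w : ℕ → R) : PowerSeries R :=
  s48k_G1PS w * ModularCurve.dedekindEtaUnitInv.map (Int.castRingHom R)


theorem s48k_constantCoeff_G1PS {R : Type*} [CommRing R] (w : ℕ → R) :
    PowerSeries.constantCoeff (s48k_G1PS w) = w 1 := by
  rw [s48k_G1PS, ← PowerSeries.coeff_zero_eq_constantCoeff_apply, PowerSeries.coeff_mk]
  exact s48k_sigma_one w 11

theorem s48k_constantCoeff_tPS {R : Type*} [CommRing R] (w : ℕ → R) :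
    PowerSeries.constantCoeff (s48k_tPS w) = w 1 := by
  rw [s48k_tPS, map_mul, s48k_constantCoeff_G1PS, ← PowerSeries.coeff_zero_eq_constantCoeff_apply,
    PowerSeries.coeff_map, PowerSeries.coeff_zero_eq_constantCoeff_apply,
    ModularCurve.constantCoeff_dedekindEtaUnitInv, map_one, mul_one]

/-- Functoriality of the formal generator in the coefficient ring. -/
theorem s48k_tPS_map {R S : Type*} [CommRing R] [CommRing S] (f : R →+* S) (w : ℕ → R) :
    (s48k_tPS w).map f = s48k_tPS (fun n => f (w n)) := by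
  rw [s48k_tPS, s48k_tPS, map_mul]
  congr 1
  · ext n
    simp [s48k_G1PS, s48k_sigma, map_sum]
  · ext n
    simp [PowerSeries.coeff_map]

end

end Fermat.Agent.Lib.S48
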