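/-
DS-1 (S48), LEVEL-3 INTERFACE (D2) = "twisted Plan K" (owner: helper4; mirror of the landed
`Lib/S29/KIface.lean`).  Definitions + contracts only.

**Model.**  `M` a level, `H ≤ (ℤ/M)ˣ` (in the application `H = ker ψ`, `-1 ∈ H`).  For a unit `u` let
`w_{uH}(c) = 1` if `c mod M ∈ uH` and `0` otherwise, and
  `s_u = (∑_{n ≥ 1} (∑_{cd = n} w_{uH}(c) d¹¹) qⁿ) / Δ(q) ∈ ℤ((q))`   (`s48k_sQ`, via `s48k_tPS` of `KGen`).
`s48k_FHQ M H = ℚ(j(q^d) (d ∣ M), s_u (u ∈ (ℤ/M)ˣ)) ⊆ ℚ((q))` is the function field of the `ℚ`-model of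
`X_H(M)` in which the cusp `∞` is rational; over `ℚ̄` the Kummer generators are
`t_χ = ∑_{u ∈ (ℤ/M)ˣ/H} χ(u) s_u = (∑ σ^χ_{11}(n) qⁿ)/Δ` (`χ` trivial on `H`), the `q`-expansions of the
holomorphic functions `s48k_T χ` of `KEisT` (`T_χ(γz) = χ(d_γ) T_χ(z)` on `Γ₀(M)`).
Because `s48k_FHQ M H` is an `IntermediateField ℚ (LaurentSeries ℚ)`, ALL Prelude machinery applies
verbatim: `s48k_FH M H = laurentBaseChange ℚ̄ (s48k_FHQ M H)`, `s48k_JH M H = Pic0 ℚ̄ (s48k_FH M H)` with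
the Prelude action of `Gal(ℚ̄/ℚ)` on coefficients (`arithmeticGalois`).

**Operators** (total definitions, in the style of `heckeOperatorAlong`):
* `s48k_diamondAut M H d`: THE `ℚ̄`-automorphism of `s48k_FH M H` fixing `F₀(M)·ℚ̄` and with
  `s_u ↦ s_{u d⁻¹}` (equivalently `t_χ ↦ χ(d) t_χ`; analytically `h ↦ h ∘ σ_d`, `σ_d ∈ Γ₀(M)` with
  lower right entry `≡ d`);  `s48k_diamondJ M H d x = ofAlgAut (diamondAut d) • x` on `J_H`.
* `s48k_heckeAlphaH`, `s48k_heckeBetaH : F_H(M) → F_H(M)·F₀(Mp)·β(F_H(M))` (inclusion and `q ↦ q^p`),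
  `s48k_heckeFF M H p = α_* β^*` and the CLASSICAL `s48k_TpJ M H p = (α_* β^*) ∘ ⟨p⟩`
  (on Kummer characters it is helper3's `s48h_TpH`: `∏_x u ∘ α_x = N_α(β(u ∘ σ_p))`).

**Contracts:** `s48k_EigenSupportH` [T6 + (KAP)/(LAM)/(EQ)/(DESC) for `Γ_H`], `s48k_S37IntH`
[T7, T8, T9], `s48k_S29HL` [GS/PACK port] and the level hypotheses `s48k_Level`.
-/
import Mathlib
import Fermat.Prelude.Def_ModularCurve_HeckeOperatorTotal
import Fermat.Prelude.Def_GaloisRep_Residual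
import Fermat.Prelude.Def_FLTPrelim_Ramification
import Fermat.Agent.Lib.S48.KGen
import Fermat.Agent.Lib.S48.Iface

set_option autoImplicit false
set_option linter.style.haveILetI false

open ModularCurve AlgebraicCurve IntermediateField CongruenceSubgroup Polynomial
open scoped MatrixGroups

namespace Fermat.Agent.Lib.S48

local notation "Qbar" => AlgebraicClosure ℚ
local notation "𝓞" => integralClosure ℤ ℂ

noncomputable section

/-- The absolute Galois group of `ℚ`. -/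
abbrev s48k_G : Type := Qbar ≃ₐ[ℚ] Qbar

/-! ### Level hypotheses -/

/-- **Level hypotheses of the layer**: `M = N₁² ℓ₀` with a prime `ℓ₀ ≡ 11 (mod 12)` not dividing `N₁`
(no elliptic elements in `Γ₀(M)`), `-1 ∈ H`, and `H` contains every unit `≡ 1 (mod N₁ ℓ₀)` (so that
every parabolic element of `Γ₀(M)` has lower right entry in `H`): the cover `X_H(M) → X₀(M)` is
unramified everywhere.  (v2: `two_or_three`.) -/
structure s48k_Level (M N₁ ℓ₀ : ℕ) (H : Subgroup (ZMod M)ˣ) : Prop where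
  eq : M = N₁ ^ 2 * ℓ₀
  prime : ℓ₀.Prime
  mod12 : ℓ₀ % 12 = 11
  ndvd : ¬ ℓ₀ ∣ N₁
  neg_one : (-1 : (ZMod M)ˣ) ∈ H
  cond : ∀ (x : ℤ) (u : (ZMod M)ˣ), ((x : ℤ) : ZMod (N₁ * ℓ₀)) = 1 →
    ((u : (ZMod M)ˣ) : ZMod M) = ((x : ℤ) : ZMod M) → u ∈ H
  /-- `2 ∣ N₁` or `3 ∣ N₁`: every prime `p ∤ M` is then good for `M` (`s18_GoodLevel p M`), also `p = 2, 3`
  (ruling #2454, helper7 #2439). -/
  two_or_three : 2 ∣ N₁ ∨ 3 ∣ N₁

/-! ### The model -/

open Classical in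
/-- The indicator of the coset `u H` on natural numbers. -/
def s48k_wCoset (M : ℕ) (H : Subgroup (ZMod M)ˣ) (u : (ZMod M)ˣ) (c : ℕ) : ℚ :=
  if ∃ h ∈ H, ((c : ℕ) : ZMod M) = ((u * h : (ZMod M)ˣ) : ZMod M) then 1 else 0

/-- The rational generators `s_u = (∑_{n ≥ 1} σ^{uH}_{11}(n) qⁿ)/Δ ∈ ℤ((q))`. -/
def s48k_sQ (M : ℕ) (H : Subgroup (ZMod M)ˣ) (u : (ZMod M)ˣ) : LaurentSeries ℚ :=
  HahnSeries.ofPowerSeries ℤ ℚ (s48k_tPS (s48k_wCoset M H u))

/-- The function field of the `ℚ`-model of `X_H(M)` with rational cusp `∞`, inside `ℚ((q))`. -/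
def s48k_FHQ (M : ℕ) (H : Subgroup (ZMod M)ˣ) : IntermediateField ℚ (LaurentSeries ℚ) :=
  IntermediateField.adjoin ℚ (divisorExpansions M ∪ Set.range (s48k_sQ M H))

theorem s48k_sQ_mem (M : ℕ) (H : Subgroup (ZMod M)ˣ) (u : (ZMod M)ˣ) :
    s48k_sQ M H u ∈ s48k_FHQ M H :=
  IntermediateField.subset_adjoin ℚ _ (Or.inr ⟨u, rfl⟩)

theorem s48k_full_le_FHQ (M : ℕ) (H : Subgroup (ZMod M)ˣ) :
    modularFunctionFieldFull M ≤ s48k_FHQ M H :=
  IntermediateField.adjoin.mono ℚ _ _ Set.subset_union_left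

/-- The function field of `X_H(M)` over `ℚ̄`, inside `ℚ̄((q))`. -/
abbrev s48k_FH (M : ℕ) (H : Subgroup (ZMod M)ˣ) :
    IntermediateField Qbar (LaurentSeries Qbar) :=
  laurentBaseChange Qbar (s48k_FHQ M H)

/-- `J_H(M)(ℚ̄) = Pic⁰` of the function field; `Gal(ℚ̄/ℚ)` acts through the Prelude instance. -/
abbrev s48k_JH (M : ℕ) (H : Subgroup (ZMod M)ˣ) : Type _ := Pic0 Qbar (s48k_FH M H)

example (M : ℕ) (H : Subgroup (ZMod M)ˣ) : DistribMulAction s48k_G (s48k_JH M H) := inferInstance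

/-- `J_H(M)(ℚ̄)[ℓ]`. -/
abbrev s48k_JHl (M : ℕ) (H : Subgroup (ZMod M)ˣ) (ℓ : ℕ) : Type _ :=
  Pic0.torsion Qbar (s48k_FH M H) ℓ

theorem s48k_laurentBaseChange_mono (L : Type*) [Field L] [Algebra ℚ L]
    {F₀ F₁ : IntermediateField ℚ (LaurentSeries ℚ)} (h : F₀ ≤ F₁) :
    laurentBaseChange L F₀ ≤ laurentBaseChange L F₁ := by
  rw [laurentBaseChange, IntermediateField.adjoin_le_iff]
  rintro _ ⟨y, hy, rfl⟩
  exact coeffEmb_mem_laurentBaseChange L (h hy)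

/-- The generator `s_u` over `ℚ̄`. -/
def s48k_sBar (M : ℕ) (H : Subgroup (ZMod M)ˣ) (u : (ZMod M)ˣ) : s48k_FH M H :=
  ⟨coeffEmb Qbar (s48k_sQ M H u), coeffEmb_mem_laurentBaseChange Qbar (s48k_sQ_mem M H u)⟩

/-! ### Diamond operators -/

/-- The defining property of the diamond automorphism `⟨d⟩` of `F_H` (`h ↦ h ∘ σ_d`). -/
def s48k_IsDiamondAut (M : ℕ) (H : Subgroup (ZMod M)ˣ) (d : (ZMod M)ˣ)
    (e : s48k_FH M H ≃ₐ[Qbar] s48k_FH M H) : Prop :=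
  (∀ x : s48k_FH M H, (x : LaurentSeries Qbar) ∈ modularFunctionFieldBar M → e x = x) ∧
    ∀ u : (ZMod M)ˣ, e (s48k_sBar M H u) = s48k_sBar M H (u * d⁻¹)

open Classical in
/-- The diamond automorphism of `F_H` (the identity if it does not exist). -/
def s48k_diamondAut (M : ℕ) (H : Subgroup (ZMod M)ˣ) (d : (ZMod M)ˣ) :
    s48k_FH M H ≃ₐ[Qbar] s48k_FH M H :=
  if h : ∃ e, s48k_IsDiamondAut M H d e then h.choose else AlgEquiv.refl

/-- `⟨d⟩` on `J_H`. -/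
def s48k_diamondJ (M : ℕ) (H : Subgroup (ZMod M)ˣ) (d : (ZMod M)ˣ) :
    s48k_JH M H →+ s48k_JH M H :=
  DistribSMul.toAddMonoidHom (s48k_JH M H) (SemilinearAut.ofAlgAut (s48k_diamondAut M H d))

theorem s48k_diamondJ_apply (M : ℕ) (H : Subgroup (ZMod M)ˣ) (d : (ZMod M)ˣ) (x : s48k_JH M H) :
    s48k_diamondJ M H d x = SemilinearAut.ofAlgAut (s48k_diamondAut M H d) • x := rfl

/-! ### Hecke operators -/

/-- The target of the two degeneracy maps at `p`: the field generated by `F₀(Mp)`, `F_H(M)` and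
`β(F_H(M))` (= the function field of `X_{H'}(Mp)`, `H'` the preimage of `H`). -/
def s48k_FHQp (M : ℕ) (H : Subgroup (ZMod M)ˣ) (p : ℕ) [NeZero p] :
    IntermediateField ℚ (LaurentSeries ℚ) :=
  IntermediateField.adjoin ℚ ((divisorExpansions (M * p) ∪ Set.range (s48k_sQ M H)) ∪
    (⇑(qExpand ℚ p) '' Set.range (s48k_sQ M H)))

theorem s48k_FHQ_le_FHQp (M : ℕ) (H : Subgroup (ZMod M)ˣ) (p : ℕ) [NeZero p] :
    s48k_FHQ M H ≤ s48k_FHQp M H p := by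
  rw [s48k_FHQ, IntermediateField.adjoin_le_iff]
  rintro x (hx | hx)
  · obtain ⟨d, hne, hd, rfl⟩ := hx
    exact IntermediateField.subset_adjoin ℚ _
      (Or.inl (Or.inl ⟨d, hne, hd.trans (dvd_mul_right M p), rfl⟩))
  · exact IntermediateField.subset_adjoin ℚ _ (Or.inl (Or.inr hx))

theorem s48k_qExpand_mem_FHQp (M : ℕ) (H : Subgroup (ZMod M)ˣ) (p : ℕ) [NeZero p]
    {y : LaurentSeries ℚ} (hy : y ∈ s48k_FHQ M H) : qExpand ℚ p y ∈ s48k_FHQp M H p := by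
  have hmap : (s48k_FHQ M H).map (qExpandₐ p) ≤ s48k_FHQp M H p := by
    rw [s48k_FHQ, IntermediateField.adjoin_map, IntermediateField.adjoin_le_iff]
    rintro x ⟨y, hy | hy, rfl⟩
    · obtain ⟨d, hne, hd, rfl⟩ := hy
      haveI := hne
      haveI : NeZero (p * d) := ⟨Nat.mul_ne_zero (NeZero.ne p) (NeZero.ne d)⟩
      show qExpandₐ p (qExpand ℚ d jq) ∈ _
      rw [qExpandₐ_apply, qExpand_qExpand]
      refine IntermediateField.subset_adjoin ℚ _ (Or.inl (Or.inl ⟨p * d, ‹_›, ?_, rfl⟩))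
      exact (mul_dvd_mul_left p hd).trans (dvd_of_eq (mul_comm p M))
    · exact IntermediateField.subset_adjoin ℚ _ (Or.inr ⟨y, hy, rfl⟩)
  exact hmap ⟨y, hy, rfl⟩

theorem s48k_coeffEmb_qExpand (L : Type*) [Field L] [Algebra ℚ L] (n : ℕ) [NeZero n]
    (x : LaurentSeries ℚ) : coeffEmb L (qExpand ℚ n x) = qExpand L n (coeffEmb L x) := by
  ext k
  by_cases hk : (n : ℤ) ∣ k
  · obtain ⟨m, rfl⟩ := hk
    rw [coeffEmb_coeff, qExpand_coeff_mul, qExpand_coeff_mul, coeffEmb_coeff]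
  · rw [coeffEmb_coeff, qExpand_coeff_of_not_dvd n _ hk, qExpand_coeff_of_not_dvd n _ hk,
      map_zero]

theorem s48k_qExpand_mem_laurentBaseChange {L : Type*} [Field L] [Algebra ℚ L]
    {F₀ F₁ : IntermediateField ℚ (LaurentSeries ℚ)} (n : ℕ) [NeZero n]
    (hF : ∀ y ∈ F₀, qExpand ℚ n y ∈ F₁) {x : LaurentSeries L} (hx : x ∈ laurentBaseChange L F₀) :
    qExpand L n x ∈ laurentBaseChange L F₁ := by
  rw [mem_laurentBaseChange_iff] at hx
  induction hx using Subfield.closure_induction with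
  | mem y hy =>
      rcases hy with ⟨a, rfl⟩ | ⟨z, hz, rfl⟩
      · rw [algebraMap_laurentSeries_eq_single, qExpand_single, mul_zero,
          ← algebraMap_laurentSeries_eq_single]
        exact (laurentBaseChange L F₁).algebraMap_mem _
      · rw [← s48k_coeffEmb_qExpand]
        exact coeffEmb_mem_laurentBaseChange L (hF z hz)
  | one => simp
  | add x y _ _ hx hy => simpa using add_mem hx hy
  | neg x _ hx => simpa using neg_mem hx
  | inv x _ hx => simpa using inv_mem hx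
  | mul x y _ _ hx hy => simpa using mul_mem hx hy

/-- `α`: the inclusion `F_H(M) ⊆ F_{H'}(Mp)`. -/
def s48k_heckeAlphaH (M : ℕ) (H : Subgroup (ZMod M)ˣ) (p : ℕ) [NeZero p] :
    s48k_FH M H →ₐ[Qbar] laurentBaseChange Qbar (s48k_FHQp M H p) :=
  IntermediateField.inclusion (s48k_laurentBaseChange_mono Qbar (s48k_FHQ_le_FHQp M H p))

/-- `β`: the substitution `q ↦ q^p`, `F_H(M) → F_{H'}(Mp)`. -/
def s48k_heckeBetaH (M : ℕ) (H : Subgroup (ZMod M)ˣ) (p : ℕ) [NeZero p] :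
    s48k_FH M H →ₐ[Qbar] laurentBaseChange Qbar (s48k_FHQp M H p) :=
  { toFun := fun x => ⟨qExpand Qbar p (x : LaurentSeries Qbar),
      s48k_qExpand_mem_laurentBaseChange p (fun _ hy => s48k_qExpand_mem_FHQp M H p hy) x.2⟩
    map_one' := Subtype.ext (map_one (qExpand Qbar p))
    map_mul' := fun _ _ => Subtype.ext (map_mul (qExpand Qbar p) _ _)
    map_zero' := Subtype.ext (map_zero (qExpand Qbar p))
    map_add' := fun _ _ => Subtype.ext (map_add (qExpand Qbar p) _ _)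
    commutes' := fun a => Subtype.ext <| by
      show qExpand Qbar p (algebraMap Qbar (LaurentSeries Qbar) a) =
        algebraMap Qbar (LaurentSeries Qbar) a
      rw [algebraMap_laurentSeries_eq_single, qExpand_single, mul_zero] }

@[simp] theorem s48k_coe_heckeAlphaH (M : ℕ) (H : Subgroup (ZMod M)ˣ) (p : ℕ) [NeZero p]
    (x : s48k_FH M H) : (s48k_heckeAlphaH M H p x : LaurentSeries Qbar) = x :=
  IntermediateField.coe_inclusion _ x

@[simp] theorem s48k_coe_heckeBetaH (M : ℕ) (H : Subgroup (ZMod M)ˣ) (p : ℕ) [NeZero p]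
    (x : s48k_FH M H) :
    (s48k_heckeBetaH M H p x : LaurentSeries Qbar) = qExpand Qbar p (x : LaurentSeries Qbar) := rfl

/-- The hypotheses under which `α_* β^*` is defined on `Pic⁰` (cf. `HeckeInputsAlong`). -/
def s48k_HeckeInputsH (M : ℕ) (H : Subgroup (ZMod M)ˣ) (p : ℕ) [NeZero p] : Prop :=
  ∃ (_ : (s48k_heckeAlphaH M H p).toRingHom.IsIntegral)
    (hβ : (s48k_heckeBetaH M H p).toRingHom.IsIntegral)
    (_ : HasPrincipalDivisors Qbar (laurentBaseChange Qbar (s48k_FHQp M H p)))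
    (hfin : FiniteAlong Qbar (s48k_heckeAlphaH M H p)),
    FundamentalIdentityAlong Qbar (s48k_heckeBetaH M H p) hβ ∧
      NormFormulaAlong Qbar (s48k_heckeAlphaH M H p) hfin

open Classical in
/-- The function-field correspondence `α_* β^*` on `J_H` (zero if its inputs fail). -/
def s48k_heckeFF (M : ℕ) (H : Subgroup (ZMod M)ˣ) (p : ℕ) [NeZero p] :
    s48k_JH M H →+ s48k_JH M H :=
  if h : s48k_HeckeInputsH M H p then
    haveI := h.snd.snd.fst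
    Pic0.correspondence (s48k_heckeBetaH M H p) (s48k_heckeAlphaH M H p) h.snd.fst h.fst
      h.snd.snd.snd.snd.1 h.snd.snd.snd.fst h.snd.snd.snd.snd.2
  else 0

/-- **The classical Hecke operator `T_p = (α_* β^*) ∘ ⟨p⟩` on `J_H`**, `p` a unit modulo `M`. -/
def s48k_TpJ (M : ℕ) (H : Subgroup (ZMod M)ˣ) (p : ℕ) [NeZero p] (pu : (ZMod M)ˣ) :
    s48k_JH M H →+ s48k_JH M H :=
  (s48k_heckeFF M H p).comp (s48k_diamondJ M H pu)

/-! ### Restriction to `ℓ`-torsion -/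

/-- The restriction of an additive endomorphism of `J_H` to `J_H[ℓ]`, as an `𝔽_ℓ`-linear map. -/
def s48k_torsionEnd (M : ℕ) (H : Subgroup (ZMod M)ˣ) (ℓ : ℕ) (f : s48k_JH M H →+ s48k_JH M H) :
    Module.End (ZMod ℓ) (s48k_JHl M H ℓ) :=
  AddMonoidHom.toZModLinearMap ℓ
    { toFun := fun x => ⟨f (x : s48k_JH M H), by
        have hx := Pic0.mem_torsion.mp x.property
        rw [Pic0.mem_torsion, ← map_zsmul, hx, map_zero]⟩
      map_zero' := Subtype.ext (map_zero _)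
      map_add' := fun x y => Subtype.ext (map_add f (x : s48k_JH M H) (y : s48k_JH M H)) }

@[simp] theorem s48k_torsionEnd_coe (M : ℕ) (H : Subgroup (ZMod M)ˣ) (ℓ : ℕ)
    (f : s48k_JH M H →+ s48k_JH M H) (x : s48k_JHl M H ℓ) :
    ((s48k_torsionEnd M H ℓ f x : s48k_JHl M H ℓ) : s48k_JH M H) = f (x : s48k_JH M H) := rfl

/-! ### Contracts -/

/-- **[EigenSupportH]** ([T6] `s48h_DSCoreH` + (KAP)/(LAM)/(EQ)/(DESC) for `Γ_H`): the mod-`φ`
eigen-system of `g` occurs in `k ⊗ J_H(ℚ̄)[ℓ]`, for the classical `T_p` and the diamonds. -/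
def s48k_EigenSupportH : Prop :=
  ∀ (M N₁ ℓ₀ : ℕ) [NeZero M] (H : Subgroup (ZMod M)ˣ), s48k_Level M N₁ ℓ₀ H →
  ∀ (ψ : DirichletCharacter ℂ M), (∀ u ∈ H, ψ ((u : (ZMod M)ˣ) : ZMod M) = 1) →
  ∀ (g : CuspForm (Gamma1 M) 2) (ℓ : ℕ) [Fact ℓ.Prime] (k : Type) [Field k] [Algebra (ZMod ℓ) k]
    (φ : 𝓞 →+* k) (α c : ℕ → 𝓞) (ψ' : ZMod M → 𝓞), s48i_ModEigen M ψ g φ α c ψ' →
    ∃ v : TensorProduct (ZMod ℓ) k (s48k_JHl M H ℓ), v ≠ 0 ∧
      (∀ (p : ℕ) [NeZero p] (pu : (ZMod M)ˣ), p.Prime → ¬ p ∣ M * ℓ →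
        ((pu : (ZMod M)ˣ) : ZMod M) = (p : ZMod M) →
          (s48k_torsionEnd M H ℓ (s48k_TpJ M H p pu)).baseChange k v = φ (α p) • v) ∧
      ∀ d : (ZMod M)ˣ,
        (s48k_torsionEnd M H ℓ (s48k_diamondJ M H d)).baseChange k v =
          φ (ψ' ((d : (ZMod M)ˣ) : ZMod M)) • v

/-- **[S37IntH]**: what the top level needs from the reduction theory on the layer ([T7], [T8], [T9]). -/
structure s48k_S37IntH : Prop where
  /-- Galois commutes with the diamonds. -/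
  commD : ∀ (M N₁ ℓ₀ : ℕ) [NeZero M] (H : Subgroup (ZMod M)ˣ), s48k_Level M N₁ ℓ₀ H →
    ∀ (d : (ZMod M)ˣ) (σ : s48k_G) (x : s48k_JH M H),
      σ • s48k_diamondJ M H d x = s48k_diamondJ M H d (σ • x)
  /-- Galois commutes with `T_p`. -/
  commT : ∀ (M N₁ ℓ₀ : ℕ) [NeZero M] (H : Subgroup (ZMod M)ˣ), s48k_Level M N₁ ℓ₀ H →
    ∀ (p : ℕ) [NeZero p] (pu : (ZMod M)ˣ), p.Prime → ¬ p ∣ M →
      ((pu : (ZMod M)ˣ) : ZMod M) = (p : ZMod M) →
      ∀ (σ : s48k_G) (x : s48k_JH M H), σ • s48k_TpJ M H p pu x = s48k_TpJ M H p pu (σ • x)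
  /-- Eichler–Shimura on `ℓ`-torsion: `Frob² - T_p Frob + p ⟨p⟩ = 0`. -/
  frobQuad : ∀ (M N₁ ℓ₀ : ℕ) [NeZero M] (H : Subgroup (ZMod M)ˣ), s48k_Level M N₁ ℓ₀ H →
    ∀ (ℓ p : ℕ) [NeZero p] (pu : (ZMod M)ˣ), p.Prime → ¬ p ∣ M * ℓ →
      ((pu : (ZMod M)ˣ) : ZMod M) = (p : ZMod M) →
      ∀ A : ValuationSubring Qbar, A.LiesOverPrime p →
        ∀ σ : s48k_G, A.IsFrobeniusAt σ p → ∀ x : s48k_JH M H, (ℓ : ℤ) • x = 0 →
          σ • σ • x - s48k_TpJ M H p pu (σ • x) + (p : ℤ) • s48k_diamondJ M H pu x = 0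
  /-- Inertia at `p ∤ Mℓ` acts trivially on `ℓ`-torsion. -/
  unram : ∀ (M N₁ ℓ₀ : ℕ) [NeZero M] (H : Subgroup (ZMod M)ˣ), s48k_Level M N₁ ℓ₀ H →
    ∀ (ℓ p : ℕ), p.Prime → ¬ p ∣ M * ℓ →
      ∀ A : ValuationSubring Qbar, A.LiesOverPrime p →
        ∀ σ ∈ A.inertiaSubgroupIn ℚ, ∀ x : s48k_JH M H, (ℓ : ℤ) • x = 0 → σ • x = x
  /-- Open stabilisers. -/
  openStab : ∀ (M N₁ ℓ₀ : ℕ) [NeZero M] (H : Subgroup (ZMod M)ˣ), s48k_Level M N₁ ℓ₀ H →
    ∀ x : s48k_JH M H, ∃ L : IntermediateField ℚ Qbar, FiniteDimensional ℚ L ∧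
      ∀ σ : s48k_G, (∀ y ∈ L, σ y = y) → σ • x = x

/-- **[S29HL]** = helper1's `s48i_S29H` at the levels of `s48k_Level` (output of the [GS]/[PACK] port
from `s48k_EigenSupportH`, `s48k_S37IntH` and the landed Frobenius density). -/
def s48k_S29HL : Prop :=
  ∀ (M N₁ ℓ₀ : ℕ) [NeZero M] (H : Subgroup (ZMod M)ˣ), s48k_Level M N₁ ℓ₀ H →
  ∀ (ψ : DirichletCharacter ℂ M), (∀ u ∈ H, ψ ((u : (ZMod M)ˣ) : ZMod M) = 1) →
  ∀ (g : CuspForm (Gamma1 M) 2) (ℓ : ℕ), ℓ.Prime →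
    ∀ (k : Type) [Field k] [CharP k ℓ] (φ : 𝓞 →+* k) (α c : ℕ → 𝓞) (ψ' : ZMod M → 𝓞),
      s48i_ModEigen M ψ g φ α c ψ' →
      ∃ ρ : ResidualGaloisRep k,
        ∀ p : ℕ, p.Prime → ¬ p ∣ M * ℓ →
          ρ.IsUnramifiedAt p ∧
          ∀ A : ValuationSubring Qbar, A.LiesOverPrime p →
            ∀ σ : s48k_G, A.IsFrobeniusAt σ p →
              LinearMap.charpoly (ρ.ρ σ)
                = X ^ 2 - C (φ (α p)) * X + C ((p : k) * φ (ψ' (p : ZMod M)))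

end

end Fermat.Agent.Lib.S48
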