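/-
DS-1 (S48): the bridge `s48k_S29HL → s48a_S29H23` (helper1), v2 (ruling #2454).

`s48a_S29H23` := `s48i_S29H` (Iface v2) restricted to the levels `2 ∣ N ∨ 3 ∣ N` (at the others the
reduction theory of the layer is not available at `p = 2, 3`: helper7 #2439; Level 1 recovers all levels by
helper7's `TGlue`).  It is `s48k_S29HL` (helper4's `KIfaceH` v2) at `M = N²ℓ`, `N₁ = N`, `ℓ₀ = ℓ`,
`H = {u | ψ u = 1}`:
* `-1 ∈ H` because `g ≠ 0` (some `φ (c n) ≠ 0`) and `g ∣[2] (-I) = g`;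
* `cond` because `ψ` factors through `N ℓ`.
-/
import Mathlib
import Fermat.Agent.Lib.S48.KIfaceH

set_option autoImplicit false

open CongruenceSubgroup Polynomial UpperHalfPlane ModularForm Matrix.SpecialLinearGroup
open scoped MatrixGroups ModularForm

namespace Fermat.Agent.Lib.S48

local notation "𝓞" => integralClosure ℤ ℂ
local notation "Γℚ" => (AlgebraicClosure ℚ ≃ₐ[ℚ] AlgebraicClosure ℚ)

/-- the subgroup of units on which `ψ` is trivial. -/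
def s48a_kerUnits {M : ℕ} (ψ : DirichletCharacter ℂ M) : Subgroup (ZMod M)ˣ where
  carrier := {u | ψ ((u : (ZMod M)ˣ) : ZMod M) = 1}
  one_mem' := by simp
  mul_mem' := by
    intro a b ha hb
    change ψ ((a : (ZMod M)ˣ) : ZMod M) = 1 at ha
    change ψ ((b : (ZMod M)ˣ) : ZMod M) = 1 at hb
    change ψ ((a * b : (ZMod M)ˣ) : ZMod M) = 1
    rw [Units.val_mul, map_mul, ha, hb, one_mul]
  inv_mem' := by
    intro a ha
    change ψ ((a : (ZMod M)ˣ) : ZMod M) = 1 at ha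
    change ψ ((a⁻¹ : (ZMod M)ˣ) : ZMod M) = 1
    have h1 : ψ ((a⁻¹ : (ZMod M)ˣ) : ZMod M) * ψ ((a : (ZMod M)ˣ) : ZMod M) = 1 := by
      rw [← map_mul, ← Units.val_mul, inv_mul_cancel, Units.val_one, map_one]
    rwa [ha, mul_one] at h1

theorem s48a_mem_kerUnits {M : ℕ} (ψ : DirichletCharacter ℂ M) (u : (ZMod M)ˣ) :
    u ∈ s48a_kerUnits ψ ↔ ψ ((u : (ZMod M)ˣ) : ZMod M) = 1 := Iff.rfl

/-- `-I ∈ Γ₀(M)` acts trivially in weight two. -/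
theorem s48a_slash_negOne_wt2 (F : ℍ → ℂ) :
    F ∣[(2 : ℤ)] (mapGL ℝ (-1 : SL(2, ℤ)) : GL (Fin 2) ℝ) = F := by
  show F ∣[(2 : ℤ)] (-1 : SL(2, ℤ)) = F
  ext τ
  rw [ModularForm.SL_slash_apply]
  have h1 : ((-1 : SL(2, ℤ)) • τ) = τ := by
    rw [ModularGroup.SL_neg_smul, one_smul]
  have h2 : denom (-1 : SL(2, ℤ)) τ = -1 := by
    simp [denom]
  rw [h1, h2]
  norm_num

theorem s48a_qCoeff_zero_fun (n : ℕ) : ModularFormClass.qCoeff (0 : ℍ → ℂ) n = 0 := by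
  simp only [ModularFormClass.qCoeff]
  rw [qExpansion_zero]
  simp

/-- a nonzero weight-two function with nebentypus `ψ` on `Γ₀(M)` has `ψ(-1) = 1`. -/
theorem s48a_neben_neg_one {M : ℕ} (ψ : DirichletCharacter ℂ M) {F : ℍ → ℂ}
    (hF : s48i_Neben M 2 (fun d => ψ (d : ZMod M)) F) (hF0 : F ≠ 0) : ψ (-1) = 1 := by
  have h1 := hF (-1) (by rw [Gamma0_mem]; simp)
  rw [s48a_slash_negOne_wt2] at h1
  have h2 : ((-1 : SL(2, ℤ)) 1 1 : ℤ) = -1 := by simp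
  rw [h2] at h1
  have h3 : (((-1 : ℤ) : ZMod M)) = -1 := by push_cast; rfl
  simp only [h3] at h1
  by_contra hne
  apply hF0
  have h4 : (1 - ψ (-1)) • F = 0 := by
    rw [sub_smul, one_smul, ← h1, sub_self]
  rcases smul_eq_zero.mp h4 with h | h
  · exact absurd (sub_eq_zero.mp h).symm hne
  · exact h

/-- **[S29H] at the levels `2 ∣ N ∨ 3 ∣ N`** (`s48i_S29H` with one more hypothesis). -/
def s48a_S29H23 : Prop :=
  ∀ (N ℓ : ℕ) [NeZero N] [NeZero (N ^ 2 * ℓ)], ℓ.Prime → ℓ % 12 = 11 → ¬ ℓ ∣ N → (2 ∣ N ∨ 3 ∣ N) →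
    ∀ (ψ : DirichletCharacter ℂ (N ^ 2 * ℓ)) (g : CuspForm (Gamma1 (N ^ 2 * ℓ)) 2),
    ψ.FactorsThrough (N * ℓ) → ¬ ℓ ∣ orderOf ψ →
    ∀ (k : Type) [Field k] [CharP k ℓ] (φ : 𝓞 →+* k) (α c : ℕ → 𝓞) (ψ' : ZMod (N ^ 2 * ℓ) → 𝓞),
      s48i_ModEigen (N ^ 2 * ℓ) ψ g φ α c ψ' →
      ∃ ρ : ResidualGaloisRep k,
        ∀ p : ℕ, p.Prime → ¬ p ∣ N * ℓ →
          ρ.IsUnramifiedAt p ∧
          ∀ A : ValuationSubring (AlgebraicClosure ℚ), A.LiesOverPrime p →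
            ∀ σ : Γℚ, A.IsFrobeniusAt σ p →
              LinearMap.charpoly (ρ.ρ σ)
                = X ^ 2 - C (φ (α p)) * X + C ((p : k) * φ (ψ' (p : ZMod (N ^ 2 * ℓ))))

theorem s48a_S29H23_of_S29H (h : s48i_S29H) : s48a_S29H23 :=
  fun N ℓ _ _ hℓ h12 hℓN _ ψ g hfac hord k _ _ φ α c ψ' hME =>
    h N ℓ hℓ h12 hℓN ψ g hfac hord k φ α c ψ' hME


/-- **the bridge** `s48k_S29HL → s48a_S29H23`. -/
theorem s48a_S29H23_of_S29HL (h : s48k_S29HL) : s48a_S29H23 := by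
  intro N ℓ _ _ hℓ h12 hℓN h23 ψ g hfac _ k _ _ φ α c ψ' hME
  -- `g ≠ 0`
  have hg0 : (⇑g : ℍ → ℂ) ≠ 0 := by
    obtain ⟨n, hn⟩ := hME.2.2.2.1
    intro h0
    apply hn
    have h1 : (c n : ℂ) = 0 := by
      rw [← hME.2.2.1 n, h0]
      exact s48a_qCoeff_zero_fun n
    have h2 : c n = 0 := Subtype.ext h1
    rw [h2, map_zero]
  have hneg : ψ (-1) = 1 := s48a_neben_neg_one ψ hME.1 hg0
  have hlev : s48k_Level (N ^ 2 * ℓ) N ℓ (s48a_kerUnits ψ) :=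
    { eq := rfl
      prime := hℓ
      mod12 := h12
      ndvd := hℓN
      neg_one := by
        rw [s48a_mem_kerUnits]
        simpa using hneg
      cond := by
        intro x u hx hu
        rw [s48a_mem_kerUnits]
        obtain ⟨hd, χ₀, hχ₀⟩ := hfac
        rw [hχ₀, DirichletCharacter.changeLevel_eq_cast_of_dvd, hu]
        have h5 : ((((x : ℤ) : ZMod (N ^ 2 * ℓ))).cast : ZMod (N * ℓ)) = ((x : ℤ) : ZMod (N * ℓ)) := by
          exact ZMod.cast_intCast hd x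
        rw [h5, hx, map_one]
      two_or_three := h23 }
  obtain ⟨ρ, hρ⟩ := h (N ^ 2 * ℓ) N ℓ (s48a_kerUnits ψ) hlev ψ (fun u hu => hu) g ℓ hℓ k φ α c ψ'
    hME
  refine ⟨ρ, fun p hp hpN => ?_⟩
  have hp' : ¬ p ∣ N ^ 2 * ℓ * ℓ := by
    intro hdvd
    apply hpN
    rcases (Nat.Prime.dvd_mul hp).mp hdvd with h1 | h1
    · rcases (Nat.Prime.dvd_mul hp).mp h1 with h2 | h2
      · exact Dvd.dvd.mul_right (hp.dvd_of_dvd_pow h2) ℓ
      · exact Dvd.dvd.mul_left h2 N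
    · exact Dvd.dvd.mul_left h1 N
  exact hρ p hp hp'

end Fermat.Agent.Lib.S48
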