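/-
DS-1 (S48), (T-conc) the concrete tower of `F_H` (helper1), part 1: **group theory** (Mathlib only).

* `s48a_subgroup_induction` : induction over the subgroups of a finite commutative group along
  prime steps `H' ⊂ H' ⊔ ⟨g⟩`, `g ∉ H'`, `g ^ r ∈ H'`, `r` prime (from `⊤` down to `H`);
* `s48a_step_mem_iff`, `s48a_step_unique` : the coset decomposition `H' ⊔ ⟨g⟩ = ⨆_{m<r} g^m H'`.
-/
import Mathlib

set_option autoImplicit false

namespace Fermat.Agent.Lib.S48

variable {G : Type*} [CommGroup G]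

/-- for `g ^ r ∈ H'` every power of `g` is `g ^ m * h'` with `m < r`. -/
theorem s48a_zpow_decomp (H' : Subgroup G) (g : G) {r : ℕ} (hr : 0 < r) (hgr : g ^ r ∈ H')
    (k : ℤ) : ∃ m : ℕ, m < r ∧ ∃ h' ∈ H', g ^ k = g ^ m * h' := by
  have hr' : (r : ℤ) ≠ 0 := by exact_mod_cast hr.ne'
  refine ⟨(k % r).toNat, ?_, (g ^ r) ^ (k / r), H'.zpow_mem hgr _, ?_⟩
  · have h1 : k % (r : ℤ) < r := Int.emod_lt_of_pos k (by exact_mod_cast hr)
    have h2 : 0 ≤ k % (r : ℤ) := Int.emod_nonneg k hr'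
    omega
  · have h2 : 0 ≤ k % (r : ℤ) := Int.emod_nonneg k hr'
    have h3 : ((k % (r : ℤ)).toNat : ℤ) = k % r := Int.toNat_of_nonneg h2
    rw [← zpow_natCast g (k % (r : ℤ)).toNat, h3, ← zpow_natCast g r, ← zpow_mul, ← zpow_add]
    congr 1
    rw [add_comm]
    exact (Int.mul_ediv_add_emod k r).symm

/-- membership in a prime step. -/
theorem s48a_step_mem_iff (H' : Subgroup G) (g : G) {r : ℕ} (hr : 0 < r) (hgr : g ^ r ∈ H')
    (x : G) : x ∈ H' ⊔ Subgroup.zpowers g ↔ ∃ m : ℕ, m < r ∧ ∃ h' ∈ H', x = g ^ m * h' := by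
  constructor
  · intro hx
    obtain ⟨y, hy, z, hz, rfl⟩ := Subgroup.mem_sup.mp hx
    obtain ⟨k, rfl⟩ := Subgroup.mem_zpowers_iff.mp hz
    obtain ⟨m, hm, h', hh', e⟩ := s48a_zpow_decomp H' g hr hgr k
    refine ⟨m, hm, y * h', H'.mul_mem hy hh', ?_⟩
    rw [e, mul_left_comm]
  · rintro ⟨m, -, h', hh', rfl⟩
    exact Subgroup.mul_mem _ (Subgroup.mem_sup_right (Subgroup.pow_mem _ (Subgroup.mem_zpowers g) m))
      (Subgroup.mem_sup_left hh')

/-- for `r` prime and `g ∉ H'`, `g ^ r ∈ H'`: `g ^ m ∈ H'` with `m < r` forces `m = 0`. -/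
theorem s48a_step_pow_mem (H' : Subgroup G) (g : G) {r : ℕ} (hr : r.Prime) (hg : g ∉ H')
    (hgr : g ^ r ∈ H') {m : ℕ} (hm : m < r) (hgm : g ^ m ∈ H') : m = 0 := by
  by_contra hm0
  have hcop : Nat.Coprime m r :=
    Nat.Coprime.symm ((Nat.Prime.coprime_iff_not_dvd hr).mpr
      (Nat.not_dvd_of_pos_of_lt (Nat.pos_of_ne_zero hm0) hm))
  apply hg
  have h1 : (g ^ m) ^ (Nat.gcdA m r) * (g ^ r) ^ (Nat.gcdB m r) ∈ H' :=
    H'.mul_mem (H'.zpow_mem hgm _) (H'.zpow_mem hgr _)
  have h2 : (g ^ m) ^ (Nat.gcdA m r) * (g ^ r) ^ (Nat.gcdB m r) = g := by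
    rw [← zpow_natCast g m, ← zpow_natCast g r, ← zpow_mul, ← zpow_mul, ← zpow_add,
      ← Nat.gcd_eq_gcd_ab, hcop]
    simp
  rwa [h2] at h1

/-- uniqueness of the exponent in the coset decomposition. -/
theorem s48a_step_unique (H' : Subgroup G) (g : G) {r : ℕ} (hr : r.Prime) (hg : g ∉ H')
    (hgr : g ^ r ∈ H') {m m' : ℕ} (hm : m < r) (hm' : m' < r) {h' h'' : G} (hh' : h' ∈ H')
    (hh'' : h'' ∈ H') (e : g ^ m * h' = g ^ m' * h'') : m = m' := by
  wlog hle : m ≤ m' generalizing m m' h' h''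
  · exact (this hm' hm hh'' hh' e.symm (le_of_not_ge hle)).symm
  have h1 : g ^ (m' - m) ∈ H' := by
    have h2 : g ^ (m' - m) = h' * h''⁻¹ := by
      have h3 : g ^ m' = g ^ (m' - m) * g ^ m := by rw [← pow_add, Nat.sub_add_cancel hle]
      rw [h3] at e
      rw [eq_mul_inv_iff_mul_eq]
      calc g ^ (m' - m) * h'' = (g ^ m)⁻¹ * (g ^ (m' - m) * g ^ m * h'') := by group
        _ = (g ^ m)⁻¹ * (g ^ m * h') := by rw [e]
        _ = h' := by group
    rw [h2]
    exact H'.mul_mem hh' (H'.inv_mem hh'')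
  have := s48a_step_pow_mem H' g hr hg hgr (lt_of_le_of_lt (Nat.sub_le _ _) hm') h1
  omega

/-- **induction over subgroups along prime steps**, from `⊤` down. -/
theorem s48a_subgroup_induction [Finite G] (P : Subgroup G → Prop) (htop : P ⊤)
    (hstep : ∀ (H' : Subgroup G) (g : G) (r : ℕ), r.Prime → g ∉ H' → g ^ r ∈ H' →
      P (H' ⊔ Subgroup.zpowers g) → P H') :
    ∀ H : Subgroup G, P H := by
  classical
  -- strong induction on the index
  suffices h : ∀ n : ℕ, ∀ H : Subgroup G, H.index = n → P H from fun H => h _ H rfl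
  intro n
  induction n using Nat.strong_induction_on with
  | _ n ih =>
    intro H hn
    by_cases hH : H = ⊤
    · rw [hH]; exact htop
    -- pick x ∉ H
    obtain ⟨x, hx⟩ : ∃ x : G, x ∉ H := by
      by_contra hcon
      simp only [not_exists, not_not] at hcon
      exact hH (eq_top_iff.mpr fun y _ => hcon y)
    -- the order of x modulo H
    have hfin : ∃ k : ℕ, 0 < k ∧ x ^ k ∈ H := ⟨orderOf x, orderOf_pos x, by
      rw [pow_orderOf_eq_one]; exact H.one_mem⟩
    let k := Nat.find hfin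
    have hk : 0 < k ∧ x ^ k ∈ H := Nat.find_spec hfin
    have hk1 : k ≠ 1 := by
      intro h1
      apply hx
      have := hk.2
      rwa [h1, pow_one] at this
    obtain ⟨r, hr, hrk⟩ := Nat.exists_prime_and_dvd hk1
    obtain ⟨d, hd⟩ := hrk
    have hdpos : 0 < d := by
      rcases Nat.eq_zero_or_pos d with h0 | h0
      · rw [h0, mul_zero] at hd; omega
      · exact h0
    have hdlt : d < k := by
      rw [hd]
      have := hr.two_le
      nlinarith
    set g := x ^ d with hgdef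
    have hg : g ∉ H := fun hmem => Nat.find_min hfin hdlt ⟨hdpos, hmem⟩
    have hgr : g ^ r ∈ H := by
      have : g ^ r = x ^ k := by rw [hgdef, ← pow_mul, mul_comm, ← hd]
      rw [this]; exact hk.2
    refine hstep H g r hr hg hgr (ih (H ⊔ Subgroup.zpowers g).index ?_ _ rfl)
    -- the index drops
    have hlt : H < H ⊔ Subgroup.zpowers g := by
      refine lt_of_le_of_ne le_sup_left fun e => hg ?_
      rw [e]
      exact Subgroup.mem_sup_right (Subgroup.mem_zpowers g)
    rw [← hn]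
    have hidx : H.index ≠ 0 := Subgroup.index_ne_zero_of_finite
    have h2 := Subgroup.relIndex_mul_index (le_of_lt hlt)
    have h3 : 1 < H.relIndex (H ⊔ Subgroup.zpowers g) := by
      by_contra hcon
      have h4 : H.relIndex (H ⊔ Subgroup.zpowers g) = 1 := by
        have h5 : H.relIndex (H ⊔ Subgroup.zpowers g) ≠ 0 := by
          intro h0; rw [h0, zero_mul] at h2; exact hidx h2.symm
        omega
      exact absurd (Subgroup.relIndex_eq_one.mp h4) (not_le_of_gt hlt)
    have h6 : 0 < (H ⊔ Subgroup.zpowers g).index := Nat.pos_of_ne_zero Subgroup.index_ne_zero_of_finite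
    nlinarith

end Fermat.Agent.Lib.S48
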