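/-
DS-1 (S48), wall [T7-D] (helper7, prefix `s48d_`): **Theorem X₀ for the Gauss valuation of an ARBITRARY function
field `𝓕 ⊆ K((q))`** contained in the fraction field `s18g_Frac G`, from the geometric inputs `s18_GeoInputs`:
port of `Lib/S18/XGauss.lean` (architect helper4) with `laurentBaseChange K (modularFunctionFieldFull N)` replaced
by `𝓕`.
-/
import Fermat.Agent.Lib.S18.XGeo
import Fermat.Agent.Lib.S18.GVal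
import Fermat.Agent.Lib.S18.GInst

set_option autoImplicit false
set_option linter.unusedSectionVars false

noncomputable section

namespace Fermat.Agent.Lib.S48

open AlgebraicCurve ModularCurve HahnSeries Fermat.Agent.Lib.FF Fermat.Agent.Lib.S18

variable {K : Type*} [Field K] [Algebra ℚ K] {κ : Type*} [Field κ] (G : s18g_GaussData K κ)
variable (𝓕 : IntermediateField K (LaurentSeries K))
variable (h𝓕 : ∀ f ∈ 𝓕, f ∈ s18g_Frac G)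

/-- constants of `A` lie in `V`. -/
theorem s48d_const_mem_V (a : G.A) :
    algebraMap K ↥𝓕 (a : K) ∈ s18g_V G 𝓕 h𝓕 :=
  (s18g_algebraMap_mem_V_iff G _ _ _).mpr a.2

/-- the uniformiser is not a unit of `V`. -/
theorem s48d_unif_not_unit :
    ¬ ∃ y ∈ s18g_V G 𝓕 h𝓕, (1 : ↥𝓕) =
      algebraMap K ↥𝓕 ((G.ϖ : G.A) : K) * y := by
  rintro ⟨y, hy, e⟩
  apply s18g_not_isUnit_unifV G (𝓕)
    h𝓕
  refine IsUnit.of_mul_eq_one (⟨y, hy⟩ : s18g_V G _ _) (Subtype.ext ?_)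
  exact e.symm

/-- `ιy₁ / ιy₂ ≡ 1 mod ϖ V` when `ρ y₁ = ρ y₂ ≠ 0`. -/
theorem s48d_div_sub_one (y1 y2 : LaurentSeries G.A)
    (h1 : s18g_iota G y1 ∈ 𝓕)
    (h2 : s18g_iota G y2 ∈ 𝓕)
    (hρ : s18g_rho G y1 = s18g_rho G y2) (hρ0 : s18g_rho G y2 ≠ 0) :
    ∃ y ∈ s18g_V G 𝓕 h𝓕,
      ((⟨s18g_iota G y1, h1⟩ : ↥𝓕) /
        ⟨s18g_iota G y2, h2⟩) - 1 =
      algebraMap K ↥𝓕 ((G.ϖ : G.A) : K) * y := by
  obtain ⟨hfV, hred⟩ := s18g_redV_iota_div G (𝓕)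
    h𝓕 y1 y2 h1 h2 hρ0 _ rfl
  rw [hρ, div_self hρ0] at hred
  set V := s18g_V G 𝓕 h𝓕
  have h0 : s18g_redV G 𝓕 h𝓕
      ((⟨_, hfV⟩ : V) - 1) = 0 := by
    rw [map_sub, hred, map_one, sub_self]
  obtain ⟨g, hg⟩ := (s18g_redV_eq_zero_iff G 𝓕 _ _).mp h0
  refine ⟨(g : 𝓕), g.2, ?_⟩
  have := congrArg Subtype.val hg
  exact this

/-- **Theorem X₀ for the Gauss valuation**, from the geometric inputs. -/
theorem s48d_gauss_zero [IsNoetherianRing G.A] (t : ↥𝓕)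
    (m : ℕ) (hm0 : m ≠ 0) (hmA : ((m : K))⁻¹ ∈ G.A)
    (hgeo : s18_GeoInputs G.A (s18g_V G 𝓕 h𝓕) (s48d_const_mem_V G 𝓕 h𝓕) G.ϖ t m)
    (y1 y2 : LaurentSeries G.A)
    (h1 : s18g_iota G y1 ∈ 𝓕)
    (h2 : s18g_iota G y2 ∈ 𝓕)
    (hρ : s18g_rho G y1 = s18g_rho G y2) (hρ0 : s18g_rho G y2 ≠ 0)
    (hdiv : ∀ Q : Place K ↥𝓕,
      (m : ℤ) ∣ Q.ord ((⟨s18g_iota G y1, h1⟩ :
        ↥𝓕) / ⟨s18g_iota G y2, h2⟩)) :
    ∃ x : ↥𝓕, x ≠ 0 ∧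
      ∀ Q : Place K ↥𝓕,
        Q.ord ((⟨s18g_iota G y1, h1⟩ :
          ↥𝓕) / ⟨s18g_iota G y2, h2⟩) ≤
          (m : ℤ) * Q.ord x := by
  have hmL : (m : K) ≠ 0 := by
    have : CharZero K := algebraRat.charZero K
    exact_mod_cast hm0
  obtain ⟨x, hx0, -, hx⟩ := s18x_zero_of_geo G.A (s18g_V G 𝓕 h𝓕) (s48d_const_mem_V G 𝓕 h𝓕) G.ϖ
    (s18g_unifK_ne_zero G) (s48d_unif_not_unit G 𝓕 h𝓕) t m hm0 hmA hmL hgeo _ hdiv
    (s48d_div_sub_one G 𝓕 h𝓕 y1 y2 h1 h2 hρ hρ0)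
  exact ⟨x, hx0, hx⟩

end Fermat.Agent.Lib.S48
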