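/-
S48 (Deligne–Serre), wall [T8] (helper8): GENERIC Eichler–Shimura engine, part 1: definitions.

`F ⊆ L((q))` a function field in characteristic zero (an intermediate field of the Laurent series), `A ⊆ L` a valuation
subring with residue map `π : A →+* κ`, `Fb ⊆ κ((q))` the function field of the special fibre.  We restate the Prelude's
`IsPlaceReductionAlong`, `integralPrincipalDivisors`, `PrincipalGeneratedByIntegral`, `reductionDivAlong`,
`reductionPic0Along` (which are written for `laurentBaseChange L (modularFunctionFieldFull N)` and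
`modularFunctionFieldFullC κ N`) for ARBITRARY `F`, `Fb`; for the `Γ₀`-fields they are definitionally the Prelude's
notions (`s48e_isPlaceRed_iff`).  Also: the coefficientwise action of `Aut κ` on a coefficient-stable `Fb`.
-/
import Mathlib
import Fermat.Prelude.Def_ModularCurve_ReductionModL
import Fermat.Prelude.Def_AlgebraicCurve_BaseChangeGalois

set_option autoImplicit false

namespace Fermat.Agent.Lib.S48

open ModularCurve HahnSeries AlgebraicCurve IntermediateField

noncomputable section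

section Defs

variable {L : Type*} [Field L] (A : ValuationSubring L) {κ : Type*} [Field κ] (π : ↥A →+* κ)
  (F : IntermediateField L (LaurentSeries L)) (Fb : IntermediateField κ (LaurentSeries κ))

/-- a place reduction: degree-preserving, with conservation of number for Gauss units. -/
def s48e_IsPlaceRed (r : Place L ↥F → Place κ ↥Fb) : Prop :=
  (∀ P, (r P).deg = P.deg) ∧
    ∀ (y : LaurentSeries ↥A) (hy : coeffMap A.subtype y ∈ F) (hyk : coeffMap π y ∈ Fb),
      coeffMap π y ≠ 0 →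
        ∀ D : Divisor L ↥F, (∀ P, D P = P.ord (⟨coeffMap A.subtype y, hy⟩ : ↥F)) →
          ∀ Q, Finsupp.mapDomain r D Q = Q.ord (⟨coeffMap π y, hyk⟩ : ↥Fb)

/-- divisors of Gauss units. -/
def s48e_intPrin : Set (Divisor L ↥F) :=
  {D | ∃ (y : LaurentSeries ↥A) (hy : coeffMap A.subtype y ∈ F),
      coeffMap π y ∈ Fb ∧ coeffMap π y ≠ 0 ∧
        ∀ P, D P = P.ord (⟨coeffMap A.subtype y, hy⟩ : ↥F)}

/-- principal divisors are generated by divisors of Gauss units. -/
def s48e_PrinGen : Prop :=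
  Divisor.principal (K := L) (F := ↥F) ≤ AddSubgroup.closure (s48e_intPrin A π F Fb)

end Defs

section Compat

variable {L : Type*} [Field L] [Algebra ℚ L] (A : ValuationSubring L) {κ : Type*} [Field κ]
  (π : ↥A →+* κ) (N : ℕ)

/-- for the `Γ₀`-fields the generic notion is the Prelude's. -/
theorem s48e_isPlaceRed_iff
    (r : Place L ↥(laurentBaseChange L (modularFunctionFieldFull N)) →
      Place κ ↥(modularFunctionFieldFullC κ N)) :
    s48e_IsPlaceRed A π (laurentBaseChange L (modularFunctionFieldFull N))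
      (modularFunctionFieldFullC κ N) r ↔ IsPlaceReductionAlong A π N r :=
  Iff.rfl

theorem s48e_prinGen_iff :
    s48e_PrinGen A π (laurentBaseChange L (modularFunctionFieldFull N))
      (modularFunctionFieldFullC κ N) ↔ PrincipalGeneratedByIntegral A π N :=
  Iff.rfl

end Compat

section Lemmas

variable {L : Type*} [Field L] {A : ValuationSubring L} {κ : Type*} [Field κ] {π : ↥A →+* κ}
  {F : IntermediateField L (LaurentSeries L)} {Fb : IntermediateField κ (LaurentSeries κ)}
  {r : Place L ↥F → Place κ ↥Fb}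

theorem s48e_IsPlaceRed.isPrincipal_mapDomain (hr : s48e_IsPlaceRed A π F Fb r)
    {D : Divisor L ↥F} (hD : D ∈ s48e_intPrin A π F Fb) :
    Divisor.IsPrincipal (Finsupp.mapDomain r D) := by
  obtain ⟨y, hy, hyk, hne, hDy⟩ := hD
  refine ⟨⟨coeffMap π y, hyk⟩, fun h => hne (congrArg Subtype.val h), fun Q => ?_⟩
  exact hr.2 y hy hyk hne D hDy Q

theorem s48e_degree_mapDomain (hdeg : ∀ P, (r P).deg = P.deg) (D : Divisor L ↥F) :
    Divisor.degree (Finsupp.mapDomain r D) = Divisor.degree D := by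
  induction D using Finsupp.induction with
  | zero => simp
  | single_add P n D _ _ ih =>
    rw [Finsupp.mapDomain_add, map_add, map_add, ih, Finsupp.mapDomain_single,
      Divisor.degree_single, Divisor.degree_single, hdeg]

theorem s48e_mapDomain_mem_degZero (hdeg : ∀ P, (r P).deg = P.deg) {D : Divisor L ↥F}
    (hD : D ∈ Divisor.degZero (K := L) (F := ↥F)) :
    Finsupp.mapDomain r D ∈ Divisor.degZero (K := κ) (F := ↥Fb) := by
  rw [Divisor.mem_degZero] at hD ⊢
  rw [s48e_degree_mapDomain hdeg, hD]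

theorem s48e_IsPlaceRed.mapDomain_mem_principal (hr : s48e_IsPlaceRed A π F Fb r)
    (hgen : s48e_PrinGen A π F Fb) {D : Divisor L ↥F}
    (hD : D ∈ Divisor.principal (K := L) (F := ↥F)) :
    Finsupp.mapDomain r D ∈ Divisor.principal (K := κ) (F := ↥Fb) := by
  have hD' := hgen hD
  clear hD
  induction hD' using AddSubgroup.closure_induction with
  | mem E hE => exact hr.isPrincipal_mapDomain hE
  | zero => rw [Finsupp.mapDomain_zero]; exact AddSubgroup.zero_mem _
  | add E E' _ _ hE hE' => rw [Finsupp.mapDomain_add]; exact AddSubgroup.add_mem _ hE hE'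
  | neg E _ hE =>
    rw [← Finsupp.mapDomain.addMonoidHom_apply, map_neg, Finsupp.mapDomain.addMonoidHom_apply]
    exact AddSubgroup.neg_mem _ hE

variable (r)

/-- the reduction of divisors. -/
def s48e_redDiv : Divisor L ↥F →+ Divisor κ ↥Fb :=
  Finsupp.mapDomain.addMonoidHom r

@[simp]
theorem s48e_redDiv_apply (D : Divisor L ↥F) : s48e_redDiv r D = Finsupp.mapDomain r D := rfl

theorem s48e_redDiv_single (P : Place L ↥F) (n : ℤ) :
    s48e_redDiv r (Finsupp.single P n) = Finsupp.single (r P) n :=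
  Finsupp.mapDomain_single

/-- the reduction of divisors of degree zero. -/
def s48e_redDegZero (hdeg : ∀ P, (r P).deg = P.deg) :
    Divisor.degZero (K := L) (F := ↥F) →+ Divisor.degZero (K := κ) (F := ↥Fb) :=
  ((s48e_redDiv r).domRestrict _).codRestrict _ fun D => s48e_mapDomain_mem_degZero hdeg D.2

@[simp]
theorem s48e_coe_redDegZero (hdeg : ∀ P, (r P).deg = P.deg)
    (D : Divisor.degZero (K := L) (F := ↥F)) :
    (s48e_redDegZero r hdeg D : Divisor κ ↥Fb) = Finsupp.mapDomain r (D : Divisor L ↥F) :=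
  rfl

/-- the reduction on `Pic⁰`. -/
def s48e_redPic0 (hr : s48e_IsPlaceRed A π F Fb r) (hgen : s48e_PrinGen A π F Fb) :
    Pic0 L ↥F →+ Pic0 κ ↥Fb :=
  QuotientAddGroup.map _ _ (s48e_redDegZero r hr.1) (by
    rintro ⟨D, hD0⟩ hD
    simp only [AddSubgroup.mem_addSubgroupOf] at hD ⊢
    exact hr.mapDomain_mem_principal hgen hD)

theorem s48e_redPic0_mk (hr : s48e_IsPlaceRed A π F Fb r) (hgen : s48e_PrinGen A π F Fb)
    (D : Divisor.degZero (K := L) (F := ↥F)) :
    s48e_redPic0 r hr hgen (Pic0.mk D) = Pic0.mk (s48e_redDegZero r hr.1 D) :=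
  rfl

end Lemmas

/-! ### The coefficientwise action of `Aut κ` -/

section Frob

variable {κ : Type*} [Field κ] (Fb : IntermediateField κ (LaurentSeries κ))

/-- `Fb` is stable under the coefficientwise action of `Aut κ`. -/
def s48e_CoeffStable : Prop :=
  ∀ (φ : κ ≃+* κ) (x : LaurentSeries κ), x ∈ Fb → coeffMap (φ : κ →+* κ) x ∈ Fb

variable {Fb} (hst : s48e_CoeffStable Fb)

theorem s48e_coeffMap_algebraMap {κ' : Type*} [Field κ'] (φ : κ →+* κ') (c : κ) :
    coeffMap φ (algebraMap κ (LaurentSeries κ) c) = algebraMap κ' (LaurentSeries κ') (φ c) := by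
  rw [algebraMap_laurentSeries_eq_single, algebraMap_laurentSeries_eq_single, coeffMap_single]

/-- The coefficientwise ring automorphism of `Fb` attached to `φ : κ ≃+* κ`. -/
def s48e_coeffRingAut (φ : κ ≃+* κ) : ↥Fb ≃+* ↥Fb where
  toFun x := ⟨coeffMap (φ : κ →+* κ) (x : LaurentSeries κ), hst φ _ x.2⟩
  invFun x := ⟨coeffMap (φ.symm : κ →+* κ) (x : LaurentSeries κ), hst φ.symm _ x.2⟩
  left_inv x := Subtype.ext <| by
    show coeffMap (φ.symm : κ →+* κ) (coeffMap (φ : κ →+* κ) (x : LaurentSeries κ))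
      = (x : LaurentSeries κ)
    rw [coeffMap_coeffMap,
      coeffMap_congr (g := RingHom.id κ) (RingHom.ext fun a => φ.symm_apply_apply a)
        (x : LaurentSeries κ), coeffMap_id]
  right_inv x := Subtype.ext <| by
    show coeffMap (φ : κ →+* κ) (coeffMap (φ.symm : κ →+* κ) (x : LaurentSeries κ))
      = (x : LaurentSeries κ)
    rw [coeffMap_coeffMap,
      coeffMap_congr (g := RingHom.id κ) (RingHom.ext fun a => φ.apply_symm_apply a)
        (x : LaurentSeries κ), coeffMap_id]
  map_mul' x y :=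
    Subtype.ext (map_mul (coeffMap (φ : κ →+* κ)) (x : LaurentSeries κ) (y : LaurentSeries κ))
  map_add' x y :=
    Subtype.ext (map_add (coeffMap (φ : κ →+* κ)) (x : LaurentSeries κ) (y : LaurentSeries κ))

@[simp]
theorem s48e_coe_coeffRingAut_apply (φ : κ ≃+* κ) (x : ↥Fb) :
    (s48e_coeffRingAut hst φ x : LaurentSeries κ) = coeffMap (φ : κ →+* κ) (x : LaurentSeries κ) :=
  rfl

theorem s48e_coeffRingAut_algebraMap (φ : κ ≃+* κ) (a : κ) :
    s48e_coeffRingAut hst φ (algebraMap κ ↥Fb a) = algebraMap κ ↥Fb (φ a) :=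
  Subtype.ext (s48e_coeffMap_algebraMap (φ : κ →+* κ) a)

/-- The coefficientwise action of `Aut κ` on `Fb` by semilinear automorphisms. -/
def s48e_coeffAut : (κ ≃+* κ) →* SemilinearAut κ ↥Fb where
  toFun φ := ⟨(s48e_coeffRingAut hst φ, φ), fun a => s48e_coeffRingAut_algebraMap hst φ a⟩
  map_one' := by
    refine Subtype.ext (Prod.ext (RingEquiv.ext fun x => Subtype.ext ?_) rfl)
    show coeffMap ((1 : κ ≃+* κ) : κ →+* κ) (x : LaurentSeries κ) = (x : LaurentSeries κ)
    rw [show ((1 : κ ≃+* κ) : κ →+* κ) = RingHom.id κ from RingHom.ext fun _ => rfl, coeffMap_id]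
  map_mul' σ τ := by
    refine Subtype.ext (Prod.ext (RingEquiv.ext fun x => Subtype.ext ?_) rfl)
    show coeffMap ((σ * τ : κ ≃+* κ) : κ →+* κ) (x : LaurentSeries κ)
      = coeffMap (σ : κ →+* κ) (coeffMap (τ : κ →+* κ) (x : LaurentSeries κ))
    rw [coeffMap_coeffMap]
    exact coeffMap_congr (RingHom.ext fun _ => rfl) _

theorem s48e_coe_coeffAut_smul (φ : κ ≃+* κ) (x : ↥Fb) :
    ((s48e_coeffAut hst φ • x : ↥Fb) : LaurentSeries κ)
      = coeffMap (φ : κ →+* κ) (x : LaurentSeries κ) :=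
  rfl

theorem s48e_coe_coeffAut_inv_smul (φ : κ ≃+* κ) (x : ↥Fb) :
    (((s48e_coeffAut hst φ)⁻¹ • x : ↥Fb) : LaurentSeries κ)
      = coeffMap (φ.symm : κ →+* κ) (x : LaurentSeries κ) := by
  rw [← map_inv, s48e_coe_coeffAut_smul]
  rfl

/-- The order of `(Ψ⁻¹ z)^ℓ · Θ w` at `Q`. -/
theorem s48e_ord_es {K₀ F₀ : Type*} [Field K₀] [Field F₀] [Algebra K₀ F₀] (ℓ : ℕ)
    (Ψ Θ : SemilinearAut K₀ F₀) (Q : Place K₀ F₀) {z w : F₀} (hz : z ≠ 0) (hw : w ≠ 0) :
    Q.ord ((Ψ⁻¹ • z) ^ ℓ * (Θ • w)) = ℓ * (Ψ • Q).ord z + (Θ⁻¹ • Q).ord w := by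
  have h1 : Ψ⁻¹ • z ≠ 0 := by
    intro h
    apply hz
    have := congrArg (Ψ • ·) h
    simpa using this
  have h2 : Θ • w ≠ 0 := by
    intro h
    apply hw
    have := congrArg (Θ⁻¹ • ·) h
    simpa using this
  have e1 : Q.ord (Ψ⁻¹ • z) = (Ψ • Q).ord z := by
    have := SemilinearAut.ord_smul Ψ Q (Ψ⁻¹ • z)
    rw [smul_inv_smul] at this
    exact this.symm
  have e2 : Q.ord (Θ • w) = (Θ⁻¹ • Q).ord w := by
    have := SemilinearAut.ord_smul Θ⁻¹ Q (Θ • w)
    rw [inv_smul_smul] at this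
    exact this.symm
  rw [Q.ord_mul (pow_ne_zero ℓ h1) h2, ← zpow_natCast, Q.ord_zpow, e1, e2]

end Frob

end

end Fermat.Agent.Lib.S48
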