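/-
DS-1 (S48), wall [T7-D] (helper7, prefix `s48d_`): **Theorem X (`s48d_KummerTrivial`) for an ARBITRARY function
field `F ⊆ K((q))` from the geometric inputs at finite levels** — port of `Lib/S18/XTop.lean` (architect helper4):
* `s48d_incl φ 𝓕₀ F h`  : the coefficientwise map `𝓕₀ → F` along `φ : K₀ →+* K`;
* `s48d_kummer_core`    : one level `(K₀, φ, 𝓕₀)`: DVR `A ∩ K₀`, `s18_GeoInputs` for the Gauss ring of `𝓕₀`, restriction of
  places surjective + order-preserving, constants of `F` ⇒ the Kummer-triviality conclusion for two Gauss-integral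
  series of `F` defined over `𝓕₀`;
* `s48d_kummerTrivial`  : a LEVEL SYSTEM (`𝓕 L₀` for the admissible `L₀ : IntermediateField ℚ K`) ⇒
  `s48d_KummerTrivial A (residue A) F Fb m` for every `Fb`.
-/
import Fermat.Agent.Lib.S48.DGauss
import Fermat.Agent.Lib.S48.DMain
import Fermat.Agent.Lib.S18.XTop

set_option autoImplicit false
set_option linter.unusedSectionVars false

noncomputable section

namespace Fermat.Agent.Lib.S48

open AlgebraicCurve ModularCurve HahnSeries Fermat.Agent.Lib.FF Fermat.Agent.Lib.S18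

section Incl

variable {K₀ K : Type*} [Field K₀] [Field K] (φ : K₀ →+* K)
  (𝓕₀ : IntermediateField K₀ (LaurentSeries K₀)) (F : IntermediateField K (LaurentSeries K))
  (h : ∀ x ∈ 𝓕₀, coeffMap φ x ∈ F)

/-- the coefficientwise map between function fields along `φ`. -/
def s48d_incl : ↥𝓕₀ →+* ↥F :=
  ((coeffMap φ).comp 𝓕₀.toSubfield.subtype).codRestrict F fun x => h x x.2

@[simp]
theorem s48d_incl_coe (x : ↥𝓕₀) :
    ((s48d_incl φ 𝓕₀ F h x : ↥F) : LaurentSeries K) = coeffMap φ (x : LaurentSeries K₀) := rfl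

end Incl

variable {K : Type*} [Field K] [Algebra ℚ K]

/-- **Core of Theorem X** for one number field `K₀ → ℚ̄` over which `Y₁, Y₂` are defined. -/
theorem s48d_kummer_core (A : ValuationSubring K) (m : ℕ) (hm0 : m ≠ 0)
    {K₀ : Type*} [Field K₀] [Algebra ℚ K₀] (φ : K₀ →+* K)
    (𝓕₀ : IntermediateField K₀ (LaurentSeries K₀)) (F : IntermediateField K (LaurentSeries K))
    (hincl : ∀ x ∈ 𝓕₀, coeffMap φ x ∈ F)
    [IsDiscreteValuationRing ↥(A.comap φ)] (hmA : ((m : K₀))⁻¹ ∈ A.comap φ)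
    (ϖ : ↥(A.comap φ)) (hϖ : Irreducible ϖ)
    (hFrac : ∀ f ∈ 𝓕₀, f ∈ s18g_Frac (s18g_GaussData.ofResidue (A.comap φ) ϖ hϖ))
    (hconst : ∀ g : ↥F, (∀ P : Place K ↥F, P.ord g ≤ 0) → ∃ c : K, g = algebraMap K ↥F c)
    (t : ↥𝓕₀)
    (hgeo : s18_GeoInputs (s18g_GaussData.ofResidue (A.comap φ) ϖ hϖ).A
      (s18g_V (s18g_GaussData.ofResidue (A.comap φ) ϖ hϖ) 𝓕₀ hFrac)
      (s48d_const_mem_V (s18g_GaussData.ofResidue (A.comap φ) ϖ hϖ) 𝓕₀ hFrac)
      (s18g_GaussData.ofResidue (A.comap φ) ϖ hϖ).ϖ t m)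
    (restrict : Place K ↥F →
      Place K₀ ↥𝓕₀)
    (hsurj : Function.Surjective restrict)
    (hord : ∀ (P : Place K ↥F)
      (f : ↥𝓕₀),
      P.ord (s48d_incl φ 𝓕₀ F hincl f) = (restrict P).ord f)
    (Y1 Y2 : LaurentSeries A)
    (h1 : coeffMap A.subtype Y1 ∈ F)
    (h2 : coeffMap A.subtype Y2 ∈ F)
    (x1 x2 : ↥𝓕₀)
    (hx1 : s48d_incl φ 𝓕₀ F hincl x1 = ⟨coeffMap A.subtype Y1, h1⟩)
    (hx2 : s48d_incl φ 𝓕₀ F hincl x2 = ⟨coeffMap A.subtype Y2, h2⟩)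
    (hρ : coeffMap (IsLocalRing.residue A) Y1 = coeffMap (IsLocalRing.residue A) Y2)
    (hρ0 : coeffMap (IsLocalRing.residue A) Y1 ≠ 0)
    (hdivP : ∀ P : Place K ↥F,
      (m : ℤ) ∣ P.ord ((⟨coeffMap A.subtype Y1, h1⟩ :
        ↥F) / ⟨coeffMap A.subtype Y2, h2⟩)) :
    ∃ (c : K) (w : ↥F),
      (⟨coeffMap A.subtype Y1, h1⟩ : ↥F) /
        ⟨coeffMap A.subtype Y2, h2⟩ = algebraMap K _ c * w ^ m := by
  classical
  set G := s18g_GaussData.ofResidue (A.comap φ) ϖ hϖ with hG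
  -- coefficients of `x_i` lie in `A₀ = A ∩ K₀`
  have hcoef : ∀ (x : ↥𝓕₀) (Y : LaurentSeries A)
      (hY : coeffMap A.subtype Y ∈ F),
      s48d_incl φ 𝓕₀ F hincl x = ⟨coeffMap A.subtype Y, hY⟩ →
      ∀ n, φ ((x : LaurentSeries K₀).coeff n) = ((Y.coeff n : A) : K) := by
    intro x Y hY hx n
    have := congrArg (fun z : ↥F =>
      (z : LaurentSeries K).coeff n) hx
    simpa [s48d_incl_coe] using this
  have hmem : ∀ (x : ↥𝓕₀) (Y : LaurentSeries A)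
      (hY : coeffMap A.subtype Y ∈ F),
      s48d_incl φ 𝓕₀ F hincl x = ⟨coeffMap A.subtype Y, hY⟩ →
      ∀ n, (x : LaurentSeries K₀).coeff n ∈ G.A := by
    intro x Y hY hx n
    show (x : LaurentSeries K₀).coeff n ∈ A.comap φ
    rw [ValuationSubring.mem_comap, hcoef x Y hY hx n]
    exact (Y.coeff n).2
  obtain ⟨y1, hy1⟩ := s18g_exists_iota_eq G (x1 : LaurentSeries K₀) (hmem x1 Y1 h1 hx1)
  obtain ⟨y2, hy2⟩ := s18g_exists_iota_eq G (x2 : LaurentSeries K₀) (hmem x2 Y2 h2 hx2)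
  have hy1' : s18g_iota G y1 ∈ 𝓕₀ := by
    rw [hy1]; exact x1.2
  have hy2' : s18g_iota G y2 ∈ 𝓕₀ := by
    rw [hy2]; exact x2.2
  have hxy1 : (⟨s18g_iota G y1, hy1'⟩ : ↥𝓕₀) = x1 :=
    Subtype.ext hy1
  have hxy2 : (⟨s18g_iota G y2, hy2'⟩ : ↥𝓕₀) = x2 :=
    Subtype.ext hy2
  -- coefficients of `y_i` map to those of `Y_i`
  have hyY : ∀ (y : LaurentSeries G.A) (x : ↥𝓕₀)
      (Y : LaurentSeries A)
      (hY : coeffMap A.subtype Y ∈ F),
      s18g_iota G y = (x : LaurentSeries K₀) →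
      s48d_incl φ 𝓕₀ F hincl x = ⟨coeffMap A.subtype Y, hY⟩ →
      ∀ n, φ ((y.coeff n : G.A) : K₀) = ((Y.coeff n : A) : K) := by
    intro y x Y hY hy hx n
    rw [← hcoef x Y hY hx n, ← hy]
    rfl
  -- the ring homomorphism `A₀ → A`
  let ψ : ↥(A.comap φ) →+* ↥A :=
    { toFun := fun a => ⟨φ (a : K₀), a.2⟩
      map_one' := Subtype.ext (map_one φ)
      map_mul' := fun a b => Subtype.ext (map_mul φ _ _)
      map_zero' := Subtype.ext (map_zero φ)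
      map_add' := fun a b => Subtype.ext (map_add φ _ _) }
  have key0 : ∀ a : ↥(A.comap φ), IsLocalRing.residue ↥A (ψ a) = 0 →
      IsLocalRing.residue ↥(A.comap φ) a = 0 := by
    intro a ha
    rw [IsLocalRing.residue_eq_zero_iff, IsLocalRing.mem_maximalIdeal, mem_nonunits_iff] at ha ⊢
    intro hu
    exact ha (hu.map ψ)
  have key1 : ∀ a b : ↥(A.comap φ), IsLocalRing.residue ↥A (ψ a) = IsLocalRing.residue ↥A (ψ b) →
      IsLocalRing.residue ↥(A.comap φ) a = IsLocalRing.residue ↥(A.comap φ) b := by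
    intro a b hab
    have := key0 (a - b) (by rw [map_sub, map_sub, hab, sub_self])
    rw [map_sub, sub_eq_zero] at this
    exact this
  have key2 : ∀ a : ↥(A.comap φ), IsLocalRing.residue ↥A (ψ a) ≠ 0 →
      IsLocalRing.residue ↥(A.comap φ) a ≠ 0 := by
    intro a ha h0
    apply ha
    rw [IsLocalRing.residue_eq_zero_iff, IsLocalRing.mem_maximalIdeal, mem_nonunits_iff] at h0 ⊢
    intro hu
    exact h0 (s18x_isUnit_comap φ A a hu)
  have hψ1 : ∀ n, Y1.coeff n = ψ (y1.coeff n) := fun n =>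
    Subtype.ext (hyY y1 x1 Y1 h1 hy1 hx1 n).symm
  have hψ2 : ∀ n, Y2.coeff n = ψ (y2.coeff n) := fun n =>
    Subtype.ext (hyY y2 x2 Y2 h2 hy2 hx2 n).symm
  have hρ' : s18g_rho G y1 = s18g_rho G y2 := by
    ext n
    rw [s18g_rho_coeff, s18g_rho_coeff]
    apply key1
    have := congrArg (fun z : LaurentSeries (IsLocalRing.ResidueField ↥A) => z.coeff n) hρ
    simp only [coeffMap_coeff] at this
    rw [← hψ1, ← hψ2]
    exact this
  have hρ0' : s18g_rho G y2 ≠ 0 := by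
    intro h0
    apply hρ0
    rw [hρ]
    ext n
    rw [coeffMap_coeff, HahnSeries.coeff_zero]
    by_contra hne
    have := key2 (y2.coeff n) (by rw [← hψ2]; exact hne)
    apply this
    have h0n := congrArg (fun z : LaurentSeries (IsLocalRing.ResidueField ↥(A.comap φ)) =>
      z.coeff n) h0
    simp only [s18g_rho_coeff, HahnSeries.coeff_zero] at h0n
    exact h0n
  -- Step 2: Theorem X₀ over `K₀`
  have hdiv0 : ∀ Q : Place K₀ ↥𝓕₀,
      (m : ℤ) ∣ Q.ord ((⟨s18g_iota G y1, hy1'⟩ :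
        ↥𝓕₀) / ⟨s18g_iota G y2, hy2'⟩) := by
    apply s18x_dvd_of_restrict (s48d_incl φ 𝓕₀ F hincl) restrict hsurj hord
    intro P
    rw [map_div₀, hxy1, hxy2, hx1, hx2]
    exact hdivP P
  have hnoeth : IsNoetherianRing ↥G.A :=
    (inferInstance : IsNoetherianRing ↥(A.comap φ))
  obtain ⟨x, hx0, hx⟩ := s48d_gauss_zero G 𝓕₀ hFrac t m hm0 hmA hgeo y1 y2 hy1' hy2' hρ' hρ0' hdiv0
  -- Step 3: the endgame over `ℚ̄`
  have hf0 : ((⟨s18g_iota G y1, hy1'⟩ : ↥𝓕₀) /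
      ⟨s18g_iota G y2, hy2'⟩) ≠ 0 := by
    apply div_ne_zero
    · intro h
      have h' : s18g_iota G y1 = 0 := congrArg Subtype.val h
      have : y1 = 0 := s18g_iota_injective G (by rw [h', map_zero])
      apply hρ0'
      rw [← hρ', this, map_zero]
    · intro h
      have h' : s18g_iota G y2 = 0 := congrArg Subtype.val h
      have : y2 = 0 := s18g_iota_injective G (by rw [h', map_zero])
      apply hρ0'
      rw [this, map_zero]
  obtain ⟨c, hc⟩ := s18x_endgame (s48d_incl φ 𝓕₀ F hincl) restrict hord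
    hconst _ x m hx0 hf0 hx
  refine ⟨c, s48d_incl φ 𝓕₀ F hincl x, ?_⟩
  rw [← hc, map_div₀, hxy1, hxy2, hx1, hx2]


set_option synthInstance.maxHeartbeats 400000 in
/-- **Theorem X for `F` from a level system.**  `Lev L₀` singles out the admissible number fields `L₀ ⊆ K` (e.g.
finite over `ℚ` and containing a base field); `𝓕 L₀ ⊆ L₀((q))` is the model of `F` over `L₀`. -/
theorem s48d_kummerTrivial (A : ValuationSubring K) {ℓ : ℕ}
    (hℓ : ℓ.Prime) (hA : A.LiesOverPrime ℓ) (m : ℕ) (hm : ¬ ℓ ∣ m)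
    (F : IntermediateField K (LaurentSeries K))
    (Fb : IntermediateField (IsLocalRing.ResidueField A) (LaurentSeries (IsLocalRing.ResidueField A)))
    (Lev : IntermediateField ℚ K → Prop)
    (𝓕 : ∀ L₀ : IntermediateField ℚ K, IntermediateField ↥L₀ (LaurentSeries ↥L₀))
    (hincl : ∀ L₀ : IntermediateField ℚ K, Lev L₀ →
      ∀ x ∈ 𝓕 L₀, coeffMap (algebraMap ↥L₀ K) x ∈ F)
    (hex : ∀ a b : ↥F, ∃ (L₀ : IntermediateField ℚ K) (hL : Lev L₀), ∃ x1 x2 : ↥(𝓕 L₀),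
      s48d_incl (algebraMap ↥L₀ K) (𝓕 L₀) F (hincl L₀ hL) x1 = a ∧
      s48d_incl (algebraMap ↥L₀ K) (𝓕 L₀) F (hincl L₀ hL) x2 = b)
    (hdvr : ∀ L₀ : IntermediateField ℚ K, Lev L₀ →
      IsDiscreteValuationRing ↥(A.comap (algebraMap ↥L₀ K)))
    (hres : ∀ (L₀ : IntermediateField ℚ K) (hL : Lev L₀),
      ∃ restrict : Place K ↥F → Place ↥L₀ ↥(𝓕 L₀),
        Function.Surjective restrict ∧
          ∀ (P : Place K ↥F) (f : ↥(𝓕 L₀)),
            P.ord (s48d_incl (algebraMap ↥L₀ K) (𝓕 L₀) F (hincl L₀ hL) f) = (restrict P).ord f)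
    (hconst : ∀ g : ↥F, (∀ P : Place K ↥F, P.ord g ≤ 0) → ∃ c : K, g = algebraMap K ↥F c)
    (hgeo : ∀ (L₀ : IntermediateField ℚ K) (_ : Lev L₀)
      [IsDiscreteValuationRing ↥(A.comap (algebraMap ↥L₀ K))]
      (ϖ : ↥(A.comap (algebraMap ↥L₀ K))) (hϖ : Irreducible ϖ),
      ∃ (hFrac : ∀ f ∈ 𝓕 L₀,
          f ∈ s18g_Frac (s18g_GaussData.ofResidue (A.comap (algebraMap ↥L₀ K)) ϖ hϖ))
        (t : ↥(𝓕 L₀)),
        s18_GeoInputs (s18g_GaussData.ofResidue (A.comap (algebraMap ↥L₀ K)) ϖ hϖ).A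
          (s18g_V (s18g_GaussData.ofResidue (A.comap (algebraMap ↥L₀ K)) ϖ hϖ) (𝓕 L₀) hFrac)
          (s48d_const_mem_V (s18g_GaussData.ofResidue (A.comap (algebraMap ↥L₀ K)) ϖ hϖ) (𝓕 L₀)
            hFrac)
          (s18g_GaussData.ofResidue (A.comap (algebraMap ↥L₀ K)) ϖ hϖ).ϖ t m) :
    s48d_KummerTrivial A (IsLocalRing.residue A) F Fb m := by
  classical
  intro Y1 Y2 h1 h2 _ hρ hρ0 hdivP
  have hm0 : m ≠ 0 := by
    rintro rfl
    exact hm (dvd_zero ℓ)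
  obtain ⟨L₀, hL, x1, x2, hx1, hx2⟩ :=
    hex ⟨coeffMap A.subtype Y1, h1⟩ ⟨coeffMap A.subtype Y2, h2⟩
  have hdvr' := hdvr L₀ hL
  obtain ⟨ϖ, hϖ⟩ := IsDiscreteValuationRing.exists_irreducible ↥(A.comap (algebraMap ↥L₀ K))
  obtain ⟨hFrac, t, hgeoG⟩ := hgeo L₀ hL ϖ hϖ
  obtain ⟨restrict, hsurj, hord⟩ := hres L₀ hL
  have hmA : ((m : ↥L₀))⁻¹ ∈ A.comap (algebraMap ↥L₀ K) := by
    rw [ValuationSubring.mem_comap, map_inv₀, map_natCast]
    exact s18x_natCast_inv_mem A hℓ hA m hm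
  exact s48d_kummer_core A m hm0 (algebraMap ↥L₀ K) (𝓕 L₀) F (hincl L₀ hL) hmA ϖ hϖ hFrac hconst t
    hgeoG restrict hsurj hord Y1 Y2 h1 h2 x1 x2 hx1 hx2 hρ hρ0 hdivP

end Fermat.Agent.Lib.S48
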