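/-
DS-1 (S48), wall [T7-D] (helper7, prefix `s48d_`): **Theorem X for a base-changed `ℚ`-model**
`F = laurentBaseChange ℚ̄ F₀`, `F₀ : IntermediateField ℚ ℚ((q))` ARBITRARY (e.g. helper4's `s48k_FHQ M H`):
the level system `L₀ ↦ laurentBaseChange L₀ F₀` satisfies all descent hypotheses of `s48d_kummerTrivial` by the
landed generic [Q]-package of S18 (`QBase`, `QDvr`, `QPlace`, helper9), so only TWO inputs remain:
* `hconst` : functions of `F` without zeros are constant (e.g. `s18e_const_of_no_zero` from an `FFGen`);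
* `hgeo`   : the geometric inputs `s18_GeoInputs` for the Gauss ring of `laurentBaseChange L₀ F₀` at every number
  field `L₀ ⊆ ℚ̄`.
-/
import Fermat.Agent.Lib.S48.DTop
import Fermat.Agent.Lib.S18.QPlace
import Fermat.Agent.Lib.S18.QDvr

set_option autoImplicit false
set_option linter.unusedSectionVars false
set_option linter.style.haveILetI false

noncomputable section

namespace Fermat.Agent.Lib.S48

open AlgebraicCurve ModularCurve HahnSeries Fermat.Agent.Lib.FF Fermat.Agent.Lib.S18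

local notation "Qbar" => AlgebraicClosure ℚ

set_option synthInstance.maxHeartbeats 400000 in
theorem s48d_kummerTrivial_baseChange (F₀ : IntermediateField ℚ (LaurentSeries ℚ))
    (A : ValuationSubring Qbar) {ℓ : ℕ} [Fact ℓ.Prime] (hA : A.LiesOverPrime ℓ) (m : ℕ)
    (hm : ¬ ℓ ∣ m)
    (Fb : IntermediateField (IsLocalRing.ResidueField A) (LaurentSeries (IsLocalRing.ResidueField A)))
    (hconst : ∀ g : ↥(laurentBaseChange Qbar F₀),
      (∀ P : Place Qbar ↥(laurentBaseChange Qbar F₀), P.ord g ≤ 0) →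
        ∃ c : Qbar, g = algebraMap Qbar ↥(laurentBaseChange Qbar F₀) c)
    (hgeo : ∀ (L₀ : IntermediateField ℚ Qbar) (_ : FiniteDimensional ℚ L₀)
      [IsDiscreteValuationRing ↥(A.comap (algebraMap ↥L₀ Qbar))]
      (ϖ : ↥(A.comap (algebraMap ↥L₀ Qbar))) (hϖ : Irreducible ϖ),
      ∃ (hFrac : ∀ f ∈ laurentBaseChange ↥L₀ F₀,
          f ∈ s18g_Frac (s18g_GaussData.ofResidue (A.comap (algebraMap ↥L₀ Qbar)) ϖ hϖ))
        (t : ↥(laurentBaseChange ↥L₀ F₀)),
        s18_GeoInputs (s18g_GaussData.ofResidue (A.comap (algebraMap ↥L₀ Qbar)) ϖ hϖ).A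
          (s18g_V (s18g_GaussData.ofResidue (A.comap (algebraMap ↥L₀ Qbar)) ϖ hϖ)
            (laurentBaseChange ↥L₀ F₀) hFrac)
          (s48d_const_mem_V (s18g_GaussData.ofResidue (A.comap (algebraMap ↥L₀ Qbar)) ϖ hϖ)
            (laurentBaseChange ↥L₀ F₀) hFrac)
          (s18g_GaussData.ofResidue (A.comap (algebraMap ↥L₀ Qbar)) ϖ hϖ).ϖ t m) :
    s48d_KummerTrivial A (IsLocalRing.residue A) (laurentBaseChange Qbar F₀) Fb m := by
  classical
  have hℓ : ℓ.Prime := Fact.out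
  refine s48d_kummerTrivial A hℓ hA m hm (laurentBaseChange Qbar F₀) Fb
    (fun L₀ => FiniteDimensional ℚ L₀) (fun L₀ => laurentBaseChange ↥L₀ F₀)
    (fun L₀ _ x hx => s18q_coeffMap_mem _ hx) ?_ ?_ ?_ hconst hgeo
  · intro a b
    haveI := s18q_isAlgebraic_bar
    obtain ⟨L₀, hfd, hs⟩ := s18q_exists_field_gen (K := Qbar) (F₀ := F₀) {a, b}
    obtain ⟨x1, hx1⟩ := hs a (by simp)
    obtain ⟨x2, hx2⟩ := hs b (by simp)
    exact ⟨L₀, hfd, x1, x2, hx1, hx2⟩
  · intro L₀ hfd
    haveI := hfd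
    exact s18q_A0_dvr A L₀ hA
  · intro L₀ hfd
    haveI := s18q_isAlgebraic_over L₀
    exact ⟨s18q_restrictGen ↥L₀ F₀, s18q_restrictGen_surjective ↥L₀ F₀,
      fun P f => s18q_ord_restrictGen ↥L₀ F₀ P f⟩

set_option synthInstance.maxHeartbeats 400000 in
/-- **Torsion injectivity of the reduction for a base-changed `ℚ`-model** (port of S18's final assembly): a place
reduction `r` with conservation (`s48e_IsPlaceRed`), Gauss generation of principal divisors, lifting of `Fb`,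
constants of `Fb` and of `F`, and the geometric inputs at all finite levels ⇒ `s48e_redPic0` is injective on the
`m`-torsion of `Pic⁰(F)`, `ℓ ∤ m`. -/
theorem s48d_torsion_injective_baseChange (F₀ : IntermediateField ℚ (LaurentSeries ℚ))
    (A : ValuationSubring Qbar) {ℓ : ℕ} [Fact ℓ.Prime] (hA : A.LiesOverPrime ℓ) (m : ℕ)
    (hm : ¬ ℓ ∣ m)
    (Fb : IntermediateField (IsLocalRing.ResidueField A) (LaurentSeries (IsLocalRing.ResidueField A)))
    {r : Place Qbar ↥(laurentBaseChange Qbar F₀) → Place (IsLocalRing.ResidueField A) ↥Fb}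
    (hr : s48e_IsPlaceRed A (IsLocalRing.residue A) (laurentBaseChange Qbar F₀) Fb r)
    (hgen : s48e_PrinGen A (IsLocalRing.residue A) (laurentBaseChange Qbar F₀) Fb)
    (hlift : s48d_LiftDiv A (IsLocalRing.residue A) (laurentBaseChange Qbar F₀) Fb)
    (hC : s48d_ConstFb Fb)
    (hconst : ∀ g : ↥(laurentBaseChange Qbar F₀),
      (∀ P : Place Qbar ↥(laurentBaseChange Qbar F₀), P.ord g ≤ 0) →
        ∃ c : Qbar, g = algebraMap Qbar ↥(laurentBaseChange Qbar F₀) c)
    (hgeo : ∀ (L₀ : IntermediateField ℚ Qbar) (_ : FiniteDimensional ℚ L₀)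
      [IsDiscreteValuationRing ↥(A.comap (algebraMap ↥L₀ Qbar))]
      (ϖ : ↥(A.comap (algebraMap ↥L₀ Qbar))) (hϖ : Irreducible ϖ),
      ∃ (hFrac : ∀ f ∈ laurentBaseChange ↥L₀ F₀,
          f ∈ s18g_Frac (s18g_GaussData.ofResidue (A.comap (algebraMap ↥L₀ Qbar)) ϖ hϖ))
        (t : ↥(laurentBaseChange ↥L₀ F₀)),
        s18_GeoInputs (s18g_GaussData.ofResidue (A.comap (algebraMap ↥L₀ Qbar)) ϖ hϖ).A
          (s18g_V (s18g_GaussData.ofResidue (A.comap (algebraMap ↥L₀ Qbar)) ϖ hϖ)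
            (laurentBaseChange ↥L₀ F₀) hFrac)
          (s48d_const_mem_V (s18g_GaussData.ofResidue (A.comap (algebraMap ↥L₀ Qbar)) ϖ hϖ)
            (laurentBaseChange ↥L₀ F₀) hFrac)
          (s18g_GaussData.ofResidue (A.comap (algebraMap ↥L₀ Qbar)) ϖ hϖ).ϖ t m)
    (z : Pic0 Qbar ↥(laurentBaseChange Qbar F₀)) (hmz : m • z = 0)
    (hz : s48e_redPic0 r hr hgen z = 0) : z = 0 := by
  have hℓ : ℓ.Prime := Fact.out
  have hm0 : m ≠ 0 := by
    rintro rfl
    exact hm (dvd_zero ℓ)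
  exact s48d_main IsLocalRing.residue_surjective hr hgen hlift m hm0
    (s48d_kummerTrivial_baseChange F₀ A hA m hm Fb hconst hgeo) hC z hmz hz

end Fermat.Agent.Lib.S48
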