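/-
DS-1 (S48), wall [T7-D] (helper7, prefix `s48d_`): the COFINAL variants of `DBase.lean` (requested by helper6, #2392):
the geometric inputs `hgeo` are only required at the number fields `L₀ ⊇ L_min` for a fixed number field `L_min`
(e.g. `L_min ∋ ζ_{φ(M)}` and the constants of the étale data, over which the layer `F_H/F₀(M)` is a Kummer tower).

* `s48d_kummerTrivial_baseChange_min`, `s48d_torsion_injective_baseChange_min`.
-/
import Fermat.Agent.Lib.S48.DBase

set_option autoImplicit false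
set_option linter.unusedSectionVars false
set_option linter.style.haveILetI false

noncomputable section

namespace Fermat.Agent.Lib.S48

open AlgebraicCurve ModularCurve HahnSeries Fermat.Agent.Lib.FF Fermat.Agent.Lib.S18

local notation "Qbar" => AlgebraicClosure ℚ

set_option synthInstance.maxHeartbeats 400000 in
/-- **Theorem X for a base-changed `ℚ`-model, cofinal levels.** -/
theorem s48d_kummerTrivial_baseChange_min (F₀ : IntermediateField ℚ (LaurentSeries ℚ))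
    (A : ValuationSubring Qbar) {ℓ : ℕ} [Fact ℓ.Prime] (hA : A.LiesOverPrime ℓ) (m : ℕ)
    (hm : ¬ ℓ ∣ m)
    (Fb : IntermediateField (IsLocalRing.ResidueField A) (LaurentSeries (IsLocalRing.ResidueField A)))
    (hconst : ∀ g : ↥(laurentBaseChange Qbar F₀),
      (∀ P : Place Qbar ↥(laurentBaseChange Qbar F₀), P.ord g ≤ 0) →
        ∃ c : Qbar, g = algebraMap Qbar ↥(laurentBaseChange Qbar F₀) c)
    (Lmin : IntermediateField ℚ Qbar) [FiniteDimensional ℚ Lmin]
    (hgeo : ∀ (L₀ : IntermediateField ℚ Qbar) (_ : FiniteDimensional ℚ L₀ ∧ Lmin ≤ L₀)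
      [IsDiscreteValuationRing ↥(A.comap (algebraMap ↥L₀ Qbar))]
      (ϖ : ↥(A.comap (algebraMap ↥L₀ Qbar))) (hϖ : Irreducible ϖ),
      ∃ (hFrac : ∀ f ∈ laurentBaseChange ↥L₀ F₀,
          f ∈ s18g_Frac (s18g_GaussData.ofResidue (A.comap (algebraMap ↥L₀ Qbar)) ϖ hϖ))
        (t : ↥(laurentBaseChange ↥L₀ F₀)),
        s18_GeoInputs (s18g_GaussData.ofResidue (A.comap (algebraMap ↥L₀ Qbar)) ϖ hϖ).A
          (s18g_V (s18g_GaussData.ofResidue (A.comap (algebraMap ↥L₀ Qbar)) ϖ hϖ)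
            (laurentBaseChange ↥L₀ F₀) hFrac)
          (s48d_const_mem_V (s18g_GaussData.ofResidue (A.comap (algebraMap ↥L₀ Qbar)) ϖ hϖ)
            (laurentBaseChange ↥L₀ F₀) hFrac)
          (s18g_GaussData.ofResidue (A.comap (algebraMap ↥L₀ Qbar)) ϖ hϖ).ϖ t m) :
    s48d_KummerTrivial A (IsLocalRing.residue A) (laurentBaseChange Qbar F₀) Fb m := by
  classical
  have hℓ : ℓ.Prime := Fact.out
  refine s48d_kummerTrivial A hℓ hA m hm (laurentBaseChange Qbar F₀) Fb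
    (fun L₀ => FiniteDimensional ℚ L₀ ∧ Lmin ≤ L₀) (fun L₀ => laurentBaseChange ↥L₀ F₀)
    (fun L₀ _ x hx => s18q_coeffMap_mem _ hx) ?_ ?_ ?_ hconst hgeo
  · intro a b
    haveI := s18q_isAlgebraic_bar
    obtain ⟨L₁, hfd, hs⟩ := s18q_exists_field_gen (K := Qbar) (F₀ := F₀) {a, b}
    haveI := hfd
    have ha := s18q_defOver_mono (le_sup_left : L₁ ≤ L₁ ⊔ Lmin)
      ((s18q_defOver_range a).mpr (hs a (by simp)))
    have hb := s18q_defOver_mono (le_sup_left : L₁ ≤ L₁ ⊔ Lmin)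
      ((s18q_defOver_range b).mpr (hs b (by simp)))
    obtain ⟨x1, hx1⟩ := (s18q_defOver_range a).mp ha
    obtain ⟨x2, hx2⟩ := (s18q_defOver_range b).mp hb
    exact ⟨L₁ ⊔ Lmin, ⟨inferInstance, le_sup_right⟩, x1, x2, hx1, hx2⟩
  · intro L₀ hL
    haveI := hL.1
    exact s18q_A0_dvr A L₀ hA
  · intro L₀ hL
    haveI := s18q_isAlgebraic_over L₀
    exact ⟨s18q_restrictGen ↥L₀ F₀, s18q_restrictGen_surjective ↥L₀ F₀,
      fun P f => s18q_ord_restrictGen ↥L₀ F₀ P f⟩

set_option synthInstance.maxHeartbeats 400000 in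
/-- **Torsion injectivity of the reduction for a base-changed `ℚ`-model, cofinal levels.** -/
theorem s48d_torsion_injective_baseChange_min (F₀ : IntermediateField ℚ (LaurentSeries ℚ))
    (A : ValuationSubring Qbar) {ℓ : ℕ} [Fact ℓ.Prime] (hA : A.LiesOverPrime ℓ) (m : ℕ)
    (hm : ¬ ℓ ∣ m)
    (Fb : IntermediateField (IsLocalRing.ResidueField A) (LaurentSeries (IsLocalRing.ResidueField A)))
    {r : Place Qbar ↥(laurentBaseChange Qbar F₀) → Place (IsLocalRing.ResidueField A) ↥Fb}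
    (hr : s48e_IsPlaceRed A (IsLocalRing.residue A) (laurentBaseChange Qbar F₀) Fb r)
    (hgen : s48e_PrinGen A (IsLocalRing.residue A) (laurentBaseChange Qbar F₀) Fb)
    (hlift : s48d_LiftDiv A (IsLocalRing.residue A) (laurentBaseChange Qbar F₀) Fb)
    (hC : s48d_ConstFb Fb)
    (hconst : ∀ g : ↥(laurentBaseChange Qbar F₀),
      (∀ P : Place Qbar ↥(laurentBaseChange Qbar F₀), P.ord g ≤ 0) →
        ∃ c : Qbar, g = algebraMap Qbar ↥(laurentBaseChange Qbar F₀) c)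
    (Lmin : IntermediateField ℚ Qbar) [FiniteDimensional ℚ Lmin]
    (hgeo : ∀ (L₀ : IntermediateField ℚ Qbar) (_ : FiniteDimensional ℚ L₀ ∧ Lmin ≤ L₀)
      [IsDiscreteValuationRing ↥(A.comap (algebraMap ↥L₀ Qbar))]
      (ϖ : ↥(A.comap (algebraMap ↥L₀ Qbar))) (hϖ : Irreducible ϖ),
      ∃ (hFrac : ∀ f ∈ laurentBaseChange ↥L₀ F₀,
          f ∈ s18g_Frac (s18g_GaussData.ofResidue (A.comap (algebraMap ↥L₀ Qbar)) ϖ hϖ))
        (t : ↥(laurentBaseChange ↥L₀ F₀)),
        s18_GeoInputs (s18g_GaussData.ofResidue (A.comap (algebraMap ↥L₀ Qbar)) ϖ hϖ).A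
          (s18g_V (s18g_GaussData.ofResidue (A.comap (algebraMap ↥L₀ Qbar)) ϖ hϖ)
            (laurentBaseChange ↥L₀ F₀) hFrac)
          (s48d_const_mem_V (s18g_GaussData.ofResidue (A.comap (algebraMap ↥L₀ Qbar)) ϖ hϖ)
            (laurentBaseChange ↥L₀ F₀) hFrac)
          (s18g_GaussData.ofResidue (A.comap (algebraMap ↥L₀ Qbar)) ϖ hϖ).ϖ t m)
    (z : Pic0 Qbar ↥(laurentBaseChange Qbar F₀)) (hmz : m • z = 0)
    (hz : s48e_redPic0 r hr hgen z = 0) : z = 0 := by
  have hm0 : m ≠ 0 := by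
    rintro rfl
    exact hm (dvd_zero ℓ)
  exact s48d_main IsLocalRing.residue_surjective hr hgen hlift m hm0
    (s48d_kummerTrivial_baseChange_min F₀ A hA m hm Fb hconst Lmin hgeo) hC z hmz hz

end Fermat.Agent.Lib.S48
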