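/-
DS-1 (S48), wall [T7] (helper7, prefix `s48d_q`): **the q-model package** of a function field `F ⊆ L((q))` with special
fibre `Fb ⊆ κ((q))`, relative to a valuation subring `A ⊆ L` with residue map `π : A →+* κ`.

The landed generic Gauss ring `s37r_O A π ≤ L((q))` (quotients of `A`-integral series with denominator of non-zero
reduction) and its reduction `s37r_red A π` (Lib/S37/RGauss) give

* `s48d_QPack A π F Fb` : (val) every function or its inverse is Gauss-integral; (pres) every Gauss-integral function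
  is a quotient of two integral series of `F` with reductions in `Fb` (denominator of non-zero reduction); (surj) the
  reduction is onto `Fb`; (scale) every non-zero function is a constant times a Gauss unit;
* `s48d_qO Q : ValuationSubring F`, `s48d_qRed Q : qO →+* Fb` (the top-level Gauss ring and reduction);
* `s48d_q_liftDiv : s48d_LiftDiv A π F Fb` and `s48d_q_prinGen : s48e_PrinGen A π F Fb`.
-/
import Fermat.Agent.Lib.S37.RGauss
import Fermat.Agent.Lib.S48.DMain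

set_option autoImplicit false
set_option linter.unusedSectionVars false

noncomputable section

namespace Fermat.Agent.Lib.S48

open ModularCurve HahnSeries AlgebraicCurve IntermediateField Fermat.Agent.Lib.S37 Fermat.Agent.Lib.FF

variable {L : Type*} [Field L] (A : ValuationSubring L) {κ : Type*} [Field κ] (π : ↥A →+* κ)
  (F : IntermediateField L (LaurentSeries L)) (Fb : IntermediateField κ (LaurentSeries κ))

/-- **the q-model package.** -/
structure s48d_QPack : Prop where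
  /-- every function or its inverse is Gauss-integral. -/
  val : ∀ f : ↥F, (f : LaurentSeries L) ∈ s37r_O A π ∨ ((f⁻¹ : ↥F) : LaurentSeries L) ∈ s37r_O A π
  /-- presentation of Gauss-integral functions by integral series of `F` reducing into `Fb`. -/
  pres : ∀ f : ↥F, (f : LaurentSeries L) ∈ s37r_O A π → ∃ Y₁ Y₂ : LaurentSeries ↥A,
    coeffMap A.subtype Y₁ ∈ F ∧ coeffMap A.subtype Y₂ ∈ F ∧ coeffMap π Y₁ ∈ Fb ∧ coeffMap π Y₂ ∈ Fb ∧
      coeffMap π Y₂ ≠ 0 ∧ coeffMap A.subtype Y₂ * (f : LaurentSeries L) = coeffMap A.subtype Y₁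
  /-- the reduction is onto `Fb`. -/
  surj : ∀ g : ↥Fb, ∃ (f : ↥F) (hO : (f : LaurentSeries L) ∈ s37r_O A π),
    s37r_red A π ⟨(f : LaurentSeries L), hO⟩ = (g : LaurentSeries κ)
  /-- every non-zero function is a constant times a Gauss unit. -/
  scale : ∀ f : ↥F, f ≠ 0 → ∃ c : L, c ≠ 0 ∧
    ∃ hO : ((algebraMap L ↥F c * f : ↥F) : LaurentSeries L) ∈ s37r_O A π,
      s37r_red A π ⟨((algebraMap L ↥F c * f : ↥F) : LaurentSeries L), hO⟩ ≠ 0

variable {A π F Fb}

/-- **the top-level Gauss valuation subring** of `F`. -/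
def s48d_qO (Q : s48d_QPack A π F Fb) : ValuationSubring ↥F where
  carrier := {f | (f : LaurentSeries L) ∈ s37r_O A π}
  mul_mem' := fun {a b} ha hb => by
    show ((a * b : ↥F) : LaurentSeries L) ∈ s37r_O A π
    rw [MulMemClass.coe_mul]
    exact (s37r_O A π).mul_mem ha hb
  one_mem' := by
    show ((1 : ↥F) : LaurentSeries L) ∈ s37r_O A π
    rw [OneMemClass.coe_one]
    exact (s37r_O A π).one_mem
  add_mem' := fun {a b} ha hb => by
    show ((a + b : ↥F) : LaurentSeries L) ∈ s37r_O A π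
    rw [AddMemClass.coe_add]
    exact (s37r_O A π).add_mem ha hb
  zero_mem' := by
    show ((0 : ↥F) : LaurentSeries L) ∈ s37r_O A π
    rw [ZeroMemClass.coe_zero]
    exact (s37r_O A π).zero_mem
  neg_mem' := fun {a} ha => by
    show ((-a : ↥F) : LaurentSeries L) ∈ s37r_O A π
    rw [NegMemClass.coe_neg]
    exact (s37r_O A π).neg_mem ha
  mem_or_inv_mem' := Q.val

theorem s48d_q_mem_O_iff (Q : s48d_QPack A π F Fb) (f : ↥F) :
    f ∈ s48d_qO Q ↔ (f : LaurentSeries L) ∈ s37r_O A π := Iff.rfl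

/-- the inclusion `qO → s37r_O`. -/
def s48d_qOtoO (Q : s48d_QPack A π F Fb) : ↥(s48d_qO Q) →+* ↥(s37r_O A π) where
  toFun f := ⟨((f : ↥F) : LaurentSeries L), f.2⟩
  map_one' := rfl
  map_mul' _ _ := rfl
  map_zero' := rfl
  map_add' _ _ := rfl

/-- the reduction `qO →+* κ((q))`. -/
def s48d_qRedV (Q : s48d_QPack A π F Fb) : ↥(s48d_qO Q) →+* LaurentSeries κ :=
  (s37r_red A π).comp (s48d_qOtoO Q)

theorem s48d_qRedV_eq (Q : s48d_QPack A π F Fb) (f : ↥(s48d_qO Q)) (Y₁ Y₂ : LaurentSeries ↥A)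
    (h2 : coeffMap π Y₂ ≠ 0)
    (h : coeffMap A.subtype Y₂ * ((f : ↥F) : LaurentSeries L) = coeffMap A.subtype Y₁) :
    s48d_qRedV Q f = coeffMap π Y₁ / coeffMap π Y₂ :=
  s37r_red_eq A π _ Y₁ Y₂ h2 h

theorem s48d_qRedV_mem (Q : s48d_QPack A π F Fb) (f : ↥(s48d_qO Q)) : s48d_qRedV Q f ∈ Fb := by
  obtain ⟨Y₁, Y₂, -, -, h1k, h2k, h2ne, hrel⟩ := Q.pres (f : ↥F) f.2
  rw [s48d_qRedV_eq Q f Y₁ Y₂ h2ne hrel]
  exact div_mem h1k h2k

/-- **the top-level reduction** `qRed : qO →+* Fb`. -/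
def s48d_qRed (Q : s48d_QPack A π F Fb) : ↥(s48d_qO Q) →+* ↥Fb :=
  (s48d_qRedV Q).codRestrict Fb (s48d_qRedV_mem Q)

@[simp] theorem s48d_coe_qRed (Q : s48d_QPack A π F Fb) (f : ↥(s48d_qO Q)) :
    ((s48d_qRed Q f : ↥Fb) : LaurentSeries κ) = s48d_qRedV Q f := rfl

/-- integral series of `F` are in `qO`, … -/
theorem s48d_q_iota_mem (Q : s48d_QPack A π F Fb) (Y : LaurentSeries ↥A)
    (hY : coeffMap A.subtype Y ∈ F) : (⟨coeffMap A.subtype Y, hY⟩ : ↥F) ∈ s48d_qO Q :=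
  s37r_iota_mem_O A π Y

/-- … with the expected reduction. -/
theorem s48d_qRedV_iota (Q : s48d_QPack A π F Fb) (Y : LaurentSeries ↥A)
    (hY : coeffMap A.subtype Y ∈ F) :
    s48d_qRedV Q ⟨⟨coeffMap A.subtype Y, hY⟩, s48d_q_iota_mem Q Y hY⟩ = coeffMap π Y :=
  s37r_red_iota A π Y

theorem s48d_qRed_surjective (Q : s48d_QPack A π F Fb) : Function.Surjective (s48d_qRed Q) := by
  intro g
  obtain ⟨f, hO, hf⟩ := Q.surj g
  exact ⟨⟨f, hO⟩, Subtype.ext hf⟩

/-- `ker qRed` is the maximal ideal of `qO`. -/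
theorem s48d_q_inv_mem (Q : s48d_QPack A π F Fb) (y : ↥(s48d_qO Q)) (hy : s48d_qRed Q y ≠ 0) :
    ((y : ↥F))⁻¹ ∈ s48d_qO Q := by
  obtain ⟨Y₁, Y₂, h1, h2, -, -, h2ne, hrel⟩ := Q.pres (y : ↥F) y.2
  have hyV : s48d_qRedV Q y ≠ 0 := fun h0 => hy (Subtype.ext h0)
  rw [s48d_qRedV_eq Q y Y₁ Y₂ h2ne hrel] at hyV
  have h1ne : coeffMap π Y₁ ≠ 0 := fun h0 => hyV (by rw [h0, zero_div])
  have hy0 : ((y : ↥F) : LaurentSeries L) ≠ 0 := by
    intro h0
    rw [h0, mul_zero] at hrel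
    apply h1ne
    have : Y₁ = 0 := s37r_iota_injective A (by rw [← hrel, map_zero])
    rw [this, map_zero]
  show (((y : ↥F)⁻¹ : ↥F) : LaurentSeries L) ∈ s37r_O A π
  refine ⟨Y₂, Y₁, h1ne, ?_⟩
  rw [← hrel]
  push_cast
  field_simp

/-- **(lift)**: every element of `Fb` is a quotient of reductions of integral series of `F`. -/
theorem s48d_q_liftDiv (Q : s48d_QPack A π F Fb) : s48d_LiftDiv A π F Fb := by
  intro g hg
  obtain ⟨f, hO, hf⟩ := Q.surj ⟨g, hg⟩
  obtain ⟨Y₁, Y₂, h1, h2, h1k, h2k, h2ne, hrel⟩ := Q.pres f hO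
  refine ⟨Y₁, Y₂, h1, h2, h1k, h2k, ?_⟩
  rw [← s37r_red_eq A π ⟨(f : LaurentSeries L), hO⟩ Y₁ Y₂ h2ne hrel]
  exact hf.symm

/-- **(hgen)**: principal divisors are generated by divisors of Gauss units which are integral series. -/
theorem s48d_q_prinGen (Q : s48d_QPack A π F Fb)
    (hfin : ∀ y : ↥F, y ≠ 0 → {P : Place L ↥F | P.ord y ≠ 0}.Finite) :
    s48e_PrinGen A π F Fb := by
  classical
  intro D hD
  obtain ⟨f, hf, hDf⟩ := hD
  obtain ⟨c, hc, hO, hred⟩ := Q.scale f hf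
  set u : ↥F := algebraMap L ↥F c * f with hu
  obtain ⟨Y₁, Y₂, h1, h2, h1k, h2k, h2ne, hrel⟩ := Q.pres u hO
  have hredu : s37r_red A π ⟨(u : LaurentSeries L), hO⟩ = coeffMap π Y₁ / coeffMap π Y₂ :=
    s37r_red_eq A π _ Y₁ Y₂ h2ne hrel
  have h1ne : coeffMap π Y₁ ≠ 0 := by
    intro h0
    apply hred
    rw [hredu, h0, zero_div]
  set y1 : ↥F := ⟨coeffMap A.subtype Y₁, h1⟩ with hy1
  set y2 : ↥F := ⟨coeffMap A.subtype Y₂, h2⟩ with hy2
  have hy1ne : y1 ≠ 0 := by
    intro h0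
    apply h1ne
    have h0' : coeffMap A.subtype Y₁ = 0 := congrArg Subtype.val h0
    have : Y₁ = 0 := s37r_iota_injective A (by rw [h0', map_zero])
    rw [this, map_zero]
  have hy2ne : y2 ≠ 0 := by
    intro h0
    apply h2ne
    have h0' : coeffMap A.subtype Y₂ = 0 := congrArg Subtype.val h0
    have : Y₂ = 0 := s37r_iota_injective A (by rw [h0', map_zero])
    rw [this, map_zero]
  have hrelF : y2 * (algebraMap L ↥F c * f) = y1 := Subtype.ext hrel
  have hc0 : algebraMap L ↥F c ≠ 0 := by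
    rw [Ne, map_eq_zero]
    exact hc
  have hord : ∀ P : Place L ↥F, P.ord f = P.ord y1 - P.ord y2 := by
    intro P
    have h := congrArg P.ord hrelF
    rw [P.ord_mul hy2ne (mul_ne_zero hc0 hf), P.ord_mul hc0 hf, ff_ord_algebraMap, zero_add] at h
    omega
  set D1 : Divisor L ↥F := Finsupp.ofSupportFinite (fun P => P.ord y1) (hfin y1 hy1ne) with hD1
  set D2 : Divisor L ↥F := Finsupp.ofSupportFinite (fun P => P.ord y2) (hfin y2 hy2ne) with hD2
  have hDD : D = D1 - D2 := Finsupp.ext fun P => by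
    rw [hDf, Finsupp.sub_apply, hord]
    rfl
  have hmem1 : D1 ∈ s48e_intPrin A π F Fb := ⟨Y₁, h1, h1k, h1ne, fun P => rfl⟩
  have hmem2 : D2 ∈ s48e_intPrin A π F Fb := ⟨Y₂, h2, h2k, h2ne, fun P => rfl⟩
  rw [hDD]
  exact AddSubgroup.sub_mem _ (AddSubgroup.subset_closure hmem1) (AddSubgroup.subset_closure hmem2)

end Fermat.Agent.Lib.S48
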