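/-
DS-1 (S48), wall [T7] (helper7, prefix `s48d_q`): **irreducibility of the reduced Kummer polynomial from Theorem X**
(the field `indep` of helper6's `s48g_LayerData` for a tame Kummer layer `tⁿ = h`, `n` prime).

* `s48d_q_exists_root` : `s48d_KummerTrivial A π F Fb n` + the q-model package: a Gauss unit `h ∈ F` with `n ∣ div h`
  whose reduction is an `n`-th power in `Fb` is an `n`-th power in `F`;
* `s48d_q_not_pow`     : hence if `tⁿ = h` with `t ∉ F` (in some extension), `red h` is not an `n`-th power in `Fb`;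
* `s48d_q_linearIndependent_pow` : for `n` prime, `a ∈ K` not an `n`-th power and `τⁿ = a`, the powers `1, τ, …, τ^(n-1)`
  are linearly independent over `K` (Mathlib's `X_pow_sub_C_irreducible_of_prime`).
-/
import Fermat.Agent.Lib.S48.DQDefs
import Fermat.Agent.Lib.FF.FFBasicResidue

set_option autoImplicit false
set_option linter.unusedSectionVars false
set_option linter.style.haveILetI false

noncomputable section

namespace Fermat.Agent.Lib.S48

open ModularCurve HahnSeries AlgebraicCurve IntermediateField Polynomial Fermat.Agent.Lib.S37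
  Fermat.Agent.Lib.FF

/-- for `n` prime, `a` not an `n`-th power in `K` and `τ ^ n = a`, the powers `τ^i`, `i < n`, are linearly
independent over `K`. -/
theorem s48d_q_linearIndependent_pow {K E : Type*} [Field K] [Field E] [Algebra K E] {n : ℕ}
    (hn : n.Prime) {a : K} (ha : ∀ b : K, b ^ n ≠ a) (τ : E) (hτ : τ ^ n = algebraMap K E a) :
    LinearIndependent K (fun i : Fin n => τ ^ (i : ℕ)) := by
  have hirr : Irreducible (X ^ n - Polynomial.C a : K[X]) := X_pow_sub_C_irreducible_of_prime hn ha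
  have hmonic : (X ^ n - Polynomial.C a : K[X]).Monic := monic_X_pow_sub_C a hn.ne_zero
  have hroot : aeval τ (X ^ n - Polynomial.C a : K[X]) = 0 := by
    rw [map_sub, map_pow, aeval_X, aeval_C, hτ, sub_self]
  have hmin : minpoly K τ = X ^ n - Polynomial.C a := (minpoly.eq_of_irreducible_of_monic hirr hroot hmonic).symm
  have hdeg : (minpoly K τ).natDegree = n := by
    rw [hmin, natDegree_X_pow_sub_C]
  have h := linearIndependent_pow (K := K) τ
  rw [linearIndependent_iff'] at h ⊢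
  intro s g hg i hi
  have := h (s.map (finCongr hdeg.symm).toEmbedding) (fun j => g (finCongr hdeg j)) (by
    rw [Finset.sum_map]
    simpa using hg) (finCongr hdeg.symm i) (by simpa using hi)
  simpa using this

variable {L : Type*} [Field L] {A : ValuationSubring L} {κ : Type*} [Field κ] {π : ↥A →+* κ}
  {F : IntermediateField L (LaurentSeries L)} {Fb : IntermediateField κ (LaurentSeries κ)}

/-- **a Gauss unit whose divisor is divisible by `n` and whose reduction is an `n`-th power is an `n`-th power**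
(Theorem X for `(F, n)`). -/
theorem s48d_q_exists_root [IsAlgClosed L] (Q : s48d_QPack A π F Fb) {n : ℕ} (hn : 0 < n)
    (hX : s48d_KummerTrivial A π F Fb n) (h : ↥F) (hhO : h ∈ s48d_qO Q)
    (hdiv : ∀ P : Place L ↥F, (n : ℤ) ∣ P.ord h)
    (gb : ↥Fb) (hgb : gb ^ n = s48d_qRed Q ⟨h, hhO⟩) (hgb0 : gb ≠ 0) :
    ∃ g : ↥F, g ^ n = h := by
  -- presentations
  obtain ⟨H₁, H₂, hH1, hH2, hH1k, hH2k, hH2ne, hHrel⟩ := Q.pres h hhO
  obtain ⟨G₁, G₂, hG1, hG2, hG1k, hG2k, hGeq⟩ := s48d_q_liftDiv Q (gb : LaurentSeries κ) gb.2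
  have hgb0' : (gb : LaurentSeries κ) ≠ 0 := fun h0 => hgb0 (Subtype.ext h0)
  have hG2ne : coeffMap π G₂ ≠ 0 := by
    intro h0
    rw [h0, div_zero] at hGeq
    exact hgb0' hGeq
  have hG1ne : coeffMap π G₁ ≠ 0 := by
    intro h0
    rw [h0, zero_div] at hGeq
    exact hgb0' hGeq
  have hredh : s48d_qRedV Q ⟨h, hhO⟩ = coeffMap π H₁ / coeffMap π H₂ :=
    s48d_qRedV_eq Q ⟨h, hhO⟩ H₁ H₂ hH2ne hHrel
  have hgbV : (gb : LaurentSeries κ) ^ n = coeffMap π H₁ / coeffMap π H₂ := by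
    rw [← hredh, ← s48d_coe_qRed, ← hgb]
    rfl
  -- the two integral series
  set Y1 : LaurentSeries ↥A := H₁ * G₂ ^ n with hY1
  set Y2 : LaurentSeries ↥A := H₂ * G₁ ^ n with hY2
  have h1 : coeffMap A.subtype Y1 ∈ F := by
    rw [hY1, map_mul, map_pow]; exact mul_mem hH1 (pow_mem hG2 n)
  have h2 : coeffMap A.subtype Y2 ∈ F := by
    rw [hY2, map_mul, map_pow]; exact mul_mem hH2 (pow_mem hG1 n)
  have h1k : coeffMap π Y1 ∈ Fb := by
    rw [hY1, map_mul, map_pow]; exact mul_mem hH1k (pow_mem hG2k n)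
  have hρ : coeffMap π Y1 = coeffMap π Y2 := by
    rw [hY1, hY2, map_mul, map_mul, map_pow, map_pow]
    have e : coeffMap π H₁ = (gb : LaurentSeries κ) ^ n * coeffMap π H₂ := by
      rw [hgbV, div_mul_cancel₀ _ hH2ne]
    rw [e, hGeq, div_pow]
    field_simp
  have hH1ne : coeffMap π H₁ ≠ 0 := by
    intro h0
    rw [h0, zero_div] at hgbV
    exact hgb0' (pow_eq_zero_iff hn.ne' |>.mp hgbV)
  have hρ0 : coeffMap π Y1 ≠ 0 := by
    rw [hY1, map_mul, map_pow]
    exact mul_ne_zero hH1ne (pow_ne_zero n hG2ne)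
  -- nonvanishing upstairs
  have hne : ∀ Y : LaurentSeries ↥A, coeffMap π Y ≠ 0 → coeffMap A.subtype Y ≠ 0 := by
    intro Y hY h0
    apply hY
    have : Y = 0 := s37r_iota_injective A (by rw [h0, map_zero])
    rw [this, map_zero]
  set g1 : ↥F := ⟨coeffMap A.subtype G₁, hG1⟩ with hg1
  set g2 : ↥F := ⟨coeffMap A.subtype G₂, hG2⟩ with hg2
  set e2 : ↥F := ⟨coeffMap A.subtype H₂, hH2⟩ with he2
  have hg1ne : g1 ≠ 0 := fun h0 => hne G₁ hG1ne (congrArg Subtype.val h0)
  have hg2ne : g2 ≠ 0 := fun h0 => hne G₂ hG2ne (congrArg Subtype.val h0)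
  have he2ne : e2 ≠ 0 := fun h0 => hne H₂ hH2ne (congrArg Subtype.val h0)
  have hh0 : h ≠ 0 := by
    rintro rfl
    apply hH1ne
    have : coeffMap A.subtype H₁ = 0 := by rw [← hHrel]; simp
    have : H₁ = 0 := s37r_iota_injective A (by rw [this, map_zero])
    rw [this, map_zero]
  -- the quotient is `h * (g2 / g1) ^ n`
  have hquot : (⟨coeffMap A.subtype Y1, h1⟩ : ↥F) / ⟨coeffMap A.subtype Y2, h2⟩ =
      h * (g2 / g1) ^ n := by
    have hy1 : (⟨coeffMap A.subtype Y1, h1⟩ : ↥F) = (e2 * h) * g2 ^ n := by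
      apply Subtype.ext
      show coeffMap A.subtype Y1 = coeffMap A.subtype H₂ * (h : LaurentSeries L) * (coeffMap A.subtype G₂) ^ n
      rw [hY1, map_mul, map_pow, hHrel]
    have hy2 : (⟨coeffMap A.subtype Y2, h2⟩ : ↥F) = e2 * g1 ^ n := by
      apply Subtype.ext
      show coeffMap A.subtype Y2 = coeffMap A.subtype H₂ * (coeffMap A.subtype G₁) ^ n
      rw [hY2, map_mul, map_pow]
    rw [hy1, hy2, div_pow]
    field_simp
  have hdivP : ∀ P : Place L ↥F, (n : ℤ) ∣ P.ord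
      ((⟨coeffMap A.subtype Y1, h1⟩ : ↥F) / ⟨coeffMap A.subtype Y2, h2⟩) := by
    intro P
    rw [hquot, P.ord_mul hh0 (pow_ne_zero n (div_ne_zero hg2ne hg1ne)), s48d_ord_pow]
    exact dvd_add (hdiv P) (dvd_mul_right _ _)
  obtain ⟨c, w, hcw⟩ := hX Y1 Y2 h1 h2 h1k hρ hρ0 hdivP
  rw [hquot] at hcw
  obtain ⟨c₀, hc₀⟩ := IsAlgClosed.exists_pow_nat_eq c hn
  refine ⟨algebraMap L ↥F c₀ * w * (g1 / g2), ?_⟩
  rw [mul_pow, mul_pow, ← map_pow, hc₀, ← hcw, div_pow, div_pow]
  field_simp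

/-- **the reduction of `h` is not an `n`-th power** as soon as `h` has an `n`-th root outside `F` (in an extension
field `E` of `F` of which `L` is algebraically closed in: here any field, as `L` is algebraically closed). -/
theorem s48d_q_not_pow [IsAlgClosed L] (Q : s48d_QPack A π F Fb) {n : ℕ} (hn : 0 < n)
    (hX : s48d_KummerTrivial A π F Fb n) (h : ↥F) (hhO : h ∈ s48d_qO Q)
    (hhred : s48d_qRed Q ⟨h, hhO⟩ ≠ 0)
    (hdiv : ∀ P : Place L ↥F, (n : ℤ) ∣ P.ord h)
    {E : Type*} [Field E] [Algebra L E] [Algebra ↥F E] [IsScalarTower L ↥F E]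
    (t : E) (ht : t ^ n = algebraMap ↥F E h) (htF : ∀ a : ↥F, algebraMap ↥F E a ≠ t) :
    ∀ gb : ↥Fb, gb ^ n ≠ s48d_qRed Q ⟨h, hhO⟩ := by
  intro gb hgb
  have hgb0 : gb ≠ 0 := by
    rintro rfl
    rw [zero_pow hn.ne'] at hgb
    exact hhred hgb.symm
  obtain ⟨g, hg⟩ := s48d_q_exists_root Q hn hX h hhO hdiv gb hgb hgb0
  have hh0 : h ≠ 0 := by
    rintro rfl
    apply hhred
    have : (⟨0, hhO⟩ : ↥(s48d_qO Q)) = 0 := rfl
    rw [this, map_zero]
  have hg0 : g ≠ 0 := by
    rintro rfl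
    rw [zero_pow hn.ne'] at hg
    exact hh0 hg.symm
  have hgE : algebraMap ↥F E g ≠ 0 := by
    rw [Ne, map_eq_zero]; exact hg0
  -- `ζ := t / g` is an `n`-th root of unity, hence a constant
  have hζ : (t / algebraMap ↥F E g) ^ n = 1 := by
    rw [div_pow, ht, ← map_pow, hg, div_self]
    rw [Ne, map_eq_zero]; exact hh0
  have halg : IsAlgebraic L (t / algebraMap ↥F E g) := by
    refine ⟨X ^ n - 1, ?_, ?_⟩
    · exact Polynomial.X_pow_sub_C_ne_zero hn (1 : L)
    · rw [map_sub, map_pow, aeval_X, map_one, hζ, sub_self]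
  obtain ⟨c, hc⟩ := ff_mem_range_of_isAlgebraic (K := L) halg
  apply htF (algebraMap L ↥F c * g)
  rw [map_mul, ← IsScalarTower.algebraMap_apply, hc, div_mul_cancel₀ _ hgE]

end Fermat.Agent.Lib.S48
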