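/-
DS-1 (S48), wall [T7] (helper6), brick (G1): **the unramified monogenic (e.g. Kummer,
Artin–Schreier) extension of a Gauss valuation**.

Abstract setting: `F₀` a field with a valuation subring `O₀` and a "reduction" `red₀ : O₀ →+* Fb₀`
into a field whose kernel is the maximal ideal (`inv₀`); `F/F₀` a finite extension with basis
`1, t, …, t^(n-1)`, `t` a root of a monic `f ∈ O₀[X]` of degree `n` (Kummer case:
`f = X ^ n - h`, `s48g_LayerData.of_kummer`); `Fb/Fb₀` a field extension with an element `tb`,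
a root of the reduction of `f`, such that `1, tb, …, tb^(n-1)` are linearly independent over `Fb₀`
(i.e. the reduction of `f` is irreducible over `Fb₀`).

Then `O := ⊕ O₀ t^i` is a valuation subring of `F` (`s48g_O`), the coefficientwise reduction
`red : O →+* Fb`, `∑ yᵢ tⁱ ↦ ∑ red₀ yᵢ tbⁱ` is a ring homomorphism (`s48g_red`) extending `red₀`,
its kernel is the maximal ideal of `O` (`s48g_inv_mem`), it kills exactly the elements all of
whose coordinates are killed by `red₀` (`s48g_red_eq_zero_iff`), and every non-zero element of `F`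
is the product of an element of `F₀` and a unit of `O` (`s48g_exists_scale`).

Mathlib only.
-/
import Mathlib

set_option autoImplicit false
set_option linter.unusedSectionVars false
set_option linter.style.haveILetI false

noncomputable section

namespace Fermat.Agent.Lib.S48

open Polynomial

variable {F₀ F : Type*} [Field F₀] [Field F] [Algebra F₀ F]
  {Fb₀ Fb : Type*} [Field Fb₀] [Field Fb] [Algebra Fb₀ Fb]

/-- evaluation `O₀[X] → F` at `t`. -/
def s48g_ev (O₀ : ValuationSubring F₀) (t : F) : (↥O₀)[X] →+* F :=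
  eval₂RingHom ((algebraMap F₀ F).comp O₀.subtype) t

/-- evaluation `O₀[X] → Fb` at `tb` after reduction. -/
def s48g_evb {O₀ : ValuationSubring F₀} (red₀ : ↥O₀ →+* Fb₀) (tb : Fb) : (↥O₀)[X] →+* Fb :=
  eval₂RingHom ((algebraMap Fb₀ Fb).comp red₀) tb

/-- **the data of an unramified monogenic layer over a Gauss ring.** -/
structure s48g_LayerData (O₀ : ValuationSubring F₀) (red₀ : ↥O₀ →+* Fb₀) {n : ℕ}
    (b : Module.Basis (Fin n) F₀ F) (t : F) (f : (↥O₀)[X]) (tb : Fb) : Prop where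
  /-- `ker red₀` is the maximal ideal of `O₀`. -/
  inv₀ : ∀ y : ↥O₀, red₀ y ≠ 0 → ((y : F₀))⁻¹ ∈ O₀
  /-- the basis consists of the powers of `t`. -/
  basis : ∀ i : Fin n, b i = t ^ (i : ℕ)
  /-- `f` is monic … -/
  monic : f.Monic
  /-- … of degree `n`, -/
  natDegree : f.natDegree = n
  /-- `t` is a root of `f`, -/
  root : s48g_ev O₀ t f = 0
  /-- `tb` is a root of the reduction of `f`. -/
  rootb : s48g_evb red₀ tb f = 0
  /-- `1, tb, …, tb^(n-1)` are linearly independent over `Fb₀`. -/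
  indep : LinearIndependent Fb₀ (fun i : Fin n => tb ^ (i : ℕ))

variable {O₀ : ValuationSubring F₀} {red₀ : ↥O₀ →+* Fb₀} {n : ℕ}
  {b : Module.Basis (Fin n) F₀ F} {t : F} {f : (↥O₀)[X]} {tb : Fb}

theorem s48g_ev_monomial (m : ℕ) (a : ↥O₀) :
    s48g_ev O₀ t (monomial m a) = algebraMap F₀ F (a : F₀) * t ^ m := by
  simp [s48g_ev, eval₂_monomial]

theorem s48g_evb_monomial (m : ℕ) (a : ↥O₀) :
    s48g_evb red₀ tb (monomial m a) = algebraMap Fb₀ Fb (red₀ a) * tb ^ m := by
  simp [s48g_evb, eval₂_monomial]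

section Data

variable (hK : s48g_LayerData O₀ red₀ b t f tb)

include hK

theorem s48g_n_pos : 0 < n := by
  rcases Nat.eq_zero_or_pos n with h0 | h0
  · subst h0
    exfalso
    have h1 : (1 : F) = 0 := by
      have := b.sum_repr (1 : F)
      simpa using this.symm
    exact one_ne_zero h1
  · exact h0

/-- the coordinates of the value of an integral polynomial of degree `< n`. -/
theorem s48g_repr_ev_of_lt (r : (↥O₀)[X]) (hr : r.natDegree < n) (i : Fin n) :
    b.repr (s48g_ev O₀ t r) i = ((r.coeff (i : ℕ) : ↥O₀) : F₀) := by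
  have hsum : r = ∑ i ∈ Finset.range n, monomial i (r.coeff i) := as_sum_range' r n hr
  have hev : s48g_ev O₀ t r = ∑ j : Fin n, ((r.coeff (j : ℕ) : ↥O₀) : F₀) • b j := by
    conv_lhs => rw [hsum]
    rw [map_sum, ← Fin.sum_univ_eq_sum_range
      (fun i => s48g_ev O₀ t (monomial i (r.coeff i))) n]
    refine Finset.sum_congr rfl fun j _ => ?_
    rw [s48g_ev_monomial, hK.basis, Algebra.smul_def]
  rw [hev, map_sum, Finsupp.finsetSum_apply]
  simp only [map_smul, Module.Basis.repr_self, Finsupp.smul_single, smul_eq_mul, mul_one]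
  rw [Finset.sum_eq_single i]
  · rw [Finsupp.single_eq_same]
  · intro j _ hji
    rw [Finsupp.single_eq_of_ne hji.symm]
  · intro hi
    exact absurd (Finset.mem_univ i) hi

theorem s48g_natDegree_modByMonic_lt (p : (↥O₀)[X]) : (p %ₘ f).natDegree < n := by
  have hn := s48g_n_pos hK
  have h1 : (p %ₘ f).degree < f.degree := degree_modByMonic_lt p hK.monic
  by_cases hr0 : p %ₘ f = 0
  · rw [hr0, natDegree_zero]; exact hn
  · rw [degree_eq_natDegree hr0, degree_eq_natDegree hK.monic.ne_zero, hK.natDegree] at h1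
    exact_mod_cast h1

theorem s48g_ev_modByMonic (p : (↥O₀)[X]) : s48g_ev O₀ t (p %ₘ f) = s48g_ev O₀ t p := by
  have hsplit := modByMonic_add_div p f
  have := congrArg (s48g_ev O₀ t) hsplit
  rw [map_add, map_mul, hK.root, zero_mul, add_zero] at this
  exact this

/-- the coordinates of the value of an integral polynomial are integral. -/
theorem s48g_repr_ev_mem (p : (↥O₀)[X]) (i : Fin n) : b.repr (s48g_ev O₀ t p) i ∈ O₀ := by
  rw [← s48g_ev_modByMonic hK p, s48g_repr_ev_of_lt hK _ (s48g_natDegree_modByMonic_lt hK p)]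
  exact ((p %ₘ f).coeff (i : ℕ)).2

/-- the canonical integral polynomial of an element with integral coordinates. -/
def s48g_canon (b : Module.Basis (Fin n) F₀ F) (O₀ : ValuationSubring F₀) (y : F)
    (hy : ∀ i, b.repr y i ∈ O₀) : (↥O₀)[X] :=
  ∑ i : Fin n, monomial (i : ℕ) (⟨b.repr y i, hy i⟩ : ↥O₀)

theorem s48g_ev_canon (y : F) (hy : ∀ i, b.repr y i ∈ O₀) :
    s48g_ev O₀ t (s48g_canon b O₀ y hy) = y := by
  rw [s48g_canon, map_sum]
  conv_rhs => rw [← b.sum_repr y]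
  refine Finset.sum_congr rfl fun i _ => ?_
  rw [s48g_ev_monomial, hK.basis, Algebra.smul_def]

theorem s48g_evb_canon (y : F) (hy : ∀ i, b.repr y i ∈ O₀) :
    s48g_evb red₀ tb (s48g_canon b O₀ y hy) =
      ∑ i : Fin n, algebraMap Fb₀ Fb (red₀ ⟨b.repr y i, hy i⟩) * tb ^ (i : ℕ) := by
  rw [s48g_canon, map_sum]
  refine Finset.sum_congr rfl fun i _ => ?_
  rw [s48g_evb_monomial]

/-- **the subring `⊕ O₀ tⁱ`** of `F`. -/
def s48g_ring (O₀ : ValuationSubring F₀) (t : F) : Subring F := (s48g_ev O₀ t).range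

theorem s48g_mem_ring_iff (y : F) : y ∈ s48g_ring O₀ t ↔ ∀ i, b.repr y i ∈ O₀ := by
  constructor
  · rintro ⟨p, rfl⟩ i
    exact s48g_repr_ev_mem hK p i
  · intro hy
    exact ⟨s48g_canon b O₀ y hy, s48g_ev_canon hK y hy⟩

theorem s48g_ev_mem_ring (p : (↥O₀)[X]) : s48g_ev O₀ t p ∈ s48g_ring O₀ t := ⟨p, rfl⟩

theorem s48g_t_mem_ring : t ∈ s48g_ring O₀ t :=
  ⟨X, by simp [s48g_ev]⟩

theorem s48g_algebraMap_mem_ring (y : ↥O₀) : algebraMap F₀ F (y : F₀) ∈ s48g_ring O₀ t :=
  ⟨C y, by simp [s48g_ev]⟩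

/-- the kernel of the evaluation at `t` is killed by the evaluation at `tb`. -/
theorem s48g_evb_eq_zero_of_ev (p : (↥O₀)[X]) (hp : s48g_ev O₀ t p = 0) :
    s48g_evb red₀ tb p = 0 := by
  have hsplit := modByMonic_add_div p f
  set r := p %ₘ f with hr
  have hevr : s48g_ev O₀ t r = 0 := by rw [hr, s48g_ev_modByMonic hK p, hp]
  have hdeg : r.natDegree < n := s48g_natDegree_modByMonic_lt hK p
  have hr0 : r = 0 := by
    refine Polynomial.ext fun m => ?_
    rw [coeff_zero]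
    by_cases hm : m < n
    · apply Subtype.ext
      have := s48g_repr_ev_of_lt hK r hdeg ⟨m, hm⟩
      rw [hevr, map_zero, Finsupp.zero_apply] at this
      exact this.symm
    · exact coeff_eq_zero_of_natDegree_lt (lt_of_lt_of_le hdeg (not_lt.mp hm))
  rw [← hsplit, hr0, zero_add, map_mul, hK.rootb, zero_mul]

theorem s48g_rangeRestrict_surjective :
    Function.Surjective (s48g_ev O₀ t).rangeRestrict := (s48g_ev O₀ t).rangeRestrict_surjective

/-- **the reduction on `⊕ O₀ tⁱ`**, as a ring homomorphism to `Fb`. -/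
def s48g_redRing : ↥(s48g_ring O₀ t) →+* Fb :=
  (s48g_ev O₀ t).rangeRestrict.liftOfRightInverse
    (Function.surjInv (s48g_ev O₀ t).rangeRestrict_surjective)
    (Function.rightInverse_surjInv (s48g_ev O₀ t).rangeRestrict_surjective)
    ⟨s48g_evb red₀ tb, fun p hp => by
      rw [RingHom.mem_ker] at hp ⊢
      apply s48g_evb_eq_zero_of_ev hK
      have := congrArg Subtype.val hp
      exact this⟩

theorem s48g_redRing_ev (p : (↥O₀)[X]) :
    s48g_redRing hK ⟨s48g_ev O₀ t p, s48g_ev_mem_ring hK p⟩ = s48g_evb red₀ tb p := by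
  have := RingHom.liftOfRightInverse_comp_apply (s48g_ev O₀ t).rangeRestrict
    (Function.surjInv (s48g_ev O₀ t).rangeRestrict_surjective)
    (Function.rightInverse_surjInv (s48g_ev O₀ t).rangeRestrict_surjective)
    ⟨s48g_evb red₀ tb, fun p hp => by
      rw [RingHom.mem_ker] at hp ⊢
      apply s48g_evb_eq_zero_of_ev hK
      have := congrArg Subtype.val hp
      exact this⟩ p
  exact this

/-- the reduction is computed coordinatewise. -/
theorem s48g_redRing_apply (y : ↥(s48g_ring O₀ t)) :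
    s48g_redRing hK y = ∑ i : Fin n, algebraMap Fb₀ Fb
      (red₀ ⟨b.repr (y : F) i, (s48g_mem_ring_iff hK _).mp y.2 i⟩) * tb ^ (i : ℕ) := by
  have hy := (s48g_mem_ring_iff hK _).mp y.2
  have h1 : y = ⟨s48g_ev O₀ t (s48g_canon b O₀ (y : F) hy), s48g_ev_mem_ring hK _⟩ :=
    Subtype.ext (s48g_ev_canon hK (y : F) hy).symm
  conv_lhs => rw [h1]
  rw [s48g_redRing_ev, s48g_evb_canon hK]

theorem s48g_redRing_t : s48g_redRing hK ⟨t, s48g_t_mem_ring hK⟩ = tb := by
  have h1 : (⟨t, s48g_t_mem_ring hK⟩ : ↥(s48g_ring O₀ t)) =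
      ⟨s48g_ev O₀ t X, s48g_ev_mem_ring hK _⟩ := Subtype.ext (by simp [s48g_ev])
  rw [h1, s48g_redRing_ev]
  simp [s48g_evb]

theorem s48g_redRing_algebraMap (y : ↥O₀) :
    s48g_redRing hK ⟨algebraMap F₀ F (y : F₀), s48g_algebraMap_mem_ring hK y⟩ =
      algebraMap Fb₀ Fb (red₀ y) := by
  have h1 : (⟨algebraMap F₀ F (y : F₀), s48g_algebraMap_mem_ring hK y⟩ : ↥(s48g_ring O₀ t)) =
      ⟨s48g_ev O₀ t (C y), s48g_ev_mem_ring hK _⟩ := Subtype.ext (by simp [s48g_ev])
  rw [h1, s48g_redRing_ev]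
  simp [s48g_evb]

/-- the reduction kills exactly the elements all of whose coordinates are killed by `red₀`. -/
theorem s48g_redRing_eq_zero_iff (y : ↥(s48g_ring O₀ t)) :
    s48g_redRing hK y = 0 ↔
      ∀ i, red₀ ⟨b.repr (y : F) i, (s48g_mem_ring_iff hK _).mp y.2 i⟩ = 0 := by
  rw [s48g_redRing_apply]
  have hli := hK.indep
  rw [Fintype.linearIndependent_iff] at hli
  constructor
  · intro h0 i
    apply hli (fun i => red₀ ⟨b.repr (y : F) i, (s48g_mem_ring_iff hK _).mp y.2 i⟩)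
    rw [← h0]
    refine Finset.sum_congr rfl fun i _ => ?_
    rw [Algebra.smul_def]
  · intro h0
    refine Finset.sum_eq_zero fun i _ => ?_
    rw [h0 i, map_zero, zero_mul]

theorem s48g_basis_mem_ring (j : Fin n) : b j ∈ s48g_ring O₀ t := by
  rw [hK.basis]
  exact pow_mem (s48g_t_mem_ring hK) _

theorem s48g_redRing_basis (j : Fin n) :
    s48g_redRing hK ⟨b j, s48g_basis_mem_ring hK j⟩ = tb ^ (j : ℕ) := by
  have h1 : (⟨b j, s48g_basis_mem_ring hK j⟩ : ↥(s48g_ring O₀ t)) =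
      (⟨t, s48g_t_mem_ring hK⟩ : ↥(s48g_ring O₀ t)) ^ (j : ℕ) :=
    Subtype.ext (by
      show b j = ((⟨t, s48g_t_mem_ring hK⟩ : ↥(s48g_ring O₀ t)) ^ (j : ℕ) : ↥(s48g_ring O₀ t))
      rw [SubmonoidClass.coe_pow, hK.basis])
  rw [h1, map_pow, s48g_redRing_t]

/-- integrality of the entries of the multiplication matrix. -/
theorem s48g_mulMatrix_mem (z : ↥(s48g_ring O₀ t)) (i j : Fin n) :
    Algebra.leftMulMatrix b (z : F) i j ∈ O₀ := by
  rw [Algebra.leftMulMatrix_eq_repr_mul]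
  exact (s48g_mem_ring_iff hK _).mp ((s48g_ring O₀ t).mul_mem z.2 (s48g_basis_mem_ring hK j)) i

/-- the multiplication matrix of an element of `⊕ O₀ tⁱ`, over `O₀`. -/
def s48g_mulMatrix (z : ↥(s48g_ring O₀ t)) : Matrix (Fin n) (Fin n) ↥O₀ :=
  fun i j => ⟨Algebra.leftMulMatrix b (z : F) i j, s48g_mulMatrix_mem hK z i j⟩

theorem s48g_mulMatrix_map (z : ↥(s48g_ring O₀ t)) :
    O₀.subtype.mapMatrix (s48g_mulMatrix hK z) = Algebra.leftMulMatrix b (z : F) := by
  ext i j
  rfl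

/-- `red z * tbʲ` in terms of the reduced multiplication matrix. -/
theorem s48g_redRing_mul_pow (z : ↥(s48g_ring O₀ t)) (j : Fin n) :
    s48g_redRing hK z * tb ^ (j : ℕ) =
      ∑ i : Fin n, algebraMap Fb₀ Fb (red₀ (s48g_mulMatrix hK z i j)) * tb ^ (i : ℕ) := by
  rw [← s48g_redRing_basis hK j, ← map_mul, s48g_redRing_apply]
  refine Finset.sum_congr rfl fun i _ => ?_
  congr 3
  apply Subtype.ext
  show b.repr ((z : F) * b j) i = Algebra.leftMulMatrix b (z : F) i j
  rw [Algebra.leftMulMatrix_eq_repr_mul]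

/-- the reduced multiplication matrix of an element with non-zero reduction is non-singular. -/
theorem s48g_det_mulMatrix_ne_zero (z : ↥(s48g_ring O₀ t)) (hz : s48g_redRing hK z ≠ 0) :
    (red₀.mapMatrix (s48g_mulMatrix hK z)).det ≠ 0 := by
  intro hdet
  obtain ⟨v, hv, hMv⟩ := Matrix.exists_mulVec_eq_zero_iff.mpr hdet
  have hli := hK.indep
  rw [Fintype.linearIndependent_iff] at hli
  apply hv
  funext j
  apply hli v
  have hzy : s48g_redRing hK z * ∑ j : Fin n, v j • tb ^ (j : ℕ) = 0 := by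
    rw [Finset.mul_sum]
    have h1 : ∀ j : Fin n, s48g_redRing hK z * v j • tb ^ (j : ℕ) =
        ∑ i : Fin n, (v j * red₀ (s48g_mulMatrix hK z i j)) • tb ^ (i : ℕ) := by
      intro j
      rw [mul_smul_comm, s48g_redRing_mul_pow hK z j, Finset.smul_sum]
      refine Finset.sum_congr rfl fun i _ => ?_
      rw [← Algebra.smul_def, smul_smul]
    rw [Finset.sum_congr rfl fun j _ => h1 j, Finset.sum_comm]
    refine Finset.sum_eq_zero fun i _ => ?_
    rw [← Finset.sum_smul]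
    have h2 : ∑ j : Fin n, v j * red₀ (s48g_mulMatrix hK z i j) =
        ((red₀.mapMatrix (s48g_mulMatrix hK z)).mulVec v) i := by
      rw [Matrix.mulVec, dotProduct]
      refine Finset.sum_congr rfl fun j _ => ?_
      rw [mul_comm]
      rfl
    rw [h2, hMv, Pi.zero_apply, zero_smul]
  exact (mul_eq_zero.mp hzy).resolve_left hz

/-- **`ker red` is the maximal ideal**: an element of `⊕ O₀ tⁱ` with non-zero reduction is a unit. -/
theorem s48g_inv_mem_ring (z : ↥(s48g_ring O₀ t)) (hz : s48g_redRing hK z ≠ 0) :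
    ((z : F))⁻¹ ∈ s48g_ring O₀ t := by
  classical
  have hn := s48g_n_pos hK
  have hdet := s48g_det_mulMatrix_ne_zero hK z hz
  rw [← RingHom.map_det] at hdet
  set M₀ := s48g_mulMatrix hK z with hM₀
  set d : ↥O₀ := M₀.det with hd
  have hdinv : ((d : F₀))⁻¹ ∈ O₀ := hK.inv₀ d hdet
  have hz0 : (z : F) ≠ 0 := by
    intro h0
    apply hz
    have : z = 0 := Subtype.ext h0
    rw [this, map_zero]
  have hd0 : (d : F₀) ≠ 0 := by
    intro h0
    apply hdet
    have : d = 0 := Subtype.ext h0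
    rw [this, map_zero]
  set M := Algebra.leftMulMatrix b (z : F) with hM
  have hMmap : O₀.subtype.mapMatrix M₀ = M := s48g_mulMatrix_map hK z
  have hdetM : M.det = (d : F₀) := by
    rw [← hMmap, ← RingHom.map_det]
    rfl
  have hadj : M.adjugate = O₀.subtype.mapMatrix M₀.adjugate := by
    rw [← hMmap, RingHom.map_adjugate]
  -- `M *ᵥ repr z⁻¹ = repr 1`
  have h1 : M.mulVec (b.repr ((z : F)⁻¹)) = b.repr 1 := by
    rw [hM, Algebra.leftMulMatrix_mulVec_repr, mul_inv_cancel₀ hz0]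
  have h2 : (d : F₀) • (b.repr ((z : F)⁻¹) : Fin n → F₀) = M.adjugate.mulVec (b.repr 1) := by
    rw [← h1, Matrix.mulVec_mulVec, Matrix.adjugate_mul, hdetM, Matrix.smul_mulVec,
      Matrix.one_mulVec]
  rw [s48g_mem_ring_iff hK]
  intro i
  have h3 := congrFun h2 i
  rw [Pi.smul_apply, smul_eq_mul] at h3
  have h4 : b.repr ((z : F)⁻¹) i = ((d : F₀))⁻¹ * (M.adjugate.mulVec (b.repr 1)) i := by
    rw [← h3, ← mul_assoc, inv_mul_cancel₀ hd0, one_mul]
  rw [h4]
  refine O₀.mul_mem _ _ hdinv ?_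
  rw [Matrix.mulVec, dotProduct]
  refine sum_mem fun j _ => O₀.mul_mem _ _ ?_ ?_
  · rw [hadj]
    exact (M₀.adjugate i j).2
  · have h5 : (1 : F) ∈ s48g_ring O₀ t := (s48g_ring O₀ t).one_mem
    exact (s48g_mem_ring_iff hK _).mp h5 j

/-- **scaling**: every non-zero element of `F` is the product of a non-zero element of `F₀` and an
element of `⊕ O₀ tⁱ` with non-zero reduction. -/
theorem s48g_exists_scale (y : F) (hy : y ≠ 0) :
    ∃ (c : F₀) (z : ↥(s48g_ring O₀ t)), c ≠ 0 ∧ s48g_redRing hK z ≠ 0 ∧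
      y = algebraMap F₀ F c * (z : F) := by
  classical
  have hn := s48g_n_pos hK
  haveI : Nonempty (Fin n) := ⟨⟨0, hn⟩⟩
  obtain ⟨i₀, -, hmax⟩ := Finset.exists_max_image (Finset.univ : Finset (Fin n))
    (fun i => O₀.valuation (b.repr y i)) Finset.univ_nonempty
  have hne : ∃ i, b.repr y i ≠ 0 := by
    by_contra hall
    rw [not_exists] at hall
    have hall : ∀ i, b.repr y i = 0 := fun i => not_not.mp (hall i)
    apply hy
    rw [← b.sum_repr y]
    exact Finset.sum_eq_zero fun i _ => by rw [hall i, zero_smul]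
  obtain ⟨i₁, hi₁⟩ := hne
  have hc0 : b.repr y i₀ ≠ 0 := by
    intro h0
    have h1 := hmax i₁ (Finset.mem_univ _)
    rw [h0, map_zero] at h1
    exact hi₁ ((Valuation.zero_iff _).mp (le_antisymm h1 zero_le))
  set c := b.repr y i₀ with hc
  have hcoord : ∀ i, b.repr ((algebraMap F₀ F c)⁻¹ * y) i = c⁻¹ * b.repr y i := by
    intro i
    rw [← map_inv₀, ← Algebra.smul_def, map_smul, Finsupp.smul_apply, smul_eq_mul]
  have hzmem : (algebraMap F₀ F c)⁻¹ * y ∈ s48g_ring O₀ t := by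
    rw [s48g_mem_ring_iff hK]
    intro i
    rw [hcoord, ← ValuationSubring.valuation_le_one_iff, map_mul, map_inv₀]
    have h1 := hmax i (Finset.mem_univ _)
    have h2 : O₀.valuation c ≠ 0 := (Valuation.ne_zero_iff _).mpr hc0
    rw [inv_mul_le_iff₀ (zero_lt_iff.mpr h2), mul_one]
    exact h1
  refine ⟨c, ⟨_, hzmem⟩, hc0, ?_, ?_⟩
  · intro h0
    have h1 := (s48g_redRing_eq_zero_iff hK _).mp h0 i₀
    have h2 : (⟨b.repr ((algebraMap F₀ F c)⁻¹ * y) i₀,
        (s48g_mem_ring_iff hK _).mp hzmem i₀⟩ : ↥O₀) = 1 := by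
      apply Subtype.ext
      show b.repr ((algebraMap F₀ F c)⁻¹ * y) i₀ = 1
      rw [hcoord, inv_mul_cancel₀ hc0]
    rw [h2, map_one] at h1
    exact one_ne_zero h1
  · show y = algebraMap F₀ F c * ((algebraMap F₀ F c)⁻¹ * y)
    rw [← mul_assoc, mul_inv_cancel₀, one_mul]
    exact (_root_.map_ne_zero _).mpr hc0

/-- **the valuation subring `O = ⊕ O₀ tⁱ`** of `F`. -/
def s48g_O : ValuationSubring F :=
  { s48g_ring O₀ t with
    mem_or_inv_mem' := by
      intro y
      by_cases hy : y = 0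
      · left
        rw [hy]
        exact (s48g_ring O₀ t).zero_mem
      obtain ⟨c, z, hc0, hz, hyz⟩ := s48g_exists_scale hK y hy
      rcases O₀.mem_or_inv_mem c with hc | hc
      · left
        rw [hyz]
        exact (s48g_ring O₀ t).mul_mem (s48g_algebraMap_mem_ring hK ⟨c, hc⟩) z.2
      · right
        rw [hyz, mul_inv, ← map_inv₀]
        exact (s48g_ring O₀ t).mul_mem (s48g_algebraMap_mem_ring hK ⟨c⁻¹, hc⟩)
          (s48g_inv_mem_ring hK z hz) }

theorem s48g_mem_O_iff_ring (y : F) : y ∈ s48g_O hK ↔ y ∈ s48g_ring O₀ t := Iff.rfl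

theorem s48g_mem_O_iff (y : F) : y ∈ s48g_O hK ↔ ∀ i, b.repr y i ∈ O₀ :=
  s48g_mem_ring_iff hK y

/-- **the reduction `red : O →+* Fb`.** -/
def s48g_red : ↥(s48g_O hK) →+* Fb :=
  (s48g_redRing hK).comp
    { toFun := fun y => ⟨(y : F), y.2⟩
      map_one' := rfl
      map_mul' := fun _ _ => rfl
      map_zero' := rfl
      map_add' := fun _ _ => rfl }

theorem s48g_red_def (y : ↥(s48g_O hK)) : s48g_red hK y = s48g_redRing hK ⟨(y : F), y.2⟩ := rfl

theorem s48g_red_apply (y : ↥(s48g_O hK)) :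
    s48g_red hK y = ∑ i : Fin n, algebraMap Fb₀ Fb
      (red₀ ⟨b.repr (y : F) i, (s48g_mem_O_iff hK _).mp y.2 i⟩) * tb ^ (i : ℕ) :=
  s48g_redRing_apply hK ⟨(y : F), y.2⟩

theorem s48g_t_mem_O : t ∈ s48g_O hK := s48g_t_mem_ring hK

theorem s48g_red_t : s48g_red hK ⟨t, s48g_t_mem_O hK⟩ = tb := s48g_redRing_t hK

theorem s48g_algebraMap_mem_O (y : ↥O₀) : algebraMap F₀ F (y : F₀) ∈ s48g_O hK :=
  s48g_algebraMap_mem_ring hK y

theorem s48g_red_algebraMap (y : ↥O₀) :
    s48g_red hK ⟨algebraMap F₀ F (y : F₀), s48g_algebraMap_mem_O hK y⟩ =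
      algebraMap Fb₀ Fb (red₀ y) := s48g_redRing_algebraMap hK y

theorem s48g_red_eq_zero_iff (y : ↥(s48g_O hK)) :
    s48g_red hK y = 0 ↔
      ∀ i, red₀ ⟨b.repr (y : F) i, (s48g_mem_O_iff hK _).mp y.2 i⟩ = 0 :=
  s48g_redRing_eq_zero_iff hK ⟨(y : F), y.2⟩

/-- **`ker red` is the maximal ideal of `O`.** -/
theorem s48g_inv_mem (y : ↥(s48g_O hK)) (hy : s48g_red hK y ≠ 0) : ((y : F))⁻¹ ∈ s48g_O hK :=
  s48g_inv_mem_ring hK ⟨(y : F), y.2⟩ hy

/-- the coordinates of an element of `F₀`. -/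
theorem s48g_repr_algebraMap (c : F₀) :
    b.repr (algebraMap F₀ F c) = Finsupp.single (⟨0, s48g_n_pos hK⟩ : Fin n) c := by
  have h1 : algebraMap F₀ F c = c • b ⟨0, s48g_n_pos hK⟩ := by
    rw [hK.basis, Algebra.smul_def]
    simp
  rw [h1, map_smul, Module.Basis.repr_self, Finsupp.smul_single, smul_eq_mul, mul_one]

/-- **`O ∩ F₀ = O₀`.** -/
theorem s48g_algebraMap_mem_O_iff (c : F₀) : algebraMap F₀ F c ∈ s48g_O hK ↔ c ∈ O₀ := by
  constructor
  · intro hc
    have := (s48g_mem_O_iff hK _).mp hc ⟨0, s48g_n_pos hK⟩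
    rw [s48g_repr_algebraMap hK, Finsupp.single_eq_same] at this
    exact this
  · intro hc
    exact s48g_algebraMap_mem_O hK ⟨c, hc⟩

/-- every non-zero element of `F` is an element of `F₀` times a unit of `O`. -/
theorem s48g_exists_scale_O (y : F) (hy : y ≠ 0) :
    ∃ (c : F₀) (z : ↥(s48g_O hK)), c ≠ 0 ∧ s48g_red hK z ≠ 0 ∧
      y = algebraMap F₀ F c * (z : F) := by
  obtain ⟨c, z, hc, hz, hyz⟩ := s48g_exists_scale hK y hy
  exact ⟨c, ⟨(z : F), z.2⟩, hc, hz, hyz⟩

/-- the reduction is onto as soon as `red₀` is and the powers of `tb` span `Fb`. -/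
theorem s48g_red_surjective (hsurj : Function.Surjective red₀)
    (hspan : ⊤ ≤ Submodule.span Fb₀ (Set.range fun i : Fin n => tb ^ (i : ℕ))) :
    Function.Surjective (s48g_red hK) := by
  intro zb
  have hz : zb ∈ Submodule.span Fb₀ (Set.range fun i : Fin n => tb ^ (i : ℕ)) :=
    hspan Submodule.mem_top
  rw [Submodule.mem_span_range_iff_exists_fun] at hz
  obtain ⟨c, hc⟩ := hz
  choose a ha using fun i => hsurj (c i)
  have hmem : ∀ i : Fin n, algebraMap F₀ F ((a i : ↥O₀) : F₀) * b i ∈ s48g_O hK := fun i =>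
    (s48g_O hK).mul_mem _ _ (s48g_algebraMap_mem_O hK (a i)) (s48g_basis_mem_ring hK i)
  refine ⟨∑ i : Fin n, ⟨_, hmem i⟩, ?_⟩
  rw [map_sum, ← hc]
  refine Finset.sum_congr rfl fun i _ => ?_
  have h1 : (⟨_, hmem i⟩ : ↥(s48g_O hK)) =
      ⟨algebraMap F₀ F ((a i : ↥O₀) : F₀), s48g_algebraMap_mem_O hK (a i)⟩ *
        ⟨b i, s48g_basis_mem_ring hK i⟩ := rfl
  rw [h1, map_mul, s48g_red_algebraMap, ha, Algebra.smul_def]
  congr 1
  exact s48g_redRing_basis hK i

/-! ### Multiplication matrices, traces and norms under reduction -/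

/-- the multiplication matrix of the reduction is the reduction of the multiplication matrix. -/
theorem s48g_leftMulMatrix_red (bb : Module.Basis (Fin n) Fb₀ Fb)
    (hbb : ∀ i : Fin n, bb i = tb ^ (i : ℕ)) (y : ↥(s48g_O hK)) :
    Algebra.leftMulMatrix bb (s48g_red hK y) =
      red₀.mapMatrix (s48g_mulMatrix hK ⟨(y : F), y.2⟩) := by
  ext i j
  rw [Algebra.leftMulMatrix_eq_repr_mul, hbb, s48g_red_def, s48g_redRing_mul_pow hK _ j]
  rw [map_sum, Finsupp.finsetSum_apply]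
  have h1 : ∀ l : Fin n, bb.repr (algebraMap Fb₀ Fb
      (red₀ (s48g_mulMatrix hK ⟨(y : F), y.2⟩ l j)) * tb ^ (l : ℕ)) i =
      if l = i then red₀ (s48g_mulMatrix hK ⟨(y : F), y.2⟩ l j) else 0 := by
    intro l
    rw [← hbb, ← Algebra.smul_def, map_smul, Module.Basis.repr_self, Finsupp.smul_single,
      smul_eq_mul, mul_one, Finsupp.single_apply]
  rw [Finset.sum_congr rfl fun l _ => h1 l, Finset.sum_ite_eq' Finset.univ i]
  simp only [Finset.mem_univ, if_true]
  rfl

/-- the trace of an element of `O` lies in `O₀`. -/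
theorem s48g_trace_mem (y : ↥(s48g_O hK)) : Algebra.trace F₀ F (y : F) ∈ O₀ := by
  rw [Algebra.trace_eq_matrix_trace b, Matrix.trace]
  refine sum_mem fun i _ => ?_
  exact s48g_mulMatrix_mem hK ⟨(y : F), y.2⟩ i i

/-- the norm of an element of `O` lies in `O₀`. -/
theorem s48g_norm_mem (y : ↥(s48g_O hK)) : Algebra.norm F₀ (y : F) ∈ O₀ := by
  rw [Algebra.norm_eq_matrix_det b, ← s48g_mulMatrix_map hK ⟨(y : F), y.2⟩, ← RingHom.map_det]
  exact ((s48g_mulMatrix hK ⟨(y : F), y.2⟩).det).2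

/-- **the trace commutes with the reduction.** -/
theorem s48g_red_trace (bb : Module.Basis (Fin n) Fb₀ Fb)
    (hbb : ∀ i : Fin n, bb i = tb ^ (i : ℕ)) (y : ↥(s48g_O hK)) :
    Algebra.trace Fb₀ Fb (s48g_red hK y) =
      red₀ ⟨Algebra.trace F₀ F (y : F), s48g_trace_mem hK y⟩ := by
  rw [Algebra.trace_eq_matrix_trace bb, s48g_leftMulMatrix_red hK bb hbb, Matrix.trace]
  have h1 : (⟨Algebra.trace F₀ F (y : F), s48g_trace_mem hK y⟩ : ↥O₀) =
      ∑ i : Fin n, s48g_mulMatrix hK ⟨(y : F), y.2⟩ i i := by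
    apply Subtype.ext
    rw [AddSubmonoidClass.coe_finsetSum]
    show Algebra.trace F₀ F (y : F) = _
    rw [Algebra.trace_eq_matrix_trace b, Matrix.trace]
    rfl
  rw [h1, map_sum]
  rfl

/-- **the norm commutes with the reduction.** -/
theorem s48g_red_norm (bb : Module.Basis (Fin n) Fb₀ Fb)
    (hbb : ∀ i : Fin n, bb i = tb ^ (i : ℕ)) (y : ↥(s48g_O hK)) :
    Algebra.norm Fb₀ (s48g_red hK y) =
      red₀ ⟨Algebra.norm F₀ (y : F), s48g_norm_mem hK y⟩ := by
  rw [Algebra.norm_eq_matrix_det bb, s48g_leftMulMatrix_red hK bb hbb, ← RingHom.map_det]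
  congr 1
  apply Subtype.ext
  show _ = Algebra.norm F₀ (y : F)
  rw [Algebra.norm_eq_matrix_det b, ← s48g_mulMatrix_map hK ⟨(y : F), y.2⟩, ← RingHom.map_det]
  rfl

end Data

/-- **the Kummer case** `f = X ^ n - h`. -/
theorem s48g_layerData_of_kummer {O₀ : ValuationSubring F₀} {red₀ : ↥O₀ →+* Fb₀} {n : ℕ}
    (b : Module.Basis (Fin n) F₀ F) (t : F) (h : F₀) (tb : Fb) (hn : n ≠ 0)
    (inv₀ : ∀ y : ↥O₀, red₀ y ≠ 0 → ((y : F₀))⁻¹ ∈ O₀)
    (basis : ∀ i : Fin n, b i = t ^ (i : ℕ))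
    (pow : t ^ n = algebraMap F₀ F h) (h_mem : h ∈ O₀)
    (powb : tb ^ n = algebraMap Fb₀ Fb (red₀ ⟨h, h_mem⟩))
    (indep : LinearIndependent Fb₀ (fun i : Fin n => tb ^ (i : ℕ))) :
    s48g_LayerData O₀ red₀ b t (X ^ n - C (⟨h, h_mem⟩ : ↥O₀)) tb where
  inv₀ := inv₀
  basis := basis
  monic := monic_X_pow_sub_C _ hn
  natDegree := natDegree_X_pow_sub_C
  root := by simp [s48g_ev, pow]
  rootb := by simp [s48g_evb, powb]
  indep := indep

end Fermat.Agent.Lib.S48
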