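/-
DS-1 (S48), wall [T7] (helper7, prefix `s48d_q`): **the q-model step** — propagation of the q-model package
`s48d_QPack` through an unramified monogenic layer (helper6's `s48g_LayerData`, `GKummer.lean`).

Setting: `F₁ ⊆ F₂ ⊆ L((q))`, `Fb₁ ⊆ Fb₂ ⊆ κ((q))` (any `Algebra ↥F₁ ↥F₂`, `Algebra ↥Fb₁ ↥Fb₂` compatible with the
inclusions: `halg`, `halgb`), `Q₁ : s48d_QPack A π F₁ Fb₁`, a layer datum
`hK : s48g_LayerData (s48d_qO Q₁) (s48d_qRed Q₁) b t f tb` whose generator `t` is an `A`-integral series `T`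
(`t = ιT`, `tb = ρT`) and such that the powers of `tb` span `Fb₂` over `Fb₁`.  Then

* `s48d_q_step`      : `s48d_QPack A π F₂ Fb₂`;
* `s48d_q_step_O`    : helper6's abstract Gauss ring `s48g_O hK` IS the q-model Gauss ring `s48d_qO Q₂`;
* `s48d_q_step_red`  : helper6's abstract reduction `s48g_red hK` IS the q-model reduction `s48d_qRed Q₂`;
* `s48d_q_rootb`     : the field `rootb` of the layer datum is automatic (`f(t) = 0 ⇒ f̄(tb) = 0`).
-/
import Fermat.Agent.Lib.S48.DQDefs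
import Fermat.Agent.Lib.S48.GKummer

set_option autoImplicit false
set_option linter.unusedSectionVars false
set_option linter.style.haveILetI false

noncomputable section

namespace Fermat.Agent.Lib.S48

open ModularCurve HahnSeries AlgebraicCurve IntermediateField Polynomial Fermat.Agent.Lib.S37

variable {L : Type*} [Field L] {A : ValuationSubring L} {κ : Type*} [Field κ] {π : ↥A →+* κ}
  {F₁ F₂ : IntermediateField L (LaurentSeries L)} {Fb₁ Fb₂ : IntermediateField κ (LaurentSeries κ)}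
  [Algebra ↥F₁ ↥F₂] [Algebra ↥Fb₁ ↥Fb₂]

/-- the relation "`z` is the reduction of the Gauss-integral `y`". -/
def s48d_qRel (A : ValuationSubring L) (π : ↥A →+* κ) (y : LaurentSeries L) (z : LaurentSeries κ) : Prop :=
  ∃ hO : y ∈ s37r_O A π, s37r_red A π ⟨y, hO⟩ = z

theorem s48d_qRel_add {y y' : LaurentSeries L} {z z' : LaurentSeries κ} (h : s48d_qRel A π y z)
    (h' : s48d_qRel A π y' z') : s48d_qRel A π (y + y') (z + z') := by
  obtain ⟨hO, hz⟩ := h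
  obtain ⟨hO', hz'⟩ := h'
  refine ⟨(s37r_O A π).add_mem hO hO', ?_⟩
  rw [← hz, ← hz', ← map_add]
  rfl

theorem s48d_qRel_mul {y y' : LaurentSeries L} {z z' : LaurentSeries κ} (h : s48d_qRel A π y z)
    (h' : s48d_qRel A π y' z') : s48d_qRel A π (y * y') (z * z') := by
  obtain ⟨hO, hz⟩ := h
  obtain ⟨hO', hz'⟩ := h'
  refine ⟨(s37r_O A π).mul_mem hO hO', ?_⟩
  rw [← hz, ← hz', ← map_mul]
  rfl

theorem s48d_qRel_zero : s48d_qRel A π 0 0 :=
  ⟨(s37r_O A π).zero_mem, map_zero (s37r_red A π)⟩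

theorem s48d_qRel_one : s48d_qRel A π 1 1 :=
  ⟨(s37r_O A π).one_mem, map_one (s37r_red A π)⟩

theorem s48d_qRel_iota (T : LaurentSeries ↥A) :
    s48d_qRel A π (coeffMap A.subtype T) (coeffMap π T) :=
  ⟨s37r_iota_mem_O A π T, s37r_red_iota A π T⟩

theorem s48d_qRel_pow {y : LaurentSeries L} {z : LaurentSeries κ} (h : s48d_qRel A π y z) (m : ℕ) :
    s48d_qRel A π (y ^ m) (z ^ m) := by
  induction m with
  | zero => rw [pow_zero, pow_zero]; exact s48d_qRel_one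
  | succ m ih => rw [pow_succ, pow_succ]; exact s48d_qRel_mul ih h

/-- polynomial induction for the relation `s48d_qRel`. -/
theorem s48d_qRel_poly {R : Type*} [CommRing R] (Φ : R[X] →+* LaurentSeries L)
    (Ψ : R[X] →+* LaurentSeries κ) (hC : ∀ a : R, s48d_qRel A π (Φ (C a)) (Ψ (C a)))
    (hX : s48d_qRel A π (Φ X) (Ψ X)) (p : R[X]) : s48d_qRel A π (Φ p) (Ψ p) := by
  induction p using Polynomial.induction_on with
  | C a => exact hC a
  | add p q hp hq =>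
    have e1 : Φ (p + q) = Φ p + Φ q := map_add Φ p q
    have e2 : Ψ (p + q) = Ψ p + Ψ q := map_add Ψ p q
    rw [e1, e2]
    exact s48d_qRel_add hp hq
  | monomial m a ih =>
    have e : (C a * X ^ (m + 1) : R[X]) = (C a * X ^ m) * X := by
      rw [pow_succ, mul_assoc]
    have e1 : Φ (C a * X ^ (m + 1)) = Φ (C a * X ^ m) * Φ X := by rw [e, map_mul]
    have e2 : Ψ (C a * X ^ (m + 1)) = Ψ (C a * X ^ m) * Ψ X := by rw [e, map_mul]
    rw [e1, e2]
    exact s48d_qRel_mul ih hX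

section Step

variable (halg : ∀ a : ↥F₁, ((algebraMap ↥F₁ ↥F₂ a : ↥F₂) : LaurentSeries L) = (a : LaurentSeries L))
  (halgb : ∀ a : ↥Fb₁, ((algebraMap ↥Fb₁ ↥Fb₂ a : ↥Fb₂) : LaurentSeries κ) = (a : LaurentSeries κ))
  (Q₁ : s48d_QPack A π F₁ Fb₁) {n : ℕ} {b : Module.Basis (Fin n) ↥F₁ ↥F₂} {t : ↥F₂}
  {f : (↥(s48d_qO Q₁))[X]} {tb : ↥Fb₂}
  (T : LaurentSeries ↥A) (hT : (t : LaurentSeries L) = coeffMap A.subtype T)
  (hTb : (tb : LaurentSeries κ) = coeffMap π T)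

include halg halgb hT hTb in
/-- the evaluation of a polynomial over `qO₁` at `t` is Gauss-integral, with reduction the evaluation of the reduced
polynomial at `tb`. -/
theorem s48d_qRel_ev (p : (↥(s48d_qO Q₁))[X]) :
    s48d_qRel A π ((s48g_ev (s48d_qO Q₁) t p : ↥F₂) : LaurentSeries L)
      ((s48g_evb (s48d_qRed Q₁) tb p : ↥Fb₂) : LaurentSeries κ) := by
  set Φ : (↥(s48d_qO Q₁))[X] →+* LaurentSeries L :=
    (F₂.val : ↥F₂ →+* LaurentSeries L).comp (s48g_ev (s48d_qO Q₁) t) with hΦ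
  set Ψ : (↥(s48d_qO Q₁))[X] →+* LaurentSeries κ :=
    (Fb₂.val : ↥Fb₂ →+* LaurentSeries κ).comp (s48g_evb (s48d_qRed Q₁) tb) with hΨ
  show s48d_qRel A π (Φ p) (Ψ p)
  have hC : ∀ a : ↥(s48d_qO Q₁), s48d_qRel A π (Φ (C a)) (Ψ (C a)) := by
    intro a
    have h1 : s48g_ev (s48d_qO Q₁) t (C a) = algebraMap ↥F₁ ↥F₂ (a : ↥F₁) := by
      simp [s48g_ev]
    have h2 : s48g_evb (s48d_qRed Q₁) tb (C a) = algebraMap ↥Fb₁ ↥Fb₂ (s48d_qRed Q₁ a) := by
      simp [s48g_evb]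
    have e1 : Φ (C a) = ((a : ↥F₁) : LaurentSeries L) := by
      show ((s48g_ev (s48d_qO Q₁) t (C a) : ↥F₂) : LaurentSeries L) = _
      rw [h1, halg]
    have e2 : Ψ (C a) = ((s48d_qRed Q₁ a : ↥Fb₁) : LaurentSeries κ) := by
      show ((s48g_evb (s48d_qRed Q₁) tb (C a) : ↥Fb₂) : LaurentSeries κ) = _
      rw [h2, halgb]
    rw [e1, e2]
    exact ⟨a.2, rfl⟩
  have hX : s48d_qRel A π (Φ X) (Ψ X) := by
    have h1 : s48g_ev (s48d_qO Q₁) t X = t := by simp [s48g_ev]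
    have h2 : s48g_evb (s48d_qRed Q₁) tb X = tb := by simp [s48g_evb]
    have e1 : Φ X = coeffMap A.subtype T := by
      show ((s48g_ev (s48d_qO Q₁) t X : ↥F₂) : LaurentSeries L) = _
      rw [h1, hT]
    have e2 : Ψ X = coeffMap π T := by
      show ((s48g_evb (s48d_qRed Q₁) tb X : ↥Fb₂) : LaurentSeries κ) = _
      rw [h2, hTb]
    rw [e1, e2]
    exact s48d_qRel_iota T
  exact s48d_qRel_poly Φ Ψ hC hX p

include halg halgb hT hTb in
/-- **`rootb` is automatic.** -/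
theorem s48d_q_rootb (hroot : s48g_ev (s48d_qO Q₁) t f = 0) :
    s48g_evb (s48d_qRed Q₁) tb f = 0 := by
  obtain ⟨hO, h⟩ := s48d_qRel_ev halg halgb Q₁ T hT hTb f
  apply Subtype.ext
  rw [← h, ZeroMemClass.coe_zero]
  have h0 : (⟨((s48g_ev (s48d_qO Q₁) t f : ↥F₂) : LaurentSeries L), hO⟩ : ↥(s37r_O A π)) = 0 := by
    apply Subtype.ext
    show ((s48g_ev (s48d_qO Q₁) t f : ↥F₂) : LaurentSeries L) = 0
    rw [hroot]
    rfl
  rw [h0, map_zero]

variable (hK : s48g_LayerData (s48d_qO Q₁) (s48d_qRed Q₁) b t f tb)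

include halg halgb hT hTb in
/-- (A) elements of helper6's Gauss ring are Gauss-integral series, with the expected reduction. -/
theorem s48d_qRel_of_mem (y : ↥(s48g_O hK)) :
    s48d_qRel A π (((y : ↥F₂) : LaurentSeries L)) ((s48g_red hK y : ↥Fb₂) : LaurentSeries κ) := by
  obtain ⟨p, hp⟩ := (s48g_mem_O_iff_ring hK (y : ↥F₂)).mp y.2
  have h1 : s48g_red hK y = s48g_evb (s48d_qRed Q₁) tb p := by
    rw [s48g_red_def, ← s48g_redRing_ev hK p]
    congr 1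
    exact Subtype.ext hp.symm
  rw [h1, ← hp]
  exact s48d_qRel_ev halg halgb Q₁ T hT hTb p

include halg halgb hT hTb in
/-- (B) conversely a Gauss-integral element of `F₂` lies in helper6's Gauss ring. -/
theorem s48d_q_mem_of_mem_O (y : ↥F₂) (hy : (y : LaurentSeries L) ∈ s37r_O A π) : y ∈ s48g_O hK := by
  by_contra hn
  have hinv : y⁻¹ ∈ s48g_O hK := ((s48g_O hK).mem_or_inv_mem y).resolve_left hn
  have hy0 : y ≠ 0 := by
    rintro rfl
    exact hn (s48g_O hK).zero_mem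
  have hred0 : s48g_red hK ⟨y⁻¹, hinv⟩ = 0 := by
    by_contra hne
    have := s48g_inv_mem hK ⟨y⁻¹, hinv⟩ hne
    rw [inv_inv] at this
    exact hn this
  obtain ⟨hO', h'⟩ := s48d_qRel_of_mem halg halgb Q₁ T hT hTb hK ⟨y⁻¹, hinv⟩
  rw [hred0, ZeroMemClass.coe_zero] at h'
  have hmul : (⟨(y : LaurentSeries L), hy⟩ : ↥(s37r_O A π)) * ⟨((y⁻¹ : ↥F₂) : LaurentSeries L), hO'⟩ = 1 := by
    apply Subtype.ext
    show (y : LaurentSeries L) * ((y⁻¹ : ↥F₂) : LaurentSeries L) = 1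
    rw [← MulMemClass.coe_mul, mul_inv_cancel₀ hy0]
    rfl
  have := congrArg (s37r_red A π) hmul
  rw [map_mul, h', mul_zero, map_one] at this
  exact zero_ne_one this

/-- the set of elements of `F₂` admitting a presentation by integral series of `F₂` reducing into `Fb₂`. -/
def s48d_qPres (A : ValuationSubring L) (π : ↥A →+* κ) (F₂ : IntermediateField L (LaurentSeries L))
    (Fb₂ : IntermediateField κ (LaurentSeries κ)) (y : LaurentSeries L) : Prop :=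
  ∃ Y₁ Y₂ : LaurentSeries ↥A,
    coeffMap A.subtype Y₁ ∈ F₂ ∧ coeffMap A.subtype Y₂ ∈ F₂ ∧ coeffMap π Y₁ ∈ Fb₂ ∧ coeffMap π Y₂ ∈ Fb₂ ∧
      coeffMap π Y₂ ≠ 0 ∧ coeffMap A.subtype Y₂ * y = coeffMap A.subtype Y₁

omit [Algebra ↥F₁ ↥F₂] [Algebra ↥Fb₁ ↥Fb₂] in
theorem s48d_qPres_add {y y' : LaurentSeries L} (h : s48d_qPres A π F₂ Fb₂ y)
    (h' : s48d_qPres A π F₂ Fb₂ y') : s48d_qPres A π F₂ Fb₂ (y + y') := by
  obtain ⟨Y₁, Y₂, h1, h2, h1k, h2k, h2ne, hrel⟩ := h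
  obtain ⟨Y₁', Y₂', h1', h2', h1k', h2k', h2ne', hrel'⟩ := h'
  refine ⟨Y₁ * Y₂' + Y₁' * Y₂, Y₂ * Y₂', ?_, ?_, ?_, ?_, ?_, ?_⟩
  · rw [map_add, map_mul, map_mul]; exact add_mem (mul_mem h1 h2') (mul_mem h1' h2)
  · rw [map_mul]; exact mul_mem h2 h2'
  · rw [map_add, map_mul, map_mul]; exact add_mem (mul_mem h1k h2k') (mul_mem h1k' h2k)
  · rw [map_mul]; exact mul_mem h2k h2k'
  · rw [map_mul]; exact mul_ne_zero h2ne h2ne'
  · rw [map_mul, map_add, map_mul, map_mul, ← hrel, ← hrel']; ring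

omit [Algebra ↥F₁ ↥F₂] [Algebra ↥Fb₁ ↥Fb₂] in
theorem s48d_qPres_mul {y y' : LaurentSeries L} (h : s48d_qPres A π F₂ Fb₂ y)
    (h' : s48d_qPres A π F₂ Fb₂ y') : s48d_qPres A π F₂ Fb₂ (y * y') := by
  obtain ⟨Y₁, Y₂, h1, h2, h1k, h2k, h2ne, hrel⟩ := h
  obtain ⟨Y₁', Y₂', h1', h2', h1k', h2k', h2ne', hrel'⟩ := h'
  refine ⟨Y₁ * Y₁', Y₂ * Y₂', ?_, ?_, ?_, ?_, ?_, ?_⟩
  · rw [map_mul]; exact mul_mem h1 h1'
  · rw [map_mul]; exact mul_mem h2 h2'
  · rw [map_mul]; exact mul_mem h1k h1k'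
  · rw [map_mul]; exact mul_mem h2k h2k'
  · rw [map_mul]; exact mul_ne_zero h2ne h2ne'
  · rw [map_mul, map_mul, ← hrel, ← hrel']; ring

omit [Algebra ↥F₁ ↥F₂] [Algebra ↥Fb₁ ↥Fb₂] in
theorem s48d_qPres_iota (T : LaurentSeries ↥A) (hT : coeffMap A.subtype T ∈ F₂)
    (hTb : coeffMap π T ∈ Fb₂) : s48d_qPres A π F₂ Fb₂ (coeffMap A.subtype T) :=
  ⟨T, 1, hT, by rw [map_one]; exact one_mem _, hTb, by rw [map_one]; exact one_mem _,
    by rw [map_one]; exact one_ne_zero, by rw [map_one, one_mul]⟩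

omit [Algebra ↥F₁ ↥F₂] [Algebra ↥Fb₁ ↥Fb₂] in
/-- polynomial induction for `s48d_qPres`. -/
theorem s48d_qPres_poly {R : Type*} [CommRing R] (Φ : R[X] →+* LaurentSeries L)
    (hC : ∀ a : R, s48d_qPres A π F₂ Fb₂ (Φ (C a)))
    (hX : s48d_qPres A π F₂ Fb₂ (Φ X)) (p : R[X]) : s48d_qPres A π F₂ Fb₂ (Φ p) := by
  induction p using Polynomial.induction_on with
  | C a => exact hC a
  | add p q hp hq =>
    rw [map_add]
    exact s48d_qPres_add hp hq
  | monomial m a ih =>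
    have e : (C a * X ^ (m + 1) : R[X]) = (C a * X ^ m) * X := by
      rw [pow_succ, mul_assoc]
    have e1 : Φ (C a * X ^ (m + 1)) = Φ (C a * X ^ m) * Φ X := by rw [e, map_mul]
    rw [e1]
    exact s48d_qPres_mul ih hX

include halg halgb hT hTb in
/-- every evaluation `p(t)`, `p ∈ qO₁[X]`, has a presentation. -/
theorem s48d_qPres_ev (p : (↥(s48d_qO Q₁))[X]) :
    s48d_qPres A π F₂ Fb₂ ((s48g_ev (s48d_qO Q₁) t p : ↥F₂) : LaurentSeries L) := by
  set Φ : (↥(s48d_qO Q₁))[X] →+* LaurentSeries L :=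
    (F₂.val : ↥F₂ →+* LaurentSeries L).comp (s48g_ev (s48d_qO Q₁) t) with hΦ
  show s48d_qPres A π F₂ Fb₂ (Φ p)
  have hle : ∀ a : ↥F₁, (a : LaurentSeries L) ∈ F₂ := fun a => by
    rw [← halg a]; exact Subtype.mem _
  have hleb : ∀ a : ↥Fb₁, (a : LaurentSeries κ) ∈ Fb₂ := fun a => by
    rw [← halgb a]; exact Subtype.mem _
  have hC : ∀ a : ↥(s48d_qO Q₁), s48d_qPres A π F₂ Fb₂ (Φ (C a)) := by
    intro a
    have h1 : s48g_ev (s48d_qO Q₁) t (C a) = algebraMap ↥F₁ ↥F₂ (a : ↥F₁) := by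
      simp [s48g_ev]
    have e1 : Φ (C a) = ((a : ↥F₁) : LaurentSeries L) := by
      show ((s48g_ev (s48d_qO Q₁) t (C a) : ↥F₂) : LaurentSeries L) = _
      rw [h1, halg]
    rw [e1]
    obtain ⟨Y₁, Y₂, h1, h2, h1k, h2k, h2ne, hrel⟩ := Q₁.pres (a : ↥F₁) a.2
    exact ⟨Y₁, Y₂, hle ⟨_, h1⟩, hle ⟨_, h2⟩, hleb ⟨_, h1k⟩, hleb ⟨_, h2k⟩, h2ne, hrel⟩
  have hX : s48d_qPres A π F₂ Fb₂ (Φ X) := by
    have h1 : s48g_ev (s48d_qO Q₁) t X = t := by simp [s48g_ev]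
    have e1 : Φ X = coeffMap A.subtype T := by
      show ((s48g_ev (s48d_qO Q₁) t X : ↥F₂) : LaurentSeries L) = _
      rw [h1, hT]
    rw [e1]
    exact s48d_qPres_iota T (hT ▸ t.2) (hTb ▸ tb.2)
  exact s48d_qPres_poly Φ hC hX p

variable (hspan : ⊤ ≤ Submodule.span ↥Fb₁ (Set.range fun i : Fin n => tb ^ (i : ℕ)))

include halg halgb hT hTb hK hspan in
/-- **the q-model step.** -/
theorem s48d_q_step : s48d_QPack A π F₂ Fb₂ where
  val := by
    intro y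
    rcases (s48g_O hK).mem_or_inv_mem y with h | h
    · exact Or.inl (s48d_qRel_of_mem halg halgb Q₁ T hT hTb hK ⟨y, h⟩).1
    · exact Or.inr (s48d_qRel_of_mem halg halgb Q₁ T hT hTb hK ⟨y⁻¹, h⟩).1
  pres := by
    intro y hy
    have hyO := s48d_q_mem_of_mem_O halg halgb Q₁ T hT hTb hK y hy
    obtain ⟨p, hp⟩ := (s48g_mem_O_iff_ring hK y).mp hyO
    rw [← hp]
    exact s48d_qPres_ev halg halgb Q₁ T hT hTb p
  surj := by
    intro g
    obtain ⟨y, hy⟩ := s48g_red_surjective hK (s48d_qRed_surjective Q₁) hspan g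
    obtain ⟨hO, h⟩ := s48d_qRel_of_mem halg halgb Q₁ T hT hTb hK y
    exact ⟨(y : ↥F₂), hO, by rw [h, hy]⟩
  scale := by
    intro y hy
    obtain ⟨a, z, ha, hz, hyz⟩ := s48g_exists_scale_O hK y hy
    obtain ⟨c, hc, hO₁, hred₁⟩ := Q₁.scale a ha
    refine ⟨c, hc, ?_⟩
    -- `c • y = (c • a) * z`
    set u : ↥(s48d_qO Q₁) := ⟨algebraMap L ↥F₁ c * a, hO₁⟩ with hu
    have hmem : algebraMap ↥F₁ ↥F₂ (u : ↥F₁) ∈ s48g_O hK := s48g_algebraMap_mem_O hK u
    have hprod : algebraMap L ↥F₂ c * y = algebraMap ↥F₁ ↥F₂ (u : ↥F₁) * (z : ↥F₂) := by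
      apply Subtype.ext
      rw [hyz, MulMemClass.coe_mul, MulMemClass.coe_mul, MulMemClass.coe_mul, halg, halg, hu]
      show _ = ((algebraMap L ↥F₁ c * a : ↥F₁) : LaurentSeries L) * _
      rw [MulMemClass.coe_mul]
      have e1 : ((algebraMap L ↥F₂ c : ↥F₂) : LaurentSeries L) = algebraMap L (LaurentSeries L) c := rfl
      have e2 : ((algebraMap L ↥F₁ c : ↥F₁) : LaurentSeries L) = algebraMap L (LaurentSeries L) c := rfl
      rw [e1, e2]
      ring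
    have hrel := s48d_qRel_of_mem halg halgb Q₁ T hT hTb hK
      ((⟨algebraMap ↥F₁ ↥F₂ (u : ↥F₁), hmem⟩ : ↥(s48g_O hK)) * z)
    have hraw : (((((⟨algebraMap ↥F₁ ↥F₂ (u : ↥F₁), hmem⟩ : ↥(s48g_O hK)) * z : ↥(s48g_O hK)) : ↥F₂)) :
        LaurentSeries L) = ((algebraMap L ↥F₂ c * y : ↥F₂) : LaurentSeries L) :=
      congrArg Subtype.val hprod.symm
    rw [hraw] at hrel
    obtain ⟨hO, h⟩ := hrel
    refine ⟨hO, ?_⟩
    rw [h, map_mul, s48g_red_algebraMap hK u]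
    intro h0
    have h0' : algebraMap ↥Fb₁ ↥Fb₂ (s48d_qRed Q₁ u) * s48g_red hK z = 0 := Subtype.ext h0
    rcases mul_eq_zero.mp h0' with h1 | h1
    · rw [map_eq_zero] at h1
      apply hred₁
      have := congrArg Subtype.val h1
      exact this
    · exact hz h1

include halg halgb hT hTb hK hspan in
/-- **helper6's abstract Gauss ring of the layer is the q-model Gauss ring.** -/
theorem s48d_q_step_O :
    s48g_O hK = s48d_qO (s48d_q_step halg halgb Q₁ T hT hTb hK hspan) := by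
  ext y
  constructor
  · intro hy
    exact (s48d_qRel_of_mem halg halgb Q₁ T hT hTb hK ⟨y, hy⟩).1
  · intro hy
    exact s48d_q_mem_of_mem_O halg halgb Q₁ T hT hTb hK y hy

include halg halgb hT hTb hK hspan in
/-- **helper6's abstract reduction of the layer is the q-model reduction.** -/
theorem s48d_q_step_red (y : ↥F₂) (hy : y ∈ s48g_O hK)
    (hy' : y ∈ s48d_qO (s48d_q_step halg halgb Q₁ T hT hTb hK hspan)) :
    s48g_red hK ⟨y, hy⟩ = s48d_qRed (s48d_q_step halg halgb Q₁ T hT hTb hK hspan) ⟨y, hy'⟩ := by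
  obtain ⟨hO, h⟩ := s48d_qRel_of_mem halg halgb Q₁ T hT hTb hK ⟨y, hy⟩
  apply Subtype.ext
  rw [← h]
  rfl

end Step

end Fermat.Agent.Lib.S48
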