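/-
S48 (Deligne–Serre), wall [T8] (helper8): GENERIC Eichler–Shimura engine, part 1b: notions RELATIVE TO A CLASS `S` of
"good" integral series.

A diamond automorphism of the Kummer layer does NOT preserve integrality of `q`-expansions in general (it moves the
cusp `∞`), only of those series which are integral at all the cusps above `∞ ∈ X₀(M)`.  So the transport hypothesis of
the engine and the generation of principal divisors are stated relative to a class `S : LaurentSeries ↥A → Prop`:

* `s48e_intPrinOn S`, `s48e_PrinGenOn S` : principal divisors are generated by divisors of Gauss units IN `S`;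
* `s48e_IsPlaceRedOn S r` : conservation of number for the Gauss units in `S` (implied by `s48e_IsPlaceRed`);
* `s48e_RedCompatOn S Sg Ps` : `Sg` maps `S` to `S`, compatibly with `Ps` on the reductions.

For `S = ⊤` these are the notions of `EGenDefs`/`EGenEquiv`.
-/
import Fermat.Agent.Lib.S48.EGenDefs

set_option autoImplicit false

namespace Fermat.Agent.Lib.S48

open ModularCurve HahnSeries AlgebraicCurve IntermediateField

noncomputable section

section Defs

variable {L : Type*} [Field L] (A : ValuationSubring L) {κ : Type*} [Field κ] (π : ↥A →+* κ)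
  (F : IntermediateField L (LaurentSeries L)) (Fb : IntermediateField κ (LaurentSeries κ))
  (S : LaurentSeries ↥A → Prop)

/-- divisors of Gauss units in the class `S`. -/
def s48e_intPrinOn : Set (Divisor L ↥F) :=
  {D | ∃ (y : LaurentSeries ↥A) (hy : coeffMap A.subtype y ∈ F),
      S y ∧ coeffMap π y ∈ Fb ∧ coeffMap π y ≠ 0 ∧
        ∀ P, D P = P.ord (⟨coeffMap A.subtype y, hy⟩ : ↥F)}

/-- principal divisors are generated by divisors of Gauss units in the class `S`. -/
def s48e_PrinGenOn : Prop :=
  Divisor.principal (K := L) (F := ↥F) ≤ AddSubgroup.closure (s48e_intPrinOn A π F Fb S)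

/-- conservation of number for the Gauss units in the class `S`. -/
def s48e_IsPlaceRedOn (r : Place L ↥F → Place κ ↥Fb) : Prop :=
  (∀ P, (r P).deg = P.deg) ∧
    ∀ (y : LaurentSeries ↥A) (hy : coeffMap A.subtype y ∈ F) (hyk : coeffMap π y ∈ Fb),
      S y → coeffMap π y ≠ 0 →
        ∀ D : Divisor L ↥F, (∀ P, D P = P.ord (⟨coeffMap A.subtype y, hy⟩ : ↥F)) →
          ∀ Q, Finsupp.mapDomain r D Q = Q.ord (⟨coeffMap π y, hyk⟩ : ↥Fb)

/-- compatibility of a pair of semilinear automorphisms with reduction, on the class `S`. -/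
def s48e_RedCompatOn (Sg : SemilinearAut L ↥F) (Ps : SemilinearAut κ ↥Fb) : Prop :=
  ∀ (Y : LaurentSeries ↥A) (hY : coeffMap A.subtype Y ∈ F) (hYk : coeffMap π Y ∈ Fb), S Y →
    ∃ Y' : LaurentSeries ↥A, S Y' ∧
      coeffMap A.subtype Y' = ((Sg • (⟨coeffMap A.subtype Y, hY⟩ : ↥F) : ↥F) : LaurentSeries L) ∧
      coeffMap π Y' = ((Ps • (⟨coeffMap π Y, hYk⟩ : ↥Fb) : ↥Fb) : LaurentSeries κ)

variable {A π F Fb S}

theorem s48e_intPrinOn_subset : s48e_intPrinOn A π F Fb S ⊆ s48e_intPrin A π F Fb := by
  rintro D ⟨y, hy, -, hyk, hne, hD⟩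
  exact ⟨y, hy, hyk, hne, hD⟩

theorem s48e_PrinGenOn.prinGen (h : s48e_PrinGenOn A π F Fb S) : s48e_PrinGen A π F Fb :=
  h.trans (AddSubgroup.closure_mono s48e_intPrinOn_subset)

theorem s48e_IsPlaceRed.on {r : Place L ↥F → Place κ ↥Fb} (hr : s48e_IsPlaceRed A π F Fb r) :
    s48e_IsPlaceRedOn A π F Fb S r :=
  ⟨hr.1, fun y hy hyk _ hne D hD Q => hr.2 y hy hyk hne D hD Q⟩

end Defs

end

end Fermat.Agent.Lib.S48
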