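/-
DS-1 (S48), wall [T7] (helper7, prefix `s48d_q`): the q-model package RELATIVE TO A CLASS `S` of good integral series
(helper8's `EGenOn.lean`; needed because the diamond automorphisms preserve integrality only of the series which are
integral at all cusps above `∞`, see board #2393/#2395).

* `s48d_QPresOn A π F Fb S` : (Q3′) every Gauss-integral function of `F` is `ιY₁/ιY₂` with `Y₁ Y₂ ∈ S` integral series
  of `F` reducing into `Fb`, `ρY₂ ≠ 0`;
* `s48d_q_prinGenOn`        : (S2) `s48e_PrinGenOn A π F Fb S` from (Q3′) + (scale);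
* `s48d_q_step_on`          : (Q3′) propagates through a layer `F₂ = F₁(t)`, `t = ιT`, `T ∈ S` (`S` closed under `+`, `*`,
  `1 ∈ S`; the SAME class `S` at all levels of a tower).
-/
import Fermat.Agent.Lib.S48.DQStep
import Fermat.Agent.Lib.S48.EGenOn

set_option autoImplicit false
set_option linter.unusedSectionVars false
set_option linter.style.haveILetI false

noncomputable section

namespace Fermat.Agent.Lib.S48

open ModularCurve HahnSeries AlgebraicCurve IntermediateField Polynomial Fermat.Agent.Lib.S37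
  Fermat.Agent.Lib.FF

variable {L : Type*} [Field L] {A : ValuationSubring L} {κ : Type*} [Field κ] {π : ↥A →+* κ}

/-- presentation of `y` by two series of the class `S`. -/
def s48d_qPresOn (A : ValuationSubring L) (π : ↥A →+* κ) (F : IntermediateField L (LaurentSeries L))
    (Fb : IntermediateField κ (LaurentSeries κ)) (S : LaurentSeries ↥A → Prop)
    (y : LaurentSeries L) : Prop :=
  ∃ Y₁ Y₂ : LaurentSeries ↥A, S Y₁ ∧ S Y₂ ∧
    coeffMap A.subtype Y₁ ∈ F ∧ coeffMap A.subtype Y₂ ∈ F ∧ coeffMap π Y₁ ∈ Fb ∧ coeffMap π Y₂ ∈ Fb ∧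
      coeffMap π Y₂ ≠ 0 ∧ coeffMap A.subtype Y₂ * y = coeffMap A.subtype Y₁

/-- **(Q3′)**: every Gauss-integral function has a presentation by series of the class `S`. -/
def s48d_QPresOn (A : ValuationSubring L) (π : ↥A →+* κ) (F : IntermediateField L (LaurentSeries L))
    (Fb : IntermediateField κ (LaurentSeries κ)) (S : LaurentSeries ↥A → Prop) : Prop :=
  ∀ f : ↥F, (f : LaurentSeries L) ∈ s37r_O A π → s48d_qPresOn A π F Fb S (f : LaurentSeries L)

section Closure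

variable {F : IntermediateField L (LaurentSeries L)} {Fb : IntermediateField κ (LaurentSeries κ)}
  {S : LaurentSeries ↥A → Prop}
  (hadd : ∀ Y Z, S Y → S Z → S (Y + Z)) (hmul : ∀ Y Z, S Y → S Z → S (Y * Z)) (hone : S 1)

include hadd hmul in
theorem s48d_qPresOn_add {y y' : LaurentSeries L} (h : s48d_qPresOn A π F Fb S y)
    (h' : s48d_qPresOn A π F Fb S y') : s48d_qPresOn A π F Fb S (y + y') := by
  obtain ⟨Y₁, Y₂, s1, s2, h1, h2, h1k, h2k, h2ne, hrel⟩ := h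
  obtain ⟨Y₁', Y₂', s1', s2', h1', h2', h1k', h2k', h2ne', hrel'⟩ := h'
  refine ⟨Y₁ * Y₂' + Y₁' * Y₂, Y₂ * Y₂', hadd _ _ (hmul _ _ s1 s2') (hmul _ _ s1' s2),
    hmul _ _ s2 s2', ?_, ?_, ?_, ?_, ?_, ?_⟩
  · rw [map_add, map_mul, map_mul]; exact add_mem (mul_mem h1 h2') (mul_mem h1' h2)
  · rw [map_mul]; exact mul_mem h2 h2'
  · rw [map_add, map_mul, map_mul]; exact add_mem (mul_mem h1k h2k') (mul_mem h1k' h2k)
  · rw [map_mul]; exact mul_mem h2k h2k'
  · rw [map_mul]; exact mul_ne_zero h2ne h2ne'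
  · rw [map_mul, map_add, map_mul, map_mul, ← hrel, ← hrel']; ring

include hmul in
theorem s48d_qPresOn_mul {y y' : LaurentSeries L} (h : s48d_qPresOn A π F Fb S y)
    (h' : s48d_qPresOn A π F Fb S y') : s48d_qPresOn A π F Fb S (y * y') := by
  obtain ⟨Y₁, Y₂, s1, s2, h1, h2, h1k, h2k, h2ne, hrel⟩ := h
  obtain ⟨Y₁', Y₂', s1', s2', h1', h2', h1k', h2k', h2ne', hrel'⟩ := h'
  refine ⟨Y₁ * Y₁', Y₂ * Y₂', hmul _ _ s1 s1', hmul _ _ s2 s2', ?_, ?_, ?_, ?_, ?_, ?_⟩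
  · rw [map_mul]; exact mul_mem h1 h1'
  · rw [map_mul]; exact mul_mem h2 h2'
  · rw [map_mul]; exact mul_mem h1k h1k'
  · rw [map_mul]; exact mul_mem h2k h2k'
  · rw [map_mul]; exact mul_ne_zero h2ne h2ne'
  · rw [map_mul, map_mul, ← hrel, ← hrel']; ring

include hone in
theorem s48d_qPresOn_iota (T : LaurentSeries ↥A) (hS : S T) (hT : coeffMap A.subtype T ∈ F)
    (hTb : coeffMap π T ∈ Fb) : s48d_qPresOn A π F Fb S (coeffMap A.subtype T) :=
  ⟨T, 1, hS, hone, hT, by rw [map_one]; exact one_mem _, hTb, by rw [map_one]; exact one_mem _,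
    by rw [map_one]; exact one_ne_zero, by rw [map_one, one_mul]⟩

include hadd hmul in
/-- polynomial induction for `s48d_qPresOn`. -/
theorem s48d_qPresOn_poly {R : Type*} [CommRing R] (Φ : R[X] →+* LaurentSeries L)
    (hC : ∀ a : R, s48d_qPresOn A π F Fb S (Φ (C a)))
    (hX : s48d_qPresOn A π F Fb S (Φ X)) (p : R[X]) : s48d_qPresOn A π F Fb S (Φ p) := by
  induction p using Polynomial.induction_on with
  | C a => exact hC a
  | add p q hp hq =>
    have e1 : Φ (p + q) = Φ p + Φ q := map_add Φ p q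
    rw [e1]
    exact s48d_qPresOn_add hadd hmul hp hq
  | monomial m a ih =>
    have e : (C a * X ^ (m + 1) : R[X]) = (C a * X ^ m) * X := by
      rw [pow_succ, mul_assoc]
    have e1 : Φ (C a * X ^ (m + 1)) = Φ (C a * X ^ m) * Φ X := by rw [e, map_mul]
    rw [e1]
    exact s48d_qPresOn_mul hmul ih hX

end Closure

/-- **(S2)**: principal divisors are generated by the divisors of the Gauss units of the class `S`. -/
theorem s48d_q_prinGenOn {F : IntermediateField L (LaurentSeries L)}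
    {Fb : IntermediateField κ (LaurentSeries κ)} {S : LaurentSeries ↥A → Prop}
    (Q : s48d_QPack A π F Fb) (hS : s48d_QPresOn A π F Fb S)
    (hfin : ∀ y : ↥F, y ≠ 0 → {P : Place L ↥F | P.ord y ≠ 0}.Finite) :
    s48e_PrinGenOn A π F Fb S := by
  classical
  intro D hD
  obtain ⟨f, hf, hDf⟩ := hD
  obtain ⟨c, hc, hO, hred⟩ := Q.scale f hf
  set u : ↥F := algebraMap L ↥F c * f with hu
  obtain ⟨Y₁, Y₂, s1, s2, h1, h2, h1k, h2k, h2ne, hrel⟩ := hS u hO
  have hredu : s37r_red A π ⟨(u : LaurentSeries L), hO⟩ = coeffMap π Y₁ / coeffMap π Y₂ :=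
    s37r_red_eq A π _ Y₁ Y₂ h2ne hrel
  have h1ne : coeffMap π Y₁ ≠ 0 := by
    intro h0
    apply hred
    rw [hredu, h0, zero_div]
  set y1 : ↥F := ⟨coeffMap A.subtype Y₁, h1⟩ with hy1
  set y2 : ↥F := ⟨coeffMap A.subtype Y₂, h2⟩ with hy2
  have hy1ne : y1 ≠ 0 := by
    intro h0
    apply h1ne
    have h0' : coeffMap A.subtype Y₁ = 0 := congrArg Subtype.val h0
    have : Y₁ = 0 := s37r_iota_injective A (by rw [h0', map_zero])
    rw [this, map_zero]
  have hy2ne : y2 ≠ 0 := by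
    intro h0
    apply h2ne
    have h0' : coeffMap A.subtype Y₂ = 0 := congrArg Subtype.val h0
    have : Y₂ = 0 := s37r_iota_injective A (by rw [h0', map_zero])
    rw [this, map_zero]
  have hrelF : y2 * (algebraMap L ↥F c * f) = y1 := Subtype.ext hrel
  have hc0 : algebraMap L ↥F c ≠ 0 := by
    rw [Ne, map_eq_zero]
    exact hc
  have hord : ∀ P : Place L ↥F, P.ord f = P.ord y1 - P.ord y2 := by
    intro P
    have h := congrArg P.ord hrelF
    rw [P.ord_mul hy2ne (mul_ne_zero hc0 hf), P.ord_mul hc0 hf, ff_ord_algebraMap, zero_add] at h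
    omega
  set D1 : Divisor L ↥F := Finsupp.ofSupportFinite (fun P => P.ord y1) (hfin y1 hy1ne) with hD1
  set D2 : Divisor L ↥F := Finsupp.ofSupportFinite (fun P => P.ord y2) (hfin y2 hy2ne) with hD2
  have hDD : D = D1 - D2 := Finsupp.ext fun P => by
    rw [hDf, Finsupp.sub_apply, hord]
    rfl
  have hmem1 : D1 ∈ s48e_intPrinOn A π F Fb S := ⟨Y₁, h1, s1, h1k, h1ne, fun P => rfl⟩
  have hmem2 : D2 ∈ s48e_intPrinOn A π F Fb S := ⟨Y₂, h2, s2, h2k, h2ne, fun P => rfl⟩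
  rw [hDD]
  exact AddSubgroup.sub_mem _ (AddSubgroup.subset_closure hmem1) (AddSubgroup.subset_closure hmem2)

section Step

variable {F₁ F₂ : IntermediateField L (LaurentSeries L)} {Fb₁ Fb₂ : IntermediateField κ (LaurentSeries κ)}
  [Algebra ↥F₁ ↥F₂] [Algebra ↥Fb₁ ↥Fb₂]
  (halg : ∀ a : ↥F₁, ((algebraMap ↥F₁ ↥F₂ a : ↥F₂) : LaurentSeries L) = (a : LaurentSeries L))
  (halgb : ∀ a : ↥Fb₁, ((algebraMap ↥Fb₁ ↥Fb₂ a : ↥Fb₂) : LaurentSeries κ) = (a : LaurentSeries κ))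
  (Q₁ : s48d_QPack A π F₁ Fb₁) {n : ℕ} {b : Module.Basis (Fin n) ↥F₁ ↥F₂} {t : ↥F₂}
  {f : (↥(s48d_qO Q₁))[X]} {tb : ↥Fb₂}
  (T : LaurentSeries ↥A) (hT : (t : LaurentSeries L) = coeffMap A.subtype T)
  (hTb : (tb : LaurentSeries κ) = coeffMap π T)
  (hK : s48g_LayerData (s48d_qO Q₁) (s48d_qRed Q₁) b t f tb)
  {S : LaurentSeries ↥A → Prop}
  (hadd : ∀ Y Z, S Y → S Z → S (Y + Z)) (hmul : ∀ Y Z, S Y → S Z → S (Y * Z)) (hone : S 1)

include halg halgb hT hTb hK hadd hmul hone in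
/-- **(Q3′) propagates through a layer** whose generator is an integral series of the class `S`. -/
theorem s48d_q_step_on (hS₁ : s48d_QPresOn A π F₁ Fb₁ S) (hST : S T) :
    s48d_QPresOn A π F₂ Fb₂ S := by
  intro y hy
  have hyO := s48d_q_mem_of_mem_O halg halgb Q₁ T hT hTb hK y hy
  obtain ⟨p, hp⟩ := (s48g_mem_O_iff_ring hK y).mp hyO
  rw [← hp]
  set Φ : (↥(s48d_qO Q₁))[X] →+* LaurentSeries L :=
    (F₂.val : ↥F₂ →+* LaurentSeries L).comp (s48g_ev (s48d_qO Q₁) t) with hΦ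
  show s48d_qPresOn A π F₂ Fb₂ S (Φ p)
  have hle : ∀ a : ↥F₁, (a : LaurentSeries L) ∈ F₂ := fun a => by
    rw [← halg a]; exact Subtype.mem _
  have hleb : ∀ a : ↥Fb₁, (a : LaurentSeries κ) ∈ Fb₂ := fun a => by
    rw [← halgb a]; exact Subtype.mem _
  have hC : ∀ a : ↥(s48d_qO Q₁), s48d_qPresOn A π F₂ Fb₂ S (Φ (C a)) := by
    intro a
    have h1 : s48g_ev (s48d_qO Q₁) t (C a) = algebraMap ↥F₁ ↥F₂ (a : ↥F₁) := by
      simp [s48g_ev]
    have e1 : Φ (C a) = ((a : ↥F₁) : LaurentSeries L) := by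
      show ((s48g_ev (s48d_qO Q₁) t (C a) : ↥F₂) : LaurentSeries L) = _
      rw [h1, halg]
    rw [e1]
    obtain ⟨Y₁, Y₂, s1, s2, h1, h2, h1k, h2k, h2ne, hrel⟩ := hS₁ (a : ↥F₁) a.2
    exact ⟨Y₁, Y₂, s1, s2, hle ⟨_, h1⟩, hle ⟨_, h2⟩, hleb ⟨_, h1k⟩, hleb ⟨_, h2k⟩, h2ne, hrel⟩
  have hX : s48d_qPresOn A π F₂ Fb₂ S (Φ X) := by
    have h1 : s48g_ev (s48d_qO Q₁) t X = t := by simp [s48g_ev]
    have e1 : Φ X = coeffMap A.subtype T := by
      show ((s48g_ev (s48d_qO Q₁) t X : ↥F₂) : LaurentSeries L) = _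
      rw [h1, hT]
    rw [e1]
    exact s48d_qPresOn_iota hone T hST (hT ▸ t.2) (hTb ▸ tb.2)
  exact s48d_qPresOn_poly hadd hmul Φ hC hX p

end Step

end Fermat.Agent.Lib.S48
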