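/-
DS-1 (S48), wall [T7] (helper6), brick (G2-a): **trace duality and lifting from the special fibre**.

Setting of `GKummer` (`hK : s48g_LayerData O₀ red₀ b t f tb`, `O = s48g_O hK`, `red = s48g_red hK`),
`bb` a basis of `Fb/Fb₀` made of the powers of `tb`.  A *dual generator* is a generator `s` of
`F/F₀` (powers = basis `bs`) together with a family `sd l` and an element `d ∈ F₀` such that
`Tr (s ^ i * sd l) = d • δ_il`  (`s48g_DualGen`; Kummer case `s ^ n = u`: `sd 0 = u`,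
`sd l = s ^ (n - l)`, `d = n u`).

* `s48g_dual_expand`     : `d • y = ∑ Tr (y * sd l) • s ^ l`;
* `s48g_dualb_expand`    : the same on the special fibre, if `red₀ d ≠ 0`;
* `s48g_exists_lift_mul` : if `R₀ ⊆ O₀`, `R ⊆ O` are subrings, `red₀ R₀ ⊇ S₀`, and `z ∈ Fb` pairs
  `red R` into `S₀` under the trace form, then `red₀ d • z` lifts to `R`;
* `s48g_exists_lift`     : with a partition of unity `∑ e j * d j = 1`: `z` itself lifts to `R`.
Base-agnostic (no places, no constants): it serves the top level and the finite (DVR) levels.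
-/
import Fermat.Agent.Lib.S48.GKummer

set_option autoImplicit false
set_option linter.unusedSectionVars false
set_option linter.style.haveILetI false

noncomputable section

namespace Fermat.Agent.Lib.S48

open Polynomial

variable {F₀ F : Type*} [Field F₀] [Field F] [Algebra F₀ F]
  {Fb₀ Fb : Type*} [Field Fb₀] [Field Fb] [Algebra Fb₀ Fb]

/-- **a dual generator** of `F/F₀`: `Tr (s ^ i * sd l) = d • δ_il`. -/
structure s48g_DualGen {n : ℕ} (bs : Module.Basis (Fin n) F₀ F) (s : F) (sd : Fin n → F) (d : F₀) :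
    Prop where
  /-- the basis consists of the powers of `s`. -/
  basis : ∀ i : Fin n, bs i = s ^ (i : ℕ)
  /-- the duality relation. -/
  trace_eq : ∀ i l : Fin n, Algebra.trace F₀ F (s ^ (i : ℕ) * sd l) = if i = l then d else 0

/-- **expansion along a dual generator**: `d • y = ∑ Tr (y * sd l) • s ^ l`. -/
theorem s48g_dual_expand {n : ℕ} {bs : Module.Basis (Fin n) F₀ F} {s : F} {sd : Fin n → F} {d : F₀}
    (hD : s48g_DualGen bs s sd d) (y : F) :
    algebraMap F₀ F d * y = ∑ l : Fin n, algebraMap F₀ F (Algebra.trace F₀ F (y * sd l)) * s ^ (l : ℕ) := by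
  have hy : y = ∑ i : Fin n, bs.repr y i • bs i := (bs.sum_repr y).symm
  have htr : ∀ l : Fin n, Algebra.trace F₀ F (y * sd l) = bs.repr y l * d := by
    intro l
    conv_lhs => rw [hy, Finset.sum_mul, map_sum]
    have h1 : ∀ i : Fin n, Algebra.trace F₀ F (bs.repr y i • bs i * sd l) =
        if i = l then bs.repr y i * d else 0 := by
      intro i
      rw [smul_mul_assoc, map_smul, hD.basis, hD.trace_eq, smul_eq_mul]
      split_ifs
      · rfl
      · rw [mul_zero]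
    rw [Finset.sum_congr rfl fun i _ => h1 i, Finset.sum_ite_eq' Finset.univ l]
    simp
  conv_lhs => rw [hy, Finset.mul_sum]
  refine Finset.sum_congr rfl fun l _ => ?_
  rw [htr l, hD.basis, Algebra.smul_def, map_mul]
  ring

variable {O₀ : ValuationSubring F₀} {red₀ : ↥O₀ →+* Fb₀} {n : ℕ}
  {b : Module.Basis (Fin n) F₀ F} {t : F} {f : (↥O₀)[X]} {tb : Fb}
  (hK : s48g_LayerData O₀ red₀ b t f tb)
  (bb : Module.Basis (Fin n) Fb₀ Fb) (hbb : ∀ i : Fin n, bb i = tb ^ (i : ℕ))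

include hbb in
/-- the dimension of the special fibre extension. -/
theorem s48g_finrank_b : Module.finrank Fb₀ Fb = n := by
  rw [Module.finrank_eq_card_basis bb, Fintype.card_fin]

include hbb in
/-- **expansion along the reduction of a dual generator** (if `red₀ d ≠ 0`). -/
theorem s48g_dualb_expand {s : F} {sd : Fin n → F} {d : F₀} {bs : Module.Basis (Fin n) F₀ F}
    (hD : s48g_DualGen bs s sd d)
    (hs : s ∈ s48g_O hK) (hsd : ∀ l, sd l ∈ s48g_O hK) (hd : d ∈ O₀) (hd0 : red₀ ⟨d, hd⟩ ≠ 0)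
    (z : Fb) :
    algebraMap Fb₀ Fb (red₀ ⟨d, hd⟩) * z =
      ∑ l : Fin n, algebraMap Fb₀ Fb (Algebra.trace Fb₀ Fb (z * s48g_red hK ⟨sd l, hsd l⟩)) *
        s48g_red hK ⟨s, hs⟩ ^ (l : ℕ) := by
  classical
  set sb : Fb := s48g_red hK ⟨s, hs⟩ with hsb
  set sdb : Fin n → Fb := fun l => s48g_red hK ⟨sd l, hsd l⟩ with hsdb
  -- the duality relation on the special fibre
  have htrb : ∀ i l : Fin n, Algebra.trace Fb₀ Fb (sb ^ (i : ℕ) * sdb l) =
      if i = l then red₀ ⟨d, hd⟩ else 0 := by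
    intro i l
    have hmem : s ^ (i : ℕ) * sd l ∈ s48g_O hK :=
      (s48g_O hK).mul_mem _ _ (pow_mem hs _) (hsd l)
    have h1 : sb ^ (i : ℕ) * sdb l = s48g_red hK ⟨s ^ (i : ℕ) * sd l, hmem⟩ := by
      rw [hsb, hsdb, ← map_pow, ← map_mul]
      rfl
    rw [h1, s48g_red_trace hK bb hbb]
    have h2 : (⟨Algebra.trace F₀ F (s ^ (i : ℕ) * sd l), s48g_trace_mem hK ⟨_, hmem⟩⟩ : ↥O₀) =
        if i = l then ⟨d, hd⟩ else 0 := by
      apply Subtype.ext
      show Algebra.trace F₀ F (s ^ (i : ℕ) * sd l) = _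
      rw [hD.trace_eq]
      split_ifs <;> rfl
    rw [h2]
    split_ifs
    · rfl
    · exact map_zero _
  -- the powers of `sb` are linearly independent, hence a basis
  have hli : LinearIndependent Fb₀ (fun i : Fin n => sb ^ (i : ℕ)) := by
    rw [Fintype.linearIndependent_iff]
    intro g hg l
    have h1 := congrArg (fun y => Algebra.trace Fb₀ Fb (y * sdb l)) hg
    simp only [zero_mul, map_zero, Finset.sum_mul, map_sum] at h1
    have h2 : ∀ i : Fin n, Algebra.trace Fb₀ Fb (g i • sb ^ (i : ℕ) * sdb l) =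
        if i = l then g i * red₀ ⟨d, hd⟩ else 0 := by
      intro i
      rw [smul_mul_assoc, map_smul, htrb, smul_eq_mul]
      split_ifs
      · rfl
      · rw [mul_zero]
    rw [Finset.sum_congr rfl fun i _ => h2 i, Finset.sum_ite_eq' Finset.univ l] at h1
    simp only [Finset.mem_univ, if_true] at h1
    exact (mul_eq_zero.mp h1).resolve_right hd0
  have hcard : Fintype.card (Fin n) = Module.finrank Fb₀ Fb := by
    rw [s48g_finrank_b bb hbb, Fintype.card_fin]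
  haveI : Nonempty (Fin n) := ⟨⟨0, s48g_n_pos hK⟩⟩
  set bsb : Module.Basis (Fin n) Fb₀ Fb := basisOfLinearIndependentOfCardEqFinrank hli hcard
    with hbsb
  have hbsb_apply : ∀ i : Fin n, bsb i = sb ^ (i : ℕ) := fun i => by
    rw [hbsb, coe_basisOfLinearIndependentOfCardEqFinrank]
  have hDb : s48g_DualGen bsb sb sdb (red₀ ⟨d, hd⟩) := ⟨hbsb_apply, htrb⟩
  exact s48g_dual_expand hDb z

include hbb in
/-- **lifting `red₀ d • z`** along a dual generator. -/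
theorem s48g_exists_lift_mul
    (R₀ : Subring F₀) (hR₀ : ∀ y ∈ R₀, y ∈ O₀) (S₀ : Subring Fb₀)
    (hsurj : ∀ z ∈ S₀, ∃ (y : F₀) (hy : y ∈ R₀), red₀ ⟨y, hR₀ y hy⟩ = z)
    (R : Subring F) (hR : ∀ y ∈ R, y ∈ s48g_O hK) (hR₀R : ∀ y ∈ R₀, algebraMap F₀ F y ∈ R)
    {s : F} {sd : Fin n → F} {d : F₀} {bs : Module.Basis (Fin n) F₀ F}
    (hD : s48g_DualGen bs s sd d) (hs : s ∈ R) (hsd : ∀ l, sd l ∈ R)
    (hd : d ∈ O₀) (hd0 : red₀ ⟨d, hd⟩ ≠ 0) (z : Fb)
    (hz : ∀ y (hy : y ∈ R), Algebra.trace Fb₀ Fb (z * s48g_red hK ⟨y, hR y hy⟩) ∈ S₀) :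
    ∃ (y : F) (hy : y ∈ R),
      s48g_red hK ⟨y, hR y hy⟩ = algebraMap Fb₀ Fb (red₀ ⟨d, hd⟩) * z := by
  classical
  choose c hcR hc using fun l : Fin n => hsurj _ (hz (sd l) (hsd l))
  have hterm : ∀ l : Fin n, algebraMap F₀ F (c l) * s ^ (l : ℕ) ∈ R := fun l =>
    R.mul_mem (hR₀R _ (hcR l)) (pow_mem hs _)
  have hymem : ∑ l : Fin n, algebraMap F₀ F (c l) * s ^ (l : ℕ) ∈ R :=
    sum_mem fun l _ => hterm l
  refine ⟨_, hymem, ?_⟩
  rw [s48g_dualb_expand hK bb hbb hD (hR s hs) (fun l => hR _ (hsd l)) hd hd0 z]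
  have h1 : (⟨∑ l : Fin n, algebraMap F₀ F (c l) * s ^ (l : ℕ), hR _ hymem⟩ : ↥(s48g_O hK)) =
      ∑ l : Fin n, (⟨algebraMap F₀ F (c l), s48g_algebraMap_mem_O hK ⟨c l, hR₀ _ (hcR l)⟩⟩ :
        ↥(s48g_O hK)) * (⟨s, hR s hs⟩ : ↥(s48g_O hK)) ^ (l : ℕ) := by
    apply Subtype.ext
    rw [AddSubmonoidClass.coe_finsetSum]
    rfl
  rw [h1, map_sum]
  refine Finset.sum_congr rfl fun l _ => ?_
  rw [map_mul, map_pow]
  congr 1
  rw [← hc l]
  exact s48g_red_algebraMap hK ⟨c l, hR₀ _ (hcR l)⟩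

include hbb in
/-- **lifting from the special fibre** with a partition of unity by the `d j`. -/
theorem s48g_exists_lift {ι : Type*} (J : Finset ι)
    (R₀ : Subring F₀) (hR₀ : ∀ y ∈ R₀, y ∈ O₀) (S₀ : Subring Fb₀)
    (hsurj : ∀ z ∈ S₀, ∃ (y : F₀) (hy : y ∈ R₀), red₀ ⟨y, hR₀ y hy⟩ = z)
    (R : Subring F) (hR : ∀ y ∈ R, y ∈ s48g_O hK) (hR₀R : ∀ y ∈ R₀, algebraMap F₀ F y ∈ R)
    (s : ι → F) (sd : ι → Fin n → F) (d e : ι → ↥O₀) (bs : ι → Module.Basis (Fin n) F₀ F)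
    (hD : ∀ j ∈ J, s48g_DualGen (bs j) (s j) (sd j) ((d j : ↥O₀) : F₀))
    (hs : ∀ j ∈ J, s j ∈ R) (hsd : ∀ j ∈ J, ∀ l, sd j l ∈ R)
    (he : ∀ j ∈ J, ((e j : ↥O₀) : F₀) ∈ R₀)
    (hone : red₀ (∑ j ∈ J, e j * d j) = 1) (z : Fb)
    (hz : ∀ y (hy : y ∈ R), Algebra.trace Fb₀ Fb (z * s48g_red hK ⟨y, hR y hy⟩) ∈ S₀) :
    ∃ (y : F) (hy : y ∈ R), s48g_red hK ⟨y, hR y hy⟩ = z := by
  classical
  -- the lifts of `red₀ (d j) • z`
  have hex : ∀ j : ι, ∃ (y : F) (hy : y ∈ R), j ∈ J →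
      s48g_red hK ⟨y, hR y hy⟩ = algebraMap Fb₀ Fb (red₀ (d j)) * z := by
    intro j
    by_cases hj : j ∈ J
    · by_cases hd0 : red₀ (d j) ≠ 0
      · obtain ⟨y, hy, hyz⟩ := s48g_exists_lift_mul hK bb hbb R₀ hR₀ S₀ hsurj R hR hR₀R (hD j hj)
          (hs j hj) (hsd j hj) (d j).2 hd0 z hz
        exact ⟨y, hy, fun _ => hyz⟩
      · rw [not_not] at hd0
        refine ⟨0, R.zero_mem, fun _ => ?_⟩
        rw [hd0, map_zero, zero_mul]
        exact map_zero _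
    · exact ⟨0, R.zero_mem, fun h => absurd h hj⟩
  choose y hyR hy using hex
  have hterm : ∀ j ∈ J, algebraMap F₀ F ((e j : ↥O₀) : F₀) * y j ∈ R := fun j hj =>
    R.mul_mem (hR₀R _ (he j hj)) (hyR j)
  have hmem : ∑ j ∈ J, algebraMap F₀ F ((e j : ↥O₀) : F₀) * y j ∈ R :=
    sum_mem fun j hj => hterm j hj
  refine ⟨_, hmem, ?_⟩
  have h1 : (⟨∑ j ∈ J, algebraMap F₀ F ((e j : ↥O₀) : F₀) * y j, hR _ hmem⟩ : ↥(s48g_O hK)) =
      ∑ j ∈ J, (⟨algebraMap F₀ F ((e j : ↥O₀) : F₀), s48g_algebraMap_mem_O hK (e j)⟩ :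
        ↥(s48g_O hK)) * ⟨y j, hR _ (hyR j)⟩ := by
    apply Subtype.ext
    rw [AddSubmonoidClass.coe_finsetSum]
    rfl
  rw [h1, map_sum]
  have h2 : ∀ j ∈ J, s48g_red hK ((⟨algebraMap F₀ F ((e j : ↥O₀) : F₀),
      s48g_algebraMap_mem_O hK (e j)⟩ : ↥(s48g_O hK)) * ⟨y j, hR _ (hyR j)⟩) =
      algebraMap Fb₀ Fb (red₀ (e j * d j)) * z := by
    intro j hj
    rw [map_mul, s48g_red_algebraMap, hy j hj, map_mul, map_mul]
    ring
  rw [Finset.sum_congr rfl h2, ← Finset.sum_mul, ← map_sum, ← map_sum, hone, map_one, one_mul]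

end Fermat.Agent.Lib.S48
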