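/-
DS-1 (S48), wall [T7] (helper6), brick (G3-a): **étale chart data with a partition of unity**, and
their level-agnostic consequences.

Setting of `GKummer`/`GDual` (`hK : s48g_LayerData O₀ red₀ b t f tb`, `O = s48g_O hK`,
`red = s48g_red hK`).  `R₀ ⊆ O₀`, `R ⊆ O` are subrings (the chart rings of the base and of the
layer, at the top level or at a finite level).  An *étale datum* `s48g_Etale R₀ R J bs s fR sd η d e`
is a finite family of generators `s j ∈ R` of `F/F₀`, roots of monic `fR j ∈ R₀[X]`, with trace-dual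
families `sd j l ∈ R` (`Tr (s j ^ i * sd j l) = d j • δ_il`), certificates
`fR j ′(s j) * η j = d j` (`η j ∈ R`) and a partition of unity `∑ e j * d j = 1` in `R₀`; moreover
`R₀ ⊆ R` and `Tr R ⊆ R₀`.

* `s48g_etale_expand`     : `y = ∑_j e j • ∑_l Tr (y * sd j l) • s j ^ l`;
* `s48g_etale_isIntegral` : `R` is integral over `R₀`;
* `s48g_etale_lift`       : (P3) elements of `Fb` integral over `red₀ R₀` lift to `R`;
* `s48g_etale_ker`        : (P5) the kernel of the reduction on `R` is generated by the small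
  constants, if this holds on `R₀`;
* `s48g_etale_alpha`      : (P7) every element of `O` is a quotient of elements of `R` with unit
  denominator, if this holds for `O₀`, `R₀`.
-/
import Fermat.Agent.Lib.S48.GDual

set_option autoImplicit false
set_option linter.unusedSectionVars false
set_option linter.style.haveILetI false

noncomputable section

namespace Fermat.Agent.Lib.S48

open Polynomial

variable {F₀ F : Type*} [Field F₀] [Field F] [Algebra F₀ F]
  {Fb₀ Fb : Type*} [Field Fb₀] [Field Fb] [Algebra Fb₀ Fb]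

/-- the inclusion of a subring of `F₀` into `F`. -/
def s48g_incl (R₀ : Subring F₀) : ↥R₀ →+* F := (algebraMap F₀ F).comp R₀.subtype

theorem s48g_incl_apply (R₀ : Subring F₀) (r : ↥R₀) :
    s48g_incl (F := F) R₀ r = algebraMap F₀ F (r : F₀) := rfl

/-- **étale chart datum with a partition of unity.** -/
structure s48g_Etale (R₀ : Subring F₀) (R : Subring F) {n : ℕ} {ι : Type*} (J : Finset ι)
    (bs : ι → Module.Basis (Fin n) F₀ F) (s : ι → F) (fR : ι → (↥R₀)[X])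
    (sd : ι → Fin n → F) (η : ι → F) (d e : ι → ↥R₀) : Prop where
  /-- the trace duality. -/
  dual : ∀ j ∈ J, s48g_DualGen (bs j) (s j) (sd j) ((d j : ↥R₀) : F₀)
  s_mem : ∀ j ∈ J, s j ∈ R
  sd_mem : ∀ j ∈ J, ∀ l, sd j l ∈ R
  eta_mem : ∀ j ∈ J, η j ∈ R
  monic : ∀ j ∈ J, (fR j).Monic
  natDegree : ∀ j ∈ J, (fR j).natDegree = n
  root : ∀ j ∈ J, eval₂ (s48g_incl (F := F) R₀) (s j) (fR j) = 0
  /-- the certificate that `fR j ′ (s j)` divides `d j`. -/
  cert : ∀ j ∈ J, eval₂ (s48g_incl (F := F) R₀) (s j) (derivative (fR j)) * η j =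
    algebraMap F₀ F ((d j : ↥R₀) : F₀)
  /-- the partition of unity. -/
  one : ∑ j ∈ J, e j * d j = 1
  base_mem : ∀ y ∈ R₀, algebraMap F₀ F y ∈ R
  trace_mem : ∀ y ∈ R, Algebra.trace F₀ F y ∈ R₀

section Lemmas

variable {R₀ : Subring F₀} {R : Subring F} {n : ℕ} {ι : Type*} {J : Finset ι}
  {bs : ι → Module.Basis (Fin n) F₀ F} {s : ι → F} {fR : ι → (↥R₀)[X]}
  {sd : ι → Fin n → F} {η : ι → F} {d e : ι → ↥R₀}
  (hE : s48g_Etale R₀ R J bs s fR sd η d e)

include hE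

theorem s48g_etale_J_nonempty : J.Nonempty := by
  rcases J.eq_empty_or_nonempty with h | h
  · exfalso
    have h1 := hE.one
    rw [h, Finset.sum_empty] at h1
    have h2 : (0 : F₀) = 1 := by
      have := congrArg (fun r : ↥R₀ => (r : F₀)) h1
      exact this
    exact zero_ne_one h2
  · exact h

/-- **expansion of an arbitrary element along the datum.** -/
theorem s48g_etale_expand (y : F) :
    y = ∑ j ∈ J, algebraMap F₀ F ((e j : ↥R₀) : F₀) *
      ∑ l : Fin n, algebraMap F₀ F (Algebra.trace F₀ F (y * sd j l)) * s j ^ (l : ℕ) := by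
  have h1 : ∀ j ∈ J, algebraMap F₀ F ((e j : ↥R₀) : F₀) *
      ∑ l : Fin n, algebraMap F₀ F (Algebra.trace F₀ F (y * sd j l)) * s j ^ (l : ℕ) =
      algebraMap F₀ F (((e j * d j : ↥R₀)) : F₀) * y := by
    intro j hj
    rw [← s48g_dual_expand (hE.dual j hj) y, Subring.coe_mul, map_mul, mul_assoc]
  rw [Finset.sum_congr rfl h1, ← Finset.sum_mul, ← map_sum]
  have h2 : ∑ j ∈ J, (((e j * d j : ↥R₀)) : F₀) = 1 := by
    have := congrArg (fun r : ↥R₀ => (r : F₀)) hE.one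
    simpa using this
  rw [h2, map_one, one_mul]

/-- the traces `Tr (y * sd j l)` of an element of `R` lie in `R₀`. -/
theorem s48g_etale_coeff_mem {y : F} (hy : y ∈ R) {j : ι} (hj : j ∈ J) (l : Fin n) :
    Algebra.trace F₀ F (y * sd j l) ∈ R₀ :=
  hE.trace_mem _ (R.mul_mem hy (hE.sd_mem j hj l))

/-- **`R` is integral over `R₀`.** -/
theorem s48g_etale_isIntegral {y : F} (hy : y ∈ R) : (s48g_incl (F := F) R₀).IsIntegralElem y := by
  letI : Algebra ↥R₀ F := (s48g_incl (F := F) R₀).toAlgebra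
  show IsIntegral ↥R₀ y
  rw [s48g_etale_expand hE y]
  refine IsIntegral.sum _ fun j hj => ?_
  refine IsIntegral.mul ?_ ?_
  · exact isIntegral_algebraMap (R := ↥R₀) (A := F) (x := e j)
  · refine IsIntegral.sum _ fun l _ => ?_
    refine IsIntegral.mul ?_ ?_
    · exact isIntegral_algebraMap (R := ↥R₀) (A := F)
        (x := ⟨_, s48g_etale_coeff_mem hE hy hj l⟩)
    · refine IsIntegral.pow ?_ _
      exact ⟨fR j, hE.monic j hj, hE.root j hj⟩

end Lemmas

/-- a finite nonempty family with a total preorder has a least element. -/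
theorem s48g_exists_least {α : Type*} (r : α → α → Prop) (hrefl : ∀ a, r a a)
    (htrans : ∀ a b c, r a b → r b c → r a c) (S : Finset α) (hS : S.Nonempty)
    (htot : ∀ a ∈ S, ∀ b ∈ S, r a b ∨ r b a) : ∃ m ∈ S, ∀ a ∈ S, r m a := by
  classical
  induction S using Finset.induction_on with
  | empty => exact absurd hS Finset.not_nonempty_empty
  | insert a S ha ih =>
    rcases S.eq_empty_or_nonempty with hS' | hS'
    · subst hS'
      refine ⟨a, Finset.mem_insert_self a _, fun x hx => ?_⟩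
      rw [Finset.insert_empty, Finset.mem_singleton] at hx
      rw [hx]
      exact hrefl a
    · obtain ⟨m, hm, hmin⟩ := ih hS' (fun x hx y hy =>
        htot x (Finset.mem_insert_of_mem hx) y (Finset.mem_insert_of_mem hy))
      rcases htot a (Finset.mem_insert_self a S) m (Finset.mem_insert_of_mem hm) with h | h
      · refine ⟨a, Finset.mem_insert_self a S, fun x hx => ?_⟩
        rcases Finset.mem_insert.mp hx with rfl | hx
        · exact hrefl _
        · exact htrans _ _ _ h (hmin x hx)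
      · refine ⟨m, Finset.mem_insert_of_mem hm, fun x hx => ?_⟩
        rcases Finset.mem_insert.mp hx with rfl | hx
        · exact h
        · exact hmin x hx

section Reduction

variable {O₀ : ValuationSubring F₀} {red₀ : ↥O₀ →+* Fb₀} {n : ℕ}
  {b : Module.Basis (Fin n) F₀ F} {t : F} {f : (↥O₀)[X]} {tb : Fb}
  (hK : s48g_LayerData O₀ red₀ b t f tb)
  (bb : Module.Basis (Fin n) Fb₀ Fb) (hbb : ∀ i : Fin n, bb i = tb ^ (i : ℕ))
  {R₀ : Subring F₀} {R : Subring F} {ι : Type*} {J : Finset ι}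
  {bs : ι → Module.Basis (Fin n) F₀ F} {s : ι → F} {fR : ι → (↥R₀)[X]}
  {sd : ι → Fin n → F} {η : ι → F} {d e : ι → ↥R₀}
  (hE : s48g_Etale R₀ R J bs s fR sd η d e)
  (hR₀ : ∀ y ∈ R₀, y ∈ O₀) (hR : ∀ y ∈ R, y ∈ s48g_O hK)

/-- the ring homomorphism `R₀ → O`. -/
def s48g_baseToO : ↥R₀ →+* ↥(s48g_O hK) where
  toFun r := ⟨algebraMap F₀ F (r : F₀), s48g_algebraMap_mem_O hK ⟨(r : F₀), hR₀ _ r.2⟩⟩
  map_one' := Subtype.ext (by simp)
  map_mul' x y := Subtype.ext (by simp)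
  map_zero' := Subtype.ext (by simp)
  map_add' x y := Subtype.ext (by simp)

/-- the ring homomorphism `R₀ → Fb₀`. -/
def s48g_baseRed (hR₀ : ∀ y ∈ R₀, y ∈ O₀) : ↥R₀ →+* Fb₀ :=
  red₀.comp
    { toFun := fun r => (⟨(r : F₀), hR₀ _ r.2⟩ : ↥O₀)
      map_one' := rfl
      map_mul' := fun _ _ => rfl
      map_zero' := rfl
      map_add' := fun _ _ => rfl }

theorem s48g_baseRed_apply (r : ↥R₀) :
    s48g_baseRed (red₀ := red₀) hR₀ r = red₀ ⟨(r : F₀), hR₀ _ r.2⟩ := rfl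

theorem s48g_red_baseToO (r : ↥R₀) :
    s48g_red hK (s48g_baseToO hK hR₀ r) = algebraMap Fb₀ Fb (s48g_baseRed (red₀ := red₀) hR₀ r) :=
  s48g_red_algebraMap hK ⟨(r : F₀), hR₀ _ r.2⟩

include hE in
/-- the reduction of an element of `R` is a root of a monic polynomial with coefficients in
`red₀ R₀`. -/
theorem s48g_etale_red_isIntegral {y : F} (hy : y ∈ R) :
    ((algebraMap Fb₀ Fb).comp (s48g_baseRed (red₀ := red₀) hR₀)).IsIntegralElem
      (s48g_red hK ⟨y, hR y hy⟩) := by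
  obtain ⟨p, hp, hroot⟩ := s48g_etale_isIntegral hE hy
  refine ⟨p, hp, ?_⟩
  have h1 : eval₂ (s48g_baseToO hK hR₀) (⟨y, hR y hy⟩ : ↥(s48g_O hK)) p = 0 := by
    apply Subtype.ext
    have h2 : ((eval₂ (s48g_baseToO hK hR₀) (⟨y, hR y hy⟩ : ↥(s48g_O hK)) p : ↥(s48g_O hK)) : F) =
        eval₂ (s48g_incl (F := F) R₀) y p := by
      have := hom_eval₂ p (s48g_baseToO hK hR₀) (s48g_O hK).subtype (⟨y, hR y hy⟩ : ↥(s48g_O hK))
      exact this
    rw [h2, hroot]
    rfl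
  have h3 := congrArg (s48g_red hK) h1
  rw [map_zero, hom_eval₂] at h3
  have h4 : (s48g_red hK).comp (s48g_baseToO hK hR₀) =
      (algebraMap Fb₀ Fb).comp (s48g_baseRed (red₀ := red₀) hR₀) := by
    ext r
    exact s48g_red_baseToO hK hR₀ r
  rw [h4] at h3
  exact h3

include hE hbb in
/-- **(P3) lifting**: `ρ : T → Fb₀` a ring homomorphism with integrally closed image, through which
`red₀` on `R₀` factors by a surjection `ψ₀ : R₀ → T`.  Then every element of `Fb` integral over `T`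
is the reduction of an element of `R`. -/
theorem s48g_etale_lift {T : Type*} [CommRing T] (ρ : T →+* Fb₀) (ψ₀ : ↥R₀ →+* T)
    (hψ₀ : ∀ r : ↥R₀, ρ (ψ₀ r) = red₀ ⟨(r : F₀), hR₀ _ r.2⟩) (hψsurj : Function.Surjective ψ₀)
    (hic : ∀ u : Fb₀, ρ.IsIntegralElem u → ∃ d, ρ d = u)
    (z : Fb) (hz : ((algebraMap Fb₀ Fb).comp ρ).IsIntegralElem z) :
    ∃ (y : F) (hy : y ∈ R), s48g_red hK ⟨y, hR y hy⟩ = z := by
  classical
  letI : Algebra T Fb₀ := ρ.toAlgebra
  letI : Algebra T Fb := ((algebraMap Fb₀ Fb).comp ρ).toAlgebra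
  haveI : IsScalarTower T Fb₀ Fb := IsScalarTower.of_algebraMap_eq fun _ => rfl
  haveI : FiniteDimensional Fb₀ Fb := Module.Finite.of_basis bb
  have hzI : IsIntegral T z := hz
  have hcomp : (algebraMap Fb₀ Fb).comp (s48g_baseRed (red₀ := red₀) hR₀) =
      ((algebraMap Fb₀ Fb).comp ρ).comp ψ₀ := by
    ext r
    show algebraMap Fb₀ Fb (red₀ ⟨(r : F₀), hR₀ _ r.2⟩) = algebraMap Fb₀ Fb (ρ (ψ₀ r))
    rw [hψ₀]
  have hyI : ∀ y (hy : y ∈ R), IsIntegral T (s48g_red hK ⟨y, hR y hy⟩) := by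
    intro y hy
    obtain ⟨p, hp, hroot⟩ := s48g_etale_red_isIntegral hK hE hR₀ hR hy
    refine ⟨p.map ψ₀, hp.map ψ₀, ?_⟩
    rw [eval₂_map]
    rw [hcomp] at hroot
    exact hroot
  let eO : ι → ↥O₀ := fun j => ⟨((e j : ↥R₀) : F₀), hR₀ _ (e j).2⟩
  let dO : ι → ↥O₀ := fun j => ⟨((d j : ↥R₀) : F₀), hR₀ _ (d j).2⟩
  refine s48g_exists_lift hK bb hbb J R₀ hR₀ ρ.range ?_ R hR hE.base_mem s sd dO eO bs
    (fun j hj => hE.dual j hj) hE.s_mem hE.sd_mem (fun j _ => (e j).2) ?_ z ?_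
  · rintro _ ⟨d₀, rfl⟩
    obtain ⟨r, rfl⟩ := hψsurj d₀
    exact ⟨(r : F₀), r.2, (hψ₀ r).symm⟩
  · have h1 : (∑ j ∈ J, eO j * dO j : ↥O₀) = 1 := by
      apply Subtype.ext
      have := congrArg (fun r : ↥R₀ => (r : F₀)) hE.one
      simp only [AddSubmonoidClass.coe_finsetSum, Subring.coe_mul, OneMemClass.coe_one] at this
      rw [AddSubmonoidClass.coe_finsetSum]
      simpa [eO, dO] using this
    rw [h1, map_one]
  · intro y hy
    have h1 : IsIntegral T (Algebra.trace Fb₀ Fb (z * s48g_red hK ⟨y, hR y hy⟩)) :=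
      Algebra.isIntegral_trace (hzI.mul (hyI y hy))
    obtain ⟨d₀, hd₀⟩ := hic _ h1
    exact ⟨d₀, hd₀⟩

include hE hbb in
/-- the traces `Tr (y * sd j l)` of an element of the kernel of the reduction reduce to `0`. -/
theorem s48g_etale_coeff_red_eq_zero {y : F} (hy : y ∈ R) (hy0 : s48g_red hK ⟨y, hR y hy⟩ = 0)
    {j : ι} (hj : j ∈ J) (l : Fin n) :
    red₀ ⟨Algebra.trace F₀ F (y * sd j l), hR₀ _ (s48g_etale_coeff_mem hE hy hj l)⟩ = 0 := by
  have hmem : y * sd j l ∈ s48g_O hK := hR _ (R.mul_mem hy (hE.sd_mem j hj l))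
  have h1 := s48g_red_trace hK bb hbb ⟨y * sd j l, hmem⟩
  have h2 : (⟨y * sd j l, hmem⟩ : ↥(s48g_O hK)) =
      ⟨y, hR y hy⟩ * ⟨sd j l, hR _ (hE.sd_mem j hj l)⟩ := rfl
  rw [h2, map_mul, hy0, zero_mul, map_zero] at h1
  exact h1.symm

include hE hbb in
/-- **(P5) the kernel of the reduction on `R`** is generated by the small constants `Z`, if this
holds on `R₀` and `Z` is totally ordered by divisibility in `R₀`. -/
theorem s48g_etale_ker (Z : Set F₀)
    (hZtot : ∀ c ∈ Z, ∀ c' ∈ Z, (∃ a ∈ R₀, c' = a * c) ∨ (∃ a ∈ R₀, c = a * c'))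
    (hker₀ : ∀ (y : F₀) (hy : y ∈ R₀), red₀ ⟨y, hR₀ y hy⟩ = 0 → ∃ c ∈ Z, ∃ y' ∈ R₀, y = c * y')
    (y : F) (hy : y ∈ R) (hy0 : s48g_red hK ⟨y, hR y hy⟩ = 0) :
    ∃ c ∈ Z, ∃ y' ∈ R, y = algebraMap F₀ F c * y' := by
  classical
  have hn := s48g_n_pos hK
  obtain ⟨j₀, hj₀⟩ := s48g_etale_J_nonempty hE
  -- the factorisations of the coefficients
  have hex : ∀ (p : ι × Fin n), ∃ c ∈ Z, ∃ y' ∈ R₀, p.1 ∈ J →
      Algebra.trace F₀ F (y * sd p.1 p.2) = c * y' := by
    rintro ⟨j, l⟩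
    by_cases hj : j ∈ J
    · obtain ⟨c, hc, y', hy', e1⟩ := hker₀ _ (s48g_etale_coeff_mem hE hy hj l)
        (s48g_etale_coeff_red_eq_zero hK bb hbb hE hR₀ hR hy hy0 hj l)
      exact ⟨c, hc, y', hy', fun _ => e1⟩
    · obtain ⟨c, hc, y', hy', -⟩ := hker₀ _ (s48g_etale_coeff_mem hE hy hj₀ ⟨0, hn⟩)
        (s48g_etale_coeff_red_eq_zero hK bb hbb hE hR₀ hR hy hy0 hj₀ ⟨0, hn⟩)
      exact ⟨c, hc, y', hy', fun h => absurd h hj⟩
  choose c hcZ y' hy'R hcy using hex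
  -- the least constant
  let S : Finset F₀ := (J ×ˢ (Finset.univ : Finset (Fin n))).image c
  have hSne : S.Nonempty :=
    ⟨c (j₀, ⟨0, hn⟩), Finset.mem_image_of_mem c (Finset.mem_product.mpr ⟨hj₀, Finset.mem_univ _⟩)⟩
  have hSZ : ∀ a ∈ S, a ∈ Z := by
    intro a ha
    obtain ⟨p, -, rfl⟩ := Finset.mem_image.mp ha
    exact hcZ p
  obtain ⟨m, hmS, hmin⟩ := s48g_exists_least (fun a a' : F₀ => ∃ r ∈ R₀, a' = r * a)
    (fun a => ⟨1, R₀.one_mem, (one_mul a).symm⟩)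
    (fun a a' a'' ⟨r, hr, e1⟩ ⟨r', hr', e2⟩ => ⟨r' * r, R₀.mul_mem hr' hr, by rw [e2, e1, mul_assoc]⟩)
    S hSne (fun a ha a' ha' => hZtot a (hSZ a ha) a' (hSZ a' ha'))
  have hdiv : ∀ p : ι × Fin n, p.1 ∈ J → ∃ r ∈ R₀, c p = r * m := fun p hp =>
    hmin (c p) (Finset.mem_image_of_mem c (Finset.mem_product.mpr ⟨hp, Finset.mem_univ _⟩))
  choose! r hrR hr using hdiv
  refine ⟨m, hSZ m hmS, ∑ j ∈ J, algebraMap F₀ F ((e j : ↥R₀) : F₀) *
      ∑ l : Fin n, algebraMap F₀ F (r (j, l) * y' (j, l)) * s j ^ (l : ℕ), ?_, ?_⟩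
  · refine sum_mem fun j hj => R.mul_mem (hE.base_mem _ (e j).2) (sum_mem fun l _ => ?_)
    exact R.mul_mem (hE.base_mem _ (R₀.mul_mem (hrR (j, l) hj) (hy'R (j, l))))
      (pow_mem (hE.s_mem j hj) _)
  · conv_lhs => rw [s48g_etale_expand hE y]
    rw [Finset.mul_sum]
    refine Finset.sum_congr rfl fun j hj => ?_
    have h1 : ∀ l : Fin n, algebraMap F₀ F (Algebra.trace F₀ F (y * sd j l)) * s j ^ (l : ℕ) =
        algebraMap F₀ F m * (algebraMap F₀ F (r (j, l) * y' (j, l)) * s j ^ (l : ℕ)) := by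
      intro l
      rw [hcy (j, l) hj, hr (j, l) hj]
      simp only [map_mul]
      ring
    rw [Finset.sum_congr rfl fun l _ => h1 l, ← Finset.mul_sum]
    ring

include hE in
/-- **(P7) = (α)** for the layer: every element of `O` is a quotient of elements of `R` with
Gauss-unit denominator, if this holds for `O₀`, `R₀`. -/
theorem s48g_etale_alpha
    (hα₀ : ∀ y ∈ O₀, ∃ (r : F₀) (hr : r ∈ R₀), red₀ ⟨r, hR₀ r hr⟩ ≠ 0 ∧ y * r ∈ R₀)
    (y : F) (hy : y ∈ s48g_O hK) :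
    ∃ (r : F) (hr : r ∈ R), s48g_red hK ⟨r, hR r hr⟩ ≠ 0 ∧ y * r ∈ R := by
  classical
  -- a chart on which `d j` is a Gauss unit
  have hone : ∑ j ∈ J, s48g_baseRed (red₀ := red₀) hR₀ (e j) * s48g_baseRed (red₀ := red₀) hR₀ (d j) = 1 := by
    have := congrArg (s48g_baseRed (red₀ := red₀) hR₀) hE.one
    rw [map_sum, map_one] at this
    rw [← this]
    exact Finset.sum_congr rfl fun j _ => (map_mul _ _ _).symm
  obtain ⟨j, hj, hdj⟩ : ∃ j ∈ J, s48g_baseRed (red₀ := red₀) hR₀ (d j) ≠ 0 := by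
    by_contra hcon
    push Not at hcon
    have : ∑ j ∈ J, s48g_baseRed (red₀ := red₀) hR₀ (e j) *
        s48g_baseRed (red₀ := red₀) hR₀ (d j) = 0 :=
      Finset.sum_eq_zero fun j hj => by rw [hcon j hj, mul_zero]
    rw [this] at hone
    exact zero_ne_one hone
  -- the coefficients of `d j • y`
  have hT : ∀ l : Fin n, Algebra.trace F₀ F (y * sd j l) ∈ O₀ := fun l =>
    s48g_trace_mem hK ⟨y * sd j l, (s48g_O hK).mul_mem _ _ hy (hR _ (hE.sd_mem j hj l))⟩
  choose r hrR hr0 hrT using fun l : Fin n => hα₀ _ (hT l)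
  refine ⟨algebraMap F₀ F (((d j : ↥R₀) : F₀) * ∏ l : Fin n, r l),
    hE.base_mem _ (R₀.mul_mem (d j).2 (prod_mem fun l _ => hrR l)), ?_, ?_⟩
  · have hmem : ((d j : ↥R₀) : F₀) * ∏ l : Fin n, r l ∈ R₀ :=
      R₀.mul_mem (d j).2 (prod_mem fun l _ => hrR l)
    have h1 := s48g_red_baseToO hK hR₀ ⟨_, hmem⟩
    have h2 : s48g_baseRed (red₀ := red₀) hR₀ ⟨_, hmem⟩ =
        s48g_baseRed (red₀ := red₀) hR₀ (d j) *
          ∏ l : Fin n, s48g_baseRed (red₀ := red₀) hR₀ ⟨r l, hrR l⟩ := by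
      rw [← map_prod, ← map_mul]
      congr 1
      apply Subtype.ext
      rw [Subring.coe_mul, SubmonoidClass.coe_finsetProd]
    intro h0
    have h3 : s48g_red hK (s48g_baseToO hK hR₀ ⟨_, hmem⟩) = 0 := h0
    rw [h1, h2, map_eq_zero] at h3
    rcases mul_eq_zero.mp h3 with h4 | h4
    · exact hdj h4
    · obtain ⟨l, -, hl⟩ := Finset.prod_eq_zero_iff.mp h4
      exact hr0 l hl
  · have h1 : y * algebraMap F₀ F (((d j : ↥R₀) : F₀) * ∏ l : Fin n, r l) =
        ∑ l : Fin n, algebraMap F₀ F (Algebra.trace F₀ F (y * sd j l) * r l) *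
          (algebraMap F₀ F (∏ l' ∈ Finset.univ.erase l, r l') * s j ^ (l : ℕ)) := by
      rw [map_mul, ← mul_assoc, mul_comm y, s48g_dual_expand (hE.dual j hj) y, Finset.sum_mul]
      refine Finset.sum_congr rfl fun l _ => ?_
      rw [← Finset.mul_prod_erase Finset.univ r (Finset.mem_univ l)]
      simp only [map_mul]
      ring
    rw [h1]
    refine sum_mem fun l _ => R.mul_mem (hE.base_mem _ (hrT l)) (R.mul_mem ?_ (pow_mem (hE.s_mem j hj) _))
    exact hE.base_mem _ (prod_mem fun l' _ => hrR l')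

end Reduction

end Fermat.Agent.Lib.S48
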