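/-
DS-1 (S48), wall [T7] (helper6), brick (G2-c): **places of a finite extension `F/F₀` of function
fields** (characteristic zero), on top of `Lib/S37/HLocal`, `HNorm`, `PValue`.

* `s48g_isIntegral_of_forall_mem` : regular at all places over `v` ⇒ integral over `O_v`;
* `s48g_trace_mem_place`          : … ⇒ the trace is regular at `v`;
* `s48g_ev_algebraMap`            : values are compatible with the restriction of places.
-/
import Fermat.Agent.Lib.S37.HNorm
import Fermat.Agent.Lib.S37.PValue

set_option autoImplicit false
set_option linter.unusedSectionVars false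
set_option linter.style.haveILetI false

noncomputable section

namespace Fermat.Agent.Lib.S48

open AlgebraicCurve IsDedekindDomain Fermat.Agent.Lib.FF Fermat.Agent.Lib.S37 Polynomial

variable {K F₀ F : Type*} [Field K] [Field F₀] [Field F] [Algebra K F₀] [Algebra K F]
  [Algebra F₀ F] [IsScalarTower K F₀ F] [FiniteDimensional F₀ F] [CharZero F₀]

attribute [local instance 10] s37h_algRF' s37h_algKS

/-- an element of `F` regular at all places over `v` is integral over `O_v`. -/
theorem s48g_isIntegral_of_forall_mem (v : Place K F₀) (z : F)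
    (hz : ∀ w : Place K F, w.restrict F₀ = v → z ∈ w.toValuationSubring) :
    IsIntegral v.toValuationSubring z := by
  have h1 : z ∈ (algebraMap (s37h_S (F' := F) v) F).range := by
    apply HeightOneSpectrum.mem_integers_of_valuation_le_one F z
    intro P
    have := hz (s37h_placeOf v P) (s37h_placeOf_restrict v P)
    exact this
  obtain ⟨y, hy⟩ := h1
  rw [← hy]
  exact y.2

/-- an element integral over `O_v` is regular at all places over `v`. -/
theorem s48g_mem_of_isIntegral {v : Place K F₀} {z : F} (hz : IsIntegral v.toValuationSubring z)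
    {w : Place K F} (hw : w.restrict F₀ = v) : z ∈ w.toValuationSubring :=
  s37h_S_mem_of_restrict hw ⟨z, hz⟩

/-- the trace of an element regular at all places over `v` is regular at `v`. -/
theorem s48g_trace_mem_place (v : Place K F₀) (z : F)
    (hz : ∀ w : Place K F, w.restrict F₀ = v → z ∈ w.toValuationSubring) :
    Algebra.trace F₀ F z ∈ v.toValuationSubring := by
  have hint : IsIntegral v.toValuationSubring (Algebra.trace F₀ F z) :=
    Algebra.isIntegral_trace (s48g_isIntegral_of_forall_mem v z hz)
  obtain ⟨a, ha⟩ := IsIntegrallyClosed.isIntegral_iff.mp hint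
  rw [← ha]
  exact a.2

/-- the norm of an element regular at all places over `v` is regular at `v`. -/
theorem s48g_norm_mem_place (v : Place K F₀) (z : F)
    (hz : ∀ w : Place K F, w.restrict F₀ = v → z ∈ w.toValuationSubring) :
    Algebra.norm F₀ z ∈ v.toValuationSubring := by
  have hint : IsIntegral v.toValuationSubring (Algebra.norm F₀ z) :=
    Algebra.isIntegral_norm F₀ (s48g_isIntegral_of_forall_mem v z hz)
  obtain ⟨a, ha⟩ := IsIntegrallyClosed.isIntegral_iff.mp hint
  rw [← ha]
  exact a.2

section Values

variable [IsAlgClosed K] (x₀ : F₀) [FFGen K x₀] (x : F) [FFGen K x]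

/-- **values are compatible with the restriction of places.** -/
theorem s48g_ev_algebraMap (w : Place K F) (y : F₀)
    (hy : y ∈ (w.restrict F₀).toValuationSubring) :
    s37pv_ev x w ⟨algebraMap F₀ F y, (Place.mem_restrict_iff w).mp hy⟩ =
      s37pv_ev x₀ (w.restrict F₀) ⟨y, hy⟩ := by
  set c := s37pv_ev x₀ (w.restrict F₀) ⟨y, hy⟩ with hc
  rw [s37pv_ev_coe_eq_iff]
  have h0 := (s37pv_ev_coe_eq_iff x₀ (w.restrict F₀) ⟨y, hy⟩ c).mp rfl
  rcases h0 with h0 | h0
  · left
    show algebraMap F₀ F y = algebraMap K F c
    rw [show y = algebraMap K F₀ c from h0, ← IsScalarTower.algebraMap_apply]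
  · right
    show 0 < w.ord (algebraMap F₀ F y - algebraMap K F c)
    have h1 : algebraMap F₀ F y - algebraMap K F c = algebraMap F₀ F (y - algebraMap K F₀ c) := by
      rw [map_sub, ← IsScalarTower.algebraMap_apply]
    rw [h1, Place.ord_restrict]
    have hepos : 0 < w.ramificationIndex F₀ := w.ramificationIndex_pos (F := F₀)
    have h0' : 0 < (w.restrict F₀).ord (y - algebraMap K F₀ c) := h0
    positivity

end Values

end Fermat.Agent.Lib.S48
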