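/-
DS-1 (S48), wall [T7] (helper6), brick (G3-b): **unramifiedness and separation of places from an
étale certificate.**

`F/F₀` a finite extension of function fields over an algebraically closed field of characteristic
zero, `v` a place of `F₀`, `s` a generator of `F/F₀` (its powers are the basis `bs`), root of a monic
`fv ∈ O_v[X]`, with a certificate `fv′(s) * η = ν`, `η` regular over `v`, `ν` a unit at `v`.  Then for
every constant `c`, at most one place `w ∣ v` has `s(w) = c`, and such a place is unramified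
(`s48g_unr`).  The proof is the norm formula `ord_v N(s - c) = ∑_{w ∣ v} ord_w (s - c)` together with
`N(s - c) = ± fv(c)` and the Taylor expansion of `fv` at `s`.
-/
import Fermat.Agent.Lib.S48.GPlace

set_option autoImplicit false
set_option linter.unusedSectionVars false
set_option linter.style.haveILetI false

noncomputable section

namespace Fermat.Agent.Lib.S48

open AlgebraicCurve IsDedekindDomain Fermat.Agent.Lib.FF Fermat.Agent.Lib.S37 Polynomial

section Algebra

variable {F₀ F : Type*} [Field F₀] [Field F] [Algebra F₀ F]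

/-- the minimal polynomial of a generator whose powers form a basis. -/
theorem s48g_minpoly_eq {n : ℕ} (bs : Module.Basis (Fin n) F₀ F) (s : F)
    (hbs : ∀ i : Fin n, bs i = s ^ (i : ℕ)) (fpoly : F₀[X]) (hm : fpoly.Monic)
    (hd : fpoly.natDegree = n) (hroot : aeval s fpoly = 0) : minpoly F₀ s = fpoly := by
  let pb : PowerBasis F₀ F := ⟨s, n, bs, hbs⟩
  have h1 : minpoly F₀ s ∣ fpoly := minpoly.dvd F₀ s hroot
  have hint : IsIntegral F₀ s := ⟨fpoly, hm, by rwa [← aeval_def]⟩
  have h2 : (minpoly F₀ s).natDegree = n := pb.natDegree_minpoly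
  symm
  exact Polynomial.eq_of_monic_of_dvd_of_natDegree_le (minpoly.monic hint) hm h1 (by rw [h2, hd])

/-- `N (s - c) = (-1) ^ n * f(c)`. -/
theorem s48g_norm_sub {n : ℕ} (bs : Module.Basis (Fin n) F₀ F) (s : F)
    (hbs : ∀ i : Fin n, bs i = s ^ (i : ℕ)) (fpoly : F₀[X]) (hm : fpoly.Monic)
    (hd : fpoly.natDegree = n) (hroot : aeval s fpoly = 0) (c : F₀) :
    Algebra.norm F₀ (s - algebraMap F₀ F c) = (-1) ^ n * fpoly.eval c := by
  let pb : PowerBasis F₀ F := ⟨s, n, bs, hbs⟩
  have hmin := s48g_minpoly_eq bs s hbs fpoly hm hd hroot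
  have hch : (Algebra.leftMulMatrix bs s).charpoly = fpoly := by
    have := charpoly_leftMulMatrix pb
    rw [← hmin]
    exact this
  rw [Algebra.norm_eq_matrix_det bs, map_sub, AlgHom.commutes, ← hch, Matrix.eval_charpoly]
  have h1 : Algebra.leftMulMatrix bs s - algebraMap F₀ (Matrix (Fin n) (Fin n) F₀) c =
      -(Matrix.scalar (Fin n) c - Algebra.leftMulMatrix bs s) := by
    rw [neg_sub]
    rfl
  rw [h1, Matrix.det_neg, Fintype.card_fin]

end Algebra

section Places

variable {K F : Type*} [Field K] [Field F] [Algebra K F]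

/-- a nonzero element of `O_v` is a unit iff its order vanishes. -/
theorem s48g_isUnit_iff_ord (v : Place K F) (a : v.toValuationSubring) (ha : (a : F) ≠ 0) :
    IsUnit a ↔ v.ord (a : F) = 0 := by
  rw [← v.adicValuation_coe_eq_one_iff, ff_adicValuation_eq_exp v ha]
  constructor
  · intro h
    have h1 : WithZero.exp (-(v.ord (a : F))) = WithZero.exp (0 : ℤ) := by
      rw [h]; rfl
    have := WithZero.exp_injective h1
    omega
  · intro h
    rw [h]
    rfl

/-- an element of `O_v` of positive order is a non-unit. -/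
theorem s48g_mem_maximalIdeal_of_ord_pos (v : Place K F) (a : v.toValuationSubring)
    (ha : 0 < v.ord (a : F)) : a ∈ IsLocalRing.maximalIdeal v.toValuationSubring := by
  rw [IsLocalRing.mem_maximalIdeal, mem_nonunits_iff]
  intro hu
  have ha0 : (a : F) ≠ 0 := by
    intro h0
    rw [h0, Place.ord_zero] at ha
    exact lt_irrefl _ ha
  have := (s48g_isUnit_iff_ord v a ha0).mp hu
  omega

theorem s48g_ord_neg (v : Place K F) (f : F) : v.ord (-f) = v.ord f := by
  rcases eq_or_ne f 0 with rfl | hf
  · rw [neg_zero]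
  · have h1 : -f = (-1 : F) * f := by ring
    have hm1 : v.ord (-1 : F) = 0 := by
      have h2 : (-1 : F) * (-1) = 1 := by ring
      have h3 := v.ord_mul (f := (-1 : F)) (g := -1) (by simp) (by simp)
      rw [h2, Place.ord_one] at h3
      omega
    rw [h1, v.ord_mul (by simp) hf, hm1, zero_add]

end Places

section Unr

variable {K F₀ F : Type*} [Field K] [Field F₀] [Field F] [Algebra K F₀] [Algebra K F]
  [Algebra F₀ F] [IsScalarTower K F₀ F] [FiniteDimensional F₀ F] [CharZero F₀]

attribute [local instance 10] s37h_algRF' s37h_algKS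

/-- the inclusion `O_v → F`. -/
def s48g_inclV (v : Place K F₀) : ↥v.toValuationSubring →+* F :=
  (algebraMap F₀ F).comp v.toValuationSubring.subtype

theorem s48g_inclV_apply (v : Place K F₀) (a : ↥v.toValuationSubring) :
    s48g_inclV (F := F) v a = algebraMap F₀ F (a : F₀) := rfl

/-- **local analysis at one place**: if `s(w) = c` then `ord_w (fv(c)) = ord_w (s - c)`. -/
theorem s48g_unr_local (w : Place K F) (fv : (↥(w.restrict F₀).toValuationSubring)[X])
    (s : F) (hs : s ∈ w.toValuationSubring)
    (hroot : eval₂ (s48g_inclV (F := F) (w.restrict F₀)) s fv = 0)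
    (η : F) (hη : η ∈ w.toValuationSubring) (ν : F₀) (hν0 : (w.restrict F₀).ord ν = 0)
    (hν : ν ≠ 0)
    (hcert : eval₂ (s48g_inclV (F := F) (w.restrict F₀)) s (derivative fv) * η = algebraMap F₀ F ν)
    (c : K) (hpos : 0 < w.ord (s - algebraMap K F c)) :
    w.ord (algebraMap F₀ F ((fv.eval (algebraMap K ↥(w.restrict F₀).toValuationSubring c) :
      ↥(w.restrict F₀).toValuationSubring) : F₀)) = w.ord (s - algebraMap K F c) := by
  set ι := Place.restrictInclusion F₀ w with hι
  set sR : ↥w.toValuationSubring := ⟨s, hs⟩ with hsR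
  set cv : ↥(w.restrict F₀).toValuationSubring := algebraMap K _ c with hcv
  set cR : ↥w.toValuationSubring := ι cv with hcR
  have hcomp : w.toValuationSubring.subtype.comp ι = s48g_inclV (F := F) (w.restrict F₀) := by
    ext a
    rfl
  have hcRcoe : (cR : F) = algebraMap K F c := by
    show algebraMap F₀ F ((cv : F₀)) = _
    rw [IsScalarTower.algebraMap_apply K F₀ F]
    rfl
  -- evaluation of polynomials over `R`
  have hev : ∀ p : (↥(w.restrict F₀).toValuationSubring)[X],
      (((p.map ι).eval sR : ↥w.toValuationSubring) : F) =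
        eval₂ (s48g_inclV (F := F) (w.restrict F₀)) s p := by
    intro p
    rw [eval_map]
    have := hom_eval₂ p ι w.toValuationSubring.subtype sR
    rw [hcomp] at this
    exact this
  obtain ⟨k, hk⟩ := binomExpansion (fv.map ι) sR (cR - sR)
  have h0 : (fv.map ι).eval sR = 0 := Subtype.ext (by rw [hev, hroot]; rfl)
  rw [add_sub_cancel, h0, zero_add] at hk
  set D : ↥w.toValuationSubring := (derivative (fv.map ι)).eval sR with hD
  have hDcoe : (D : F) = eval₂ (s48g_inclV (F := F) (w.restrict F₀)) s (derivative fv) := by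
    rw [hD, derivative_map, hev]
  -- `ν` as an element of `R`
  have hνmem : algebraMap F₀ F ν ∈ w.toValuationSubring := by
    have : ν ∈ (w.restrict F₀).toValuationSubring := by
      rw [ff_mem_iff_ord_nonneg _ hν, hν0]
    exact (Place.mem_restrict_iff w).mp this
  have hνF : algebraMap F₀ F ν ≠ 0 := (_root_.map_ne_zero _).mpr hν
  have hνunit : IsUnit (⟨algebraMap F₀ F ν, hνmem⟩ : ↥w.toValuationSubring) := by
    rw [s48g_isUnit_iff_ord w _ hνF]
    show w.ord (algebraMap F₀ F ν) = 0
    rw [Place.ord_restrict, hν0, mul_zero]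
  have hDη : D * ⟨η, hη⟩ = ⟨algebraMap F₀ F ν, hνmem⟩ := by
    apply Subtype.ext
    show (D : F) * η = _
    rw [hDcoe, hcert]
  have hDunit : IsUnit D := by
    rw [← hDη] at hνunit
    exact isUnit_of_mul_isUnit_left hνunit
  -- `c - s` is a non-unit
  have hcs : (cR - sR : ↥w.toValuationSubring) ∈ IsLocalRing.maximalIdeal ↥w.toValuationSubring := by
    apply s48g_mem_maximalIdeal_of_ord_pos
    show 0 < w.ord ((cR : F) - s)
    rw [hcRcoe, ← neg_sub, s48g_ord_neg]
    exact hpos
  -- the unit factor
  set U : ↥w.toValuationSubring := D + k * (cR - sR) with hU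
  have hUunit : IsUnit U := by
    by_contra hnu
    have hUm : U ∈ IsLocalRing.maximalIdeal ↥w.toValuationSubring := by
      rw [IsLocalRing.mem_maximalIdeal, mem_nonunits_iff]
      exact hnu
    have hDm : D ∈ IsLocalRing.maximalIdeal ↥w.toValuationSubring := by
      have : D = U - k * (cR - sR) := by rw [hU]; ring
      rw [this]
      exact Ideal.sub_mem _ hUm (Ideal.mul_mem_left _ _ hcs)
    rw [IsLocalRing.mem_maximalIdeal, mem_nonunits_iff] at hDm
    exact hDm hDunit
  have hfact : (fv.map ι).eval cR = (cR - sR) * U := by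
    rw [hk, hU]
    ring
  -- the value
  have hval : (((fv.map ι).eval cR : ↥w.toValuationSubring) : F) =
      algebraMap F₀ F ((fv.eval cv : ↥(w.restrict F₀).toValuationSubring) : F₀) := by
    rw [eval_map, hcR, eval₂_at_apply]
    rfl
  have hcs0 : ((cR - sR : ↥w.toValuationSubring) : F) ≠ 0 := by
    intro h
    have h1 : (cR : F) - s = 0 := h
    rw [hcRcoe] at h1
    have h2 : s - algebraMap K F c = 0 := by rw [← neg_sub, h1, neg_zero]
    rw [h2, Place.ord_zero] at hpos
    exact lt_irrefl _ hpos
  have hU0 : (U : F) ≠ 0 := by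
    intro h
    have : U = 0 := Subtype.ext h
    rw [this] at hUunit
    exact not_isUnit_zero hUunit
  rw [← hval, hfact]
  show w.ord (((cR - sR : ↥w.toValuationSubring) : F) * (U : F)) = _
  rw [w.ord_mul hcs0 hU0, (s48g_isUnit_iff_ord w U hU0).mp hUunit, add_zero]
  show w.ord ((cR : F) - s) = _
  rw [hcRcoe, ← neg_sub, s48g_ord_neg]

variable [IsAlgClosed K] [HasPrincipalDivisors K F]

/-- **unramifiedness and separation of places**: at most one place `w ∣ v` has `s(w) = c`, and it
is unramified. -/
theorem s48g_unr (x₀ : F₀) [FFGen K x₀] (v : Place K F₀) {n : ℕ}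
    (bs : Module.Basis (Fin n) F₀ F) (s : F) (hbs : ∀ i : Fin n, bs i = s ^ (i : ℕ))
    (fv : (↥v.toValuationSubring)[X]) (hm : fv.Monic) (hd : fv.natDegree = n)
    (hroot : eval₂ (s48g_inclV (F := F) v) s fv = 0)
    (η : F) (hη : ∀ w : Place K F, w.restrict F₀ = v → η ∈ w.toValuationSubring)
    (ν : F₀) (hν0 : v.ord ν = 0) (hν : ν ≠ 0)
    (hcert : eval₂ (s48g_inclV (F := F) v) s (derivative fv) * η = algebraMap F₀ F ν)
    (c : K) (hsc : s ≠ algebraMap K F c)
    (w : Place K F) (hw : w.restrict F₀ = v) (hwc : 0 < w.ord (s - algebraMap K F c)) :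
    w.ramificationIndex F₀ = 1 ∧
      ∀ w' : Place K F, w'.restrict F₀ = v → 0 < w'.ord (s - algebraMap K F c) → w' = w := by
  classical
  have hF : ∀ v : Place K F₀, Function.Surjective (algebraMap K v.ResidueField) :=
    fun v => s37dg_residue_surjective x₀ v
  have hsint : IsIntegral v.toValuationSubring s := ⟨fv, hm, hroot⟩
  have hsw : ∀ w' : Place K F, w'.restrict F₀ = v → s ∈ w'.toValuationSubring :=
    fun w' hw' => s48g_mem_of_isIntegral hsint hw'
  have hne : s - algebraMap K F c ≠ 0 := sub_ne_zero.mpr hsc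
  set φ : ↥v.toValuationSubring := fv.eval (algebraMap K ↥v.toValuationSubring c) with hφ
  set m : ℤ := v.ord (φ : F₀) with hm'
  -- the local analysis
  have hlocal : ∀ w' : Place K F, w'.restrict F₀ = v → 0 < w'.ord (s - algebraMap K F c) →
      w'.ord (s - algebraMap K F c) = (w'.ramificationIndex F₀ : ℤ) * m := by
    intro w' hw' hpos
    subst hw'
    rw [← s48g_unr_local w' fv s (hsw w' rfl) hroot η (hη w' rfl) ν hν0 hν hcert c hpos,
      Place.ord_restrict]
  -- the norm
  have hnorm : Algebra.norm F₀ (s - algebraMap K F c) = (-1) ^ n * (φ : F₀) := by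
    have h1 := s48g_norm_sub bs s hbs (fv.map v.toValuationSubring.subtype)
      (hm.map _) (by rw [hm.natDegree_map]; exact hd)
      (by rw [aeval_def, eval₂_map]; exact hroot) (algebraMap K F₀ c)
    rw [← IsScalarTower.algebraMap_apply] at h1
    rw [h1, eval_map]
    congr 1
    exact eval₂_at_apply v.toValuationSubring.subtype (algebraMap K ↥v.toValuationSubring c)
  have hφ0 : (φ : F₀) ≠ 0 := by
    intro h0
    have : Algebra.norm F₀ (s - algebraMap K F c) = 0 := by rw [hnorm, h0, mul_zero]
    exact hne (Algebra.norm_eq_zero_iff.mp this)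
  have hordN : v.ord (Algebra.norm F₀ (s - algebraMap K F c)) = m := by
    rw [hnorm]
    rcases neg_one_pow_eq_or F₀ n with h | h
    · rw [h, one_mul]
    · rw [h, neg_one_mul, s48g_ord_neg]
  have hsum : ∑ w' ∈ v.fiber F, w'.ord (s - algebraMap K F c) = m := by
    rw [← hordN, s37h_ord_norm hF v _ hne]
    rfl
  -- all terms are nonnegative
  have hnonneg : ∀ w' ∈ v.fiber F, 0 ≤ w'.ord (s - algebraMap K F c) := by
    intro w' hw'
    rw [← ff_mem_iff_ord_nonneg w' hne]
    exact sub_mem (hsw w' (Place.mem_fiber.mp hw')) (w'.algebraMap_mem' c)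
  have hwf : w ∈ v.fiber F := Place.mem_fiber.mpr hw
  have hew : 0 < (w.ramificationIndex F₀ : ℤ) := by
    exact_mod_cast w.ramificationIndex_pos (F := F₀)
  have hgw := hlocal w hw hwc
  have hmpos : 0 < m := by
    by_contra hcon
    have : (w.ramificationIndex F₀ : ℤ) * m ≤ 0 :=
      mul_nonpos_of_nonneg_of_nonpos hew.le (not_lt.mp hcon)
    omega
  rw [← Finset.add_sum_erase _ _ hwf, hgw] at hsum
  have hrest : 0 ≤ ∑ w' ∈ (v.fiber F).erase w, w'.ord (s - algebraMap K F c) :=
    Finset.sum_nonneg fun w' hw' => hnonneg w' (Finset.mem_of_mem_erase hw')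
  have he1 : (w.ramificationIndex F₀ : ℤ) = 1 := by nlinarith
  have hrest0 : ∑ w' ∈ (v.fiber F).erase w, w'.ord (s - algebraMap K F c) = 0 := by
    rw [he1, one_mul] at hsum
    omega
  refine ⟨by exact_mod_cast he1, fun w' hw' hpos' => ?_⟩
  by_contra hne'
  have hmem : w' ∈ (v.fiber F).erase w :=
    Finset.mem_erase.mpr ⟨hne', Place.mem_fiber.mpr hw'⟩
  have := (Finset.sum_eq_zero_iff_of_nonneg
    (fun w'' hw'' => hnonneg w'' (Finset.mem_of_mem_erase hw''))).mp hrest0 w' hmem
  omega

end Unr

end Fermat.Agent.Lib.S48
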