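/-
DS-1 (S48), wall [T7] (helper6), brick (G4-a): **the chart ring of a layer** and the one-chart fields
of `s37r_ChartHyp` for it.

Setting: `F/F₀` finite extension of function fields over `K` (algebraically closed, char 0),
`hK : s48g_LayerData O₀ red₀ b t f tb` (Gauss ring `O = s48g_O hK`, reduction `red = s48g_red hK`),
`h₀ : s37r_ChartHyp x₀ A π O₀ red₀ w₀ PsiD₀` the chart hypotheses of the base for the coordinate
`w₀`, `B₀`, `B` the chart rings of `w₀` in `F₀` and of `w = algebraMap w₀` in `F`, and an étale datum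
`hE : s48g_Etale B₀ B …` (GEtale).  `D = integralClosure D₀ Fb`.
-/
import Fermat.Agent.Lib.S48.GEtale
import Fermat.Agent.Lib.S48.GUnr
import Fermat.Agent.Lib.S37.RCoreDef

set_option autoImplicit false
set_option linter.unusedSectionVars false
set_option linter.style.haveILetI false

noncomputable section

namespace Fermat.Agent.Lib.S48

open AlgebraicCurve IsDedekindDomain Fermat.Agent.Lib.FF Fermat.Agent.Lib.S37
  Fermat.Agent.Lib.S18 Polynomial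

variable {K F₀ F : Type*} [Field K] [Field F₀] [Field F] [Algebra K F₀] [Algebra K F]
  [Algebra F₀ F] [IsScalarTower K F₀ F] [FiniteDimensional F₀ F] [CharZero F₀]
  {Fb₀ Fb : Type*} [Field Fb₀] [Field Fb] [Algebra Fb₀ Fb]
  {O₀ : ValuationSubring F₀} {red₀ : ↥O₀ →+* Fb₀} {n : ℕ}
  {b : Module.Basis (Fin n) F₀ F} {t : F} {f : (↥O₀)[X]} {tb : Fb}
  (hK : s48g_LayerData O₀ red₀ b t f tb)

/-- the chart ring of the base. -/
abbrev s48g_B₀ (K : Type*) [Field K] [Algebra K F₀] (O₀ : ValuationSubring F₀) (w₀ : F₀) :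
    Subring F₀ := s18_ring O₀ (s18_chart1 (L₀ := K) w₀)

/-- the chart ring of the layer. -/
abbrev s48g_B (K : Type*) [Field K] [Algebra K F] (w₀ : F₀) : Subring F :=
  s18_ring (s48g_O hK) (s18_chart1 (L₀ := K) (algebraMap F₀ F w₀))

omit [FiniteDimensional F₀ F] [CharZero F₀] in
theorem s48g_restrict_mem_chart [Algebra.IsIntegral F₀ F] {w₀ : F₀} {P : Place K F}
    (hP : P ∈ s18_chart1 (L₀ := K) (algebraMap F₀ F w₀)) :
    P.restrict F₀ ∈ s18_chart1 (L₀ := K) w₀ :=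
  (Place.mem_restrict_iff P).mpr hP

omit [FiniteDimensional F₀ F] [CharZero F₀] in
theorem s48g_mem_chart_of_restrict [Algebra.IsIntegral F₀ F] {w₀ : F₀} {P : Place K F}
    (hP : P.restrict F₀ ∈ s18_chart1 (L₀ := K) w₀) :
    P ∈ s18_chart1 (L₀ := K) (algebraMap F₀ F w₀) :=
  (Place.mem_restrict_iff P).mp hP

/-- `B₀ ⊆ B`. -/
theorem s48g_chart_base_mem {w₀ : F₀} {y : F₀} (hy : y ∈ s48g_B₀ K O₀ w₀) :
    algebraMap F₀ F y ∈ s48g_B hK K w₀ := by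
  refine ⟨s48g_algebraMap_mem_O hK ⟨y, hy.1⟩, fun P hP => ?_⟩
  exact (Place.mem_restrict_iff P).mp (hy.2 _ (s48g_restrict_mem_chart hP))

/-- (K0) `Tr B ⊆ B₀`. -/
theorem s48g_chart_trace_mem {w₀ : F₀} {y : F} (hy : y ∈ s48g_B hK K w₀) :
    Algebra.trace F₀ F y ∈ s48g_B₀ K O₀ w₀ := by
  refine ⟨s48g_trace_mem hK ⟨y, hy.1⟩, fun P₀ hP₀ => ?_⟩
  refine s48g_trace_mem_place P₀ y fun P hP => hy.2 P ?_
  apply s48g_mem_chart_of_restrict
  rw [hP]
  exact hP₀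

section Hyp

variable [IsAlgClosed K] {k : Type*} [Field k] [Algebra k Fb₀] [Algebra k Fb] [IsScalarTower k Fb₀ Fb]
  {D₀ : Type*} [CommRing D₀] [Algebra D₀ Fb₀] [Algebra D₀ Fb] [IsScalarTower D₀ Fb₀ Fb]
  {x₀ : F₀} [FFGen K x₀] {x : F} [FFGen K x]
  {A : ValuationSubring K} {π : ↥A →+* k} {w₀ : F₀}
  {PsiD₀ : ↥(s18_ring O₀ (s18_chart1 (L₀ := K) w₀)) →+* D₀}
  (h₀ : s37r_ChartHyp x₀ A π O₀ red₀ w₀ PsiD₀)
  (bb : Module.Basis (Fin n) Fb₀ Fb) (hbb : ∀ i : Fin n, bb i = tb ^ (i : ℕ))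
  {ι : Type*} {J : Finset ι}
  {bs : ι → Module.Basis (Fin n) F₀ F} {s : ι → F} {fR : ι → (↥(s48g_B₀ K O₀ w₀))[X]}
  {sd : ι → Fin n → F} {η : ι → F} {d e : ι → ↥(s48g_B₀ K O₀ w₀)}
  (hE : s48g_Etale (s48g_B₀ K O₀ w₀) (s48g_B hK K w₀) J bs s fR sd η d e)

theorem s48g_hR₀ {w₀ : F₀} : ∀ y ∈ s48g_B₀ K O₀ w₀, y ∈ O₀ := fun _ hy => hy.1

theorem s48g_hR {w₀ : F₀} : ∀ y ∈ s48g_B hK K w₀, y ∈ s48g_O hK := fun _ hy => hy.1

include h₀ in
/-- constants of `A` are Gauss-integral in the layer. -/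
theorem s48g_chart_const_mem (c : ↥A) : algebraMap K F (c : K) ∈ s48g_O hK := by
  rw [IsScalarTower.algebraMap_apply K F₀ F]
  exact s48g_algebraMap_mem_O hK ⟨_, h₀.const_mem c⟩

include h₀ in
theorem s48g_chart_red_const (c : ↥A) :
    s48g_red hK ⟨algebraMap K F (c : K), s48g_chart_const_mem hK h₀ c⟩ =
      algebraMap k Fb (π c) := by
  have h1 : (⟨algebraMap K F (c : K), s48g_chart_const_mem hK h₀ c⟩ : ↥(s48g_O hK)) =
      ⟨algebraMap F₀ F (algebraMap K F₀ (c : K)),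
        s48g_algebraMap_mem_O hK ⟨_, h₀.const_mem c⟩⟩ := by
    apply Subtype.ext
    exact IsScalarTower.algebraMap_apply K F₀ F _
  rw [h1]
  refine (s48g_red_algebraMap hK ⟨_, h₀.const_mem c⟩).trans ?_
  rw [h₀.red_const, ← IsScalarTower.algebraMap_apply]

include h₀ in
theorem s48g_chart_w_mem : algebraMap F₀ F w₀ ∈ s48g_O hK :=
  s48g_algebraMap_mem_O hK ⟨w₀, h₀.w_mem⟩

include h₀ in
theorem s48g_chart_red_w :
    s48g_red hK ⟨algebraMap F₀ F w₀, s48g_chart_w_mem hK h₀⟩ =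
      algebraMap Fb₀ Fb (red₀ ⟨w₀, h₀.w_mem⟩) :=
  s48g_red_algebraMap hK ⟨w₀, h₀.w_mem⟩

include h₀ in
theorem s48g_chart_w_nonconst (c : k) :
    s48g_red hK ⟨algebraMap F₀ F w₀, s48g_chart_w_mem hK h₀⟩ ≠ algebraMap k Fb c := by
  rw [s48g_chart_red_w hK h₀, IsScalarTower.algebraMap_apply k Fb₀ Fb]
  intro h
  exact h₀.w_nonconst c ((algebraMap Fb₀ Fb).injective h)

include h₀ in
/-- the reduction `B₀ → Fb₀` is `algebraMap ∘ PsiD₀`. -/
theorem s48g_baseRed_eq (r : ↥(s48g_B₀ K O₀ w₀)) :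
    s48g_baseRed (red₀ := red₀) (s48g_hR₀ (K := K)) r = algebraMap D₀ Fb₀ (PsiD₀ r) :=
  (h₀.psi_eq r).symm

include h₀ hE in
/-- reductions of elements of `B` are integral over `D₀`. -/
theorem s48g_chart_red_isIntegral {y : F} (hy : y ∈ s48g_B hK K w₀) :
    IsIntegral D₀ (s48g_red hK ⟨y, hy.1⟩) := by
  obtain ⟨p, hp, hroot⟩ := s48g_etale_red_isIntegral hK hE (s48g_hR₀ (K := K)) (s48g_hR hK) hy
  refine ⟨p.map PsiD₀, hp.map PsiD₀, ?_⟩
  rw [eval₂_map]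
  have hcomp : (algebraMap Fb₀ Fb).comp (s48g_baseRed (red₀ := red₀) (s48g_hR₀ (K := K))) =
      (algebraMap D₀ Fb).comp PsiD₀ := by
    ext r
    show algebraMap Fb₀ Fb (s48g_baseRed (red₀ := red₀) (s48g_hR₀ (K := K)) r) = _
    rw [s48g_baseRed_eq h₀ r]
    exact (IsScalarTower.algebraMap_apply D₀ Fb₀ Fb _).symm
  rw [hcomp] at hroot
  exact hroot

/-- **the reduction of the chart ring of the layer** into `D = integralClosure D₀ Fb`. -/
def s48g_PsiD : ↥(s48g_B hK K w₀) →+* ↥(integralClosure D₀ Fb) where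
  toFun y := ⟨s48g_red hK ⟨(y : F), y.2.1⟩, s48g_chart_red_isIntegral hK h₀ hE y.2⟩
  map_one' := Subtype.ext (map_one (s48g_red hK))
  map_mul' y z := Subtype.ext (map_mul (s48g_red hK) ⟨(y : F), y.2.1⟩ ⟨(z : F), z.2.1⟩)
  map_zero' := Subtype.ext (map_zero (s48g_red hK))
  map_add' y z := Subtype.ext (map_add (s48g_red hK) ⟨(y : F), y.2.1⟩ ⟨(z : F), z.2.1⟩)

theorem s48g_PsiD_eq (y : ↥(s48g_B hK K w₀)) :
    algebraMap ↥(integralClosure D₀ Fb) Fb (s48g_PsiD hK h₀ hE y) =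
      s48g_red hK ⟨(y : F), y.2.1⟩ := rfl

end Hyp

end Fermat.Agent.Lib.S48
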