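/-
DS-1 (S48), wall [T7] (helper6), brick (G4-b): the one-chart fields (P3) `psi_surj`, (P5) `ker`,
(P4) `value`, (P7) `alpha`, `reg`, `fin` of `s37r_ChartHyp` for the chart ring of a layer
(setting of `GChartA`).
-/
import Fermat.Agent.Lib.S48.GChartA
import Fermat.Agent.Lib.S29.LamDiv

set_option autoImplicit false
set_option linter.unusedSectionVars false
set_option linter.style.haveILetI false

noncomputable section

namespace Fermat.Agent.Lib.S48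

open AlgebraicCurve IsDedekindDomain Fermat.Agent.Lib.FF Fermat.Agent.Lib.S37
  Fermat.Agent.Lib.S18 Polynomial

variable {K F₀ F : Type*} [Field K] [Field F₀] [Field F] [Algebra K F₀] [Algebra K F]
  [Algebra F₀ F] [IsScalarTower K F₀ F] [FiniteDimensional F₀ F] [CharZero F₀]
  {Fb₀ Fb : Type*} [Field Fb₀] [Field Fb] [Algebra Fb₀ Fb]
  {O₀ : ValuationSubring F₀} {red₀ : ↥O₀ →+* Fb₀} {n : ℕ}
  {b : Module.Basis (Fin n) F₀ F} {t : F} {f : (↥O₀)[X]} {tb : Fb}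
  (hK : s48g_LayerData O₀ red₀ b t f tb)
  [IsAlgClosed K] {k : Type*} [Field k] [Algebra k Fb₀] [Algebra k Fb] [IsScalarTower k Fb₀ Fb]
  {D₀ : Type*} [CommRing D₀] [Algebra D₀ Fb₀] [Algebra D₀ Fb] [IsScalarTower D₀ Fb₀ Fb]
  {x₀ : F₀} [FFGen K x₀] {x : F} [FFGen K x]
  {A : ValuationSubring K} {π : ↥A →+* k} {w₀ : F₀}
  {PsiD₀ : ↥(s18_ring O₀ (s18_chart1 (L₀ := K) w₀)) →+* D₀}
  (h₀ : s37r_ChartHyp x₀ A π O₀ red₀ w₀ PsiD₀)
  (bb : Module.Basis (Fin n) Fb₀ Fb) (hbb : ∀ i : Fin n, bb i = tb ^ (i : ℕ))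
  {ι : Type*} {J : Finset ι}
  {bs : ι → Module.Basis (Fin n) F₀ F} {s : ι → F} {fR : ι → (↥(s48g_B₀ K O₀ w₀))[X]}
  {sd : ι → Fin n → F} {η : ι → F} {d e : ι → ↥(s48g_B₀ K O₀ w₀)}
  (hE : s48g_Etale (s48g_B₀ K O₀ w₀) (s48g_B hK K w₀) J bs s fR sd η d e)

include hbb in
/-- **(P3)** the reduction of the chart ring is onto `D`. -/
theorem s48g_chart_psi_surj [IsIntegrallyClosed D₀] [IsFractionRing D₀ Fb₀] :
    Function.Surjective (s48g_PsiD hK h₀ hE) := by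
  intro z
  have hz : ((algebraMap Fb₀ Fb).comp (algebraMap D₀ Fb₀)).IsIntegralElem (z : Fb) := by
    obtain ⟨p, hp, hroot⟩ := z.2
    refine ⟨p, hp, ?_⟩
    have : (algebraMap Fb₀ Fb).comp (algebraMap D₀ Fb₀) = algebraMap D₀ Fb := by
      ext r
      exact (IsScalarTower.algebraMap_apply D₀ Fb₀ Fb r).symm
    rw [this]
    exact hroot
  obtain ⟨y, hy, hyz⟩ := s48g_etale_lift hK bb hbb hE (s48g_hR₀ (K := K)) (s48g_hR hK)
    (algebraMap D₀ Fb₀) PsiD₀ (fun r => h₀.psi_eq r) h₀.psi_surj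
    (fun u hu => IsIntegrallyClosed.isIntegral_iff.mp hu) (z : Fb) hz
  exact ⟨⟨y, hy⟩, Subtype.ext hyz⟩

include hbb h₀ hE in
/-- **(P5)** the kernel of the reduction on the chart ring is generated by the non-units of `A`. -/
theorem s48g_chart_ker (y : ↥(s48g_B hK K w₀)) (hy0 : s48g_red hK ⟨(y : F), y.2.1⟩ = 0) :
    ∃ (c : ↥A) (y' : ↥(s48g_B hK K w₀)), π c = 0 ∧ (y : F) = algebraMap K F (c : K) * (y' : F) := by
  let Z : Set F₀ := {c' | ∃ c : ↥A, π c = 0 ∧ c' = algebraMap K F₀ (c : K)}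
  have hconstB : ∀ a : ↥A, algebraMap K F₀ (a : K) ∈ s48g_B₀ K O₀ w₀ := fun a =>
    ⟨h₀.const_mem a, fun P _ => P.algebraMap_mem' _⟩
  have hZtot : ∀ c ∈ Z, ∀ c' ∈ Z, (∃ a ∈ s48g_B₀ K O₀ w₀, c' = a * c) ∨
      (∃ a ∈ s48g_B₀ K O₀ w₀, c = a * c') := by
    rintro _ ⟨c, hc, rfl⟩ _ ⟨c', hc', rfl⟩
    by_cases hc0 : (c : K) = 0
    · right
      refine ⟨0, Subring.zero_mem _, ?_⟩
      rw [hc0, map_zero, zero_mul]
    · by_cases hc0' : (c' : K) = 0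
      · left
        refine ⟨0, Subring.zero_mem _, ?_⟩
        rw [hc0', map_zero, zero_mul]
      · rcases A.mem_or_inv_mem ((c' : K) / (c : K)) with h | h
        · left
          refine ⟨algebraMap K F₀ ((c' : K) / (c : K)), hconstB ⟨_, h⟩, ?_⟩
          rw [← map_mul, div_mul_cancel₀ _ hc0]
        · right
          refine ⟨algebraMap K F₀ (((c' : K) / (c : K))⁻¹), hconstB ⟨_, h⟩, ?_⟩
          rw [← map_mul, inv_div, div_mul_cancel₀ _ hc0']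
  have hker₀ : ∀ (y₀ : F₀) (hy₀ : y₀ ∈ s48g_B₀ K O₀ w₀), red₀ ⟨y₀, hy₀.1⟩ = 0 →
      ∃ c ∈ Z, ∃ y' ∈ s48g_B₀ K O₀ w₀, y₀ = c * y' := by
    intro y₀ hy₀ hred
    obtain ⟨c, b', hc, e1⟩ := h₀.ker ⟨y₀, hy₀⟩ hred
    exact ⟨algebraMap K F₀ (c : K), ⟨c, hc, rfl⟩, (b' : F₀), b'.2, e1⟩
  obtain ⟨c', ⟨c, hc, rfl⟩, y', hy', e1⟩ := s48g_etale_ker hK bb hbb hE (s48g_hR₀ (K := K))
    (s48g_hR hK) Z hZtot hker₀ (y : F) y.2 hy0
  refine ⟨c, ⟨y', hy'⟩, hc, ?_⟩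
  rw [e1, ← IsScalarTower.algebraMap_apply]

include h₀ hE in
/-- **(P4)** integrality of values on the chart ring of the layer. -/
theorem s48g_chart_value (P : Place K F) (hP : algebraMap F₀ F w₀ ∈ P.toValuationSubring)
    (hInt : s37pv_ev x P ⟨algebraMap F₀ F w₀, hP⟩ ∈ A) (y : ↥(s48g_B hK K w₀)) :
    s37pv_ev x P ⟨(y : F), y.2.2 P hP⟩ ∈ A := by
  have hP₀ : w₀ ∈ (P.restrict F₀).toValuationSubring := (Place.mem_restrict_iff P).mpr hP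
  have hInt₀ : s37pv_ev x₀ (P.restrict F₀) ⟨w₀, hP₀⟩ ∈ A := by
    rw [← s48g_ev_algebraMap x₀ x P w₀ hP₀]
    exact hInt
  have hφ : ∀ r : ↥(s48g_B₀ K O₀ w₀), s48g_incl (F := F) (s48g_B₀ K O₀ w₀) r ∈
      P.toValuationSubring := fun r =>
    (Place.mem_restrict_iff P).mp (r.2.2 _ hP₀)
  have hA : ∀ r : ↥(s48g_B₀ K O₀ w₀),
      s37pv_ev x P ⟨s48g_incl (F := F) (s48g_B₀ K O₀ w₀) r, hφ r⟩ ∈ A := by
    intro r
    have h1 := s48g_ev_algebraMap x₀ x P (r : F₀) (r.2.2 _ hP₀)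
    have h2 := h₀.value (P.restrict F₀) hP₀ hInt₀ r
    rw [← h1] at h2
    exact h2
  obtain ⟨hbv, hb⟩ := s37pv_ev_mem_of_isIntegralElem x P A
    (s48g_incl (F := F) (s48g_B₀ K O₀ w₀)) hφ hA (y : F) (s48g_etale_isIntegral hE y.2)
  exact hb

include h₀ hE in
/-- **(P7) = (α)** for the chart ring of the layer. -/
theorem s48g_chart_alpha (y : F) (hy : y ∈ s48g_O hK) :
    ∃ b₂ : ↥(s48g_B hK K w₀), s48g_red hK ⟨(b₂ : F), b₂.2.1⟩ ≠ 0 ∧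
      y * (b₂ : F) ∈ s48g_B hK K w₀ := by
  have hα₀ : ∀ y₀ ∈ O₀, ∃ (r : F₀) (hr : r ∈ s48g_B₀ K O₀ w₀), red₀ ⟨r, hr.1⟩ ≠ 0 ∧
      y₀ * r ∈ s48g_B₀ K O₀ w₀ := by
    intro y₀ hy₀
    obtain ⟨b₂, hb₂, hyb⟩ := h₀.alpha y₀ hy₀
    exact ⟨(b₂ : F₀), b₂.2, hb₂, hyb⟩
  obtain ⟨r, hr, hr0, hyr⟩ := s48g_etale_alpha hK hE (s48g_hR₀ (K := K)) (s48g_hR hK) hα₀ y hy
  exact ⟨⟨r, hr⟩, hr0, hyr⟩

include h₀ in
/-- `D` is regular wherever `w̄` is. -/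
theorem s48g_chart_reg [FiniteDimensional Fb₀ Fb] (Q : Place k Fb)
    (hQ : (s48g_red hK ⟨algebraMap F₀ F w₀, s48g_chart_w_mem hK h₀⟩ : Fb) ∈ Q.toValuationSubring)
    (z : ↥(integralClosure D₀ Fb)) : algebraMap ↥(integralClosure D₀ Fb) Fb z ∈ Q.toValuationSubring := by
  rw [s48g_chart_red_w hK h₀] at hQ
  have hQ₀ : (red₀ ⟨w₀, h₀.w_mem⟩ : Fb₀) ∈ (Q.restrict Fb₀).toValuationSubring :=
    (Place.mem_restrict_iff Q).mpr hQ
  have hD₀ : ∀ d₀ : D₀, algebraMap D₀ Fb d₀ ∈ Q.toValuationSubring := by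
    intro d₀
    rw [IsScalarTower.algebraMap_apply D₀ Fb₀ Fb]
    exact (Place.mem_restrict_iff Q).mp (h₀.reg (Q.restrict Fb₀) hQ₀ d₀)
  let φ' : D₀ →+* ↥Q.toValuationSubring :=
    (algebraMap D₀ Fb).codRestrict Q.toValuationSubring.toSubring hD₀
  obtain ⟨p, hp, hroot⟩ := z.2
  have hint : IsIntegral ↥Q.toValuationSubring (z : Fb) := by
    refine ⟨p.map φ', hp.map _, ?_⟩
    rw [eval₂_map]
    exact hroot
  obtain ⟨a, ha⟩ := IsIntegrallyClosed.isIntegral_iff.mp hint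
  show (z : Fb) ∈ Q.toValuationSubring
  rw [← ha]
  exact a.2

/-- divisors of functions on the layer have finite support. -/
theorem s48g_chart_fin [CharZero K] (x' : F) [FFGen K x'] (y : F) (hy : y ≠ 0) :
    {P : Place K F | P.ord y ≠ 0}.Finite := by
  haveI := Fermat.Agent.Lib.S29.s29l_hasPrincipalDivisors (K := K) x'
  obtain ⟨Dv, hDv, -⟩ := HasPrincipalDivisors.exists_divisor (K := K) y hy
  refine Dv.support.finite_toSet.subset fun P hP => ?_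
  rw [Finset.mem_coe, Finsupp.mem_support_iff, hDv P]
  exact hP

end Fermat.Agent.Lib.S48
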