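/-
DS-1 (S48), wall [T7] (helper6), brick (G4-c): **invertibility of chart lattices from single places.**

Generic (`𝓕/L₀` a function field, `O` a valuation ring of `𝓕`, `S` a chart): the predicate
`s48g_Inv O S E` ("the lattice of `E` on the chart `S` is invertible": `∑ a j * b j = 1` with
`a j ∈ lat E`, `b j ∈ lat (-E)`, finite index type) is stable under sums, negation and change of `E`
off the chart; hence `s37r_HInv O S` follows from `s48g_Inv O S δ_P` for all `P ∈ S`
(`s48g_hinv_of_single`).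
-/
import Fermat.Agent.Lib.S37.RCons
import Fermat.Agent.Lib.S37.PValue

set_option autoImplicit false
set_option linter.unusedSectionVars false
set_option linter.style.haveILetI false

noncomputable section

namespace Fermat.Agent.Lib.S48

open AlgebraicCurve Fermat.Agent.Lib.FF Fermat.Agent.Lib.S18 Fermat.Agent.Lib.S37

variable {L₀ 𝓕 : Type*} [Field L₀] [Field 𝓕] [Algebra L₀ 𝓕]
  (O : ValuationSubring 𝓕) (S : Set (Place L₀ 𝓕))

/-- invertibility of the lattice of `E`, with an arbitrary finite index type. -/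
def s48g_Inv (E : Place L₀ 𝓕 → ℤ) : Prop :=
  ∃ (ι : Type) (_ : Fintype ι) (a b : ι → 𝓕), (∀ j, a j ∈ s18_latSet O S E) ∧
    (∀ j, b j ∈ s18_latSet O S (fun Q => - E Q)) ∧ ∑ j, a j * b j = 1

variable {O S}

/-- the lattice only depends on the values of `E` on the chart. -/
theorem s48g_latSet_congr {E E' : Place L₀ 𝓕 → ℤ} (h : ∀ Q ∈ S, E Q = E' Q) {y : 𝓕}
    (hy : y ∈ s18_latSet O S E) : y ∈ s18_latSet O S E' :=
  ⟨hy.1, fun Q hQ => by rw [← h Q hQ]; exact hy.2 Q hQ⟩

theorem s48g_inv_congr {E E' : Place L₀ 𝓕 → ℤ} (h : ∀ Q ∈ S, E Q = E' Q)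
    (hE : s48g_Inv O S E) : s48g_Inv O S E' := by
  obtain ⟨ι, hι, a, b, ha, hb, hab⟩ := hE
  exact ⟨ι, hι, a, b, fun j => s48g_latSet_congr h (ha j),
    fun j => s48g_latSet_congr (fun Q hQ => by rw [h Q hQ]) (hb j), hab⟩

theorem s48g_one_mem_latSet_zero : (1 : 𝓕) ∈ s18_latSet O S (fun _ => 0) :=
  ⟨O.one_mem, fun Q _ => Or.inr (by rw [Place.ord_one])⟩

theorem s48g_inv_zero : s48g_Inv O S (fun _ => 0) :=
  ⟨Unit, inferInstance, fun _ => 1, fun _ => 1, fun _ => s48g_one_mem_latSet_zero,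
    fun _ => by simpa using s48g_one_mem_latSet_zero (O := O) (S := S), by simp⟩

theorem s48g_inv_neg {E : Place L₀ 𝓕 → ℤ} (hE : s48g_Inv O S E) :
    s48g_Inv O S (fun Q => - E Q) := by
  obtain ⟨ι, hι, a, b, ha, hb, hab⟩ := hE
  refine ⟨ι, hι, b, a, hb, fun j => ?_, ?_⟩
  · simpa using ha j
  · rw [← hab]
    exact Finset.sum_congr rfl fun j _ => mul_comm _ _

theorem s48g_inv_add {E E' : Place L₀ 𝓕 → ℤ} (hE : s48g_Inv O S E) (hE' : s48g_Inv O S E') :
    s48g_Inv O S (fun Q => E Q + E' Q) := by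
  obtain ⟨ι, hι, a, b, ha, hb, hab⟩ := hE
  obtain ⟨ι', hι', a', b', ha', hb', hab'⟩ := hE'
  refine ⟨ι × ι', inferInstance, fun p => a p.1 * a' p.2, fun p => b p.1 * b' p.2,
    fun p => s18_latSet_mul O S E E' (ha p.1) (ha' p.2), fun p => ?_, ?_⟩
  · have := s18_latSet_mul O S _ _ (hb p.1) (hb' p.2)
    refine s48g_latSet_congr (fun Q _ => ?_) this
    ring
  · rw [Fintype.sum_prod_type]
    have h1 : ∀ i : ι, ∑ j : ι', a i * a' j * (b i * b' j) = a i * b i := by
      intro i
      have : ∀ j : ι', a i * a' j * (b i * b' j) = a i * b i * (a' j * b' j) := fun j => by ring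
      rw [Finset.sum_congr rfl fun j _ => this j, ← Finset.mul_sum, hab', mul_one]
    rw [Finset.sum_congr rfl fun i _ => h1 i, hab]

/-- natural multiples. -/
theorem s48g_inv_nsmul {E : Place L₀ 𝓕 → ℤ} (hE : s48g_Inv O S E) (m : ℕ) :
    s48g_Inv O S (fun Q => (m : ℤ) * E Q) := by
  induction m with
  | zero => exact s48g_inv_congr (fun Q _ => by simp) s48g_inv_zero
  | succ m ih =>
    refine s48g_inv_congr (fun Q _ => ?_) (s48g_inv_add ih hE)
    push_cast
    ring

/-- integer multiples. -/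
theorem s48g_inv_zsmul {E : Place L₀ 𝓕 → ℤ} (hE : s48g_Inv O S E) (m : ℤ) :
    s48g_Inv O S (fun Q => m * E Q) := by
  rcases Int.eq_nat_or_neg m with ⟨k, rfl | rfl⟩
  · exact s48g_inv_nsmul hE k
  · refine s48g_inv_congr (fun Q _ => ?_) (s48g_inv_neg (s48g_inv_nsmul hE k))
    ring

open Classical in
/-- **from single places to all finitely supported `E`.** -/
theorem s48g_inv_of_single
    (hδ : ∀ P ∈ S, s48g_Inv O S (fun Q => if Q = P then 1 else 0))
    (E : Place L₀ 𝓕 → ℤ) (hfin : {Q | Q ∈ S ∧ E Q ≠ 0}.Finite) : s48g_Inv O S E := by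
  -- induction over a finite set containing the support on the chart
  have key : ∀ T : Finset (Place L₀ 𝓕), (∀ P ∈ T, P ∈ S) →
      s48g_Inv O S (fun Q => if Q ∈ T then E Q else 0) := by
    intro T
    induction T using Finset.induction_on with
    | empty => intro _; exact s48g_inv_congr (fun Q _ => by simp) s48g_inv_zero
    | insert P T hPT ih =>
      intro hT
      have h1 := ih fun P' hP' => hT P' (Finset.mem_insert_of_mem hP')
      have h2 := s48g_inv_zsmul (hδ P (hT P (Finset.mem_insert_self P T))) (E P)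
      refine s48g_inv_congr (fun Q _ => ?_) (s48g_inv_add h1 h2)
      by_cases hQP : Q = P
      · subst hQP
        simp [hPT]
      · simp [hQP]
  refine s48g_inv_congr (fun Q hQ => ?_) (key hfin.toFinset fun P hP => ?_)
  · by_cases hE : E Q = 0
    · simp [hE]
    · have : Q ∈ hfin.toFinset := by
        rw [Set.Finite.mem_toFinset]
        exact ⟨hQ, hE⟩
      simp [this]
  · rw [Set.Finite.mem_toFinset] at hP
    exact hP.1

/-- conversion to the `Finset ℕ` form used by `s37r_HInv`. -/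
theorem s48g_inv_to_nat {E : Place L₀ 𝓕 → ℤ} (hE : s48g_Inv O S E) :
    ∃ (s : Finset ℕ) (a b : ℕ → 𝓕), (∀ j ∈ s, a j ∈ s18_latSet O S E) ∧
      (∀ j ∈ s, b j ∈ s18_latSet O S (fun Q => - E Q)) ∧ ∑ j ∈ s, a j * b j = 1 := by
  classical
  obtain ⟨ι, hι, a, b, ha, hb, hab⟩ := hE
  let e := Fintype.equivFin ι
  refine ⟨Finset.range (Fintype.card ι),
    fun j => if h : j < Fintype.card ι then a (e.symm ⟨j, h⟩) else 0,
    fun j => if h : j < Fintype.card ι then b (e.symm ⟨j, h⟩) else 0, ?_, ?_, ?_⟩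
  · intro j hj
    beta_reduce
    rw [dif_pos (Finset.mem_range.mp hj)]
    exact ha _
  · intro j hj
    beta_reduce
    rw [dif_pos (Finset.mem_range.mp hj)]
    exact hb _
  · rw [← hab, Finset.sum_range]
    rw [← Equiv.sum_comp e.symm (fun i => a i * b i)]
    refine Finset.sum_congr rfl fun i _ => ?_
    beta_reduce
    rw [dif_pos i.2, dif_pos i.2]

open Classical in
/-- **`s37r_HInv` from single places.** -/
theorem s48g_hinv_of_single
    (hδ : ∀ P ∈ S, s48g_Inv O S (fun Q => if Q = P then 1 else 0)) : s37r_HInv O S :=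
  fun E hfin => s48g_inv_to_nat (s48g_inv_of_single hδ E hfin)

section Transport

variable {K F : Type*} [Field K] [Field F] [Algebra K F] [IsAlgClosed K]

theorem s48g_ord_pow (Q : Place K F) (y : F) (m : ℕ) : Q.ord (y ^ m) = (m : ℤ) * Q.ord y := by
  rw [← zpow_natCast, Q.ord_zpow]

/-- a nonzero element of `O_Q` with value zero has positive order. -/
theorem s48g_ord_pos_of_ev_eq_zero (x : F) [FFGen K x] (Q : Place K F) (y : F)
    (hy : y ∈ Q.toValuationSubring) (hy0 : y ≠ 0) (hev : s37pv_ev x Q ⟨y, hy⟩ = 0) :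
    0 < Q.ord y := by
  rcases (s37pv_ev_coe_eq_iff x Q ⟨y, hy⟩ 0).mp hev with h | h
  · exfalso
    rw [map_zero] at h
    exact hy0 h
  · rw [map_zero, sub_zero] at h
    exact h

/-- an element of `O_Q` with nonzero value has order zero. -/
theorem s48g_ord_eq_zero_of_ev_ne_zero (x : F) [FFGen K x] (Q : Place K F) (y : F)
    (hy : y ∈ Q.toValuationSubring) (hev : s37pv_ev x Q ⟨y, hy⟩ ≠ 0) : Q.ord y = 0 := by
  have hy0 : y ≠ 0 := by
    rintro rfl
    apply hev
    have : (⟨0, hy⟩ : ↥Q.toValuationSubring) = 0 := rfl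
    rw [this, map_zero]
  have h1 : 0 ≤ Q.ord y := (ff_mem_iff_ord_nonneg Q hy0).mp hy
  by_contra hne
  have hpos : 0 < Q.ord y := by omega
  apply hev
  rw [s37pv_ev_coe_eq_iff]
  right
  rw [map_zero, sub_zero]
  exact hpos

open Classical in
/-- **transport of invertibility between the two charts** at a place where `w` has a nonzero value
`c` with `c⁻¹` Gauss-integral: multiply by a high power of `u = w / c`. -/
theorem s48g_inv_transport (x : F) [FFGen K x] (O : ValuationSubring F) (w : F) (hwO : w ∈ O)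
    (P' : Place K F) (hP' : w ∈ P'.toValuationSubring) (c : K) (hc0 : c ≠ 0)
    (hcO : algebraMap K F c⁻¹ ∈ O) (hev : s37pv_ev x P' ⟨w, hP'⟩ = c)
    (hfin : {Q : Place K F | Q.ord w ≠ 0}.Finite)
    (h2 : s48g_Inv O (s18_chart1 (L₀ := K) w⁻¹) (fun Q => if Q = P' then 1 else 0)) :
    s48g_Inv O (s18_chart1 (L₀ := K) w) (fun Q => if Q = P' then 1 else 0) := by
  obtain ⟨ι, hι, a, b, ha, hb, hab⟩ := h2
  have hw0 : w ≠ 0 := by
    rintro rfl
    apply hc0
    rw [← hev]
    have : (⟨0, hP'⟩ : ↥P'.toValuationSubring) = 0 := rfl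
    rw [this, map_zero]
  have hordP' : P'.ord w = 0 :=
    s48g_ord_eq_zero_of_ev_ne_zero x P' w hP' (by rw [hev]; exact hc0)
  set cc : F := algebraMap K F c⁻¹ with hcc
  have hcc0 : cc ≠ 0 := (map_ne_zero _).mpr (inv_ne_zero hc0)
  set u : F := cc * w with hu
  have hu0 : u ≠ 0 := mul_ne_zero hcc0 hw0
  have huO : u ∈ O := O.mul_mem _ _ hcO hwO
  have hordu : ∀ Q : Place K F, Q.ord u = Q.ord w := fun Q => by
    rw [hu, Q.ord_mul hcc0 hw0, ff_ord_algebraMap, zero_add]
  have huQ : ∀ Q ∈ s18_chart1 (L₀ := K) w, u ∈ Q.toValuationSubring := fun Q hQ =>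
    Q.toValuationSubring.mul_mem _ _ (Q.algebraMap_mem' _) hQ
  have hevu : s37pv_ev x P' ⟨u, huQ P' hP'⟩ = 1 := by
    have h1 : (⟨u, huQ P' hP'⟩ : ↥P'.toValuationSubring) =
        algebraMap K ↥P'.toValuationSubring c⁻¹ * ⟨w, hP'⟩ := rfl
    rw [h1, map_mul, s37pv_ev_algebraMap, hev, inv_mul_cancel₀ hc0]
  -- the exponent
  let Z : Finset (Place K F) := hfin.toFinset
  let N : ℕ := ∑ Q ∈ Z, ∑ j, ((Q.ord (a j)).natAbs + (Q.ord (b j)).natAbs)
  have hN : ∀ Q ∈ Z, ∀ j, (Q.ord (a j)).natAbs + (Q.ord (b j)).natAbs ≤ N := by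
    intro Q hQ j
    calc (Q.ord (a j)).natAbs + (Q.ord (b j)).natAbs
        ≤ ∑ j, ((Q.ord (a j)).natAbs + (Q.ord (b j)).natAbs) :=
          Finset.single_le_sum (f := fun j => (Q.ord (a j)).natAbs + (Q.ord (b j)).natAbs)
            (fun _ _ => Nat.zero_le _) (Finset.mem_univ j)
      _ ≤ N := Finset.single_le_sum
          (f := fun Q => ∑ j, ((Q.ord (a j)).natAbs + (Q.ord (b j)).natAbs))
          (fun _ _ => Nat.zero_le _) hQ
  -- membership of `y * u ^ N` in the lattices of chart 1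
  have key : ∀ (E : Place K F → ℤ) (y : F), E P' = E P' → (∀ Q, Q ≠ P' → E Q = 0) →
      y ∈ s18_latSet O (s18_chart1 (L₀ := K) w⁻¹) E →
      (∀ Q ∈ Z, -(N : ℤ) ≤ Q.ord y) →
      y * u ^ N ∈ s18_latSet O (s18_chart1 (L₀ := K) w) E := by
    intro E y _ hE hy hyN
    refine ⟨O.mul_mem _ _ hy.1 (pow_mem huO N), fun Q hQ => ?_⟩
    by_cases hy0 : y = 0
    · left
      rw [hy0, zero_mul]
    right
    rw [Q.ord_mul hy0 (pow_ne_zero N hu0), s48g_ord_pow, hordu]
    have hwQ : 0 ≤ Q.ord w := (ff_mem_iff_ord_nonneg Q hw0).mp hQ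
    by_cases hz : Q.ord w = 0
    · have hQ2 : Q ∈ s18_chart1 (L₀ := K) w⁻¹ := by
        show w⁻¹ ∈ Q.toValuationSubring
        rw [ff_mem_iff_ord_nonneg Q (inv_ne_zero hw0), Q.ord_inv, hz, neg_zero]
      rcases hy.2 Q hQ2 with h | h
      · exact absurd h hy0
      · rw [hz, mul_zero, add_zero]
        exact h
    · have hQZ : Q ∈ Z := by
        rw [Set.Finite.mem_toFinset]
        exact hz
      have hQP : Q ≠ P' := by
        rintro rfl
        exact hz hordP'
      rw [hE Q hQP]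
      have h1 := hyN Q hQZ
      have h2 : (1 : ℤ) ≤ Q.ord w := by omega
      have h3 : (N : ℤ) * 1 ≤ (N : ℤ) * Q.ord w :=
        mul_le_mul_of_nonneg_left h2 (Int.natCast_nonneg N)
      omega
  refine ⟨Option ι, inferInstance, fun o => o.elim (1 - u ^ (2 * N)) (fun j => a j * u ^ N),
    fun o => o.elim 1 (fun j => b j * u ^ N), ?_, ?_, ?_⟩
  · rintro (_ | j)
    · show 1 - u ^ (2 * N) ∈ _
      refine ⟨sub_mem O.one_mem (pow_mem huO _), fun Q hQ => ?_⟩
      beta_reduce
      by_cases hy0 : 1 - u ^ (2 * N) = 0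
      · exact Or.inl hy0
      right
      have hyQ : 1 - u ^ (2 * N) ∈ Q.toValuationSubring :=
        sub_mem Q.toValuationSubring.one_mem (pow_mem (huQ Q hQ) _)
      by_cases hQP : Q = P'
      · subst hQP
        rw [if_pos rfl]
        have hev0 : s37pv_ev x Q ⟨1 - u ^ (2 * N), hyQ⟩ = 0 := by
          have h1 : (⟨1 - u ^ (2 * N), hyQ⟩ : ↥Q.toValuationSubring) =
              1 - ⟨u, huQ Q hP'⟩ ^ (2 * N) := rfl
          rw [h1, map_sub, map_one, map_pow, hevu, one_pow, sub_self]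
        have := s48g_ord_pos_of_ev_eq_zero x Q _ hyQ hy0 hev0
        omega
      · rw [if_neg hQP]
        exact (ff_mem_iff_ord_nonneg Q hy0).mp hyQ
    · show a j * u ^ N ∈ _
      refine key _ (a j) rfl (fun Q hQ => if_neg hQ) (ha j) fun Q hQ => ?_
      have := hN Q hQ j
      omega
  · rintro (_ | j)
    · show (1 : F) ∈ _
      refine ⟨O.one_mem, fun Q _ => Or.inr ?_⟩
      beta_reduce
      rw [Place.ord_one]
      split_ifs <;> norm_num
    · show b j * u ^ N ∈ _
      refine key _ (b j) rfl (fun Q hQ => ?_) (hb j) fun Q hQ => ?_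
      · beta_reduce
        rw [if_neg hQ, neg_zero]
      · have := hN Q hQ j
        omega
  · rw [Fintype.sum_option]
    show (1 - u ^ (2 * N)) * 1 + ∑ j, a j * u ^ N * (b j * u ^ N) = 1
    have h1 : ∀ j, a j * u ^ N * (b j * u ^ N) = u ^ (2 * N) * (a j * b j) := fun j => by
      rw [two_mul, pow_add]
      ring
    rw [Finset.sum_congr rfl fun j _ => h1 j, ← Finset.mul_sum, hab]
    ring

end Transport

end Fermat.Agent.Lib.S48
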