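/-
DS-1 (S48), wall [T7] (helper6), brick (G4-d): **invertibility of the chart lattices of a layer at
a single place with integral value** (`s48g_inv_single_int`).

Setting of `GChartA/B`.  At a place `P'` of the chart of `w` with `w(P') ∈ A`, over `P₀`: choose a
member `j` of the étale datum with `d j (P₀) ∈ Aˣ`, put `c' = s j (P')`,
`e' = ((fR j - fR j (c')) / (X - c'))(s j)`; then `e'` vanishes at all places over `P₀` other than
`P'`, has a unit value `κ ∈ Aˣ` at `P'`, and with `∑ α_i β_i = 1` from the invertibility of the base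
lattice of `δ_{P₀}`:  `1 = (1 - e'/κ) · 1 + ∑ α_i · (β_i e'/κ)`.
-/
import Fermat.Agent.Lib.S48.GChartB
import Fermat.Agent.Lib.S48.GInv
import Fermat.Agent.Lib.S37.RCore

set_option autoImplicit false
set_option linter.unusedSectionVars false
set_option linter.style.haveILetI false

noncomputable section

namespace Fermat.Agent.Lib.S48

open AlgebraicCurve IsDedekindDomain Fermat.Agent.Lib.FF Fermat.Agent.Lib.S37
  Fermat.Agent.Lib.S18 Polynomial

section Helpers

variable {K F₀ F : Type*} [Field K] [Field F₀] [Field F] [Algebra K F₀] [Algebra K F]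
  [Algebra F₀ F] [IsScalarTower K F₀ F]

/-- a generator of an extension of degree `≥ 2` is not a constant. -/
theorem s48g_gen_ne_const {n : ℕ} (hn : 2 ≤ n) (bs : Module.Basis (Fin n) F₀ F) (s : F)
    (hbs : ∀ i : Fin n, bs i = s ^ (i : ℕ)) (c : K) : s ≠ algebraMap K F c := by
  intro h
  have h0 : bs ⟨0, by omega⟩ = 1 := by rw [hbs]; simp
  have h1 : bs ⟨1, by omega⟩ = s := by rw [hbs]; simp
  have h2 : bs ⟨1, by omega⟩ = (algebraMap K F₀ c) • bs ⟨0, by omega⟩ := by
    rw [h1, h0, h, Algebra.smul_def, mul_one, ← IsScalarTower.algebraMap_apply]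
  have h3 := congrArg (fun v => bs.repr v ⟨1, by omega⟩) h2
  simp only [Module.Basis.repr_self, map_smul, Finsupp.smul_apply, Finsupp.single_apply] at h3
  simp at h3

/-- evaluation of a polynomial over `R₀` at an element of `R ⊇ R₀`. -/
theorem s48g_eval₂_mem {R₀ : Subring F₀} {R : Subring F}
    (hbase : ∀ y ∈ R₀, algebraMap F₀ F y ∈ R) (p : (↥R₀)[X]) {s : F} (hs : s ∈ R) :
    eval₂ (s48g_incl (F := F) R₀) s p ∈ R := by
  rw [eval₂_eq_sum_range]
  exact sum_mem fun i _ => R.mul_mem (hbase _ (p.coeff i).2) (pow_mem hs _)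

/-- a nonzero non-unit of `O_v` has positive order. -/
theorem s48g_ord_pos_of_mem_maximalIdeal (v : Place K F) (a : v.toValuationSubring)
    (ha : a ∈ IsLocalRing.maximalIdeal v.toValuationSubring) (ha0 : (a : F) ≠ 0) :
    0 < v.ord (a : F) := by
  have h1 : 0 ≤ v.ord (a : F) := (ff_mem_iff_ord_nonneg v ha0).mp a.2
  have h2 : v.ord (a : F) ≠ 0 := by
    intro h
    rw [IsLocalRing.mem_maximalIdeal, mem_nonunits_iff] at ha
    exact ha ((s48g_isUnit_iff_ord v a ha0).mpr h)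
  omega

/-- in a valuation ring, a finite sum `∑ e j * d j = 1` has a term with `d j` of valuation one. -/
theorem s48g_exists_valuation_eq_one (A : ValuationSubring K) {ι : Type*} (J : Finset ι)
    (e d : ι → K) (he : ∀ j ∈ J, e j ∈ A) (hd : ∀ j ∈ J, d j ∈ A)
    (hone : ∑ j ∈ J, e j * d j = 1) : ∃ j ∈ J, A.valuation (d j) = 1 := by
  by_contra hcon
  push Not at hcon
  have hlt : ∀ j ∈ J, A.valuation (e j * d j) < 1 := by
    intro j hj
    have h1 : A.valuation (d j) ≤ 1 := (A.valuation_le_one_iff _).mpr (hd j hj)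
    have h2 : A.valuation (d j) < 1 := lt_of_le_of_ne h1 (hcon j hj)
    have h3 : A.valuation (e j) ≤ 1 := (A.valuation_le_one_iff _).mpr (he j hj)
    rw [map_mul]
    calc A.valuation (e j) * A.valuation (d j) ≤ 1 * A.valuation (d j) := by gcongr
      _ = A.valuation (d j) := one_mul _
      _ < 1 := h2
  have := Valuation.map_sum_lt A.valuation (one_ne_zero) hlt
  rw [hone, map_one] at this
  exact lt_irrefl _ this

/-- an element of `A` of valuation one has its inverse in `A`. -/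
theorem s48g_inv_mem_of_valuation_eq_one (A : ValuationSubring K) {c : K}
    (hc : A.valuation c = 1) : c⁻¹ ∈ A := by
  rw [← A.valuation_le_one_iff, map_inv₀, hc, inv_one]

end Helpers

section Single

variable {K F₀ F : Type*} [Field K] [Field F₀] [Field F] [Algebra K F₀] [Algebra K F]
  [Algebra F₀ F] [IsScalarTower K F₀ F] [FiniteDimensional F₀ F] [CharZero F₀]
  {Fb₀ Fb : Type*} [Field Fb₀] [Field Fb] [Algebra Fb₀ Fb]
  {O₀ : ValuationSubring F₀} {red₀ : ↥O₀ →+* Fb₀} {n : ℕ}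
  {b : Module.Basis (Fin n) F₀ F} {t : F} {f : (↥O₀)[X]} {tb : Fb}
  (hK : s48g_LayerData O₀ red₀ b t f tb)
  [IsAlgClosed K] [CharZero K]
  {k : Type*} [Field k] [Algebra k Fb₀] [Algebra k Fb] [IsScalarTower k Fb₀ Fb]
  {D₀ : Type*} [CommRing D₀] [Algebra D₀ Fb₀] [Algebra D₀ Fb] [IsScalarTower D₀ Fb₀ Fb]
  {x₀ : F₀} [FFGen K x₀] {x : F} [FFGen K x]
  {A : ValuationSubring K} {π : ↥A →+* k} {w₀ : F₀}
  {PsiD₀ : ↥(s18_ring O₀ (s18_chart1 (L₀ := K) w₀)) →+* D₀}
  (h₀ : s37r_ChartHyp x₀ A π O₀ red₀ w₀ PsiD₀)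
  {ι : Type*} {J : Finset ι}
  {bs : ι → Module.Basis (Fin n) F₀ F} {s : ι → F} {fR : ι → (↥(s48g_B₀ K O₀ w₀))[X]}
  {sd : ι → Fin n → F} {η : ι → F} {d e : ι → ↥(s48g_B₀ K O₀ w₀)}
  (hE : s48g_Etale (s48g_B₀ K O₀ w₀) (s48g_B hK K w₀) J bs s fR sd η d e)

attribute [local instance 10] s37h_algRF' s37h_algKS

include h₀ hE in
/-- **the local idempotent** at a place `P'` of the chart with integral value. -/
theorem s48g_exists_local_idem (hn : 2 ≤ n) (P' : Place K F)
    (hP' : algebraMap F₀ F w₀ ∈ P'.toValuationSubring)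
    (hInt : s37pv_ev x P' ⟨algebraMap F₀ F w₀, hP'⟩ ∈ A) :
    ∃ (e' : F) (κ : K) (he' : e' ∈ s48g_B hK K w₀), κ⁻¹ ∈ A ∧ κ ≠ 0 ∧
      s37pv_ev x P' ⟨e', he'.2 P' hP'⟩ = κ ∧
      P'.ramificationIndex F₀ = 1 ∧ P'.ord e' = 0 ∧ e' ≠ 0 ∧
      ∀ Q : Place K F, Q.restrict F₀ = P'.restrict F₀ → Q ≠ P' →
        (Q.ramificationIndex F₀ : ℤ) ≤ Q.ord e' := by
  classical
  haveI := Fermat.Agent.Lib.S29.s29l_hasPrincipalDivisors (K := K) x
  set P₀ := P'.restrict F₀ with hP₀def
  have hP₀ : w₀ ∈ P₀.toValuationSubring := (Place.mem_restrict_iff P').mpr hP'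
  have hInt₀ : s37pv_ev x₀ P₀ ⟨w₀, hP₀⟩ ∈ A := by
    rw [← s48g_ev_algebraMap x₀ x P' w₀ hP₀]
    exact hInt
  have hval₀ : ∀ r : ↥(s48g_B₀ K O₀ w₀), s37pv_ev x₀ P₀ ⟨(r : F₀), r.2.2 _ hP₀⟩ ∈ A :=
    h₀.value P₀ hP₀ hInt₀
  have hval : ∀ y : ↥(s48g_B hK K w₀), s37pv_ev x P' ⟨(y : F), y.2.2 P' hP'⟩ ∈ A :=
    s48g_chart_value hK h₀ hE P' hP' hInt
  -- the member of the datum
  let ev₀ : ↥(s48g_B₀ K O₀ w₀) →+* K := s37r_evB x₀ O₀ P₀ hP₀
  let evB : ↥(s48g_B hK K w₀) →+* K := s37r_evB x (s48g_O hK) P' hP'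
  have hev₀A : ∀ r, ev₀ r ∈ A := hval₀
  have hevBA : ∀ y, evB y ∈ A := hval
  have hevB_base : ∀ r : ↥(s48g_B₀ K O₀ w₀),
      evB ⟨algebraMap F₀ F (r : F₀), s48g_chart_base_mem hK r.2⟩ = ev₀ r := fun r =>
    s48g_ev_algebraMap x₀ x P' (r : F₀) (r.2.2 _ hP₀)
  have hone : ∑ j ∈ J, ev₀ (e j) * ev₀ (d j) = 1 := by
    have := congrArg ev₀ hE.one
    rw [map_sum, map_one] at this
    rw [← this]
    exact Finset.sum_congr rfl fun j _ => (map_mul _ _ _).symm
  obtain ⟨j, hj, hdj⟩ := s48g_exists_valuation_eq_one A J (fun j => ev₀ (e j))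
    (fun j => ev₀ (d j)) (fun j _ => hev₀A (e j)) (fun j _ => hev₀A (d j)) hone
  -- the value `c'` of `s j` at `P'`
  have hsB : s j ∈ s48g_B hK K w₀ := hE.s_mem j hj
  set c' : K := evB ⟨s j, hsB⟩ with hc'
  have hc'A : c' ∈ A := hevBA _
  have hconstB₀ : ∀ a : ↥A, algebraMap K F₀ (a : K) ∈ s48g_B₀ K O₀ w₀ := fun a =>
    ⟨h₀.const_mem a, fun P _ => P.algebraMap_mem' _⟩
  let c'B : ↥(s48g_B₀ K O₀ w₀) := ⟨algebraMap K F₀ c', hconstB₀ ⟨c', hc'A⟩⟩
  have hinclc : s48g_incl (F := F) (s48g_B₀ K O₀ w₀) c'B = algebraMap K F c' :=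
    (IsScalarTower.algebraMap_apply K F₀ F c').symm
  -- the divided difference
  set g : (↥(s48g_B₀ K O₀ w₀))[X] := fR j /ₘ (X - C c'B) with hg
  set φ : ↥(s48g_B₀ K O₀ w₀) := (fR j).eval c'B with hφ
  have hdiv : fR j = (X - C c'B) * g + C φ := by
    have h1 := modByMonic_add_div (fR j) (X - C c'B)
    rw [modByMonic_X_sub_C_eq_C_eval] at h1
    rw [hg, hφ, add_comm]
    exact h1.symm
  set e' : F := eval₂ (s48g_incl (F := F) (s48g_B₀ K O₀ w₀)) (s j) g with he'
  have he'B : e' ∈ s48g_B hK K w₀ :=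
    s48g_eval₂_mem (fun y hy => s48g_chart_base_mem hK hy) g hsB
  have hrel : (s j - algebraMap K F c') * e' = - algebraMap F₀ F (φ : F₀) := by
    have h1 := congrArg (eval₂ (s48g_incl (F := F) (s48g_B₀ K O₀ w₀)) (s j)) hdiv
    rw [hE.root j hj, eval₂_add, eval₂_mul, eval₂_sub, eval₂_X, eval₂_C, eval₂_C, hinclc] at h1
    have h2 : s48g_incl (F := F) (s48g_B₀ K O₀ w₀) φ = algebraMap F₀ F (φ : F₀) := rfl
    rw [h2] at h1
    rw [← he'] at h1
    linear_combination -h1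
  -- the data for `s48g_unr`
  have hsc : s j ≠ algebraMap K F c' :=
    s48g_gen_ne_const hn (bs j) (s j) (hE.dual j hj).basis c'
  have hwc : 0 < P'.ord (s j - algebraMap K F c') := by
    have h1 : s37pv_ev x P' ⟨s j, hsB.2 P' hP'⟩ = c' := rfl
    rcases (s37pv_ev_coe_eq_iff x P' _ c').mp h1 with h2 | h2
    · exact absurd h2 hsc
    · exact h2
  let ι₀ : ↥(s48g_B₀ K O₀ w₀) →+* ↥P₀.toValuationSubring := s37r_toOP O₀ P₀ hP₀
  have hcompι : (s48g_inclV (F := F) P₀).comp ι₀ = s48g_incl (F := F) (s48g_B₀ K O₀ w₀) := by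
    ext r
    rfl
  set fv : (↥P₀.toValuationSubring)[X] := (fR j).map ι₀ with hfv
  have hfvm : fv.Monic := (hE.monic j hj).map ι₀
  have hfvd : fv.natDegree = n := by rw [hfv, (hE.monic j hj).natDegree_map, hE.natDegree j hj]
  have hfvroot : eval₂ (s48g_inclV (F := F) P₀) (s j) fv = 0 := by
    rw [hfv, eval₂_map, hcompι]
    exact hE.root j hj
  have hηreg : ∀ w : Place K F, w.restrict F₀ = P₀ → η j ∈ w.toValuationSubring := by
    intro w hw
    refine (hE.eta_mem j hj).2 w ?_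
    apply s48g_mem_chart_of_restrict
    rw [hw]
    exact hP₀
  have hdne : ((d j : ↥(s48g_B₀ K O₀ w₀)) : F₀) ≠ 0 := by
    intro h0
    have : ev₀ (d j) = 0 := by
      have : d j = 0 := Subtype.ext h0
      rw [this, map_zero]
    rw [this, map_zero] at hdj
    exact zero_ne_one hdj
  have hdord : P₀.ord ((d j : ↥(s48g_B₀ K O₀ w₀)) : F₀) = 0 := by
    have hne : ev₀ (d j) ≠ 0 := by
      intro h0
      rw [h0, map_zero] at hdj
      exact zero_ne_one hdj
    have hunit : IsUnit (⟨((d j : ↥(s48g_B₀ K O₀ w₀)) : F₀), (d j).2.2 _ hP₀⟩ :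
        ↥P₀.toValuationSubring) := by
      by_contra hnu
      apply hne
      show s37pv_ev x₀ P₀ _ = 0
      rw [s37pv_ev_eq_zero_iff, IsLocalRing.mem_maximalIdeal, mem_nonunits_iff]
      exact hnu
    exact (s48g_isUnit_iff_ord P₀ _ hdne).mp hunit
  have hfvcert : eval₂ (s48g_inclV (F := F) P₀) (s j) (derivative fv) * η j =
      algebraMap F₀ F ((d j : ↥(s48g_B₀ K O₀ w₀)) : F₀) := by
    rw [hfv, derivative_map, eval₂_map, hcompι]
    exact hE.cert j hj
  obtain ⟨hram, huniq⟩ := s48g_unr x₀ P₀ (bs j) (s j) (hE.dual j hj).basis fv hfvm hfvd hfvroot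
    (η j) hηreg _ hdord hdne hfvcert c' hsc P' rfl hwc
  -- the order of `φ`
  have hφval : ((fv.eval (algebraMap K ↥P₀.toValuationSubring c') : ↥P₀.toValuationSubring) : F₀) =
      (φ : F₀) := by
    have h1 : algebraMap K ↥P₀.toValuationSubring c' = ι₀ c'B := Subtype.ext rfl
    rw [h1, hfv, eval_map, eval₂_at_apply]
    rfl
  have hloc := s48g_unr_local P' fv (s j) (hsB.2 P' hP') hfvroot (η j) (hηreg P' rfl) _ hdord hdne
    hfvcert c' hwc
  rw [hφval] at hloc
  set m₀ : ℤ := P₀.ord (φ : F₀) with hm₀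
  have hordφ : ∀ Q : Place K F, Q.restrict F₀ = P₀ →
      Q.ord (algebraMap F₀ F (φ : F₀)) = (Q.ramificationIndex F₀ : ℤ) * m₀ := by
    intro Q hQ
    rw [Place.ord_restrict, hQ]
  have hm₀pos : 0 < m₀ := by
    have h1 := hordφ P' rfl
    rw [hram, Nat.cast_one, one_mul] at h1
    rw [← h1, hloc]
    exact hwc
  have hφ0 : algebraMap F₀ F (φ : F₀) ≠ 0 := by
    intro h0
    have h1 := hordφ P' rfl
    rw [h0, Place.ord_zero, hram, Nat.cast_one, one_mul] at h1
    omega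
  have hsc0 : s j - algebraMap K F c' ≠ 0 := sub_ne_zero.mpr hsc
  have he'0 : e' ≠ 0 := by
    intro h0
    rw [h0, mul_zero] at hrel
    exact hφ0 (neg_eq_zero.mp hrel.symm)
  have hordrel : ∀ Q : Place K F, Q.ord (s j - algebraMap K F c') + Q.ord e' =
      Q.ord (algebraMap F₀ F (φ : F₀)) := by
    intro Q
    rw [← Q.ord_mul hsc0 he'0, hrel, s48g_ord_neg]
  -- the value `κ`
  set κ : K := evB ⟨e', he'B⟩ with hκ
  have hκA : κ ∈ A := hevBA _
  -- derivative identity
  have hder : derivative (fR j) = g + (X - C c'B) * derivative g := by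
    conv_lhs => rw [hdiv]
    rw [derivative_add, derivative_mul, derivative_sub, derivative_X, derivative_C, derivative_C,
      sub_zero, one_mul, add_zero]
  set D' : F := eval₂ (s48g_incl (F := F) (s48g_B₀ K O₀ w₀)) (s j) (derivative (fR j)) with hD'
  set G' : F := eval₂ (s48g_incl (F := F) (s48g_B₀ K O₀ w₀)) (s j) (derivative g) with hG'
  have hD'B : D' ∈ s48g_B hK K w₀ :=
    s48g_eval₂_mem (fun y hy => s48g_chart_base_mem hK hy) _ hsB
  have hG'B : G' ∈ s48g_B hK K w₀ :=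
    s48g_eval₂_mem (fun y hy => s48g_chart_base_mem hK hy) _ hsB
  have hD'eq : D' = e' + (s j - algebraMap K F c') * G' := by
    rw [hD', hder, eval₂_add, eval₂_mul, eval₂_sub, eval₂_X, eval₂_C, hinclc]
  have hconstB : algebraMap K F c' ∈ s48g_B hK K w₀ :=
    ⟨s48g_chart_const_mem hK h₀ ⟨c', hc'A⟩, fun Q _ => Q.algebraMap_mem' _⟩
  have hevconst : evB ⟨algebraMap K F c', hconstB⟩ = c' := s37pv_ev_algebraMap x P' c'
  have hevD' : evB ⟨D', hD'B⟩ = κ := by
    have h1 : (⟨D', hD'B⟩ : ↥(s48g_B hK K w₀)) =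
        ⟨e', he'B⟩ + (⟨s j, hsB⟩ - ⟨algebraMap K F c', hconstB⟩) * ⟨G', hG'B⟩ :=
      Subtype.ext hD'eq
    rw [h1, map_add, map_mul, map_sub, hevconst, ← hc', sub_self, zero_mul, add_zero]
  have hcertB : (⟨D', hD'B⟩ : ↥(s48g_B hK K w₀)) * ⟨η j, hE.eta_mem j hj⟩ =
      ⟨algebraMap F₀ F ((d j : ↥(s48g_B₀ K O₀ w₀)) : F₀), s48g_chart_base_mem hK (d j).2⟩ :=
    Subtype.ext (hE.cert j hj)
  have hκη : κ * evB ⟨η j, hE.eta_mem j hj⟩ = ev₀ (d j) := by
    have := congrArg evB hcertB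
    rw [map_mul, hevD', hevB_base] at this
    exact this
  have hκval : A.valuation κ = 1 := by
    have h1 : A.valuation κ ≤ 1 := (A.valuation_le_one_iff _).mpr hκA
    have h2 : A.valuation (evB ⟨η j, hE.eta_mem j hj⟩) ≤ 1 :=
      (A.valuation_le_one_iff _).mpr (hevBA _)
    have h3 : A.valuation κ * A.valuation (evB ⟨η j, hE.eta_mem j hj⟩) = 1 := by
      rw [← map_mul, hκη]
      exact hdj
    refine le_antisymm h1 ?_
    calc (1 : _) = A.valuation κ * A.valuation (evB ⟨η j, hE.eta_mem j hj⟩) := h3.symm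
      _ ≤ A.valuation κ * 1 := by gcongr
      _ = A.valuation κ := mul_one _
  have hκ0 : κ ≠ 0 := by
    intro h0
    rw [h0, map_zero] at hκval
    exact zero_ne_one hκval
  refine ⟨e', κ, he'B, s48g_inv_mem_of_valuation_eq_one A hκval, hκ0, rfl, hram, ?_, he'0, ?_⟩
  · have h1 := hordrel P'
    rw [hordφ P' rfl, hram, Nat.cast_one, one_mul, ← hloc, hordφ P' rfl, hram, Nat.cast_one,
      one_mul] at h1
    omega
  · intro Q hQ hQP
    have hQS : Q ∈ s18_chart1 (L₀ := K) (algebraMap F₀ F w₀) := by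
      apply s48g_mem_chart_of_restrict
      rw [hQ]
      exact hP₀
    have h1 := hordrel Q
    rw [hordφ Q hQ] at h1
    have h2 : 0 ≤ Q.ord (s j - algebraMap K F c') := by
      rw [← ff_mem_iff_ord_nonneg Q hsc0]
      exact sub_mem (hsB.2 Q hQS) (Q.algebraMap_mem' c')
    have h3 : ¬ 0 < Q.ord (s j - algebraMap K F c') := fun h => hQP (huniq Q hQ h)
    have h4 : Q.ord (s j - algebraMap K F c') = 0 := by omega
    have he : 0 < (Q.ramificationIndex F₀ : ℤ) := by
      exact_mod_cast Q.ramificationIndex_pos (F := F₀)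
    rw [h4, zero_add] at h1
    rw [h1]
    nlinarith

set_option maxHeartbeats 800000 in
open Classical in
include h₀ hE in
/-- **invertibility at a single place with integral value.** -/
theorem s48g_inv_single_int (hn : 2 ≤ n) (P' : Place K F)
    (hP' : algebraMap F₀ F w₀ ∈ P'.toValuationSubring)
    (hInt : s37pv_ev x P' ⟨algebraMap F₀ F w₀, hP'⟩ ∈ A) :
    s48g_Inv (s48g_O hK) (s18_chart1 (L₀ := K) (algebraMap F₀ F w₀))
      (fun Q => if Q = P' then 1 else 0) := by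
  classical
  obtain ⟨e', κ, he'B, hκinv, hκ0, hev, hram, hord', he'0, hothers⟩ :=
    s48g_exists_local_idem hK h₀ hE hn P' hP' hInt
  set P₀ := P'.restrict F₀ with hP₀def
  have hP₀ : w₀ ∈ P₀.toValuationSubring := (Place.mem_restrict_iff P').mpr hP'
  obtain ⟨s₀, α, β, hα, hβ, hαβ⟩ := h₀.hinv (fun Q => if Q = P₀ then 1 else 0)
    ((Set.finite_singleton P₀).subset (by
      rintro Q ⟨-, hQ⟩
      by_contra hne
      exact hQ (if_neg hne)))
  set cκ : F := algebraMap K F κ⁻¹ with hcκ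
  have hcκ0 : cκ ≠ 0 := (_root_.map_ne_zero _).mpr (inv_ne_zero hκ0)
  have hcκO : cκ ∈ s48g_O hK := s48g_chart_const_mem hK h₀ ⟨κ⁻¹, hκinv⟩
  have hcκB : cκ ∈ s48g_B hK K w₀ := ⟨hcκO, fun Q _ => Q.algebraMap_mem' _⟩
  have hordcκ : ∀ Q : Place K F, Q.ord cκ = 0 := fun Q => ff_ord_algebraMap Q _
  let evB : ↥(s48g_B hK K w₀) →+* K := s37r_evB x (s48g_O hK) P' hP'
  have hrestS : ∀ Q ∈ s18_chart1 (L₀ := K) (algebraMap F₀ F w₀),
      Q.restrict F₀ ∈ s18_chart1 (L₀ := K) w₀ := fun Q hQ => s48g_restrict_mem_chart hQ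
  have hepos : ∀ Q : Place K F, 0 < (Q.ramificationIndex F₀ : ℤ) := fun Q => by
    exact_mod_cast Q.ramificationIndex_pos (F := F₀)
  refine ⟨Option ↥s₀, inferInstance,
    fun o => o.elim (1 - cκ * e') (fun i => algebraMap F₀ F (α i)),
    fun o => o.elim 1 (fun i => cκ * (algebraMap F₀ F (β i) * e')), ?_, ?_, ?_⟩
  · -- the `a`'s
    rintro (_ | i)
    · -- `1 - e'/κ`
      show 1 - cκ * e' ∈ _
      have hyB : 1 - cκ * e' ∈ s48g_B hK K w₀ :=
        sub_mem (Subring.one_mem _) (Subring.mul_mem _ hcκB he'B)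
      refine ⟨hyB.1, fun Q hQ => ?_⟩
      beta_reduce
      by_cases hy0 : 1 - cκ * e' = 0
      · exact Or.inl hy0
      right
      by_cases hQP : Q = P'
      · subst hQP
        rw [if_pos rfl]
        have hev0 : evB ⟨1 - cκ * e', hyB⟩ = 0 := by
          have h1 : (⟨1 - cκ * e', hyB⟩ : ↥(s48g_B hK K w₀)) =
              1 - ⟨cκ, hcκB⟩ * ⟨e', he'B⟩ := rfl
          have h2 : evB ⟨cκ, hcκB⟩ = κ⁻¹ := s37pv_ev_algebraMap x Q κ⁻¹
          have h3 : evB ⟨e', he'B⟩ = κ := hev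
          rw [h1, map_sub, map_one, map_mul, h2, h3, inv_mul_cancel₀ hκ0, sub_self]
        have hmax : (⟨1 - cκ * e', hyB.2 Q hP'⟩ : ↥Q.toValuationSubring) ∈
            IsLocalRing.maximalIdeal ↥Q.toValuationSubring :=
          (s37pv_ev_eq_zero_iff x Q _).mp hev0
        have h4 := s48g_ord_pos_of_mem_maximalIdeal Q
          (⟨1 - cκ * e', hyB.2 Q hP'⟩ : ↥Q.toValuationSubring) hmax hy0
        have h5 : 0 < Q.ord (1 - cκ * e') := h4
        omega
      · rw [if_neg hQP]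
        exact (ff_mem_iff_ord_nonneg Q hy0).mp (hyB.2 Q hQ)
    · -- `α i`
      show algebraMap F₀ F (α i) ∈ _
      have hαi := hα i i.2
      refine ⟨s48g_algebraMap_mem_O hK ⟨_, hαi.1⟩, fun Q hQ => ?_⟩
      beta_reduce
      rcases hαi.2 (Q.restrict F₀) (hrestS Q hQ) with h0 | h1
      · left
        rw [h0, map_zero]
      · right
        beta_reduce at h1
        rw [Place.ord_restrict]
        by_cases hQP : Q = P'
        · subst hQP
          rw [if_pos rfl] at h1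
          rw [if_pos rfl, hram, Nat.cast_one, one_mul]
          exact h1
        · rw [if_neg hQP]
          have h2 : 0 ≤ (Q.restrict F₀).ord (α i) := by
            refine le_trans ?_ h1
            split_ifs <;> norm_num
          exact mul_nonneg (hepos Q).le h2
  · -- the `b`'s
    rintro (_ | i)
    · show (1 : F) ∈ _
      refine ⟨(s48g_O hK).one_mem, fun Q _ => Or.inr ?_⟩
      beta_reduce
      rw [Place.ord_one]
      split_ifs <;> norm_num
    · show cκ * (algebraMap F₀ F (β i) * e') ∈ _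
      have hβi := hβ i i.2
      refine ⟨(s48g_O hK).mul_mem _ _ hcκO ((s48g_O hK).mul_mem _ _
        (s48g_algebraMap_mem_O hK ⟨_, hβi.1⟩) he'B.1), fun Q hQ => ?_⟩
      beta_reduce
      rcases hβi.2 (Q.restrict F₀) (hrestS Q hQ) with h0 | h1
      · left
        rw [h0, map_zero, zero_mul, mul_zero]
      · beta_reduce at h1
        by_cases hβ0 : β i = 0
        · left
          rw [hβ0, map_zero, zero_mul, mul_zero]
        right
        have hβF : algebraMap F₀ F (β i) ≠ 0 := (_root_.map_ne_zero _).mpr hβ0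
        rw [Q.ord_mul hcκ0 (mul_ne_zero hβF he'0), Q.ord_mul hβF he'0, hordcκ, zero_add,
          Place.ord_restrict]
        by_cases hQP : Q = P'
        · subst hQP
          rw [if_pos rfl] at h1
          rw [if_pos rfl, hram, Nat.cast_one, one_mul, hord', add_zero]
          exact h1
        · rw [if_neg hQP, neg_zero]
          by_cases hQ₀ : Q.restrict F₀ = P₀
          · rw [if_pos hQ₀] at h1
            have h2 := hothers Q hQ₀ hQP
            have h3 := hepos Q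
            nlinarith
          · rw [if_neg hQ₀, neg_zero] at h1
            have h2 : 0 ≤ Q.ord e' := (ff_mem_iff_ord_nonneg Q he'0).mp (he'B.2 Q hQ)
            have h3 := mul_nonneg (hepos Q).le h1
            omega
  · -- the sum
    rw [Fintype.sum_option]
    show (1 - cκ * e') * 1 + ∑ i : ↥s₀, algebraMap F₀ F (α i) * (cκ * (algebraMap F₀ F (β i) * e')) = 1
    have h1 : ∀ i : ↥s₀, algebraMap F₀ F (α i) * (cκ * (algebraMap F₀ F (β i) * e')) =
        cκ * e' * algebraMap F₀ F (α i * β i) := by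
      intro i
      rw [map_mul]
      ring
    rw [Finset.sum_congr rfl fun i _ => h1 i, ← Finset.mul_sum, ← map_sum,
      Finset.sum_coe_sort s₀ (fun i => α i * β i), hαβ, map_one]
    ring

end Single

end Fermat.Agent.Lib.S48
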