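/-
DS-1 (S48), wall [T7] (helper6), brick (G4-e): **the chart hypotheses `s37r_ChartHyp` of a layer**
(`s48g_chartHyp`), from the chart hypotheses of the base for `w₀` and `w₀' = w₀⁻¹` and étale data on both
charts.  `D = integralClosure D₀ Fb`, `PsiD = s48g_PsiD`.
-/
import Fermat.Agent.Lib.S48.GChartC

set_option autoImplicit false
set_option linter.unusedSectionVars false
set_option linter.style.haveILetI false

noncomputable section

namespace Fermat.Agent.Lib.S48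

open AlgebraicCurve IsDedekindDomain Fermat.Agent.Lib.FF Fermat.Agent.Lib.S37
  Fermat.Agent.Lib.S18 Polynomial

variable {K F₀ F : Type*} [Field K] [Field F₀] [Field F] [Algebra K F₀] [Algebra K F]
  [Algebra F₀ F] [IsScalarTower K F₀ F] [FiniteDimensional F₀ F] [CharZero F₀]
  {Fb₀ Fb : Type*} [Field Fb₀] [Field Fb] [Algebra Fb₀ Fb]
  {O₀ : ValuationSubring F₀} {red₀ : ↥O₀ →+* Fb₀} {n : ℕ}
  {b : Module.Basis (Fin n) F₀ F} {t : F} {f : (↥O₀)[X]} {tb : Fb}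
  (hK : s48g_LayerData O₀ red₀ b t f tb)
  [IsAlgClosed K] [CharZero K]
  {k : Type*} [Field k] [Algebra k Fb₀] [Algebra k Fb] [IsScalarTower k Fb₀ Fb]
  {D₀ : Type*} [CommRing D₀] [Algebra D₀ Fb₀] [Algebra D₀ Fb] [IsScalarTower D₀ Fb₀ Fb]
  {D₀' : Type*} [CommRing D₀'] [Algebra D₀' Fb₀] [Algebra D₀' Fb] [IsScalarTower D₀' Fb₀ Fb]
  {x₀ : F₀} [FFGen K x₀] {x : F} [FFGen K x]
  {A : ValuationSubring K} {π : ↥A →+* k} {w₀ w₀' : F₀}
  {PsiD₀ : ↥(s18_ring O₀ (s18_chart1 (L₀ := K) w₀)) →+* D₀}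
  {PsiD₀' : ↥(s18_ring O₀ (s18_chart1 (L₀ := K) w₀')) →+* D₀'}
  (h₀ : s37r_ChartHyp x₀ A π O₀ red₀ w₀ PsiD₀)
  (h₀' : s37r_ChartHyp x₀ A π O₀ red₀ w₀' PsiD₀')
  (bb : Module.Basis (Fin n) Fb₀ Fb) (hbb : ∀ i : Fin n, bb i = tb ^ (i : ℕ))
  {ι : Type*} {J : Finset ι}
  {bs : ι → Module.Basis (Fin n) F₀ F} {s : ι → F} {fR : ι → (↥(s48g_B₀ K O₀ w₀))[X]}
  {sd : ι → Fin n → F} {η : ι → F} {d e : ι → ↥(s48g_B₀ K O₀ w₀)}
  (hE : s48g_Etale (s48g_B₀ K O₀ w₀) (s48g_B hK K w₀) J bs s fR sd η d e)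
  {ι' : Type*} {J' : Finset ι'}
  {bs' : ι' → Module.Basis (Fin n) F₀ F} {s' : ι' → F} {fR' : ι' → (↥(s48g_B₀ K O₀ w₀'))[X]}
  {sd' : ι' → Fin n → F} {η' : ι' → F} {d' e' : ι' → ↥(s48g_B₀ K O₀ w₀')}
  (hE' : s48g_Etale (s48g_B₀ K O₀ w₀') (s48g_B hK K w₀') J' bs' s' fR' sd' η' d' e')

include h₀ h₀' hE hE' in
/-- **(P2)** invertibility of the chart lattices of the layer. -/
theorem s48g_chart_hinv (x₁ : F) [FFGen K x₁] (hn : 2 ≤ n) (hww : w₀ * w₀' = 1) :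
    s37r_HInv (s48g_O hK) (s18_chart1 (L₀ := K) (algebraMap F₀ F w₀)) := by
  classical
  obtain rfl : w₀' = w₀⁻¹ := eq_inv_of_mul_eq_one_right hww
  apply s48g_hinv_of_single
  intro P hP
  have hP' : algebraMap F₀ F w₀ ∈ P.toValuationSubring := hP
  by_cases hInt : s37pv_ev x₁ P ⟨algebraMap F₀ F w₀, hP'⟩ ∈ A
  · exact s48g_inv_single_int (x := x₁) hK h₀ hE hn P hP' hInt
  · set c : K := s37pv_ev x₁ P ⟨algebraMap F₀ F w₀, hP'⟩ with hc
    have hc0 : c ≠ 0 := by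
      intro h0
      apply hInt
      rw [h0]
      exact A.zero_mem
    have hcinv : c⁻¹ ∈ A := (A.mem_or_inv_mem c).resolve_left hInt
    have hw0 : algebraMap F₀ F w₀ ≠ 0 := by
      intro h0
      apply hc0
      rw [hc]
      have : (⟨algebraMap F₀ F w₀, hP'⟩ : ↥P.toValuationSubring) = 0 := Subtype.ext h0
      rw [this, map_zero]
    have hord : P.ord (algebraMap F₀ F w₀) = 0 :=
      s48g_ord_eq_zero_of_ev_ne_zero x₁ P _ hP' hc0
    have hinvmap : algebraMap F₀ F w₀⁻¹ = (algebraMap F₀ F w₀)⁻¹ := map_inv₀ _ _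
    have hP2 : algebraMap F₀ F w₀⁻¹ ∈ P.toValuationSubring := by
      rw [hinvmap, ff_mem_iff_ord_nonneg P (inv_ne_zero hw0), P.ord_inv, hord, neg_zero]
    have hev2 : s37pv_ev x₁ P ⟨algebraMap F₀ F w₀⁻¹, hP2⟩ = c⁻¹ := by
      have h1 : (⟨algebraMap F₀ F w₀, hP'⟩ : ↥P.toValuationSubring) *
          ⟨algebraMap F₀ F w₀⁻¹, hP2⟩ = 1 := by
        apply Subtype.ext
        show algebraMap F₀ F w₀ * algebraMap F₀ F w₀⁻¹ = 1
        rw [hinvmap, mul_inv_cancel₀ hw0]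
      have h2 := congrArg (s37pv_ev x₁ P) h1
      rw [map_mul, map_one, ← hc] at h2
      exact eq_inv_of_mul_eq_one_right h2
    have hInt2 : s37pv_ev x₁ P ⟨algebraMap F₀ F w₀⁻¹, hP2⟩ ∈ A := by
      rw [hev2]
      exact hcinv
    have h2 := s48g_inv_single_int (x := x₁) hK h₀' hE' hn P hP2 hInt2
    rw [hinvmap] at h2
    exact s48g_inv_transport x₁ (s48g_O hK) (algebraMap F₀ F w₀) (s48g_chart_w_mem hK h₀) P hP' c
      hc0 (s48g_chart_const_mem hK h₀ ⟨c⁻¹, hcinv⟩) rfl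
      (s48g_chart_fin x₁ (algebraMap F₀ F w₀) hw0) h2

include hbb h₀' hE' in
/-- **the chart hypotheses of the layer.** -/
theorem s48g_chartHyp [IsIntegrallyClosed D₀] [IsFractionRing D₀ Fb₀] (hn : 2 ≤ n)
    (hww : w₀ * w₀' = 1) :
    s37r_ChartHyp x A π (s48g_O hK) (s48g_red hK) (algebraMap F₀ F w₀) (s48g_PsiD hK h₀ hE) := by
  haveI : FiniteDimensional Fb₀ Fb := Module.Finite.of_basis bb
  exact
  { pi_surj := h₀.pi_surj
    unit_of_ne := h₀.unit_of_ne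
    fin := s48g_chart_fin x
    const_mem := s48g_chart_const_mem hK h₀
    red_const := s48g_chart_red_const hK h₀
    inv_mem := s48g_inv_mem hK
    w_mem := s48g_chart_w_mem hK h₀
    w_nonconst := s48g_chart_w_nonconst hK h₀
    psi_eq := fun _ => rfl
    psi_surj := s48g_chart_psi_surj hK h₀ bb hbb hE
    ker := fun y hy => s48g_chart_ker hK h₀ bb hbb hE y hy
    value := fun P hP hInt y => s48g_chart_value hK h₀ hE P hP hInt y
    hinv := s48g_chart_hinv hK h₀ h₀' hE hE' x hn hww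
    alpha := fun y hy => s48g_chart_alpha hK h₀ hE y hy
    reg := fun Q hQ z => s48g_chart_reg hK h₀ Q hQ z }

end Fermat.Agent.Lib.S48
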