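/-
DS-1 (S48), wall [T7] (helper6), brick (G2-b): **the dual generator of a Kummer generator**.

For a generator `s` of `F/F₀` with `s ^ n = u ∈ F₀` (powers of `s` = basis `bs`):
`Tr (s ^ m) = n • u ^ (m / n)` if `n ∣ m`, `0` otherwise (`s48g_kummer_trace_pow`), hence
`sd 0 = u`, `sd l = s ^ (n - l)` is a dual family with `d = n • u` (`s48g_kummer_dualGen`).
-/
import Fermat.Agent.Lib.S48.GDual

set_option autoImplicit false
set_option linter.unusedSectionVars false
set_option linter.style.haveILetI false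

noncomputable section

namespace Fermat.Agent.Lib.S48

variable {F₀ F : Type*} [Field F₀] [Field F] [Algebra F₀ F]
  {n : ℕ} (bs : Module.Basis (Fin n) F₀ F) (s : F) (u : F₀)

/-- the coordinates of `s ^ m`. -/
theorem s48g_kummer_repr_pow (hn : 0 < n) (hbs : ∀ i : Fin n, bs i = s ^ (i : ℕ))
    (hs : s ^ n = algebraMap F₀ F u) (m : ℕ) :
    bs.repr (s ^ m) = Finsupp.single (⟨m % n, Nat.mod_lt _ hn⟩ : Fin n) (u ^ (m / n)) := by
  have h1 : s ^ m = (u ^ (m / n)) • bs ⟨m % n, Nat.mod_lt _ hn⟩ := by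
    rw [hbs, Algebra.smul_def, map_pow, ← hs, ← pow_mul, ← pow_add, Nat.div_add_mod]
  rw [h1, map_smul, Module.Basis.repr_self, Finsupp.smul_single, smul_eq_mul, mul_one]

/-- **the traces of the powers of a Kummer generator.** -/
theorem s48g_kummer_trace_pow (hn : 0 < n) (hbs : ∀ i : Fin n, bs i = s ^ (i : ℕ))
    (hs : s ^ n = algebraMap F₀ F u) (m : ℕ) :
    Algebra.trace F₀ F (s ^ m) = if n ∣ m then (n : F₀) * u ^ (m / n) else 0 := by
  classical
  rw [Algebra.trace_eq_matrix_trace bs, Matrix.trace]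
  have hdiag : ∀ j : Fin n, Matrix.diag (Algebra.leftMulMatrix bs (s ^ m)) j =
      if n ∣ m then u ^ (m / n) else 0 := by
    intro j
    rw [Matrix.diag_apply, Algebra.leftMulMatrix_eq_repr_mul, hbs, ← pow_add,
      s48g_kummer_repr_pow bs s u hn hbs hs, Finsupp.single_apply]
    by_cases hdvd : n ∣ m
    · obtain ⟨q, rfl⟩ := hdvd
      have h1 : (n * q + (j : ℕ)) % n = (j : ℕ) := by
        rw [Nat.mul_add_mod, Nat.mod_eq_of_lt j.2]
      have h2 : (n * q + (j : ℕ)) / n = q := by
        rw [Nat.mul_add_div hn, Nat.div_eq_of_lt j.2, add_zero]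
      have h3 : n * q / n = q := Nat.mul_div_cancel_left q hn
      rw [if_pos (Fin.ext h1), if_pos (Dvd.intro q rfl), h2, h3]
    · rw [if_neg hdvd, if_neg]
      intro heq
      apply hdvd
      have h1 : (m + (j : ℕ)) % n = (j : ℕ) := congrArg Fin.val heq
      have h2 : (m + (j : ℕ)) % n = (j : ℕ) % n := by rw [h1, Nat.mod_eq_of_lt j.2]
      have h3 : m + (j : ℕ) ≡ 0 + (j : ℕ) [MOD n] := by rw [zero_add]; exact h2
      have h4 := Nat.ModEq.add_right_cancel' (j : ℕ) h3
      exact (Nat.modEq_zero_iff_dvd).mp h4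
  rw [Finset.sum_congr rfl fun j _ => hdiag j, Finset.sum_const, Finset.card_univ,
    Fintype.card_fin, nsmul_eq_mul]
  split_ifs
  · rfl
  · rw [mul_zero]

/-- **the dual generator of a Kummer generator**: `d = n • u`. -/
theorem s48g_kummer_dualGen (hn : 0 < n) (hbs : ∀ i : Fin n, bs i = s ^ (i : ℕ))
    (hs : s ^ n = algebraMap F₀ F u) :
    s48g_DualGen bs s
      (fun l : Fin n => if (l : ℕ) = 0 then algebraMap F₀ F u else s ^ (n - (l : ℕ)))
      ((n : F₀) * u) := by
  refine ⟨hbs, fun i l => ?_⟩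
  by_cases hl : (l : ℕ) = 0
  · simp only [hl, if_true]
    rw [mul_comm, ← Algebra.smul_def, map_smul, s48g_kummer_trace_pow bs s u hn hbs hs, smul_eq_mul]
    by_cases hil : i = l
    · have hi0 : (i : ℕ) = 0 := by rw [hil]; exact hl
      rw [if_pos hil, if_pos (hi0 ▸ dvd_zero n), hi0, Nat.zero_div, pow_zero]
      ring
    · rw [if_neg hil, if_neg, mul_zero]
      intro hdvd
      apply hil
      apply Fin.ext
      rw [hl]
      exact Nat.eq_zero_of_dvd_of_lt hdvd i.2
  · simp only [hl, if_false]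
    rw [← pow_add, s48g_kummer_trace_pow bs s u hn hbs hs]
    have hlpos : 0 < (l : ℕ) := Nat.pos_of_ne_zero hl
    have hln : (l : ℕ) < n := l.2
    have hin : (i : ℕ) < n := i.2
    by_cases hil : i = l
    · have heq : (i : ℕ) + (n - (l : ℕ)) = n := by
        rw [hil]; omega
      rw [if_pos hil, heq, if_pos dvd_rfl, Nat.div_self hn, pow_one]
    · rw [if_neg hil, if_neg]
      intro hdvd
      apply hil
      apply Fin.ext
      obtain ⟨q, hq⟩ := hdvd
      have h1 : 0 < (i : ℕ) + (n - (l : ℕ)) := by omega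
      have h2 : (i : ℕ) + (n - (l : ℕ)) < 2 * n := by omega
      have hq1 : q = 1 := by
        rcases q with _ | _ | q
        · rw [mul_zero] at hq; omega
        · rfl
        · exfalso
          have : 2 * n ≤ n * (q + 1 + 1) := by nlinarith
          omega
      rw [hq1, mul_one] at hq
      omega

end Fermat.Agent.Lib.S48
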