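/-
DS-1 (S48), wall [T7] (helper6), brick (G5): **the étale datum of a tame Kummer layer.**

Setting of `GChartA`: `F = F₀(t)`, `t ^ n = h ∈ F₀` a Gauss unit, `n` invertible in `A`, all orders of
`h` divisible by `n`.  From the invertibility `h₀.hinv` of the chart lattice of `E = -div(h)/n`:
`a j ∈ L(-E₀)`, `b j ∈ L(E₀)`, `∑ a j * b j = 1`; then `s j = a j • t` (for `a j ≠ 0`) are generators
in the chart ring of the layer with `s j ^ n = u j = a j ^ n * h ∈ B₀`, `v j = b j ^ n / h ∈ B₀`,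
`u j * v j = (a j * b j) ^ n`, and a partition of unity `∑ c j * (a j * b j) ^ n = 1`
(`Ideal.span_pow_eq_top`); `d j = n * u j`, `e j = c j * v j / n`.
-/
import Fermat.Agent.Lib.S48.GChartD
import Fermat.Agent.Lib.S48.GKumDual

set_option autoImplicit false
set_option linter.unusedSectionVars false
set_option linter.style.haveILetI false

noncomputable section

namespace Fermat.Agent.Lib.S48

open AlgebraicCurve IsDedekindDomain Fermat.Agent.Lib.FF Fermat.Agent.Lib.S37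
  Fermat.Agent.Lib.S18 Polynomial

/-- from `∑ x j = 1` to a partition of unity by `n`-th powers. -/
theorem s48g_exists_pow_partition {R : Type*} [CommRing R] {ι : Type*} (J : Finset ι)
    (x : ι → R) (hx : ∑ j ∈ J, x j = 1) (n : ℕ) :
    ∃ c : ι → R, ∑ j ∈ J, c j * x j ^ n = 1 := by
  classical
  have h1 : Ideal.span (Set.range fun j : ↥J => x j) = ⊤ := by
    rw [Ideal.eq_top_iff_one, ← hx, ← Finset.sum_coe_sort J x]
    exact Ideal.sum_mem _ fun j _ => Ideal.subset_span ⟨j, rfl⟩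
  have h2 := Ideal.span_pow_eq_top _ h1 n
  rw [← Set.range_comp, Ideal.eq_top_iff_one, Ideal.mem_span_range_iff_exists_fun] at h2
  obtain ⟨c, hc⟩ := h2
  refine ⟨fun j => if hj : j ∈ J then c ⟨j, hj⟩ else 0, ?_⟩
  rw [← hc, ← Finset.sum_coe_sort J]
  refine Finset.sum_congr rfl fun j _ => ?_
  beta_reduce
  rw [dif_pos j.2]
  rfl

section Kummer

variable {K F₀ F : Type*} [Field K] [Field F₀] [Field F] [Algebra K F₀] [Algebra K F]
  [Algebra F₀ F] [IsScalarTower K F₀ F] [FiniteDimensional F₀ F] [CharZero F₀]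
  {Fb₀ Fb : Type*} [Field Fb₀] [Field Fb] [Algebra Fb₀ Fb]
  {O₀ : ValuationSubring F₀} {red₀ : ↥O₀ →+* Fb₀} {n : ℕ}
  {b : Module.Basis (Fin n) F₀ F} {t : F} {f : (↥O₀)[X]} {tb : Fb}
  (hK : s48g_LayerData O₀ red₀ b t f tb)
  [IsAlgClosed K] [CharZero K]
  {k : Type*} [Field k]
  {D₀ : Type*} [CommRing D₀] [Algebra D₀ Fb₀]
  {x₀ : F₀} [FFGen K x₀]
  {A : ValuationSubring K} {π : ↥A →+* k} {w₀ : F₀}
  {PsiD₀ : ↥(s18_ring O₀ (s18_chart1 (L₀ := K) w₀)) →+* D₀}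

set_option maxHeartbeats 1600000 in
/-- **the étale datum of a tame Kummer layer** `t ^ n = h`. -/
theorem s48g_kummer_etale [Algebra k Fb₀] (h₀ : s37r_ChartHyp x₀ A π O₀ red₀ w₀ PsiD₀)
    (h : F₀) (hh : t ^ n = algebraMap F₀ F h) (hhO : h ∈ O₀)
    (hhred : red₀ ⟨h, hhO⟩ ≠ 0) (hnA : ((n : K))⁻¹ ∈ A)
    (hdiv : ∀ P : Place K F₀, (n : ℤ) ∣ P.ord h) :
    ∃ (J : Finset ℕ) (bs : ℕ → Module.Basis (Fin n) F₀ F) (s : ℕ → F)
      (fR : ℕ → (↥(s48g_B₀ K O₀ w₀))[X]) (sd : ℕ → Fin n → F) (η : ℕ → F)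
      (d e : ℕ → ↥(s48g_B₀ K O₀ w₀)),
      s48g_Etale (s48g_B₀ K O₀ w₀) (s48g_B hK K w₀) J bs s fR sd η d e := by
  classical
  have hn := s48g_n_pos hK
  have hnK : (n : K) ≠ 0 := by exact_mod_cast hn.ne'
  have hh0 : h ≠ 0 := by
    rintro rfl
    apply hhred
    have : (⟨0, hhO⟩ : ↥O₀) = 0 := rfl
    rw [this, map_zero]
  have hhinvO : h⁻¹ ∈ O₀ := h₀.inv_mem ⟨h, hhO⟩ hhred
  have ht0 : t ≠ 0 := by
    rintro rfl
    rw [zero_pow hn.ne'] at hh
    exact hh0 ((map_eq_zero (algebraMap F₀ F)).mp hh.symm)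
  set E₀ : Place K F₀ → ℤ := fun Q => Q.ord h / (n : ℤ) with hE₀
  have hnE : ∀ Q, (n : ℤ) * E₀ Q = Q.ord h := fun Q => Int.mul_ediv_cancel' (hdiv Q)
  have hfin : {Q | Q ∈ s18_chart1 (L₀ := K) w₀ ∧ (fun Q => - E₀ Q) Q ≠ 0}.Finite := by
    refine (h₀.fin h hh0).subset ?_
    rintro Q ⟨-, hQ⟩
    show Q.ord h ≠ 0
    intro h0
    apply hQ
    show - E₀ Q = 0
    rw [hE₀]
    simp [h0]
  obtain ⟨s₀, a, bq, ha, hb, hab⟩ := h₀.hinv (fun Q => - E₀ Q) hfin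
  -- memberships in the chart ring of the base
  have hxB : ∀ j ∈ s₀, a j * bq j ∈ s48g_B₀ K O₀ w₀ := by
    intro j hj
    have h1 := s18_latSet_mul O₀ _ _ _ (ha j hj) (hb j hj)
    have h2 : a j * bq j ∈ s18_latSet O₀ (s18_chart1 (L₀ := K) w₀) (fun _ => 0) :=
      s48g_latSet_congr (fun Q _ => by ring) h1
    rw [← s18_ringSet_eq_latSet_zero] at h2
    exact h2
  have huB : ∀ j ∈ s₀, a j ^ n * h ∈ s48g_B₀ K O₀ w₀ := by
    intro j hj
    refine ⟨O₀.mul_mem _ _ (pow_mem (ha j hj).1 n) hhO, fun Q hQ => ?_⟩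
    by_cases ha0 : a j = 0
    · rw [ha0, zero_pow hn.ne', zero_mul]
      exact Q.toValuationSubring.zero_mem
    rcases (ha j hj).2 Q hQ with h0 | h1
    · exact absurd h0 ha0
    beta_reduce at h1
    rw [ff_mem_iff_ord_nonneg Q (mul_ne_zero (pow_ne_zero n ha0) hh0),
      Q.ord_mul (pow_ne_zero n ha0) hh0, s48g_ord_pow, ← hnE Q]
    have : 0 ≤ (n : ℤ) * (Q.ord (a j) + E₀ Q) :=
      mul_nonneg (Int.natCast_nonneg n) (by linarith)
    linarith
  have hvB : ∀ j ∈ s₀, bq j ^ n * h⁻¹ ∈ s48g_B₀ K O₀ w₀ := by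
    intro j hj
    refine ⟨O₀.mul_mem _ _ (pow_mem (hb j hj).1 n) hhinvO, fun Q hQ => ?_⟩
    by_cases hb0 : bq j = 0
    · rw [hb0, zero_pow hn.ne', zero_mul]
      exact Q.toValuationSubring.zero_mem
    rcases (hb j hj).2 Q hQ with h0 | h1
    · exact absurd h0 hb0
    beta_reduce at h1
    rw [ff_mem_iff_ord_nonneg Q (mul_ne_zero (pow_ne_zero n hb0) (inv_ne_zero hh0)),
      Q.ord_mul (pow_ne_zero n hb0) (inv_ne_zero hh0), s48g_ord_pow, Q.ord_inv, ← hnE Q]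
    have : 0 ≤ (n : ℤ) * (Q.ord (bq j) - E₀ Q) :=
      mul_nonneg (Int.natCast_nonneg n) (by linarith)
    linarith
  -- elements of `B₀`
  let xB : ℕ → ↥(s48g_B₀ K O₀ w₀) := fun j =>
    if hj : j ∈ s₀ then ⟨a j * bq j, hxB j hj⟩ else 0
  let uB : ℕ → ↥(s48g_B₀ K O₀ w₀) := fun j =>
    if hj : j ∈ s₀ then ⟨a j ^ n * h, huB j hj⟩ else 0
  let vB : ℕ → ↥(s48g_B₀ K O₀ w₀) := fun j =>
    if hj : j ∈ s₀ then ⟨bq j ^ n * h⁻¹, hvB j hj⟩ else 0
  have hxBcoe : ∀ j ∈ s₀, ((xB j : ↥(s48g_B₀ K O₀ w₀)) : F₀) = a j * bq j := fun j hj => by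
    show ((if hj : j ∈ s₀ then (⟨a j * bq j, hxB j hj⟩ : ↥(s48g_B₀ K O₀ w₀)) else 0 :
      ↥(s48g_B₀ K O₀ w₀)) : F₀) = _
    rw [dif_pos hj]
  have huBcoe : ∀ j ∈ s₀, ((uB j : ↥(s48g_B₀ K O₀ w₀)) : F₀) = a j ^ n * h := fun j hj => by
    show ((if hj : j ∈ s₀ then (⟨a j ^ n * h, huB j hj⟩ : ↥(s48g_B₀ K O₀ w₀)) else 0 :
      ↥(s48g_B₀ K O₀ w₀)) : F₀) = _
    rw [dif_pos hj]
  have hvBcoe : ∀ j ∈ s₀, ((vB j : ↥(s48g_B₀ K O₀ w₀)) : F₀) = bq j ^ n * h⁻¹ := fun j hj => by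
    show ((if hj : j ∈ s₀ then (⟨bq j ^ n * h⁻¹, hvB j hj⟩ : ↥(s48g_B₀ K O₀ w₀)) else 0 :
      ↥(s48g_B₀ K O₀ w₀)) : F₀) = _
    rw [dif_pos hj]
  have hxsum : ∑ j ∈ s₀, xB j = 1 := by
    apply Subtype.ext
    rw [AddSubmonoidClass.coe_finsetSum, Finset.sum_congr rfl fun j hj => hxBcoe j hj, hab]
    rfl
  obtain ⟨c, hc⟩ := s48g_exists_pow_partition s₀ xB hxsum n
  have huv : ∀ j ∈ s₀, uB j * vB j = xB j ^ n := by
    intro j hj
    apply Subtype.ext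
    rw [Subring.coe_mul, SubmonoidClass.coe_pow, huBcoe j hj, hvBcoe j hj, hxBcoe j hj, mul_pow]
    field_simp
  -- the constants `n`, `1 / n`
  have hconstB₀ : ∀ a' : ↥A, algebraMap K F₀ (a' : K) ∈ s48g_B₀ K O₀ w₀ := fun a' =>
    ⟨h₀.const_mem a', fun P _ => P.algebraMap_mem' _⟩
  let nInvB : ↥(s48g_B₀ K O₀ w₀) := ⟨algebraMap K F₀ ((n : K))⁻¹, hconstB₀ ⟨_, hnA⟩⟩
  have hnInv : nInvB * (n : ↥(s48g_B₀ K O₀ w₀)) = 1 := by
    apply Subtype.ext
    rw [Subring.coe_mul, Subring.coe_natCast]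
    show algebraMap K F₀ ((n : K))⁻¹ * (n : F₀) = 1
    rw [← map_natCast (algebraMap K F₀) n, ← map_mul, inv_mul_cancel₀ hnK, map_one]
  let J : Finset ℕ := s₀.filter fun j => a j ≠ 0
  have hJs : ∀ j ∈ J, j ∈ s₀ := fun j hj => (Finset.mem_filter.mp hj).1
  have hJa : ∀ j ∈ J, a j ≠ 0 := fun j hj => (Finset.mem_filter.mp hj).2
  -- the generators
  let s : ℕ → F := fun j => algebraMap F₀ F (a j) * t
  let bs : ℕ → Module.Basis (Fin n) F₀ F := fun j =>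
    if ha0 : a j ≠ 0 then
      b.isUnitSMul (w := fun i : Fin n => a j ^ (i : ℕ)) (fun i => IsUnit.mk0 _ (pow_ne_zero _ ha0))
    else b
  have hbs : ∀ j ∈ J, ∀ i : Fin n, bs j i = s j ^ (i : ℕ) := by
    intro j hj i
    show (if ha0 : a j ≠ 0 then
      b.isUnitSMul (w := fun i : Fin n => a j ^ (i : ℕ)) (fun i => IsUnit.mk0 _ (pow_ne_zero _ ha0))
      else b) i = _
    rw [dif_pos (hJa j hj), Module.Basis.isUnitSMul_apply, hK.basis, Algebra.smul_def, map_pow,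
      ← mul_pow]
  have hs : ∀ j, s j ^ n = algebraMap F₀ F (a j ^ n * h) := by
    intro j
    show (algebraMap F₀ F (a j) * t) ^ n = _
    rw [mul_pow, hh, map_mul, map_pow]
  have hsB : ∀ j ∈ J, s j ∈ s48g_B hK K w₀ := by
    intro j hj
    refine ⟨(s48g_O hK).mul_mem _ _ (s48g_algebraMap_mem_O hK ⟨a j, (ha j (hJs j hj)).1⟩)
      (s48g_t_mem_O hK), fun P hP => ?_⟩
    have hs0 : s j ≠ 0 := mul_ne_zero ((_root_.map_ne_zero _).mpr (hJa j hj)) ht0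
    have h1 : s j ^ n ∈ P.toValuationSubring := by
      rw [hs j]
      exact (Place.mem_restrict_iff P).mp ((huB j (hJs j hj)).2 _ (s48g_restrict_mem_chart hP))
    rw [ff_mem_iff_ord_nonneg P (pow_ne_zero n hs0), s48g_ord_pow] at h1
    rw [ff_mem_iff_ord_nonneg P hs0]
    have hn' : (0 : ℤ) < n := by exact_mod_cast hn
    by_contra hneg
    push Not at hneg
    have : (n : ℤ) * P.ord (s j) < 0 := mul_neg_of_pos_of_neg hn' hneg
    omega
  refine ⟨J, bs, s, fun j => X ^ n - C (uB j),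
    fun j l => if (l : ℕ) = 0 then algebraMap F₀ F (a j ^ n * h) else s j ^ (n - (l : ℕ)),
    s, fun j => (n : ↥(s48g_B₀ K O₀ w₀)) * uB j, fun j => nInvB * c j * vB j, ?_⟩
  refine
  { dual := ?_
    s_mem := hsB
    sd_mem := ?_
    eta_mem := hsB
    monic := fun j _ => monic_X_pow_sub_C _ hn.ne'
    natDegree := fun j _ => natDegree_X_pow_sub_C
    root := ?_
    cert := ?_
    one := ?_
    base_mem := fun y hy => s48g_chart_base_mem hK hy
    trace_mem := fun y hy => s48g_chart_trace_mem hK hy }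
  · intro j hj
    have h1 := s48g_kummer_dualGen (bs j) (s j) (a j ^ n * h) hn (hbs j hj) (hs j)
    have h2 : (((n : ↥(s48g_B₀ K O₀ w₀)) * uB j : ↥(s48g_B₀ K O₀ w₀)) : F₀) =
        (n : F₀) * (a j ^ n * h) := by
      rw [Subring.coe_mul, Subring.coe_natCast, huBcoe j (hJs j hj)]
    rw [h2]
    exact h1
  · intro j hj l
    split_ifs
    · exact s48g_chart_base_mem hK (huB j (hJs j hj))
    · exact pow_mem (hsB j hj) _
  · intro j hj
    rw [eval₂_sub, eval₂_X_pow, eval₂_C, hs j, s48g_incl_apply, huBcoe j (hJs j hj), sub_self]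
  · intro j hj
    rw [derivative_sub, derivative_X_pow, derivative_C, sub_zero, eval₂_mul, eval₂_C, eval₂_X_pow,
      mul_assoc, pow_sub_one_mul hn.ne', hs j]
    have h1 : s48g_incl (F := F) (s48g_B₀ K O₀ w₀) ((n : ↥(s48g_B₀ K O₀ w₀))) = (n : F) :=
      map_natCast _ n
    rw [h1, Subring.coe_mul, Subring.coe_natCast, huBcoe j (hJs j hj)]
    simp only [map_mul, map_natCast]
  · have h1 : ∀ j ∈ J, (nInvB * c j * vB j) * ((n : ↥(s48g_B₀ K O₀ w₀)) * uB j) =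
        c j * xB j ^ n := by
      intro j hj
      rw [← huv j (hJs j hj)]
      calc nInvB * c j * vB j * ((n : ↥(s48g_B₀ K O₀ w₀)) * uB j)
          = (nInvB * (n : ↥(s48g_B₀ K O₀ w₀))) * (c j * (uB j * vB j)) := by ring
        _ = c j * (uB j * vB j) := by rw [hnInv, one_mul]
    rw [Finset.sum_congr rfl h1, ← hc]
    refine Finset.sum_subset (Finset.filter_subset _ _) fun j hj hjJ => ?_
    have ha0 : a j = 0 := by
      by_contra hne
      exact hjJ (Finset.mem_filter.mpr ⟨hj, hne⟩)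
    have hx0 : xB j = 0 := by
      apply Subtype.ext
      rw [hxBcoe j hj, ha0, zero_mul]
      rfl
    rw [hx0, zero_pow hn.ne', mul_zero]

end Kummer

end Fermat.Agent.Lib.S48
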