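/-
DS-1 (S48), wall [T7] (helper6), brick (G6): **the chart package and its propagation through a
layer.**

`s48g_ChartPack x A π O red w` : the chart hypotheses `s37r_ChartHyp` for the coordinate `w`, with
the Dedekind domain `D` and its structures packaged existentially.
* `s48g_chartPack_step`   : base packages for `w₀`, `w₀'` (`w₀ * w₀' = 1`) + layer datum + étale data
  on both charts + separability of `Fb/Fb₀` ⇒ the package of the layer for `algebraMap w₀`;
* `s48g_chartPack_kummer` : the same for a tame Kummer layer `t ^ n = h` (étale data and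
  separability are derived);
* `s48g_exists_reduction_of_pack` : packages for `w`, `w'` ⇒ place reduction + conservation of number
  (landed `s37r_exists_reduction`).
-/
import Fermat.Agent.Lib.S48.GKumGen
import Fermat.Agent.Lib.S37.RTwo

set_option autoImplicit false
set_option linter.unusedSectionVars false
set_option linter.style.haveILetI false

noncomputable section

namespace Fermat.Agent.Lib.S48

open AlgebraicCurve IsDedekindDomain Fermat.Agent.Lib.FF Fermat.Agent.Lib.S37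
  Fermat.Agent.Lib.S18 Polynomial

universe u

/-- **the chart package** for the coordinate `w`. -/
def s48g_ChartPack {K F : Type*} [Field K] [Field F] [Algebra K F] [IsAlgClosed K]
    {k : Type*} [Field k] {Fb : Type u} [Field Fb] [Algebra k Fb]
    (x : F) [FFGen K x] (A : ValuationSubring K) (π : ↥A →+* k) (O : ValuationSubring F)
    (red : ↥O →+* Fb) (w : F) : Prop :=
  ∃ (D : Type u) (_ : CommRing D) (_ : IsDedekindDomain D) (_ : Algebra D Fb)
    (_ : IsFractionRing D Fb) (_ : Algebra k D) (_ : IsScalarTower k D Fb)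
    (PsiD : ↥(s18_ring O (s18_chart1 (L₀ := K) w)) →+* D), s37r_ChartHyp x A π O red w PsiD

/-- packages for `w` and `w'`, `w * w' = 1`, give the place reduction with conservation of
number. -/
theorem s48g_exists_reduction_of_pack {K F : Type*} [Field K] [Field F] [Algebra K F]
    [IsAlgClosed K] {k : Type*} [Field k] {Fb : Type u} [Field Fb] [Algebra k Fb]
    {x : F} [FFGen K x] {A : ValuationSubring K} {π : ↥A →+* k} {O : ValuationSubring F}
    {red : ↥O →+* Fb} {w w' : F} (hww : w * w' = 1)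
    (hP : s48g_ChartPack x A π O red w) (hP' : s48g_ChartPack x A π O red w') :
    ∃ r : Place K F → Place k Fb, ∀ (y : F) (hy : y ∈ O), red ⟨y, hy⟩ ≠ 0 →
      ∀ Dv : Divisor K F, (∀ P, Dv P = P.ord y) →
        ∀ Q, Finsupp.mapDomain r Dv Q = Q.ord (red ⟨y, hy⟩) := by
  obtain rfl : w' = w⁻¹ := eq_inv_of_mul_eq_one_right hww
  obtain ⟨D₁, i1, i2, i3, i4, i5, i6, Psi₁, h₁⟩ := hP
  obtain ⟨D₂, j1, j2, j3, j4, j5, j6, Psi₂, h₂⟩ := hP'
  exact s37r_exists_reduction h₁ h₂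

/-- a Kummer extension of exponent prime to the characteristic is separable. -/
theorem s48g_kummer_isSeparable {L₀ L : Type*} [Field L₀] [Field L] [Algebra L₀ L] {m : ℕ}
    (bb : Module.Basis (Fin m) L₀ L) (τ : L) (hbb : ∀ i : Fin m, bb i = τ ^ (i : ℕ)) (c : L₀)
    (hc0 : c ≠ 0) (hτ : τ ^ m = algebraMap L₀ L c) (hm : (m : L₀) ≠ 0) :
    Algebra.IsSeparable L₀ L := by
  have hsep : IsSeparable L₀ τ := by
    have h1 : minpoly L₀ τ ∣ X ^ m - C c := by
      apply minpoly.dvd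
      rw [map_sub, map_pow, aeval_X, aeval_C, hτ, sub_self]
    exact (separable_X_pow_sub_C c hm hc0).of_dvd h1
  have htop : IntermediateField.adjoin L₀ {τ} = ⊤ := by
    apply IntermediateField.adjoin_eq_top_of_algebra
    exact (PowerBasis.mk τ m bb hbb).adjoin_gen_eq_top
  haveI h2 : Algebra.IsSeparable L₀ ↥(IntermediateField.adjoin L₀ {τ}) :=
    (IntermediateField.isSeparable_adjoin_simple_iff_isSeparable L₀ L).mpr hsep
  refine ⟨fun y => ?_⟩
  have hy : y ∈ IntermediateField.adjoin L₀ {τ} := by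
    rw [htop]
    exact IntermediateField.mem_top
  exact IntermediateField.isSeparable_of_mem_isSeparable L₀ L hy

section Step

variable {K F₀ F : Type*} [Field K] [Field F₀] [Field F] [Algebra K F₀] [Algebra K F]
  [Algebra F₀ F] [IsScalarTower K F₀ F] [FiniteDimensional F₀ F] [CharZero F₀]
  {Fb₀ Fb : Type u} [Field Fb₀] [Field Fb] [Algebra Fb₀ Fb]
  {O₀ : ValuationSubring F₀} {red₀ : ↥O₀ →+* Fb₀} {n : ℕ}
  {b : Module.Basis (Fin n) F₀ F} {t : F} {f : (↥O₀)[X]} {tb : Fb}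
  (hK : s48g_LayerData O₀ red₀ b t f tb)
  [IsAlgClosed K] [CharZero K]
  {k : Type*} [Field k] [Algebra k Fb₀] [Algebra k Fb] [IsScalarTower k Fb₀ Fb]
  {x₀ : F₀} [FFGen K x₀] {x : F} [FFGen K x]
  {A : ValuationSubring K} {π : ↥A →+* k} {w₀ w₀' : F₀}
  (bb : Module.Basis (Fin n) Fb₀ Fb) (hbb : ∀ i : Fin n, bb i = tb ^ (i : ℕ))

include hbb in
/-- **the step**: the chart package of the layer. -/
theorem s48g_chartPack_step [Algebra.IsSeparable Fb₀ Fb] (hn : 2 ≤ n) (hww : w₀ * w₀' = 1)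
    (hP : s48g_ChartPack x₀ A π O₀ red₀ w₀) (hP' : s48g_ChartPack x₀ A π O₀ red₀ w₀')
    (hE : ∃ (ι : Type) (J : Finset ι) (bs : ι → Module.Basis (Fin n) F₀ F) (s : ι → F)
      (fR : ι → (↥(s48g_B₀ K O₀ w₀))[X]) (sd : ι → Fin n → F) (η : ι → F)
      (d e : ι → ↥(s48g_B₀ K O₀ w₀)),
      s48g_Etale (s48g_B₀ K O₀ w₀) (s48g_B hK K w₀) J bs s fR sd η d e)
    (hE' : ∃ (ι : Type) (J : Finset ι) (bs : ι → Module.Basis (Fin n) F₀ F) (s : ι → F)
      (fR : ι → (↥(s48g_B₀ K O₀ w₀'))[X]) (sd : ι → Fin n → F) (η : ι → F)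
      (d e : ι → ↥(s48g_B₀ K O₀ w₀')),
      s48g_Etale (s48g_B₀ K O₀ w₀') (s48g_B hK K w₀') J bs s fR sd η d e) :
    s48g_ChartPack x A π (s48g_O hK) (s48g_red hK) (algebraMap F₀ F w₀) := by
  obtain ⟨D₀, i1, i2, i3, i4, i5, i6, PsiD₀, h₀⟩ := hP
  obtain ⟨D₀', j1, j2, j3, j4, j5, j6, PsiD₀', h₀'⟩ := hP'
  obtain ⟨ι, J, bs, s, fR, sd, η, d, e, hE⟩ := hE
  obtain ⟨ι', J', bs', s', fR', sd', η', d', e', hE'⟩ := hE'
  haveI : FiniteDimensional Fb₀ Fb := Module.Finite.of_basis bb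
  letI a1 : Algebra D₀ Fb := ((algebraMap Fb₀ Fb).comp (algebraMap D₀ Fb₀)).toAlgebra
  haveI t1 : IsScalarTower D₀ Fb₀ Fb := IsScalarTower.of_algebraMap_eq fun _ => rfl
  letI a2 : Algebra D₀' Fb := ((algebraMap Fb₀ Fb).comp (algebraMap D₀' Fb₀)).toAlgebra
  haveI t2 : IsScalarTower D₀' Fb₀ Fb := IsScalarTower.of_algebraMap_eq fun _ => rfl
  have hch := s48g_chartHyp (x := x) hK h₀ h₀' bb hbb hE hE' hn hww
  haveI hded : IsDedekindDomain ↥(integralClosure D₀ Fb) :=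
    integralClosure.isDedekindDomain D₀ Fb₀ Fb
  haveI hfrac : IsFractionRing ↥(integralClosure D₀ Fb) Fb :=
    integralClosure.isFractionRing_of_finite_extension Fb₀ Fb
  letI a3 : Algebra k ↥(integralClosure D₀ Fb) :=
    ((algebraMap D₀ ↥(integralClosure D₀ Fb)).comp (algebraMap k D₀)).toAlgebra
  haveI t3 : IsScalarTower k ↥(integralClosure D₀ Fb) Fb := IsScalarTower.of_algebraMap_eq fun c => by
    show algebraMap k Fb c = algebraMap Fb₀ Fb (algebraMap D₀ Fb₀ (algebraMap k D₀ c))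
    rw [← IsScalarTower.algebraMap_apply k D₀ Fb₀, ← IsScalarTower.algebraMap_apply k Fb₀ Fb]
  exact ⟨↥(integralClosure D₀ Fb), inferInstance, hded, inferInstance, hfrac, a3, t3, _, hch⟩

include hbb in
/-- **the step for a tame Kummer layer** `t ^ n = h`, `h` a Gauss unit all of whose orders are
divisible by `n`, `n` invertible in `A`. -/
theorem s48g_chartPack_kummer (hn : 2 ≤ n) (hww : w₀ * w₀' = 1)
    (hP : s48g_ChartPack x₀ A π O₀ red₀ w₀) (hP' : s48g_ChartPack x₀ A π O₀ red₀ w₀')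
    (h : F₀) (hh : t ^ n = algebraMap F₀ F h) (hhO : h ∈ O₀)
    (hhred : red₀ ⟨h, hhO⟩ ≠ 0) (hnA : ((n : K))⁻¹ ∈ A)
    (hdiv : ∀ P : Place K F₀, (n : ℤ) ∣ P.ord h) :
    s48g_ChartPack x A π (s48g_O hK) (s48g_red hK) (algebraMap F₀ F w₀) := by
  have hn0 : n ≠ 0 := by omega
  have hnK : (n : K) ≠ 0 := by exact_mod_cast hn0
  -- separability
  haveI hsep : Algebra.IsSeparable Fb₀ Fb := by
    obtain ⟨D₀, i1, i2, i3, i4, i5, i6, PsiD₀, h₀⟩ := hP
    have htb : tb ^ n = algebraMap Fb₀ Fb (red₀ ⟨h, hhO⟩) := by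
      rw [← s48g_red_t hK, ← map_pow, ← s48g_red_algebraMap hK ⟨h, hhO⟩]
      congr 1
      exact Subtype.ext hh
    have hnb : (n : Fb₀) ≠ 0 := by
      -- `n` is a unit of `A`, hence of `O₀`, hence its reduction is nonzero
      have hmemA : (n : K) ∈ A := natCast_mem A n
      have h1 : (⟨algebraMap K F₀ ((⟨(n : K), hmemA⟩ : ↥A) : K), h₀.const_mem ⟨(n : K), hmemA⟩⟩ : ↥O₀) *
          ⟨algebraMap K F₀ ((⟨((n : K))⁻¹, hnA⟩ : ↥A) : K), h₀.const_mem ⟨((n : K))⁻¹, hnA⟩⟩ = 1 := by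
        apply Subtype.ext
        show algebraMap K F₀ (n : K) * algebraMap K F₀ ((n : K))⁻¹ = 1
        rw [← map_mul, mul_inv_cancel₀ hnK, map_one]
      have h2 := congrArg red₀ h1
      rw [map_mul, map_one] at h2
      have h3 : (⟨algebraMap K F₀ ((⟨(n : K), hmemA⟩ : ↥A) : K), h₀.const_mem ⟨(n : K), hmemA⟩⟩ : ↥O₀) =
          ((n : ℕ) : ↥O₀) := by
        apply Subtype.ext
        show algebraMap K F₀ (n : K) = (((n : ℕ) : ↥O₀) : F₀)
        rw [map_natCast]
        rfl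
      rw [h3, map_natCast] at h2
      intro h0
      rw [h0, zero_mul] at h2
      exact zero_ne_one h2
    exact s48g_kummer_isSeparable bb tb hbb _ hhred htb hnb
  -- étale data
  have hE : ∃ (ι : Type) (J : Finset ι) (bs : ι → Module.Basis (Fin n) F₀ F) (s : ι → F)
      (fR : ι → (↥(s48g_B₀ K O₀ w₀))[X]) (sd : ι → Fin n → F) (η : ι → F)
      (d e : ι → ↥(s48g_B₀ K O₀ w₀)),
      s48g_Etale (s48g_B₀ K O₀ w₀) (s48g_B hK K w₀) J bs s fR sd η d e := by
    obtain ⟨D₀, i1, i2, i3, i4, i5, i6, PsiD₀, h₀⟩ := hP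
    obtain ⟨J, bs, s, fR, sd, η, d, e, hE⟩ :=
      s48g_kummer_etale hK h₀ h hh hhO hhred hnA hdiv
    exact ⟨ℕ, J, bs, s, fR, sd, η, d, e, hE⟩
  have hE' : ∃ (ι : Type) (J : Finset ι) (bs : ι → Module.Basis (Fin n) F₀ F) (s : ι → F)
      (fR : ι → (↥(s48g_B₀ K O₀ w₀'))[X]) (sd : ι → Fin n → F) (η : ι → F)
      (d e : ι → ↥(s48g_B₀ K O₀ w₀')),
      s48g_Etale (s48g_B₀ K O₀ w₀') (s48g_B hK K w₀') J bs s fR sd η d e := by
    obtain ⟨D₀', j1, j2, j3, j4, j5, j6, PsiD₀', h₀'⟩ := hP'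
    obtain ⟨J, bs, s, fR, sd, η, d, e, hE⟩ :=
      s48g_kummer_etale hK h₀' h hh hhO hhred hnA hdiv
    exact ⟨ℕ, J, bs, s, fR, sd, η, d, e, hE⟩
  exact s48g_chartPack_step hK bb hbb hn hww hP hP' hE hE'

end Step

end Fermat.Agent.Lib.S48
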