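/-
DS-1 (S48), wall [T7] (helper7, prefix `s48d_q`): **the tame Kummer step of the tower induction, top level, q-model**:
helper6's `s48g_chartPack_kummer` (GTwo) + the q-model step (DQStep) + irreducibility of the reduced Kummer polynomial
from Theorem X (DQIndep).

`F₁ ⊆ F₂ = F₁(t) ⊆ L((q))`, `tⁿ = h ∈ F₁`, `n` prime invertible in `A`, `t = ιT` an `A`-integral series,
`Fb₂ = Fb₁(ρT)`; the q-model package `Q₁` of `(F₁, Fb₁)` with chart packages for `w₁`, `w₁'` (`w₁ w₁' = 1`), `h` a Gauss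
unit with `n ∣ div h`, and Theorem X for `(F₁, n)`  ⇒  a q-model package `Q₂` of `(F₂, Fb₂)` with chart packages for
the images of `w₁`, `w₁'`.
-/
import Fermat.Agent.Lib.S48.DQStep
import Fermat.Agent.Lib.S48.DQOn
import Fermat.Agent.Lib.S48.DQIndep
import Fermat.Agent.Lib.S48.GTwo

set_option autoImplicit false
set_option linter.unusedSectionVars false
set_option linter.style.haveILetI false

noncomputable section

namespace Fermat.Agent.Lib.S48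

open ModularCurve HahnSeries AlgebraicCurve IntermediateField Polynomial Fermat.Agent.Lib.S37
  Fermat.Agent.Lib.FF Fermat.Agent.Lib.S18

universe u

/-- transport of a chart package along an equality of Gauss rings and reductions. -/
theorem s48d_q_chartPack_congr {K F : Type*} [Field K] [Field F] [Algebra K F] [IsAlgClosed K]
    {k : Type*} [Field k] {Fb : Type u} [Field Fb] [Algebra k Fb]
    {x : F} [FFGen K x] {A : ValuationSubring K} {π : ↥A →+* k} {O O' : ValuationSubring F}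
    (hO : O = O') {red : ↥O →+* Fb} {red' : ↥O' →+* Fb}
    (hred : ∀ (y : F) (hy : y ∈ O) (hy' : y ∈ O'), red ⟨y, hy⟩ = red' ⟨y, hy'⟩) {w : F}
    (hP : s48g_ChartPack x A π O red w) : s48g_ChartPack x A π O' red' w := by
  subst hO
  have : red = red' := RingHom.ext fun y => hred y y.2 y.2
  subst this
  exact hP

variable {L : Type*} [Field L] [CharZero L] [IsAlgClosed L] {A : ValuationSubring L}
  {κ : Type u} [Field κ] {π : ↥A →+* κ}
  {F₁ F₂ : IntermediateField L (LaurentSeries L)} {Fb₁ Fb₂ : IntermediateField κ (LaurentSeries κ)}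
  [Algebra ↥F₁ ↥F₂] [IsScalarTower L ↥F₁ ↥F₂] [FiniteDimensional ↥F₁ ↥F₂]
  [Algebra ↥Fb₁ ↥Fb₂] [IsScalarTower κ ↥Fb₁ ↥Fb₂]

omit [CharZero L] [IsScalarTower κ ↥Fb₁ ↥Fb₂] [FiniteDimensional ↥F₁ ↥F₂] in
/-- **the layer datum of a tame Kummer layer** (`indep` from Theorem X for `(F₁, n)`). -/
theorem s48d_q_kummer_layer
    (halg : ∀ a : ↥F₁, ((algebraMap ↥F₁ ↥F₂ a : ↥F₂) : LaurentSeries L) = (a : LaurentSeries L))
    (halgb : ∀ a : ↥Fb₁, ((algebraMap ↥Fb₁ ↥Fb₂ a : ↥Fb₂) : LaurentSeries κ) = (a : LaurentSeries κ))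
    (Q₁ : s48d_QPack A π F₁ Fb₁)
    {n : ℕ} (hn : n.Prime) (b : Module.Basis (Fin n) ↥F₁ ↥F₂) (t : ↥F₂)
    (hb : ∀ i : Fin n, b i = t ^ (i : ℕ))
    (T : LaurentSeries ↥A) (hT : (t : LaurentSeries L) = coeffMap A.subtype T)
    (tb : ↥Fb₂) (hTb : (tb : LaurentSeries κ) = coeffMap π T)
    (h : ↥F₁) (hh : t ^ n = algebraMap ↥F₁ ↥F₂ h) (hhO : h ∈ s48d_qO Q₁)
    (hhred : s48d_qRed Q₁ ⟨h, hhO⟩ ≠ 0)
    (hdiv : ∀ P : Place L ↥F₁, (n : ℤ) ∣ P.ord h)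
    (hX : s48d_KummerTrivial A π F₁ Fb₁ n) :
    s48g_LayerData (s48d_qO Q₁) (s48d_qRed Q₁) b t
      (X ^ n - Polynomial.C (⟨h, hhO⟩ : ↥(s48d_qO Q₁))) tb := by
  classical
  have hn2 : 2 ≤ n := hn.two_le
  have hn0 : n ≠ 0 := hn.ne_zero
  -- `t ∉ F₁`
  have htF : ∀ a : ↥F₁, algebraMap ↥F₁ ↥F₂ a ≠ t := by
    intro a ha
    set i0 : Fin n := ⟨0, by omega⟩ with hi0
    set i1 : Fin n := ⟨1, by omega⟩ with hi1
    have h0 : b i0 = 1 := by rw [hb]; simp [hi0]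
    have h1 : b i1 = t := by rw [hb]; simp [hi1]
    have e1 : b.repr t = Finsupp.single i1 1 := by rw [← h1, b.repr_self]
    have e0 : b.repr (algebraMap ↥F₁ ↥F₂ a) = Finsupp.single i0 a := by
      have : algebraMap ↥F₁ ↥F₂ a = a • b i0 := by rw [h0, Algebra.smul_def, mul_one]
      rw [this, map_smul, b.repr_self, Finsupp.smul_single, smul_eq_mul, mul_one]
    rw [ha, e1] at e0
    have := congrArg (fun f => f i1) e0
    simp [hi0, hi1, Fin.ext_iff] at this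
  -- `tb ^ n = red h`
  have hpowb : tb ^ n = algebraMap ↥Fb₁ ↥Fb₂ (s48d_qRed Q₁ ⟨h, hhO⟩) := by
    apply Subtype.ext
    rw [halgb, s48d_coe_qRed]
    have h1 : s48d_qRel A π ((coeffMap A.subtype T) ^ n) ((coeffMap π T) ^ n) :=
      s48d_qRel_pow (s48d_qRel_iota T) n
    have h2 : (coeffMap A.subtype T) ^ n = ((h : ↥F₁) : LaurentSeries L) := by
      rw [← hT, ← halg h, ← hh]
      rfl
    obtain ⟨hO, hz⟩ := h1
    show (tb : LaurentSeries κ) ^ n = _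
    rw [hTb, ← hz]
    show s37r_red A π _ = s37r_red A π _
    congr 1
    exact Subtype.ext h2
  -- irreducibility of the reduced Kummer polynomial
  have hnp : ∀ gb : ↥Fb₁, gb ^ n ≠ s48d_qRed Q₁ ⟨h, hhO⟩ :=
    s48d_q_not_pow Q₁ hn.pos hX h hhO hhred hdiv t hh htF
  have hindep : LinearIndependent ↥Fb₁ (fun i : Fin n => tb ^ (i : ℕ)) :=
    s48d_q_linearIndependent_pow hn hnp tb hpowb
  exact s48g_layerData_of_kummer b t h tb hn0 (s48d_q_inv_mem Q₁) hb hh hhO hpowb hindep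

set_option maxHeartbeats 800000 in
/-- **the tame Kummer step (top level, q-model).** -/
theorem s48d_q_kummer_step
    (halg : ∀ a : ↥F₁, ((algebraMap ↥F₁ ↥F₂ a : ↥F₂) : LaurentSeries L) = (a : LaurentSeries L))
    (halgb : ∀ a : ↥Fb₁, ((algebraMap ↥Fb₁ ↥Fb₂ a : ↥Fb₂) : LaurentSeries κ) = (a : LaurentSeries κ))
    (Q₁ : s48d_QPack A π F₁ Fb₁)
    {x₁ : ↥F₁} [FFGen L x₁] {x₂ : ↥F₂} [FFGen L x₂] {w₁ w₁' : ↥F₁} (hww : w₁ * w₁' = 1)
    (hP : s48g_ChartPack x₁ A π (s48d_qO Q₁) (s48d_qRed Q₁) w₁)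
    (hP' : s48g_ChartPack x₁ A π (s48d_qO Q₁) (s48d_qRed Q₁) w₁')
    {n : ℕ} (hn : n.Prime) (b : Module.Basis (Fin n) ↥F₁ ↥F₂) (t : ↥F₂)
    (hb : ∀ i : Fin n, b i = t ^ (i : ℕ))
    (T : LaurentSeries ↥A) (hT : (t : LaurentSeries L) = coeffMap A.subtype T)
    (tb : ↥Fb₂) (hTb : (tb : LaurentSeries κ) = coeffMap π T)
    (h : ↥F₁) (hh : t ^ n = algebraMap ↥F₁ ↥F₂ h) (hhO : h ∈ s48d_qO Q₁)
    (hhred : s48d_qRed Q₁ ⟨h, hhO⟩ ≠ 0) (hnA : ((n : L))⁻¹ ∈ A)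
    (hdiv : ∀ P : Place L ↥F₁, (n : ℤ) ∣ P.ord h)
    (hX : s48d_KummerTrivial A π F₁ Fb₁ n)
    (hspan : ⊤ ≤ Submodule.span ↥Fb₁ (Set.range fun i : Fin n => tb ^ (i : ℕ))) :
    ∃ Q₂ : s48d_QPack A π F₂ Fb₂,
      s48g_ChartPack x₂ A π (s48d_qO Q₂) (s48d_qRed Q₂) (algebraMap ↥F₁ ↥F₂ w₁) ∧
      s48g_ChartPack x₂ A π (s48d_qO Q₂) (s48d_qRed Q₂) (algebraMap ↥F₁ ↥F₂ w₁') := by
  classical
  have hn2 : 2 ≤ n := hn.two_le
  have hK := s48d_q_kummer_layer halg halgb Q₁ hn b t hb T hT tb hTb h hh hhO hhred hdiv hX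
  set bb : Module.Basis (Fin n) ↥Fb₁ ↥Fb₂ := Module.Basis.mk hK.indep hspan with hbbdef
  have hbb : ∀ i : Fin n, bb i = tb ^ (i : ℕ) := fun i => by
    rw [hbbdef, Module.Basis.mk_apply]
  have hww' : w₁' * w₁ = 1 := by rw [mul_comm]; exact hww
  have hpack := s48g_chartPack_kummer (x := x₂) hK bb hbb hn2 hww hP hP' h hh hhO hhred hnA hdiv
  have hpack' := s48g_chartPack_kummer (x := x₂) hK bb hbb hn2 hww' hP' hP h hh hhO hhred hnA hdiv
  refine ⟨s48d_q_step halg halgb Q₁ T hT hTb hK hspan, ?_, ?_⟩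
  · exact s48d_q_chartPack_congr (s48d_q_step_O halg halgb Q₁ T hT hTb hK hspan)
      (s48d_q_step_red halg halgb Q₁ T hT hTb hK hspan) hpack
  · exact s48d_q_chartPack_congr (s48d_q_step_O halg halgb Q₁ T hT hTb hK hspan)
      (s48d_q_step_red halg halgb Q₁ T hT hTb hK hspan) hpack'

omit [CharZero L] [IsScalarTower κ ↥Fb₁ ↥Fb₂] [FiniteDimensional ↥F₁ ↥F₂] in
/-- **(Q3′) through a tame Kummer layer**: the class `S` of good integral series is carried along. -/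
theorem s48d_q_kummer_step_on
    (halg : ∀ a : ↥F₁, ((algebraMap ↥F₁ ↥F₂ a : ↥F₂) : LaurentSeries L) = (a : LaurentSeries L))
    (halgb : ∀ a : ↥Fb₁, ((algebraMap ↥Fb₁ ↥Fb₂ a : ↥Fb₂) : LaurentSeries κ) = (a : LaurentSeries κ))
    (Q₁ : s48d_QPack A π F₁ Fb₁)
    {n : ℕ} (hn : n.Prime) (b : Module.Basis (Fin n) ↥F₁ ↥F₂) (t : ↥F₂)
    (hb : ∀ i : Fin n, b i = t ^ (i : ℕ))
    (T : LaurentSeries ↥A) (hT : (t : LaurentSeries L) = coeffMap A.subtype T)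
    (tb : ↥Fb₂) (hTb : (tb : LaurentSeries κ) = coeffMap π T)
    (h : ↥F₁) (hh : t ^ n = algebraMap ↥F₁ ↥F₂ h) (hhO : h ∈ s48d_qO Q₁)
    (hhred : s48d_qRed Q₁ ⟨h, hhO⟩ ≠ 0)
    (hdiv : ∀ P : Place L ↥F₁, (n : ℤ) ∣ P.ord h)
    (hX : s48d_KummerTrivial A π F₁ Fb₁ n)
    {S : LaurentSeries ↥A → Prop}
    (hadd : ∀ Y Z, S Y → S Z → S (Y + Z)) (hmul : ∀ Y Z, S Y → S Z → S (Y * Z)) (hone : S 1)
    (hS₁ : s48d_QPresOn A π F₁ Fb₁ S) (hST : S T) :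
    s48d_QPresOn A π F₂ Fb₂ S :=
  s48d_q_step_on halg halgb Q₁ T hT hTb
    (s48d_q_kummer_layer halg halgb Q₁ hn b t hb T hT tb hTb h hh hhO hhred hdiv hX)
    hadd hmul hone hS₁ hST

end Fermat.Agent.Lib.S48
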