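/-
DS-1 (S48), wall [T7] (helper7, prefix `s48d_q`): **the top bridge** — from the q-model package `s48d_QPack A π F Fb`
and conservation of number for the top-level Gauss ring `(s48d_qO, s48d_qRed)` (e.g. the landed two-chart assembly
`s37r_r`/`s37r_conservation` of `Lib/S37/RTwo` applied to two `s37r_ChartHyp`) to the consumer shapes of [T8]/[T7-D]:

* `s48d_q_isPlaceRed`   : `s48e_IsPlaceRed A π F Fb r` (degrees are one on both sides; port of `s37r10_isPlaceReduction`);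
* `s48d_q_three`        : three places with pairwise distinct reductions (helper8's `h3`);
* `s48d_q_const`, `s48d_q_constFb` : functions without zeros (and poles) are constant (char-free);
* `s48d_q_of_charts`    : everything at once from two chart hypotheses.
-/
import Fermat.Agent.Lib.S48.DQDefs
import Fermat.Agent.Lib.S37.DegOne
import Fermat.Agent.Lib.S37.RTwo
import Fermat.Agent.Lib.FF.FFBasicIdentity
import Fermat.Agent.Lib.S18.NConst

set_option autoImplicit false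
set_option linter.unusedSectionVars false
set_option linter.style.haveILetI false

noncomputable section

namespace Fermat.Agent.Lib.S48

open ModularCurve HahnSeries AlgebraicCurve IntermediateField Fermat.Agent.Lib.S37 Fermat.Agent.Lib.FF
  Fermat.Agent.Lib.S18

/-- in a function field over an algebraically closed field of characteristic zero, an element without zeros is
constant (= landed `s18e_const_of_no_zero`, restated to keep the imports light). -/
theorem s48d_q_const_of_no_zero {K F : Type*} [Field K] [Field F] [Algebra K F] [CharZero K]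
    [IsAlgClosed K] (x : F) [FFGen K x] (g : F)
    (h : ∀ P : Place K F, P.ord g ≤ 0) : ∃ c : K, g = algebraMap K F c := by
  by_contra hc
  have htr : Transcendental K g := by
    intro halg
    obtain ⟨a, ha⟩ := ff_mem_range_of_isAlgebraic (K := K) halg
    exact hc ⟨a, ha.symm⟩
  haveI : FFGen K g := ff_gen_of_transcendental (K := K) (x := x) htr
  obtain ⟨P, hP, hsum⟩ := ff_fibreSum K g
  have hpos : 0 < Module.finrank K⟮g⟯ F := Module.finrank_pos
  have hne : P.Nonempty := by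
    by_contra hemp
    rw [Finset.not_nonempty_iff_eq_empty] at hemp
    rw [hemp, Finset.sum_empty] at hsum
    have : (0 : ℤ) < (Module.finrank K⟮g⟯ F : ℤ) := by exact_mod_cast hpos
    omega
  obtain ⟨v, hv⟩ := hne
  have := (hP v).mp hv
  have := h v
  omega

variable {L : Type*} [Field L] {A : ValuationSubring L} {κ : Type*} [Field κ] {π : ↥A →+* κ}
  {F : IntermediateField L (LaurentSeries L)} {Fb : IntermediateField κ (LaurentSeries κ)}

/-- constants on the special fibre (any characteristic; `Fb` finite SEPARABLE over `κ(xb)`). -/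
theorem s48d_q_constFb [IsAlgClosed κ] (xb : ↥Fb) (hxb : Transcendental κ xb)
    [FiniteDimensional κ⟮xb⟯ ↥Fb] [Algebra.IsSeparable κ⟮xb⟯ ↥Fb] : s48d_ConstFb Fb := by
  intro h _ hh
  exact s18n_const_of_no_poles xb hxb h (fun Q => (hh Q).ge)

/-- constants on the generic fibre (the `hconst` of `s48d_torsion_injective_baseChange`). -/
theorem s48d_q_const [CharZero L] [IsAlgClosed L] (x : ↥F) [FFGen L x] (g : ↥F)
    (h : ∀ P : Place L ↥F, P.ord g ≤ 0) : ∃ c : L, g = algebraMap L ↥F c :=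
  s48d_q_const_of_no_zero x g h

section Bridge

variable [IsAlgClosed L] [IsAlgClosed κ] (Q : s48d_QPack A π F Fb)
  (r : Place L ↥F → Place κ ↥Fb)
  (hcons : ∀ (y : ↥F) (hy : y ∈ s48d_qO Q), s48d_qRed Q ⟨y, hy⟩ ≠ 0 →
    ∀ Dv : Divisor L ↥F, (∀ P, Dv P = P.ord y) →
      ∀ Qp, Finsupp.mapDomain r Dv Qp = Qp.ord (s48d_qRed Q ⟨y, hy⟩))

include hcons

/-- **Bridge**: a map on places satisfying conservation of number for all Gauss units is a place reduction in
helper8's generic sense. -/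
theorem s48d_q_isPlaceRed (x : ↥F) [FFGen L x] (xb : ↥Fb) [FFGen κ xb] :
    s48e_IsPlaceRed A π F Fb r := by
  refine ⟨fun P => ?_, ?_⟩
  · rw [s37dg_deg_eq_one xb (r P), s37dg_deg_eq_one x P]
  · intro Y hY hYk hne D hD Qp
    have hyO := s48d_q_iota_mem Q Y hY
    have hred : s48d_qRed Q ⟨⟨coeffMap A.subtype Y, hY⟩, hyO⟩ = ⟨coeffMap π Y, hYk⟩ :=
      Subtype.ext (s48d_qRedV_iota Q Y hY)
    have h := hcons ⟨coeffMap A.subtype Y, hY⟩ hyO
      (by rw [hred]; exact fun h0 => hne (congrArg Subtype.val h0)) D hD Qp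
    rw [hred] at h
    exact h

/-- every zero of a reduction lifts: the fibre of `r` over a zero of `qRed y` is non-empty. -/
theorem s48d_q_exists_fibre (hfin : ∀ y : ↥F, y ≠ 0 → {P : Place L ↥F | P.ord y ≠ 0}.Finite)
    (y : ↥F) (hy : y ∈ s48d_qO Q) (Qp : Place κ ↥Fb)
    (hpos : 0 < Qp.ord (s48d_qRed Q ⟨y, hy⟩)) : ∃ P : Place L ↥F, r P = Qp := by
  classical
  have hred0 : s48d_qRed Q ⟨y, hy⟩ ≠ 0 := by
    intro h0
    rw [h0] at hpos
    simp at hpos
  have hy0 : y ≠ 0 := by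
    rintro rfl
    apply hred0
    have : (⟨0, hy⟩ : ↥(s48d_qO Q)) = 0 := rfl
    rw [this, map_zero]
  set Dv : Divisor L ↥F := Finsupp.ofSupportFinite (fun P => P.ord y) (hfin y hy0) with hDv
  have h := hcons y hy hred0 Dv (fun P => rfl) Qp
  by_contra hne
  push Not at hne
  rw [s37r_mapDomain_apply] at h
  rw [Finset.sum_eq_zero] at h
  · omega
  · intro P hP
    rw [Finset.mem_filter] at hP
    exact absurd hP.2 (hne P)

end Bridge

section Charts

variable [CharZero L] [IsAlgClosed L] [IsAlgClosed κ]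
  {Fb' : Type*} [Field Fb'] [Algebra κ Fb']
  {F' : Type*} [Field F'] [Algebra L F']
  {D₁ : Type*} [CommRing D₁] [IsDedekindDomain D₁] [Algebra D₁ Fb'] [IsFractionRing D₁ Fb']
  [Algebra κ D₁] [IsScalarTower κ D₁ Fb']
  {D₂ : Type*} [CommRing D₂] [IsDedekindDomain D₂] [Algebra D₂ Fb'] [IsFractionRing D₂ Fb']
  [Algebra κ D₂] [IsScalarTower κ D₂ Fb']
  {x : F'} [FFGen L x] {O : ValuationSubring F'} {red : ↥O →+* Fb'} {w : F'}
  {PsiD₁ : ↥(s18_ring O (s18_chart1 (L₀ := L) w)) →+* D₁}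
  {PsiD₂ : ↥(s18_ring O (s18_chart1 (L₀ := L) w⁻¹)) →+* D₂}
  (h₁ : s37r_ChartHyp x A π O red w PsiD₁) (h₂ : s37r_ChartHyp x A π O red w⁻¹ PsiD₂)

include h₁ in
/-- the chart coordinate is transcendental over the constants. -/
theorem s48d_q_w_transcendental : Transcendental L w := by
  intro halg
  obtain ⟨c, hc⟩ := ff_mem_range_of_isAlgebraic (K := L) halg
  by_cases hcA : c ∈ A
  · have h := h₁.red_const ⟨c, hcA⟩
    apply h₁.w_nonconst (π ⟨c, hcA⟩)
    rw [← h]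
    congr 1
    exact Subtype.ext hc.symm
  · have hci : c⁻¹ ∈ A := (A.mem_or_inv_mem c).resolve_left hcA
    have hπ : π ⟨c⁻¹, hci⟩ = 0 := by
      by_contra hne
      have := h₁.unit_of_ne ⟨c⁻¹, hci⟩ hne
      rw [inv_inv] at this
      exact hcA this
    have h := h₁.red_const ⟨c⁻¹, hci⟩
    rw [hπ, map_zero] at h
    have hc0 : c ≠ 0 := by
      rintro rfl
      exact hcA A.zero_mem
    have hmul : (⟨w, h₁.w_mem⟩ : ↥O) * ⟨algebraMap L F' ((⟨c⁻¹, hci⟩ : ↥A) : L), h₁.const_mem _⟩ = 1 := by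
      apply Subtype.ext
      show w * algebraMap L F' c⁻¹ = 1
      rw [← hc, ← map_mul, mul_inv_cancel₀ hc0, map_one]
    have := congrArg red hmul
    rw [map_mul, h, mul_zero, map_one] at this
    exact zero_ne_one this

include h₁ in
/-- for every `a ∈ A` there is a place where the chart coordinate takes the value `a`. -/
theorem s48d_q_exists_value (a : ↥A) :
    ∃ (P : Place L F') (hInt : s37r_Int x A w P), s37pv_ev x P ⟨w, hInt.fst⟩ = (a : L) := by
  classical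
  haveI : FFGen L w := ff_gen_of_transcendental (K := L) (x := x) (s48d_q_w_transcendental h₁)
  obtain ⟨S, hS, hsum⟩ := ff_fibreSum_sub_const L w (a : L)
  have hpos : 0 < Module.finrank L⟮w⟯ F' := Module.finrank_pos
  have hne : S.Nonempty := by
    by_contra hemp
    rw [Finset.not_nonempty_iff_eq_empty] at hemp
    rw [hemp, Finset.sum_empty] at hsum
    have : (0 : ℤ) < (Module.finrank L⟮w⟯ F' : ℤ) := by exact_mod_cast hpos
    omega
  obtain ⟨P, hP⟩ := hne
  have hPpos := (hS P).mp hP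
  have hne0 : w - algebraMap L F' (a : L) ≠ 0 := by
    intro h0
    rw [h0] at hPpos
    simp at hPpos
  have hw : w ∈ P.toValuationSubring := by
    have h1 : w - algebraMap L F' (a : L) ∈ P.toValuationSubring :=
      (ff_mem_iff_ord_nonneg P hne0).mpr hPpos.le
    have h2 := P.toValuationSubring.add_mem _ _ h1 (P.algebraMap_mem' (a : L))
    rwa [sub_add_cancel] at h2
  have hev : s37pv_ev x P ⟨w, hw⟩ = (a : L) :=
    (s37pv_ev_coe_eq_iff x P ⟨w, hw⟩ (a : L)).mpr (Or.inr hPpos)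
  exact ⟨P, ⟨hw, by rw [hev]; exact a.2⟩, hev⟩

include h₁ h₂ in
/-- **three places with pairwise distinct reductions** (helper8's `h3`), for the two-chart reduction. -/
theorem s48d_q_three :
    ∃ P₁ P₂ P₃, s37r_r h₁ h₂ P₁ ≠ s37r_r h₁ h₂ P₂ ∧ s37r_r h₁ h₂ P₁ ≠ s37r_r h₁ h₂ P₃ ∧
      s37r_r h₁ h₂ P₂ ≠ s37r_r h₁ h₂ P₃ := by
  classical
  have key : ∀ c : κ, ∃ P : Place L F',
      0 < (s37r_r h₁ h₂ P).ord ((red ⟨w, h₁.w_mem⟩ : Fb') - algebraMap κ Fb' c) := by
    intro c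
    obtain ⟨a, rfl⟩ := h₁.pi_surj c
    obtain ⟨P, hInt, hev⟩ := s48d_q_exists_value h₁ a
    refine ⟨P, ?_⟩
    rw [s37r_r_of_Int h₁ h₂ P hInt]
    have h := s37r_rw_value h₁ P hInt
    have ha : (⟨s37pv_ev x P ⟨w, hInt.fst⟩, hInt.snd⟩ : ↥A) = a := Subtype.ext hev
    rwa [ha] at h
  obtain ⟨c₁, c₂, c₃, h12, h13, h23⟩ : ∃ c₁ c₂ c₃ : κ, c₁ ≠ c₂ ∧ c₁ ≠ c₃ ∧ c₂ ≠ c₃ := by
    haveI : Infinite κ := IsAlgClosed.instInfinite
    obtain ⟨c₁, c₂, h12⟩ := exists_pair_ne κ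
    obtain ⟨c₃, hc₃⟩ := Infinite.exists_notMem_finset ({c₁, c₂} : Finset κ)
    simp only [Finset.mem_insert, Finset.mem_singleton, not_or] at hc₃
    exact ⟨c₁, c₂, c₃, h12, fun h => hc₃.1 h.symm, fun h => hc₃.2 h.symm⟩
  obtain ⟨P₁, hP₁⟩ := key c₁
  obtain ⟨P₂, hP₂⟩ := key c₂
  obtain ⟨P₃, hP₃⟩ := key c₃
  refine ⟨P₁, P₂, P₃, ?_, ?_, ?_⟩
  · intro h
    rw [h] at hP₁
    exact h12 (ff_ord_sub_pos_unique (s37r_r h₁ h₂ P₂) hP₁ hP₂)
  · intro h
    rw [h] at hP₁
    exact h13 (ff_ord_sub_pos_unique (s37r_r h₁ h₂ P₃) hP₁ hP₃)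
  · intro h
    rw [h] at hP₂
    exact h23 (ff_ord_sub_pos_unique (s37r_r h₁ h₂ P₃) hP₂ hP₃)

end Charts

section Final

variable [CharZero L] [IsAlgClosed L] [IsAlgClosed κ] (Q : s48d_QPack A π F Fb)
  {D₁ : Type*} [CommRing D₁] [IsDedekindDomain D₁] [Algebra D₁ ↥Fb] [IsFractionRing D₁ ↥Fb]
  [Algebra κ D₁] [IsScalarTower κ D₁ ↥Fb]
  {D₂ : Type*} [CommRing D₂] [IsDedekindDomain D₂] [Algebra D₂ ↥Fb] [IsFractionRing D₂ ↥Fb]
  [Algebra κ D₂] [IsScalarTower κ D₂ ↥Fb]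
  {x : ↥F} [FFGen L x] {w : ↥F}
  {PsiD₁ : ↥(s18_ring (s48d_qO Q) (s18_chart1 (L₀ := L) w)) →+* D₁}
  {PsiD₂ : ↥(s18_ring (s48d_qO Q) (s18_chart1 (L₀ := L) w⁻¹)) →+* D₂}
  (h₁ : s37r_ChartHyp x A π (s48d_qO Q) (s48d_qRed Q) w PsiD₁)
  (h₂ : s37r_ChartHyp x A π (s48d_qO Q) (s48d_qRed Q) w⁻¹ PsiD₂)

/-- **the consumer shapes from two chart hypotheses on the q-model**: `r := s37r_r h₁ h₂` is a place reduction in
helper8's sense, principal divisors are generated by integral ones, three places have distinct reductions, lifting,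
constants on both fibres. -/
theorem s48d_q_of_charts (xb : ↥Fb) [FFGen κ xb] [Algebra.IsSeparable κ⟮xb⟯ ↥Fb] :
    s48e_IsPlaceRed A π F Fb (s37r_r h₁ h₂) ∧ s48e_PrinGen A π F Fb ∧
      (∃ P₁ P₂ P₃, s37r_r h₁ h₂ P₁ ≠ s37r_r h₁ h₂ P₂ ∧ s37r_r h₁ h₂ P₁ ≠ s37r_r h₁ h₂ P₃ ∧
        s37r_r h₁ h₂ P₂ ≠ s37r_r h₁ h₂ P₃) ∧
      s48d_LiftDiv A π F Fb ∧ s48d_ConstFb Fb ∧
      (∀ g : ↥F, (∀ P : Place L ↥F, P.ord g ≤ 0) → ∃ c : L, g = algebraMap L ↥F c) := by
  have hcons : ∀ (y : ↥F) (hy : y ∈ s48d_qO Q), s48d_qRed Q ⟨y, hy⟩ ≠ 0 →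
      ∀ Dv : Divisor L ↥F, (∀ P, Dv P = P.ord y) →
        ∀ Qp, Finsupp.mapDomain (s37r_r h₁ h₂) Dv Qp = Qp.ord (s48d_qRed Q ⟨y, hy⟩) :=
    fun y hy hy0 Dv hDv Qp => s37r_conservation h₁ h₂ y hy hy0 Dv hDv Qp
  haveI : FiniteDimensional κ⟮xb⟯ ↥Fb := FFGen.finite
  exact ⟨s48d_q_isPlaceRed Q _ hcons x xb, s48d_q_prinGen Q h₁.fin,
    s48d_q_three h₁ h₂, s48d_q_liftDiv Q, s48d_q_constFb xb FFGen.transc,
    fun g hg => s48d_q_const x g hg⟩

end Final

end Fermat.Agent.Lib.S48
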