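/-
S48 (Deligne–Serre), wall [T8] (helper8): GENERIC Eichler–Shimura engine, QUOTIENT form, part 6: where the two new
hypotheses come from.

`s48e_gaussF A π F := F ∩ s37r_O A π` (the Gauss ring of `F`, the landed top-level Gauss ring of `Lib/S37/RGauss` cut down
to `F`) with its reduction `s48e_gaussRed`.

* `s48e_isPlaceRedQ_of_gauss` : STRONG conservation in the language of `s37r_O`, `s37r_red` (the shape of the two-chart
  assembly `s37r_conservation`) gives `s48e_IsPlaceRedQ`;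
* `s48e_gaussF_aut_mem`       : a ring automorphism `e` of `F` fixing a subring `R₀ ⊆ gaussF` over which `gaussF` is
  INTEGRAL preserves `gaussF` (`gaussF` is a valuation ring, hence integrally closed);
* `s48e_exists_redCompatQ`    : an `L`-automorphism `e` of `F` with `e (gaussF) = gaussF` induces a `κ`-automorphism `δ`
  of `Fb` (reduction onto `Fb`, `π` onto `κ`) and `s48e_RedCompatQ (ofAlgAut e) (ofAlgAut δ)` holds.
-/
import Fermat.Agent.Lib.S48.EGenQDefs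
import Fermat.Agent.Lib.S37.RGauss

set_option autoImplicit false
set_option linter.unusedSectionVars false

namespace Fermat.Agent.Lib.S48

open ModularCurve HahnSeries AlgebraicCurve IntermediateField Polynomial Fermat.Agent.Lib.S37

noncomputable section

variable {L : Type*} [Field L] (A : ValuationSubring L) {κ : Type*} [Field κ] (π : ↥A →+* κ)
  (F : IntermediateField L (LaurentSeries L)) (Fb : IntermediateField κ (LaurentSeries κ))

/-- **the Gauss ring of `F`.** -/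
def s48e_gaussF : Subring ↥F := (s37r_O A π).comap (F.val : ↥F →+* LaurentSeries L)

theorem s48e_mem_gaussF_iff (y : ↥F) :
    y ∈ s48e_gaussF A π F ↔ (y : LaurentSeries L) ∈ s37r_O A π := Iff.rfl

/-- the inclusion `gaussF → s37r_O`. -/
def s48e_gaussFtoO : ↥(s48e_gaussF A π F) →+* ↥(s37r_O A π) where
  toFun y := ⟨((y : ↥F) : LaurentSeries L), y.2⟩
  map_one' := rfl
  map_mul' _ _ := rfl
  map_zero' := rfl
  map_add' _ _ := rfl

/-- **the reduction of the Gauss ring of `F`.** -/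
def s48e_gaussRed : ↥(s48e_gaussF A π F) →+* LaurentSeries κ :=
  (s37r_red A π).comp (s48e_gaussFtoO A π F)

theorem s48e_gaussRed_apply (y : ↥(s48e_gaussF A π F)) :
    s48e_gaussRed A π F y = s37r_red A π ⟨((y : ↥F) : LaurentSeries L), y.2⟩ := rfl

variable {A π F Fb}

theorem s48e_gaussRed_eq (y : ↥(s48e_gaussF A π F)) (Y₁ Y₂ : LaurentSeries ↥A)
    (h2 : coeffMap π Y₂ ≠ 0)
    (h : coeffMap A.subtype Y₂ * ((y : ↥F) : LaurentSeries L) = coeffMap A.subtype Y₁) :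
    s48e_gaussRed A π F y = coeffMap π Y₁ / coeffMap π Y₂ :=
  s37r_red_eq A π _ Y₁ Y₂ h2 h

theorem s48e_iota_mem_gaussF (Y : LaurentSeries ↥A) (hY : coeffMap A.subtype Y ∈ F) :
    (⟨coeffMap A.subtype Y, hY⟩ : ↥F) ∈ s48e_gaussF A π F :=
  s37r_iota_mem_O A π Y

theorem s48e_gaussRed_iota (Y : LaurentSeries ↥A) (hY : coeffMap A.subtype Y ∈ F) :
    s48e_gaussRed A π F ⟨⟨coeffMap A.subtype Y, hY⟩, s48e_iota_mem_gaussF Y hY⟩ = coeffMap π Y :=
  s37r_red_iota A π Y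

/-- a Gauss unit has its inverse in the Gauss ring. -/
theorem s48e_inv_mem_gaussF (y : ↥(s48e_gaussF A π F)) (hy : s48e_gaussRed A π F y ≠ 0) :
    ((y : ↥F))⁻¹ ∈ s48e_gaussF A π F := by
  obtain ⟨Y₁, Y₂, h2, hrel⟩ := y.2
  have hrel' : coeffMap A.subtype Y₂ * ((y : ↥F) : LaurentSeries L) = coeffMap A.subtype Y₁ := hrel
  rw [s48e_gaussRed_eq y Y₁ Y₂ h2 hrel'] at hy
  have h1 : coeffMap π Y₁ ≠ 0 := fun h0 => hy (by rw [h0, zero_div])
  have hy0 : ((y : ↥F) : LaurentSeries L) ≠ 0 := by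
    intro h0
    rw [h0, mul_zero] at hrel'
    apply h1
    have : Y₁ = 0 := s37r_iota_injective A (by rw [← hrel', map_zero])
    rw [this, map_zero]
  show (((y : ↥F)⁻¹ : ↥F) : LaurentSeries L) ∈ s37r_O A π
  refine ⟨Y₂, Y₁, h1, ?_⟩
  rw [← hrel']
  push_cast
  field_simp

/-- **strong conservation from the `s37r_O`-form** (the shape of the two-chart assembly). -/
theorem s48e_isPlaceRedQ_of_gauss (r : Place L ↥F → Place κ ↥Fb)
    (hdeg : ∀ P, (r P).deg = P.deg)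
    (hcons : ∀ (y : ↥(s48e_gaussF A π F)) (yb : ↥Fb),
      s48e_gaussRed A π F y = (yb : LaurentSeries κ) → yb ≠ 0 →
        ∀ D : Divisor L ↥F, (∀ P, D P = P.ord (y : ↥F)) → ∀ Q, Finsupp.mapDomain r D Q = Q.ord yb) :
    s48e_IsPlaceRedQ A π F Fb r := by
  refine ⟨hdeg, fun y yb Y₁ Y₂ h2 hrel hred hyb D hD Q => ?_⟩
  have hy : y ∈ s48e_gaussF A π F := ⟨Y₁, Y₂, h2, hrel⟩
  refine hcons ⟨y, hy⟩ yb ?_ hyb D hD Q
  rw [s48e_gaussRed_eq ⟨y, hy⟩ Y₁ Y₂ h2 hrel, hred, mul_div_cancel_left₀ _ h2]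

/-- an element which is integral (through a ring homomorphism into a valuation subring) lies in the valuation subring. -/
theorem s48e_mem_of_isIntegralElem {K : Type*} [Field K] (O : ValuationSubring K) {R : Type*}
    [CommRing R] (f : R →+* K) (hf : ∀ c, f c ∈ O) {y : K} (hy : f.IsIntegralElem y) : y ∈ O := by
  obtain ⟨p, hp, hpy⟩ := hy
  have hint : IsIntegral ↥O y := by
    refine ⟨p.map (f.codRestrict O.toSubring hf), hp.map _, ?_⟩
    rw [eval₂_map]
    exact hpy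
  obtain ⟨z, hz⟩ := IsIntegrallyClosed.algebraMap_eq_of_integral hint
  rw [← hz]
  exact z.2

/-- **a ring automorphism fixing a subring over which the Gauss ring is integral preserves the Gauss ring.** -/
theorem s48e_gaussF_aut_mem
    (hval : ∀ y : ↥F, y ∈ s48e_gaussF A π F ∨ y⁻¹ ∈ s48e_gaussF A π F)
    (R₀ : Subring ↥F) (hR₀ : R₀ ≤ s48e_gaussF A π F) (e : ↥F ≃+* ↥F) (he : ∀ c ∈ R₀, e c = c)
    (hint : ∀ y ∈ s48e_gaussF A π F, IsIntegral ↥R₀ y) (y : ↥F) (hy : y ∈ s48e_gaussF A π F) :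
    e y ∈ s48e_gaussF A π F := by
  set O : ValuationSubring ↥F := { s48e_gaussF A π F with mem_or_inv_mem' := hval } with hO
  obtain ⟨p, hp, hpy⟩ := hint y hy
  have h1 : (algebraMap ↥R₀ ↥F).IsIntegralElem (e y) := by
    refine ⟨p, hp, ?_⟩
    have h2 := congrArg (e : ↥F →+* ↥F) hpy
    rw [map_zero, Polynomial.hom_eval₂] at h2
    have h3 : (e : ↥F →+* ↥F).comp (algebraMap ↥R₀ ↥F) = algebraMap ↥R₀ ↥F :=
      RingHom.ext fun c => he c c.2
    rw [h3] at h2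
    exact h2
  exact s48e_mem_of_isIntegralElem O (algebraMap ↥R₀ ↥F) (fun c => hR₀ c.2) h1

/-! ### The automorphism induced on the residue field -/

section Residue

variable (hredmem : ∀ y : ↥(s48e_gaussF A π F), s48e_gaussRed A π F y ∈ Fb)

/-- the reduction `gaussF →+* Fb`. -/
def s48e_gaussRedFb : ↥(s48e_gaussF A π F) →+* ↥Fb :=
  (s48e_gaussRed A π F).codRestrict Fb hredmem

theorem s48e_coe_gaussRedFb (y : ↥(s48e_gaussF A π F)) :
    ((s48e_gaussRedFb hredmem y : ↥Fb) : LaurentSeries κ) = s48e_gaussRed A π F y := rfl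

/-- the restriction of a stable ring endomorphism to the Gauss ring. -/
def s48e_autGauss (e : ↥F →+* ↥F) (hst : ∀ y ∈ s48e_gaussF A π F, e y ∈ s48e_gaussF A π F) :
    ↥(s48e_gaussF A π F) →+* ↥(s48e_gaussF A π F) where
  toFun y := ⟨e (y : ↥F), hst _ y.2⟩
  map_one' := Subtype.ext (map_one e)
  map_mul' _ _ := Subtype.ext (map_mul e _ _)
  map_zero' := Subtype.ext (map_zero e)
  map_add' _ _ := Subtype.ext (map_add e _ _)

theorem s48e_coe_autGauss (e : ↥F →+* ↥F)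
    (hst : ∀ y ∈ s48e_gaussF A π F, e y ∈ s48e_gaussF A π F) (y : ↥(s48e_gaussF A π F)) :
    ((s48e_autGauss e hst y : ↥(s48e_gaussF A π F)) : ↥F) = e (y : ↥F) := rfl

/-- a stable automorphism with stable inverse preserves the kernel of the reduction. -/
theorem s48e_red_autGauss_eq_zero (e e' : ↥F →+* ↥F) (hee : ∀ y, e' (e y) = y)
    (hst : ∀ y ∈ s48e_gaussF A π F, e y ∈ s48e_gaussF A π F)
    (hst' : ∀ y ∈ s48e_gaussF A π F, e' y ∈ s48e_gaussF A π F)
    (y : ↥(s48e_gaussF A π F)) (hy : s48e_gaussRedFb hredmem y = 0) :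
    s48e_gaussRedFb hredmem (s48e_autGauss e hst y) = 0 := by
  by_contra hne
  have hne' : s48e_gaussRed A π F (s48e_autGauss e hst y) ≠ 0 := fun h0 => hne (Subtype.ext h0)
  have h1 := s48e_inv_mem_gaussF _ hne'
  rw [s48e_coe_autGauss] at h1
  have h2 := hst' _ h1
  rw [map_inv₀, hee] at h2
  have hy0 : (y : ↥F) ≠ 0 := by
    intro h0
    apply hne
    have : s48e_autGauss e hst y = 0 := Subtype.ext (by rw [s48e_coe_autGauss, h0, map_zero]; rfl)
    rw [this, map_zero]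
  have h3 : y * ⟨((y : ↥F))⁻¹, h2⟩ = 1 := Subtype.ext (mul_inv_cancel₀ hy0)
  have h4 := congrArg (s48e_gaussRedFb hredmem) h3
  rw [map_mul, hy, zero_mul, map_one] at h4
  exact zero_ne_one h4

/-- constants of `A` in the Gauss ring. -/
theorem s48e_const_mem_gaussF (a : ↥A) : algebraMap L ↥F (a : L) ∈ s48e_gaussF A π F := by
  show ((algebraMap L ↥F (a : L) : ↥F) : LaurentSeries L) ∈ s37r_O A π
  have h : ((algebraMap L ↥F (a : L) : ↥F) : LaurentSeries L) =
      coeffMap A.subtype (HahnSeries.single 0 a) := by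
    rw [coeffMap_single]
    exact algebraMap_laurentSeries_eq_single L (a : L)
  rw [h]
  exact s37r_iota_mem_O A π _

theorem s48e_gaussRed_const (a : ↥A) :
    s48e_gaussRed A π F ⟨algebraMap L ↥F (a : L), s48e_const_mem_gaussF a⟩ =
      algebraMap κ (LaurentSeries κ) (π a) := by
  have h : ((algebraMap L ↥F (a : L) : ↥F) : LaurentSeries L) =
      coeffMap A.subtype (HahnSeries.single 0 a) := by
    rw [coeffMap_single]
    exact algebraMap_laurentSeries_eq_single L (a : L)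
  rw [s48e_gaussRed_eq _ (HahnSeries.single 0 a) 1 (by rw [map_one]; exact one_ne_zero)
    (by rw [map_one, one_mul]; exact h), map_one, div_one, coeffMap_single,
    algebraMap_laurentSeries_eq_single]

set_option maxHeartbeats 800000 in
/-- **the residue automorphism and `s48e_RedCompatQ`**: an `L`-automorphism `e` of `F` preserving the Gauss ring (with
its inverse) induces a `κ`-automorphism `δ` of `Fb` with `δ ∘ red = red ∘ e`, and the pair is Gauss-compatible. -/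
theorem s48e_exists_redCompatQ
    (hsurj : ∀ g : ↥Fb, ∃ y : ↥(s48e_gaussF A π F), s48e_gaussRed A π F y = (g : LaurentSeries κ))
    (hπ : Function.Surjective π) (e : ↥F ≃ₐ[L] ↥F)
    (hst : ∀ y ∈ s48e_gaussF A π F, e y ∈ s48e_gaussF A π F)
    (hst' : ∀ y ∈ s48e_gaussF A π F, e.symm y ∈ s48e_gaussF A π F) :
    ∃ δ : ↥Fb ≃ₐ[κ] ↥Fb,
      (∀ y : ↥(s48e_gaussF A π F),
        δ (s48e_gaussRedFb hredmem y) = s48e_gaussRedFb hredmem ⟨e (y : ↥F), hst _ y.2⟩) ∧
      s48e_RedCompatQ A π F Fb (SemilinearAut.ofAlgAut e) (SemilinearAut.ofAlgAut δ) := by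
  set red := s48e_gaussRedFb hredmem with hred
  have hsurj' : Function.Surjective red := by
    intro g
    obtain ⟨y, hy⟩ := hsurj g
    exact ⟨y, Subtype.ext hy⟩
  set E₁ : ↥F →+* ↥F := (e : ↥F →+* ↥F) with hE₁
  set E₂ : ↥F →+* ↥F := (e.symm : ↥F →+* ↥F) with hE₂
  have hst₁ : ∀ y ∈ s48e_gaussF A π F, E₁ y ∈ s48e_gaussF A π F := hst
  have hst₂ : ∀ y ∈ s48e_gaussF A π F, E₂ y ∈ s48e_gaussF A π F := hst'
  have hker₁ : RingHom.ker red ≤ RingHom.ker (red.comp (s48e_autGauss E₁ hst₁)) := by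
    intro y hy
    rw [RingHom.mem_ker] at hy ⊢
    exact s48e_red_autGauss_eq_zero hredmem E₁ E₂ (fun z => e.symm_apply_apply z) hst₁ hst₂ y hy
  have hker₂ : RingHom.ker red ≤ RingHom.ker (red.comp (s48e_autGauss E₂ hst₂)) := by
    intro y hy
    rw [RingHom.mem_ker] at hy ⊢
    exact s48e_red_autGauss_eq_zero hredmem E₂ E₁ (fun z => e.apply_symm_apply z) hst₂ hst₁ y hy
  set d₁ : ↥Fb →+* ↥Fb := RingHom.liftOfSurjective red hsurj'
    ⟨red.comp (s48e_autGauss E₁ hst₁), hker₁⟩ with hd₁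
  set d₂ : ↥Fb →+* ↥Fb := RingHom.liftOfSurjective red hsurj'
    ⟨red.comp (s48e_autGauss E₂ hst₂), hker₂⟩ with hd₂
  have h₁ : ∀ y, d₁ (red y) = red (s48e_autGauss E₁ hst₁ y) := fun y =>
    RingHom.liftOfRightInverse_comp_apply _ _ _ _ y
  have h₂ : ∀ y, d₂ (red y) = red (s48e_autGauss E₂ hst₂ y) := fun y =>
    RingHom.liftOfRightInverse_comp_apply _ _ _ _ y
  have h12 : ∀ z, d₂ (d₁ z) = z := by
    intro z
    obtain ⟨y, rfl⟩ := hsurj' z
    rw [h₁, h₂]
    congr 1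
    exact Subtype.ext (e.symm_apply_apply _)
  have h21 : ∀ z, d₁ (d₂ z) = z := by
    intro z
    obtain ⟨y, rfl⟩ := hsurj' z
    rw [h₂, h₁]
    congr 1
    exact Subtype.ext (e.apply_symm_apply _)
  set δr : ↥Fb ≃+* ↥Fb := RingEquiv.ofRingHom d₁ d₂ (RingHom.ext h21) (RingHom.ext h12) with hδr
  have hδr_apply : ∀ z, δr z = d₁ z := fun _ => rfl
  have hcomm : ∀ c : κ, δr (algebraMap κ ↥Fb c) = algebraMap κ ↥Fb c := by
    intro c
    obtain ⟨a, rfl⟩ := hπ c
    have hc : red ⟨algebraMap L ↥F (a : L), s48e_const_mem_gaussF a⟩ = algebraMap κ ↥Fb (π a) :=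
      Subtype.ext (s48e_gaussRed_const a)
    rw [hδr_apply, ← hc, h₁]
    congr 1
    exact Subtype.ext (e.commutes _)
  set δ : ↥Fb ≃ₐ[κ] ↥Fb := AlgEquiv.ofRingEquiv (f := δr) hcomm with hδ
  have hδ_apply : ∀ z, δ z = d₁ z := fun _ => rfl
  have key : ∀ y : ↥(s48e_gaussF A π F),
      δ (red y) = red ⟨e (y : ↥F), hst _ y.2⟩ := fun y => by
    rw [hδ_apply, h₁]
    rfl
  refine ⟨δ, key, ?_⟩
  intro Y hY hYk
  set y : ↥(s48e_gaussF A π F) := ⟨⟨coeffMap A.subtype Y, hY⟩, s48e_iota_mem_gaussF Y hY⟩ with hy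
  have hey : e (y : ↥F) ∈ s48e_gaussF A π F := hst _ y.2
  obtain ⟨Z₁, Z₂, hZ2, hZrel⟩ := hey
  have hZrel' : coeffMap A.subtype Z₂ * ((e (y : ↥F) : ↥F) : LaurentSeries L) =
      coeffMap A.subtype Z₁ := hZrel
  refine ⟨Z₁, Z₂, hZ2, hZrel', ?_⟩
  have hredy : red y = ⟨coeffMap π Y, hYk⟩ := Subtype.ext (s48e_gaussRed_iota Y hY)
  have h5 : ((δ (⟨coeffMap π Y, hYk⟩ : ↥Fb) : ↥Fb) : LaurentSeries κ) =
      coeffMap π Z₁ / coeffMap π Z₂ := by
    rw [← hredy, key y]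
    exact s48e_gaussRed_eq ⟨e (y : ↥F), hst _ y.2⟩ Z₁ Z₂ hZ2 hZrel'
  show coeffMap π Z₁ = coeffMap π Z₂ * ((δ (⟨coeffMap π Y, hYk⟩ : ↥Fb) : ↥Fb) : LaurentSeries κ)
  rw [h5, mul_div_cancel₀ _ hZ2]

include hredmem in
/-- **`s48e_RedCompatQ` for an automorphism fixing a subring over which the Gauss ring is integral.** -/
theorem s48e_redCompatQ_of_integral
    (hval : ∀ y : ↥F, y ∈ s48e_gaussF A π F ∨ y⁻¹ ∈ s48e_gaussF A π F)
    (hsurj : ∀ g : ↥Fb, ∃ y : ↥(s48e_gaussF A π F), s48e_gaussRed A π F y = (g : LaurentSeries κ))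
    (hπ : Function.Surjective π)
    (R₀ : Subring ↥F) (hR₀ : R₀ ≤ s48e_gaussF A π F)
    (hint : ∀ y ∈ s48e_gaussF A π F, IsIntegral ↥R₀ y)
    (e : ↥F ≃ₐ[L] ↥F) (he : ∀ c ∈ R₀, e c = c) :
    ∃ δ : ↥Fb ≃ₐ[κ] ↥Fb,
      s48e_RedCompatQ A π F Fb (SemilinearAut.ofAlgAut e) (SemilinearAut.ofAlgAut δ) := by
  have he' : ∀ c ∈ R₀, e.symm c = c := fun c hc => by
    rw [AlgEquiv.symm_apply_eq, he c hc]
  have hst : ∀ y ∈ s48e_gaussF A π F, e y ∈ s48e_gaussF A π F := fun y hy =>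
    s48e_gaussF_aut_mem hval R₀ hR₀ (e : ↥F ≃+* ↥F) he hint y hy
  have hst' : ∀ y ∈ s48e_gaussF A π F, e.symm y ∈ s48e_gaussF A π F := fun y hy =>
    s48e_gaussF_aut_mem hval R₀ hR₀ (e.symm : ↥F ≃+* ↥F) he' hint y hy
  obtain ⟨δ, -, hδ⟩ := s48e_exists_redCompatQ hredmem hsurj hπ e hst hst'
  exact ⟨δ, hδ⟩

end Residue

end

end Fermat.Agent.Lib.S48
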