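/-
S48 (Deligne–Serre), wall [T8] (helper8): GENERIC Eichler–Shimura engine, QUOTIENT form, part 7: INTEGRALITY of the Gauss
ring of a tower over the Gauss ring of its base, and the resulting `s48e_RedCompatQ` for the automorphisms of the top
field fixing the base field.

Everything is stated inside the big ring `B = L((q))`:
* `s48e_gaussS A π F := F ∩ s37r_O A π` (a subring of `B`), `s48e_IntOver A π F₀ F` : every element of `gaussS F` is
  integral over `gaussS F₀`;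
* `s48e_intOver_refl`, `s48e_intOver_trans` : base and transitivity (the tower induction);
* `s48e_intOver_of_layer` : ONE LAYER — if the Gauss ring of `F₂` is helper6's `s48g_O hK = ⊕ O₁ tⁱ` (`GKummer`; this is
  `s48d_q_step_O` of helper7's `DQStep`), then `IntOver F₁ F₂` (`t` is a root of the monic `f ∈ O₁[X]`);
* `s48e_redCompatQ_of_intOver` : if `IntOver F₀ F`, every `L`-automorphism `e` of `F` fixing `F₀` pointwise (e.g. a
  diamond automorphism, `F₀ = modularFunctionFieldBar M`) has a reduction `δ` with `s48e_RedCompatQ (ofAlgAut e) (ofAlgAut δ)`.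
-/
import Fermat.Agent.Lib.S48.EGenQAut
import Fermat.Agent.Lib.S48.GKummer

set_option autoImplicit false
set_option linter.unusedSectionVars false
set_option linter.style.haveILetI false

namespace Fermat.Agent.Lib.S48

open ModularCurve HahnSeries AlgebraicCurve IntermediateField Polynomial Fermat.Agent.Lib.S37

noncomputable section

variable {L : Type*} [Field L] (A : ValuationSubring L) {κ : Type*} [Field κ] (π : ↥A →+* κ)

/-- the Gauss ring of `F`, as a subring of `L((q))`. -/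
def s48e_gaussS (F : IntermediateField L (LaurentSeries L)) : Subring (LaurentSeries L) :=
  F.toSubfield.toSubring ⊓ s37r_O A π

theorem s48e_mem_gaussS_iff (F : IntermediateField L (LaurentSeries L)) (y : LaurentSeries L) :
    y ∈ s48e_gaussS A π F ↔ y ∈ F ∧ y ∈ s37r_O A π := Iff.rfl

/-- the Gauss ring of `F` is integral over the Gauss ring of `F₀`. -/
def s48e_IntOver (F₀ F : IntermediateField L (LaurentSeries L)) : Prop :=
  ∀ y : LaurentSeries L, y ∈ F → y ∈ s37r_O A π → IsIntegral ↥(s48e_gaussS A π F₀) y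

variable {A π}

theorem s48e_intOver_refl (F₀ : IntermediateField L (LaurentSeries L)) :
    s48e_IntOver A π F₀ F₀ := by
  intro y hy hyO
  exact isIntegral_algebraMap (R := ↥(s48e_gaussS A π F₀)) (x := ⟨y, hy, hyO⟩)

theorem s48e_gaussS_mono {F₀ F₁ : IntermediateField L (LaurentSeries L)} (h : F₀ ≤ F₁) :
    s48e_gaussS A π F₀ ≤ s48e_gaussS A π F₁ := fun _ hy => ⟨h hy.1, hy.2⟩

/-- transitivity (the induction step of a tower). -/
theorem s48e_intOver_trans {F₀ F₁ F₂ : IntermediateField L (LaurentSeries L)} (h01 : F₀ ≤ F₁)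
    (IH : s48e_IntOver A π F₀ F₁) (h12 : s48e_IntOver A π F₁ F₂) : s48e_IntOver A π F₀ F₂ := by
  intro y hy hyO
  have hle := s48e_gaussS_mono (A := A) (π := π) h01
  letI : Algebra ↥(s48e_gaussS A π F₀) ↥(s48e_gaussS A π F₁) := (Subring.inclusion hle).toAlgebra
  haveI : IsScalarTower ↥(s48e_gaussS A π F₀) ↥(s48e_gaussS A π F₁) (LaurentSeries L) :=
    IsScalarTower.of_algebraMap_eq fun _ => rfl
  haveI : Algebra.IsIntegral ↥(s48e_gaussS A π F₀) ↥(s48e_gaussS A π F₁) := by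
    refine ⟨fun x => ?_⟩
    have hx := IH (x : LaurentSeries L) x.2.1 x.2.2
    exact (isIntegral_algebraMap_iff (A := ↥(s48e_gaussS A π F₁)) (B := LaurentSeries L)
      Subtype.val_injective).mp hx
  exact isIntegral_trans y (h12 y hy hyO)

/-- **one layer**: if the Gauss ring of `F₂` is `⊕ O₁ tⁱ` for a layer datum over a valuation subring `O₁ ⊆ gaussF F₁`,
then `gaussS F₂` is integral over `gaussS F₁`. -/
theorem s48e_intOver_of_layer {F₁ F₂ : IntermediateField L (LaurentSeries L)}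
    [Algebra ↥F₁ ↥F₂]
    (halg : ∀ x : ↥F₁, ((algebraMap ↥F₁ ↥F₂ x : ↥F₂) : LaurentSeries L) = (x : LaurentSeries L))
    {Fb₁ Fb₂ : Type*} [Field Fb₁] [Field Fb₂] [Algebra Fb₁ Fb₂]
    (O₁ : ValuationSubring ↥F₁) (hO₁ : ∀ c ∈ O₁, ((c : ↥F₁) : LaurentSeries L) ∈ s37r_O A π)
    {red₁ : ↥O₁ →+* Fb₁} {n : ℕ} {b : Module.Basis (Fin n) ↥F₁ ↥F₂} {t : ↥F₂} {f : (↥O₁)[X]}
    {tb : Fb₂} (hK : s48g_LayerData O₁ red₁ b t f tb)
    (hO₂ : ∀ y : ↥F₂, (y : LaurentSeries L) ∈ s37r_O A π → y ∈ s48g_O hK) :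
    s48e_IntOver A π F₁ F₂ := by
  intro y hy hyO
  set φ : ↥O₁ →+* ↥F₂ := (algebraMap ↥F₁ ↥F₂).comp O₁.subtype with hφ
  -- `y` is integral over `O₁` through `φ`
  have hint : φ.IsIntegralElem (⟨y, hy⟩ : ↥F₂) := by
    letI : Algebra ↥O₁ ↥F₂ := φ.toAlgebra
    have ht : IsIntegral ↥O₁ t := ⟨f, hK.monic, hK.root⟩
    obtain ⟨p, hp⟩ : ∃ p : (↥O₁)[X], s48g_ev O₁ t p = (⟨y, hy⟩ : ↥F₂) := hO₂ ⟨y, hy⟩ hyO
    have h1 : (⟨y, hy⟩ : ↥F₂) ∈ Algebra.adjoin ↥O₁ {t} := by
      rw [← hp]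
      exact Polynomial.aeval_mem_adjoin_singleton ↥O₁ t
    exact adjoin_le_integralClosure ht h1
  obtain ⟨g, hg, hgy⟩ := hint
  -- transport to `B`
  set ψ : ↥O₁ →+* ↥(s48e_gaussS A π F₁) :=
    { toFun := fun c => ⟨((c : ↥F₁) : LaurentSeries L), (c : ↥F₁).2, hO₁ _ c.2⟩
      map_one' := rfl
      map_mul' := fun _ _ => rfl
      map_zero' := rfl
      map_add' := fun _ _ => rfl } with hψ
  refine ⟨g.map ψ, hg.map _, ?_⟩
  rw [eval₂_map]
  have h2 := congrArg (F₂.val : ↥F₂ →+* LaurentSeries L) hgy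
  rw [map_zero, Polynomial.hom_eval₂] at h2
  have h3 : ((F₂.val : ↥F₂ →+* LaurentSeries L).comp φ) =
      (algebraMap ↥(s48e_gaussS A π F₁) (LaurentSeries L)).comp ψ :=
    RingHom.ext fun c => halg (c : ↥F₁)
  rw [h3] at h2
  exact h2

/-- **`s48e_RedCompatQ` from integrality over the base**: every `L`-automorphism of `F` fixing `F₀ ≤ F` pointwise has a
reduction `δ` (a `κ`-automorphism of `Fb`) and the pair is Gauss-compatible. -/
theorem s48e_redCompatQ_of_intOver {F₀ F : IntermediateField L (LaurentSeries L)}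
    {Fb : IntermediateField κ (LaurentSeries κ)} (hF₀ : F₀ ≤ F)
    (hint : s48e_IntOver A π F₀ F)
    (hval : ∀ y : ↥F, y ∈ s48e_gaussF A π F ∨ y⁻¹ ∈ s48e_gaussF A π F)
    (hredmem : ∀ y : ↥(s48e_gaussF A π F), s48e_gaussRed A π F y ∈ Fb)
    (hsurj : ∀ g : ↥Fb, ∃ y : ↥(s48e_gaussF A π F), s48e_gaussRed A π F y = (g : LaurentSeries κ))
    (hπ : Function.Surjective π)
    (e : ↥F ≃ₐ[L] ↥F) (he : ∀ x : ↥F, (x : LaurentSeries L) ∈ F₀ → e x = x) :
    ∃ δ : ↥Fb ≃ₐ[κ] ↥Fb,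
      s48e_RedCompatQ A π F Fb (SemilinearAut.ofAlgAut e) (SemilinearAut.ofAlgAut δ) := by
  set R₀ : Subring ↥F := (s48e_gaussS A π F₀).comap (F.val : ↥F →+* LaurentSeries L) with hR₀
  have hR₀le : R₀ ≤ s48e_gaussF A π F := fun x hx => hx.2
  refine s48e_redCompatQ_of_integral hredmem hval hsurj hπ R₀ hR₀le ?_ e (fun c hc => he c hc.1)
  intro y hy
  obtain ⟨g, hg, hgy⟩ := hint (y : LaurentSeries L) y.2 hy
  have hle : ∀ c : ↥(s48e_gaussS A π F₀), (c : LaurentSeries L) ∈ F := fun c => hF₀ c.2.1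
  set ψ : ↥(s48e_gaussS A π F₀) →+* ↥R₀ :=
    { toFun := fun c => ⟨⟨(c : LaurentSeries L), hle c⟩, c.2⟩
      map_one' := rfl
      map_mul' := fun _ _ => rfl
      map_zero' := rfl
      map_add' := fun _ _ => rfl } with hψ
  refine ⟨g.map ψ, hg.map _, ?_⟩
  rw [eval₂_map]
  apply (F.val : ↥F →+* LaurentSeries L).injective
  rw [map_zero, Polynomial.hom_eval₂]
  have h3 : ((F.val : ↥F →+* LaurentSeries L).comp ((algebraMap ↥R₀ ↥F).comp ψ)) =
      algebraMap ↥(s48e_gaussS A π F₀) (LaurentSeries L) := RingHom.ext fun _ => rfl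
  rw [h3]
  exact hgy

end

end Fermat.Agent.Lib.S48
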