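/-
DS-1 (S48), wall [T7] (helper6), brick (F9): a generator of a function field stays a generator in a
finite extension.
-/
import Fermat.Agent.Lib.FF.FFBasicDedekind

set_option autoImplicit false
set_option linter.unusedSectionVars false
set_option linter.style.haveILetI false

noncomputable section

namespace Fermat.Agent.Lib.S48

open Fermat.Agent.Lib.FF IntermediateField

variable {K F₀ F : Type*} [Field K] [Field F₀] [Field F] [Algebra K F₀] [Algebra K F]
  [Algebra F₀ F] [IsScalarTower K F₀ F] [FiniteDimensional F₀ F]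

/-- **a generator of `F₀` is a generator of every finite extension `F` of `F₀`.** -/
theorem s48g_ffGen_algebraMap (w₀ : F₀) [h₀ : FFGen K w₀] : FFGen K (algebraMap F₀ F w₀) := by
  refine ⟨?_, ?_⟩
  · exact (transcendental_algebraMap_iff (algebraMap F₀ F).injective).mpr h₀.transc
  · haveI := h₀.finite
    -- the ring homomorphism `K(w₀) → K(w)`
    have hmem : ∀ e : ↥K⟮w₀⟯, algebraMap F₀ F (e : F₀) ∈ K⟮algebraMap F₀ F w₀⟯ := by
      intro e
      have h1 : (K⟮w₀⟯).map (IsScalarTower.toAlgHom K F₀ F) = K⟮algebraMap F₀ F w₀⟯ := by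
        rw [IntermediateField.adjoin_map, Set.image_singleton]
        rfl
      rw [← h1]
      exact ⟨(e : F₀), e.2, rfl⟩
    let φ : ↥K⟮w₀⟯ →+* ↥K⟮algebraMap F₀ F w₀⟯ :=
      { toFun := fun e => ⟨algebraMap F₀ F (e : F₀), hmem e⟩
        map_one' := Subtype.ext (map_one _)
        map_mul' := fun _ _ => Subtype.ext (map_mul _ _ _)
        map_zero' := Subtype.ext (map_zero _)
        map_add' := fun _ _ => Subtype.ext (map_add _ _ _) }
    letI a1 : Algebra ↥K⟮w₀⟯ ↥K⟮algebraMap F₀ F w₀⟯ := φ.toAlgebra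
    haveI t2 : IsScalarTower ↥K⟮w₀⟯ ↥K⟮algebraMap F₀ F w₀⟯ F :=
      IsScalarTower.of_algebraMap_eq fun _ => rfl
    haveI : Module.Finite ↥K⟮w₀⟯ F := Module.Finite.trans F₀ F
    exact Module.Finite.of_restrictScalars_finite ↥K⟮w₀⟯ ↥K⟮algebraMap F₀ F w₀⟯ F

end Fermat.Agent.Lib.S48
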