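/-
DS-1 (S48), (D2) support (helper1, prefix `s48a_`): **uniqueness of the Gauss extension in an
unramified monogenic layer, and the automorphism induced on the residue field.**

Setting of helper6's `GKummer` (`hK : s48g_LayerData O₀ red₀ b t f tb`, `O = s48g_O hK = ⊕ O₀ tⁱ`):
* `s48a_O_unique`   : a valuation subring `O'` of `F` with `O' ∩ F₀ = O₀` equals `O`;
* `s48a_aut_mem_O`  : every `e : F ≃ₐ[F₀] F` preserves `O`;
* `s48a_exists_residue_aut` : if `red` is onto, `e` induces `δ : Fb ≃+* Fb` with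
  `δ (red y) = red (e y)`; `δ` fixes the image of `Fb₀` when `red₀` is onto.
(Consequence for the diamond operators of the layer `F_H/F̄₀(M)`: the Gauss ring is `⟨d⟩`-stable and
`⟨d⟩` descends to the residue field — at the level of VALUATION RINGS, not of integral `q`-series.)
Mathlib only (on top of `GKummer`).
-/
import Fermat.Agent.Lib.S48.GKummer

set_option autoImplicit false
set_option linter.unusedSectionVars false

noncomputable section

namespace Fermat.Agent.Lib.S48

open Polynomial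

variable {F₀ F : Type*} [Field F₀] [Field F] [Algebra F₀ F]
  {Fb₀ Fb : Type*} [Field Fb₀] [Field Fb] [Algebra Fb₀ Fb]
  {O₀ : ValuationSubring F₀} {red₀ : ↥O₀ →+* Fb₀} {n : ℕ}
  {b : Module.Basis (Fin n) F₀ F} {t : F} {f : (↥O₀)[X]} {tb : Fb}
  (hK : s48g_LayerData O₀ red₀ b t f tb)

include hK

/-- `t` lies in every valuation subring containing `O₀`. -/
theorem s48a_t_mem_of_le (O' : ValuationSubring F)
    (h0 : ∀ c : F₀, c ∈ O₀ → algebraMap F₀ F c ∈ O') : t ∈ O' := by
  by_contra ht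
  have ht0 : t ≠ 0 := fun h => ht (h ▸ O'.zero_mem)
  have hv : 1 < O'.valuation t := by
    rw [← not_le, ValuationSubring.valuation_le_one_iff]
    exact ht
  -- `t ^ n = - ∑_{i<n} c_i t^i`
  have hroot := hK.root
  have hn := s48g_n_pos hK
  have hsum : f = X ^ n + ∑ i ∈ Finset.range n, C (f.coeff i) * X ^ i := by
    have := hK.monic.as_sum
    rw [hK.natDegree] at this
    exact this
  have hev : t ^ n + ∑ i ∈ Finset.range n, algebraMap F₀ F ((f.coeff i : ↥O₀) : F₀) * t ^ i = 0 := by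
    have h1 := hroot
    rw [hsum] at h1
    simpa [s48g_ev, eval₂_add, eval₂_pow, eval₂_finset_sum, eval₂_mul] using h1
  have hlt : O'.valuation (∑ i ∈ Finset.range n,
      algebraMap F₀ F ((f.coeff i : ↥O₀) : F₀) * t ^ i) < O'.valuation (t ^ n) := by
    refine Valuation.map_sum_lt _ ?_ fun i hi => ?_
    · rw [map_pow]
      exact pow_ne_zero _ ((Valuation.ne_zero_iff _).mpr ht0)
    · rw [map_mul, map_pow, map_pow]
      have hc : O'.valuation (algebraMap F₀ F ((f.coeff i : ↥O₀) : F₀)) ≤ 1 :=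
        (ValuationSubring.valuation_le_one_iff _ _).mpr (h0 _ (f.coeff i).2)
      have hi' : i < n := Finset.mem_range.mp hi
      calc O'.valuation (algebraMap F₀ F ((f.coeff i : ↥O₀) : F₀)) * O'.valuation t ^ i
          ≤ 1 * O'.valuation t ^ i := by gcongr
        _ = O'.valuation t ^ i := one_mul _
        _ < O'.valuation t ^ n := pow_lt_pow_right₀ hv hi'
  have h2 : t ^ n = -∑ i ∈ Finset.range n,
      algebraMap F₀ F ((f.coeff i : ↥O₀) : F₀) * t ^ i := eq_neg_of_add_eq_zero_left hev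
  rw [h2, Valuation.map_neg] at hlt
  exact lt_irrefl _ hlt

/-- **uniqueness of the Gauss extension**: a valuation subring of `F` meeting `F₀` in `O₀` is `O`. -/
theorem s48a_O_unique (O' : ValuationSubring F)
    (h0 : ∀ c : F₀, algebraMap F₀ F c ∈ O' ↔ c ∈ O₀) : O' = s48g_O hK := by
  have htO' : t ∈ O' := s48a_t_mem_of_le hK O' fun c hc => (h0 c).mpr hc
  have hle : s48g_O hK ≤ O' := by
    intro y hy
    have hy' := (s48g_mem_O_iff hK y).mp hy
    rw [← b.sum_repr y]
    refine O'.toSubring.sum_mem fun i _ => ?_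
    rw [hK.basis, Algebra.smul_def]
    exact O'.mul_mem _ _ ((h0 _).mpr (hy' i)) (pow_mem htO' _)
  refine le_antisymm ?_ hle
  intro y hy
  by_contra hyO
  have hy0 : y ≠ 0 := fun h => hyO (h ▸ (s48g_O hK).zero_mem)
  have hyinv : y⁻¹ ∈ s48g_O hK := by
    rcases (s48g_O hK).mem_or_inv_mem y with h | h
    · exact absurd h hyO
    · exact h
  have hred : s48g_red hK ⟨y⁻¹, hyinv⟩ = 0 := by
    by_contra hne
    have := s48g_inv_mem hK ⟨y⁻¹, hyinv⟩ hne
    rw [inv_inv] at this
    exact hyO this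
  have hcoord := (s48g_red_eq_zero_iff hK ⟨y⁻¹, hyinv⟩).mp hred
  have hcmem := (s48g_mem_O_iff hK _).mp hyinv
  -- each coordinate has valuation `< 1` in `O'`
  have hclt : ∀ i, O'.valuation (algebraMap F₀ F (b.repr y⁻¹ i)) < 1 := by
    intro i
    by_cases hc0 : b.repr y⁻¹ i = 0
    · rw [hc0, map_zero, map_zero]
      exact zero_lt_one
    · rw [← not_le]
      intro hge
      -- then the inverse lies in `O'`, hence in `O₀`
      have h1 : (algebraMap F₀ F (b.repr y⁻¹ i))⁻¹ ∈ O' := by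
        rw [← ValuationSubring.valuation_le_one_iff, map_inv₀]
        exact inv_le_one_of_one_le₀ hge
      rw [← map_inv₀] at h1
      have h2 : (b.repr y⁻¹ i)⁻¹ ∈ O₀ := (h0 _).mp h1
      have h3 : (⟨b.repr y⁻¹ i, hcmem i⟩ : ↥O₀) * ⟨(b.repr y⁻¹ i)⁻¹, h2⟩ = 1 :=
        Subtype.ext (mul_inv_cancel₀ hc0)
      have h4 := congrArg red₀ h3
      rw [map_mul, hcoord i, zero_mul, map_one] at h4
      exact zero_ne_one h4
  have hlt : O'.valuation y⁻¹ < 1 := by
    rw [← b.sum_repr y⁻¹]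
    refine Valuation.map_sum_lt _ one_ne_zero fun i _ => ?_
    rw [hK.basis, Algebra.smul_def, map_mul, map_pow]
    have ht1 : O'.valuation t ≤ 1 := (ValuationSubring.valuation_le_one_iff _ _).mpr htO'
    calc O'.valuation (algebraMap F₀ F (b.repr y⁻¹ i)) * O'.valuation t ^ (i : ℕ)
        ≤ O'.valuation (algebraMap F₀ F (b.repr y⁻¹ i)) * 1 := by
          gcongr
          exact pow_le_one₀ zero_le ht1
      _ = O'.valuation (algebraMap F₀ F (b.repr y⁻¹ i)) := mul_one _
      _ < 1 := hclt i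
  have hy1 : O'.valuation y ≤ 1 := (ValuationSubring.valuation_le_one_iff _ _).mpr hy
  have hmul : O'.valuation y * O'.valuation y⁻¹ = 1 := by
    rw [← map_mul, mul_inv_cancel₀ hy0, map_one]
  have : O'.valuation y * O'.valuation y⁻¹ < 1 := by
    calc O'.valuation y * O'.valuation y⁻¹ ≤ 1 * O'.valuation y⁻¹ := by gcongr
      _ = O'.valuation y⁻¹ := one_mul _
      _ < 1 := hlt
  rw [hmul] at this
  exact lt_irrefl _ this

/-- **every `F₀`-automorphism of `F` preserves the Gauss ring.** -/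
theorem s48a_aut_mem_O (e : F ≃ₐ[F₀] F) (y : F) : e y ∈ s48g_O hK ↔ y ∈ s48g_O hK := by
  have h := s48a_O_unique hK ((s48g_O hK).comap (e : F →+* F)) (fun c => by
    rw [ValuationSubring.mem_comap]
    show e (algebraMap F₀ F c) ∈ s48g_O hK ↔ c ∈ O₀
    rw [e.commutes]
    exact s48g_algebraMap_mem_O_iff hK c)
  have h2 : y ∈ (s48g_O hK).comap (e : F →+* F) ↔ y ∈ s48g_O hK := by rw [h]
  rw [ValuationSubring.mem_comap] at h2
  exact h2

/-- the restriction of an `F₀`-automorphism to the Gauss ring. -/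
def s48a_autO (e : F ≃ₐ[F₀] F) : ↥(s48g_O hK) →+* ↥(s48g_O hK) where
  toFun y := ⟨e (y : F), (s48a_aut_mem_O hK e _).mpr y.2⟩
  map_one' := Subtype.ext (map_one e)
  map_mul' _ _ := Subtype.ext (map_mul e _ _)
  map_zero' := Subtype.ext (map_zero e)
  map_add' _ _ := Subtype.ext (map_add e _ _)

theorem s48a_coe_autO (e : F ≃ₐ[F₀] F) (y : ↥(s48g_O hK)) :
    ((s48a_autO hK e y : ↥(s48g_O hK)) : F) = e (y : F) := rfl

/-- an `F₀`-automorphism preserves the kernel of the reduction. -/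
theorem s48a_red_autO_eq_zero (e : F ≃ₐ[F₀] F) (y : ↥(s48g_O hK)) (hy : s48g_red hK y = 0) :
    s48g_red hK (s48a_autO hK e y) = 0 := by
  by_contra hne
  have h1 := s48g_inv_mem hK _ hne
  rw [s48a_coe_autO, ← map_inv₀, s48a_aut_mem_O hK e] at h1
  have hy0 : (y : F) ≠ 0 := by
    intro h0
    apply hne
    have : s48a_autO hK e y = 0 := Subtype.ext (by rw [s48a_coe_autO, h0, map_zero]; rfl)
    rw [this, map_zero]
  have h2 : y * ⟨((y : F))⁻¹, h1⟩ = 1 := Subtype.ext (mul_inv_cancel₀ hy0)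
  have h3 := congrArg (s48g_red hK) h2
  rw [map_mul, hy, zero_mul, map_one] at h3
  exact zero_ne_one h3

/-- **the automorphism of the residue field induced by an `F₀`-automorphism of `F`.** -/
theorem s48a_exists_residue_aut (hsurj : Function.Surjective (s48g_red hK)) (e : F ≃ₐ[F₀] F) :
    ∃ δ : Fb ≃+* Fb, (∀ y : ↥(s48g_O hK), δ (s48g_red hK y) = s48g_red hK (s48a_autO hK e y)) ∧
      ∀ c : ↥O₀, δ (algebraMap Fb₀ Fb (red₀ c)) = algebraMap Fb₀ Fb (red₀ c) := by
  -- the two ring homomorphisms `Fb → Fb`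
  have hker : ∀ e' : F ≃ₐ[F₀] F,
      RingHom.ker (s48g_red hK) ≤ RingHom.ker ((s48g_red hK).comp (s48a_autO hK e')) := by
    intro e' y hy
    rw [RingHom.mem_ker] at hy ⊢
    exact s48a_red_autO_eq_zero hK e' y hy
  set d₁ : Fb →+* Fb := RingHom.liftOfSurjective (s48g_red hK) hsurj
    ⟨(s48g_red hK).comp (s48a_autO hK e), hker e⟩ with hd₁
  set d₂ : Fb →+* Fb := RingHom.liftOfSurjective (s48g_red hK) hsurj
    ⟨(s48g_red hK).comp (s48a_autO hK e.symm), hker e.symm⟩ with hd₂
  have h₁ : ∀ y, d₁ (s48g_red hK y) = s48g_red hK (s48a_autO hK e y) := fun y =>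
    RingHom.liftOfRightInverse_comp_apply _ _ _ _ y
  have h₂ : ∀ y, d₂ (s48g_red hK y) = s48g_red hK (s48a_autO hK e.symm y) := fun y =>
    RingHom.liftOfRightInverse_comp_apply _ _ _ _ y
  have h12 : ∀ z, d₂ (d₁ z) = z := by
    intro z
    obtain ⟨y, rfl⟩ := hsurj z
    rw [h₁, h₂]
    congr 1
    exact Subtype.ext (e.symm_apply_apply _)
  have h21 : ∀ z, d₁ (d₂ z) = z := by
    intro z
    obtain ⟨y, rfl⟩ := hsurj z
    rw [h₂, h₁]
    congr 1
    exact Subtype.ext (e.apply_symm_apply _)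
  refine ⟨RingEquiv.ofRingHom d₁ d₂ (RingHom.ext h21) (RingHom.ext h12), h₁, fun c => ?_⟩
  show d₁ _ = _
  rw [← s48g_red_algebraMap hK c, h₁]
  congr 1
  exact Subtype.ext (e.commutes _)

end Fermat.Agent.Lib.S48
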