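/-
DS-1 (S48), wall [T7] (helper6), brick (F5): **irreducibility of the reduced layer polynomial at a
finite level from the top level**, and the layer datum built from an irreducible reduction.

* `s48g_exists_residue_embedding` : a ring homomorphism `i : F₁ → F₂` mapping a valuation ring `O₁`
  (with surjective reduction `red₁`) into `O₂`, and `ker red₁` into `ker red₂`, induces an embedding
  of the residue fields `ε` with `ε ∘ red₁ = red₂ ∘ i`;
* `s48g_layerData_irreducible`    : in a layer datum the reduced polynomial is irreducible;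
* `s48g_irreducible_of_embedding` : irreducibility descends along `ε`;
* `s48g_layerData_of_irreducible` : the layer datum with `Fb = AdjoinRoot f̄`, `tb = root`;
  `s48g_adjoinRoot_basis` its power basis.
-/
import Fermat.Agent.Lib.S48.GKummer

set_option autoImplicit false
set_option linter.unusedSectionVars false
set_option linter.style.haveILetI false

noncomputable section

namespace Fermat.Agent.Lib.S48

open Polynomial

section Embed

variable {F₁ F₂ : Type*} [Field F₁] [Field F₂] {Fb₁ Fb₂ : Type*} [Field Fb₁] [Field Fb₂]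

/-- **the induced embedding of residue fields.** -/
theorem s48g_exists_residue_embedding (O₁ : ValuationSubring F₁) (red₁ : ↥O₁ →+* Fb₁)
    (hsurj : Function.Surjective red₁) (O₂ : ValuationSubring F₂) (red₂ : ↥O₂ →+* Fb₂)
    (i : F₁ →+* F₂) (hi : ∀ y ∈ O₁, i y ∈ O₂)
    (hker : ∀ y : ↥O₁, red₁ y = 0 → red₂ ⟨i (y : F₁), hi _ y.2⟩ = 0) :
    ∃ ε : Fb₁ →+* Fb₂, ∀ y : ↥O₁, ε (red₁ y) = red₂ ⟨i (y : F₁), hi _ y.2⟩ := by
  let i' : ↥O₁ →+* ↥O₂ :=
    { toFun := fun y => ⟨i (y : F₁), hi _ y.2⟩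
      map_one' := Subtype.ext (map_one i)
      map_mul' := fun x y => Subtype.ext (map_mul i _ _)
      map_zero' := Subtype.ext (map_zero i)
      map_add' := fun x y => Subtype.ext (map_add i _ _) }
  let g : ↥O₁ →+* Fb₂ := red₂.comp i'
  have hg : RingHom.ker red₁ ≤ RingHom.ker g := by
    intro y hy
    rw [RingHom.mem_ker] at hy ⊢
    exact hker y hy
  refine ⟨red₁.liftOfSurjective hsurj ⟨g, hg⟩, fun y => ?_⟩
  exact RingHom.liftOfSurjective_comp_apply red₁ hsurj ⟨g, hg⟩ y

/-- irreducibility of a monic polynomial descends along a field embedding. -/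
theorem s48g_irreducible_of_embedding (ε : Fb₁ →+* Fb₂) (p : Fb₁[X]) (hp : p.Monic)
    (h : Irreducible (p.map ε)) : Irreducible p :=
  Polynomial.Monic.irreducible_of_irreducible_map ε p hp h

end Embed

variable {F₀ F : Type*} [Field F₀] [Field F] [Algebra F₀ F]
  {Fb₀ : Type*} [Field Fb₀]

section Irr

variable {Fb : Type*} [Field Fb] [Algebra Fb₀ Fb]
  {O₀ : ValuationSubring F₀} {red₀ : ↥O₀ →+* Fb₀} {n : ℕ}
  {b : Module.Basis (Fin n) F₀ F} {t : F} {f : (↥O₀)[X]} {tb : Fb}
  (hK : s48g_LayerData O₀ red₀ b t f tb)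

include hK

theorem s48g_layerData_map_monic : (f.map red₀).Monic := hK.monic.map red₀

theorem s48g_layerData_map_natDegree : (f.map red₀).natDegree = n := by
  rw [hK.monic.natDegree_map, hK.natDegree]

theorem s48g_layerData_aeval_tb : aeval tb (f.map red₀) = 0 := by
  have := hK.rootb
  rw [aeval_def, eval₂_map]
  exact this

/-- **in a layer datum the reduced polynomial is irreducible** (it is the minimal polynomial of
`tb`). -/
theorem s48g_layerData_irreducible : Irreducible (f.map red₀) := by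
  have hmonic := s48g_layerData_map_monic hK
  have hdeg := s48g_layerData_map_natDegree hK
  have hroot := s48g_layerData_aeval_tb hK
  have hint : IsIntegral Fb₀ tb := ⟨f.map red₀, hmonic, by rw [← aeval_def]; exact hroot⟩
  have hdvd : minpoly Fb₀ tb ∣ f.map red₀ := minpoly.dvd Fb₀ tb hroot
  -- the degree of the minimal polynomial is at least `n`
  have hle : n ≤ (minpoly Fb₀ tb).natDegree := by
    by_contra hlt
    push Not at hlt
    have hm0 : minpoly Fb₀ tb ≠ 0 := minpoly.ne_zero hint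
    have h0 : aeval tb (minpoly Fb₀ tb) = 0 := minpoly.aeval Fb₀ tb
    rw [aeval_eq_sum_range' hlt] at h0
    have h1 : ∑ i : Fin n, (minpoly Fb₀ tb).coeff (i : ℕ) • tb ^ (i : ℕ) = 0 := by
      rw [← h0, Finset.sum_range]
    have h2 := Fintype.linearIndependent_iff.mp hK.indep
      (fun i : Fin n => (minpoly Fb₀ tb).coeff (i : ℕ)) h1
    apply hm0
    ext k
    rw [coeff_zero]
    by_cases hk : k < n
    · exact h2 ⟨k, hk⟩
    · exact coeff_eq_zero_of_natDegree_lt (lt_of_lt_of_le hlt (not_lt.mp hk))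
  have heq : f.map red₀ = minpoly Fb₀ tb :=
    eq_of_monic_of_dvd_of_natDegree_le (minpoly.monic hint) hmonic hdvd (hdeg ▸ hle)
  rw [heq]
  exact minpoly.irreducible hint

end Irr

section Adjoin

variable {O₀ : ValuationSubring F₀} {red₀ : ↥O₀ →+* Fb₀} {n : ℕ}

/-- the power basis of `AdjoinRoot f̄`, indexed by `Fin n`. -/
def s48g_adjoinRoot_basis (f : (↥O₀)[X]) (hmonic : f.Monic) (hdeg : f.natDegree = n) :
    Module.Basis (Fin n) Fb₀ (AdjoinRoot (f.map red₀)) :=
  (AdjoinRoot.powerBasis' (hmonic.map red₀)).basis.reindex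
    (finCongr (by
      show (f.map red₀).natDegree = n
      rw [hmonic.natDegree_map, hdeg]))

theorem s48g_adjoinRoot_basis_apply (f : (↥O₀)[X]) (hmonic : f.Monic) (hdeg : f.natDegree = n)
    (i : Fin n) :
    s48g_adjoinRoot_basis (red₀ := red₀) f hmonic hdeg i = AdjoinRoot.root (f.map red₀) ^ (i : ℕ) := by
  rw [s48g_adjoinRoot_basis, Module.Basis.reindex_apply, PowerBasis.basis_eq_pow]
  rfl

/-- **the layer datum with `Fb = AdjoinRoot f̄`.** -/
theorem s48g_layerData_of_irreducible (b : Module.Basis (Fin n) F₀ F) (t : F) (f : (↥O₀)[X])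
    [Fact (Irreducible (f.map red₀))]
    (inv₀ : ∀ y : ↥O₀, red₀ y ≠ 0 → ((y : F₀))⁻¹ ∈ O₀)
    (basis : ∀ i : Fin n, b i = t ^ (i : ℕ))
    (monic : f.Monic) (natDegree : f.natDegree = n) (root : s48g_ev O₀ t f = 0) :
    s48g_LayerData O₀ red₀ b t f (AdjoinRoot.root (f.map red₀)) where
  inv₀ := inv₀
  basis := basis
  monic := monic
  natDegree := natDegree
  root := root
  rootb := by
    show eval₂ ((algebraMap Fb₀ (AdjoinRoot (f.map red₀))).comp red₀)
      (AdjoinRoot.root (f.map red₀)) f = 0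
    rw [← eval₂_map, AdjoinRoot.algebraMap_eq]
    exact AdjoinRoot.eval₂_root _
  indep := by
    have h1 := (s48g_adjoinRoot_basis (red₀ := red₀) f monic natDegree).linearIndependent
    have h2 : (fun i : Fin n => AdjoinRoot.root (f.map red₀) ^ (i : ℕ)) =
        ⇑(s48g_adjoinRoot_basis (red₀ := red₀) f monic natDegree) := by
      funext i
      exact (s48g_adjoinRoot_basis_apply f monic natDegree i).symm
    rw [h2]
    exact h1

end Adjoin

section Top

variable {F₁ F₂ : Type*} [Field F₁] [Field F₂] {Fb₁ Fb₂ : Type*} [Field Fb₁] [Field Fb₂]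

/-- **irreducibility of the reduced layer polynomial descends from the top level to a finite
level**: `i : F₁ → F₂` maps the Gauss ring `O₁` (surjective reduction `red₁`) into `O₂` and
`ker red₁` into `ker red₂`; `f₂` is the image of the monic polynomial `f₁`. -/
theorem s48g_irreducible_of_top (O₁ : ValuationSubring F₁) (red₁ : ↥O₁ →+* Fb₁)
    (hsurj : Function.Surjective red₁) (O₂ : ValuationSubring F₂) (red₂ : ↥O₂ →+* Fb₂)
    (i : F₁ →+* F₂) (hi : ∀ y ∈ O₁, i y ∈ O₂)
    (hker : ∀ y : ↥O₁, red₁ y = 0 → red₂ ⟨i (y : F₁), hi _ y.2⟩ = 0)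
    (f₁ : (↥O₁)[X]) (hmonic : f₁.Monic) (f₂ : (↥O₂)[X])
    (hf : ∀ k : ℕ, ((f₂.coeff k : ↥O₂) : F₂) = i ((f₁.coeff k : ↥O₁) : F₁))
    (hirr : Irreducible (f₂.map red₂)) : Irreducible (f₁.map red₁) := by
  obtain ⟨ε, hε⟩ := s48g_exists_residue_embedding O₁ red₁ hsurj O₂ red₂ i hi hker
  refine s48g_irreducible_of_embedding ε _ (hmonic.map red₁) ?_
  have : (f₁.map red₁).map ε = f₂.map red₂ := by
    ext k
    rw [coeff_map, coeff_map, coeff_map, hε]
    congr 1
    exact Subtype.ext (hf k).symm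
  rw [this]
  exact hirr

/-- the Kummer case of `s48g_irreducible_of_top`. -/
theorem s48g_kummer_irreducible_of_top (O₁ : ValuationSubring F₁) (red₁ : ↥O₁ →+* Fb₁)
    (hsurj : Function.Surjective red₁) (O₂ : ValuationSubring F₂) (red₂ : ↥O₂ →+* Fb₂)
    (i : F₁ →+* F₂) (hi : ∀ y ∈ O₁, i y ∈ O₂)
    (hker : ∀ y : ↥O₁, red₁ y = 0 → red₂ ⟨i (y : F₁), hi _ y.2⟩ = 0)
    (n : ℕ) (hn : n ≠ 0) (h₁ : F₁) (hh₁ : h₁ ∈ O₁) (h₂ : F₂) (hh₂ : h₂ ∈ O₂) (h12 : i h₁ = h₂)
    (hirr : Irreducible (X ^ n - C (red₂ ⟨h₂, hh₂⟩))) :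
    Irreducible (X ^ n - C (red₁ ⟨h₁, hh₁⟩)) := by
  have h := s48g_irreducible_of_top O₁ red₁ hsurj O₂ red₂ i hi hker
    (X ^ n - C (⟨h₁, hh₁⟩ : ↥O₁)) (monic_X_pow_sub_C _ hn) (X ^ n - C (⟨h₂, hh₂⟩ : ↥O₂))
    (fun k => by
      rw [coeff_sub, coeff_sub, coeff_X_pow, coeff_X_pow, coeff_C, coeff_C]
      by_cases hk : k = n
      · have hk0 : k ≠ 0 := fun h0 => hn (hk ▸ h0)
        rw [if_pos hk, if_pos hk, if_neg hk0, if_neg hk0]
        simp
      · rw [if_neg hk, if_neg hk]
        by_cases hk0 : k = 0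
        · rw [if_pos hk0, if_pos hk0]
          simp [h12]
        · rw [if_neg hk0, if_neg hk0]
          simp)
    (by
      rw [Polynomial.map_sub, Polynomial.map_pow, map_X, map_C]
      exact hirr)
  rw [Polynomial.map_sub, Polynomial.map_pow, map_X, map_C] at h
  exact h

end Top

end Fermat.Agent.Lib.S48
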