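/-
DS-1 (S48), wall [T7] (helper6), brick (F1): **the finite-level chart contract** `s48g_FinChart`
(abstract: `K` a number field, `A₀` a discrete valuation ring of `K` with uniformiser `ϖ`, `F` a
function field over `K`, `O` the Gauss ring, `w` a coordinate), and the geometric inputs
`s18_GeoInputs` (landed, `Lib/S18/XGeo`) from the contract on both charts `w`, `w⁻¹`.

No `q`-expansions: the contract is stated for an abstract valuation ring `O` of `F` with a reduction
map `red : O → Fb` onto a field, with kernel `ϖ O`.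
-/
import Fermat.Agent.Lib.S18.FGeoB
import Fermat.Agent.Lib.S18.SChartA

set_option autoImplicit false
set_option linter.unusedSectionVars false
set_option linter.style.haveILetI false

noncomputable section

namespace Fermat.Agent.Lib.S48

open AlgebraicCurve IsDedekindDomain Fermat.Agent.Lib.FF Fermat.Agent.Lib.S18 Polynomial

variable {K F : Type*} [Field K] [Field F] [Algebra K F]

/-- **the finite-level chart contract** for the coordinate `w`. -/
structure s48g_FinChart (A₀ : ValuationSubring K) (ϖ : ↥A₀) (O : ValuationSubring F) (w : F)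
    {Fb : Type*} [Field Fb] (red : ↥O →+* Fb) {D : Type*} [CommRing D] [Algebra D Fb]
    (ψ : ↥(s18_ring O (s18_chart1 (L₀ := K) w)) →+* D) : Prop where
  const_mem : ∀ a : ↥A₀, algebraMap K F (a : K) ∈ O
  unif_ne_zero : (ϖ : K) ≠ 0
  /-- (U): `ϖ` is a uniformiser of `O`. -/
  U : ∀ u : F, u ∈ O → u ≠ 0 → ∃ (k : ℕ) (v : F), v ∈ O ∧ v⁻¹ ∈ O ∧
    u = algebraMap K F (ϖ : K) ^ k * v
  w_mem : w ∈ O
  red_surj : Function.Surjective red
  ker : ∀ y : ↥O, red y = 0 ↔ ∃ z ∈ O, (y : F) = algebraMap K F (ϖ : K) * z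
  psi_surj : Function.Surjective ψ
  psi_eq : ∀ r : ↥(s18_ring O (s18_chart1 (L₀ := K) w)),
    algebraMap D Fb (ψ r) = red ⟨(r : F), r.2.1⟩
  /-- the chart ring is integral over `A₀[w]`. -/
  int : ∀ y ∈ s18_ring O (s18_chart1 (L₀ := K) w), (s18b_evA ↥A₀ K w).IsIntegralElem y

section Basic

variable {A₀ : ValuationSubring K} {ϖ : ↥A₀} {O : ValuationSubring F} {w : F}
  {Fb : Type*} [Field Fb] {red : ↥O →+* Fb} {D : Type*} [CommRing D] [Algebra D Fb]
  {ψ : ↥(s18_ring O (s18_chart1 (L₀ := K) w)) →+* D}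
  (h : s48g_FinChart A₀ ϖ O w red ψ)

include h

theorem s48g_fin_red_unif : red ⟨algebraMap K F (ϖ : K), h.const_mem ϖ⟩ = 0 :=
  (h.ker _).mpr ⟨1, O.one_mem, (mul_one _).symm⟩

/-- the uniformiser is not a unit of `O`. -/
theorem s48g_fin_unif_not_unit : ¬ ∃ y ∈ O, (1 : F) = algebraMap K F (ϖ : K) * y := by
  rintro ⟨y, hy, e⟩
  have h1 : red (1 : ↥O) = 0 := (h.ker 1).mpr ⟨y, hy, e⟩
  rw [map_one] at h1
  exact one_ne_zero h1

/-- elements with nonzero reduction are units of `O`. -/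
theorem s48g_fin_inv_mem (y : ↥O) (hy : red y ≠ 0) : ((y : F))⁻¹ ∈ O := by
  have hy0 : (y : F) ≠ 0 := by
    intro h0
    apply hy
    have : y = 0 := Subtype.ext h0
    rw [this, map_zero]
  obtain ⟨k, v, hv, hvinv, e⟩ := h.U (y : F) y.2 hy0
  rcases Nat.eq_zero_or_pos k with hk | hk
  · rw [hk, pow_zero, one_mul] at e
    rw [e]
    exact hvinv
  · exfalso
    apply hy
    refine (h.ker y).mpr ⟨algebraMap K F (ϖ : K) ^ (k - 1) * v,
      O.mul_mem _ _ (pow_mem (h.const_mem ϖ) _) hv, ?_⟩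
    rw [e, ← mul_assoc, ← pow_succ', Nat.sub_add_cancel hk]

/-- the kernel of `ψ`. -/
theorem s48g_fin_psi_eq_zero_iff [FaithfulSMul D Fb]
    (r : ↥(s18_ring O (s18_chart1 (L₀ := K) w))) :
    ψ r = 0 ↔ red ⟨(r : F), r.2.1⟩ = 0 := by
  rw [← h.psi_eq r]
  constructor
  · intro h0
    rw [h0, map_zero]
  · intro h0
    exact (FaithfulSMul.algebraMap_injective D Fb) (h0.trans (map_zero _).symm)

theorem s48g_fin_hker [FaithfulSMul D Fb] :
    RingHom.ker ψ = Ideal.span {s18i_const O (s18_chart1 (L₀ := K) w) (ϖ : K) (h.const_mem ϖ)} := by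
  ext r
  rw [RingHom.mem_ker, Ideal.mem_span_singleton, s48g_fin_psi_eq_zero_iff h r]
  constructor
  · intro h0
    obtain ⟨z, hz, e⟩ := (h.ker _).mp h0
    have hr' : (r : F) ∈ s18_latSet O (s18_chart1 (L₀ := K) w) (fun _ => 0) := by
      rw [← s18_ringSet_eq_latSet_zero]
      exact r.2
    have hz' := s18_lat_pure O (s18_chart1 (L₀ := K) w) (fun _ => 0) (ϖ : K) h.unif_ne_zero hr' hz e
    rw [← s18_ringSet_eq_latSet_zero] at hz'
    exact ⟨⟨z, hz'⟩, Subtype.ext e⟩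
  · rintro ⟨c, rfl⟩
    refine (h.ker _).mpr ⟨(c : F), c.2.1, ?_⟩
    rfl

theorem s48g_fin_hroot [IsDomain D] [IsIntegrallyClosed D] [IsFractionRing D Fb] (m : ℕ)
    (hm : m ≠ 0) :
    ∀ x ∈ O, ∀ b ∈ s18_ring O (s18_chart1 (L₀ := K) w),
      (∃ y ∈ O, x ^ m - b = algebraMap K F (ϖ : K) * y) →
        ∃ b' ∈ s18_ring O (s18_chart1 (L₀ := K) w),
          ∃ y ∈ O, x - b' = algebraMap K F (ϖ : K) * y := by
  intro x hx b hb ⟨y, hy, hxy⟩
  have hpow : red ⟨x, hx⟩ ^ m = red ⟨b, hb.1⟩ := by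
    rw [← map_pow, ← sub_eq_zero, ← map_sub]
    exact (h.ker _).mpr ⟨y, hy, hxy⟩
  have hxint : IsIntegral D (red ⟨x, hx⟩) := by
    refine IsIntegral.of_pow (Nat.pos_of_ne_zero hm) ?_
    rw [hpow, ← h.psi_eq ⟨b, hb⟩]
    exact isIntegral_algebraMap
  obtain ⟨d, hd⟩ := (IsIntegrallyClosed.isIntegral_iff (R := D) (K := Fb)).mp hxint
  obtain ⟨b', rfl⟩ := h.psi_surj d
  refine ⟨(b' : F), b'.2, ?_⟩
  have h0 : red (⟨x, hx⟩ - ⟨(b' : F), b'.2.1⟩) = 0 := by
    rw [map_sub, ← hd, h.psi_eq b', sub_self]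
  exact (h.ker _).mp h0

end Basic

section Noeth

variable [CharZero K] (A₀ : ValuationSubring K) [IsDiscreteValuationRing ↥A₀] (w : F) [FFGen K w]

/-- The integral closure of `A₀[w]` in `F` is a noetherian `A₀[X]`-module (abstract form of the
landed `s18b_isNoetherian_integralClosure`). -/
theorem s48g_fin_isNoetherian_integralClosure :
    letI : Algebra (↥A₀)[X] F := (s18b_evA ↥A₀ K w).toAlgebra
    IsNoetherian (↥A₀)[X] (integralClosure (↥A₀)[X] F) := by
  letI alg : Algebra (↥A₀)[X] F := (s18b_evA ↥A₀ K w).toAlgebra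
  have hinj : Function.Injective (algebraMap (↥A₀)[X] F) :=
    s18b_evA_injective (A := ↥A₀) (K := K) FFGen.transc
  haveI : FaithfulSMul (↥A₀)[X] F := (faithfulSMul_iff_algebraMap_injective _ _).mpr hinj
  letI : Algebra (FractionRing (↥A₀)[X]) F := FractionRing.liftAlgebra (↥A₀)[X] F
  haveI : IsScalarTower (↥A₀)[X] (FractionRing (↥A₀)[X]) F :=
    FractionRing.isScalarTower_liftAlgebra (↥A₀)[X] F
  haveI : IsIntegrallyClosed (↥A₀)[X] := UniqueFactorizationMonoid.instIsIntegrallyClosed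
  haveI : CharZero F := charZero_of_injective_algebraMap (algebraMap K F).injective
  haveI : CharZero (FractionRing (↥A₀)[X]) :=
    RingHom.charZero (algebraMap (FractionRing (↥A₀)[X]) F)
  have hev : ∀ p : (↥A₀)[X], s18b_evA ↥A₀ K w p ∈ (algebraMap (FractionRing (↥A₀)[X]) F).range := by
    intro p
    refine ⟨algebraMap (↥A₀)[X] (FractionRing (↥A₀)[X]) p, ?_⟩
    rw [← IsScalarTower.algebraMap_apply (↥A₀)[X] (FractionRing (↥A₀)[X]) F]
    rfl
  haveI : FiniteDimensional (FractionRing (↥A₀)[X]) F := by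
    refine s18b_finite_of_le_range (K := K) (IntermediateField.adjoin K {w}) ?_
    have hK : ∀ c : K, algebraMap K F c ∈ (algebraMap (FractionRing (↥A₀)[X]) F).fieldRange := by
      intro c
      obtain ⟨a, b, hb, rfl⟩ := IsFractionRing.div_surjective (A := ↥A₀) c
      rw [map_div₀]
      refine div_mem ?_ ?_
      · have := hev (Polynomial.C a)
        rwa [s18b_evA_C] at this
      · have := hev (Polynomial.C b)
        rwa [s18b_evA_C] at this
    let T : IntermediateField K F :=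
      Subfield.toIntermediateField (algebraMap (FractionRing (↥A₀)[X]) F).fieldRange hK
    have hle : IntermediateField.adjoin K {w} ≤ T := by
      rw [IntermediateField.adjoin_le_iff]
      rintro x (rfl : x = w)
      have := hev Polynomial.X
      rwa [s18b_evA_X] at this
    intro x hx
    exact hle hx
  haveI : Algebra.IsSeparable (FractionRing (↥A₀)[X]) F :=
    Algebra.IsAlgebraic.isSeparable_of_perfectField
  exact IsIntegralClosure.isNoetherian (↥A₀)[X] (FractionRing (↥A₀)[X]) F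
    (integralClosure (↥A₀)[X] F)

end Noeth

section Geo

variable [CharZero K] {A₀ : ValuationSubring K} [IsDiscreteValuationRing ↥A₀] {ϖ : ↥A₀}
  {O : ValuationSubring F} {w : F} [FFGen K w]
  {Fb : Type*} [Field Fb] {red : ↥O →+* Fb} {D : Type*} [CommRing D] [Algebra D Fb]
  {ψ : ↥(s18_ring O (s18_chart1 (L₀ := K) w)) →+* D}
  (h : s48g_FinChart A₀ ϖ O w red ψ)

include h

/-- elements integral over `A₀[w]` lie in the chart ring. -/
theorem s48g_fin_mem_ring_of_int (y : F) (hy : (s18b_evA ↥A₀ K w).IsIntegralElem y) :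
    y ∈ s18_ring O (s18_chart1 (L₀ := K) w) := by
  have key : ∀ W : ValuationSubring F, (∀ a : ↥A₀, algebraMap K F (a : K) ∈ W) → w ∈ W → y ∈ W := by
    intro W hA hw
    let c : ↥A₀ →+* W :=
      ((algebraMap K F).comp (algebraMap ↥A₀ K)).codRestrict W.toSubring (fun a => hA a)
    let ev' : (↥A₀)[X] →+* W := Polynomial.eval₂RingHom c ⟨w, hw⟩
    have hcomp : (W.subtype : W →+* F).comp ev' = s18b_evA ↥A₀ K w := by
      refine Polynomial.ringHom_ext (fun a => ?_) ?_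
      · show ((Polynomial.eval₂ c ⟨w, hw⟩ (Polynomial.C a) : W) : F) = _
        rw [Polynomial.eval₂_C, s18b_evA_C]
        rfl
      · show ((Polynomial.eval₂ c ⟨w, hw⟩ Polynomial.X : W) : F) = _
        rw [Polynomial.eval₂_X, s18b_evA_X]
    have hy' := hy
    rw [← hcomp] at hy'
    have h1 : (W.subtype : W →+* F).IsIntegralElem y := s18b_isIntegralElem_of_comp _ _ hy'
    have h2 : IsIntegral W y := h1
    obtain ⟨z, hz⟩ := IsIntegrallyClosed.isIntegral_iff.mp h2
    rw [← hz]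
    exact z.2
  exact ⟨key O h.const_mem h.w_mem, fun Q hQ => key _ (fun a => Q.algebraMap_mem' _) hQ⟩

/-- the chart ring is a noetherian ring. -/
theorem s48g_fin_isNoetherianRing :
    IsNoetherianRing ↥(s18_ring O (s18_chart1 (L₀ := K) w)) := by
  letI alg : Algebra (↥A₀)[X] F := (s18b_evA ↥A₀ K w).toAlgebra
  have hN : IsNoetherian (↥A₀)[X] (integralClosure (↥A₀)[X] F) :=
    s48g_fin_isNoetherian_integralClosure A₀ w
  haveI : IsNoetherianRing (integralClosure (↥A₀)[X] F) :=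
    isNoetherianRing_iff.mpr (isNoetherian_of_tower (↥A₀)[X] hN)
  have hiff : ∀ y : F, y ∈ integralClosure (↥A₀)[X] F ↔
      y ∈ s18_ring O (s18_chart1 (L₀ := K) w) := fun y =>
    ⟨fun hy => s48g_fin_mem_ring_of_int h y hy, fun hy => h.int y hy⟩
  let e : (integralClosure (↥A₀)[X] F) ≃+* ↥(s18_ring O (s18_chart1 (L₀ := K) w)) :=
    { toFun := fun x => ⟨x.1, (hiff x.1).mp x.2⟩
      invFun := fun y => ⟨y.1, (hiff y.1).mpr y.2⟩
      left_inv := fun _ => rfl
      right_inv := fun _ => rfl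
      map_mul' := fun _ _ => rfl
      map_add' := fun _ _ => rfl }
  exact isNoetherianRing_of_ringEquiv _ e

/-- (B2): additive subgroups of the chart ring stable under `A₀[w]` are finitely generated over
`A₀[w]`. -/
theorem s48g_fin_fg (M : AddSubgroup F)
    (hM : ∀ (p : (↥A₀)[X]), ∀ x ∈ M, s18b_evA ↥A₀ K w p * x ∈ M)
    (hMB : ∀ x ∈ M, x ∈ s18_ring O (s18_chart1 (L₀ := K) w)) :
    ∃ (r : ℕ) (b : Fin r → F), (∀ i, b i ∈ M) ∧
      ∀ x ∈ M, ∃ c : Fin r → (↥A₀)[X], x = ∑ i, s18b_evA ↥A₀ K w (c i) * b i := by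
  letI alg : Algebra (↥A₀)[X] F := (s18b_evA ↥A₀ K w).toAlgebra
  have hN : IsNoetherian (↥A₀)[X] (integralClosure (↥A₀)[X] F) :=
    s48g_fin_isNoetherian_integralClosure A₀ w
  have hN' : IsNoetherian (↥A₀)[X] ↥(Subalgebra.toSubmodule (integralClosure (↥A₀)[X] F)) := hN
  let M' : Submodule (↥A₀)[X] F :=
    { carrier := M
      zero_mem' := M.zero_mem
      add_mem' := fun ha hb => M.add_mem ha hb
      smul_mem' := fun p x hx => by
        show p • x ∈ M
        rw [Algebra.smul_def]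
        exact hM p x hx }
  have hle : M' ≤ Subalgebra.toSubmodule (integralClosure (↥A₀)[X] F) := by
    intro x hx
    exact h.int x (hMB x hx)
  have hfg : M'.FG := (isNoetherian_submodule.mp hN') M' hle
  obtain ⟨r, b, hb⟩ := Submodule.fg_iff_exists_fin_generating_family.mp hfg
  refine ⟨r, b, fun i => ?_, fun x hx => ?_⟩
  · have : b i ∈ M' := by rw [← hb]; exact Submodule.subset_span ⟨i, rfl⟩
    exact this
  · have hx' : x ∈ Submodule.span (↥A₀)[X] (Set.range b) := by rw [hb]; exact hx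
    obtain ⟨c, hc⟩ := (Submodule.mem_span_range_iff_exists_fun (↥A₀)[X]).mp hx'
    refine ⟨c, ?_⟩
    rw [← hc]
    refine Finset.sum_congr rfl fun i _ => ?_
    rw [Algebra.smul_def]
    rfl

end Geo

section Main

variable [CharZero K] {A₀ : ValuationSubring K} [IsDiscreteValuationRing ↥A₀] {ϖ : ↥A₀}
  {O : ValuationSubring F} {w : F} [FFGen K w]
  {Fb₁ : Type*} [Field Fb₁] {red₁ : ↥O →+* Fb₁} {D₁ : Type*} [CommRing D₁] [Algebra D₁ Fb₁]
  [IsDedekindDomain D₁] [IsFractionRing D₁ Fb₁]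
  {ψ₁ : ↥(s18_ring O (s18_chart1 (L₀ := K) w)) →+* D₁}
  {Fb₂ : Type*} [Field Fb₂] {red₂ : ↥O →+* Fb₂} {D₂ : Type*} [CommRing D₂] [Algebra D₂ Fb₂]
  [IsDedekindDomain D₂] [IsFractionRing D₂ Fb₂]
  {ψ₂ : ↥(s18_ring O (s18_chart1 (L₀ := K) w⁻¹)) →+* D₂}

/-- **the geometric inputs from the finite-level contract on both charts.** -/
theorem s48g_geoInputs_of_finChart (h₁ : s48g_FinChart A₀ ϖ O w red₁ ψ₁)
    (h₂ : s48g_FinChart A₀ ϖ O w⁻¹ red₂ ψ₂) (hw0 : w ≠ 0)
    (m : ℕ) (hm0 : m ≠ 0) (hmA : ((m : K))⁻¹ ∈ A₀) :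
    s18_GeoInputs A₀ O h₁.const_mem ϖ w m := by
  haveI : FFGen K w⁻¹ := s18f_ffGen_inv w
  haveI n1 : IsNoetherianRing ↥(s18_ring O (s18_chart1 (L₀ := K) w)) :=
    s48g_fin_isNoetherianRing h₁
  haveI n2 : IsNoetherianRing ↥(s18_ring O (s18_chart2 (L₀ := K) w)) :=
    s48g_fin_isNoetherianRing h₂
  have hmL : (m : K) ≠ 0 := by exact_mod_cast hm0
  exact s18f_geoInputs A₀ O h₁.const_mem ϖ h₁.unif_ne_zero (s48g_fin_unif_not_unit h₁) w hw0
    h₁.w_mem h₂.w_mem m hm0 hmA hmL h₁.U ψ₁ h₁.psi_surj (s48g_fin_hker h₁)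
    (s48g_fin_hroot h₁ m hm0) ψ₂ h₂.psi_surj (s48g_fin_hker h₂) (s48g_fin_hroot h₂ m hm0)
    (s18f_hB2_of_poly A₀ O w hw0 (fun M hM hMB => s48g_fin_fg h₁ M hM hMB))

end Main

end Fermat.Agent.Lib.S48
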