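/-
DS-1 (S48), wall [T7] (helper6), brick (F2): **the finite-level step**.  From the finite-level chart
contract `s48g_FinChart` of the base `F₀` (coordinate `w₀`), a layer datum
`hK : s48g_LayerData O₀ red₀ b t f tb` and an étale datum for the chart rings, the contract of the
layer `F` (coordinate `algebraMap w₀`, Gauss ring `s48g_O hK`, reduction `s48g_red hK`,
`D = integralClosure D₀ Fb`).
-/
import Fermat.Agent.Lib.S48.GFinA
import Fermat.Agent.Lib.S48.GChartA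

set_option autoImplicit false
set_option linter.unusedSectionVars false
set_option linter.style.haveILetI false

noncomputable section

namespace Fermat.Agent.Lib.S48

open AlgebraicCurve IsDedekindDomain Fermat.Agent.Lib.FF Fermat.Agent.Lib.S18 Polynomial

variable {K F₀ F : Type*} [Field K] [Field F₀] [Field F] [Algebra K F₀] [Algebra K F]
  [Algebra F₀ F] [IsScalarTower K F₀ F] [FiniteDimensional F₀ F] [CharZero F₀]
  {Fb₀ Fb : Type*} [Field Fb₀] [Field Fb] [Algebra Fb₀ Fb]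
  {O₀ : ValuationSubring F₀} {red₀ : ↥O₀ →+* Fb₀} {n : ℕ}
  {b : Module.Basis (Fin n) F₀ F} {t : F} {f : (↥O₀)[X]} {tb : Fb}
  (hK : s48g_LayerData O₀ red₀ b t f tb)
  {A₀ : ValuationSubring K} {ϖ : ↥A₀} {w₀ : F₀}
  {D₀ : Type*} [CommRing D₀] [Algebra D₀ Fb₀] [Algebra D₀ Fb] [IsScalarTower D₀ Fb₀ Fb]
  {ψ₀ : ↥(s48g_B₀ K O₀ w₀) →+* D₀}
  (h₀ : s48g_FinChart A₀ ϖ O₀ w₀ red₀ ψ₀)
  (bb : Module.Basis (Fin n) Fb₀ Fb) (hbb : ∀ i : Fin n, bb i = tb ^ (i : ℕ))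
  {ι : Type*} {J : Finset ι}
  {bs : ι → Module.Basis (Fin n) F₀ F} {s : ι → F} {fR : ι → (↥(s48g_B₀ K O₀ w₀))[X]}
  {sd : ι → Fin n → F} {η : ι → F} {d e : ι → ↥(s48g_B₀ K O₀ w₀)}
  (hE : s48g_Etale (s48g_B₀ K O₀ w₀) (s48g_B hK K w₀) J bs s fR sd η d e)

theorem s48g_fin_hR₀ {w₀ : F₀} : ∀ y ∈ s48g_B₀ K O₀ w₀, y ∈ O₀ := fun _ hy => hy.1

theorem s48g_fin_hR {w₀ : F₀} : ∀ y ∈ s48g_B hK K w₀, y ∈ s48g_O hK := fun _ hy => hy.1

include h₀ in
/-- constants of `A₀` are Gauss-integral in the layer. -/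
theorem s48g_fin_const_mem (c : ↥A₀) : algebraMap K F (c : K) ∈ s48g_O hK := by
  rw [IsScalarTower.algebraMap_apply K F₀ F]
  exact s48g_algebraMap_mem_O hK ⟨_, h₀.const_mem c⟩

include h₀ in
/-- the reduction `B₀ → Fb₀` is `algebraMap ∘ ψ₀`. -/
theorem s48g_fin_baseRed_eq (r : ↥(s48g_B₀ K O₀ w₀)) :
    s48g_baseRed (red₀ := red₀) (s48g_fin_hR₀ (K := K)) r = algebraMap D₀ Fb₀ (ψ₀ r) :=
  (h₀.psi_eq r).symm

include h₀ hE in
/-- reductions of elements of `B` are integral over `D₀`. -/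
theorem s48g_fin_red_isIntegral {y : F} (hy : y ∈ s48g_B hK K w₀) :
    IsIntegral D₀ (s48g_red hK ⟨y, hy.1⟩) := by
  obtain ⟨p, hp, hroot⟩ := s48g_etale_red_isIntegral hK hE (s48g_fin_hR₀ (K := K)) (s48g_fin_hR hK) hy
  refine ⟨p.map ψ₀, hp.map ψ₀, ?_⟩
  rw [eval₂_map]
  have hcomp : (algebraMap Fb₀ Fb).comp (s48g_baseRed (red₀ := red₀) (s48g_fin_hR₀ (K := K))) =
      (algebraMap D₀ Fb).comp ψ₀ := by
    ext r
    show algebraMap Fb₀ Fb (s48g_baseRed (red₀ := red₀) (s48g_fin_hR₀ (K := K)) r) = _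
    rw [s48g_fin_baseRed_eq h₀ r]
    exact (IsScalarTower.algebraMap_apply D₀ Fb₀ Fb _).symm
  rw [hcomp] at hroot
  exact hroot

/-- **the reduction of the chart ring of the layer** into `D = integralClosure D₀ Fb`. -/
def s48g_finPsi : ↥(s48g_B hK K w₀) →+* ↥(integralClosure D₀ Fb) where
  toFun y := ⟨s48g_red hK ⟨(y : F), y.2.1⟩, s48g_fin_red_isIntegral hK h₀ hE y.2⟩
  map_one' := Subtype.ext (map_one (s48g_red hK))
  map_mul' y z := Subtype.ext (map_mul (s48g_red hK) ⟨(y : F), y.2.1⟩ ⟨(z : F), z.2.1⟩)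
  map_zero' := Subtype.ext (map_zero (s48g_red hK))
  map_add' y z := Subtype.ext (map_add (s48g_red hK) ⟨(y : F), y.2.1⟩ ⟨(z : F), z.2.1⟩)

theorem s48g_finPsi_eq (y : ↥(s48g_B hK K w₀)) :
    algebraMap ↥(integralClosure D₀ Fb) Fb (s48g_finPsi hK h₀ hE y) =
      s48g_red hK ⟨(y : F), y.2.1⟩ := rfl

include hbb in
/-- the reduction of the chart ring is onto `D`. -/
theorem s48g_finPsi_surj [IsIntegrallyClosed D₀] [IsFractionRing D₀ Fb₀] :
    Function.Surjective (s48g_finPsi hK h₀ hE) := by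
  intro z
  have hz : ((algebraMap Fb₀ Fb).comp (algebraMap D₀ Fb₀)).IsIntegralElem (z : Fb) := by
    obtain ⟨p, hp, hroot⟩ := z.2
    refine ⟨p, hp, ?_⟩
    have : (algebraMap Fb₀ Fb).comp (algebraMap D₀ Fb₀) = algebraMap D₀ Fb := by
      ext r
      exact (IsScalarTower.algebraMap_apply D₀ Fb₀ Fb r).symm
    rw [this]
    exact hroot
  obtain ⟨y, hy, hyz⟩ := s48g_etale_lift hK bb hbb hE (s48g_fin_hR₀ (K := K)) (s48g_fin_hR hK)
    (algebraMap D₀ Fb₀) ψ₀ (fun r => h₀.psi_eq r) h₀.psi_surj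
    (fun u hu => IsIntegrallyClosed.isIntegral_iff.mp hu) (z : Fb) hz
  exact ⟨⟨y, hy⟩, Subtype.ext hyz⟩

include h₀ in
/-- the kernel of the reduction of the layer is generated by the uniformiser. -/
theorem s48g_fin_ker (y : ↥(s48g_O hK)) :
    s48g_red hK y = 0 ↔ ∃ z ∈ s48g_O hK, (y : F) = algebraMap K F (ϖ : K) * z := by
  constructor
  · intro hy
    have h1 := (s48g_red_eq_zero_iff hK y).mp hy
    have h2 : ∀ i : Fin n, ∃ z ∈ O₀, b.repr (y : F) i = algebraMap K F₀ (ϖ : K) * z := fun i =>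
      (h₀.ker _).mp (h1 i)
    choose z hz hyz using h2
    refine ⟨∑ i : Fin n, z i • b i, ?_, ?_⟩
    · rw [s48g_mem_O_iff hK]
      intro i
      have := congrFun (b.repr_sum_self z) i
      rw [this]
      exact hz i
    · conv_lhs => rw [← b.sum_repr (y : F)]
      rw [Finset.mul_sum]
      refine Finset.sum_congr rfl fun i _ => ?_
      rw [hyz i, Algebra.smul_def, Algebra.smul_def, map_mul, ← IsScalarTower.algebraMap_apply,
        mul_assoc]
  · rintro ⟨z, hz, e⟩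
    have h1 : y = ⟨algebraMap K F (ϖ : K), s48g_fin_const_mem hK h₀ ϖ⟩ * ⟨z, hz⟩ :=
      Subtype.ext e
    have h2 : (⟨algebraMap K F (ϖ : K), s48g_fin_const_mem hK h₀ ϖ⟩ : ↥(s48g_O hK)) =
        ⟨algebraMap F₀ F (algebraMap K F₀ (ϖ : K)),
          s48g_algebraMap_mem_O hK ⟨_, h₀.const_mem ϖ⟩⟩ :=
      Subtype.ext (IsScalarTower.algebraMap_apply K F₀ F _)
    rw [h1, map_mul, h2, s48g_red_algebraMap hK ⟨_, h₀.const_mem ϖ⟩, s48g_fin_red_unif h₀,
      map_zero, zero_mul]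

include h₀ in
/-- (U) for the layer. -/
theorem s48g_fin_U (u : F) (hu : u ∈ s48g_O hK) (hu0 : u ≠ 0) :
    ∃ (k : ℕ) (v : F), v ∈ s48g_O hK ∧ v⁻¹ ∈ s48g_O hK ∧
      u = algebraMap K F (ϖ : K) ^ k * v := by
  obtain ⟨c, z, hc0, hz, e⟩ := s48g_exists_scale_O hK u hu0
  have hzinv : ((z : F))⁻¹ ∈ s48g_O hK := s48g_inv_mem hK z hz
  have hz0 : (z : F) ≠ 0 := by
    intro h0
    apply hz
    have : z = 0 := Subtype.ext h0
    rw [this, map_zero]
  have hcO : c ∈ O₀ := by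
    rw [← s48g_algebraMap_mem_O_iff hK]
    have : algebraMap F₀ F c = u * ((z : F))⁻¹ := by
      rw [e, mul_assoc, mul_inv_cancel₀ hz0, mul_one]
    rw [this]
    exact (s48g_O hK).mul_mem _ _ hu hzinv
  obtain ⟨k, v₀, hv₀, hv₀inv, e₀⟩ := h₀.U c hcO hc0
  refine ⟨k, algebraMap F₀ F v₀ * (z : F),
    (s48g_O hK).mul_mem _ _ (s48g_algebraMap_mem_O hK ⟨v₀, hv₀⟩) z.2, ?_, ?_⟩
  · rw [mul_inv, ← map_inv₀]
    exact (s48g_O hK).mul_mem _ _ (s48g_algebraMap_mem_O hK ⟨v₀⁻¹, hv₀inv⟩) hzinv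
  · rw [e, e₀, map_mul, map_pow, ← IsScalarTower.algebraMap_apply, mul_assoc]

include h₀ hE in
/-- the chart ring of the layer is integral over `A₀[w]`. -/
theorem s48g_fin_int (y : F) (hy : y ∈ s48g_B hK K w₀) :
    (s18b_evA ↥A₀ K (algebraMap F₀ F w₀)).IsIntegralElem y := by
  letI a1 : Algebra (↥A₀)[X] F₀ := (s18b_evA ↥A₀ K w₀).toAlgebra
  letI a2 : Algebra (↥A₀)[X] F := (s18b_evA ↥A₀ K (algebraMap F₀ F w₀)).toAlgebra
  haveI t1 : IsScalarTower (↥A₀)[X] F₀ F := IsScalarTower.of_algebraMap_eq fun p => by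
    show s18b_evA ↥A₀ K (algebraMap F₀ F w₀) p = algebraMap F₀ F (s18b_evA ↥A₀ K w₀ p)
    rw [s18b_evA_apply, s18b_evA_apply, aeval_algebraMap_apply]
  show IsIntegral (↥A₀)[X] y
  -- `y` is integral over the integral closure of `A₀[X]` in `F₀`
  let S : Subalgebra (↥A₀)[X] F₀ := integralClosure (↥A₀)[X] F₀
  have hBS : ∀ r : ↥(s48g_B₀ K O₀ w₀), (r : F₀) ∈ S := fun r => h₀.int (r : F₀) r.2
  let g : ↥(s48g_B₀ K O₀ w₀) →+* ↥S :=
    { toFun := fun r => ⟨(r : F₀), hBS r⟩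
      map_one' := rfl
      map_mul' := fun _ _ => rfl
      map_zero' := rfl
      map_add' := fun _ _ => rfl }
  obtain ⟨p, hp, hroot⟩ := s48g_etale_isIntegral hE hy
  have hyS : IsIntegral ↥S y := by
    refine ⟨p.map g, hp.map g, ?_⟩
    rw [eval₂_map]
    have : (algebraMap ↥S F).comp g = s48g_incl (F := F) (s48g_B₀ K O₀ w₀) := by
      ext r
      rfl
    rw [this]
    exact hroot
  haveI : Algebra.IsIntegral (↥A₀)[X] ↥S := inferInstance
  exact isIntegral_trans y hyS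

include hbb in
/-- **the finite-level step.** -/
theorem s48g_finChart_step [IsIntegrallyClosed D₀] [IsFractionRing D₀ Fb₀] :
    s48g_FinChart A₀ ϖ (s48g_O hK) (algebraMap F₀ F w₀) (s48g_red hK) (s48g_finPsi hK h₀ hE) where
  const_mem := s48g_fin_const_mem hK h₀
  unif_ne_zero := h₀.unif_ne_zero
  U := s48g_fin_U hK h₀
  w_mem := s48g_algebraMap_mem_O hK ⟨w₀, h₀.w_mem⟩
  red_surj := by
    refine s48g_red_surjective hK h₀.red_surj ?_
    have := bb.span_eq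
    rw [← this]
    refine Submodule.span_mono ?_
    rintro _ ⟨i, rfl⟩
    exact ⟨i, (hbb i).symm⟩
  ker := s48g_fin_ker hK h₀
  psi_surj := s48g_finPsi_surj hK h₀ bb hbb hE
  psi_eq := fun r => s48g_finPsi_eq hK h₀ hE r
  int := s48g_fin_int hK h₀ hE

end Fermat.Agent.Lib.S48
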