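/-
DS-1 (S48), wall [T7] (helper6), brick (F3): **the étale datum of a tame Kummer layer at a finite
level.**  `s48g_kummer_etale_core` is the construction of `GKumGen` with the partition of unity
`∑ a j * b j = 1` (`a j ∈ L(-E₀)`, `b j ∈ L(E₀)`, `n • E₀ = div h`) as a hypothesis, over an arbitrary
constant field; `s48g_fin_kummer_etale` feeds it with the landed `s18f_hinv_chart1_of_dedekind`
(package [I] of S18) from the finite-level contract `s48g_FinChart` of the base.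
-/
import Fermat.Agent.Lib.S48.GFinB
import Fermat.Agent.Lib.S48.GKumGen

set_option autoImplicit false
set_option linter.unusedSectionVars false
set_option linter.style.haveILetI false

noncomputable section

namespace Fermat.Agent.Lib.S48

open AlgebraicCurve IsDedekindDomain Fermat.Agent.Lib.FF Fermat.Agent.Lib.S18 Polynomial

variable {K F₀ F : Type*} [Field K] [Field F₀] [Field F] [Algebra K F₀] [Algebra K F]
  [Algebra F₀ F] [IsScalarTower K F₀ F] [FiniteDimensional F₀ F] [CharZero F₀]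
  {Fb₀ Fb : Type*} [Field Fb₀] [Field Fb] [Algebra Fb₀ Fb]
  {O₀ : ValuationSubring F₀} {red₀ : ↥O₀ →+* Fb₀} {n : ℕ}
  {b : Module.Basis (Fin n) F₀ F} {t : F} {f : (↥O₀)[X]} {tb : Fb}
  (hK : s48g_LayerData O₀ red₀ b t f tb) {w₀ : F₀}

theorem s48g_fin_ord_pow {K F : Type*} [Field K] [Field F] [Algebra K F] (Q : Place K F) (y : F)
    (m : ℕ) : Q.ord (y ^ m) = (m : ℤ) * Q.ord y := by
  rw [← zpow_natCast, Q.ord_zpow]

set_option maxHeartbeats 1600000 in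
/-- **the étale datum of a Kummer layer** `t ^ n = h` from a partition of unity for the lattice of
`div(h)/n`. -/
theorem s48g_kummer_etale_core
    (h : F₀) (hh : t ^ n = algebraMap F₀ F h) (hhO : h ∈ O₀) (hhinvO : h⁻¹ ∈ O₀) (hh0 : h ≠ 0)
    (hnK : (n : K) ≠ 0) (hnO : algebraMap K F₀ ((n : K))⁻¹ ∈ O₀)
    (E₀ : Place K F₀ → ℤ) (hnE : ∀ Q, (n : ℤ) * E₀ Q = Q.ord h)
    (s₀ : Finset ℕ) (a bq : ℕ → F₀)
    (ha : ∀ j ∈ s₀, a j ∈ s18_latSet O₀ (s18_chart1 (L₀ := K) w₀) (fun Q => - E₀ Q))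
    (hb : ∀ j ∈ s₀, bq j ∈ s18_latSet O₀ (s18_chart1 (L₀ := K) w₀) (fun Q => - - E₀ Q))
    (hab : ∑ j ∈ s₀, a j * bq j = 1) :
    ∃ (J : Finset ℕ) (bs : ℕ → Module.Basis (Fin n) F₀ F) (s : ℕ → F)
      (fR : ℕ → (↥(s48g_B₀ K O₀ w₀))[X]) (sd : ℕ → Fin n → F) (η : ℕ → F)
      (d e : ℕ → ↥(s48g_B₀ K O₀ w₀)),
      s48g_Etale (s48g_B₀ K O₀ w₀) (s48g_B hK K w₀) J bs s fR sd η d e := by
  classical
  have hn := s48g_n_pos hK
  have ht0 : t ≠ 0 := by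
    rintro rfl
    rw [zero_pow hn.ne'] at hh
    exact hh0 ((map_eq_zero (algebraMap F₀ F)).mp hh.symm)
  -- memberships in the chart ring of the base
  have hxB : ∀ j ∈ s₀, a j * bq j ∈ s48g_B₀ K O₀ w₀ := by
    intro j hj
    have h1 := s18_latSet_mul O₀ _ _ _ (ha j hj) (hb j hj)
    have h2 : a j * bq j ∈ s18_latSet O₀ (s18_chart1 (L₀ := K) w₀) (fun _ => 0) :=
      s48g_latSet_congr (fun Q _ => by ring) h1
    rw [← s18_ringSet_eq_latSet_zero] at h2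
    exact h2
  have huB : ∀ j ∈ s₀, a j ^ n * h ∈ s48g_B₀ K O₀ w₀ := by
    intro j hj
    refine ⟨O₀.mul_mem _ _ (pow_mem (ha j hj).1 n) hhO, fun Q hQ => ?_⟩
    by_cases ha0 : a j = 0
    · rw [ha0, zero_pow hn.ne', zero_mul]
      exact Q.toValuationSubring.zero_mem
    rcases (ha j hj).2 Q hQ with h0 | h1
    · exact absurd h0 ha0
    beta_reduce at h1
    rw [ff_mem_iff_ord_nonneg Q (mul_ne_zero (pow_ne_zero n ha0) hh0),
      Q.ord_mul (pow_ne_zero n ha0) hh0, s48g_fin_ord_pow, ← hnE Q]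
    have : 0 ≤ (n : ℤ) * (Q.ord (a j) + E₀ Q) :=
      mul_nonneg (Int.natCast_nonneg n) (by linarith)
    linarith
  have hvB : ∀ j ∈ s₀, bq j ^ n * h⁻¹ ∈ s48g_B₀ K O₀ w₀ := by
    intro j hj
    refine ⟨O₀.mul_mem _ _ (pow_mem (hb j hj).1 n) hhinvO, fun Q hQ => ?_⟩
    by_cases hb0 : bq j = 0
    · rw [hb0, zero_pow hn.ne', zero_mul]
      exact Q.toValuationSubring.zero_mem
    rcases (hb j hj).2 Q hQ with h0 | h1
    · exact absurd h0 hb0
    beta_reduce at h1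
    rw [ff_mem_iff_ord_nonneg Q (mul_ne_zero (pow_ne_zero n hb0) (inv_ne_zero hh0)),
      Q.ord_mul (pow_ne_zero n hb0) (inv_ne_zero hh0), s48g_fin_ord_pow, Q.ord_inv, ← hnE Q]
    have : 0 ≤ (n : ℤ) * (Q.ord (bq j) - E₀ Q) :=
      mul_nonneg (Int.natCast_nonneg n) (by linarith)
    linarith
  -- elements of `B₀`
  let xB : ℕ → ↥(s48g_B₀ K O₀ w₀) := fun j =>
    if hj : j ∈ s₀ then ⟨a j * bq j, hxB j hj⟩ else 0
  let uB : ℕ → ↥(s48g_B₀ K O₀ w₀) := fun j =>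
    if hj : j ∈ s₀ then ⟨a j ^ n * h, huB j hj⟩ else 0
  let vB : ℕ → ↥(s48g_B₀ K O₀ w₀) := fun j =>
    if hj : j ∈ s₀ then ⟨bq j ^ n * h⁻¹, hvB j hj⟩ else 0
  have hxBcoe : ∀ j ∈ s₀, ((xB j : ↥(s48g_B₀ K O₀ w₀)) : F₀) = a j * bq j := fun j hj => by
    show ((if hj : j ∈ s₀ then (⟨a j * bq j, hxB j hj⟩ : ↥(s48g_B₀ K O₀ w₀)) else 0 :
      ↥(s48g_B₀ K O₀ w₀)) : F₀) = _
    rw [dif_pos hj]
  have huBcoe : ∀ j ∈ s₀, ((uB j : ↥(s48g_B₀ K O₀ w₀)) : F₀) = a j ^ n * h := fun j hj => by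
    show ((if hj : j ∈ s₀ then (⟨a j ^ n * h, huB j hj⟩ : ↥(s48g_B₀ K O₀ w₀)) else 0 :
      ↥(s48g_B₀ K O₀ w₀)) : F₀) = _
    rw [dif_pos hj]
  have hvBcoe : ∀ j ∈ s₀, ((vB j : ↥(s48g_B₀ K O₀ w₀)) : F₀) = bq j ^ n * h⁻¹ := fun j hj => by
    show ((if hj : j ∈ s₀ then (⟨bq j ^ n * h⁻¹, hvB j hj⟩ : ↥(s48g_B₀ K O₀ w₀)) else 0 :
      ↥(s48g_B₀ K O₀ w₀)) : F₀) = _
    rw [dif_pos hj]
  have hxsum : ∑ j ∈ s₀, xB j = 1 := by
    apply Subtype.ext
    rw [AddSubmonoidClass.coe_finsetSum, Finset.sum_congr rfl fun j hj => hxBcoe j hj, hab]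
    rfl
  obtain ⟨c, hc⟩ := s48g_exists_pow_partition s₀ xB hxsum n
  have huv : ∀ j ∈ s₀, uB j * vB j = xB j ^ n := by
    intro j hj
    apply Subtype.ext
    rw [Subring.coe_mul, SubmonoidClass.coe_pow, huBcoe j hj, hvBcoe j hj, hxBcoe j hj, mul_pow]
    field_simp
  -- the constants `n`, `1 / n`
  let nInvB : ↥(s48g_B₀ K O₀ w₀) :=
    ⟨algebraMap K F₀ ((n : K))⁻¹, hnO, fun P _ => P.algebraMap_mem' _⟩
  have hnInv : nInvB * (n : ↥(s48g_B₀ K O₀ w₀)) = 1 := by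
    apply Subtype.ext
    rw [Subring.coe_mul, Subring.coe_natCast]
    show algebraMap K F₀ ((n : K))⁻¹ * (n : F₀) = 1
    rw [← map_natCast (algebraMap K F₀) n, ← map_mul, inv_mul_cancel₀ hnK, map_one]
  let J : Finset ℕ := s₀.filter fun j => a j ≠ 0
  have hJs : ∀ j ∈ J, j ∈ s₀ := fun j hj => (Finset.mem_filter.mp hj).1
  have hJa : ∀ j ∈ J, a j ≠ 0 := fun j hj => (Finset.mem_filter.mp hj).2
  -- the generators
  let s : ℕ → F := fun j => algebraMap F₀ F (a j) * t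
  let bs : ℕ → Module.Basis (Fin n) F₀ F := fun j =>
    if ha0 : a j ≠ 0 then
      b.isUnitSMul (w := fun i : Fin n => a j ^ (i : ℕ)) (fun i => IsUnit.mk0 _ (pow_ne_zero _ ha0))
    else b
  have hbs : ∀ j ∈ J, ∀ i : Fin n, bs j i = s j ^ (i : ℕ) := by
    intro j hj i
    show (if ha0 : a j ≠ 0 then
      b.isUnitSMul (w := fun i : Fin n => a j ^ (i : ℕ)) (fun i => IsUnit.mk0 _ (pow_ne_zero _ ha0))
      else b) i = _
    rw [dif_pos (hJa j hj), Module.Basis.isUnitSMul_apply, hK.basis, Algebra.smul_def, map_pow,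
      ← mul_pow]
  have hs : ∀ j, s j ^ n = algebraMap F₀ F (a j ^ n * h) := by
    intro j
    show (algebraMap F₀ F (a j) * t) ^ n = _
    rw [mul_pow, hh, map_mul, map_pow]
  have hsB : ∀ j ∈ J, s j ∈ s48g_B hK K w₀ := by
    intro j hj
    refine ⟨(s48g_O hK).mul_mem _ _ (s48g_algebraMap_mem_O hK ⟨a j, (ha j (hJs j hj)).1⟩)
      (s48g_t_mem_O hK), fun P hP => ?_⟩
    have hs0 : s j ≠ 0 := mul_ne_zero ((_root_.map_ne_zero _).mpr (hJa j hj)) ht0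
    have h1 : s j ^ n ∈ P.toValuationSubring := by
      rw [hs j]
      exact (Place.mem_restrict_iff P).mp ((huB j (hJs j hj)).2 _ (s48g_restrict_mem_chart hP))
    rw [ff_mem_iff_ord_nonneg P (pow_ne_zero n hs0), s48g_fin_ord_pow] at h1
    rw [ff_mem_iff_ord_nonneg P hs0]
    have hn' : (0 : ℤ) < n := by exact_mod_cast hn
    by_contra hneg
    push Not at hneg
    have : (n : ℤ) * P.ord (s j) < 0 := mul_neg_of_pos_of_neg hn' hneg
    omega
  refine ⟨J, bs, s, fun j => X ^ n - C (uB j),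
    fun j l => if (l : ℕ) = 0 then algebraMap F₀ F (a j ^ n * h) else s j ^ (n - (l : ℕ)),
    s, fun j => (n : ↥(s48g_B₀ K O₀ w₀)) * uB j, fun j => nInvB * c j * vB j, ?_⟩
  refine
  { dual := ?_
    s_mem := hsB
    sd_mem := ?_
    eta_mem := hsB
    monic := fun j _ => monic_X_pow_sub_C _ hn.ne'
    natDegree := fun j _ => natDegree_X_pow_sub_C
    root := ?_
    cert := ?_
    one := ?_
    base_mem := fun y hy => s48g_chart_base_mem hK hy
    trace_mem := fun y hy => s48g_chart_trace_mem hK hy }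
  · intro j hj
    have h1 := s48g_kummer_dualGen (bs j) (s j) (a j ^ n * h) hn (hbs j hj) (hs j)
    have h2 : (((n : ↥(s48g_B₀ K O₀ w₀)) * uB j : ↥(s48g_B₀ K O₀ w₀)) : F₀) =
        (n : F₀) * (a j ^ n * h) := by
      rw [Subring.coe_mul, Subring.coe_natCast, huBcoe j (hJs j hj)]
    rw [h2]
    exact h1
  · intro j hj l
    split_ifs
    · exact s48g_chart_base_mem hK (huB j (hJs j hj))
    · exact pow_mem (hsB j hj) _
  · intro j hj
    rw [eval₂_sub, eval₂_X_pow, eval₂_C, hs j, s48g_incl_apply, huBcoe j (hJs j hj), sub_self]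
  · intro j hj
    rw [derivative_sub, derivative_X_pow, derivative_C, sub_zero, eval₂_mul, eval₂_C, eval₂_X_pow,
      mul_assoc, pow_sub_one_mul hn.ne', hs j]
    have h1 : s48g_incl (F := F) (s48g_B₀ K O₀ w₀) ((n : ↥(s48g_B₀ K O₀ w₀))) = (n : F) :=
      map_natCast _ n
    rw [h1, Subring.coe_mul, Subring.coe_natCast, huBcoe j (hJs j hj)]
    simp only [map_mul, map_natCast]
  · have h1 : ∀ j ∈ J, (nInvB * c j * vB j) * ((n : ↥(s48g_B₀ K O₀ w₀)) * uB j) =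
        c j * xB j ^ n := by
      intro j hj
      rw [← huv j (hJs j hj)]
      calc nInvB * c j * vB j * ((n : ↥(s48g_B₀ K O₀ w₀)) * uB j)
          = (nInvB * (n : ↥(s48g_B₀ K O₀ w₀))) * (c j * (uB j * vB j)) := by ring
        _ = c j * (uB j * vB j) := by rw [hnInv, one_mul]
    rw [Finset.sum_congr rfl h1, ← hc]
    refine Finset.sum_subset (Finset.filter_subset _ _) fun j hj hjJ => ?_
    have ha0 : a j = 0 := by
      by_contra hne
      exact hjJ (Finset.mem_filter.mpr ⟨hj, hne⟩)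
    have hx0 : xB j = 0 := by
      apply Subtype.ext
      rw [hxBcoe j hj, ha0, zero_mul]
      rfl
    rw [hx0, zero_pow hn.ne', mul_zero]


section Fin

variable [CharZero K] {A₀ : ValuationSubring K} {ϖ : ↥A₀} [FFGen K w₀]
  {D₀ : Type*} [CommRing D₀] [Algebra D₀ Fb₀] [IsDedekindDomain D₀] [FaithfulSMul D₀ Fb₀]
  {ψ₀ : ↥(s48g_B₀ K O₀ w₀) →+* D₀}

/-- **the étale datum of a tame Kummer layer at a finite level.** -/
theorem s48g_fin_kummer_etale [IsDiscreteValuationRing ↥A₀]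
    (h₀ : s48g_FinChart A₀ ϖ O₀ w₀ red₀ ψ₀)
    (h : F₀) (hh : t ^ n = algebraMap F₀ F h) (hhO : h ∈ O₀)
    (hhred : red₀ ⟨h, hhO⟩ ≠ 0) (hnA : ((n : K))⁻¹ ∈ A₀)
    (hdiv : ∀ P : Place K F₀, (n : ℤ) ∣ P.ord h) :
    ∃ (J : Finset ℕ) (bs : ℕ → Module.Basis (Fin n) F₀ F) (s : ℕ → F)
      (fR : ℕ → (↥(s48g_B₀ K O₀ w₀))[X]) (sd : ℕ → Fin n → F) (η : ℕ → F)
      (d e : ℕ → ↥(s48g_B₀ K O₀ w₀)),
      s48g_Etale (s48g_B₀ K O₀ w₀) (s48g_B hK K w₀) J bs s fR sd η d e := by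
  have hn := s48g_n_pos hK
  have hnK : (n : K) ≠ 0 := by exact_mod_cast hn.ne'
  have hh0 : h ≠ 0 := by
    rintro rfl
    apply hhred
    have : (⟨0, hhO⟩ : ↥O₀) = 0 := rfl
    rw [this, map_zero]
  have hhinvO : h⁻¹ ∈ O₀ := s48g_fin_inv_mem h₀ ⟨h, hhO⟩ hhred
  haveI : IsNoetherianRing ↥(s18_ring O₀ (s18_chart1 (L₀ := K) w₀)) :=
    s48g_fin_isNoetherianRing h₀
  obtain ⟨s₀, a, bq, ha, hb, hab⟩ := s18f_hinv_chart1_of_dedekind w₀ O₀ (ϖ : K) h₀.unif_ne_zero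
    (h₀.const_mem ϖ) h₀.U hh0 n ψ₀ h₀.psi_surj (s48g_fin_hker h₀)
  have hnE : ∀ Q : Place K F₀, (n : ℤ) * s18_E h n Q = Q.ord h := fun Q =>
    Int.mul_ediv_cancel' (hdiv Q)
  refine s48g_kummer_etale_core hK h hh hhO hhinvO hh0 hnK (h₀.const_mem ⟨_, hnA⟩)
    (s18_E h n) hnE s₀ bq a hb ?_ ?_
  · intro j hj
    exact s48g_latSet_congr (fun Q _ => (neg_neg _).symm) (ha j hj)
  · rw [← hab]
    exact Finset.sum_congr rfl fun j _ => mul_comm _ _

end Fin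

end Fermat.Agent.Lib.S48
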