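/-
DS-1 (S48), wall [T7] (helper6), brick (F4): **the finite-level chart package and its propagation
through a layer.**

`s48g_FinPack A₀ ϖ O red w` : the finite-level contract `s48g_FinChart` for the coordinate `w`, with
the Dedekind domain `D` and its structures packaged existentially.
* `s48g_finPack_step`        : base package for `w₀` + layer datum + étale datum + separability of
  `Fb/Fb₀` ⇒ the package of the layer for `algebraMap w₀`;
* `s48g_finPack_kummer`      : the same for a tame Kummer layer `t ^ n = h` (étale datum and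
  separability are derived);
* `s48g_geoInputs_of_finPack`: packages for `w`, `w⁻¹` ⇒ `s18_GeoInputs` (for every `m` invertible
  in `A₀`).
-/
import Fermat.Agent.Lib.S48.GFinK
import Fermat.Agent.Lib.S48.GTwo

set_option autoImplicit false
set_option linter.unusedSectionVars false
set_option linter.style.haveILetI false

noncomputable section

namespace Fermat.Agent.Lib.S48

open AlgebraicCurve IsDedekindDomain Fermat.Agent.Lib.FF Fermat.Agent.Lib.S18 Polynomial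

universe u

/-- **the finite-level chart package** for the coordinate `w`. -/
def s48g_FinPack {K F : Type*} [Field K] [Field F] [Algebra K F] {Fb : Type u} [Field Fb]
    (A₀ : ValuationSubring K) (ϖ : ↥A₀) (O : ValuationSubring F) (red : ↥O →+* Fb) (w : F) :
    Prop :=
  ∃ (D : Type u) (_ : CommRing D) (_ : IsDedekindDomain D) (_ : Algebra D Fb)
    (_ : IsFractionRing D Fb) (ψ : ↥(s18_ring O (s18_chart1 (L₀ := K) w)) →+* D),
    s48g_FinChart A₀ ϖ O w red ψ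

/-- packages for `w` and `w⁻¹` give the geometric inputs. -/
theorem s48g_geoInputs_of_finPack {K F : Type*} [Field K] [Field F] [Algebra K F] [CharZero K]
    {Fb₁ Fb₂ : Type u} [Field Fb₁] [Field Fb₂]
    {A₀ : ValuationSubring K} [IsDiscreteValuationRing ↥A₀] {ϖ : ↥A₀} {O : ValuationSubring F}
    {red₁ : ↥O →+* Fb₁} {red₂ : ↥O →+* Fb₂} {w : F} [FFGen K w] (hw0 : w ≠ 0)
    (hAO : ∀ a : ↥A₀, algebraMap K F (a : K) ∈ O)
    (hP : s48g_FinPack A₀ ϖ O red₁ w) (hP' : s48g_FinPack A₀ ϖ O red₂ w⁻¹)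
    (m : ℕ) (hm0 : m ≠ 0) (hmA : ((m : K))⁻¹ ∈ A₀) :
    s18_GeoInputs A₀ O hAO ϖ w m := by
  obtain ⟨D₁, i1, i2, i3, i4, ψ₁, h₁⟩ := hP
  obtain ⟨D₂, j1, j2, j3, j4, ψ₂, h₂⟩ := hP'
  exact s48g_geoInputs_of_finChart h₁ h₂ hw0 m hm0 hmA

section Step

variable {K F₀ F : Type*} [Field K] [Field F₀] [Field F] [Algebra K F₀] [Algebra K F]
  [Algebra F₀ F] [IsScalarTower K F₀ F] [FiniteDimensional F₀ F] [CharZero F₀]
  {Fb₀ Fb : Type u} [Field Fb₀] [Field Fb] [Algebra Fb₀ Fb]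
  {O₀ : ValuationSubring F₀} {red₀ : ↥O₀ →+* Fb₀} {n : ℕ}
  {b : Module.Basis (Fin n) F₀ F} {t : F} {f : (↥O₀)[X]} {tb : Fb}
  (hK : s48g_LayerData O₀ red₀ b t f tb)
  {A₀ : ValuationSubring K} {ϖ : ↥A₀} {w₀ : F₀}
  (bb : Module.Basis (Fin n) Fb₀ Fb) (hbb : ∀ i : Fin n, bb i = tb ^ (i : ℕ))

include hbb in
/-- **the finite-level step**: the chart package of the layer. -/
theorem s48g_finPack_step [Algebra.IsSeparable Fb₀ Fb]
    (hP : s48g_FinPack A₀ ϖ O₀ red₀ w₀)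
    (hE : ∃ (ι : Type) (J : Finset ι) (bs : ι → Module.Basis (Fin n) F₀ F) (s : ι → F)
      (fR : ι → (↥(s48g_B₀ K O₀ w₀))[X]) (sd : ι → Fin n → F) (η : ι → F)
      (d e : ι → ↥(s48g_B₀ K O₀ w₀)),
      s48g_Etale (s48g_B₀ K O₀ w₀) (s48g_B hK K w₀) J bs s fR sd η d e) :
    s48g_FinPack A₀ ϖ (s48g_O hK) (s48g_red hK) (algebraMap F₀ F w₀) := by
  obtain ⟨D₀, i1, i2, i3, i4, ψ₀, h₀⟩ := hP
  obtain ⟨ι, J, bs, s, fR, sd, η, d, e, hE⟩ := hE
  haveI : FiniteDimensional Fb₀ Fb := Module.Finite.of_basis bb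
  letI a1 : Algebra D₀ Fb := ((algebraMap Fb₀ Fb).comp (algebraMap D₀ Fb₀)).toAlgebra
  haveI t1 : IsScalarTower D₀ Fb₀ Fb := IsScalarTower.of_algebraMap_eq fun _ => rfl
  have hch := s48g_finChart_step hK h₀ bb hbb hE
  haveI hded : IsDedekindDomain ↥(integralClosure D₀ Fb) :=
    integralClosure.isDedekindDomain D₀ Fb₀ Fb
  haveI hfrac : IsFractionRing ↥(integralClosure D₀ Fb) Fb :=
    integralClosure.isFractionRing_of_finite_extension Fb₀ Fb
  exact ⟨↥(integralClosure D₀ Fb), inferInstance, hded, inferInstance, hfrac, _, hch⟩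

include hbb in
/-- **the finite-level step for a tame Kummer layer** `t ^ n = h`. -/
theorem s48g_finPack_kummer [CharZero K] [IsDiscreteValuationRing ↥A₀] [FFGen K w₀]
    (hP : s48g_FinPack A₀ ϖ O₀ red₀ w₀)
    (h : F₀) (hh : t ^ n = algebraMap F₀ F h) (hhO : h ∈ O₀)
    (hhred : red₀ ⟨h, hhO⟩ ≠ 0) (hnA : ((n : K))⁻¹ ∈ A₀)
    (hdiv : ∀ P : Place K F₀, (n : ℤ) ∣ P.ord h) :
    s48g_FinPack A₀ ϖ (s48g_O hK) (s48g_red hK) (algebraMap F₀ F w₀) := by
  have hn := s48g_n_pos hK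
  have hn0 : n ≠ 0 := hn.ne'
  have hnK : (n : K) ≠ 0 := by exact_mod_cast hn0
  -- separability
  haveI hsep : Algebra.IsSeparable Fb₀ Fb := by
    obtain ⟨D₀, i1, i2, i3, i4, ψ₀, h₀⟩ := hP
    have htb : tb ^ n = algebraMap Fb₀ Fb (red₀ ⟨h, hhO⟩) := by
      rw [← s48g_red_t hK, ← map_pow, ← s48g_red_algebraMap hK ⟨h, hhO⟩]
      congr 1
      exact Subtype.ext hh
    have hnb : (n : Fb₀) ≠ 0 := by
      have hmemA : (n : K) ∈ A₀ := natCast_mem A₀ n
      have h1 : (⟨algebraMap K F₀ ((⟨(n : K), hmemA⟩ : ↥A₀) : K), h₀.const_mem ⟨(n : K), hmemA⟩⟩ : ↥O₀) *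
          ⟨algebraMap K F₀ ((⟨((n : K))⁻¹, hnA⟩ : ↥A₀) : K), h₀.const_mem ⟨((n : K))⁻¹, hnA⟩⟩ = 1 := by
        apply Subtype.ext
        show algebraMap K F₀ (n : K) * algebraMap K F₀ ((n : K))⁻¹ = 1
        rw [← map_mul, mul_inv_cancel₀ hnK, map_one]
      have h2 := congrArg red₀ h1
      rw [map_mul, map_one] at h2
      have h3 : (⟨algebraMap K F₀ ((⟨(n : K), hmemA⟩ : ↥A₀) : K), h₀.const_mem ⟨(n : K), hmemA⟩⟩ : ↥O₀) =
          ((n : ℕ) : ↥O₀) := by
        apply Subtype.ext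
        show algebraMap K F₀ (n : K) = (((n : ℕ) : ↥O₀) : F₀)
        rw [map_natCast]
        rfl
      rw [h3, map_natCast] at h2
      intro h0
      rw [h0, zero_mul] at h2
      exact zero_ne_one h2
    exact s48g_kummer_isSeparable bb tb hbb _ hhred htb hnb
  have hE : ∃ (ι : Type) (J : Finset ι) (bs : ι → Module.Basis (Fin n) F₀ F) (s : ι → F)
      (fR : ι → (↥(s48g_B₀ K O₀ w₀))[X]) (sd : ι → Fin n → F) (η : ι → F)
      (d e : ι → ↥(s48g_B₀ K O₀ w₀)),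
      s48g_Etale (s48g_B₀ K O₀ w₀) (s48g_B hK K w₀) J bs s fR sd η d e := by
    obtain ⟨D₀, i1, i2, i3, i4, ψ₀, h₀⟩ := hP
    obtain ⟨J, bs, s, fR, sd, η, d, e, hE⟩ :=
      s48g_fin_kummer_etale hK h₀ h hh hhO hhred hnA hdiv
    exact ⟨ℕ, J, bs, s, fR, sd, η, d, e, hE⟩
  exact s48g_finPack_step hK bb hbb hP hE

end Step

end Fermat.Agent.Lib.S48
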