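/-
DS-1 (S48), wall [T7] (helper6), brick (F6): **the finite-level step for a GIVEN Gauss ring of the
layer.**

In the application the Gauss ring `O` of the layer `F` is given concretely (`s18g_V G 𝓕₂ h𝓕₂`,
integral `q`-expansions) and restricts to the Gauss ring `O₀` of the base:
`hO : ∀ c : F₀, algebraMap F₀ F c ∈ O ↔ c ∈ O₀`.  By uniqueness of the Gauss extension in an
unramified monogenic layer (helper1's `s48a_O_unique`) `O = s48g_O hK`, where the layer datum `hK` is
built from the irreducibility of the reduced polynomial (`Fb = AdjoinRoot f̄`); so the finite-level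
packages of the base for two coordinates `w₀`, `w₀'` (in the application `w₀' = w₀⁻¹`) propagate to
packages of `(F, O)` with a common reduction map.

* `s48g_finPack_step_of_O`   : general monic `f` (irreducible, separable reduction) + étale data;
* `s48g_finPack_kummer_of_O` : tame Kummer layer `t ^ n = h`.
-/
import Fermat.Agent.Lib.S48.GFinP
import Fermat.Agent.Lib.S48.GFinI
import Fermat.Agent.Lib.S48.AVal

set_option autoImplicit false
set_option linter.unusedSectionVars false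
set_option linter.style.haveILetI false

noncomputable section

namespace Fermat.Agent.Lib.S48

open AlgebraicCurve IsDedekindDomain Fermat.Agent.Lib.FF Fermat.Agent.Lib.S18 Polynomial

universe u

variable {K F₀ F : Type*} [Field K] [Field F₀] [Field F] [Algebra K F₀] [Algebra K F]
  [Algebra F₀ F] [IsScalarTower K F₀ F] [FiniteDimensional F₀ F] [CharZero F₀]
  {Fb₀ : Type u} [Field Fb₀]
  {O₀ : ValuationSubring F₀} {red₀ : ↥O₀ →+* Fb₀} {n : ℕ}
  {A₀ : ValuationSubring K} {ϖ : ↥A₀} {w₀ w₀' : F₀}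

/-- **the finite-level step for a given Gauss ring**, general monogenic layer. -/
theorem s48g_finPack_step_of_O
    (hP : s48g_FinPack A₀ ϖ O₀ red₀ w₀) (hP' : s48g_FinPack A₀ ϖ O₀ red₀ w₀')
    (b : Module.Basis (Fin n) F₀ F) (t : F) (f : (↥O₀)[X])
    (basis : ∀ i : Fin n, b i = t ^ (i : ℕ))
    (monic : f.Monic) (natDegree : f.natDegree = n) (root : s48g_ev O₀ t f = 0)
    (hirr : Irreducible (f.map red₀)) (hsep : (f.map red₀).Separable)
    (O : ValuationSubring F) (hO : ∀ c : F₀, algebraMap F₀ F c ∈ O ↔ c ∈ O₀)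
    (hE : ∃ (ι : Type) (J : Finset ι) (bs : ι → Module.Basis (Fin n) F₀ F) (s : ι → F)
      (fR : ι → (↥(s48g_B₀ K O₀ w₀))[X]) (sd : ι → Fin n → F) (η : ι → F)
      (d e : ι → ↥(s48g_B₀ K O₀ w₀)),
      s48g_Etale (s48g_B₀ K O₀ w₀) (s18_ring O (s18_chart1 (L₀ := K) (algebraMap F₀ F w₀)))
        J bs s fR sd η d e)
    (hE' : ∃ (ι : Type) (J : Finset ι) (bs : ι → Module.Basis (Fin n) F₀ F) (s : ι → F)
      (fR : ι → (↥(s48g_B₀ K O₀ w₀'))[X]) (sd : ι → Fin n → F) (η : ι → F)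
      (d e : ι → ↥(s48g_B₀ K O₀ w₀')),
      s48g_Etale (s48g_B₀ K O₀ w₀') (s18_ring O (s18_chart1 (L₀ := K) (algebraMap F₀ F w₀')))
        J bs s fR sd η d e) :
    ∃ (Fb : Type u) (_ : Field Fb) (red : ↥O →+* Fb),
      s48g_FinPack A₀ ϖ O red (algebraMap F₀ F w₀) ∧
        s48g_FinPack A₀ ϖ O red (algebraMap F₀ F w₀') := by
  haveI : Fact (Irreducible (f.map red₀)) := ⟨hirr⟩
  have hinv₀ : ∀ y : ↥O₀, red₀ y ≠ 0 → ((y : F₀))⁻¹ ∈ O₀ := by
    obtain ⟨D₀, i1, i2, i3, i4, ψ₀, h₀⟩ := hP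
    exact fun y hy => s48g_fin_inv_mem h₀ y hy
  have hK : s48g_LayerData O₀ red₀ b t f (AdjoinRoot.root (f.map red₀)) :=
    s48g_layerData_of_irreducible b t f hinv₀ basis monic natDegree root
  obtain rfl : O = s48g_O hK := s48a_O_unique hK O hO
  let bb : Module.Basis (Fin n) Fb₀ (AdjoinRoot (f.map red₀)) :=
    s48g_adjoinRoot_basis (red₀ := red₀) f monic natDegree
  have hbb : ∀ i : Fin n, bb i = AdjoinRoot.root (f.map red₀) ^ (i : ℕ) :=
    s48g_adjoinRoot_basis_apply f monic natDegree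
  haveI : Algebra.IsSeparable Fb₀ (AdjoinRoot (f.map red₀)) := by
    have hm : (f.map red₀).Monic := monic.map red₀
    have hsepr : IsSeparable Fb₀ (AdjoinRoot.root (f.map red₀)) := by
      have h1 : minpoly Fb₀ (AdjoinRoot.root (f.map red₀)) ∣ f.map red₀ := by
        apply minpoly.dvd
        rw [aeval_def, AdjoinRoot.algebraMap_eq]
        exact AdjoinRoot.eval₂_root _
      exact hsep.of_dvd h1
    have htop : IntermediateField.adjoin Fb₀ {AdjoinRoot.root (f.map red₀)} = ⊤ := by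
      apply IntermediateField.adjoin_eq_top_of_algebra
      exact (PowerBasis.mk (AdjoinRoot.root (f.map red₀)) n bb hbb).adjoin_gen_eq_top
    haveI h2 : Algebra.IsSeparable Fb₀
        ↥(IntermediateField.adjoin Fb₀ {AdjoinRoot.root (f.map red₀)}) :=
      (IntermediateField.isSeparable_adjoin_simple_iff_isSeparable Fb₀ _).mpr hsepr
    refine ⟨fun y => ?_⟩
    have hy : y ∈ IntermediateField.adjoin Fb₀ {AdjoinRoot.root (f.map red₀)} := by
      rw [htop]
      exact IntermediateField.mem_top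
    exact IntermediateField.isSeparable_of_mem_isSeparable Fb₀ _ hy
  exact ⟨AdjoinRoot (f.map red₀), inferInstance, s48g_red hK,
    s48g_finPack_step hK bb hbb hP hE, s48g_finPack_step hK bb hbb hP' hE'⟩

/-- **the finite-level step for a given Gauss ring**, tame Kummer layer `t ^ n = h`. -/
theorem s48g_finPack_kummer_of_O [CharZero K] [IsDiscreteValuationRing ↥A₀]
    [FFGen K w₀] [FFGen K w₀']
    (hP : s48g_FinPack A₀ ϖ O₀ red₀ w₀) (hP' : s48g_FinPack A₀ ϖ O₀ red₀ w₀')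
    (b : Module.Basis (Fin n) F₀ F) (t : F) (basis : ∀ i : Fin n, b i = t ^ (i : ℕ))
    (h : F₀) (hh : t ^ n = algebraMap F₀ F h) (hhO : h ∈ O₀)
    (hhred : red₀ ⟨h, hhO⟩ ≠ 0) (hnA : ((n : K))⁻¹ ∈ A₀) (hn : n ≠ 0)
    (hdiv : ∀ P : Place K F₀, (n : ℤ) ∣ P.ord h)
    (hirr : Irreducible (X ^ n - C (red₀ ⟨h, hhO⟩)))
    (O : ValuationSubring F) (hO : ∀ c : F₀, algebraMap F₀ F c ∈ O ↔ c ∈ O₀) :
    ∃ (Fb : Type u) (_ : Field Fb) (red : ↥O →+* Fb),
      s48g_FinPack A₀ ϖ O red (algebraMap F₀ F w₀) ∧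
        s48g_FinPack A₀ ϖ O red (algebraMap F₀ F w₀') := by
  set f : (↥O₀)[X] := X ^ n - C (⟨h, hhO⟩ : ↥O₀) with hf
  have hfmap : f.map red₀ = X ^ n - C (red₀ ⟨h, hhO⟩) := by
    rw [hf, Polynomial.map_sub, Polynomial.map_pow, map_X, map_C]
  have hirr' : Irreducible (f.map red₀) := hfmap ▸ hirr
  haveI : Fact (Irreducible (f.map red₀)) := ⟨hirr'⟩
  have hinv₀ : ∀ y : ↥O₀, red₀ y ≠ 0 → ((y : F₀))⁻¹ ∈ O₀ := by
    obtain ⟨D₀, i1, i2, i3, i4, ψ₀, h₀⟩ := hP
    exact fun y hy => s48g_fin_inv_mem h₀ y hy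
  have hmonic : f.Monic := monic_X_pow_sub_C _ hn
  have hdeg : f.natDegree = n := natDegree_X_pow_sub_C
  have hroot : s48g_ev O₀ t f = 0 := by simp [hf, s48g_ev, hh]
  have hK : s48g_LayerData O₀ red₀ b t f (AdjoinRoot.root (f.map red₀)) :=
    s48g_layerData_of_irreducible b t f hinv₀ basis hmonic hdeg hroot
  obtain rfl : O = s48g_O hK := s48a_O_unique hK O hO
  let bb : Module.Basis (Fin n) Fb₀ (AdjoinRoot (f.map red₀)) :=
    s48g_adjoinRoot_basis (red₀ := red₀) f hmonic hdeg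
  have hbb : ∀ i : Fin n, bb i = AdjoinRoot.root (f.map red₀) ^ (i : ℕ) :=
    s48g_adjoinRoot_basis_apply f hmonic hdeg
  exact ⟨AdjoinRoot (f.map red₀), inferInstance, s48g_red hK,
    s48g_finPack_kummer hK bb hbb hP h hh hhO hhred hnA hdiv,
    s48g_finPack_kummer hK bb hbb hP' h hh hhO hhred hnA hdiv⟩

end Fermat.Agent.Lib.S48
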