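/-
DS-1 (S48), wall [T7] (helper6), brick (F10): **the finite-level induction in the concrete
`q`-expansion model.**

`G` a Gauss datum on a number field `K` (`G.A` a discrete valuation ring), `𝓕` an intermediate field
of `K((q))/K` inside `s18g_Frac G`, `V = s18g_V G 𝓕 h𝓕` its Gauss ring.

* `s48g_FinPack2 G 𝓕 h𝓕 w` : the finite-level packages for both charts `w`, `w⁻¹`, with a common
  reduction map (existentially quantified);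
* `s48g_finPack2_kummer`   : propagation through a tame Kummer layer `𝓕₁ ⊆ 𝓕₂ = 𝓕₁(t)`,
  `t ^ n = h`; the irreducibility of the reduced polynomial is imported from the top level through
  any ring homomorphism `i : 𝓕₁ → Ft` compatible with the Gauss rings;
* `s48g_finPack2_step`     : the same for a general monogenic layer with étale data;
* `s48g_geoInputs_of_finPack2` : `s18_GeoInputs` (the `hgeo` of helper7's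
  `s48d_torsion_injective_baseChange`) from the packages.
-/
import Fermat.Agent.Lib.S48.GFinC
import Fermat.Agent.Lib.S48.GFinGen

set_option autoImplicit false
set_option linter.unusedSectionVars false
set_option linter.style.haveILetI false

noncomputable section

namespace Fermat.Agent.Lib.S48

open AlgebraicCurve IsDedekindDomain Fermat.Agent.Lib.FF Fermat.Agent.Lib.S18 Polynomial

variable {K : Type} [Field K] [CharZero K] {κ : Type} [Field κ] (G : s18g_GaussData K κ)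

/-- **the finite-level packages of both charts** of the coordinate `w` of `𝓕`. -/
def s48g_FinPack2 (𝓕 : IntermediateField K (LaurentSeries K)) (h𝓕 : ∀ f ∈ 𝓕, f ∈ s18g_Frac G)
    (w : ↥𝓕) : Prop :=
  ∃ (Fb : Type) (_ : Field Fb) (red : ↥(s18g_V G 𝓕 h𝓕) →+* Fb),
    s48g_FinPack G.A G.ϖ (s18g_V G 𝓕 h𝓕) red w ∧ s48g_FinPack G.A G.ϖ (s18g_V G 𝓕 h𝓕) red w⁻¹

/-- **the geometric inputs from the packages.** -/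
theorem s48g_geoInputs_of_finPack2 [IsDiscreteValuationRing G.A]
    (𝓕 : IntermediateField K (LaurentSeries K)) (h𝓕 : ∀ f ∈ 𝓕, f ∈ s18g_Frac G)
    (w : ↥𝓕) [FFGen K w] (hw0 : w ≠ 0) (hP : s48g_FinPack2 G 𝓕 h𝓕 w)
    (m : ℕ) (hm0 : m ≠ 0) (hmA : ((m : K))⁻¹ ∈ G.A) :
    s18_GeoInputs G.A (s18g_V G 𝓕 h𝓕) (s18f_const_mem_V G 𝓕 h𝓕) G.ϖ w m := by
  obtain ⟨Fb, iF, red, h1, h2⟩ := hP
  exact s48g_geoInputs_of_finPack hw0 (s18f_const_mem_V G 𝓕 h𝓕) h1 h2 m hm0 hmA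

section Layer

variable (𝓕₁ 𝓕₂ : IntermediateField K (LaurentSeries K))
  (h𝓕₁ : ∀ f ∈ 𝓕₁, f ∈ s18g_Frac G) (h𝓕₂ : ∀ f ∈ 𝓕₂, f ∈ s18g_Frac G)
  [Algebra ↥𝓕₁ ↥𝓕₂] [IsScalarTower K ↥𝓕₁ ↥𝓕₂] [FiniteDimensional ↥𝓕₁ ↥𝓕₂]
  (halg : ∀ y : ↥𝓕₁, ((algebraMap ↥𝓕₁ ↥𝓕₂ y : ↥𝓕₂) : LaurentSeries K) = (y : LaurentSeries K))

include halg in
/-- the Gauss ring of the layer restricts to the Gauss ring of the base. -/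
theorem s48g_gauss_restrict (c : ↥𝓕₁) :
    algebraMap ↥𝓕₁ ↥𝓕₂ c ∈ s18g_V G 𝓕₂ h𝓕₂ ↔ c ∈ s18g_V G 𝓕₁ h𝓕₁ := by
  rw [s18g_mem_V_iff, s18g_mem_V_iff, halg]

include halg in
/-- **propagation of the finite-level packages through a tame Kummer layer.** -/
theorem s48g_finPack2_kummer [IsDiscreteValuationRing G.A] (w₁ : ↥𝓕₁) [FFGen K w₁]
    (hP : s48g_FinPack2 G 𝓕₁ h𝓕₁ w₁)
    {n : ℕ} (hn : n ≠ 0) (hnA : ((n : K))⁻¹ ∈ G.A)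
    (b : Module.Basis (Fin n) ↥𝓕₁ ↥𝓕₂) (t : ↥𝓕₂) (basis : ∀ i : Fin n, b i = t ^ (i : ℕ))
    (h : ↥𝓕₁) (hh : t ^ n = algebraMap ↥𝓕₁ ↥𝓕₂ h) (hhV : h ∈ s18g_V G 𝓕₁ h𝓕₁)
    (hhinvV : h⁻¹ ∈ s18g_V G 𝓕₁ h𝓕₁) (hhne : h ≠ 0)
    (hdiv : ∀ P : Place K ↥𝓕₁, (n : ℤ) ∣ P.ord h)
    {Ft : Type*} [Field Ft] {Fbt : Type*} [Field Fbt] (Ot : ValuationSubring Ft)
    (redt : ↥Ot →+* Fbt) (i : ↥𝓕₁ →+* Ft) (hi : ∀ y ∈ s18g_V G 𝓕₁ h𝓕₁, i y ∈ Ot)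
    (hϖ : redt ⟨i (algebraMap K ↥𝓕₁ ((G.ϖ : G.A) : K)), hi _ (s18f_const_mem_V G 𝓕₁ h𝓕₁ G.ϖ)⟩ = 0)
    (hirr : Irreducible (X ^ n - C (redt ⟨i h, hi h hhV⟩))) :
    s48g_FinPack2 G 𝓕₂ h𝓕₂ (algebraMap ↥𝓕₁ ↥𝓕₂ w₁) := by
  obtain ⟨Fb₁, iF, red₁, hP1, hP2⟩ := hP
  haveI : CharZero ↥𝓕₁ := charZero_of_injective_algebraMap (algebraMap K ↥𝓕₁).injective
  haveI : FFGen K w₁⁻¹ := s18f_ffGen_inv w₁
  -- facts on `red₁` from one of the packages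
  obtain ⟨hsurj, hker, hh0⟩ : Function.Surjective red₁ ∧
      (∀ y : ↥(s18g_V G 𝓕₁ h𝓕₁), red₁ y = 0 ↔
        ∃ z ∈ s18g_V G 𝓕₁ h𝓕₁, (y : ↥𝓕₁) = algebraMap K ↥𝓕₁ ((G.ϖ : G.A) : K) * z) ∧
      red₁ ⟨h, hhV⟩ ≠ 0 := by
    obtain ⟨D, i1, i2, i3, i4, ψ, hc⟩ := hP1
    refine ⟨hc.red_surj, hc.ker, ?_⟩
    intro h0
    have h1 : (⟨h, hhV⟩ : ↥(s18g_V G 𝓕₁ h𝓕₁)) * ⟨h⁻¹, hhinvV⟩ = 1 :=
      Subtype.ext (mul_inv_cancel₀ hhne)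
    have h2 := congrArg red₁ h1
    rw [map_mul, h0, zero_mul, map_one] at h2
    exact zero_ne_one h2
  -- irreducibility at the finite level
  have hirr₁ : Irreducible (X ^ n - C (red₁ ⟨h, hhV⟩)) := by
    refine s48g_kummer_irreducible_of_top (s18g_V G 𝓕₁ h𝓕₁) red₁ hsurj Ot redt i hi ?_ n hn h hhV
      (i h) (hi h hhV) rfl hirr
    intro y hy
    obtain ⟨z, hz, e⟩ := (hker y).mp hy
    have h1 : (⟨i (y : ↥𝓕₁), hi _ y.2⟩ : ↥Ot) =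
        ⟨i (algebraMap K ↥𝓕₁ ((G.ϖ : G.A) : K)), hi _ (s18f_const_mem_V G 𝓕₁ h𝓕₁ G.ϖ)⟩ *
          ⟨i z, hi z hz⟩ := by
      apply Subtype.ext
      show i (y : ↥𝓕₁) = i _ * i z
      rw [e, map_mul]
    rw [h1, map_mul, hϖ, zero_mul]
  obtain ⟨Fb, iFb, red, h1, h2⟩ := s48g_finPack_kummer_of_O (K := K) hP1 hP2 b t basis h hh hhV hh0
    hnA hn hdiv hirr₁ (s18g_V G 𝓕₂ h𝓕₂) (s48g_gauss_restrict G 𝓕₁ 𝓕₂ h𝓕₁ h𝓕₂ halg)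
  refine ⟨Fb, iFb, red, h1, ?_⟩
  rw [← map_inv₀]
  exact h2

include halg in
/-- **propagation of the finite-level packages through a general monogenic layer** with étale
data on both charts. -/
theorem s48g_finPack2_step (w₁ : ↥𝓕₁) (hP : s48g_FinPack2 G 𝓕₁ h𝓕₁ w₁)
    {n : ℕ} (b : Module.Basis (Fin n) ↥𝓕₁ ↥𝓕₂) (t : ↥𝓕₂) (basis : ∀ i : Fin n, b i = t ^ (i : ℕ))
    (f : (↥(s18g_V G 𝓕₁ h𝓕₁))[X]) (monic : f.Monic) (natDegree : f.natDegree = n)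
    (root : s48g_ev (s18g_V G 𝓕₁ h𝓕₁) t f = 0)
    {Ft : Type*} [Field Ft] {Fbt : Type*} [Field Fbt] (Ot : ValuationSubring Ft)
    (redt : ↥Ot →+* Fbt) (i : ↥𝓕₁ →+* Ft) (hi : ∀ y ∈ s18g_V G 𝓕₁ h𝓕₁, i y ∈ Ot)
    (hϖ : redt ⟨i (algebraMap K ↥𝓕₁ ((G.ϖ : G.A) : K)), hi _ (s18f_const_mem_V G 𝓕₁ h𝓕₁ G.ϖ)⟩ = 0)
    (ft : (↥Ot)[X])
    (hft : ∀ k : ℕ, ((ft.coeff k : ↥Ot) : Ft) = i ((f.coeff k : ↥(s18g_V G 𝓕₁ h𝓕₁)) : ↥𝓕₁))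
    (hirr : Irreducible (ft.map redt)) (hsep : (ft.map redt).Separable)
    (hE : ∃ (ι : Type) (J : Finset ι) (bs : ι → Module.Basis (Fin n) ↥𝓕₁ ↥𝓕₂) (s : ι → ↥𝓕₂)
      (fR : ι → (↥(s48g_B₀ K (s18g_V G 𝓕₁ h𝓕₁) w₁))[X]) (sd : ι → Fin n → ↥𝓕₂) (η : ι → ↥𝓕₂)
      (d e : ι → ↥(s48g_B₀ K (s18g_V G 𝓕₁ h𝓕₁) w₁)),
      s48g_Etale (s48g_B₀ K (s18g_V G 𝓕₁ h𝓕₁) w₁)
        (s18_ring (s18g_V G 𝓕₂ h𝓕₂) (s18_chart1 (L₀ := K) (algebraMap ↥𝓕₁ ↥𝓕₂ w₁)))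
        J bs s fR sd η d e)
    (hE' : ∃ (ι : Type) (J : Finset ι) (bs : ι → Module.Basis (Fin n) ↥𝓕₁ ↥𝓕₂) (s : ι → ↥𝓕₂)
      (fR : ι → (↥(s48g_B₀ K (s18g_V G 𝓕₁ h𝓕₁) w₁⁻¹))[X]) (sd : ι → Fin n → ↥𝓕₂) (η : ι → ↥𝓕₂)
      (d e : ι → ↥(s48g_B₀ K (s18g_V G 𝓕₁ h𝓕₁) w₁⁻¹)),
      s48g_Etale (s48g_B₀ K (s18g_V G 𝓕₁ h𝓕₁) w₁⁻¹)
        (s18_ring (s18g_V G 𝓕₂ h𝓕₂) (s18_chart1 (L₀ := K) (algebraMap ↥𝓕₁ ↥𝓕₂ w₁⁻¹)))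
        J bs s fR sd η d e) :
    s48g_FinPack2 G 𝓕₂ h𝓕₂ (algebraMap ↥𝓕₁ ↥𝓕₂ w₁) := by
  obtain ⟨Fb₁, iF, red₁, hP1, hP2⟩ := hP
  haveI : CharZero ↥𝓕₁ := charZero_of_injective_algebraMap (algebraMap K ↥𝓕₁).injective
  obtain ⟨hsurj, hker⟩ : Function.Surjective red₁ ∧
      (∀ y : ↥(s18g_V G 𝓕₁ h𝓕₁), red₁ y = 0 ↔
        ∃ z ∈ s18g_V G 𝓕₁ h𝓕₁, (y : ↥𝓕₁) = algebraMap K ↥𝓕₁ ((G.ϖ : G.A) : K) * z) := by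
    obtain ⟨D, i1, i2, i3, i4, ψ, hc⟩ := hP1
    exact ⟨hc.red_surj, hc.ker⟩
  have hkert : ∀ y : ↥(s18g_V G 𝓕₁ h𝓕₁), red₁ y = 0 → redt ⟨i (y : ↥𝓕₁), hi _ y.2⟩ = 0 := by
    intro y hy
    obtain ⟨z, hz, e⟩ := (hker y).mp hy
    have h1 : (⟨i (y : ↥𝓕₁), hi _ y.2⟩ : ↥Ot) =
        ⟨i (algebraMap K ↥𝓕₁ ((G.ϖ : G.A) : K)), hi _ (s18f_const_mem_V G 𝓕₁ h𝓕₁ G.ϖ)⟩ *
          ⟨i z, hi z hz⟩ := by
      apply Subtype.ext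
      show i (y : ↥𝓕₁) = i _ * i z
      rw [e, map_mul]
    rw [h1, map_mul, hϖ, zero_mul]
  obtain ⟨ε, hε⟩ := s48g_exists_residue_embedding (s18g_V G 𝓕₁ h𝓕₁) red₁ hsurj Ot redt i hi hkert
  have hmap : (f.map red₁).map ε = ft.map redt := by
    ext k
    rw [coeff_map, coeff_map, coeff_map, hε]
    congr 1
    exact Subtype.ext (hft k).symm
  have hirr₁ : Irreducible (f.map red₁) :=
    s48g_irreducible_of_embedding ε _ (monic.map red₁) (hmap ▸ hirr)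
  have hsep₁ : (f.map red₁).Separable := by
    have : ((f.map red₁).map ε).Separable := hmap ▸ hsep
    exact (Polynomial.separable_map ε).mp this
  obtain ⟨Fb, iFb, red, h1, h2⟩ := s48g_finPack_step_of_O (K := K) hP1 hP2 b t f basis monic
    natDegree root hirr₁ hsep₁ (s18g_V G 𝓕₂ h𝓕₂)
    (s48g_gauss_restrict G 𝓕₁ 𝓕₂ h𝓕₁ h𝓕₂ halg) hE hE'
  refine ⟨Fb, iFb, red, h1, ?_⟩
  rw [← map_inv₀]
  exact h2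

end Layer

end Fermat.Agent.Lib.S48
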