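/-
DS-1 (S48), wall [T7] (helper6), brick (T3): **descent of a Kummer layer to the number fields.**

`F₀ ≤ F₁ ⊆ ℚ((q))` rational models, `F₁` generated over `ℚ` by a finite set `S`; `K/ℚ` algebraic
(`K = ℚ̄`), `E_i = laurentBaseChange K F_i`. If `E₁ = E₀(τ)`, `τ ^ r = h ∈ E₀` (in the explicit form:
every generator `s ∈ S` is `∑_{j<r} c_{s,j} τ^j` with `c_{s,j} ∈ E₀`), then there is a number field
`L_min ⊆ K` such that for EVERY `L₀ ⊇ L_min` the layer descends: `τ = τ₀ ⊗ K`, `h = h₀ ⊗ K`,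
`τ₀ ^ r = h₀`, and every element of `laurentBaseChange L₀ F₁` is `∑_{j<r} c_j τ₀^j` with
`c_j ∈ laurentBaseChange L₀ F₀`; with the linear independence inherited from the top this is a
power basis of the layer at level `L₀` (the input of `s48g_finPack2_kummer`).
-/
import Mathlib
import Fermat.Agent.Lib.S18.QBase

set_option autoImplicit false
set_option linter.unusedSectionVars false
set_option linter.style.haveILetI false

noncomputable section

namespace Fermat.Agent.Lib.S48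

open ModularCurve IntermediateField Polynomial Fermat.Agent.Lib.S18

/-- elements of `𝓕(τ)`, `τ ^ r ∈ 𝓕`, are polynomials of degree `< r` in `τ`. -/
theorem s48g_mem_adjoin_root_pow {𝓕 Ω : Type*} [Field 𝓕] [Field Ω] [Algebra 𝓕 Ω] {r : ℕ}
    (hr : r ≠ 0) (τ : Ω) (h : 𝓕) (hτh : τ ^ r = algebraMap 𝓕 Ω h) {x : Ω} (hx : x ∈ 𝓕⟮τ⟯) :
    ∃ c : Fin r → 𝓕, x = ∑ j : Fin r, algebraMap 𝓕 Ω (c j) * τ ^ (j : ℕ) := by
  have hf : (X ^ r - C h : 𝓕[X]).Monic := monic_X_pow_sub_C h hr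
  have hroot : aeval τ (X ^ r - C h : 𝓕[X]) = 0 := by
    rw [map_sub, map_pow, aeval_X, aeval_C, hτh, sub_self]
  have halg : IsAlgebraic 𝓕 τ := ⟨_, hf.ne_zero, hroot⟩
  have hx' : x ∈ (𝓕⟮τ⟯).toSubalgebra := hx
  rw [IntermediateField.adjoin_simple_toSubalgebra_of_isAlgebraic halg,
    Algebra.adjoin_singleton_eq_range_aeval] at hx'
  obtain ⟨g, rfl⟩ := hx'
  have hmod : aeval τ g = aeval τ (g %ₘ (X ^ r - C h)) := by
    conv_lhs => rw [← modByMonic_add_div g (X ^ r - C h)]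
    rw [map_add, map_mul, hroot, zero_mul, add_zero]
  have hne1 : (X ^ r - C h : 𝓕[X]) ≠ 1 := by
    intro h1
    have := congrArg natDegree h1
    rw [natDegree_X_pow_sub_C, natDegree_one] at this
    exact hr this
  have hdeg : (g %ₘ (X ^ r - C h)).natDegree < r := by
    have := natDegree_modByMonic_lt g hf hne1
    rwa [natDegree_X_pow_sub_C] at this
  refine ⟨fun j => (g %ₘ (X ^ r - C h)).coeff j, ?_⟩
  show (aeval τ) g = _
  rw [hmod, aeval_eq_sum_range' hdeg, Finset.sum_range]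
  refine Finset.sum_congr rfl fun j _ => ?_
  rw [Algebra.smul_def]

section Mono

variable (L : Type*) [Field L] [Algebra ℚ L]

theorem s48g_lbc_mono {F₀ F₁ : IntermediateField ℚ (LaurentSeries ℚ)} (h : F₀ ≤ F₁) :
    laurentBaseChange L F₀ ≤ laurentBaseChange L F₁ := by
  rw [laurentBaseChange, IntermediateField.adjoin_le_iff]
  rintro _ ⟨y, hy, rfl⟩
  exact coeffEmb_mem_laurentBaseChange L (h hy)

/-- a subfield containing the constants and the generators contains the base change. -/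
theorem s48g_lbc_le_of_gens {F₁ : IntermediateField ℚ (LaurentSeries ℚ)}
    (S : Set (LaurentSeries ℚ)) (hF₁ : F₁ ≤ IntermediateField.adjoin ℚ S)
    (W : IntermediateField L (LaurentSeries L)) (hW : ∀ s ∈ S, coeffEmb L s ∈ W) :
    laurentBaseChange L F₁ ≤ W := by
  rw [laurentBaseChange, IntermediateField.adjoin_le_iff]
  rintro _ ⟨y, hy, rfl⟩
  have hy' : y ∈ IntermediateField.adjoin ℚ S := hF₁ hy
  show coeffEmb L y ∈ W
  clear hy
  induction hy' using IntermediateField.adjoin_induction with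
  | mem x hx => exact hW x hx
  | algebraMap c =>
      have : coeffEmb L (algebraMap ℚ (LaurentSeries ℚ) c) =
          algebraMap L (LaurentSeries L) (algebraMap ℚ L c) :=
        s18q_coeffMap_algebraMap (algebraMap ℚ L) c
      rw [this]
      exact W.algebraMap_mem _
  | add x y _ _ hx hy => rw [map_add]; exact W.add_mem hx hy
  | inv x _ hx => rw [map_inv₀]; exact W.inv_mem hx
  | mul x y _ _ hx hy => rw [map_mul]; exact W.mul_mem hx hy

/-- **spanning at one level**: if the generators of `F₁` are polynomials of degree `< r` in `τ₀`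
over `laurentBaseChange L F₀`, `τ₀ ^ r = h₀`, then so is every element of
`laurentBaseChange L F₁`. -/
theorem s48g_span_of_gens {F₀ F₁ : IntermediateField ℚ (LaurentSeries ℚ)}
    (S : Set (LaurentSeries ℚ)) (hF₁ : F₁ ≤ IntermediateField.adjoin ℚ S)
    {r : ℕ} (hr : r ≠ 0) (τ₀ : LaurentSeries L) (h₀ : ↥(laurentBaseChange L F₀))
    (hτh : τ₀ ^ r = (h₀ : LaurentSeries L))
    (hS : ∀ s ∈ S, ∃ c : Fin r → ↥(laurentBaseChange L F₀),
      coeffEmb L s = ∑ j : Fin r, (c j : LaurentSeries L) * τ₀ ^ (j : ℕ)) :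
    ∀ x ∈ laurentBaseChange L F₁, ∃ c : Fin r → ↥(laurentBaseChange L F₀),
      x = ∑ j : Fin r, (c j : LaurentSeries L) * τ₀ ^ (j : ℕ) := by
  intro x hx
  set W : IntermediateField L (LaurentSeries L) :=
    IntermediateField.restrictScalars L
      (IntermediateField.adjoin ↥(laurentBaseChange L F₀) {τ₀}) with hW
  have hle : laurentBaseChange L F₁ ≤ W := by
    apply s48g_lbc_le_of_gens L S hF₁
    intro s hs
    obtain ⟨c, hc⟩ := hS s hs
    rw [hc]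
    refine sum_mem fun j _ => ?_
    refine mul_mem ?_ (pow_mem ?_ _)
    · exact (IntermediateField.adjoin ↥(laurentBaseChange L F₀) {τ₀}).algebraMap_mem (c j)
    · exact IntermediateField.mem_adjoin_simple_self _ τ₀
  have hxW : x ∈ IntermediateField.adjoin ↥(laurentBaseChange L F₀) {τ₀} := hle hx
  exact s48g_mem_adjoin_root_pow hr τ₀ h₀ hτh hxW

end Mono

section Descent

variable {K : Type*} [Field K] [Algebra ℚ K] [Algebra.IsAlgebraic ℚ K]
  {F₀ F₁ : IntermediateField ℚ (LaurentSeries ℚ)}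

/-- **(T3) descent of a Kummer layer**: for all number fields above a suitable `L_min`. -/
theorem s48g_layer_descent (S : Finset (LaurentSeries ℚ))
    (hF₁ : F₁ ≤ IntermediateField.adjoin ℚ (S : Set (LaurentSeries ℚ)))
    {r : ℕ} (hr : r ≠ 0) (τ : ↥(laurentBaseChange K F₁)) (h : ↥(laurentBaseChange K F₀))
    (hτh : (τ : LaurentSeries K) ^ r = (h : LaurentSeries K))
    (hS : ∀ s ∈ S, ∃ c : Fin r → ↥(laurentBaseChange K F₀),
      coeffEmb K s = ∑ j : Fin r, (c j : LaurentSeries K) * (τ : LaurentSeries K) ^ (j : ℕ))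
    (X₀ : Finset ↥(laurentBaseChange K F₀)) (X₁ : Finset ↥(laurentBaseChange K F₁)) :
    ∃ Lmin : IntermediateField ℚ K, FiniteDimensional ℚ Lmin ∧
      ∀ L₀ : IntermediateField ℚ K, Lmin ≤ L₀ →
        (∀ x ∈ X₀, x ∈ Set.range (s18q_map (algebraMap ↥L₀ K) F₀)) ∧
        (∀ x ∈ X₁, x ∈ Set.range (s18q_map (algebraMap ↥L₀ K) F₁)) ∧
        ∃ (τ₀ : ↥(laurentBaseChange ↥L₀ F₁)) (h₀ : ↥(laurentBaseChange ↥L₀ F₀)),
          s18q_map (algebraMap ↥L₀ K) F₁ τ₀ = τ ∧ s18q_map (algebraMap ↥L₀ K) F₀ h₀ = h ∧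
          (τ₀ : LaurentSeries ↥L₀) ^ r = (h₀ : LaurentSeries ↥L₀) ∧
          ∀ x : ↥(laurentBaseChange ↥L₀ F₁), ∃ c : Fin r → ↥(laurentBaseChange ↥L₀ F₀),
            (x : LaurentSeries ↥L₀) =
              ∑ j : Fin r, (c j : LaurentSeries ↥L₀) * (τ₀ : LaurentSeries ↥L₀) ^ (j : ℕ) := by
  classical
  choose c hc using hS
  -- the finitely many elements to descend
  let T₀ : Finset ↥(laurentBaseChange K F₀) :=
    insert h (X₀ ∪ S.attach.biUnion fun s => Finset.univ.image (c s.1 s.2))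
  let T₁ : Finset ↥(laurentBaseChange K F₁) := insert τ X₁
  obtain ⟨L₁, hfd₁, hL₁⟩ := s18q_exists_field_gen (K := K) (F₀ := F₀) T₀
  obtain ⟨L₂, hfd₂, hL₂⟩ := s18q_exists_field_gen (K := K) (F₀ := F₁) T₁
  haveI := hfd₁
  haveI := hfd₂
  refine ⟨L₁ ⊔ L₂, inferInstance, fun L₀ hL₀ => ?_⟩
  have hle₁ : L₁ ≤ L₀ := le_sup_left.trans hL₀
  have hle₂ : L₂ ≤ L₀ := le_sup_right.trans hL₀
  have hR₀ : ∀ x ∈ T₀, x ∈ Set.range (s18q_map (algebraMap ↥L₀ K) F₀) := by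
    intro x hx
    rw [← s18q_defOver_range]
    exact s18q_defOver_mono hle₁ ((s18q_defOver_range x).mpr (hL₁ x hx))
  have hR₁ : ∀ x ∈ T₁, x ∈ Set.range (s18q_map (algebraMap ↥L₀ K) F₁) := by
    intro x hx
    rw [← s18q_defOver_range]
    exact s18q_defOver_mono hle₂ ((s18q_defOver_range x).mpr (hL₂ x hx))
  refine ⟨fun x hx => hR₀ x ?_, fun x hx => hR₁ x (Finset.mem_insert_of_mem hx), ?_⟩
  · exact Finset.mem_insert_of_mem (Finset.mem_union_left _ hx)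
  obtain ⟨τ₀, hτ₀⟩ := hR₁ τ (Finset.mem_insert_self _ _)
  obtain ⟨h₀, hh₀⟩ := hR₀ h (Finset.mem_insert_self _ _)
  have hinj : Function.Injective (coeffMap (algebraMap ↥L₀ K)) := by
    intro x y hxy
    apply HahnSeries.ext
    funext n
    apply (algebraMap ↥L₀ K).injective
    have := congrArg (fun z : LaurentSeries K => z.coeff n) hxy
    simpa using this
  have hτ₀' : coeffMap (algebraMap ↥L₀ K) (τ₀ : LaurentSeries ↥L₀) = (τ : LaurentSeries K) := by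
    rw [← hτ₀]; rfl
  have hh₀' : coeffMap (algebraMap ↥L₀ K) (h₀ : LaurentSeries ↥L₀) = (h : LaurentSeries K) := by
    rw [← hh₀]; rfl
  have hpow : (τ₀ : LaurentSeries ↥L₀) ^ r = (h₀ : LaurentSeries ↥L₀) := by
    apply hinj
    rw [map_pow, hτ₀', hh₀', hτh]
  refine ⟨τ₀, h₀, hτ₀, hh₀, hpow, ?_⟩
  -- the generators at level `L₀`
  have hS₀ : ∀ s ∈ (S : Set (LaurentSeries ℚ)), ∃ c₀ : Fin r → ↥(laurentBaseChange ↥L₀ F₀),
      coeffEmb ↥L₀ s =
        ∑ j : Fin r, (c₀ j : LaurentSeries ↥L₀) * (τ₀ : LaurentSeries ↥L₀) ^ (j : ℕ) := by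
    intro s hs
    have hs' : s ∈ S := hs
    have hcr : ∀ j : Fin r, c s hs' j ∈ Set.range (s18q_map (algebraMap ↥L₀ K) F₀) := by
      intro j
      apply hR₀
      refine Finset.mem_insert_of_mem (Finset.mem_union_right _ ?_)
      rw [Finset.mem_biUnion]
      exact ⟨⟨s, hs'⟩, Finset.mem_attach _ _, Finset.mem_image_of_mem _ (Finset.mem_univ j)⟩
    choose c₀ hc₀ using hcr
    refine ⟨c₀, ?_⟩
    apply hinj
    rw [s18q_coeffMap_coeffEmb, hc s hs', map_sum]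
    refine Finset.sum_congr rfl fun j _ => ?_
    rw [map_mul, map_pow, hτ₀', ← hc₀ j]
    rfl
  intro x
  exact s48g_span_of_gens ↥L₀ (S : Set (LaurentSeries ℚ)) hF₁ hr (τ₀ : LaurentSeries ↥L₀) h₀ hpow
    hS₀ (x : LaurentSeries ↥L₀) x.2

end Descent

section Basis

variable {L Ω : Type*} [Field L] [Field Ω] [Algebra L Ω] (𝓕₀ 𝓕₁ : IntermediateField L Ω)
  [Algebra ↥𝓕₀ ↥𝓕₁]
  (halg : ∀ y : ↥𝓕₀, ((algebraMap ↥𝓕₀ ↥𝓕₁ y : ↥𝓕₁) : Ω) = (y : Ω))

include halg

/-- a power basis from the explicit spanning and independence statements. -/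
theorem s48g_basis_of_span_indep {r : ℕ} (τ₀ : ↥𝓕₁)
    (hspan : ∀ x : ↥𝓕₁, ∃ c : Fin r → ↥𝓕₀,
      (x : Ω) = ∑ j : Fin r, (c j : Ω) * (τ₀ : Ω) ^ (j : ℕ))
    (hindep : ∀ c : Fin r → ↥𝓕₀, ∑ j : Fin r, (c j : Ω) * (τ₀ : Ω) ^ (j : ℕ) = 0 → ∀ j, c j = 0) :
    ∃ b : Module.Basis (Fin r) ↥𝓕₀ ↥𝓕₁, ∀ j : Fin r, b j = τ₀ ^ (j : ℕ) := by
  have hcoe : ∀ c : Fin r → ↥𝓕₀, ((∑ j : Fin r, c j • τ₀ ^ (j : ℕ) : ↥𝓕₁) : Ω) =
      ∑ j : Fin r, (c j : Ω) * (τ₀ : Ω) ^ (j : ℕ) := by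
    intro c
    rw [AddSubmonoidClass.coe_finsetSum]
    refine Finset.sum_congr rfl fun j _ => ?_
    rw [Algebra.smul_def, MulMemClass.coe_mul, halg, SubmonoidClass.coe_pow]
  have hli : LinearIndependent ↥𝓕₀ (fun j : Fin r => τ₀ ^ (j : ℕ)) := by
    rw [Fintype.linearIndependent_iff]
    intro c hc
    apply hindep c
    rw [← hcoe c, hc]
    rfl
  have hsp : ⊤ ≤ Submodule.span ↥𝓕₀ (Set.range fun j : Fin r => τ₀ ^ (j : ℕ)) := by
    intro x _
    obtain ⟨c, hc⟩ := hspan x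
    have hx : x = ∑ j : Fin r, c j • τ₀ ^ (j : ℕ) := Subtype.ext (by rw [hc, hcoe c])
    rw [hx]
    exact Submodule.sum_mem _ fun j _ =>
      Submodule.smul_mem _ _ (Submodule.subset_span ⟨j, rfl⟩)
  exact ⟨Module.Basis.mk hli hsp, fun j => by rw [Module.Basis.mk_apply]⟩

/-- conversely, the explicit statements from a power basis. -/
theorem s48g_span_indep_of_basis {r : ℕ} (τ₀ : ↥𝓕₁) (b : Module.Basis (Fin r) ↥𝓕₀ ↥𝓕₁)
    (hb : ∀ j : Fin r, b j = τ₀ ^ (j : ℕ)) :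
    (∀ x : ↥𝓕₁, ∃ c : Fin r → ↥𝓕₀, (x : Ω) = ∑ j : Fin r, (c j : Ω) * (τ₀ : Ω) ^ (j : ℕ)) ∧
    (∀ c : Fin r → ↥𝓕₀, ∑ j : Fin r, (c j : Ω) * (τ₀ : Ω) ^ (j : ℕ) = 0 → ∀ j, c j = 0) := by
  have hcoe : ∀ c : Fin r → ↥𝓕₀, ((∑ j : Fin r, c j • b j : ↥𝓕₁) : Ω) =
      ∑ j : Fin r, (c j : Ω) * (τ₀ : Ω) ^ (j : ℕ) := by
    intro c
    rw [AddSubmonoidClass.coe_finsetSum]
    refine Finset.sum_congr rfl fun j _ => ?_
    rw [hb, Algebra.smul_def, MulMemClass.coe_mul, halg, SubmonoidClass.coe_pow]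
  constructor
  · intro x
    refine ⟨fun j => b.repr x j, ?_⟩
    rw [← hcoe, b.sum_repr]
  · intro c hc
    have h0 : (∑ j : Fin r, c j • b j : ↥𝓕₁) = 0 := Subtype.ext (by rw [hcoe c, hc]; rfl)
    have := Fintype.linearIndependent_iff.mp b.linearIndependent c h0
    exact this

end Basis

end Fermat.Agent.Lib.S48
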