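/-
DS-1 (S48), wall [T7] (helper6), brick (T4): **the induction hypotheses of the tower and the tame
step.**

Context: `A ⊆ ℚ̄` a valuation subring over the prime `p`, `π = residue A`, `κ = ResidueField A`,
`FQ₀` the rational model of the base of the tower, `Gb ⊆ κ((q))` an ambient field for the special
fibres. For a rational model `FQ ⊆ ℚ((q))` and a coordinate `w` of `F = laurentBaseChange ℚ̄ FQ`:
* `s48g_TopIH A FQ₀ Gb FQ w` : q-model package `Q` of `(F, Fb)` + chart packages of `(qO Q, qRed Q)`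
  for `w`, `w⁻¹` + integrality of the Gauss ring of `F` over that of the base (helper8's
  `s48e_IntOver`) + `Fb ≤ Gb` + a separating coordinate of `Fb` (helper7's top package);
* `s48g_FinIH A FQ w`   : for all number fields `L₀ ⊇ L_min`, the finite-level packages
  `s48g_FinPack2` of `laurentBaseChange L₀ FQ` for a descended coordinate.
* `s48g_kummerTrivial_of_finIH` : Theorem X (`s48d_KummerTrivial`) for `F` and every `m` prime to
  `p` from `s48g_FinIH`;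
* `s48g_tame_step` : the induction step through a tame Kummer layer.
-/
import Fermat.Agent.Lib.S48.DQKummer
import Fermat.Agent.Lib.S48.DQTop
import Fermat.Agent.Lib.S48.EGenQInt
import Fermat.Agent.Lib.S48.DBaseMin
import Fermat.Agent.Lib.S48.GFinQ
import Fermat.Agent.Lib.S48.GFinGen
import Fermat.Agent.Lib.S48.GTowerD
import Fermat.Agent.Lib.S37.RTop

set_option autoImplicit false
set_option linter.unusedSectionVars false
set_option linter.style.haveILetI false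
set_option synthInstance.maxHeartbeats 400000

noncomputable section

namespace Fermat.Agent.Lib.S48

open ModularCurve HahnSeries AlgebraicCurve IntermediateField Polynomial Fermat.Agent.Lib.S37
  Fermat.Agent.Lib.FF Fermat.Agent.Lib.S18

local notation "Qbar" => AlgebraicClosure ℚ

variable (A : ValuationSubring Qbar)

/-- **the top half of the induction hypothesis.** -/
def s48g_TopIH (FQ₀ : IntermediateField ℚ (LaurentSeries ℚ))
    (Gb : IntermediateField (IsLocalRing.ResidueField ↥A)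
      (LaurentSeries (IsLocalRing.ResidueField ↥A)))
    (FQ : IntermediateField ℚ (LaurentSeries ℚ))
    (w : ↥(laurentBaseChange Qbar FQ)) : Prop :=
  ∃ (Fb : IntermediateField (IsLocalRing.ResidueField ↥A)
      (LaurentSeries (IsLocalRing.ResidueField ↥A)))
    (Q : s48d_QPack A (IsLocalRing.residue ↥A) (laurentBaseChange Qbar FQ) Fb)
    (x : ↥(laurentBaseChange Qbar FQ)) (_ : FFGen Qbar x),
    s48g_ChartPack x A (IsLocalRing.residue ↥A) (s48d_qO Q) (s48d_qRed Q) w ∧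
    s48g_ChartPack x A (IsLocalRing.residue ↥A) (s48d_qO Q) (s48d_qRed Q) w⁻¹ ∧
    s48e_IntOver A (IsLocalRing.residue ↥A) (laurentBaseChange Qbar FQ₀)
      (laurentBaseChange Qbar FQ) ∧
    Fb ≤ Gb ∧
    ∃ (xb : ↥Fb) (_ : FFGen (IsLocalRing.ResidueField ↥A) xb),
      Algebra.IsSeparable (IsLocalRing.ResidueField ↥A)⟮xb⟯ ↥Fb

/-- **the finite half of the induction hypothesis.** -/
def s48g_FinIH (FQ : IntermediateField ℚ (LaurentSeries ℚ))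
    (w : ↥(laurentBaseChange Qbar FQ)) : Prop :=
  ∃ (Lmin : IntermediateField ℚ Qbar) (_ : FiniteDimensional ℚ Lmin),
    ∀ (L₀ : IntermediateField ℚ Qbar) (_ : FiniteDimensional ℚ L₀ ∧ Lmin ≤ L₀)
      [IsDiscreteValuationRing ↥(A.comap (algebraMap ↥L₀ Qbar))]
      (ϖ : ↥(A.comap (algebraMap ↥L₀ Qbar))) (hϖ : Irreducible ϖ),
      ∃ (hFrac : ∀ f ∈ laurentBaseChange ↥L₀ FQ,
          f ∈ s18g_Frac (s18g_GaussData.ofResidue (A.comap (algebraMap ↥L₀ Qbar)) ϖ hϖ))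
        (w₀ : ↥(laurentBaseChange ↥L₀ FQ)) (_ : FFGen ↥L₀ w₀),
        s18q_map (algebraMap ↥L₀ Qbar) FQ w₀ = w ∧
        s48g_FinPack2 (s18g_GaussData.ofResidue (A.comap (algebraMap ↥L₀ Qbar)) ϖ hϖ)
          (laurentBaseChange ↥L₀ FQ) hFrac w₀

variable {A}

/-- **Theorem X from the finite half** (every `m` prime to `p`, invertible in `A`). -/
theorem s48g_kummerTrivial_of_finIH {p : ℕ} [Fact p.Prime] (hA : A.LiesOverPrime p)
    (FQ : IntermediateField ℚ (LaurentSeries ℚ)) (w : ↥(laurentBaseChange Qbar FQ)) (hw0 : w ≠ 0)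
    (hfin : s48g_FinIH A FQ w)
    (Fb : IntermediateField (IsLocalRing.ResidueField ↥A)
      (LaurentSeries (IsLocalRing.ResidueField ↥A)))
    (x : ↥(laurentBaseChange Qbar FQ)) [FFGen Qbar x] (m : ℕ) (hm : ¬ p ∣ m)
    (hmA : ((m : Qbar))⁻¹ ∈ A) :
    s48d_KummerTrivial A (IsLocalRing.residue ↥A) (laurentBaseChange Qbar FQ) Fb m := by
  obtain ⟨Lmin, hfd, H⟩ := hfin
  haveI := hfd
  have hm0 : m ≠ 0 := by
    rintro rfl
    exact hm (dvd_zero p)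
  refine s48d_kummerTrivial_baseChange_min FQ A hA m hm Fb
    (fun g hg => s48d_q_const x g hg) Lmin ?_
  intro L₀ hL inst ϖ hϖ
  obtain ⟨hFrac, w₀, iw, hw, hP⟩ := H L₀ hL ϖ hϖ
  haveI := iw
  have hw0' : w₀ ≠ 0 := by
    rintro rfl
    rw [map_zero] at hw
    exact hw0 hw.symm
  refine ⟨hFrac, w₀, ?_⟩
  haveI : IsDiscreteValuationRing
      ↥(s18g_GaussData.ofResidue (A.comap (algebraMap ↥L₀ Qbar)) ϖ hϖ).A := inst
  refine s48g_geoInputs_of_finPack2 _ _ hFrac w₀ hw0' hP m hm0 ?_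
  show ((m : ↥L₀))⁻¹ ∈ A.comap (algebraMap ↥L₀ Qbar)
  rw [ValuationSubring.mem_comap, map_inv₀, map_natCast]
  exact hmA

/-- separability over a rational subfield persists in a separable extension. -/
theorem s48g_isSeparable_adjoin_tower {k E₁ E₂ : Type*} [Field k] [Field E₁] [Field E₂]
    [Algebra k E₁] [Algebra k E₂] [Algebra E₁ E₂] [IsScalarTower k E₁ E₂] (x : E₁)
    [Algebra.IsSeparable ↥k⟮x⟯ E₁] [Algebra.IsSeparable E₁ E₂] :
    Algebra.IsSeparable ↥k⟮algebraMap E₁ E₂ x⟯ E₂ := by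
  have hmem : ∀ e : ↥k⟮x⟯, algebraMap E₁ E₂ (e : E₁) ∈ k⟮algebraMap E₁ E₂ x⟯ := by
    intro e
    have h1 : (k⟮x⟯).map (IsScalarTower.toAlgHom k E₁ E₂) = k⟮algebraMap E₁ E₂ x⟯ := by
      rw [IntermediateField.adjoin_map, Set.image_singleton]
      rfl
    rw [← h1]
    exact ⟨(e : E₁), e.2, rfl⟩
  let j : ↥k⟮x⟯ →+* ↥k⟮algebraMap E₁ E₂ x⟯ :=
    { toFun := fun e => ⟨algebraMap E₁ E₂ (e : E₁), hmem e⟩
      map_one' := Subtype.ext (map_one _)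
      map_mul' := fun _ _ => Subtype.ext (map_mul _ _ _)
      map_zero' := Subtype.ext (map_zero _)
      map_add' := fun _ _ => Subtype.ext (map_add _ _ _) }
  haveI hsep : Algebra.IsSeparable ↥k⟮x⟯ E₂ := Algebra.IsSeparable.trans ↥k⟮x⟯ E₁ E₂
  refine ⟨fun y => ?_⟩
  have hm : (minpoly ↥k⟮x⟯ y).Separable := Algebra.IsSeparable.isSeparable ↥k⟮x⟯ y
  have hm' : ((minpoly ↥k⟮x⟯ y).map j).Separable := hm.map
  have hroot : aeval y ((minpoly ↥k⟮x⟯ y).map j) = 0 := by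
    rw [aeval_def, eval₂_map]
    have : (algebraMap ↥k⟮algebraMap E₁ E₂ x⟯ E₂).comp j = algebraMap ↥k⟮x⟯ E₂ :=
      RingHom.ext fun _ => rfl
    rw [this, ← aeval_def, minpoly.aeval]
  exact hm'.of_dvd (minpoly.dvd _ _ hroot)

section TopStep

variable {p : ℕ} [Fact p.Prime] (hA : A.LiesOverPrime p)
  {FQ₀ : IntermediateField ℚ (LaurentSeries ℚ)}
  {Gb : IntermediateField (IsLocalRing.ResidueField ↥A)
    (LaurentSeries (IsLocalRing.ResidueField ↥A))}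
  {FQ₁ FQ₂ : IntermediateField ℚ (LaurentSeries ℚ)}
  [Algebra ↥(laurentBaseChange Qbar FQ₁) ↥(laurentBaseChange Qbar FQ₂)]
  [IsScalarTower Qbar ↥(laurentBaseChange Qbar FQ₁) ↥(laurentBaseChange Qbar FQ₂)]
  [FiniteDimensional ↥(laurentBaseChange Qbar FQ₁) ↥(laurentBaseChange Qbar FQ₂)]
  (halg : ∀ a : ↥(laurentBaseChange Qbar FQ₁),
    ((algebraMap ↥(laurentBaseChange Qbar FQ₁) ↥(laurentBaseChange Qbar FQ₂) a :
      ↥(laurentBaseChange Qbar FQ₂)) : LaurentSeries Qbar) = (a : LaurentSeries Qbar))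

include hA halg in
set_option maxHeartbeats 1600000 in
/-- **the tame Kummer step, top half.** -/
theorem s48g_tame_step_top (h01 : FQ₀ ≤ FQ₁) (w : ↥(laurentBaseChange Qbar FQ₁)) (hw0 : w ≠ 0)
    {r : ℕ} (hr : r.Prime) (hpr : ¬ p ∣ r) (hrA : ((r : Qbar))⁻¹ ∈ A)
    (T : LaurentSeries ↥A) (hT2 : coeffMap A.subtype T ∈ laurentBaseChange Qbar FQ₂)
    (hρT : coeffMap (IsLocalRing.residue ↥A) T ≠ 0)
    (hTG : coeffMap (IsLocalRing.residue ↥A) T ∈ Gb)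
    (b : Module.Basis (Fin r) ↥(laurentBaseChange Qbar FQ₁) ↥(laurentBaseChange Qbar FQ₂))
    (hb : ∀ i : Fin r, b i = (⟨coeffMap A.subtype T, hT2⟩ : ↥(laurentBaseChange Qbar FQ₂)) ^ (i : ℕ))
    (h : ↥(laurentBaseChange Qbar FQ₁))
    (hh : (⟨coeffMap A.subtype T, hT2⟩ : ↥(laurentBaseChange Qbar FQ₂)) ^ r =
      algebraMap ↥(laurentBaseChange Qbar FQ₁) ↥(laurentBaseChange Qbar FQ₂) h)
    (hdiv : ∀ P : Place Qbar ↥(laurentBaseChange Qbar FQ₁), (r : ℤ) ∣ P.ord h)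
    (htop : s48g_TopIH A FQ₀ Gb FQ₁ w) (hfin : s48g_FinIH A FQ₁ w) :
    s48g_TopIH A FQ₀ Gb FQ₂
      (algebraMap ↥(laurentBaseChange Qbar FQ₁) ↥(laurentBaseChange Qbar FQ₂) w) := by
  classical
  obtain ⟨Fb₁, Q₁, x₁, ix₁, hP, hP', hint₁, hFbG, xb₁, ixb, hsep₁⟩ := htop
  haveI := ix₁
  haveI := ixb
  haveI := hsep₁
  set t : ↥(laurentBaseChange Qbar FQ₂) := ⟨coeffMap A.subtype T, hT2⟩ with ht
  -- `h = ι (T ^ r)` is a Gauss unit
  have hser : ((h : ↥(laurentBaseChange Qbar FQ₁)) : LaurentSeries Qbar) =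
      coeffMap A.subtype (T ^ r) := by
    rw [← halg h, ← hh, map_pow]
    rfl
  have hhO : h ∈ s48d_qO Q₁ := by
    show ((h : ↥(laurentBaseChange Qbar FQ₁)) : LaurentSeries Qbar) ∈ s37r_O A _
    rw [hser]
    exact s37r_iota_mem_O A _ _
  have hredV : s48d_qRedV Q₁ ⟨h, hhO⟩ = coeffMap (IsLocalRing.residue ↥A) T ^ r := by
    rw [s48d_qRedV_eq Q₁ ⟨h, hhO⟩ (T ^ r) 1 (by rw [map_one]; exact one_ne_zero)
      (by rw [map_one, one_mul]; exact hser), map_one, div_one, map_pow]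
  have hhred : s48d_qRed Q₁ ⟨h, hhO⟩ ≠ 0 := by
    intro h0
    have := congrArg Subtype.val h0
    rw [s48d_coe_qRed, hredV] at this
    exact pow_ne_zero r hρT this
  -- Theorem X for the base
  have hX := s48g_kummerTrivial_of_finIH hA FQ₁ w hw0 hfin Fb₁ x₁ r hpr hrA
  -- the residue field of the layer
  set tbS : LaurentSeries (IsLocalRing.ResidueField ↥A) := coeffMap (IsLocalRing.residue ↥A) T
    with htbS
  set Fb₂ : IntermediateField (IsLocalRing.ResidueField ↥A)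
      (LaurentSeries (IsLocalRing.ResidueField ↥A)) :=
    IntermediateField.restrictScalars (IsLocalRing.ResidueField ↥A)
      (IntermediateField.adjoin ↥Fb₁ {tbS}) with hFb₂
  have hle : Fb₁ ≤ Fb₂ := fun y hy =>
    (IntermediateField.adjoin ↥Fb₁ {tbS}).algebraMap_mem ⟨y, hy⟩
  have htbmem : tbS ∈ Fb₂ := IntermediateField.mem_adjoin_simple_self ↥Fb₁ tbS
  set tb : ↥Fb₂ := ⟨tbS, htbmem⟩ with htb
  letI a1 : Algebra ↥Fb₁ ↥Fb₂ := (IntermediateField.inclusion hle).toAlgebra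
  haveI t1 : IsScalarTower (IsLocalRing.ResidueField ↥A) ↥Fb₁ ↥Fb₂ :=
    IsScalarTower.of_algebraMap_eq fun _ => rfl
  have halgb : ∀ a : ↥Fb₁, ((algebraMap ↥Fb₁ ↥Fb₂ a : ↥Fb₂) :
      LaurentSeries (IsLocalRing.ResidueField ↥A)) =
      (a : LaurentSeries (IsLocalRing.ResidueField ↥A)) := fun _ => rfl
  have hpowS : tbS ^ r = algebraMap ↥Fb₁ (LaurentSeries (IsLocalRing.ResidueField ↥A))
      (s48d_qRed Q₁ ⟨h, hhO⟩) := by
    show tbS ^ r = ((s48d_qRed Q₁ ⟨h, hhO⟩ : ↥Fb₁) : LaurentSeries _)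
    rw [s48d_coe_qRed, hredV]
  have hspan : ⊤ ≤ Submodule.span ↥Fb₁ (Set.range fun i : Fin r => tb ^ (i : ℕ)) := by
    intro y _
    have hy : (y : LaurentSeries (IsLocalRing.ResidueField ↥A)) ∈
        IntermediateField.adjoin ↥Fb₁ {tbS} := y.2
    obtain ⟨c, hc⟩ := s48g_mem_adjoin_root_pow hr.ne_zero tbS _ hpowS hy
    have hy' : y = ∑ j : Fin r, c j • tb ^ (j : ℕ) := by
      apply Subtype.ext
      rw [hc, AddSubmonoidClass.coe_finsetSum]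
      refine Finset.sum_congr rfl fun j _ => ?_
      rw [Algebra.smul_def, MulMemClass.coe_mul, SubmonoidClass.coe_pow]
      rfl
    rw [hy']
    exact Submodule.sum_mem _ fun j _ =>
      Submodule.smul_mem _ _ (Submodule.subset_span ⟨j, rfl⟩)
  -- the generators of the layer
  haveI ix₂ : FFGen Qbar (algebraMap ↥(laurentBaseChange Qbar FQ₁)
      ↥(laurentBaseChange Qbar FQ₂) x₁) := s48g_ffGen_algebraMap x₁
  have hww : w * w⁻¹ = 1 := mul_inv_cancel₀ hw0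
  -- the q-model step
  obtain ⟨Q₂, hP₂, hP₂'⟩ := s48d_q_kummer_step halg halgb Q₁
    (x₂ := algebraMap ↥(laurentBaseChange Qbar FQ₁) ↥(laurentBaseChange Qbar FQ₂) x₁) hww hP hP'
    hr b t hb T rfl tb rfl h hh hhO hhred hrA hdiv hX hspan
  -- integrality over the base and the ambient field of the special fibre
  have hK := s48d_q_kummer_layer halg halgb Q₁ hr b t hb T rfl tb rfl h hh hhO hhred hdiv hX
  have hint₁₂ : s48e_IntOver A (IsLocalRing.residue ↥A) (laurentBaseChange Qbar FQ₁)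
      (laurentBaseChange Qbar FQ₂) :=
    s48e_intOver_of_layer halg (s48d_qO Q₁) (fun c hc => hc) hK
      (fun y hy => s48d_q_mem_of_mem_O halg halgb Q₁ T rfl rfl hK y hy)
  have hint₂ : s48e_IntOver A (IsLocalRing.residue ↥A) (laurentBaseChange Qbar FQ₀)
      (laurentBaseChange Qbar FQ₂) :=
    s48e_intOver_trans (s48g_lbc_mono Qbar h01) hint₁ hint₁₂
  have hFbG₂ : Fb₂ ≤ Gb := by
    intro y hy
    have hy' : y ∈ IntermediateField.adjoin ↥Fb₁ {tbS} := hy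
    obtain ⟨c, hc⟩ := s48g_mem_adjoin_root_pow hr.ne_zero tbS _ hpowS hy'
    rw [hc]
    exact sum_mem fun j _ => mul_mem (hFbG (c j).2) (pow_mem hTG _)
  -- separating coordinate
  set bb : Module.Basis (Fin r) ↥Fb₁ ↥Fb₂ := Module.Basis.mk hK.indep hspan with hbbdef
  have hbb : ∀ i : Fin r, bb i = tb ^ (i : ℕ) := fun i => by
    rw [hbbdef, Module.Basis.mk_apply]
  haveI hfd : FiniteDimensional ↥Fb₁ ↥Fb₂ := Module.Finite.of_basis bb
  have hpowb : tb ^ r = algebraMap ↥Fb₁ ↥Fb₂ (s48d_qRed Q₁ ⟨h, hhO⟩) := by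
    apply Subtype.ext
    rw [SubmonoidClass.coe_pow]
    exact hpowS
  have hrκ : ((r : ℕ) : ↥Fb₁) ≠ 0 := by
    intro h0
    -- `r = 0` in `κ` contradicts `r⁻¹ ∈ A`
    have h1 : ((r : ℕ) : IsLocalRing.ResidueField ↥A) = 0 := by
      have := congrArg (fun z : ↥Fb₁ => (z : LaurentSeries (IsLocalRing.ResidueField ↥A))) h0
      simp only [ZeroMemClass.coe_zero] at this
      have h2 : (((r : ℕ) : ↥Fb₁) : LaurentSeries (IsLocalRing.ResidueField ↥A)) =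
          algebraMap (IsLocalRing.ResidueField ↥A) (LaurentSeries (IsLocalRing.ResidueField ↥A))
            ((r : ℕ) : IsLocalRing.ResidueField ↥A) := by
        rw [map_natCast]
        norm_cast
      rw [h2] at this
      exact (algebraMap (IsLocalRing.ResidueField ↥A)
        (LaurentSeries (IsLocalRing.ResidueField ↥A))).injective (this.trans (map_zero _).symm)
    have hrA' : ((r : ℕ) : Qbar) ∈ A := natCast_mem A r
    have h3 : IsLocalRing.residue ↥A (⟨((r : ℕ) : Qbar), hrA'⟩ * ⟨((r : Qbar))⁻¹, hrA⟩) = 1 := by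
      have : (⟨((r : ℕ) : Qbar), hrA'⟩ * ⟨((r : Qbar))⁻¹, hrA⟩ : ↥A) = 1 := by
        apply Subtype.ext
        show ((r : ℕ) : Qbar) * ((r : Qbar))⁻¹ = 1
        exact mul_inv_cancel₀ (by exact_mod_cast hr.ne_zero)
      rw [this, map_one]
    have h4 : IsLocalRing.residue ↥A ⟨((r : ℕ) : Qbar), hrA'⟩ =
        ((r : ℕ) : IsLocalRing.ResidueField ↥A) := by
      have : (⟨((r : ℕ) : Qbar), hrA'⟩ : ↥A) = ((r : ℕ) : ↥A) := Subtype.ext (by simp)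
      rw [this, map_natCast]
    rw [map_mul, h4, h1, zero_mul] at h3
    exact zero_ne_one h3
  haveI hsep₂ : Algebra.IsSeparable ↥Fb₁ ↥Fb₂ :=
    s48g_kummer_isSeparable bb tb hbb (s48d_qRed Q₁ ⟨h, hhO⟩) hhred hpowb hrκ
  haveI ixb₂ : FFGen (IsLocalRing.ResidueField ↥A) (algebraMap ↥Fb₁ ↥Fb₂ xb₁) :=
    s48g_ffGen_algebraMap xb₁
  haveI hsepx : Algebra.IsSeparable
      ↥(IsLocalRing.ResidueField ↥A)⟮algebraMap ↥Fb₁ ↥Fb₂ xb₁⟯ ↥Fb₂ :=
    s48g_isSeparable_adjoin_tower xb₁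
  refine ⟨Fb₂, Q₂, algebraMap ↥(laurentBaseChange Qbar FQ₁) ↥(laurentBaseChange Qbar FQ₂) x₁,
    ix₂, hP₂, ?_, hint₂, hFbG₂, algebraMap ↥Fb₁ ↥Fb₂ xb₁, ixb₂, hsepx⟩
  rw [← map_inv₀]
  exact hP₂'

end TopStep

/-- a function of the level whose image at the top is a Gauss unit is a Gauss unit of the
level. -/
theorem s48g_level_unit_of_top {K F Ft Fbt : Type*} [Field K] [Field F] [Algebra K F]
    [Field Ft] [Field Fbt] {ϖ : K} {O : ValuationSubring F}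
    (hU : ∀ u : F, u ∈ O → u ≠ 0 → ∃ (k : ℕ) (v : F), v ∈ O ∧ v⁻¹ ∈ O ∧
      u = algebraMap K F ϖ ^ k * v)
    (hAO : algebraMap K F ϖ ∈ O)
    (Ot : ValuationSubring Ft) (redt : ↥Ot →+* Fbt) (i : F →+* Ft) (hi : ∀ y ∈ O, i y ∈ Ot)
    (hϖ : redt ⟨i (algebraMap K F ϖ), hi _ hAO⟩ = 0)
    (h : F) (hht : i h ∈ Ot) (hred : redt ⟨i h, hht⟩ ≠ 0) : h ∈ O ∧ h⁻¹ ∈ O := by
  have hh0 : h ≠ 0 := by
    rintro rfl
    apply hred
    have : (⟨i 0, hht⟩ : ↥Ot) = 0 := Subtype.ext (map_zero i)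
    rw [this, map_zero]
  -- a non-unit of `O` reduces to zero at the top
  have key : ∀ u : F, u ∈ O → u ≠ 0 → u⁻¹ ∉ O → ∀ hu : i u ∈ Ot, redt ⟨i u, hu⟩ = 0 := by
    intro u huO hu0 hinv hu
    obtain ⟨k, v, hv, hvinv, e⟩ := hU u huO hu0
    rcases Nat.eq_zero_or_pos k with hk | hk
    · exfalso
      rw [hk, pow_zero, one_mul] at e
      rw [e] at hinv
      exact hinv hvinv
    · have h1 : (⟨i u, hu⟩ : ↥Ot) = ⟨i (algebraMap K F ϖ), hi _ hAO⟩ *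
          ⟨i (algebraMap K F ϖ ^ (k - 1) * v), hi _ (O.mul_mem _ _ (pow_mem hAO _) hv)⟩ := by
        apply Subtype.ext
        show i u = i _ * i _
        rw [← map_mul, e, ← mul_assoc, ← pow_succ', Nat.sub_add_cancel hk]
      rw [h1, map_mul, hϖ, zero_mul]
  rcases O.mem_or_inv_mem h with hO | hO
  · refine ⟨hO, ?_⟩
    by_contra hinv
    exact hred (key h hO hh0 hinv hht)
  · refine ⟨?_, hO⟩
    by_contra hnot
    have hinv' : (h⁻¹)⁻¹ ∉ O := by rwa [inv_inv]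
    have h0 := key h⁻¹ hO (inv_ne_zero hh0) hinv' (hi _ hO)
    have h1 : (⟨i h, hht⟩ : ↥Ot) * ⟨i h⁻¹, hi _ hO⟩ = 1 := by
      apply Subtype.ext
      show i h * i h⁻¹ = 1
      rw [← map_mul, mul_inv_cancel₀ hh0, map_one]
    have h2 := congrArg redt h1
    rw [map_mul, h0, mul_zero, map_one] at h2
    exact zero_ne_one h2

section FinStep

variable {p : ℕ} [Fact p.Prime] (hA : A.LiesOverPrime p)
  {FQ₀ : IntermediateField ℚ (LaurentSeries ℚ)}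
  {Gb : IntermediateField (IsLocalRing.ResidueField ↥A)
    (LaurentSeries (IsLocalRing.ResidueField ↥A))}
  {FQ₁ FQ₂ : IntermediateField ℚ (LaurentSeries ℚ)}
  [Algebra ↥(laurentBaseChange Qbar FQ₁) ↥(laurentBaseChange Qbar FQ₂)]
  [IsScalarTower Qbar ↥(laurentBaseChange Qbar FQ₁) ↥(laurentBaseChange Qbar FQ₂)]
  [FiniteDimensional ↥(laurentBaseChange Qbar FQ₁) ↥(laurentBaseChange Qbar FQ₂)]
  (halg : ∀ a : ↥(laurentBaseChange Qbar FQ₁),
    ((algebraMap ↥(laurentBaseChange Qbar FQ₁) ↥(laurentBaseChange Qbar FQ₂) a :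
      ↥(laurentBaseChange Qbar FQ₂)) : LaurentSeries Qbar) = (a : LaurentSeries Qbar))

include hA halg in
set_option maxHeartbeats 3200000 in
/-- **the tame Kummer step, finite half.** -/
theorem s48g_tame_step_fin (h12 : FQ₁ ≤ FQ₂) (S₂ : Finset (LaurentSeries ℚ))
    (hS₂ : FQ₂ ≤ IntermediateField.adjoin ℚ (S₂ : Set (LaurentSeries ℚ)))
    (hS₂mem : ∀ s ∈ S₂, s ∈ FQ₂)
    (w : ↥(laurentBaseChange Qbar FQ₁)) (hw0 : w ≠ 0)
    {r : ℕ} (hr : r.Prime) (hpr : ¬ p ∣ r) (hrA : ((r : Qbar))⁻¹ ∈ A)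
    (T : LaurentSeries ↥A) (hT2 : coeffMap A.subtype T ∈ laurentBaseChange Qbar FQ₂)
    (hρT : coeffMap (IsLocalRing.residue ↥A) T ≠ 0)
    (b : Module.Basis (Fin r) ↥(laurentBaseChange Qbar FQ₁) ↥(laurentBaseChange Qbar FQ₂))
    (hb : ∀ i : Fin r, b i = (⟨coeffMap A.subtype T, hT2⟩ : ↥(laurentBaseChange Qbar FQ₂)) ^ (i : ℕ))
    (h : ↥(laurentBaseChange Qbar FQ₁))
    (hh : (⟨coeffMap A.subtype T, hT2⟩ : ↥(laurentBaseChange Qbar FQ₂)) ^ r =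
      algebraMap ↥(laurentBaseChange Qbar FQ₁) ↥(laurentBaseChange Qbar FQ₂) h)
    (hdiv : ∀ P : Place Qbar ↥(laurentBaseChange Qbar FQ₁), (r : ℤ) ∣ P.ord h)
    (hFrac₂ : ∀ (L₀ : IntermediateField ℚ Qbar)
      [IsDiscreteValuationRing ↥(A.comap (algebraMap ↥L₀ Qbar))]
      (ϖ : ↥(A.comap (algebraMap ↥L₀ Qbar))) (hϖ : Irreducible ϖ),
      ∀ f ∈ laurentBaseChange ↥L₀ FQ₂,
        f ∈ s18g_Frac (s18g_GaussData.ofResidue (A.comap (algebraMap ↥L₀ Qbar)) ϖ hϖ))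
    (htop : s48g_TopIH A FQ₀ Gb FQ₁ w) (hfin : s48g_FinIH A FQ₁ w) :
    s48g_FinIH A FQ₂
      (algebraMap ↥(laurentBaseChange Qbar FQ₁) ↥(laurentBaseChange Qbar FQ₂) w) := by
  classical
  obtain ⟨Fb₁, Q₁, x₁, ix₁, hP, hP', hint₁, hFbG, xb₁, ixb, hsep₁⟩ := htop
  haveI := ix₁
  set t : ↥(laurentBaseChange Qbar FQ₂) := ⟨coeffMap A.subtype T, hT2⟩ with ht
  -- `h = ι (T ^ r)` is a Gauss unit
  have hser : ((h : ↥(laurentBaseChange Qbar FQ₁)) : LaurentSeries Qbar) =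
      coeffMap A.subtype (T ^ r) := by
    rw [← halg h, ← hh, map_pow]
    rfl
  have hhO : h ∈ s48d_qO Q₁ := by
    show ((h : ↥(laurentBaseChange Qbar FQ₁)) : LaurentSeries Qbar) ∈ s37r_O A _
    rw [hser]
    exact s37r_iota_mem_O A _ _
  have hredV : s48d_qRedV Q₁ ⟨h, hhO⟩ = coeffMap (IsLocalRing.residue ↥A) T ^ r := by
    rw [s48d_qRedV_eq Q₁ ⟨h, hhO⟩ (T ^ r) 1 (by rw [map_one]; exact one_ne_zero)
      (by rw [map_one, one_mul]; exact hser), map_one, div_one, map_pow]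
  have hhred : s48d_qRed Q₁ ⟨h, hhO⟩ ≠ 0 := by
    intro h0
    have := congrArg Subtype.val h0
    rw [s48d_coe_qRed, hredV] at this
    exact pow_ne_zero r hρT this
  have hX := s48g_kummerTrivial_of_finIH hA FQ₁ w hw0 hfin Fb₁ x₁ r hpr hrA
  -- `t ∉ F₁`
  have hr2 : 2 ≤ r := hr.two_le
  have htF : ∀ a : ↥(laurentBaseChange Qbar FQ₁),
      algebraMap ↥(laurentBaseChange Qbar FQ₁) ↥(laurentBaseChange Qbar FQ₂) a ≠ t := by
    intro a ha
    set i0 : Fin r := ⟨0, by omega⟩ with hi0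
    set i1 : Fin r := ⟨1, by omega⟩ with hi1
    have h0 : b i0 = 1 := by rw [hb]; simp [hi0]
    have h1 : b i1 = t := by rw [hb]; simp [hi1]
    have e1 : b.repr t = Finsupp.single i1 1 := by rw [← h1, b.repr_self]
    have e0 : b.repr (algebraMap ↥(laurentBaseChange Qbar FQ₁)
        ↥(laurentBaseChange Qbar FQ₂) a) = Finsupp.single i0 a := by
      have : algebraMap ↥(laurentBaseChange Qbar FQ₁) ↥(laurentBaseChange Qbar FQ₂) a =
          a • b i0 := by rw [h0, Algebra.smul_def, mul_one]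
      rw [this, map_smul, b.repr_self, Finsupp.smul_single, smul_eq_mul, mul_one]
    rw [ha, e1] at e0
    have := congrArg (fun f => f i1) e0
    simp [hi0, hi1, Fin.ext_iff] at this
  have hnp : ∀ gb : ↥Fb₁, gb ^ r ≠ s48d_qRed Q₁ ⟨h, hhO⟩ :=
    s48d_q_not_pow Q₁ hr.pos hX h hhO hhred hdiv t hh htF
  have hirrtop : Irreducible ((Polynomial.X : (↥Fb₁)[X]) ^ r -
      Polynomial.C (s48d_qRed Q₁ ⟨h, hhO⟩)) :=
    (X_pow_sub_C_irreducible_iff_of_prime hr).mpr hnp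
  -- the explicit spanning and independence at the top
  obtain ⟨hspanT, hindepT⟩ := s48g_span_indep_of_basis (laurentBaseChange Qbar FQ₁)
    (laurentBaseChange Qbar FQ₂) halg t b hb
  have hτh : (t : LaurentSeries Qbar) ^ r = (h : LaurentSeries Qbar) := by
    rw [← halg h, ← hh]
    rfl
  have hSgen : ∀ s ∈ S₂, ∃ c : Fin r → ↥(laurentBaseChange Qbar FQ₁),
      coeffEmb Qbar s = ∑ j : Fin r, (c j : LaurentSeries Qbar) *
        (t : LaurentSeries Qbar) ^ (j : ℕ) := by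
    intro s hs
    have hsF : coeffEmb Qbar s ∈ laurentBaseChange Qbar FQ₂ :=
      coeffEmb_mem_laurentBaseChange Qbar (hS₂mem s hs)
    exact hspanT ⟨coeffEmb Qbar s, hsF⟩
  -- descent of the layer
  haveI := s18q_isAlgebraic_bar
  obtain ⟨Lmin₂, hfd₂, HD⟩ := s48g_layer_descent (K := Qbar) (F₀ := FQ₁) (F₁ := FQ₂) S₂ hS₂
    hr.ne_zero t h hτh hSgen ∅ ∅
  obtain ⟨Lmin₁, hfd₁, H₁⟩ := hfin
  haveI := hfd₁
  haveI := hfd₂
  refine ⟨Lmin₁ ⊔ Lmin₂, inferInstance, ?_⟩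
  intro L₀ hL inst ϖ hϖ
  haveI := hL.1
  obtain ⟨hFrac₁, w₀, iw, hw, hPf⟩ := H₁ L₀ ⟨hL.1, le_sup_left.trans hL.2⟩ ϖ hϖ
  haveI := iw
  obtain ⟨-, -, τ₀, h₀, hτ₀, hh₀, hpow₀, hspan₀⟩ := HD L₀ (le_sup_right.trans hL.2)
  haveI hdvrA0 : IsDiscreteValuationRing ↥(s18q_A0 A L₀) := inst
  haveI hdvrG : IsDiscreteValuationRing
      ↥(s18g_GaussData.ofResidue (A.comap (algebraMap ↥L₀ Qbar)) ϖ hϖ).A := inst
  have hle₀ : laurentBaseChange ↥L₀ FQ₁ ≤ laurentBaseChange ↥L₀ FQ₂ := s48g_lbc_mono ↥L₀ h12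
  letI a0 : Algebra ↥(laurentBaseChange ↥L₀ FQ₁) ↥(laurentBaseChange ↥L₀ FQ₂) :=
    (IntermediateField.inclusion hle₀).toAlgebra
  haveI t0 : IsScalarTower ↥L₀ ↥(laurentBaseChange ↥L₀ FQ₁) ↥(laurentBaseChange ↥L₀ FQ₂) :=
    IsScalarTower.of_algebraMap_eq fun _ => rfl
  have halg₀ : ∀ y : ↥(laurentBaseChange ↥L₀ FQ₁),
      ((algebraMap ↥(laurentBaseChange ↥L₀ FQ₁) ↥(laurentBaseChange ↥L₀ FQ₂) y :
        ↥(laurentBaseChange ↥L₀ FQ₂)) : LaurentSeries ↥L₀) = (y : LaurentSeries ↥L₀) :=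
    fun _ => rfl
  -- independence at the level
  have hτ₀' : coeffMap (algebraMap ↥L₀ Qbar) (τ₀ : LaurentSeries ↥L₀) =
      (t : LaurentSeries Qbar) := by
    rw [← hτ₀]; rfl
  have hindep₀ : ∀ c : Fin r → ↥(laurentBaseChange ↥L₀ FQ₁),
      ∑ j : Fin r, (c j : LaurentSeries ↥L₀) * (τ₀ : LaurentSeries ↥L₀) ^ (j : ℕ) = 0 →
        ∀ j, c j = 0 := by
    intro c hc j
    have h1 := congrArg (coeffMap (algebraMap ↥L₀ Qbar)) hc
    rw [map_sum, map_zero] at h1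
    have h2 : ∑ j : Fin r, ((s18q_map (algebraMap ↥L₀ Qbar) FQ₁ (c j) :
        ↥(laurentBaseChange Qbar FQ₁)) : LaurentSeries Qbar) *
        (t : LaurentSeries Qbar) ^ (j : ℕ) = 0 := by
      rw [← h1]
      refine Finset.sum_congr rfl fun j _ => ?_
      rw [map_mul, map_pow, hτ₀']
      rfl
    have h3 := hindepT (fun j => s18q_map (algebraMap ↥L₀ Qbar) FQ₁ (c j)) h2 j
    exact (s18q_map_injective _ FQ₁) (h3.trans (map_zero _).symm)
  obtain ⟨b₀, hb₀⟩ := s48g_basis_of_span_indep (laurentBaseChange ↥L₀ FQ₁)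
    (laurentBaseChange ↥L₀ FQ₂) halg₀ τ₀ hspan₀ hindep₀
  haveI hfd₀ : FiniteDimensional ↥(laurentBaseChange ↥L₀ FQ₁) ↥(laurentBaseChange ↥L₀ FQ₂) :=
    Module.Finite.of_basis b₀
  have hhτ₀ : τ₀ ^ r = algebraMap ↥(laurentBaseChange ↥L₀ FQ₁)
      ↥(laurentBaseChange ↥L₀ FQ₂) h₀ :=
    Subtype.ext (by rw [SubmonoidClass.coe_pow]; exact hpow₀)
  -- the map to the top
  have hi : ∀ y ∈ s18g_V (s18g_GaussData.ofResidue (A.comap (algebraMap ↥L₀ Qbar)) ϖ hϖ)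
      (laurentBaseChange ↥L₀ FQ₁) hFrac₁,
      s18q_map (algebraMap ↥L₀ Qbar) FQ₁ y ∈ s48d_qO Q₁ := by
    intro y hy
    show coeffMap (algebraMap ↥L₀ Qbar) (y : LaurentSeries ↥L₀) ∈ s37r_O A _
    exact s37r_level_mem_O A L₀ ϖ hϖ hy
  -- the uniformiser dies at the top
  have hPc := hP
  obtain ⟨D₁, i1, i2, i3, i4, i5, i6, PsiD₁, hc₁⟩ := hPc
  have hϖA : algebraMap ↥L₀ Qbar (ϖ : ↥L₀) ∈ A := ϖ.2
  have hϖmax : (⟨algebraMap ↥L₀ Qbar (ϖ : ↥L₀), hϖA⟩ : ↥A) ∈ IsLocalRing.maximalIdeal ↥A :=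
    s37r_unif_mem_maximalIdeal A L₀ ϖ hϖ
  have hϖ0 : s48d_qRed Q₁ ⟨s18q_map (algebraMap ↥L₀ Qbar) FQ₁
      (algebraMap ↥L₀ ↥(laurentBaseChange ↥L₀ FQ₁)
        (((s18g_GaussData.ofResidue (A.comap (algebraMap ↥L₀ Qbar)) ϖ hϖ).ϖ :
          (s18g_GaussData.ofResidue (A.comap (algebraMap ↥L₀ Qbar)) ϖ hϖ).A) : ↥L₀)),
      hi _ (s18f_const_mem_V _ (laurentBaseChange ↥L₀ FQ₁) hFrac₁ _)⟩ = 0 := by
    have h1 := hc₁.red_const ⟨algebraMap ↥L₀ Qbar (ϖ : ↥L₀), hϖA⟩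
    have h2 : IsLocalRing.residue ↥A ⟨algebraMap ↥L₀ Qbar (ϖ : ↥L₀), hϖA⟩ = 0 :=
      (IsLocalRing.residue_eq_zero_iff _).mpr hϖmax
    rw [h2, map_zero] at h1
    rw [← h1]
    congr 1
    exact Subtype.ext (s18q_map_algebraMap _ _ _)
  -- Gauss unit at the level
  have hPf' := hPf
  obtain ⟨Fbf, iFf, redf, hPf1, hPf2⟩ := hPf'
  obtain ⟨Df, j1, j2, j3, j4, ψf, hcf⟩ := hPf1
  have hih₀ : s18q_map (algebraMap ↥L₀ Qbar) FQ₁ h₀ ∈ s48d_qO Q₁ := by rw [hh₀]; exact hhO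
  have hredh₀ : s48d_qRed Q₁ ⟨s18q_map (algebraMap ↥L₀ Qbar) FQ₁ h₀, hih₀⟩ ≠ 0 := by
    have : (⟨s18q_map (algebraMap ↥L₀ Qbar) FQ₁ h₀, hih₀⟩ : ↥(s48d_qO Q₁)) = ⟨h, hhO⟩ :=
      Subtype.ext hh₀
    rw [this]
    exact hhred
  have hunit := s48g_level_unit_of_top hcf.U (hcf.const_mem _) (s48d_qO Q₁) (s48d_qRed Q₁)
    (s18q_map (algebraMap ↥L₀ Qbar) FQ₁) hi hϖ0 h₀ hih₀ hredh₀
  have hh₀ne : h₀ ≠ 0 := by
    rintro rfl
    apply hredh₀
    have : (⟨s18q_map (algebraMap ↥L₀ Qbar) FQ₁ 0, hih₀⟩ : ↥(s48d_qO Q₁)) = 0 :=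
      Subtype.ext (map_zero _)
    rw [this, map_zero]
  have hdiv₀ : ∀ P₀ : Place ↥L₀ ↥(laurentBaseChange ↥L₀ FQ₁), (r : ℤ) ∣ P₀.ord h₀ := by
    haveI := s18q_isAlgebraic_over L₀
    intro P₀
    obtain ⟨P, rfl⟩ := s18q_restrictGen_surjective ↥L₀ (K := Qbar) FQ₁ P₀
    rw [← s18q_ord_restrictGen, hh₀]
    exact hdiv P
  have hrA₀ : ((r : ↥L₀))⁻¹ ∈
      (s18g_GaussData.ofResidue (A.comap (algebraMap ↥L₀ Qbar)) ϖ hϖ).A := by
    show ((r : ↥L₀))⁻¹ ∈ A.comap (algebraMap ↥L₀ Qbar)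
    rw [ValuationSubring.mem_comap, map_inv₀, map_natCast]
    exact hrA
  have hirr₀ : Irreducible ((Polynomial.X : (↥Fb₁)[X]) ^ r - Polynomial.C
      (s48d_qRed Q₁ ⟨s18q_map (algebraMap ↥L₀ Qbar) FQ₁ h₀, hi h₀ hunit.1⟩)) := by
    have : (⟨s18q_map (algebraMap ↥L₀ Qbar) FQ₁ h₀, hi h₀ hunit.1⟩ : ↥(s48d_qO Q₁)) =
        ⟨h, hhO⟩ := Subtype.ext hh₀
    rw [this]
    exact hirrtop
  have hP₂ := s48g_finPack2_kummer _ (laurentBaseChange ↥L₀ FQ₁) (laurentBaseChange ↥L₀ FQ₂)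
    hFrac₁ (hFrac₂ L₀ ϖ hϖ) halg₀ w₀ hPf hr.ne_zero hrA₀ b₀ τ₀ hb₀ h₀ hhτ₀ hunit.1 hunit.2 hh₀ne
    hdiv₀ (s48d_qO Q₁) (s48d_qRed Q₁) (s18q_map (algebraMap ↥L₀ Qbar) FQ₁) hi hϖ0 hirr₀
  haveI : FFGen ↥L₀ (algebraMap ↥(laurentBaseChange ↥L₀ FQ₁)
      ↥(laurentBaseChange ↥L₀ FQ₂) w₀) := s48g_ffGen_algebraMap w₀
  refine ⟨hFrac₂ L₀ ϖ hϖ, algebraMap ↥(laurentBaseChange ↥L₀ FQ₁)
    ↥(laurentBaseChange ↥L₀ FQ₂) w₀, inferInstance, ?_, hP₂⟩
  apply Subtype.ext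
  rw [halg, ← hw]
  rfl

end FinStep

section Step

variable {p : ℕ} [Fact p.Prime] (hA : A.LiesOverPrime p)
  {FQ₀ : IntermediateField ℚ (LaurentSeries ℚ)}
  {Gb : IntermediateField (IsLocalRing.ResidueField ↥A)
    (LaurentSeries (IsLocalRing.ResidueField ↥A))}
  {FQ₁ FQ₂ : IntermediateField ℚ (LaurentSeries ℚ)}
  [Algebra ↥(laurentBaseChange Qbar FQ₁) ↥(laurentBaseChange Qbar FQ₂)]
  [IsScalarTower Qbar ↥(laurentBaseChange Qbar FQ₁) ↥(laurentBaseChange Qbar FQ₂)]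
  [FiniteDimensional ↥(laurentBaseChange Qbar FQ₁) ↥(laurentBaseChange Qbar FQ₂)]
  (halg : ∀ a : ↥(laurentBaseChange Qbar FQ₁),
    ((algebraMap ↥(laurentBaseChange Qbar FQ₁) ↥(laurentBaseChange Qbar FQ₂) a :
      ↥(laurentBaseChange Qbar FQ₂)) : LaurentSeries Qbar) = (a : LaurentSeries Qbar))

include hA halg in
/-- **(T4) the tame Kummer step of the tower induction**: `IH(FQ₁, w) ⇒ IH(FQ₂, w)` for a layer
`F₂ = F₁(t)`, `t = ιT` an `A`-integral series with nonzero reduction (lying in the ambient field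
`Gb`), `t ^ r = h ∈ F₁`, `r` prime different from `p`, `r ∣ div h`. -/
theorem s48g_tame_step (h01 : FQ₀ ≤ FQ₁) (h12 : FQ₁ ≤ FQ₂) (S₂ : Finset (LaurentSeries ℚ))
    (hS₂ : FQ₂ ≤ IntermediateField.adjoin ℚ (S₂ : Set (LaurentSeries ℚ)))
    (hS₂mem : ∀ s ∈ S₂, s ∈ FQ₂)
    (w : ↥(laurentBaseChange Qbar FQ₁)) (hw0 : w ≠ 0)
    {r : ℕ} (hr : r.Prime) (hpr : ¬ p ∣ r) (hrA : ((r : Qbar))⁻¹ ∈ A)
    (T : LaurentSeries ↥A) (hT2 : coeffMap A.subtype T ∈ laurentBaseChange Qbar FQ₂)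
    (hρT : coeffMap (IsLocalRing.residue ↥A) T ≠ 0)
    (hTG : coeffMap (IsLocalRing.residue ↥A) T ∈ Gb)
    (b : Module.Basis (Fin r) ↥(laurentBaseChange Qbar FQ₁) ↥(laurentBaseChange Qbar FQ₂))
    (hb : ∀ i : Fin r, b i = (⟨coeffMap A.subtype T, hT2⟩ : ↥(laurentBaseChange Qbar FQ₂)) ^ (i : ℕ))
    (h : ↥(laurentBaseChange Qbar FQ₁))
    (hh : (⟨coeffMap A.subtype T, hT2⟩ : ↥(laurentBaseChange Qbar FQ₂)) ^ r =
      algebraMap ↥(laurentBaseChange Qbar FQ₁) ↥(laurentBaseChange Qbar FQ₂) h)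
    (hdiv : ∀ P : Place Qbar ↥(laurentBaseChange Qbar FQ₁), (r : ℤ) ∣ P.ord h)
    (hFrac₂ : ∀ (L₀ : IntermediateField ℚ Qbar)
      [IsDiscreteValuationRing ↥(A.comap (algebraMap ↥L₀ Qbar))]
      (ϖ : ↥(A.comap (algebraMap ↥L₀ Qbar))) (hϖ : Irreducible ϖ),
      ∀ f ∈ laurentBaseChange ↥L₀ FQ₂,
        f ∈ s18g_Frac (s18g_GaussData.ofResidue (A.comap (algebraMap ↥L₀ Qbar)) ϖ hϖ))
    (hIH : s48g_TopIH A FQ₀ Gb FQ₁ w ∧ s48g_FinIH A FQ₁ w) :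
    s48g_TopIH A FQ₀ Gb FQ₂
        (algebraMap ↥(laurentBaseChange Qbar FQ₁) ↥(laurentBaseChange Qbar FQ₂) w) ∧
      s48g_FinIH A FQ₂
        (algebraMap ↥(laurentBaseChange Qbar FQ₁) ↥(laurentBaseChange Qbar FQ₂) w) :=
  ⟨s48g_tame_step_top hA halg h01 w hw0 hr hpr hrA T hT2 hρT hTG b hb h hh hdiv
      hIH.1 hIH.2,
    s48g_tame_step_fin hA halg h12 S₂ hS₂ hS₂mem w hw0 hr hpr hrA T hT2 hρT b hb h hh hdiv hFrac₂
      hIH.1 hIH.2⟩

end Step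

end Fermat.Agent.Lib.S48
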