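/-
S48 / DS-1, (LAM) for a general subgroup `Γ ≤ SL(2,ℤ)` (helper3): the `Γ`-generic port of the landed
`Lib/S29/LamOrd.lean` (lead) — the local divisibility statements.

`A B : ffm_R N` nonzero, `ga gb : ℍ → ℂ` holomorphic "`χ`-functions" for `Γ` (`s48h_IsChiFun N Γ`:
invariant under the finite-order and the parabolic elements of `Γ`, all `SL₂(ℤ)`-translates of
moderate growth) with `A * gb ^ p = B * ga ^ p`.  Then the order of `σ • (A / B)` at a point `P` is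
`p * m * c`, `m` the order of the stabiliser of `P` in `σ Γ σ⁻¹` (mod `±1`).
-/
import Fermat.Agent.Lib.S29.LamOrd

set_option autoImplicit false
set_option linter.unusedSectionVars false

namespace Fermat.Agent.Lib.S48

open UpperHalfPlane hiding I
open Filter Matrix.SpecialLinearGroup Function CongruenceSubgroup ModularGroup
open Fermat.Agent.Lib.FF Fermat.Agent.Lib.S29
open scoped MatrixGroups Manifold Topology WithZero Real

noncomputable section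

/-- The holomorphic functions to which the local lemmas apply. -/
structure s48h_IsChiFun (N : ℕ) (Γ : Subgroup SL(2, ℤ)) (g : ℍ → ℂ) : Prop where
  mdiff : MDiff g
  ne_zero : ∃ z, g z ≠ 0
  inv_finOrd : ∀ γ : Γ, IsOfFinOrder γ → ∀ z : ℍ, g ((γ : SL(2, ℤ)) • z) = g z
  inv_par : ∀ (σ : SL(2, ℤ)) (k : ℕ), σ⁻¹ * T ^ k * σ ∈ Γ →
    ∀ z : ℍ, g ((σ⁻¹ * T ^ k * σ) • z) = g z
  growth : ∀ σ : SL(2, ℤ), ffm_ModerateGrowth (fun z : ℍ => g (σ • z))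


/-! ### The local statements -/

section Local

variable {N : ℕ} [NeZero N] {Γ : Subgroup SL(2, ℤ)} {p : ℕ} {ga gb : ℍ → ℂ} (hga : s48h_IsChiFun N Γ ga)
  (hgb : s48h_IsChiFun N Γ gb) (A B : ffm_R N) (hA : A ≠ 0) (hB : B ≠ 0)
  (hrel : ∀ z : ℍ, (A : ℍ → ℂ) z * gb z ^ p = (B : ℍ → ℂ) z * ga z ^ p) (σ : SL(2, ℤ))

include hga hgb hA hB hrel in
/-- At an arbitrary point: the order of `σ • (A / B)` is `p * (ord ga' - ord gb')`. -/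
theorem s48h_ord_point_eq (τ : ℍ) {nU nV : ℕ}
    (hnU : analyticOrderAt (s29l_tr σ ga ∘ ofComplex) (τ : ℂ) = nU)
    (hnV : analyticOrderAt (s29l_tr σ gb ∘ ofComplex) (τ : ℂ) = nV) :
    ffi_ord (ffm_ordAt N τ)
      (σ • (algebraMap (ffm_R N) (ffm_E N) A / algebraMap (ffm_R N) (ffm_E N) B)) =
        p * ((nU : ℤ) - nV) := by
  have hA' := s29l_smul_ne_zero A hA σ
  have hB' := s29l_smul_ne_zero B hB σ
  obtain ⟨nA, hnA⟩ := ffi_exists_order τ (σ • A) hA'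
  obtain ⟨nB, hnB⟩ := ffi_exists_order τ (σ • B) hB'
  rw [s29l_smul_div A B hA hB σ, ffc_ord_div _ (s29l_algebraMap_ne_zero hA')
    (s29l_algebraMap_ne_zero hB'), ffi_ord_ordAt_algebraMap τ _ hnA,
    ffi_ord_ordAt_algebraMap τ _ hnB]
  exact s29l_order_calc (ffm_R_mdiff _) (ffm_R_mdiff _) (s29l_tr_mdiff σ hga.mdiff)
    (s29l_tr_mdiff σ hgb.mdiff) (s29l_rel_tr A B hrel σ) τ hnA hnB hnU hnV

include hga hgb hA hB hrel in
/-- **Generic point** (`m = 1`). -/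
theorem s48h_ord_point (τ : ℍ) : ∃ c : ℤ, ffi_ord (ffm_ordAt N τ)
    (σ • (algebraMap (ffm_R N) (ffm_E N) A / algebraMap (ffm_R N) (ffm_E N) B)) = p * c := by
  obtain ⟨nU, hnU⟩ := s29l_exists_order (s29l_tr_mdiff σ hga.mdiff) (s29l_tr_ne_zero σ hga.ne_zero) τ
  obtain ⟨nV, hnV⟩ := s29l_exists_order (s29l_tr_mdiff σ hgb.mdiff) (s29l_tr_ne_zero σ hgb.ne_zero) τ
  exact ⟨_, s48h_ord_point_eq hga hgb A B hA hB hrel σ τ hnU hnV⟩

theorem s48h_isOfFinOrder_conj {δ : SL(2, ℤ)} {n : ℕ} (hn : 0 < n) (hδ : δ ^ n = 1)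
    (h : σ⁻¹ * δ * σ ∈ Γ) : IsOfFinOrder (⟨σ⁻¹ * δ * σ, h⟩ : Γ) := by
  rw [isOfFinOrder_iff_pow_eq_one]
  refine ⟨n, hn, ?_⟩
  apply Subtype.ext
  rw [SubgroupClass.coe_pow, Subgroup.coe_one]
  show (σ⁻¹ * δ * σ) ^ n = 1
  have : σ⁻¹ * δ * σ = σ⁻¹ * δ * σ⁻¹⁻¹ := by rw [inv_inv]
  rw [this, conj_pow, hδ]
  group

include hga hgb hA hB hrel in
/-- **The point `i`**, when `σ⁻¹ S σ ∈ Γ₀(N)` (`m = 2`). -/
theorem s48h_ord_I (hσ : σ⁻¹ * S * σ ∈ Γ) : ∃ c : ℤ, ffi_ord (ffm_ordAt N UpperHalfPlane.I)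
    (σ • (algebraMap (ffm_R N) (ffm_E N) A / algebraMap (ffm_R N) (ffm_E N) B)) =
      p * (2 * c) := by
  have hfin := s48h_isOfFinOrder_conj σ (by norm_num : 0 < 4) s29l_S_pow_four hσ
  obtain ⟨nU, hnU⟩ := s29l_exists_order (s29l_tr_mdiff σ hga.mdiff)
    (s29l_tr_ne_zero σ hga.ne_zero) UpperHalfPlane.I
  obtain ⟨nV, hnV⟩ := s29l_exists_order (s29l_tr_mdiff σ hgb.mdiff)
    (s29l_tr_ne_zero σ hgb.ne_zero) UpperHalfPlane.I
  obtain ⟨cU, hcU⟩ := ffc_two_dvd_order_I (s29l_tr_mdiff σ hga.mdiff)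
    (s29l_tr_invariant σ S (hga.inv_finOrd ⟨_, hσ⟩ hfin)) hnU
  obtain ⟨cV, hcV⟩ := ffc_two_dvd_order_I (s29l_tr_mdiff σ hgb.mdiff)
    (s29l_tr_invariant σ S (hgb.inv_finOrd ⟨_, hσ⟩ hfin)) hnV
  refine ⟨(cU : ℤ) - cV, ?_⟩
  rw [s48h_ord_point_eq hga hgb A B hA hB hrel σ _ hnU hnV, hcU, hcV]
  push_cast
  ring

include hga hgb hA hB hrel in
/-- **The point `ρ`**, when `σ⁻¹ (S T) σ ∈ Γ₀(N)` (`m = 3`). -/
theorem s48h_ord_rho (hσ : σ⁻¹ * (S * T) * σ ∈ Γ) :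
    ∃ c : ℤ, ffi_ord (ffm_ordAt N RR.Ramanujan.rho)
      (σ • (algebraMap (ffm_R N) (ffm_E N) A / algebraMap (ffm_R N) (ffm_E N) B)) =
        p * (3 * c) := by
  have hfin := s48h_isOfFinOrder_conj σ (by norm_num : 0 < 6) s29l_ST_pow_six hσ
  obtain ⟨nU, hnU⟩ := s29l_exists_order (s29l_tr_mdiff σ hga.mdiff)
    (s29l_tr_ne_zero σ hga.ne_zero) RR.Ramanujan.rho
  obtain ⟨nV, hnV⟩ := s29l_exists_order (s29l_tr_mdiff σ hgb.mdiff)
    (s29l_tr_ne_zero σ hgb.ne_zero) RR.Ramanujan.rho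
  obtain ⟨cU, hcU⟩ := ffc_three_dvd_order_rho (s29l_tr_mdiff σ hga.mdiff)
    (s29l_tr_invariant σ (S * T) (hga.inv_finOrd ⟨_, hσ⟩ hfin)) hnU
  obtain ⟨cV, hcV⟩ := ffc_three_dvd_order_rho (s29l_tr_mdiff σ hgb.mdiff)
    (s29l_tr_invariant σ (S * T) (hgb.inv_finOrd ⟨_, hσ⟩ hfin)) hnV
  refine ⟨(cU : ℤ) - cV, ?_⟩
  rw [s48h_ord_point_eq hga hgb A B hA hB hrel σ _ hnU hnV, hcU, hcV]
  push_cast
  ring

end Local

/-! ### The cusp `∞` -/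

section Cusp

variable {N : ℕ} [NeZero N] {Γ : Subgroup SL(2, ℤ)} {p : ℕ} {ga gb : ℍ → ℂ} (hga : s48h_IsChiFun N Γ ga)
  (hgb : s48h_IsChiFun N Γ gb) (A B : ffm_R N) (hA : A ≠ 0) (hB : B ≠ 0)
  (hrel : ∀ z : ℍ, (A : ℍ → ℂ) z * gb z ^ p = (B : ℍ → ℂ) z * ga z ^ p) (σ : SL(2, ℤ))

include hga in
/-- The translate of a `χ`-function is `k`-periodic if `σ⁻¹ T ^ k σ ∈ Γ₀(N)`. -/
theorem s48h_tr_periodic {k : ℕ} (hσ : σ⁻¹ * T ^ k * σ ∈ Γ) (z : ℍ) :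
    s29l_tr σ ga ((k : ℝ) +ᵥ z) = s29l_tr σ ga z := by
  rw [← ffc_T_pow_smul_eq_vadd]
  exact s29l_tr_invariant σ (T ^ k) (hga.inv_par σ k hσ) z

include hga in
/-- Leading exponent of the translate of a `χ`-function, with the divisibility. -/
theorem s48h_tr_hasExp {k : ℕ} (hk : k ∣ N) (hσ : σ⁻¹ * T ^ k * σ ∈ Γ) :
    ∃ c : ℤ, ffc_HasExp N (s29l_tr σ ga) (((N / k : ℕ) : ℤ) * c) := by
  have hper := s48h_tr_periodic hga σ hσ
  have hperN : ∀ z : ℍ, s29l_tr σ ga ((N : ℝ) +ᵥ z) = s29l_tr σ ga z := by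
    intro z
    obtain ⟨m, hm⟩ := hk
    have := s29l_periodic_mul hper m z
    rwa [mul_comm, ← hm] at this
  obtain ⟨n, hn⟩ := s29l_exists_hasExp (s29l_tr_mdiff σ hga.mdiff) hperN (hga.growth σ⁻¹)
    (s29l_tr_ne_zero σ hga.ne_zero)
  obtain ⟨c, hc⟩ := hn.dvd_of_periodic (NeZero.ne N) hk hper
  exact ⟨c, hc ▸ hn⟩

include hga hgb hA hB hrel in
/-- **The cusp `∞`**, when `σ⁻¹ T ^ k σ ∈ Γ₀(N)`, `k ∣ N` (`m = N / k`, parameter `q_N`). -/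
theorem s48h_ord_inf {k : ℕ} (hk : k ∣ N) (hσ : σ⁻¹ * T ^ k * σ ∈ Γ) :
    ∃ c : ℤ, ffi_ord (ffm_ordInf N)
      (σ • (algebraMap (ffm_R N) (ffm_E N) A / algebraMap (ffm_R N) (ffm_E N) B)) =
        p * (((N / k : ℕ) : ℤ) * c) := by
  have hA' := s29l_smul_ne_zero A hA σ
  have hB' := s29l_smul_ne_zero B hB σ
  obtain ⟨cU, hU⟩ := s48h_tr_hasExp hga σ hk hσ
  obtain ⟨cV, hV⟩ := s48h_tr_hasExp hgb σ hk hσ
  have hAe := ffm_hasExp N hA'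
  have hBe := ffm_hasExp N hB'
  -- compare the two sides of the relation
  have h1 := hAe.mul (s29l_hasExp_pow hV p)
  have h2 := hBe.mul (s29l_hasExp_pow hU p)
  have h3 : ffm_expInf N (σ • A) + p * (((N / k : ℕ) : ℤ) * cV) =
      ffm_expInf N (σ • B) + p * (((N / k : ℕ) : ℤ) * cU) := by
    refine h1.unique (NeZero.ne N) (h2.congr fun z => ?_)
    simp only [Pi.mul_apply, Pi.pow_apply]
    exact (s29l_rel_tr A B hrel σ z).symm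
  refine ⟨cU - cV, ?_⟩
  rw [s29l_smul_div A B hA hB σ, ffc_ord_div _ (s29l_algebraMap_ne_zero hA')
    (s29l_algebraMap_ne_zero hB')]
  have e1 : ffi_ord (ffm_ordInf N) (algebraMap (ffm_R N) (ffm_E N) (σ • A)) =
      ffm_expInf N (σ • A) := rfl
  have e2 : ffi_ord (ffm_ordInf N) (algebraMap (ffm_R N) (ffm_E N) (σ • B)) =
      ffm_expInf N (σ • B) := rfl
  rw [e1, e2]
  linear_combination h3

end Cusp

end

end Fermat.Agent.Lib.S48
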