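/-
DS-1 (S48), wall [T5] (helper4), part 3: the ANALYTIC generator of the layer.
For an even Dirichlet character `ψ` modulo `M > 1`:
* `s48k_Gq ψ z = ∑_{n ≥ 1} σ^ψ_{11}(n) qⁿ = L(12,ψ)/(2 C₁₂) · s48k_Gan ψ 12 z` (holomorphic, weight 12,
  nebentypus `ψ` on `Γ₀(M)`, bounded at all cusps);
* `s48k_T ψ = s48k_Gq ψ / Δ` is an element of the analytic model `ffm_R M` (`s48k_T_isWH`),
  `T (γ z) = ψ(d_γ) T z` for `γ ∈ Γ₀(M)` (`s48k_T_smul`), and its Laurent `q`-expansion is the formal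
  generator `s48k_tPS` (`s48k_T_isLaurent`).
-/
import Fermat.Agent.Lib.S48.KGen
import Fermat.Agent.Lib.FF.BridgeJ
import Fermat.Agent.Lib.FF.Model
set_option autoImplicit false
set_option linter.unusedSectionVars false
namespace Fermat.Agent.Lib.S48
open UpperHalfPlane hiding I
open EisensteinSeries Complex Matrix CongruenceSubgroup ModularForm Filter
open Fermat.Agent.Lib.FF
open Fermat.Agent.Lib.RR (Dl Dl_ne_zero Dl_mem_MF1 mdifferentiable_Dl)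
open scoped MatrixGroups Real Nat Manifold Topology
noncomputable section
variable {M : ℕ} [NeZero M] (ψ : DirichletCharacter ℂ M)

/-- `s48k_Gan ψ 12` as a Mathlib modular form of level `Γ(M)`. -/
def s48k_GanMF : ModularForm (Gamma M) 12 :=
  ∑ a : Fin 2 → ZMod M, ψ (a 0) • eisensteinSeriesMF (by norm_num : (3 : ℤ) ≤ 12) a

theorem s48k_GanMF_coe : ⇑(s48k_GanMF ψ) = s48k_Gan ψ 12 := by
  funext z
  have h : ∀ (s : Finset (Fin 2 → ZMod M)),
      (⇑(∑ a ∈ s, ψ (a 0) • eisensteinSeriesMF (by norm_num : (3 : ℤ) ≤ 12) a) : ℍ → ℂ) z =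
        ∑ a ∈ s, ψ (a 0) * eisensteinSeries a 12 z := by
    intro s
    induction s using Finset.induction_on with
    | empty => simp
    | insert a s ha ih =>
      rw [Finset.sum_insert ha, Finset.sum_insert ha, FunLike.coe_add, Pi.add_apply, ih]
      rfl
  exact h Finset.univ

theorem s48k_Gan_mdiff : MDiff (s48k_Gan ψ 12) := by
  rw [← s48k_GanMF_coe]
  exact (s48k_GanMF ψ).holo'

theorem s48k_Gan_bdd_slash (γ : SL(2, ℤ)) : IsBoundedAtImInfty (s48k_Gan ψ 12 ∣[(12 : ℤ)] γ) := by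
  rw [← s48k_GanMF_coe]
  exact ModularFormClass.bdd_at_infty_slash (s48k_GanMF ψ) γ

/-- The twisted divisor sums of `ψ`. -/
def s48k_sig (n : ℕ) : ℂ := s48k_sigma (fun c => ψ (c : ZMod M)) 11 n

/-- The function with `q`-expansion `∑_{n ≥ 1} σ^ψ_{11}(n) qⁿ`. -/
def s48k_Gq (z : ℍ) : ℂ := ∑' n : ℕ+, s48k_sig ψ n * cexp (2 * π * I * z) ^ (n : ℕ)

/-- The Lipschitz constant `(-2πi)^12 / 11!`. -/
def s48k_C12 : ℂ := (-2 * π * I) ^ 12 / (11 : ℕ)!

theorem s48k_C12_ne_zero : s48k_C12 ≠ 0 := by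
  unfold s48k_C12
  refine div_ne_zero (pow_ne_zero _ ?_) (Nat.cast_ne_zero.mpr (Nat.factorial_ne_zero _))
  simp [Real.pi_ne_zero, I_ne_zero]

/-- The `L`-value `L(12, ψ)`. -/
def s48k_L12 : ℂ := ∑' r : ℕ, ψ ((r : ℕ) : ZMod M) * ((r : ℂ) ^ 12)⁻¹

theorem s48k_Gq_eq (hM : 1 < M) (hψ : ψ.Even) (z : ℍ) :
    s48k_Gq ψ z = s48k_L12 ψ / (2 * s48k_C12) * s48k_Gan ψ 12 z := by
  have h1 := s48k_tsum_wt_split ψ (k := 12) (by norm_num) z
  have h2 := s48k_tsum_wt_qexp ψ (k := 12) (by norm_num) ⟨6, rfl⟩ hM hψ z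
  rw [h1] at h2
  have hC := s48k_C12_ne_zero
  have h2' : s48k_L12 ψ * s48k_Gan ψ 12 z = 2 * s48k_C12 * s48k_Gq ψ z := by
    simpa [s48k_L12, s48k_C12, s48k_Gq, s48k_sig] using h2
  field_simp
  linear_combination -h2'

theorem s48k_Gan_smul {γ : SL(2, ℤ)} (hγ : γ ∈ Gamma0 M) (z : ℍ) :
    s48k_Gan ψ 12 (γ • z) = ψ ((γ 1 1 : ℤ) : ZMod M) * denom γ z ^ (12 : ℤ) * s48k_Gan ψ 12 z := by
  have h := congrFun (s48k_Gan_slash ψ 12 hγ) z
  rw [SL_slash_apply, Pi.smul_apply, smul_eq_mul] at h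
  have hd : denom γ z ≠ 0 := denom_ne_zero γ z
  rw [_root_.zpow_neg, mul_inv_eq_iff_eq_mul₀ (zpow_ne_zero _ hd)] at h
  rw [h]
  ring

theorem s48k_Gan_smul_all (γ : SL(2, ℤ)) (z : ℍ) :
    s48k_Gan ψ 12 (γ • z) = denom γ z ^ (12 : ℤ) * (s48k_Gan ψ 12 ∣[(12 : ℤ)] γ) z := by
  rw [SL_slash_apply]
  have hd : denom γ z ≠ 0 := denom_ne_zero γ z
  rw [_root_.zpow_neg, mul_comm (s48k_Gan ψ 12 (γ • z)), ← mul_assoc,
    mul_inv_cancel₀ (zpow_ne_zero _ hd), one_mul]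

/-- The generator of the layer: `T = (∑ σ^ψ_{11}(n) qⁿ) / Δ`. -/
def s48k_T (z : ℍ) : ℂ := s48k_Gq ψ z / Dl z

theorem s48k_T_apply (z : ℍ) : s48k_T ψ z = s48k_Gq ψ z / Dl z := rfl

theorem s48k_Dl_smul (γ : SL(2, ℤ)) (z : ℍ) : Dl (γ • z) = denom γ z ^ (12 : ℤ) * Dl z :=
  ffj_apply_smul_of_mem_MF1 Dl_mem_MF1 γ z

theorem s48k_T_smul (hM : 1 < M) (hψ : ψ.Even) {γ : SL(2, ℤ)} (hγ : γ ∈ Gamma0 M) (z : ℍ) :
    s48k_T ψ (γ • z) = ψ ((γ 1 1 : ℤ) : ZMod M) * s48k_T ψ z := by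
  have hd : denom γ z ^ (12 : ℤ) ≠ 0 := zpow_ne_zero _ (denom_ne_zero γ z)
  have hD := Dl_ne_zero z
  rw [s48k_T_apply, s48k_T_apply, s48k_Gq_eq ψ hM hψ, s48k_Gq_eq ψ hM hψ, s48k_Gan_smul ψ hγ,
    s48k_Dl_smul]
  field_simp

theorem s48k_Gq_mdiff (hM : 1 < M) (hψ : ψ.Even) : MDiff (s48k_Gq ψ) := by
  have h : s48k_Gq ψ = fun z => s48k_L12 ψ / (2 * s48k_C12) * s48k_Gan ψ 12 z :=
    funext (s48k_Gq_eq ψ hM hψ)
  rw [h]
  exact (mdifferentiable_const (c := s48k_L12 ψ / (2 * s48k_C12))).mul (s48k_Gan_mdiff ψ)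

theorem s48k_T_mdiff (hM : 1 < M) (hψ : ψ.Even) : MDiff (s48k_T ψ) := by
  rw [UpperHalfPlane.mdifferentiable_iff]
  have h4 : DifferentiableOn ℂ ((s48k_Gq ψ) ∘ ofComplex) upperHalfPlaneSet :=
    UpperHalfPlane.mdifferentiable_iff.mp (s48k_Gq_mdiff ψ hM hψ)
  have hD : DifferentiableOn ℂ (Dl ∘ ofComplex) upperHalfPlaneSet :=
    UpperHalfPlane.mdifferentiable_iff.mp mdifferentiable_Dl
  have : (s48k_T ψ ∘ ofComplex) = ((s48k_Gq ψ) ∘ ofComplex) / (Dl ∘ ofComplex) := rfl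
  rw [this]
  exact h4.div hD fun z _ => Dl_ne_zero _

theorem s48k_bdd_exp_div_Dl :
    IsBoundedAtImInfty (fun z : ℍ => cexp (2 * π * I * z) / Dl z) := by
  have h1 : Tendsto (fun z : ℍ => (Dl z * cexp (-2 * π * I * z))⁻¹) atImInfty (𝓝 1) := by
    have := (Fermat.Agent.Lib.RR.g2a_tendsto_Dl_mul_exp).inv₀ one_ne_zero
    simpa using this
  have h2 : IsBoundedAtImInfty (fun z : ℍ => (Dl z * cexp (-2 * π * I * z))⁻¹) := by
    unfold IsBoundedAtImInfty BoundedAtFilter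
    exact (Asymptotics.isBigO_one_iff (F := ℝ)).mpr h1.norm.isBoundedUnder_le
  refine h2.congr' (Eventually.of_forall fun z => ?_) (EventuallyEq.refl _ _)
  have he : cexp (-2 * π * I * z) * cexp (2 * π * I * z) = 1 := by
    rw [← Complex.exp_add]; simp
  have hne : cexp (-2 * π * I * z) ≠ 0 := Complex.exp_ne_zero _
  have hD := Dl_ne_zero z
  show (Dl z * cexp (-2 * π * I * z))⁻¹ = cexp (2 * π * I * z) / Dl z
  rw [inv_eq_one_div, div_eq_div_iff (mul_ne_zero hD hne) hD]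
  linear_combination (-(Dl z)) * he

theorem s48k_T_growth (hM : 1 < M) (hψ : ψ.Even) (γ : SL(2, ℤ)) :
    ffm_ModerateGrowth (fun z : ℍ => s48k_T ψ (γ • z)) := by
  refine ⟨1, ?_⟩
  have hb := (Filter.const_boundedAtFilter atImInfty (s48k_L12 ψ / (2 * s48k_C12))).mul
    ((s48k_Gan_bdd_slash ψ γ).mul s48k_bdd_exp_div_Dl)
  refine hb.congr' (Eventually.of_forall fun z => ?_) (EventuallyEq.refl _ _)
  have hd : denom γ z ^ (12 : ℤ) ≠ 0 := zpow_ne_zero _ (denom_ne_zero γ z)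
  have hD := Dl_ne_zero z
  simp only [Pi.mul_apply, Function.const_apply]
  rw [s48k_T_apply, s48k_Gq_eq ψ hM hψ, s48k_Gan_smul_all, s48k_Dl_smul]
  have hC := s48k_C12_ne_zero
  push_cast
  field_simp

theorem s48k_T_isWH (hM : 1 < M) (hψ : ψ.Even) : ffm_IsWH M (s48k_T ψ) where
  mdiff := s48k_T_mdiff ψ hM hψ
  inv := fun γ hγ z => by
    have h0 : γ ∈ Gamma0 M := Gamma0_mem.mpr (Gamma_mem.mp hγ).2.2.1
    have h11 : ((γ 1 1 : ℤ) : ZMod M) = 1 := (Gamma_mem.mp hγ).2.2.2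
    rw [s48k_T_smul ψ hM hψ h0, h11, map_one, one_mul]
  growth := s48k_T_growth ψ hM hψ

/-! ### The Laurent expansion of `T` -/

theorem s48k_periodic_comp_ofComplex {g : ℍ → ℂ} (hg : ∀ z : ℍ, g ((1 : ℝ) +ᵥ z) = g z) :
    Function.Periodic (g ∘ ofComplex) 1 := by
  intro w
  simp only [Function.comp_apply]
  by_cases hw : 0 < w.im
  · have hw1 : 0 < (w + 1).im := by simpa using hw
    have h1 : ofComplex (w + 1) = (1 : ℝ) +ᵥ ofComplex w := by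
      apply UpperHalfPlane.ext
      rw [ofComplex_apply_of_im_pos hw1, UpperHalfPlane.coe_vadd, ofComplex_apply_of_im_pos hw]
      push_cast
      ring
    rw [h1, hg]
  · have hw1 : ¬ 0 < (w + 1).im := by simpa using hw
    rw [ofComplex_apply_of_im_nonpos (not_lt.mp hw),
      ofComplex_apply_of_im_nonpos (not_lt.mp hw1)]

theorem s48k_Gq_vadd_one (z : ℍ) : s48k_Gq ψ ((1 : ℝ) +ᵥ z) = s48k_Gq ψ z := by
  unfold s48k_Gq
  refine tsum_congr fun n => ?_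
  congr 2
  rw [UpperHalfPlane.coe_vadd]
  have : (2 * π * I * (((1 : ℝ) : ℂ) + (z : ℂ))) = 2 * π * I * z + 2 * π * I := by
    push_cast; ring
  rw [this, Complex.exp_add, Complex.exp_two_pi_mul_I, mul_one]

theorem s48k_Dl_vadd_one (z : ℍ) : Dl ((1 : ℝ) +ᵥ z) = Dl z := by
  have h := s48k_Dl_smul ModularGroup.T z
  rw [UpperHalfPlane.modular_T_smul] at h
  rw [h]
  have hd : denom ModularGroup.T z = 1 := by
    simp [denom, ModularGroup.T]
  rw [hd, _root_.one_zpow, one_mul]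

theorem s48k_T_vadd_one (z : ℍ) : s48k_T ψ ((1 : ℝ) +ᵥ z) = s48k_T ψ z := by
  rw [s48k_T_apply, s48k_T_apply, s48k_Gq_vadd_one, s48k_Dl_vadd_one]

theorem s48k_summable_sigma_wt (w : ℕ → ℂ) (hw : ∀ n, ‖w n‖ ≤ 1) (k : ℕ) {r : ℂ} (hr : ‖r‖ < 1) :
    Summable fun e : ℕ+ => s48k_sigma w k e * r ^ (e : ℕ) := by
  have hs := s48k_summable_prod_wt w hw k hr
  have hs' : Summable fun x : (Σ n : ℕ+, Nat.divisorsAntidiagonal n) =>
      (fun c : ℕ+ × ℕ+ => w c.1 * (c.2 : ℂ) ^ k * r ^ (c.1 * c.2 : ℕ))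
        (sigmaAntidiagonalEquivProd x) := sigmaAntidiagonalEquivProd.summable_iff.mpr hs
  refine hs'.sigma.congr fun n => ?_
  rw [tsum_fintype, s48k_sigma, Finset.sum_mul, Finset.univ_eq_attach]
  rw [← Finset.sum_attach ((n : ℕ).divisorsAntidiagonal)
    (fun x => w x.1 * (x.2 : ℂ) ^ k * r ^ (n : ℕ))]
  refine Finset.sum_congr rfl fun x _ => ?_
  have hx := (Nat.mem_divisorsAntidiagonal.mp x.2).1
  simp only [sigmaAntidiagonalEquivProd, divisorsAntidiagonalFactors, Equiv.coe_fn_mk, PNat.mk_coe]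
  rw [hx]

theorem s48k_sig_zero : s48k_sig ψ 0 = 0 := s48k_sigma_zero _ _

theorem s48k_sig_one : s48k_sig ψ 1 = 1 := by
  rw [s48k_sig, s48k_sigma_one]
  simp

theorem s48k_Gq_hasSum (τ : ℍ) :
    HasSum (fun m : ℕ => s48k_sig ψ m • Function.Periodic.qParam 1 τ ^ m) (s48k_Gq ψ τ) := by
  have hq : Function.Periodic.qParam 1 τ = cexp (2 * π * I * τ) := by
    simp [Function.Periodic.qParam]
  have hr : ‖cexp (2 * π * I * τ)‖ < 1 := norm_exp_two_pi_I_lt_one τ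
  have hs := s48k_summable_sigma_wt (fun c => ψ (c : ZMod M))
    (fun n => DirichletCharacter.norm_le_one ψ _) 11 hr
  have h1 : HasSum (fun e : ℕ+ => s48k_sig ψ e * cexp (2 * π * I * τ) ^ (e : ℕ)) (s48k_Gq ψ τ) :=
    hs.hasSum
  rw [hq]
  have hinj : Function.Injective (fun e : ℕ+ => (e : ℕ)) := PNat.coe_injective
  rw [← hinj.hasSum_iff]
  · exact h1
  · intro m hm
    have : m = 0 := by
      by_contra h0
      exact hm ⟨⟨m, Nat.pos_of_ne_zero h0⟩, rfl⟩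
    rw [this, s48k_sig_zero, zero_smul]

theorem s48k_nice_Gq (hM : 1 < M) (hψ : ψ.Even) : ffb_Nice (s48k_Gq ψ) where
  hol := s48k_Gq_mdiff ψ hM hψ
  per := s48k_periodic_comp_ofComplex (s48k_Gq_vadd_one ψ)
  bdd := by
    have hb := (Filter.const_boundedAtFilter atImInfty (s48k_L12 ψ / (2 * s48k_C12))).mul
      (s48k_Gan_bdd_slash ψ 1)
    rw [SlashAction.slash_one] at hb
    refine hb.congr' (Eventually.of_forall fun z => ?_) (EventuallyEq.refl _ _)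
    simp only [Pi.mul_apply, Function.const_apply]
    rw [s48k_Gq_eq ψ hM hψ]

theorem s48k_qExpansion_Gq (hM : 1 < M) (hψ : ψ.Even) :
    qExpansion 1 (s48k_Gq ψ) = PowerSeries.mk (s48k_sig ψ) :=
  (s48k_nice_Gq ψ hM hψ).qExpansion_eq_mk (s48k_Gq_hasSum ψ)

theorem s48k_mk_sig_eq : PowerSeries.mk (s48k_sig ψ) =
    PowerSeries.X * s48k_G1PS (fun c => ψ (c : ZMod M)) := by
  ext n
  rcases n with _ | n
  · simp [s48k_sig_zero]
  · rw [PowerSeries.coeff_mk, PowerSeries.coeff_succ_X_mul, s48k_G1PS, PowerSeries.coeff_mk]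
    rfl

theorem s48k_nice_Q_mul_T (hM : 1 < M) (hψ : ψ.Even) : ffb_Nice (ffb_Q ^ 1 * s48k_T ψ) where
  hol := by
    rw [pow_one]
    exact ffb_nice_Q.hol.mul (s48k_T_mdiff ψ hM hψ)
  per := by
    refine s48k_periodic_comp_ofComplex fun z => ?_
    have h1 : ffb_Q ((1 : ℝ) +ᵥ z) = ffb_Q z := by
      rw [ffb_Q_apply, ffb_Q_apply, UpperHalfPlane.coe_vadd]
      have : (2 * π * I * (((1 : ℝ) : ℂ) + (z : ℂ))) = 2 * π * I * z + 2 * π * I := by
        push_cast; ring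
      rw [this, Complex.exp_add, Complex.exp_two_pi_mul_I, mul_one]
    simp only [Pi.mul_apply, pow_one]
    rw [h1, s48k_T_vadd_one]
  bdd := by
    have hb := (s48k_nice_Gq ψ hM hψ).bdd.mul s48k_bdd_exp_div_Dl
    refine hb.congr' (Eventually.of_forall fun z => ?_) (EventuallyEq.refl _ _)
    simp only [Pi.mul_apply, pow_one, ffb_Q_apply, s48k_T_apply]
    ring

theorem s48k_qExpansion_Q_mul_T (hM : 1 < M) (hψ : ψ.Even) :
    qExpansion 1 (ffb_Q ^ 1 * s48k_T ψ) =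
      PowerSeries.X * s48k_tPS (fun c => ψ (c : ZMod M)) := by
  have hfun : (ffb_Q ^ 1 * s48k_T ψ) * Dl = ffb_Q * s48k_Gq ψ := by
    funext z
    have := Dl_ne_zero z
    simp only [Pi.mul_apply, pow_one, s48k_T_apply]
    field_simp
  have h1 := (s48k_nice_Q_mul_T ψ hM hψ).qExpansion_mul ffb_nice_Dl
  have h2 := ffb_nice_Q.qExpansion_mul (s48k_nice_Gq ψ hM hψ)
  rw [hfun, h2, ffb_qExpansion_Q, s48k_qExpansion_Gq ψ hM hψ, ffb_qExpansion_Dl,
    s48k_mk_sig_eq] at h1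
  set A := qExpansion 1 (ffb_Q ^ 1 * s48k_T ψ) with hA
  have h3 : PowerSeries.X * s48k_G1PS (fun c => ψ (c : ZMod M)) =
      A * (ModularCurve.etaProd.map (Int.castRingHom ℂ)) ^ 24 := by
    refine mul_left_cancel₀ (PowerSeries.X_ne_zero (R := ℂ)) ?_
    rw [h1]; ring
  have h4 : (ModularCurve.etaProd.map (Int.castRingHom ℂ)) ^ 24 *
      ModularCurve.dedekindEtaUnitInv.map (Int.castRingHom ℂ) = 1 := by
    have := congrArg (PowerSeries.map (Int.castRingHom ℂ)) ModularCurve.dedekindEtaUnit_mul_inv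
    rw [map_mul, map_one, ModularCurve.dedekindEtaUnit, map_pow] at this
    exact this
  rw [s48k_tPS, ← mul_assoc, h3, mul_assoc, h4, mul_one]

/-- **The analytic generator `T` has the formal `q`-expansion `t`.** -/
theorem s48k_T_isLaurent (hM : 1 < M) (hψ : ψ.Even) :
    ffb_IsLaurent (s48k_T ψ)
      (HahnSeries.ofPowerSeries ℤ ℂ (s48k_tPS (fun c => ψ (c : ZMod M)))) := by
  refine ⟨1, s48k_nice_Q_mul_T ψ hM hψ, ?_⟩
  rw [s48k_qExpansion_Q_mul_T ψ hM hψ, map_mul, HahnSeries.ofPowerSeries_X, ← mul_assoc,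
    HahnSeries.single_mul_single]
  simp

end
end Fermat.Agent.Lib.S48

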