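/-
S48 / DS-1, [T5] brick (helper3): **(K-Div)** — the divisor of `h = t_χ ^ n` is divisible by `n`.

* `s48h_dvd_ord_of_chiFun` : `s48h_dvd_ord` (HKLam) restated without the character bookkeeping: for
  `χ`-functions `ga, gb` (`s48h_IsChiFun N Γ`) and `A, B ∈ ffm_R N` with `A · gbᵖ = B · gaᵖ`, every order
  of `h` with `φ h = A / B` is divisible by `p`;
* `s48h_isChiFun_T` : helper4's generator `T_χ = s48k_T χ` is a `χ`-function for every `Γ ≤ Γ₀(M)` on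
  whose finite-order and parabolic elements `χ ∘ (lower right entry)` is trivial;
* `s48h_kdiv` : **if `φ h = T_χ ^ n` then `n ∣ ord_v h` for every place `v`**.
-/
import Mathlib
import Fermat.Agent.Lib.S48.HKLam
import Fermat.Agent.Lib.S29.LamFun
import Fermat.Agent.Lib.S48.KEisT

set_option autoImplicit false
set_option linter.unusedSectionVars false

namespace Fermat.Agent.Lib.S48

open UpperHalfPlane hiding I
open Filter Matrix.SpecialLinearGroup Function CongruenceSubgroup ModularGroup AlgebraicCurve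
open Fermat.Agent.Lib.FF Fermat.Agent.Lib.S29
open scoped MatrixGroups Manifold Topology WithZero Real

noncomputable section

section Gen

variable {K F : Type*} [Field K] [Field F] [Algebra K F] {N p : ℕ} [NeZero N] [NeZero p]
  {Γ : Subgroup SL(2, ℤ)} {φ : F →+* ffm_E N} {ga gb : ℍ → ℂ}

/-- All orders of a function `h` with `φ h = A / B`, `A · gbᵖ = B · gaᵖ`, are divisible by `p`. -/
theorem s48h_dvd_ord_of_chiFun (hpl : s48h_PlacesHyp K N Γ φ) (hga : s48h_IsChiFun N Γ ga)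
    (hgb : s48h_IsChiFun N Γ gb) (A B : ffm_R N) (hA : A ≠ 0) (hB : B ≠ 0)
    (hrel : ∀ z : ℍ, (A : ℍ → ℂ) z * gb z ^ p = (B : ℍ → ℂ) z * ga z ^ p) (h : F) (hh : h ≠ 0)
    (hφ : φ h = algebraMap (ffm_R N) (ffm_E N) A / algebraMap (ffm_R N) (ffm_E N) B)
    (v : Place K F) : (p : ℤ) ∣ v.ord h := by
  have hp0 : (p : ℤ) ≠ 0 := by exact_mod_cast NeZero.ne p
  rcases hpl v with ⟨τ, σ, hv⟩ | ⟨σ, m, k, hmk, hσ, hv⟩ | ⟨σ, m, k, hmk, hσ, hv⟩ |
    ⟨σ, m, k, hmk, hσ, hv⟩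
  · obtain ⟨c, hc⟩ := s48h_ord_point hga hgb A B hA hB hrel σ τ
    rw [← hφ, hv h hh] at hc
    exact ⟨c, hc⟩
  · have hm : m = 1 ∧ k = 2 ∨ m = 2 ∧ k = 1 := by
      have hm2 : m ∣ 2 := ⟨k, hmk.symm⟩
      have : m ≤ 2 := Nat.le_of_dvd (by norm_num) hm2
      interval_cases m
      · omega
      · left; omega
      · right; omega
    rcases hm with ⟨rfl, rfl⟩ | ⟨rfl, rfl⟩
    · obtain ⟨c, hc⟩ := s48h_ord_point hga hgb A B hA hB hrel σ UpperHalfPlane.I
      rw [← hφ, hv h hh] at hc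
      exact ⟨c, by simpa using hc⟩
    · rw [pow_one] at hσ
      obtain ⟨c, hc⟩ := s48h_ord_I hga hgb A B hA hB hrel σ hσ
      rw [← hφ, hv h hh] at hc
      refine ⟨c, ?_⟩
      have : (2 : ℤ) * v.ord h = 2 * ((p : ℤ) * c) := by
        push_cast at hc; rw [hc]; ring
      exact mul_left_cancel₀ (by norm_num) this
  · have hm : m = 1 ∧ k = 3 ∨ m = 3 ∧ k = 1 := by
      have hm3 : m ∣ 3 := ⟨k, hmk.symm⟩
      have : m ≤ 3 := Nat.le_of_dvd (by norm_num) hm3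
      interval_cases m
      · omega
      · left; omega
      · omega
      · right; omega
    rcases hm with ⟨rfl, rfl⟩ | ⟨rfl, rfl⟩
    · obtain ⟨c, hc⟩ := s48h_ord_point hga hgb A B hA hB hrel σ RR.Ramanujan.rho
      rw [← hφ, hv h hh] at hc
      exact ⟨c, by simpa using hc⟩
    · rw [pow_one] at hσ
      obtain ⟨c, hc⟩ := s48h_ord_rho hga hgb A B hA hB hrel σ hσ
      rw [← hφ, hv h hh] at hc
      refine ⟨c, ?_⟩
      have : (3 : ℤ) * v.ord h = 3 * ((p : ℤ) * c) := by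
        push_cast at hc; rw [hc]; ring
      exact mul_left_cancel₀ (by norm_num) this
  · have hk : k ∣ N := ⟨m, by rw [← hmk, mul_comm]⟩
    have hN : N ≠ 0 := NeZero.ne N
    have hk0 : 0 < k := by
      rcases Nat.eq_zero_or_pos k with rfl | h0
      · rw [mul_zero] at hmk; exact absurd hmk.symm hN
      · exact h0
    have hm0 : m ≠ 0 := by
      rintro rfl
      rw [zero_mul] at hmk; exact hN hmk.symm
    have hNk : N / k = m := by
      rw [← hmk, Nat.mul_div_cancel _ hk0]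
    obtain ⟨c, hc⟩ := s48h_ord_inf hga hgb A B hA hB hrel σ hk hσ
    rw [← hφ, hv h hh, hNk] at hc
    refine ⟨c, ?_⟩
    have : (m : ℤ) * v.ord h = m * ((p : ℤ) * c) := by
      rw [hc]; ring
    exact mul_left_cancel₀ (by exact_mod_cast hm0) this

/-- The constant function `1` is a `χ`-function. -/
theorem s48h_isChiFun_one : s48h_IsChiFun N Γ (fun _ : ℍ => (1 : ℂ)) where
  mdiff := mdifferentiable_const
  ne_zero := ⟨UpperHalfPlane.I, one_ne_zero⟩
  inv_finOrd _ _ _ := rfl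
  inv_par _ _ _ _ := rfl
  growth _ := ffm_ModerateGrowth.const 1

end Gen

/-! ### The generator `T_χ` -/

section T

variable {M : ℕ} [NeZero M] (χ : DirichletCharacter ℂ M) (hM : 1 < M) (hχ : χ.Even)

include hM hχ in
theorem s48h_T_ne_zero : ∃ z : ℍ, s48k_T χ z ≠ 0 := by
  by_contra hcon
  push Not at hcon
  have h0 : s48k_T χ = 0 := funext hcon
  have h1 := s48k_T_isLaurent χ hM hχ
  rw [h0] at h1
  have h2 : (0 : LaurentSeries ℂ) =
      HahnSeries.ofPowerSeries ℤ ℂ (s48k_tPS (fun c : ℕ => χ (c : ZMod M))) :=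
    ffb_IsLaurent.unique (by
      have h := ffb_IsLaurent.const (0 : ℂ)
      rw [map_zero] at h
      exact h) h1
  have h3 : s48k_tPS (fun c : ℕ => χ (c : ZMod M)) = 0 :=
    HahnSeries.ofPowerSeries_injective (by rw [← h2, map_zero])
  have h4 := s48k_constantCoeff_tPS (fun c : ℕ => χ (c : ZMod M))
  rw [h3, map_zero] at h4
  simp at h4

include hM hχ in
/-- `T_χ` is a `χ`-function for `Γ ≤ Γ₀(M)` as soon as `χ ∘ (lower right entry)` is trivial on the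
finite-order and on the parabolic elements of `Γ`. -/
theorem s48h_isChiFun_T {Γ : Subgroup SL(2, ℤ)} (hΓ : Γ ≤ Gamma0 M)
    (hfin : ∀ γ : SL(2, ℤ), γ ∈ Γ → IsOfFinOrder γ → χ ((γ 1 1 : ℤ) : ZMod M) = 1)
    (hpar : ∀ (σ : SL(2, ℤ)) (k : ℕ), σ⁻¹ * T ^ k * σ ∈ Γ →
      χ (((σ⁻¹ * T ^ k * σ) 1 1 : ℤ) : ZMod M) = 1) :
    s48h_IsChiFun M Γ (s48k_T χ) where
  mdiff := s48k_T_mdiff χ hM hχ
  ne_zero := s48h_T_ne_zero χ hM hχ
  inv_finOrd γ hγ z := by
    have hfo : IsOfFinOrder (γ : SL(2, ℤ)) := by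
      obtain ⟨n, hn, hgn⟩ := isOfFinOrder_iff_pow_eq_one.mp hγ
      refine isOfFinOrder_iff_pow_eq_one.mpr ⟨n, hn, ?_⟩
      have := congrArg Subtype.val hgn
      simpa using this
    rw [s48k_T_smul χ hM hχ (hΓ γ.2), hfin _ γ.2 hfo, one_mul]
  inv_par σ k hk z := by
    rw [s48k_T_smul χ hM hχ (hΓ hk), hpar σ k hk, one_mul]
  growth σ := s48k_T_growth χ hM hχ σ

include hM hχ in
theorem s48h_T_pow_isWH (n : ℕ) :
    ffm_IsWH M (fun z => s48k_T χ z ^ n) where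
  mdiff := (s48k_T_mdiff χ hM hχ).pow n
  inv γ hγ z := by
    show s48k_T χ (γ • z) ^ n = s48k_T χ z ^ n
    rw [(s48k_T_isWH χ hM hχ).inv γ hγ z]
  growth σ := s29lf_moderateGrowth_pow (s48k_T_growth χ hM hχ σ) n

include hM hχ in
/-- **(K-Div)**: if `φ h = T_χ ^ n` then every order of `h` is divisible by `n`. -/
theorem s48h_kdiv {K F : Type*} [Field K] [Field F] [Algebra K F] {Γ : Subgroup SL(2, ℤ)}
    {φ : F →+* ffm_E M} (hpl : s48h_PlacesHyp K M Γ φ) (hΓ : Γ ≤ Gamma0 M)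
    (hfin : ∀ γ : SL(2, ℤ), γ ∈ Γ → IsOfFinOrder γ → χ ((γ 1 1 : ℤ) : ZMod M) = 1)
    (hpar : ∀ (σ : SL(2, ℤ)) (k : ℕ), σ⁻¹ * T ^ k * σ ∈ Γ →
      χ (((σ⁻¹ * T ^ k * σ) 1 1 : ℤ) : ZMod M) = 1)
    (n : ℕ) [NeZero n] (h : F) (hh : h ≠ 0)
    (hφ : φ h = algebraMap (ffm_R M) (ffm_E M)
      ⟨fun z => s48k_T χ z ^ n, s48h_T_pow_isWH χ hM hχ n⟩) (v : Place K F) :
    (n : ℤ) ∣ v.ord h := by
  set A : ffm_R M := ⟨fun z => s48k_T χ z ^ n, s48h_T_pow_isWH χ hM hχ n⟩ with hA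
  have hA0 : A ≠ 0 := by
    obtain ⟨z, hz⟩ := s48h_T_ne_zero χ hM hχ
    intro h0
    have h1 : (A : ℍ → ℂ) z = 0 := by rw [h0]; rfl
    exact pow_ne_zero n hz h1
  refine s48h_dvd_ord_of_chiFun hpl (s48h_isChiFun_T χ hM hχ hΓ hfin hpar) s48h_isChiFun_one A 1 hA0
    one_ne_zero (fun z => ?_) h hh (by rw [hφ, map_one, div_one]) v
  show s48k_T χ z ^ n * (1 : ℂ) ^ n = (1 : ℂ) * s48k_T χ z ^ n
  rw [one_pow, mul_one, one_mul]

end T

end

end Fermat.Agent.Lib.S48
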