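/-
S48 Stage A (helper3): abstract Hecke operators on `Hom(Γ, A)` for ANY subgroup `Γ ≤ SL(2, ℤ)`.

A `s48h_MatDatum Γ X` is a family of integral coset representatives `α x` (`det ≠ 0`) indexed by `X`
on which `Γ` acts on the right (`perm`), with `α_x γ ∈ Γ α_{x·γ}`.  It defines the coset family
`fam γ x ∈ Γ` (`α_x γ = fam γ x · α_{x·γ}`, unique), the cocycle rule, and the operator
`(T χ)(γ) = ∑_x χ (fam γ x)` on `Hom(Γ, A)` (`s48h_MatDatum.heckeHom`), natural in `A`.
* independence of the representatives (`heckeHom_eq_of_equiv`),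
* products (`s48h_MatDatum.prod`, `heckeHom_prod`),
* stability of parabolic homomorphisms and of homomorphisms killing the elements of finite order.
This generalises `Lib/S29/HDefs.lean`, `HStab.lean` (`Γ₀(N)`, `T_ℓ`) to arbitrary `Γ` and arbitrary
double cosets (diamond operators, `T_p` on `Γ_H`, `U_p`, …).
-/
import Mathlib
import Fermat.Prelude.Def_ModularCurve_PeriodMap

set_option autoImplicit false
set_option linter.unusedSectionVars false

noncomputable section

namespace Fermat.Agent.Lib.S48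

open ModularCurve.Period
open scoped MatrixGroups

local notation "Mat2" => Matrix (Fin 2) (Fin 2) ℤ

theorem s48h_mul_right_cancel {A B M : Mat2} (hM : M.det ≠ 0) (h : A * M = B * M) : A = B := by
  have h1 := congrArg (fun X => X * M.adjugate) h
  simp only [Matrix.mul_assoc, Matrix.mul_adjugate] at h1
  rw [Matrix.mul_smul, Matrix.mul_smul, Matrix.mul_one, Matrix.mul_one] at h1
  exact smul_right_injective _ hM h1

/-- A matrix Hecke datum on `Γ`. -/
structure s48h_MatDatum (Γ : Subgroup SL(2, ℤ)) (X : Type*) where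
  α : X → Mat2
  det_ne : ∀ x, (α x).det ≠ 0
  perm : Γ → Equiv.Perm X
  perm_mul : ∀ γ δ x, perm (γ * δ) x = perm δ (perm γ x)
  ex : ∀ (γ : Γ) (x : X), ∃ g : Γ,
    α x * ((γ : SL(2, ℤ)) : Mat2) = ((g : SL(2, ℤ)) : Mat2) * α (perm γ x)

namespace s48h_MatDatum

variable {Γ : Subgroup SL(2, ℤ)} {X : Type*} (D : s48h_MatDatum Γ X)

/-- The coset family. -/
def fam (γ : Γ) (x : X) : Γ := Classical.choose (D.ex γ x)

theorem fam_spec (γ : Γ) (x : X) :
    D.α x * ((γ : SL(2, ℤ)) : Mat2) = ((D.fam γ x : SL(2, ℤ)) : Mat2) * D.α (D.perm γ x) :=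
  Classical.choose_spec (D.ex γ x)

theorem fam_unique (γ : Γ) (x : X) (g : Γ)
    (h : D.α x * ((γ : SL(2, ℤ)) : Mat2) = ((g : SL(2, ℤ)) : Mat2) * D.α (D.perm γ x)) :
    g = D.fam γ x := by
  apply Subtype.ext
  apply Subtype.ext
  exact s48h_mul_right_cancel (D.det_ne _) (h.symm.trans (D.fam_spec γ x))

theorem perm_one (x : X) : D.perm 1 x = x := by
  have h := D.perm_mul 1 1 x
  rw [mul_one] at h
  exact ((D.perm 1).injective h).symm

theorem fam_one (x : X) : D.fam 1 x = 1 := by
  refine (D.fam_unique 1 x 1 ?_).symm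
  rw [D.perm_one, OneMemClass.coe_one, Matrix.SpecialLinearGroup.coe_one, Matrix.mul_one,
    Matrix.one_mul]

/-- The cocycle rule. -/
theorem fam_mul (γ δ : Γ) (x : X) :
    D.fam (γ * δ) x = D.fam γ x * D.fam δ (D.perm γ x) := by
  refine (D.fam_unique (γ * δ) x _ ?_).symm
  rw [MulMemClass.coe_mul, MulMemClass.coe_mul, Matrix.SpecialLinearGroup.coe_mul,
    Matrix.SpecialLinearGroup.coe_mul, D.perm_mul, ← Matrix.mul_assoc, D.fam_spec γ x,
    Matrix.mul_assoc, D.fam_spec δ, Matrix.mul_assoc]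

theorem perm_pow (γ : Γ) (m : ℕ) (x : X) : D.perm (γ ^ m) x = ((D.perm γ) ^ m) x := by
  induction m with
  | zero => rw [pow_zero, D.perm_one, pow_zero, Equiv.Perm.one_apply]
  | succ m ih => rw [pow_succ, D.perm_mul, ih, pow_succ', Equiv.Perm.mul_apply]

/-! ### The operator on `Hom(Γ, A)` -/

section Hom

variable [Fintype X] (A : Type*) [AddCommGroup A]

/-- `T χ` as a homomorphism. -/
def heckeHomAux (χ : Additive Γ →+ A) : Additive Γ →+ A where
  toFun γ := ∑ x : X, χ (Additive.ofMul (D.fam (Additive.toMul γ) x))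
  map_zero' := by
    refine Finset.sum_eq_zero fun x _ => ?_
    rw [toMul_zero, D.fam_one, ofMul_one, map_zero]
  map_add' γ δ := by
    rw [← Equiv.sum_comp (D.perm (Additive.toMul γ))
      (fun x => χ (Additive.ofMul (D.fam (Additive.toMul δ) x))), ← Finset.sum_add_distrib]
    refine Finset.sum_congr rfl fun x _ => ?_
    rw [toMul_add, D.fam_mul, ofMul_mul, map_add]

/-- **The Hecke operator of the datum `D`** on `Hom(Γ, A)`. -/
def heckeHom : (Additive Γ →+ A) →+ (Additive Γ →+ A) where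
  toFun := D.heckeHomAux A
  map_zero' := by
    refine AddMonoidHom.ext fun γ => ?_
    exact Finset.sum_eq_zero fun x _ => rfl
  map_add' := fun χ ψ => by
    refine AddMonoidHom.ext fun γ => ?_
    exact Finset.sum_add_distrib

variable {A}

theorem heckeHom_apply (χ : Additive Γ →+ A) (γ : Γ) :
    D.heckeHom A χ (Additive.ofMul γ) = ∑ x : X, χ (Additive.ofMul (D.fam γ x)) := rfl

/-- `(T χ)(γ) = ∑_x χ(γ'_x)` for ANY valid coset family `γ'` of `γ`. -/
theorem heckeHom_apply_of_family (χ : Additive Γ →+ A) (γ : Γ) (γ' : X → Γ)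
    (h : ∀ x, D.α x * ((γ : SL(2, ℤ)) : Mat2)
      = ((γ' x : SL(2, ℤ)) : Mat2) * D.α (D.perm γ x)) :
    D.heckeHom A χ (Additive.ofMul γ) = ∑ x : X, χ (Additive.ofMul (γ' x)) := by
  rw [D.heckeHom_apply]
  refine Finset.sum_congr rfl fun x _ => ?_
  rw [D.fam_unique γ x (γ' x) (h x)]

/-- Naturality in the coefficient group. -/
theorem heckeHom_comp {B : Type*} [AddCommGroup B] (f : A →+ B) (χ : Additive Γ →+ A) :
    D.heckeHom B (f.comp χ) = f.comp (D.heckeHom A χ) := by
  refine AddMonoidHom.ext fun γ => ?_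
  obtain ⟨γ, rfl⟩ := Additive.ofMul.surjective γ
  rw [AddMonoidHom.comp_apply, D.heckeHom_apply, D.heckeHom_apply, map_sum]
  rfl

/-- `T` commutes with scalars. -/
theorem heckeHom_smul {R : Type*} [Semiring R] [Module R A] (c : R) (χ : Additive Γ →+ A) :
    D.heckeHom A (c • χ) = c • D.heckeHom A χ := by
  refine AddMonoidHom.ext fun γ => ?_
  obtain ⟨γ, rfl⟩ := Additive.ofMul.surjective γ
  rw [D.heckeHom_apply, AddMonoidHom.smul_apply, D.heckeHom_apply, Finset.smul_sum]
  rfl

/-- `T` as an `R`-linear map. -/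
def heckeLin (R : Type*) [Semiring R] [Module R A] :
    (Additive Γ →+ A) →ₗ[R] (Additive Γ →+ A) where
  toFun := D.heckeHom A
  map_add' := map_add _
  map_smul' := fun c χ => D.heckeHom_smul c χ

end Hom

/-! ### Independence of the representatives -/

theorem heckeHom_eq_of_equiv {X' : Type*} [Fintype X] [Fintype X'] (D' : s48h_MatDatum Γ X')
    {A : Type*} [AddCommGroup A] (e : X ≃ X') (g : X → Γ)
    (hα : ∀ x, D.α x = ((g x : SL(2, ℤ)) : Mat2) * D'.α (e x))
    (hperm : ∀ γ x, D'.perm γ (e x) = e (D.perm γ x)) :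
    D.heckeHom A = D'.heckeHom A := by
  refine AddMonoidHom.ext fun χ => AddMonoidHom.ext fun γ => ?_
  obtain ⟨γ, rfl⟩ := Additive.ofMul.surjective γ
  rw [D.heckeHom_apply, D'.heckeHom_apply, ← Equiv.sum_comp e]
  have hfam : ∀ x, D'.fam γ (e x) = (g x)⁻¹ * D.fam γ x * g (D.perm γ x) := by
    intro x
    refine (D'.fam_unique γ (e x) _ ?_).symm
    have h1 := D.fam_spec γ x
    rw [hα x, hα (D.perm γ x), Matrix.mul_assoc, ← Matrix.mul_assoc _ _ (D'.α _)] at h1
    rw [hperm]
    have h2 : ((((g x)⁻¹ * D.fam γ x * g (D.perm γ x) : Γ) : SL(2, ℤ)) : Mat2)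
        = (((g x)⁻¹ : Γ) : SL(2, ℤ)).1 * ((D.fam γ x : SL(2, ℤ)).1 * (g (D.perm γ x) : SL(2, ℤ)).1) := by
      rw [mul_assoc, MulMemClass.coe_mul, MulMemClass.coe_mul, Matrix.SpecialLinearGroup.coe_mul,
        Matrix.SpecialLinearGroup.coe_mul]
    rw [h2, Matrix.mul_assoc, ← h1, ← Matrix.mul_assoc, ← Matrix.mul_assoc,
      ← Matrix.SpecialLinearGroup.coe_mul, ← MulMemClass.coe_mul, inv_mul_cancel,
      OneMemClass.coe_one, Matrix.SpecialLinearGroup.coe_one, Matrix.one_mul]
  have hsum : ∑ x : X, χ (Additive.ofMul (D'.fam γ (e x)))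
      = ∑ x : X, (χ (Additive.ofMul (D.fam γ x)) + (χ (Additive.ofMul (g (D.perm γ x)))
        - χ (Additive.ofMul (g x)))) := by
    refine Finset.sum_congr rfl fun x _ => ?_
    rw [hfam x, ofMul_mul, ofMul_mul, map_add, map_add, ofMul_inv, map_neg]
    abel
  rw [hsum, Finset.sum_add_distrib, Finset.sum_sub_distrib,
    Equiv.sum_comp (D.perm γ) (fun x => χ (Additive.ofMul (g x))), sub_self, add_zero]

/-! ### Products -/

section Prod

variable {Y : Type*} (E : s48h_MatDatum Γ Y)

/-- The permutation of the product datum. -/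
def prodPerm (γ : Γ) : Equiv.Perm (X × Y) where
  toFun xy := (D.perm (E.fam γ xy.2) xy.1, E.perm γ xy.2)
  invFun xy := ((D.perm (E.fam γ ((E.perm γ).symm xy.2))).symm xy.1, (E.perm γ).symm xy.2)
  left_inv xy := by
    simp only [Equiv.symm_apply_apply]
  right_inv xy := by
    simp only [Equiv.apply_symm_apply]

/-- The product datum: representatives `α_x β_y`. -/
def prod : s48h_MatDatum Γ (X × Y) where
  α xy := D.α xy.1 * E.α xy.2
  det_ne xy := by
    rw [Matrix.det_mul]
    exact mul_ne_zero (D.det_ne _) (E.det_ne _)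
  perm := D.prodPerm E
  perm_mul γ δ xy := by
    show (D.perm (E.fam (γ * δ) xy.2) xy.1, E.perm (γ * δ) xy.2)
      = (D.perm (E.fam δ (E.perm γ xy.2)) (D.perm (E.fam γ xy.2) xy.1),
          E.perm δ (E.perm γ xy.2))
    rw [E.fam_mul, D.perm_mul, E.perm_mul]
  ex γ xy := by
    refine ⟨D.fam (E.fam γ xy.2) xy.1, ?_⟩
    show D.α xy.1 * E.α xy.2 * ((γ : SL(2, ℤ)) : Mat2)
      = _ * (D.α (D.perm (E.fam γ xy.2) xy.1) * E.α (E.perm γ xy.2))
    rw [Matrix.mul_assoc, E.fam_spec γ xy.2, ← Matrix.mul_assoc, D.fam_spec, Matrix.mul_assoc]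

theorem prod_fam (γ : Γ) (xy : X × Y) :
    (D.prod E).fam γ xy = D.fam (E.fam γ xy.2) xy.1 := by
  refine ((D.prod E).fam_unique γ xy _ ?_).symm
  show D.α xy.1 * E.α xy.2 * ((γ : SL(2, ℤ)) : Mat2)
    = _ * (D.α (D.perm (E.fam γ xy.2) xy.1) * E.α (E.perm γ xy.2))
  rw [Matrix.mul_assoc, E.fam_spec γ xy.2, ← Matrix.mul_assoc, D.fam_spec, Matrix.mul_assoc]

/-- The operator of the product datum is the composite. -/
theorem heckeHom_prod [Fintype X] [Fintype Y] {A : Type*} [AddCommGroup A]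
    (χ : Additive Γ →+ A) :
    (D.prod E).heckeHom A χ = E.heckeHom A (D.heckeHom A χ) := by
  refine AddMonoidHom.ext fun γ => ?_
  obtain ⟨γ, rfl⟩ := Additive.ofMul.surjective γ
  rw [heckeHom_apply, heckeHom_apply, Fintype.sum_prod_type, Finset.sum_comm]
  refine Finset.sum_congr rfl fun y _ => ?_
  rw [heckeHom_apply]
  refine Finset.sum_congr rfl fun x _ => ?_
  rw [prod_fam]

end Prod

/-! ### Iterating the cocycle rule; parabolic and finite order elements -/

theorem map_fam_pow {A : Type*} [AddCommGroup A] (χ : Additive Γ →+ A) (γ : Γ) (m : ℕ) (x : X) :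
    χ (Additive.ofMul (D.fam (γ ^ m) x)) =
      ∑ i ∈ Finset.range m, χ (Additive.ofMul (D.fam γ (((D.perm γ) ^ i) x))) := by
  induction m with
  | zero => rw [pow_zero, D.fam_one, ofMul_one, map_zero, Finset.sum_range_zero]
  | succ m ih =>
    rw [pow_succ, D.fam_mul, ofMul_mul, map_add, ih, Finset.sum_range_succ, D.perm_pow]

/-- For a period `m` of `x` under `σ_γ`: `α_x γ^m = (γ^m)'_x α_x`. -/
theorem fam_pow_spec (γ : Γ) (m : ℕ) (x : X) (hx : ((D.perm γ) ^ m) x = x) :
    D.α x * ((γ : SL(2, ℤ)) : Mat2) ^ m = ((D.fam (γ ^ m) x : SL(2, ℤ)) : Mat2) * D.α x := by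
  have h := D.fam_spec (γ ^ m) x
  rw [SubgroupClass.coe_pow, D.perm_pow, hx, Matrix.SpecialLinearGroup.coe_pow] at h
  exact h

end s48h_MatDatum

/-! ### Sums over the cycles of a permutation -/

/-- If all sums of `f` over the closed `σ`-paths vanish, so does the total sum. -/
theorem s48h_sum_eq_zero_of_cycle_sums {X A : Type*} [Fintype X]
    [AddCommMonoid A] (σ : Equiv.Perm X) (f : X → A)
    (h : ∀ (x : X) (m : ℕ), 0 < m → (σ ^ m) x = x →
      ∑ i ∈ Finset.range m, f ((σ ^ i) x) = 0) :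
    ∑ x, f x = 0 := by
  classical
  have key : ∀ n : ℕ, ∀ S : Finset X, S.card ≤ n → (∀ x ∈ S, σ x ∈ S) →
      ∑ x ∈ S, f x = 0 := by
    intro n
    induction n with
    | zero =>
      intro S hS _
      rw [Finset.card_eq_zero.mp (Nat.le_zero.mp hS), Finset.sum_empty]
    | succ n ih =>
      intro S hS hσ
      rcases S.eq_empty_or_nonempty with rfl | ⟨x₀, hx₀⟩
      · rw [Finset.sum_empty]
      have hex : ∃ m : ℕ, 0 < m ∧ (σ ^ m) x₀ = x₀ :=
        ⟨orderOf σ, orderOf_pos σ, by rw [pow_orderOf_eq_one]; rfl⟩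
      set m := Nat.find hex with hm
      obtain ⟨hmpos, hmx⟩ := Nat.find_spec hex
      have hmin : ∀ j, 0 < j → j < m → (σ ^ j) x₀ ≠ x₀ := fun j hj hjm hjx =>
        Nat.find_min hex hjm ⟨hj, hjx⟩
      have hpowS : ∀ i : ℕ, (σ ^ i) x₀ ∈ S := by
        intro i
        induction i with
        | zero => simpa using hx₀
        | succ i ihi =>
          rw [pow_succ', Equiv.Perm.mul_apply]
          exact hσ _ ihi
      have hinj : Set.InjOn (fun i : ℕ => (σ ^ i) x₀) (Finset.range m : Set ℕ) := by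
        have aux : ∀ i j : ℕ, i < j → j < m → (σ ^ i) x₀ ≠ (σ ^ j) x₀ := by
          intro i j hij hjm heq
          have h1 : (σ ^ j) x₀ = (σ ^ i) ((σ ^ (j - i)) x₀) := by
            rw [← Equiv.Perm.mul_apply, ← pow_add, Nat.add_sub_cancel' hij.le]
          rw [h1] at heq
          exact hmin (j - i) (by omega) (by omega) ((σ ^ i).injective heq).symm
        intro i hi j hj heq
        simp only [Finset.coe_range, Set.mem_Iio] at hi hj
        rcases lt_trichotomy i j with hlt | heq' | hgt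
        · exact absurd heq (aux i j hlt hj)
        · exact heq'
        · exact absurd heq.symm (aux j i hgt hi)
      set O : Finset X := (Finset.range m).image (fun i : ℕ => (σ ^ i) x₀) with hO
      have hOS : O ⊆ S := by
        intro y hy
        obtain ⟨i, -, rfl⟩ := Finset.mem_image.mp hy
        exact hpowS i
      have hx₀O : x₀ ∈ O := Finset.mem_image.mpr ⟨0, Finset.mem_range.mpr hmpos, by simp⟩
      have hstab : ∀ x ∈ S \ O, σ x ∈ S \ O := by
        intro x hx
        obtain ⟨hxS, hxO⟩ := Finset.mem_sdiff.mp hx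
        refine Finset.mem_sdiff.mpr ⟨hσ x hxS, fun hσx => hxO ?_⟩
        obtain ⟨i, hi, hix⟩ := Finset.mem_image.mp hσx
        have hi' := Finset.mem_range.mp hi
        rcases Nat.eq_zero_or_pos i with rfl | hipos
        · refine Finset.mem_image.mpr ⟨m - 1, Finset.mem_range.mpr (by omega), ?_⟩
          apply σ.injective
          show σ ((σ ^ (m - 1)) x₀) = σ x
          rw [← Equiv.Perm.mul_apply, ← pow_succ', Nat.sub_add_cancel hmpos, hmx, ← hix]
          simp
        · refine Finset.mem_image.mpr ⟨i - 1, Finset.mem_range.mpr (by omega), ?_⟩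
          apply σ.injective
          show σ ((σ ^ (i - 1)) x₀) = σ x
          rw [← Equiv.Perm.mul_apply, ← pow_succ', Nat.sub_add_cancel hipos]
          exact hix
      have hcard : (S \ O).card ≤ n := by
        have h1 : (S \ O).card < S.card :=
          Finset.card_lt_card (Finset.sdiff_ssubset hOS ⟨x₀, hx₀O⟩)
        omega
      rw [← Finset.sum_sdiff hOS, ih (S \ O) hcard hstab, zero_add, hO,
        Finset.sum_image hinj]
      exact h x₀ m hmpos hmx
  simpa using key (Finset.univ : Finset X).card Finset.univ le_rfl (fun x _ => Finset.mem_univ _)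

/-! ### Conjugation by a matrix of nonzero determinant; traces of powers -/

theorem s48h_trace_eq_of_conj {A B M : Mat2} (hM : M.det ≠ 0) (h : M * B = A * M) :
    A.trace = B.trace := by
  have h1 : M.det • A = M * B * M.adjugate := by
    rw [h, Matrix.mul_assoc, Matrix.mul_adjugate, Matrix.mul_smul, Matrix.mul_one]
  have h2 : M.det * A.trace = M.det * B.trace := by
    have := congrArg Matrix.trace h1
    rw [Matrix.trace_smul, smul_eq_mul, Matrix.mul_assoc, Matrix.trace_mul_comm,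
      Matrix.mul_assoc, Matrix.adjugate_mul, Matrix.mul_smul, Matrix.mul_one,
      Matrix.trace_smul, smul_eq_mul] at this
    exact this
  exact mul_left_cancel₀ hM h2

theorem s48h_pow_conj {A B M : Mat2} (h : M * B = A * M) (n : ℕ) : M * B ^ n = A ^ n * M := by
  induction n with
  | zero => simp
  | succ n ih => rw [pow_succ, ← Matrix.mul_assoc, ih, Matrix.mul_assoc, h, ← Matrix.mul_assoc,
      ← pow_succ]

theorem s48h_sq_eq (g : SL(2, ℤ)) :
    (g : Mat2) * (g : Mat2) = (g : Mat2).trace • (g : Mat2) - 1 := by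
  have hdet := g.det_coe
  rw [Matrix.det_fin_two] at hdet
  ext i j
  rw [Matrix.sub_apply, Matrix.smul_apply, smul_eq_mul, Matrix.mul_apply, Fin.sum_univ_two,
    Matrix.trace_fin_two]
  fin_cases i <;> fin_cases j <;> simp <;>
    first | ring1 | linear_combination -hdet

theorem s48h_trace_pow_rec (g : SL(2, ℤ)) (m : ℕ) :
    ((g : Mat2) ^ (m + 2)).trace =
      (g : Mat2).trace * ((g : Mat2) ^ (m + 1)).trace - ((g : Mat2) ^ m).trace := by
  have h1 : (g : Mat2) ^ (m + 2) = (g : Mat2) ^ m * ((g : Mat2) * (g : Mat2)) := by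
    rw [pow_add, pow_two]
  rw [h1, s48h_sq_eq, Matrix.mul_sub, Matrix.mul_smul, Matrix.mul_one, Matrix.trace_sub,
    Matrix.trace_smul, smul_eq_mul, ← pow_succ]

theorem s48h_trace_pow_sq (g : SL(2, ℤ)) (hg : (g : Mat2).trace ^ 2 = 4) (m : ℕ) :
    ((g : Mat2) ^ m).trace ^ 2 = 4 := by
  have key : ∀ m : ℕ, ((g : Mat2) ^ m).trace ^ 2 = 4 ∧
      2 * ((g : Mat2) ^ (m + 1)).trace = (g : Mat2).trace * ((g : Mat2) ^ m).trace := by
    intro m
    induction m with
    | zero =>
      refine ⟨?_, ?_⟩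
      · rw [pow_zero, Matrix.trace_one]
        simp
      · rw [zero_add, pow_one, pow_zero, Matrix.trace_one]
        simp [mul_comm]
    | succ m ih =>
      obtain ⟨h1, h2⟩ := ih
      refine ⟨?_, ?_⟩
      · have : (2 * ((g : Mat2) ^ (m + 1)).trace) ^ 2 = 16 := by
          rw [h2, mul_pow, hg, h1]
          norm_num
        nlinarith
      · rw [s48h_trace_pow_rec]
        have h3 : 2 * ((g : Mat2).trace * ((g : Mat2) ^ (m + 1)).trace -
            2 * ((g : Mat2) ^ m).trace) = 0 := by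
          linear_combination (g : Mat2).trace * h2 + ((g : Mat2) ^ m).trace * hg
        have h4 : (g : Mat2).trace * ((g : Mat2) ^ (m + 1)).trace -
            2 * ((g : Mat2) ^ m).trace = 0 :=
          (mul_eq_zero.mp h3).resolve_left two_ne_zero
        linear_combination h4
  exact (key m).1

/-! ### Stability of parabolic homomorphisms -/

namespace s48h_MatDatum

variable {Γ : Subgroup SL(2, ℤ)} {X : Type*} [Fintype X] (D : s48h_MatDatum Γ X)
  {A : Type*} [AddCommGroup A]

/-- `T` preserves parabolic homomorphisms. -/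
theorem heckeHom_isParabolic {χ : Additive Γ →+ A} (hχ : IsParabolicHom Γ χ) :
    IsParabolicHom Γ (D.heckeHom A χ) := by
  intro γ hγ
  rw [D.heckeHom_apply]
  refine s48h_sum_eq_zero_of_cycle_sums (D.perm γ)
    (fun x => χ (Additive.ofMul (D.fam γ x))) (fun x m _ hx => ?_)
  rw [← D.map_fam_pow χ γ m x]
  refine hχ _ ?_
  have hspec := D.fam_pow_spec γ m x hx
  rw [s48h_trace_eq_of_conj (D.det_ne x) hspec]
  exact s48h_trace_pow_sq (γ : SL(2, ℤ)) hγ m

/-- `T` preserves homomorphisms vanishing on the elements of finite order. -/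
theorem heckeHom_finOrd {χ : Additive Γ →+ A}
    (hχ : ∀ γ : Γ, IsOfFinOrder γ → χ (Additive.ofMul γ) = 0) (γ : Γ)
    (hγ : IsOfFinOrder γ) : D.heckeHom A χ (Additive.ofMul γ) = 0 := by
  rw [D.heckeHom_apply]
  refine s48h_sum_eq_zero_of_cycle_sums (D.perm γ)
    (fun x => χ (Additive.ofMul (D.fam γ x))) (fun x m _ hx => ?_)
  rw [← D.map_fam_pow χ γ m x]
  refine hχ _ ?_
  obtain ⟨n, hn, hγn⟩ := hγ.exists_pow_eq_one
  refine isOfFinOrder_iff_pow_eq_one.mpr ⟨n, hn, ?_⟩
  have hspec := D.fam_pow_spec γ m x hx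
  have h1 := s48h_pow_conj hspec n
  have h2 : (((γ : SL(2, ℤ)) : Mat2) ^ m) ^ n = 1 := by
    rw [← pow_mul, mul_comm, pow_mul, ← Matrix.SpecialLinearGroup.coe_pow,
      ← SubgroupClass.coe_pow, hγn, OneMemClass.coe_one, Matrix.SpecialLinearGroup.coe_one, one_pow]
  rw [h2, Matrix.mul_one] at h1
  have h3 : (((D.fam (γ ^ m) x : SL(2, ℤ)) : Mat2)) ^ n = 1 := by
    refine s48h_mul_right_cancel (D.det_ne x) ?_
    rw [← h1, Matrix.one_mul]
  apply Subtype.ext
  apply Subtype.ext
  rw [SubgroupClass.coe_pow, Matrix.SpecialLinearGroup.coe_pow, h3]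
  rfl

end s48h_MatDatum

/-! ### The space `H(A)` for a general `Γ` -/

section Hpar

variable (R : Type*) [Semiring R] (Γ : Subgroup SL(2, ℤ)) (A : Type*) [AddCommGroup A] [Module R A]

/-- Homomorphisms vanishing on the elements of finite order. -/
def s48h_finOrdTrivial : Submodule R (Additive Γ →+ A) where
  carrier := {χ | ∀ γ : Γ, IsOfFinOrder γ → χ (Additive.ofMul γ) = 0}
  zero_mem' := fun _ _ => rfl
  add_mem' := by
    intro φ ψ hφ hψ γ hγ
    show φ (Additive.ofMul γ) + ψ (Additive.ofMul γ) = 0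
    rw [hφ γ hγ, hψ γ hγ, add_zero]
  smul_mem' := by
    intro c φ hφ γ hγ
    show c • φ (Additive.ofMul γ) = 0
    rw [hφ γ hγ, smul_zero]

/-- **`H(A)`**: parabolic homomorphisms `Γ → A` vanishing on the elements of finite order. -/
def s48h_Hpar : Submodule R (Additive Γ →+ A) :=
  parabolicHoms R Γ A ⊓ s48h_finOrdTrivial R Γ A

variable {R Γ A}

theorem s48h_mem_Hpar_iff {χ : Additive Γ →+ A} :
    χ ∈ s48h_Hpar R Γ A ↔ IsParabolicHom Γ χ ∧
      ∀ γ : Γ, IsOfFinOrder γ → χ (Additive.ofMul γ) = 0 := Iff.rfl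

/-- Every Hecke operator preserves `H(A)`. -/
theorem s48h_MatDatum.heckeHom_mem_Hpar {X : Type*} [Fintype X] (D : s48h_MatDatum Γ X)
    {χ : Additive Γ →+ A} (hχ : χ ∈ s48h_Hpar R Γ A) : D.heckeHom A χ ∈ s48h_Hpar R Γ A :=
  ⟨D.heckeHom_isParabolic hχ.1, D.heckeHom_finOrd hχ.2⟩

/-- The Hecke operator of a datum as an `R`-linear endomorphism of `H(A)`. -/
def s48h_MatDatum.heckeHpar {X : Type*} [Fintype X] (D : s48h_MatDatum Γ X) (R : Type*)
    [Semiring R] [Module R A] : Module.End R (s48h_Hpar R Γ A) :=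
  (D.heckeLin R).restrict fun _ hχ => D.heckeHom_mem_Hpar hχ

@[simp]
theorem s48h_MatDatum.heckeHpar_coe {X : Type*} [Fintype X] (D : s48h_MatDatum Γ X)
    (χ : s48h_Hpar R Γ A) :
    ((D.heckeHpar R χ : s48h_Hpar R Γ A) : Additive Γ →+ A) = D.heckeHom A χ := rfl

end Hpar

end Fermat.Agent.Lib.S48
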