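/-
DS-1 (S48), wall [T5-PL] (helper9), part 3 (`KEll`): elliptic and parabolic elements of `Γ₀(M)`.

* (E1) if a prime `ℓ₀ ≡ 3 (mod 4)` divides `M`, no conjugate of `S` lies in `Γ₀(M)`; if a prime
  `ℓ₀ ≡ 2 (mod 3)` divides `M`, no conjugate of `S T` lies in `Γ₀(M)`  (these are the hypotheses
  `hS`, `hST` of `s48c_gplaces_free`, for every `Γ ≤ Γ₀(M)`);
* (E2) if `M = N₁² ℓ₀`, `ℓ₀` prime, `ℓ₀ ∤ N₁`, every element of `Γ₀(M)` of trace `2` (in particular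
  every conjugate of a power of `T` in `Γ₀(M)`) has both diagonal entries `≡ 1 (mod N₁ ℓ₀)`.
Mathlib only.
-/
import Mathlib

set_option autoImplicit false
set_option linter.style.haveILetI false

namespace Fermat.Agent.Lib.S48

open Matrix Matrix.SpecialLinearGroup CongruenceSubgroup ModularGroup
open scoped MatrixGroups

/-- The trace of a conjugate. -/
theorem s48c_trace_conj (σ g : SL(2, ℤ)) :
    (σ⁻¹ * g * σ) 0 0 + (σ⁻¹ * g * σ) 1 1 = g 0 0 + g 1 1 := by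
  have h1 : Matrix.trace ((σ⁻¹ * g * σ : SL(2, ℤ)) : Matrix (Fin 2) (Fin 2) ℤ)
      = Matrix.trace (g : Matrix (Fin 2) (Fin 2) ℤ) := by
    rw [Matrix.SpecialLinearGroup.coe_mul, Matrix.SpecialLinearGroup.coe_mul,
      Matrix.trace_mul_cycle, ← Matrix.SpecialLinearGroup.coe_mul, mul_inv_cancel,
      Matrix.SpecialLinearGroup.coe_one, one_mul]
  rw [Matrix.trace_fin_two, Matrix.trace_fin_two] at h1
  exact h1

/-- In `Γ₀(M)` the product of the diagonal entries is `1` modulo every divisor of `M`. -/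
theorem s48c_diag_mul_eq_one {M d : ℕ} (hd : d ∣ M) {γ : SL(2, ℤ)} (hγ : γ ∈ Gamma0 M) :
    ((γ 0 0 : ℤ) : ZMod d) * ((γ 1 1 : ℤ) : ZMod d) = 1 := by
  have hdet := Matrix.SpecialLinearGroup.det_coe γ
  rw [Matrix.det_fin_two] at hdet
  have hc : ((γ 1 0 : ℤ) : ZMod d) = 0 := by
    rw [Gamma0_mem] at hγ
    rw [ZMod.intCast_zmod_eq_zero_iff_dvd]
    have : (M : ℤ) ∣ γ 1 0 := (ZMod.intCast_zmod_eq_zero_iff_dvd _ _).mp hγ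
    exact (Int.natCast_dvd_natCast.mpr hd).trans this
  have h := congrArg (fun x : ℤ => (x : ZMod d)) hdet
  simp only [Int.cast_sub, Int.cast_mul, Int.cast_one] at h
  rw [hc, mul_zero, sub_zero] at h
  exact h

theorem s48c_S_trace : (S : SL(2, ℤ)) 0 0 + (S : SL(2, ℤ)) 1 1 = 0 := by
  simp [ModularGroup.S]

theorem s48c_ST_trace : (S * T : SL(2, ℤ)) 0 0 + (S * T : SL(2, ℤ)) 1 1 = 1 := by
  rw [Matrix.SpecialLinearGroup.coe_mul, ModularGroup.coe_S, ModularGroup.coe_T,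
    Matrix.mul_fin_two]
  simp

/-- (E1a) no conjugate of `S` in `Γ₀(M)` if a prime `ℓ₀ ≡ 3 (mod 4)` divides `M`. -/
theorem s48c_conj_S_not_mem_Gamma0 {M ℓ₀ : ℕ} (hℓ : ℓ₀.Prime) (h4 : ℓ₀ % 4 = 3) (hdvd : ℓ₀ ∣ M)
    (σ : SL(2, ℤ)) : σ⁻¹ * S * σ ∉ Gamma0 M := by
  intro hmem
  haveI : Fact ℓ₀.Prime := ⟨hℓ⟩
  have h1 := s48c_diag_mul_eq_one hdvd hmem
  have htr := s48c_trace_conj σ S
  rw [s48c_S_trace] at htr
  have hd : (σ⁻¹ * S * σ) 1 1 = -((σ⁻¹ * S * σ) 0 0) := by linarith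
  rw [hd, Int.cast_neg, mul_neg] at h1
  have hsq : IsSquare (-1 : ZMod ℓ₀) := by
    refine ⟨(((σ⁻¹ * S * σ) 0 0 : ℤ) : ZMod ℓ₀), ?_⟩
    rw [← h1, neg_neg]
  rw [ZMod.exists_sq_eq_neg_one_iff] at hsq
  exact hsq h4

/-- (E1b) no conjugate of `S T` in `Γ₀(M)` if a prime `ℓ₀ ≡ 2 (mod 3)` divides `M`. -/
theorem s48c_conj_ST_not_mem_Gamma0 {M ℓ₀ : ℕ} (hℓ : ℓ₀.Prime) (h3 : ℓ₀ % 3 = 2) (hdvd : ℓ₀ ∣ M)
    (σ : SL(2, ℤ)) : σ⁻¹ * (S * T) * σ ∉ Gamma0 M := by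
  intro hmem
  haveI : Fact ℓ₀.Prime := ⟨hℓ⟩
  have h1 := s48c_diag_mul_eq_one hdvd hmem
  have htr := s48c_trace_conj σ (S * T)
  rw [s48c_ST_trace] at htr
  set a : ZMod ℓ₀ := (((σ⁻¹ * (S * T) * σ) 0 0 : ℤ) : ZMod ℓ₀) with ha
  have hd : (((σ⁻¹ * (S * T) * σ) 1 1 : ℤ) : ZMod ℓ₀) = 1 - a := by
    have : (σ⁻¹ * (S * T) * σ) 1 1 = 1 - (σ⁻¹ * (S * T) * σ) 0 0 := by linarith
    rw [this, Int.cast_sub, Int.cast_one]
  rw [hd] at h1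
  -- `a * (1 - a) = 1`, so `(-a)^3 = 1` and `-a ≠ 1`
  have hcube : (-a) ^ 3 = 1 := by
    have : a ^ 2 = a - 1 := by linear_combination -h1
    calc (-a) ^ 3 = -(a * a ^ 2) := by ring
      _ = -(a * (a - 1)) := by rw [this]
      _ = -(a ^ 2 - a) := by ring
      _ = 1 := by rw [this]; ring
  have hne : -a ≠ 1 := by
    intro h
    have ha' : a = -1 := by rw [← h, neg_neg]
    rw [ha'] at h1
    have h3' : ((3 : ℕ) : ZMod ℓ₀) = 0 := by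
      have : (3 : ZMod ℓ₀) = 0 := by linear_combination -h1
      exact_mod_cast this
    rw [ZMod.natCast_eq_zero_iff] at h3'
    have := (Nat.prime_dvd_prime_iff_eq hℓ Nat.prime_three).mp h3'
    omega
  have hord : orderOf (-a) = 3 := orderOf_eq_prime hcube hne
  have ha0 : -a ≠ 0 := by
    intro h
    rw [h] at hcube
    simp at hcube
  have hdiv : 3 ∣ ℓ₀ - 1 := by
    rw [← hord]
    exact ZMod.orderOf_dvd_card_sub_one ha0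
  have hpos := hℓ.two_le
  omega

/-- (E2) the parabolic elements of `Γ₀(N₁² ℓ₀)` are unipotent modulo `N₁ ℓ₀`. -/
theorem s48c_diag_of_trace_two {M N₁ ℓ₀ : ℕ} (hM : M = N₁ ^ 2 * ℓ₀) (hℓ : ℓ₀.Prime)
    (hnd : ¬ ℓ₀ ∣ N₁) {γ : SL(2, ℤ)} (hγ : γ ∈ Gamma0 M) (htr : γ 0 0 + γ 1 1 = 2) :
    ((γ 1 1 : ℤ) : ZMod (N₁ * ℓ₀)) = 1 ∧ ((γ 0 0 : ℤ) : ZMod (N₁ * ℓ₀)) = 1 := by
  have hdet := Matrix.SpecialLinearGroup.det_coe γ
  rw [Matrix.det_fin_two] at hdet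
  have hc : (M : ℤ) ∣ γ 1 0 := by
    rw [Gamma0_mem] at hγ
    exact (ZMod.intCast_zmod_eq_zero_iff_dvd _ _).mp hγ
  -- `(d - 1)^2 = - b c`
  have hsq : (γ 1 1 - 1) ^ 2 = -(γ 0 1 * γ 1 0) := by
    have ha : γ 0 0 = 2 - γ 1 1 := by linarith
    rw [ha] at hdet
    linear_combination -hdet
  have hMdvd : (M : ℤ) ∣ (γ 1 1 - 1) ^ 2 := by
    rw [hsq]
    exact (hc.mul_left _).neg_right
  have hN1 : (N₁ : ℤ) ∣ γ 1 1 - 1 := by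
    have h1 : ((N₁ : ℤ)) ^ 2 ∣ (γ 1 1 - 1) ^ 2 := by
      refine Dvd.dvd.trans ?_ hMdvd
      rw [hM]
      push_cast
      exact Dvd.intro _ rfl
    exact (Int.pow_dvd_pow_iff (by norm_num)).mp h1
  have hl : (ℓ₀ : ℤ) ∣ γ 1 1 - 1 := by
    have h1 : ((ℓ₀ : ℤ)) ∣ (γ 1 1 - 1) ^ 2 := by
      refine Dvd.dvd.trans ?_ hMdvd
      rw [hM]
      push_cast
      exact Dvd.intro_left _ rfl
    exact (Nat.prime_iff_prime_int.mp hℓ).dvd_of_dvd_pow h1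
  have hcop : IsCoprime (N₁ : ℤ) (ℓ₀ : ℤ) := by
    rw [Int.isCoprime_iff_gcd_eq_one, Int.gcd_natCast_natCast]
    exact (Nat.Coprime.symm ((Nat.Prime.coprime_iff_not_dvd hℓ).mpr hnd))
  have hNl : ((N₁ * ℓ₀ : ℕ) : ℤ) ∣ γ 1 1 - 1 := by
    push_cast
    exact hcop.mul_dvd hN1 hl
  have hd1 : ((γ 1 1 : ℤ) : ZMod (N₁ * ℓ₀)) = 1 := by
    have := (ZMod.intCast_zmod_eq_zero_iff_dvd (γ 1 1 - 1) (N₁ * ℓ₀)).mpr hNl
    rw [Int.cast_sub, Int.cast_one, sub_eq_zero] at this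
    exact this
  refine ⟨hd1, ?_⟩
  have ha : γ 0 0 = 2 - γ 1 1 := by linarith
  rw [ha, Int.cast_sub, hd1]
  push_cast
  ring

theorem s48c_T_pow_trace (k : ℕ) : (T ^ k : SL(2, ℤ)) 0 0 + (T ^ k : SL(2, ℤ)) 1 1 = 2 := by
  have h := ModularGroup.coe_T_zpow (k : ℤ)
  rw [zpow_natCast] at h
  show (T ^ k : SL(2, ℤ)).1 0 0 + (T ^ k : SL(2, ℤ)).1 1 1 = 2
  rw [h]
  simp

/-- (E2′) a conjugate of `T ^ k` lying in `Γ₀(N₁² ℓ₀)` is unipotent modulo `N₁ ℓ₀`. -/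
theorem s48c_conj_T_pow_diag {M N₁ ℓ₀ : ℕ} (hM : M = N₁ ^ 2 * ℓ₀) (hℓ : ℓ₀.Prime)
    (hnd : ¬ ℓ₀ ∣ N₁) (σ : SL(2, ℤ)) (k : ℕ) (h : σ⁻¹ * T ^ k * σ ∈ Gamma0 M) :
    (((σ⁻¹ * T ^ k * σ) 1 1 : ℤ) : ZMod (N₁ * ℓ₀)) = 1 ∧
      (((σ⁻¹ * T ^ k * σ) 0 0 : ℤ) : ZMod (N₁ * ℓ₀)) = 1 :=
  s48c_diag_of_trace_two hM hℓ hnd h (by rw [s48c_trace_conj, s48c_T_pow_trace])

end Fermat.Agent.Lib.S48
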