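/-
S48 / DS-1, [T5] brick (helper3): **elements of finite order**.

* `s48h_finOrd_trace` : an element of finite order of `SL(2,ℤ)` is `±1` or has trace in `{-1,0,1}`;
* `s48h_finOrd_Gamma0` : if a prime `ℓ₀ ≡ 11 (mod 12)` divides `M`, the only elements of finite order
  of `Γ₀(M)` are `±1`.
(Complements helper9's `PlEll.lean`, which excludes the conjugates of `S` and `S T`.)
-/
import Mathlib
import Fermat.Agent.Lib.S48.HHom
import Fermat.Agent.Lib.S48.PlEll

set_option autoImplicit false

namespace Fermat.Agent.Lib.S48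

open Matrix.SpecialLinearGroup CongruenceSubgroup
open scoped MatrixGroups

local notation "Mat2" => Matrix (Fin 2) (Fin 2) ℤ

/-- The traces of the powers grow when `|tr γ| ≥ 3`. -/
theorem s48h_trace_pow_growth (g : SL(2, ℤ)) (ht : 3 ≤ |(g : Mat2).trace|) (n : ℕ) :
    2 ≤ |((g : Mat2) ^ n).trace| ∧ |((g : Mat2) ^ n).trace| < |((g : Mat2) ^ (n + 1)).trace| := by
  induction n with
  | zero =>
    have h0 : ((g : Mat2) ^ 0).trace = 2 := by
      rw [pow_zero, Matrix.trace_one]
      simp
    rw [h0, zero_add, pow_one]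
    refine ⟨by norm_num, ?_⟩
    have : |(2 : ℤ)| = 2 := by norm_num
    rw [this]
    omega
  | succ n ih =>
    obtain ⟨h1, h2⟩ := ih
    refine ⟨by omega, ?_⟩
    rw [s48h_trace_pow_rec g n]
    have h3 : |(g : Mat2).trace * ((g : Mat2) ^ (n + 1)).trace| =
        |(g : Mat2).trace| * |((g : Mat2) ^ (n + 1)).trace| := abs_mul _ _
    have h4 : |(g : Mat2).trace * ((g : Mat2) ^ (n + 1)).trace| - |((g : Mat2) ^ n).trace| ≤
        |(g : Mat2).trace * ((g : Mat2) ^ (n + 1)).trace - ((g : Mat2) ^ n).trace| :=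
      abs_sub_abs_le_abs_sub _ _
    have h5 : 3 * |((g : Mat2) ^ (n + 1)).trace| ≤
        |(g : Mat2).trace| * |((g : Mat2) ^ (n + 1)).trace| :=
      mul_le_mul_of_nonneg_right ht (abs_nonneg _)
    rw [h3] at h4
    have h6 : (0 : ℤ) ≤ |((g : Mat2) ^ n).trace| := abs_nonneg _
    linarith

theorem s48h_trace_pow_ge_three (g : SL(2, ℤ)) (ht : 3 ≤ |(g : Mat2).trace|) (n : ℕ)
    (hn : 0 < n) : 3 ≤ |((g : Mat2) ^ n).trace| := by
  obtain ⟨m, rfl⟩ : ∃ m, n = m + 1 := ⟨n - 1, by omega⟩
  have := s48h_trace_pow_growth g ht m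
  omega

theorem s48h_one_add_pow_of_sq_zero {R : Type*} [Ring R] (N : R) (hN : N * N = 0) (k : ℕ) :
    (1 + N) ^ k = 1 + (k : ℤ) • N := by
  induction k with
  | zero => simp
  | succ k ih =>
    rw [pow_succ, ih, add_mul, mul_add, mul_add, smul_mul_assoc, smul_mul_assoc, hN]
    simp only [one_mul, mul_one, smul_zero, add_zero]
    push_cast
    rw [add_smul, one_smul]
    abel

/-- Unipotent case: trace `2` and finite order imply `γ = 1`. -/
theorem s48h_eq_one_of_trace_two (g : SL(2, ℤ)) (ht : (g : Mat2).trace = 2) (n : ℕ) (hn : 0 < n)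
    (hgn : g ^ n = 1) : g = 1 := by
  have hsq : ((g : Mat2) - 1) * ((g : Mat2) - 1) = 0 := by
    have h := s48h_sq_eq g
    rw [ht] at h
    rw [Matrix.sub_mul, Matrix.mul_sub, Matrix.mul_sub, h]
    simp only [Matrix.mul_one, Matrix.one_mul, two_smul]
    abel
  have hpow : ∀ k : ℕ, (g : Mat2) ^ k = 1 + (k : ℤ) • ((g : Mat2) - 1) := by
    intro k
    have hg : (g : Mat2) = 1 + ((g : Mat2) - 1) := by abel
    rw [hg, s48h_one_add_pow_of_sq_zero _ hsq]
    congr 2
    abel
  have h1 : (g : Mat2) ^ n = 1 := by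
    have := congrArg (fun x : SL(2, ℤ) => (x : Mat2)) hgn
    simpa using this
  rw [hpow n] at h1
  have h2 : (n : ℤ) • ((g : Mat2) - 1) = 0 := by
    have := congrArg (fun x => x - 1) h1
    simpa using this
  have hn0 : (n : ℤ) ≠ 0 := by exact_mod_cast hn.ne'
  have h3 : (g : Mat2) - 1 = 0 := by
    ext i j
    have := congrFun (congrFun h2 i) j
    simp only [Matrix.smul_apply, smul_eq_mul, Matrix.zero_apply] at this
    rcases mul_eq_zero.mp this with h | h
    · exact absurd h hn0
    · simpa using h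
  apply Subtype.ext
  rw [Matrix.SpecialLinearGroup.coe_one]
  exact sub_eq_zero.mp h3

/-- **Elements of finite order of `SL(2,ℤ)`.** -/
theorem s48h_finOrd_trace (g : SL(2, ℤ)) (h : IsOfFinOrder g) :
    g = 1 ∨ g = -1 ∨ |(g : Mat2).trace| ≤ 1 := by
  obtain ⟨n, hn, hgn⟩ := isOfFinOrder_iff_pow_eq_one.mp h
  by_cases h3 : 3 ≤ |(g : Mat2).trace|
  · exfalso
    have h1 := s48h_trace_pow_ge_three g h3 n hn
    have h2 : (g : Mat2) ^ n = 1 := by
      have := congrArg (fun x : SL(2, ℤ) => (x : Mat2)) hgn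
      simpa using this
    rw [h2, Matrix.trace_one] at h1
    norm_num at h1
  · by_cases h2 : (g : Mat2).trace = 2
    · exact Or.inl (s48h_eq_one_of_trace_two g h2 n hn hgn)
    · by_cases h2' : (g : Mat2).trace = -2
      · right; left
        have hneg : ((-g : SL(2, ℤ)) : Mat2).trace = 2 := by
          rw [Matrix.SpecialLinearGroup.coe_neg, Matrix.trace_neg, h2']
          norm_num
        have hpow : (-g) ^ (2 * n) = 1 := by
          rw [pow_mul, neg_sq, ← pow_mul, mul_comm, pow_mul, hgn, one_pow]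
        have := s48h_eq_one_of_trace_two (-g) hneg (2 * n) (by omega) hpow
        rw [← this, neg_neg]
      · right; right
        push Not at h3
        rw [abs_lt] at h3
        rw [abs_le]
        constructor <;> omega

/-- **The only elements of finite order of `Γ₀(M)` are `±1`** if a prime `ℓ₀ ≡ 11 (mod 12)` divides
`M`. -/
theorem s48h_finOrd_Gamma0 {M ℓ₀ : ℕ} (hℓ : ℓ₀.Prime) (h12 : ℓ₀ % 12 = 11) (hdvd : ℓ₀ ∣ M)
    {g : SL(2, ℤ)} (hg : g ∈ Gamma0 M) (h : IsOfFinOrder g) : g = 1 ∨ g = -1 := by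
  rcases s48h_finOrd_trace g h with h1 | h1 | h1
  · exact Or.inl h1
  · exact Or.inr h1
  · exfalso
    have : Fact ℓ₀.Prime := ⟨hℓ⟩
    have hdiag := s48c_diag_mul_eq_one hdvd hg
    have htr : (g : Mat2).trace = g 0 0 + g 1 1 := Matrix.trace_fin_two _
    rw [htr, abs_le] at h1
    set a : ZMod ℓ₀ := ((g 0 0 : ℤ) : ZMod ℓ₀) with ha
    set d : ZMod ℓ₀ := ((g 1 1 : ℤ) : ZMod ℓ₀) with hd
    have hsum : a + d = 0 ∨ a + d = 1 ∨ a + d = -1 := by
      have : g 0 0 + g 1 1 = 0 ∨ g 0 0 + g 1 1 = 1 ∨ g 0 0 + g 1 1 = -1 := by omega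
      rcases this with h | h | h
      · left; rw [ha, hd, ← Int.cast_add, h, Int.cast_zero]
      · right; left; rw [ha, hd, ← Int.cast_add, h, Int.cast_one]
      · right; right; rw [ha, hd, ← Int.cast_add, h, Int.cast_neg, Int.cast_one]
    -- the cube argument
    have hcube : ∀ x y : ZMod ℓ₀, x * y = 1 → x + y = 1 → False := by
      intro x y hxy hs
      have hy : y = 1 - x := by rw [← hs]; ring
      rw [hy] at hxy
      have hx2 : x ^ 2 = x - 1 := by linear_combination -hxy
      have hc : (-x) ^ 3 = 1 := by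
        calc (-x) ^ 3 = -(x * x ^ 2) := by ring
          _ = -(x * (x - 1)) := by rw [hx2]
          _ = -(x ^ 2 - x) := by ring
          _ = 1 := by rw [hx2]; ring
      have hne : -x ≠ 1 := by
        intro hx
        have hx' : x = -1 := by rw [← hx, neg_neg]
        rw [hx'] at hxy
        have h3' : ((3 : ℕ) : ZMod ℓ₀) = 0 := by
          have : (3 : ZMod ℓ₀) = 0 := by linear_combination -hxy
          exact_mod_cast this
        rw [ZMod.natCast_eq_zero_iff] at h3'
        have := (Nat.prime_dvd_prime_iff_eq hℓ Nat.prime_three).mp h3'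
        omega
      have hord : orderOf (-x) = 3 := orderOf_eq_prime hc hne
      have hx0 : -x ≠ 0 := by
        intro hx
        rw [hx] at hc
        simp at hc
      have hdiv : 3 ∣ ℓ₀ - 1 := by
        rw [← hord]
        exact ZMod.orderOf_dvd_card_sub_one hx0
      have hpos := hℓ.two_le
      omega
    rcases hsum with h0 | h0 | h0
    · have hd' : d = -a := by linear_combination h0
      rw [hd', mul_neg] at hdiag
      have hsq : IsSquare (-1 : ZMod ℓ₀) := ⟨a, by rw [← hdiag, neg_neg]⟩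
      rw [ZMod.exists_sq_eq_neg_one_iff] at hsq
      omega
    · exact hcube a d hdiag h0
    · exact hcube (-a) (-d) (by rw [neg_mul_neg]; exact hdiag) (by linear_combination -h0)

end Fermat.Agent.Lib.S48
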