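/-
S48 / DS-1, [T5] brick (helper3): **(K-Div) at the levels `s48k_Level M N₁ ℓ₀ H`**.

For `M = N₁² ℓ₀` (`ℓ₀ ≡ 11 (mod 12)` prime, `ℓ₀ ∤ N₁`), `H ≤ (ℤ/M)ˣ` containing `-1` and the kernel of
`(ℤ/M)ˣ → (ℤ/N₁ℓ₀)ˣ`, and a Dirichlet character `χ` mod `M` trivial on `H`:

* `s48h_level_hfin` : `χ(γ₁₁) = 1` on the finite-order elements of every `Γ ≤ Γ₀(M)` (they are `± 1`);
* `s48h_level_hpar` : `χ(γ₁₁) = 1` on the parabolic elements `σ⁻¹ Tᵏ σ ∈ Γ ≤ Γ₀(M)` (helper9's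
  `s48c_conj_T_pow_diag` + `s48k_Level.cond`);
* `s48h_kdiv_level` : **if `φ h = T_χ ^ n` then `n ∣ ord_v h` for every place `v`**, with no hypothesis
  left besides `s48h_PlacesHyp`.
-/
import Mathlib
import Fermat.Agent.Lib.S48.HKDiv
import Fermat.Agent.Lib.S48.HKEll
import Fermat.Agent.Lib.S48.KIfaceH

set_option autoImplicit false
set_option linter.unusedSectionVars false

namespace Fermat.Agent.Lib.S48

open UpperHalfPlane hiding I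
open Filter Matrix.SpecialLinearGroup Function CongruenceSubgroup ModularGroup AlgebraicCurve
open Fermat.Agent.Lib.FF Fermat.Agent.Lib.S29
open scoped MatrixGroups Manifold Topology WithZero Real

noncomputable section

variable {M N₁ ℓ₀ : ℕ} [NeZero M] {H : Subgroup (ZMod M)ˣ}

/-- A character trivial on `H ∋ -1` is even. -/
theorem s48h_level_even (hL : s48k_Level M N₁ ℓ₀ H) (χ : DirichletCharacter ℂ M)
    (hχH : ∀ u ∈ H, χ (u : ZMod M) = 1) : χ.Even := by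
  have := hχH (-1) hL.neg_one
  simpa [DirichletCharacter.Even] using this

theorem s48h_level_one_lt (hL : s48k_Level M N₁ ℓ₀ H) : 1 < M := by
  have h1 : ℓ₀ ∣ M := ⟨N₁ ^ 2, by rw [hL.eq]; ring⟩
  have h2 := hL.prime.two_le
  have h3 := Nat.le_of_dvd (Nat.pos_of_ne_zero (NeZero.ne M)) h1
  omega

/-- `χ(γ₁₁) = 1` on finite-order elements of `Γ ≤ Γ₀(M)`. -/
theorem s48h_level_hfin (hL : s48k_Level M N₁ ℓ₀ H) (χ : DirichletCharacter ℂ M)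
    (hχH : ∀ u ∈ H, χ (u : ZMod M) = 1) {Γ : Subgroup SL(2, ℤ)} (hΓ : Γ ≤ Gamma0 M) :
    ∀ γ ∈ Γ, IsOfFinOrder γ → χ ((γ 1 1 : ℤ) : ZMod M) = 1 := by
  intro γ hγ hfin
  have hdvd : ℓ₀ ∣ M := ⟨N₁ ^ 2, by rw [hL.eq]; ring⟩
  rcases s48h_finOrd_Gamma0 hL.prime hL.mod12 hdvd (hΓ hγ) hfin with rfl | rfl
  · simp
  · have := hχH (-1) hL.neg_one
    simpa using this

/-- `χ(γ₁₁) = 1` on parabolic elements of `Γ ≤ Γ₀(M)`. -/
theorem s48h_level_hpar (hL : s48k_Level M N₁ ℓ₀ H) (χ : DirichletCharacter ℂ M)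
    (hχH : ∀ u ∈ H, χ (u : ZMod M) = 1) {Γ : Subgroup SL(2, ℤ)} (hΓ : Γ ≤ Gamma0 M) :
    ∀ (σ : SL(2, ℤ)) (k : ℕ), σ⁻¹ * T ^ k * σ ∈ Γ →
      χ (((σ⁻¹ * T ^ k * σ) 1 1 : ℤ) : ZMod M) = 1 := by
  intro σ k hmem
  have hG0 := hΓ hmem
  obtain ⟨h11, -⟩ := s48c_conj_T_pow_diag hL.eq hL.prime hL.ndvd σ k hG0
  set γ : SL(2, ℤ) := σ⁻¹ * T ^ k * σ with hγ
  have hunit : IsUnit (((γ 1 1 : ℤ)) : ZMod M) := by
    have := s48c_diag_mul_eq_one (dvd_refl M) hG0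
    exact IsUnit.of_mul_eq_one_right _ this
  obtain ⟨u, hu⟩ := hunit
  have huH : u ∈ H := hL.cond (γ 1 1) u h11 hu
  rw [← hu]
  exact hχH u huH

variable {K F : Type*} [Field K] [Field F] [Algebra K F]
  {Γ : Subgroup SL(2, ℤ)} {φ : F →+* ffm_E M}

/-- **(K-Div)** at the levels `s48k_Level`: if `φ h = T_χ ^ n` (`χ` trivial on `H`) then every order
of `h` is divisible by `n`. -/
theorem s48h_kdiv_level (hL : s48k_Level M N₁ ℓ₀ H) (χ : DirichletCharacter ℂ M)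
    (hχH : ∀ u ∈ H, χ (u : ZMod M) = 1) (hpl : s48h_PlacesHyp K M Γ φ) (hΓ : Γ ≤ Gamma0 M)
    (n : ℕ) [NeZero n] (h : F) (hh : h ≠ 0)
    (hφ : φ h = algebraMap (ffm_R M) (ffm_E M)
      ⟨fun z => s48k_T χ z ^ n,
        s48h_T_pow_isWH χ (s48h_level_one_lt hL) (s48h_level_even hL χ hχH) n⟩)
    (v : Place K F) : (n : ℤ) ∣ v.ord h :=
  s48h_kdiv χ (s48h_level_one_lt hL) (s48h_level_even hL χ hχH) hpl hΓ
    (s48h_level_hfin hL χ hχH hΓ) (s48h_level_hpar hL χ hχH hΓ) n h hh hφ v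

end

end Fermat.Agent.Lib.S48
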