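/-
S48 / DS-1, [T5] brick (helper3): **(K-Div) over `ℚ̄` and over the number fields `L₀ ⊆ ℚ̄`**.

Divisibility of all orders of a function descends along constant field extensions of the
Laurent-series models `laurentBaseChange K F₀` (`F₀ ⊆ ℚ((q))` arbitrary):

* `s48h_dvd_ord_descend`  : `K0` algebraically closed, `K1/K0` arbitrary (e.g. `ℚ̄ ⊆ ℂ`): every place of
  `F_{K0}` extends (unramified) to `F_{K1}` (landed `s29c_extL`);
* `s48h_dvd_ord_restrict` : `K/K₀` algebraic (e.g. `L₀ ⊆ ℚ̄`): every place of `F_{K₀}` is the (unramified)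
  restriction of a place of `F_K` (landed `s18q_restrictGen`);
* `s48h_kdivQ_level`, `s48h_kdivL_level` : **(K-Div) for the `ℚ̄`-model and the `L₀`-models** at the levels
  `s48k_Level M N₁ ℓ₀ H`: if `φ (h ⊗ ℂ) = T_χ ^ n` then `n ∣ ord_P h` for every place `P`
  (the hypothesis `hdiv` of helper6's `s48g_finPack_kummer`).
-/
import Mathlib
import Fermat.Agent.Lib.S48.HKDivL
import Fermat.Agent.Lib.S29.DCLaurent
import Fermat.Agent.Lib.S18.QPlace

set_option autoImplicit false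
set_option linter.unusedSectionVars false

namespace Fermat.Agent.Lib.S48

open AlgebraicCurve ModularCurve CongruenceSubgroup
open Fermat.Agent.Lib.FF Fermat.Agent.Lib.S18 Fermat.Agent.Lib.S29
open scoped MatrixGroups

noncomputable section

section Generic

variable (F₀ : IntermediateField ℚ (LaurentSeries ℚ))

/-- Divisibility of all orders descends from `F_{K1}` to `F_{K0}`, `K0` algebraically closed. -/
theorem s48h_dvd_ord_descend {K0 K1 : Type*} [Field K0] [Field K1] [Algebra ℚ K0] [Algebra ℚ K1]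
    [Algebra K0 K1] [IsAlgClosed K0] (x0 : ↥(laurentBaseChange K0 F₀)) [FFGen K0 x0] (n : ℤ)
    (h : ↥(laurentBaseChange K0 F₀))
    (hdiv : ∀ v : Place K1 ↥(laurentBaseChange K1 F₀),
      n ∣ v.ord (s18q_map (algebraMap K0 K1) F₀ h))
    (P : Place K0 ↥(laurentBaseChange K0 F₀)) : n ∣ P.ord h := by
  rw [← s29c_extL_ord (K1 := K1) F₀ x0 P h]
  exact hdiv _

/-- Divisibility of all orders descends from `F_K` to `F_{K₀}`, `K/K₀` algebraic. -/
theorem s48h_dvd_ord_restrict (K₀ : Type*) {K : Type*} [Field K₀] [Field K] [Algebra ℚ K₀]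
    [Algebra ℚ K] [Algebra K₀ K] [Algebra.IsAlgebraic K₀ K] (n : ℤ)
    (h : ↥(laurentBaseChange K₀ F₀))
    (hdiv : ∀ P : Place K ↥(laurentBaseChange K F₀),
      n ∣ P.ord (s18q_map (algebraMap K₀ K) F₀ h))
    (P₀ : Place K₀ ↥(laurentBaseChange K₀ F₀)) : n ∣ P₀.ord h := by
  obtain ⟨P, rfl⟩ := s18q_restrictGen_surjective K₀ (K := K) F₀ P₀
  rw [← s18q_ord_restrictGen]
  exact hdiv P

end Generic

section Level

variable {M N₁ ℓ₀ : ℕ} [NeZero M] {H : Subgroup (ZMod M)ˣ}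
  (F₀ : IntermediateField ℚ (LaurentSeries ℚ))
  {K0 : Type*} [Field K0] [Algebra ℚ K0] [Algebra K0 ℂ] [IsAlgClosed K0]
  {Γ : Subgroup SL(2, ℤ)} {φ : ↥(laurentBaseChange ℂ F₀) →+* ffm_E M}

/-- **(K-Div) over `ℚ̄`** (any algebraically closed `K0 ⊆ ℂ`). -/
theorem s48h_kdivQ_level (hL : s48k_Level M N₁ ℓ₀ H) (χ : DirichletCharacter ℂ M)
    (hχH : ∀ u ∈ H, χ (u : ZMod M) = 1) (hpl : s48h_PlacesHyp ℂ M Γ φ) (hΓ : Γ ≤ Gamma0 M)
    (x0 : ↥(laurentBaseChange K0 F₀)) [FFGen K0 x0]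
    (n : ℕ) [NeZero n] (h : ↥(laurentBaseChange K0 F₀)) (hh : h ≠ 0)
    (hφ : φ (s18q_map (algebraMap K0 ℂ) F₀ h) = algebraMap (ffm_R M) (ffm_E M)
      ⟨fun z => s48k_T χ z ^ n,
        s48h_T_pow_isWH χ (s48h_level_one_lt hL) (s48h_level_even hL χ hχH) n⟩)
    (P : Place K0 ↥(laurentBaseChange K0 F₀)) : (n : ℤ) ∣ P.ord h :=
  s48h_dvd_ord_descend (K1 := ℂ) F₀ x0 n h
    (s48h_kdiv_level hL χ hχH hpl hΓ n _ ((map_ne_zero _).mpr hh) hφ) P

/-- **(K-Div) over the subfields `L₀ ⊆ ℚ̄`** (`K0/L₀` algebraic). -/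
theorem s48h_kdivL_level (hL : s48k_Level M N₁ ℓ₀ H) (χ : DirichletCharacter ℂ M)
    (hχH : ∀ u ∈ H, χ (u : ZMod M) = 1) (hpl : s48h_PlacesHyp ℂ M Γ φ) (hΓ : Γ ≤ Gamma0 M)
    (x0 : ↥(laurentBaseChange K0 F₀)) [FFGen K0 x0]
    (L₀ : Type*) [Field L₀] [Algebra ℚ L₀] [Algebra L₀ K0] [Algebra.IsAlgebraic L₀ K0]
    (n : ℕ) [NeZero n] (h : ↥(laurentBaseChange L₀ F₀)) (hh : h ≠ 0)
    (hφ : φ (s18q_map (algebraMap K0 ℂ) F₀ (s18q_map (algebraMap L₀ K0) F₀ h)) =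
      algebraMap (ffm_R M) (ffm_E M)
      ⟨fun z => s48k_T χ z ^ n,
        s48h_T_pow_isWH χ (s48h_level_one_lt hL) (s48h_level_even hL χ hχH) n⟩)
    (P : Place L₀ ↥(laurentBaseChange L₀ F₀)) : (n : ℤ) ∣ P.ord h :=
  s48h_dvd_ord_restrict F₀ L₀ (K := K0) n h
    (s48h_kdivQ_level F₀ hL χ hχH hpl hΓ x0 n _ ((map_ne_zero _).mpr hh) hφ) P

end Level

end

end Fermat.Agent.Lib.S48
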