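/-
S48 Stage A (helper3): the Hecke and diamond operators on `Hom(Γ_H, A)`.

* `s48h_GammaH N H` (`H ≤ (ℤ/N)ˣ`): `{γ ∈ Γ₀(N) | γ₁₁ mod N ∈ H}`; `Γ₁(N) = Γ_{1}`, `Γ₀(N) = Γ_{⊤}`.
* `s48h_TpDatum`: the matrix datum of `T_p`, `p ∤ N`, on `Γ_H`: representatives
  `β_j = (1 j; 0 p)` and `σ_p · diag(p,1)` with `σ_p ∈ Γ₀(N)` of lower right entry `≡ p`;
  the operator `s48h_TpH` does not depend on `σ_p` (`s48h_TpH_eq`).
* `s48h_diamondDatum σ`, `σ ∈ Γ₀(N)`: `(⟨σ⟩χ)(γ) = χ(σγσ⁻¹)` (`s48h_diamondH_apply`); trivial for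
  `σ ∈ Γ_H`; multiplicative.
* `s48h_diamond_Tp_comm`: `⟨σ⟩ T_p = T_p ⟨σ⟩`.
* both preserve the parabolic homomorphisms and those killing the elements of finite order
  (from `HHom.lean`).
-/
import Mathlib
import Fermat.Agent.Lib.S29.HDefs
import Fermat.Agent.Lib.S48.HRep
import Fermat.Agent.Lib.S48.HHom

set_option autoImplicit false
set_option linter.unusedSectionVars false

noncomputable section

namespace Fermat.Agent.Lib.S48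

open Matrix.SpecialLinearGroup ModularForm CongruenceSubgroup ModularCurve.Period
open Fermat.Agent.Lib.ES Fermat.Agent.Lib.S29
open P2MW.S_ModularForm_heckeT_slash_eq_self_of_mem_Gamma0.ModularForm.HeckeSlashInvariance
open scoped MatrixGroups OnePoint

local notation "Mat2" => Matrix (Fin 2) (Fin 2) ℤ

/-! ### Two computations with coercions -/

theorem s48h_inv_mul_cancel_left_coe (a : SL(2, ℤ)) (M : Mat2) :
    ((a⁻¹ : SL(2, ℤ)) : Mat2) * ((a : Mat2) * M) = M := by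
  rw [← Matrix.mul_assoc, ← Matrix.SpecialLinearGroup.coe_mul, inv_mul_cancel,
    Matrix.SpecialLinearGroup.coe_one, Matrix.one_mul]

theorem s48h_coe_twist (a g t : SL(2, ℤ)) (R : Mat2) :
    (a : Mat2) * ((g : Mat2) * R) = ((a * g * t⁻¹ : SL(2, ℤ)) : Mat2) * ((t : Mat2) * R) := by
  simp only [Matrix.SpecialLinearGroup.coe_mul, Matrix.mul_assoc, s48h_inv_mul_cancel_left_coe]

theorem s48h_coe_twist₂ (a g t s : SL(2, ℤ)) (R : Mat2) :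
    (a : Mat2) * ((g : Mat2) * R)
      = ((a * g * t⁻¹ * s⁻¹ : SL(2, ℤ)) : Mat2) * ((s : Mat2) * ((t : Mat2) * R)) := by
  simp only [Matrix.SpecialLinearGroup.coe_mul, Matrix.mul_assoc, s48h_inv_mul_cancel_left_coe]

/-! ### The groups `Γ_H` -/

/-- `Γ_H = {γ ∈ Γ₀(N) | γ₁₁ mod N ∈ H}`. -/
def s48h_GammaH (N : ℕ) (H : Subgroup (ZMod N)ˣ) : Subgroup SL(2, ℤ) where
  carrier := {γ | γ ∈ Gamma0 N ∧ ∃ u ∈ H, ((γ 1 1 : ℤ) : ZMod N) = (u : ZMod N)}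
  one_mem' := ⟨one_mem _, 1, one_mem _, by simp⟩
  mul_mem' := by
    rintro a b ⟨ha, u, hu, hau⟩ ⟨hb, v, hv, hbv⟩
    exact ⟨mul_mem ha hb, u * v, mul_mem hu hv, by
      rw [s48h_lowerRight_mul ha, hau, hbv, Units.val_mul]⟩
  inv_mem' := by
    rintro a ⟨ha, u, hu, hau⟩
    refine ⟨inv_mem ha, u⁻¹, inv_mem hu, ?_⟩
    have := s48h_lowerRight_inv_mul ha
    rw [hau] at this
    exact Units.eq_inv_of_mul_eq_one_right this

variable {N : ℕ} {H : Subgroup (ZMod N)ˣ}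

theorem s48h_mem_GammaH {γ : SL(2, ℤ)} :
    γ ∈ s48h_GammaH N H ↔ γ ∈ Gamma0 N ∧ ∃ u ∈ H, ((γ 1 1 : ℤ) : ZMod N) = (u : ZMod N) :=
  Iff.rfl

theorem s48h_GammaH_le_Gamma0 : s48h_GammaH N H ≤ Gamma0 N := fun _ h => h.1

theorem s48h_mem_GammaH_of_eq {γ γ' : SL(2, ℤ)} (hγ : γ ∈ s48h_GammaH N H) (hγ' : γ' ∈ Gamma0 N)
    (h : ((γ' 1 1 : ℤ) : ZMod N) = ((γ 1 1 : ℤ) : ZMod N)) : γ' ∈ s48h_GammaH N H := by
  obtain ⟨_, u, hu, hγu⟩ := hγ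
  exact ⟨hγ', u, hu, h.trans hγu⟩

theorem s48h_mem_GammaH_of_one {γ : SL(2, ℤ)} (hγ : γ ∈ Gamma0 N)
    (h : ((γ 1 1 : ℤ) : ZMod N) = 1) : γ ∈ s48h_GammaH N H :=
  ⟨hγ, 1, one_mem _, by rw [h]; simp⟩

theorem s48h_Gamma1_le_GammaH : Gamma1 N ≤ s48h_GammaH N H := fun γ hγ =>
  s48h_mem_GammaH_of_one (Gamma1_in_Gamma0 N hγ) ((Gamma1_mem N γ).mp hγ).2.1

/-- `Γ₀(N)` normalises `Γ_H`. -/
theorem s48h_conj_mem_GammaH {σ γ : SL(2, ℤ)} (hσ : σ ∈ Gamma0 N) (hγ : γ ∈ s48h_GammaH N H) :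
    σ * γ * σ⁻¹ ∈ s48h_GammaH N H := by
  have h0 : σ * γ ∈ Gamma0 N := mul_mem hσ hγ.1
  refine s48h_mem_GammaH_of_eq hγ (mul_mem h0 (inv_mem hσ)) ?_
  rw [s48h_lowerRight_mul h0, s48h_lowerRight_mul hσ, mul_comm, ← mul_assoc,
    s48h_lowerRight_inv_mul hσ, one_mul]

/-! ### The integral coset permutation with lower right entries -/

variable {p : ℕ} [Fact p.Prime]

theorem s48h_heckeRepZ_mul (hpN : ¬ p ∣ N) (g : SL(2, ℤ)) (hg : g ∈ Gamma0 N)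
    (x : OnePoint (ZMod p)) :
    ∃ g' : SL(2, ℤ), g' ∈ Gamma0 N ∧
      ((g' 1 1 : ℤ) : ZMod N) * (s48h_sfac p x : ZMod N)
        = ((g 1 1 : ℤ) : ZMod N) * (s48h_sfac p (heckePermT p g x) : ZMod N) ∧
      heckeRepZ p x * (g : Mat2) = (g' : Mat2) * heckeRepZ p (heckePermT p g x) := by
  have hp : p ≠ 0 := (Fact.out : p.Prime).ne_zero
  obtain ⟨g', hg', hlr, hmul⟩ := s48h_heckeRep_mul hpN g hg x
  refine ⟨g', hg', hlr, ?_⟩
  show heckeRepZ p x * (g : Mat2) = (g' : Mat2) * heckeRepZ p (redMatrix p g • x)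
  apply ES.map_intCast_injective
  have h2 := congrArg (fun M : GL (Fin 2) ℝ => (M : Matrix (Fin 2) (Fin 2) ℝ)) hmul
  simp only [Units.val_mul, coe_heckeRep_eq_map hp, coe_mapGL_eq_map] at h2
  simpa only [Matrix.map_mul_intCast] using h2

/-! ### The datum of `T_p` on `Γ_H` -/

/-- The twist: `σ_p` at `∞`, `1` at the finite points. -/
def s48h_tw (p : ℕ) (σp : SL(2, ℤ)) (x : OnePoint (ZMod p)) : SL(2, ℤ) := x.elim σp (fun _ => 1)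

@[simp] theorem s48h_tw_infty (σp : SL(2, ℤ)) : s48h_tw p σp ∞ = σp := rfl

@[simp] theorem s48h_tw_coe (σp : SL(2, ℤ)) (j : ZMod p) : s48h_tw p σp (j : OnePoint (ZMod p)) = 1 :=
  rfl

theorem s48h_tw_mem {σp : SL(2, ℤ)} (hσp : σp ∈ Gamma0 N) (x : OnePoint (ZMod p)) :
    s48h_tw p σp x ∈ Gamma0 N := by
  induction x using OnePoint.rec with
  | infty => exact hσp
  | coe j => exact one_mem _

theorem s48h_tw_lowerRight {σp : SL(2, ℤ)} (hσp11 : ((σp 1 1 : ℤ) : ZMod N) = (p : ZMod N))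
    (x : OnePoint (ZMod p)) :
    (((s48h_tw p σp x) 1 1 : ℤ) : ZMod N) = (s48h_sfac p x : ZMod N) := by
  induction x using OnePoint.rec with
  | infty => exact hσp11
  | coe j => simp

/-- The datum of `T_p` on `Γ_H` (`p ∤ N`), with the representative `σ_p · diag(p,1)` at `∞`. -/
def s48h_TpDatum (H : Subgroup (ZMod N)ˣ) (hpN : ¬ p ∣ N) (σp : SL(2, ℤ)) (hσp : σp ∈ Gamma0 N)
    (hσp11 : ((σp 1 1 : ℤ) : ZMod N) = (p : ZMod N)) :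
    s48h_MatDatum (s48h_GammaH N H) (OnePoint (ZMod p)) where
  α x := (s48h_tw p σp x : Mat2) * heckeRepZ p x
  det_ne x := by
    rw [Matrix.det_mul, Matrix.SpecialLinearGroup.det_coe, one_mul, det_heckeRepZ]
    exact_mod_cast (Fact.out : p.Prime).ne_zero
  perm γ := heckePermT p (γ : SL(2, ℤ))
  perm_mul γ δ x := s29h_permT_mul p (γ : SL(2, ℤ)) (δ : SL(2, ℤ)) x
  ex γ x := by
    obtain ⟨g', hg', hlr, hmul⟩ := s48h_heckeRepZ_mul hpN (γ : SL(2, ℤ)) γ.2.1 x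
    set y := heckePermT p (γ : SL(2, ℤ)) x with hy
    have hmem0 : s48h_tw p σp x * g' ∈ Gamma0 N := mul_mem (s48h_tw_mem hσp x) hg'
    have hmem : s48h_tw p σp x * g' * (s48h_tw p σp y)⁻¹ ∈ s48h_GammaH N H := by
      refine s48h_mem_GammaH_of_eq γ.2 (mul_mem hmem0 (inv_mem (s48h_tw_mem hσp y))) ?_
      have hinv := s48h_lowerRight_inv_mul (s48h_tw_mem (N := N) hσp y)
      rw [s48h_tw_lowerRight hσp11] at hinv
      rw [s48h_lowerRight_mul hmem0, s48h_lowerRight_mul (s48h_tw_mem hσp x),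
        s48h_tw_lowerRight hσp11, mul_comm (s48h_sfac p x : ZMod N), hlr, mul_assoc, mul_comm _
        ((((s48h_tw p σp y)⁻¹) 1 1 : ℤ) : ZMod N), hinv, mul_one]
    refine ⟨⟨_, hmem⟩, ?_⟩
    show (s48h_tw p σp x : Mat2) * heckeRepZ p x * ((γ : SL(2, ℤ)) : Mat2)
      = ((s48h_tw p σp x * g' * (s48h_tw p σp y)⁻¹ : SL(2, ℤ)) : Mat2)
        * ((s48h_tw p σp y : Mat2) * heckeRepZ p y)
    rw [Matrix.mul_assoc, hmul]
    exact s48h_coe_twist _ _ _ _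

/-- **`T_p` on `Hom(Γ_H, A)`** (w.r.t. a choice of `σ_p`). -/
def s48h_TpH (H : Subgroup (ZMod N)ˣ) (hpN : ¬ p ∣ N) (σp : SL(2, ℤ)) (hσp : σp ∈ Gamma0 N)
    (hσp11 : ((σp 1 1 : ℤ) : ZMod N) = (p : ZMod N)) (A : Type*) [AddCommGroup A] :
    (Additive (s48h_GammaH N H) →+ A) →+ (Additive (s48h_GammaH N H) →+ A) :=
  (s48h_TpDatum H hpN σp hσp hσp11).heckeHom A

/-- `T_p` does not depend on the choice of `σ_p`. -/
theorem s48h_TpH_eq (hpN : ¬ p ∣ N) {σp σp' : SL(2, ℤ)} (hσp : σp ∈ Gamma0 N)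
    (hσp11 : ((σp 1 1 : ℤ) : ZMod N) = (p : ZMod N)) (hσp' : σp' ∈ Gamma0 N)
    (hσp11' : ((σp' 1 1 : ℤ) : ZMod N) = (p : ZMod N)) (A : Type*) [AddCommGroup A] :
    s48h_TpH H hpN σp hσp hσp11 A = s48h_TpH H hpN σp' hσp' hσp11' A := by
  have hmem : ∀ x : OnePoint (ZMod p),
      s48h_tw p σp x * (s48h_tw p σp' x)⁻¹ ∈ s48h_GammaH N H := by
    intro x
    refine s48h_mem_GammaH_of_one (mul_mem (s48h_tw_mem hσp x) (inv_mem (s48h_tw_mem hσp' x))) ?_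
    have hinv := s48h_lowerRight_inv_mul (s48h_tw_mem (N := N) hσp' x)
    rw [s48h_tw_lowerRight hσp11'] at hinv
    rw [s48h_lowerRight_mul (s48h_tw_mem hσp x), s48h_tw_lowerRight hσp11, mul_comm, hinv]
  refine s48h_MatDatum.heckeHom_eq_of_equiv _ _ (Equiv.refl _) (fun x => ⟨_, hmem x⟩)
    (fun x => ?_) (fun γ x => rfl)
  show (s48h_tw p σp x : Mat2) * heckeRepZ p x
    = ((s48h_tw p σp x * (s48h_tw p σp' x)⁻¹ : SL(2, ℤ)) : Mat2)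
      * ((s48h_tw p σp' x : Mat2) * heckeRepZ p x)
  rw [← Matrix.mul_assoc, ← Matrix.SpecialLinearGroup.coe_mul, inv_mul_cancel_right]

/-! ### Diamond operators -/

/-- The datum of the diamond operator `⟨σ⟩`, `σ ∈ Γ₀(N)`. -/
def s48h_diamondDatum (H : Subgroup (ZMod N)ˣ) (σ : SL(2, ℤ)) (hσ : σ ∈ Gamma0 N) :
    s48h_MatDatum (s48h_GammaH N H) Unit where
  α _ := (σ : Mat2)
  det_ne _ := by rw [Matrix.SpecialLinearGroup.det_coe]; exact one_ne_zero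
  perm _ := 1
  perm_mul _ _ _ := rfl
  ex γ _ := by
    refine ⟨⟨σ * γ * σ⁻¹, s48h_conj_mem_GammaH hσ γ.2⟩, ?_⟩
    show (σ : Mat2) * ((γ : SL(2, ℤ)) : Mat2) = ((σ * γ * σ⁻¹ : SL(2, ℤ)) : Mat2) * (σ : Mat2)
    rw [← Matrix.SpecialLinearGroup.coe_mul, ← Matrix.SpecialLinearGroup.coe_mul,
      inv_mul_cancel_right]

/-- **The diamond operator `⟨σ⟩`** on `Hom(Γ_H, A)`. -/
def s48h_diamondH (H : Subgroup (ZMod N)ˣ) (σ : SL(2, ℤ)) (hσ : σ ∈ Gamma0 N) (A : Type*)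
    [AddCommGroup A] :
    (Additive (s48h_GammaH N H) →+ A) →+ (Additive (s48h_GammaH N H) →+ A) :=
  (s48h_diamondDatum H σ hσ).heckeHom A

theorem s48h_diamondH_apply {σ : SL(2, ℤ)} (hσ : σ ∈ Gamma0 N) {A : Type*} [AddCommGroup A]
    (χ : Additive (s48h_GammaH N H) →+ A) (γ : s48h_GammaH N H) :
    s48h_diamondH H σ hσ A χ (Additive.ofMul γ)
      = χ (Additive.ofMul ⟨σ * γ * σ⁻¹, s48h_conj_mem_GammaH hσ γ.2⟩) := by
  rw [s48h_diamondH, s48h_MatDatum.heckeHom_apply_of_family _ χ γ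
    (fun _ => ⟨σ * γ * σ⁻¹, s48h_conj_mem_GammaH hσ γ.2⟩)]
  · simp
  · intro _
    show (σ : Mat2) * ((γ : SL(2, ℤ)) : Mat2) = ((σ * γ * σ⁻¹ : SL(2, ℤ)) : Mat2) * (σ : Mat2)
    rw [← Matrix.SpecialLinearGroup.coe_mul, ← Matrix.SpecialLinearGroup.coe_mul,
      inv_mul_cancel_right]

/-- `⟨σ⟩` is trivial for `σ ∈ Γ_H`. -/
theorem s48h_diamondH_of_mem {σ : SL(2, ℤ)} (hσ : σ ∈ s48h_GammaH N H) {A : Type*}
    [AddCommGroup A] (χ : Additive (s48h_GammaH N H) →+ A) :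
    s48h_diamondH H σ hσ.1 A χ = χ := by
  refine AddMonoidHom.ext fun γ => ?_
  obtain ⟨γ, rfl⟩ := Additive.ofMul.surjective γ
  rw [s48h_diamondH_apply]
  have h : (⟨σ * γ * σ⁻¹, s48h_conj_mem_GammaH hσ.1 γ.2⟩ : s48h_GammaH N H)
      = (⟨σ, hσ⟩ : s48h_GammaH N H) * γ * (⟨σ, hσ⟩ : s48h_GammaH N H)⁻¹ := rfl
  rw [h, ofMul_mul, ofMul_mul, map_add, map_add, ofMul_inv, map_neg]
  abel

/-- `⟨σ⟩⟨τ⟩`: `(⟨τ⟩(⟨σ⟩χ)) = ⟨στ⟩χ`. -/
theorem s48h_diamondH_mul {σ τ : SL(2, ℤ)} (hσ : σ ∈ Gamma0 N) (hτ : τ ∈ Gamma0 N) {A : Type*}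
    [AddCommGroup A] (χ : Additive (s48h_GammaH N H) →+ A) :
    s48h_diamondH H τ hτ A (s48h_diamondH H σ hσ A χ)
      = s48h_diamondH H (σ * τ) (mul_mem hσ hτ) A χ := by
  refine AddMonoidHom.ext fun γ => ?_
  obtain ⟨γ, rfl⟩ := Additive.ofMul.surjective γ
  rw [s48h_diamondH_apply, s48h_diamondH_apply, s48h_diamondH_apply]
  congr 2
  apply Subtype.ext
  show σ * (τ * γ * τ⁻¹) * σ⁻¹ = σ * τ * γ * (σ * τ)⁻¹
  group

/-! ### `⟨σ⟩` and `T_p` commute -/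

theorem s48h_diamond_Tp_comm (hpN : ¬ p ∣ N) {σp : SL(2, ℤ)} (hσp : σp ∈ Gamma0 N)
    (hσp11 : ((σp 1 1 : ℤ) : ZMod N) = (p : ZMod N)) {σ : SL(2, ℤ)} (hσ : σ ∈ Gamma0 N)
    {A : Type*} [AddCommGroup A] (χ : Additive (s48h_GammaH N H) →+ A) :
    s48h_diamondH H σ hσ A (s48h_TpH H hpN σp hσp hσp11 A χ)
      = s48h_TpH H hpN σp hσp hσp11 A (s48h_diamondH H σ hσ A χ) := by
  set Dp := s48h_TpDatum H hpN σp hσp hσp11 with hDp
  set Dσ := s48h_diamondDatum H σ hσ with hDσ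
  show Dσ.heckeHom A (Dp.heckeHom A χ) = Dp.heckeHom A (Dσ.heckeHom A χ)
  rw [← s48h_MatDatum.heckeHom_prod, ← s48h_MatDatum.heckeHom_prod]
  -- `α_x σ = k_x σ α_{x·σ}` with `k_x ∈ Γ_H`
  have hk : ∀ x : OnePoint (ZMod p), ∃ k : s48h_GammaH N H,
      Dp.α x * (σ : Mat2) = ((k : SL(2, ℤ)) : Mat2) * ((σ : Mat2) * Dp.α (heckePermT p σ x)) := by
    intro x
    obtain ⟨g', hg', hlr, hmul⟩ := s48h_heckeRepZ_mul hpN σ hσ x
    set y := heckePermT p σ x with hy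
    have hmem0 : s48h_tw p σp x * g' ∈ Gamma0 N := mul_mem (s48h_tw_mem hσp x) hg'
    have hmem1 : s48h_tw p σp x * g' * (s48h_tw p σp y)⁻¹ ∈ Gamma0 N :=
      mul_mem hmem0 (inv_mem (s48h_tw_mem hσp y))
    have hlr1 : (((s48h_tw p σp x * g' * (s48h_tw p σp y)⁻¹) 1 1 : ℤ) : ZMod N)
        = ((σ 1 1 : ℤ) : ZMod N) := by
      have hinv := s48h_lowerRight_inv_mul (s48h_tw_mem (N := N) hσp y)
      rw [s48h_tw_lowerRight hσp11] at hinv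
      rw [s48h_lowerRight_mul hmem0, s48h_lowerRight_mul (s48h_tw_mem hσp x),
        s48h_tw_lowerRight hσp11, mul_comm (s48h_sfac p x : ZMod N), hlr, mul_assoc, mul_comm _
        ((((s48h_tw p σp y)⁻¹) 1 1 : ℤ) : ZMod N), hinv, mul_one]
    have hmem : s48h_tw p σp x * g' * (s48h_tw p σp y)⁻¹ * σ⁻¹ ∈ s48h_GammaH N H := by
      refine s48h_mem_GammaH_of_one (mul_mem hmem1 (inv_mem hσ)) ?_
      rw [s48h_lowerRight_mul hmem1, hlr1, mul_comm]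
      exact s48h_lowerRight_inv_mul hσ
    refine ⟨⟨_, hmem⟩, ?_⟩
    show (s48h_tw p σp x : Mat2) * heckeRepZ p x * (σ : Mat2)
      = ((s48h_tw p σp x * g' * (s48h_tw p σp y)⁻¹ * σ⁻¹ : SL(2, ℤ)) : Mat2)
        * ((σ : Mat2) * ((s48h_tw p σp y : Mat2) * heckeRepZ p y))
    rw [Matrix.mul_assoc, hmul]
    exact s48h_coe_twist₂ _ _ _ _ _
  choose k hk using hk
  -- the equivalence `X × Unit ≃ Unit × X`, `(x, ()) ↦ ((), x·σ)`
  let e : OnePoint (ZMod p) × Unit ≃ Unit × OnePoint (ZMod p) :=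
    (Equiv.prodComm _ _).trans (Equiv.prodCongr (Equiv.refl _) (heckePermT p σ))
  have hperm : ∀ (γ : s48h_GammaH N H) (xu : OnePoint (ZMod p) × Unit),
      (Dσ.prod Dp).perm γ (e xu) = e ((Dp.prod Dσ).perm γ xu) := by
    intro γ xu
    show ((), heckePermT p (γ : SL(2, ℤ)) (heckePermT p σ xu.1))
      = ((), heckePermT p σ (heckePermT p ((Dσ.fam γ xu.2 : s48h_GammaH N H) : SL(2, ℤ)) xu.1))
    have hfam : ((Dσ.fam γ xu.2 : s48h_GammaH N H) : SL(2, ℤ)) = σ * γ * σ⁻¹ := by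
      have := Dσ.fam_unique γ xu.2 ⟨σ * γ * σ⁻¹, s48h_conj_mem_GammaH hσ γ.2⟩ (by
        show (σ : Mat2) * ((γ : SL(2, ℤ)) : Mat2) = ((σ * γ * σ⁻¹ : SL(2, ℤ)) : Mat2) * (σ : Mat2)
        rw [← Matrix.SpecialLinearGroup.coe_mul, ← Matrix.SpecialLinearGroup.coe_mul,
          inv_mul_cancel_right])
      rw [← this]
    rw [hfam, ← s29h_permT_mul, ← s29h_permT_mul, inv_mul_cancel_right]
  have key := s48h_MatDatum.heckeHom_eq_of_equiv (A := A) (Dp.prod Dσ) (Dσ.prod Dp) e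
    (fun xu => k xu.1) (fun xu => hk xu.1) hperm
  rw [key]

end Fermat.Agent.Lib.S48
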