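/-
S48 / DS-1, wall [T6] (helper3): the LATTICE `Hom_par(Γ, ℤ)` for an arbitrary finitely generated
`Γ ≤ SL(2, ℤ)` and the reduction of Hecke eigenvectors ("Deligne–Serre, easy direction").

For a family of Hecke data `D i` on `Γ` and a nonzero `χ ∈ s48h_Hpar ℂ Γ ℂ` with
`(D i).heckeHom ℂ χ = a i • χ`:
* `s48h_isIntegral_of_hecke_eigen` : every `a i` is an algebraic integer;
* `s48h_eigen_reduce` : for every prime `ℓ`, field `k ⊇ 𝔽_ℓ` and `φ : ℤ̄ →+* k` there is a nonzero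
  `v ∈ k ⊗ s48h_Hpar 𝔽_ℓ Γ 𝔽_ℓ` with `(D i)^H v = φ (a i) • v` for all `i`.
Port of `Lib/S29/DSLattice.lean`, `DSMain.lean` (`Γ₀(N)`, `T_ℓ`) to the general setting.
-/
import Mathlib
import Fermat.Agent.Lib.S48.HHom
import Fermat.Agent.Lib.S29.DSMain

set_option autoImplicit false
set_option linter.unusedSectionVars false

noncomputable section

namespace Fermat.Agent.Lib.S48

open ModularCurve.Period Fermat.Agent.Lib.Integral Fermat.Agent.Lib.S29
open scoped MatrixGroups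
open Matrix TensorProduct

section Lattice

variable (Γ : Subgroup SL(2, ℤ))

/-- The lattice `M = H(ℤ)`. -/
abbrev s48h_M : Submodule ℤ (Additive Γ →+ ℤ) := s48h_Hpar ℤ Γ ℤ

instance s48h_finite_M [Group.FG Γ] : Module.Finite ℤ (s48h_M Γ) := by
  haveI : Module.Finite ℤ (Additive Γ →+ ℤ) := s29s_finite_hom_int
  infer_instance

instance s48h_free_M [Group.FG Γ] : Module.Free ℤ (s48h_M Γ) := by
  haveI : Module.IsTorsionFree ℤ (Additive Γ →+ ℤ) := s29s_isTorsionFree_hom_int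
  exact Module.free_of_finite_type_torsion_free'

end Lattice

section Cast

variable {Γ : Subgroup SL(2, ℤ)} (R : Type*) [Ring R]

/-- `χ ↦ (γ ↦ (χ γ : R))`. -/
def s48h_cast : (Additive Γ →+ ℤ) →+ (Additive Γ →+ R) :=
  AddMonoidHom.compHom (Int.castAddHom R)

@[simp]
theorem s48h_cast_apply (χ : Additive Γ →+ ℤ) (γ : Additive Γ) :
    s48h_cast R χ γ = ((χ γ : ℤ) : R) := rfl

theorem s48h_cast_zsmul (m : ℤ) (χ : Additive Γ →+ ℤ) :
    s48h_cast (Γ := Γ) R (m • χ) = (m : R) • s48h_cast R χ := by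
  refine AddMonoidHom.ext fun γ => ?_
  simp

theorem s48h_heckeHom_cast {X : Type*} [Fintype X] (D : s48h_MatDatum Γ X)
    (χ : Additive Γ →+ ℤ) :
    D.heckeHom R (s48h_cast R χ) = s48h_cast R (D.heckeHom ℤ χ) :=
  D.heckeHom_comp (Int.castAddHom R) χ

theorem s48h_cast_mem_Hpar (S : Type*) [Semiring S] [Module S R]
    {χ : Additive Γ →+ ℤ} (hχ : χ ∈ s48h_Hpar ℤ Γ ℤ) :
    s48h_cast R χ ∈ s48h_Hpar S Γ R := by
  refine ⟨fun γ hγ => ?_, fun γ hγ => ?_⟩
  · rw [s48h_cast_apply, hχ.1 γ hγ, Int.cast_zero]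
  · rw [s48h_cast_apply, hχ.2 γ hγ, Int.cast_zero]

end Cast

section Basis

variable {Γ : Subgroup SL(2, ℤ)} {ι : Type*} [Fintype ι] [DecidableEq ι]
  (b : Module.Basis ι ℤ (s48h_M Γ))

/-- The matrix of the Hecke operator of `D` on the lattice `M` in the basis `b`. -/
def s48h_heckeMat {X : Type*} [Fintype X] (D : s48h_MatDatum Γ X) : Matrix ι ι ℤ :=
  LinearMap.toMatrix b b (D.heckeHpar ℤ)

theorem s48h_heckeHom_basis {X : Type*} [Fintype X] (D : s48h_MatDatum Γ X) (j : ι) :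
    D.heckeHom ℤ (b j : Additive Γ →+ ℤ) =
      ∑ i, s48h_heckeMat b D i j • (b i : Additive Γ →+ ℤ) := by
  have h := b.sum_repr (D.heckeHpar ℤ (b j))
  have h2 := congrArg (fun x : s48h_M Γ => (x : Additive Γ →+ ℤ)) h
  simp only [Submodule.coe_sum, Submodule.coe_smul, s48h_MatDatum.heckeHpar_coe] at h2
  rw [← h2]
  refine Finset.sum_congr rfl fun i _ => ?_
  rw [s48h_heckeMat, LinearMap.toMatrix_apply]

variable (R : Type*) [CommRing R]

/-- The basis vectors with coefficients extended to `R`. -/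
def s48h_castB (i : ι) : Additive Γ →+ R := s48h_cast R (b i : Additive Γ →+ ℤ)

theorem s48h_castB_apply (i : ι) (γ : Additive Γ) :
    s48h_castB b R i γ = (((b i : Additive Γ →+ ℤ) γ : ℤ) : R) := rfl

/-- (★) The Hecke operator on the `castB`: the same integer matrix for every coefficient ring. -/
theorem s48h_heckeHom_castB {X : Type*} [Fintype X] (D : s48h_MatDatum Γ X) (j : ι) :
    D.heckeHom R (s48h_castB b R j) =
      ∑ i, ((s48h_heckeMat b D i j : ℤ) : R) • s48h_castB b R i := by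
  rw [s48h_castB, s48h_heckeHom_cast, s48h_heckeHom_basis, map_sum]
  refine Finset.sum_congr rfl fun i _ => ?_
  rw [s48h_cast_zsmul]
  rfl

theorem s48h_heckeHom_sum_castB {X : Type*} [Fintype X] (D : s48h_MatDatum Γ X) (c : ι → R) :
    D.heckeHom R (∑ j, c j • s48h_castB b R j) =
      ∑ i, ((s48h_heckeMat b D).map (Int.cast : ℤ → R) *ᵥ c) i • s48h_castB b R i := by
  rw [map_sum]
  simp_rw [s48h_MatDatum.heckeHom_smul, s48h_heckeHom_castB, Finset.smul_sum, smul_smul]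
  rw [Finset.sum_comm]
  refine Finset.sum_congr rfl fun i _ => ?_
  rw [← Finset.sum_smul]
  congr 1
  show _ = ∑ j, ((s48h_heckeMat b D).map (Int.cast : ℤ → R)) i j * c j
  refine Finset.sum_congr rfl fun j _ => ?_
  rw [Matrix.map_apply, mul_comm]

end Basis

section Span

variable {Γ : Subgroup SL(2, ℤ)} [Group.FG Γ] {ι : Type*} [Fintype ι] [DecidableEq ι]
  (b : Module.Basis ι ℤ (s48h_M Γ))

/-- Every `ψ ∈ H(ℂ)` is a `ℂ`-linear combination of the `castB ℂ b i`. -/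
theorem s48h_exists_coeffs (ψ : Additive Γ →+ ℂ) (hψ : ψ ∈ s48h_Hpar ℂ Γ ℂ) :
    ∃ c : ι → ℂ, ψ = ∑ i, c i • s48h_castB b ℂ i := by
  obtain ⟨J, _, ω, χ, hsum, hvan⟩ := intL_exists_decomp ψ
  have hχM : ∀ j, χ j ∈ s48h_M Γ := fun j =>
    ⟨fun γ hγ => hvan j _ (hψ.1 γ hγ), fun γ hγ => hvan j _ (hψ.2 γ hγ)⟩
  have hrepr : ∀ j, χ j = ∑ i, b.repr ⟨χ j, hχM j⟩ i • (b i : Additive Γ →+ ℤ) := by
    intro j
    have h := b.sum_repr ⟨χ j, hχM j⟩
    have h2 := congrArg (fun x : s48h_M Γ => (x : Additive Γ →+ ℤ)) h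
    simp only [Submodule.coe_sum, Submodule.coe_smul] at h2
    exact h2.symm
  refine ⟨fun i => ∑ j, ω j * ((b.repr ⟨χ j, hχM j⟩ i : ℤ) : ℂ), ?_⟩
  refine AddMonoidHom.ext fun γ => ?_
  rw [hsum γ, AddMonoidHom.finsetSum_apply]
  simp only [AddMonoidHom.smul_apply, s48h_castB_apply, smul_eq_mul, Finset.sum_mul]
  rw [Finset.sum_comm]
  refine Finset.sum_congr rfl fun j _ => ?_
  conv_lhs => rw [hrepr j]
  rw [AddMonoidHom.finsetSum_apply, Int.cast_sum, Finset.mul_sum]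
  refine Finset.sum_congr rfl fun i _ => ?_
  rw [AddMonoidHom.smul_apply, smul_eq_mul, Int.cast_mul, mul_assoc]

end Span

section Indep

variable {Γ : Subgroup SL(2, ℤ)} {ι : Type*} [Fintype ι] [DecidableEq ι]
  (b : Module.Basis ι ℤ (s48h_M Γ))

theorem s48h_basis_fun_linearIndependent :
    LinearIndependent ℤ (fun i => ((b i : Additive Γ →+ ℤ) : Additive Γ → ℤ)) := by
  let coeLin : s48h_M Γ →ₗ[ℤ] (Additive Γ → ℤ) :=
    { toFun := fun χ => ((χ : Additive Γ →+ ℤ) : Additive Γ → ℤ)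
      map_add' := fun _ _ => rfl
      map_smul' := fun _ _ => rfl }
  have hker : LinearMap.ker coeLin = ⊥ := by
    rw [LinearMap.ker_eq_bot]
    intro f g h
    exact Subtype.ext (DFunLike.coe_injective h)
  exact b.linearIndependent.map' coeLin hker

theorem s48h_castB_linearIndependent_complex : LinearIndependent ℂ (s48h_castB b ℂ) := by
  let coeLin : (Additive Γ →+ ℂ) →ₗ[ℂ] (Additive Γ → ℂ) :=
    { toFun := fun χ => (χ : Additive Γ → ℂ)
      map_add' := fun _ _ => rfl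
      map_smul' := fun _ _ => rfl }
  refine LinearIndependent.of_comp coeLin ?_
  exact s29s_linearIndependent_complex_of_int _ (s48h_basis_fun_linearIndependent b)

/-- `castB (ZMod p)` is linearly independent over `ZMod p`: the lattice `M` is saturated. -/
theorem s48h_castB_linearIndependent_zmod (p : ℕ) [Fact p.Prime] :
    LinearIndependent (ZMod p) (s48h_castB b (ZMod p)) := by
  rw [Fintype.linearIndependent_iff]
  intro m hm
  have hlift : ∀ i, ∃ z : ℤ, (z : ZMod p) = m i := fun i => ZMod.intCast_surjective (m i)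
  choose z hz using hlift
  set χ : s48h_M Γ := ∑ i, z i • b i with hχ
  have hχval : ∀ γ : Additive Γ, (p : ℤ) ∣ (χ : Additive Γ →+ ℤ) γ := by
    intro γ
    rw [← ZMod.intCast_zmod_eq_zero_iff_dvd]
    have h1 := DFunLike.congr_fun hm γ
    rw [AddMonoidHom.finsetSum_apply] at h1
    simp only [AddMonoidHom.smul_apply, s48h_castB, s48h_cast_apply, smul_eq_mul,
      AddMonoidHom.zero_apply] at h1
    rw [hχ, Submodule.coe_sum, AddMonoidHom.finsetSum_apply, Int.cast_sum, ← h1]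
    refine Finset.sum_congr rfl fun i _ => ?_
    rw [Submodule.coe_smul, AddMonoidHom.smul_apply, smul_eq_mul, Int.cast_mul, hz]
  have hp0 : (p : ℤ) ≠ 0 := by exact_mod_cast (Fact.out : p.Prime).ne_zero
  let χ' : Additive Γ →+ ℤ :=
    { toFun := fun γ => (χ : Additive Γ →+ ℤ) γ / p
      map_zero' := by simp
      map_add' := fun γ δ => by
        rw [map_add, Int.add_ediv_of_dvd_left (hχval γ)] }
  have hχ'M : χ' ∈ s48h_M Γ := by
    refine ⟨fun γ hγ => ?_, fun γ hγ => ?_⟩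
    · show (χ : Additive Γ →+ ℤ) (Additive.ofMul γ) / p = 0
      rw [χ.2.1 γ hγ, Int.zero_ediv]
    · show (χ : Additive Γ →+ ℤ) (Additive.ofMul γ) / p = 0
      rw [χ.2.2 γ hγ, Int.zero_ediv]
  have hχeq : χ = (p : ℤ) • (⟨χ', hχ'M⟩ : s48h_M Γ) := by
    apply Subtype.ext
    refine AddMonoidHom.ext fun γ => ?_
    rw [Submodule.coe_smul, AddMonoidHom.smul_apply, smul_eq_mul]
    exact (Int.mul_ediv_cancel' (hχval γ)).symm
  intro i
  have h1 : b.repr χ i = z i := by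
    rw [hχ, map_sum, Finset.sum_apply']
    simp [Finsupp.single_apply]
  have h2 : b.repr χ i = (p : ℤ) * b.repr ⟨χ', hχ'M⟩ i := by
    rw [hχeq, map_smul, Finsupp.smul_apply, smul_eq_mul]
  rw [← hz i, ← h1, h2]
  simp

end Indep

/-! ### The main theorems -/

section Main

variable {Γ : Subgroup SL(2, ℤ)} [Group.FG Γ] {I : Type*} {X : I → Type*} [∀ i, Fintype (X i)]
  (D : ∀ i, s48h_MatDatum Γ (X i))

/-- The eigen-equation in coordinates. -/
theorem s48h_eigen_coords {χ : Additive Γ →+ ℂ} (hχ0 : χ ≠ 0) (hχ : χ ∈ s48h_Hpar ℂ Γ ℂ)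
    (a : I → ℂ) (ha : ∀ i, (D i).heckeHom ℂ χ = a i • χ) :
    ∃ c : Module.Free.ChooseBasisIndex ℤ (s48h_M Γ) → ℂ, c ≠ 0 ∧
      χ = ∑ j, c j • s48h_castB (Module.Free.chooseBasis ℤ (s48h_M Γ)) ℂ j ∧
      ∀ i, (s48h_heckeMat (Module.Free.chooseBasis ℤ (s48h_M Γ)) (D i)).map (Int.cast : ℤ → ℂ) *ᵥ c
        = a i • c := by
  classical
  set b := Module.Free.chooseBasis ℤ (s48h_M Γ) with hb
  obtain ⟨c, hc⟩ := s48h_exists_coeffs b χ hχ
  have hc0 : c ≠ 0 := by
    rintro rfl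
    apply hχ0
    rw [hc]
    simp
  refine ⟨c, hc0, hc, fun i => ?_⟩
  have h1 := ha i
  rw [hc, s48h_heckeHom_sum_castB, Finset.smul_sum] at h1
  simp_rw [smul_smul] at h1
  have hinj := linearIndependent_iff_injective_fintypeLinearCombination.mp
    (s48h_castB_linearIndependent_complex b)
  have h2 : Fintype.linearCombination ℂ (s48h_castB b ℂ)
      ((s48h_heckeMat b (D i)).map (Int.cast : ℤ → ℂ) *ᵥ c) =
      Fintype.linearCombination ℂ (s48h_castB b ℂ) (a i • c) := by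
    rw [Fintype.linearCombination_apply, Fintype.linearCombination_apply]
    exact h1
  exact hinj h2

/-- **Integrality of Hecke eigenvalues** on `H(ℂ)`. -/
theorem s48h_isIntegral_of_hecke_eigen {χ : Additive Γ →+ ℂ} (hχ0 : χ ≠ 0)
    (hχ : χ ∈ s48h_Hpar ℂ Γ ℂ) (a : I → ℂ) (ha : ∀ i, (D i).heckeHom ℂ χ = a i • χ) (i : I) :
    IsIntegral ℤ (a i) := by
  classical
  obtain ⟨c, hc0, -, hc⟩ := s48h_eigen_coords D hχ0 hχ a ha
  exact s29s_isIntegral_of_eigen _ _ c hc0 (hc i)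

/-- **Reduction of Hecke eigenvectors** from `H(ℂ)` to `k ⊗ H(𝔽_ℓ)`. -/
theorem s48h_eigen_reduce {χ : Additive Γ →+ ℂ} (hχ0 : χ ≠ 0)
    (hχ : χ ∈ s48h_Hpar ℂ Γ ℂ) (a : I → integralClosure ℤ ℂ)
    (ha : ∀ i, (D i).heckeHom ℂ χ = (a i : ℂ) • χ)
    (ℓ : ℕ) [Fact ℓ.Prime] (k : Type*) [Field k] [Algebra (ZMod ℓ) k]
    (φ : integralClosure ℤ ℂ →+* k) :
    ∃ v : TensorProduct (ZMod ℓ) k (s48h_Hpar (ZMod ℓ) Γ (ZMod ℓ)), v ≠ 0 ∧
      ∀ i, ((D i).heckeHpar (ZMod ℓ)).baseChange k v = φ (a i) • v := by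
  classical
  set b := Module.Free.chooseBasis ℤ (s48h_M Γ) with hb
  obtain ⟨c, hc0, -, hc⟩ := s48h_eigen_coords D hχ0 hχ (fun i => (a i : ℂ)) ha
  haveI : CharP k ℓ := charP_of_injective_algebraMap (algebraMap (ZMod ℓ) k).injective ℓ
  obtain ⟨w, hw0, hw⟩ := s29s_exists_eigenvector ℓ φ
    (fun i => s48h_heckeMat b (D i)) a c hc0 hc
  let β : Module.Free.ChooseBasisIndex ℤ (s48h_M Γ) → s48h_Hpar (ZMod ℓ) Γ (ZMod ℓ) := fun i =>
    ⟨s48h_castB b (ZMod ℓ) i, s48h_cast_mem_Hpar (ZMod ℓ) (ZMod ℓ) (b i).2⟩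
  have hβ : LinearIndependent (ZMod ℓ) β := by
    refine LinearIndependent.of_comp (s48h_Hpar (ZMod ℓ) Γ (ZMod ℓ)).subtype ?_
    exact s48h_castB_linearIndependent_zmod b ℓ
  refine ⟨∑ i, w i ⊗ₜ[ZMod ℓ] β i, s29s_tensor_sum_ne_zero β hβ w hw0, fun i => ?_⟩
  have hT : ∀ j, (D i).heckeHpar (ZMod ℓ) (β j) =
      ∑ i', ((s48h_heckeMat b (D i)).map (Int.cast : ℤ → ZMod ℓ)) i' j • β i' := by
    intro j
    apply Subtype.ext
    rw [s48h_MatDatum.heckeHpar_coe, Submodule.coe_sum]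
    simp only [Submodule.coe_smul, Matrix.map_apply]
    exact s48h_heckeHom_castB b (ZMod ℓ) (D i) j
  rw [s29s_baseChange_sum ((D i).heckeHpar (ZMod ℓ)) β _ hT w]
  have hmat : ((s48h_heckeMat b (D i)).map (Int.cast : ℤ → ZMod ℓ)).map
      (algebraMap (ZMod ℓ) k) = (s48h_heckeMat b (D i)).map (Int.cast : ℤ → k) := by
    ext i' j
    simp
  rw [hmat, hw i, Finset.smul_sum]
  refine Finset.sum_congr rfl fun i' _ => ?_
  rw [TensorProduct.smul_tmul', Pi.smul_apply]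

end Main

end Fermat.Agent.Lib.S48
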