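/-
S48 / DS-1, wall [T6] (helper3): the abstract **Deligne–Serre lifting lemma** (DS 6.11) in the
form needed for `f · E`:

`V` a finite-dimensional vector space over an algebraically closed field `C`, `f i` commuting
endomorphisms, `Z` a commutative ring with `Z → C` (in the application `Z = Z̄`), `𝔪` a maximal ideal
of `Z`, `L ⊆ V` a `Z`-submodule stable under all `f i`, `g ∈ L ∖ 𝔪L` with `f i g ≡ c i • g mod 𝔪L`.
If all simultaneous eigenvalues of the family lie in (the image of) `Z`, then there is a simultaneous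
eigenvector `v ≠ 0`, `f i v = χ i • v`, with `χ i ≡ c i mod 𝔪` for all `i` — for the SAME `𝔪`.
-/
import Mathlib
import Fermat.Agent.Lib.Hecke.CommEigen

set_option autoImplicit false
set_option linter.style.haveILetI false
set_option linter.deprecated false

noncomputable section

namespace Fermat.Agent.Lib.S48

open Fermat.Agent.Lib.CommEigen

section

variable {C V Z ι : Type*} [Field C] [AddCommGroup V] [Module C V]
  [CommRing Z] [Algebra Z C] [Module Z V] [IsScalarTower Z C V]

/-- If `z • g ∈ 𝔪L` but `g ∉ 𝔪L` then `z ∈ 𝔪` (`𝔪` maximal). -/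
theorem s48h_mem_of_smul_mem (𝔪 : Ideal Z) [h𝔪 : 𝔪.IsMaximal] (L : Submodule Z V) {g : V}
    (hgL : g ∈ L) (hg : g ∉ 𝔪 • L) {z : Z} (hz : z • g ∈ 𝔪 • L) : z ∈ 𝔪 := by
  by_contra hzm
  obtain ⟨y, i, hi, hyz⟩ := h𝔪.exists_inv hzm
  apply hg
  have h1 : g = y • (z • g) + i • g := by
    rw [smul_smul, ← add_smul, hyz, one_smul]
  rw [h1]
  exact Submodule.add_mem _ (Submodule.smul_mem _ _ hz) (Submodule.smul_mem_smul hi hgL)

/-- A `C`-linear endomorphism preserving `L` preserves `𝔪L`. -/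
theorem s48h_map_smul_submodule (𝔪 : Ideal Z) (L : Submodule Z V) (a : Module.End C V)
    (ha : ∀ x ∈ L, a x ∈ L) : ∀ x ∈ 𝔪 • L, a x ∈ 𝔪 • L := by
  intro x hx
  refine Submodule.smul_induction_on hx (fun m hm y hy => ?_) (fun y z hy hz => ?_)
  · rw [LinearMap.map_smul_of_tower]
    exact Submodule.smul_mem_smul hm (ha y hy)
  · rw [map_add]
    exact Submodule.add_mem _ hy hz

end

/-- If `z • g ∈ L'` but `g ∉ L'`, where `𝔪 g ⊆ L'`, then `z ∈ 𝔪` (`𝔪` maximal). -/
theorem s48h_mem_of_smul_mem_gen {V Z : Type*} [AddCommGroup V] [CommRing Z] [Module Z V]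
    (𝔪 : Ideal Z) [h𝔪 : 𝔪.IsMaximal] (L' : Submodule Z V) {g : V}
    (hg : g ∉ L') (h𝔪g : ∀ z ∈ 𝔪, z • g ∈ L') {z : Z} (hz : z • g ∈ L') : z ∈ 𝔪 := by
  by_contra hzm
  obtain ⟨y, i, hi, hyz⟩ := h𝔪.exists_inv hzm
  apply hg
  have h1 : g = y • (z • g) + i • g := by
    rw [smul_smul, ← add_smul, hyz, one_smul]
  rw [h1]
  exact Submodule.add_mem _ (Submodule.smul_mem _ _ hz) (h𝔪g i hi)

/-- **Deligne–Serre lifting lemma**, general form: `L'` any `Z`-submodule stable under the `f i` with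
`g ∉ L'`, `𝔪 g ⊆ L'` and `f i g ≡ c i • g mod L'`. -/
theorem s48h_ds_lift_gen {C : Type*} {V : Type*} {Z : Type*} {ι : Type*} [Field C] [IsAlgClosed C]
    [AddCommGroup V] [Module C V] [FiniteDimensional C V]
    [CommRing Z] [Algebra Z C] [Module Z V] [IsScalarTower Z C V]
    (f : ι → Module.End C V) (hcomm : ∀ i j, f i * f j = f j * f i)
    (𝔪 : Ideal Z) [h𝔪 : 𝔪.IsMaximal]
    (L' : Submodule Z V) (hfL : ∀ i, ∀ x ∈ L', f i x ∈ L')
    (g : V) (hg : g ∉ L') (h𝔪g : ∀ z ∈ 𝔪, z • g ∈ L') (c : ι → Z)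
    (hc : ∀ i, f i g - c i • g ∈ L')
    (hint : ∀ (χ : ι → C) (v : V), v ≠ 0 → (∀ i, f i v = χ i • v) →
      ∀ i, ∃ z : Z, algebraMap Z C z = χ i) :
    ∃ (χ : ι → C) (v : V), v ≠ 0 ∧ (∀ i, f i v = χ i • v) ∧
      ∀ i, ∃ z : Z, algebraMap Z C z = χ i ∧ c i - z ∈ 𝔪 := by
  classical
  -- the scalar endomorphisms
  set sc : Z → Module.End C V := fun z => (algebraMap Z C z) • (1 : Module.End C V) with hsc
  have hsc_apply : ∀ (z : Z) (x : V), sc z x = z • x := by
    intro z x
    simp only [hsc, LinearMap.smul_apply, Module.End.one_apply, algebraMap_smul]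
  -- the commutative subring generated by the `f i` and the scalars
  set S : Set (Module.End C V) := Set.range f ∪ Set.range sc with hS
  have hScomm : ∀ a ∈ S, ∀ b ∈ S, a * b = b * a := by
    rintro a (⟨i, rfl⟩ | ⟨z, rfl⟩) b (⟨j, rfl⟩ | ⟨w, rfl⟩)
    · exact hcomm i j
    · ext x
      simp only [Module.End.mul_apply, hsc_apply, LinearMap.map_smul_of_tower]
    · ext x
      simp only [Module.End.mul_apply, hsc_apply, LinearMap.map_smul_of_tower]
    · ext x
      simp only [Module.End.mul_apply, hsc_apply, smul_smul, mul_comm]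
  letI : CommRing (Subring.closure S) := Subring.closureCommRingOfComm hScomm
  -- every element of the subring preserves `L'` and has `g` as an eigenvector mod `L'`
  have hP : ∀ a ∈ Subring.closure S,
      (∀ x ∈ L', a x ∈ L') ∧ ∃ ca : Z, a g - ca • g ∈ L' := by
    intro a ha
    induction ha using Subring.closure_induction with
    | mem a ha =>
      rcases ha with ⟨i, rfl⟩ | ⟨z, rfl⟩
      · exact ⟨hfL i, c i, hc i⟩
      · refine ⟨fun x hx => ?_, z, ?_⟩
        · rw [hsc_apply]; exact Submodule.smul_mem _ _ hx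
        · rw [hsc_apply, sub_self]; exact Submodule.zero_mem _
    | zero =>
      refine ⟨fun x _ => by simp, 0, ?_⟩
      simp
    | one =>
      refine ⟨fun x hx => by simpa using hx, 1, ?_⟩
      simp
    | add a b _ _ iha ihb =>
      obtain ⟨ha1, ca, ha2⟩ := iha
      obtain ⟨hb1, cb, hb2⟩ := ihb
      refine ⟨fun x hx => ?_, ca + cb, ?_⟩
      · rw [LinearMap.add_apply]; exact Submodule.add_mem _ (ha1 x hx) (hb1 x hx)
      · have : (a + b) g - (ca + cb) • g = (a g - ca • g) + (b g - cb • g) := by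
          rw [LinearMap.add_apply, add_smul]; abel
        rw [this]
        exact Submodule.add_mem _ ha2 hb2
    | neg a _ iha =>
      obtain ⟨ha1, ca, ha2⟩ := iha
      refine ⟨fun x hx => ?_, -ca, ?_⟩
      · rw [LinearMap.neg_apply]; exact Submodule.neg_mem _ (ha1 x hx)
      · have : (-a) g - (-ca) • g = -(a g - ca • g) := by
          rw [LinearMap.neg_apply, neg_smul]; abel
        rw [this]
        exact Submodule.neg_mem _ ha2
    | mul a b _ _ iha ihb =>
      obtain ⟨ha1, ca, ha2⟩ := iha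
      obtain ⟨hb1, cb, hb2⟩ := ihb
      refine ⟨fun x hx => ?_, ca * cb, ?_⟩
      · rw [Module.End.mul_apply]; exact ha1 _ (hb1 x hx)
      · have : (a * b) g - (ca * cb) • g = a (b g - cb • g) + cb • (a g - ca • g) := by
          rw [Module.End.mul_apply, map_sub, LinearMap.map_smul_of_tower, smul_sub, smul_smul,
            mul_comm cb ca]
          abel
        rw [this]
        exact Submodule.add_mem _ (ha1 _ hb2) (Submodule.smul_mem _ _ ha2)
  -- the ideal `𝔫 = {a | a g ∈ L'}`
  let 𝔫 : Ideal (Subring.closure S) :=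
    { carrier := {a | (a : Module.End C V) g ∈ L'}
      add_mem' := by
        intro a b ha hb
        show ((a + b : Subring.closure S) : Module.End C V) g ∈ L'
        rw [Subring.coe_add, LinearMap.add_apply]
        exact Submodule.add_mem _ ha hb
      zero_mem' := by
        show ((0 : Subring.closure S) : Module.End C V) g ∈ L'
        rw [Subring.coe_zero, LinearMap.zero_apply]
        exact Submodule.zero_mem _
      smul_mem' := by
        intro b a ha
        show ((b * a : Subring.closure S) : Module.End C V) g ∈ L'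
        rw [Subring.coe_mul, Module.End.mul_apply]
        exact (hP b b.2).1 _ ha }
  have h𝔫mem : ∀ a : Subring.closure S, a ∈ 𝔫 ↔ (a : Module.End C V) g ∈ L' := fun _ => Iff.rfl
  have h𝔫prime : 𝔫.IsPrime := by
    refine ⟨?_, ?_⟩
    · intro htop
      have h1 : (1 : Subring.closure S) ∈ 𝔫 := by rw [htop]; trivial
      rw [h𝔫mem, Subring.coe_one, Module.End.one_apply] at h1
      exact hg h1
    · intro a b hab
      rw [h𝔫mem, Subring.coe_mul, Module.End.mul_apply] at hab
      obtain ⟨ha1, ca, ha2⟩ := hP a a.2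
      obtain ⟨hb1, cb, hb2⟩ := hP b b.2
      -- `(ca cb) • g ∈ L'`
      have h1 : (a : Module.End C V) ((b : Module.End C V) g) - (ca * cb) • g ∈ L' := by
        have : (a : Module.End C V) ((b : Module.End C V) g) - (ca * cb) • g
            = (a : Module.End C V) ((b : Module.End C V) g - cb • g)
              + cb • ((a : Module.End C V) g - ca • g) := by
          rw [map_sub, LinearMap.map_smul_of_tower, smul_sub, smul_smul, mul_comm cb ca]
          abel
        rw [this]
        exact Submodule.add_mem _ (ha1 _ hb2) (Submodule.smul_mem _ _ ha2)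
      have h2 : (ca * cb) • g ∈ L' := by
        have := Submodule.sub_mem _ hab h1
        rwa [sub_sub_cancel] at this
      have h3 := s48h_mem_of_smul_mem_gen 𝔪 L' hg h𝔪g h2
      rcases (Ideal.IsMaximal.isPrime h𝔪).mem_or_mem h3 with h | h
      · left
        rw [h𝔫mem]
        have : (a : Module.End C V) g = ((a : Module.End C V) g - ca • g) + ca • g := by abel
        rw [this]
        exact Submodule.add_mem _ ha2 (h𝔪g _ h)
      · right
        rw [h𝔫mem]
        have : (b : Module.End C V) g = ((b : Module.End C V) g - cb • g) + cb • g := by abel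
        rw [this]
        exact Submodule.add_mem _ hb2 (h𝔪g _ h)
  -- apply the linear algebra lemma
  have hker : RingHom.ker (Subring.closure S).subtype ≤ 𝔫 := by
    intro a ha
    rw [RingHom.mem_ker] at ha
    rw [h𝔫mem]
    have : (a : Module.End C V) = 0 := ha
    rw [this, LinearMap.zero_apply]
    exact Submodule.zero_mem _
  obtain ⟨ψ, v, hv, hψ, hψker⟩ :=
    @exists_eigencharacter_ker_le C _ _ (Subring.closure S) _ V _ _ _
      (Subring.closure S).subtype 𝔫 h𝔫prime hker
  have hfmem : ∀ i, f i ∈ Subring.closure S := fun i =>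
    Subring.subset_closure (Or.inl ⟨i, rfl⟩)
  have hscmem : ∀ z, sc z ∈ Subring.closure S := fun z =>
    Subring.subset_closure (Or.inr ⟨z, rfl⟩)
  have heig : ∀ i, f i v = ψ ⟨f i, hfmem i⟩ • v := fun i => hψ ⟨f i, hfmem i⟩
  refine ⟨fun i => ψ ⟨f i, hfmem i⟩, v, hv, heig, fun i => ?_⟩
  obtain ⟨z, hz⟩ := hint (fun i => ψ ⟨f i, hfmem i⟩) v hv heig i
  refine ⟨z, hz, ?_⟩
  -- `ψ (sc z) = z`
  have hψsc : ψ ⟨sc z, hscmem z⟩ = algebraMap Z C z := by
    have h1 := hψ ⟨sc z, hscmem z⟩
    have h2 : sc z v = (algebraMap Z C z) • v := by rw [hsc_apply, algebraMap_smul]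
    have h3 : ψ ⟨sc z, hscmem z⟩ • v = (algebraMap Z C z) • v := by
      rw [← h2]; exact h1.symm
    exact smul_left_injective C hv h3
  -- `f i - sc z ∈ ker ψ ⊆ 𝔫`
  have hmem : (⟨f i, hfmem i⟩ - ⟨sc z, hscmem z⟩ : Subring.closure S) ∈ 𝔫 := by
    apply hψker
    rw [RingHom.mem_ker, map_sub, hψsc, hz, sub_self]
  have hcoe : (((⟨f i, hfmem i⟩ - ⟨sc z, hscmem z⟩ : Subring.closure S)) : Module.End C V)
      = f i - sc z := rfl
  rw [h𝔫mem, hcoe, LinearMap.sub_apply, hsc_apply] at hmem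
  -- compare with `hc i`
  have h4 : (c i - z) • g ∈ L' := by
    have h5 : (c i - z) • g = (f i g - z • g) - (f i g - c i • g) := by
      rw [sub_smul]; abel
    rw [h5]
    exact Submodule.sub_mem _ hmem (hc i)
  exact s48h_mem_of_smul_mem_gen 𝔪 L' hg h𝔪g h4

/-- **Deligne–Serre lifting lemma** (lattice form, `L' = 𝔪L`). -/
theorem s48h_ds_lift {C : Type*} {V : Type*} {Z : Type*} {ι : Type*} [Field C] [IsAlgClosed C]
    [AddCommGroup V] [Module C V] [FiniteDimensional C V]
    [CommRing Z] [Algebra Z C] [Module Z V] [IsScalarTower Z C V]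
    (f : ι → Module.End C V) (hcomm : ∀ i j, f i * f j = f j * f i)
    (𝔪 : Ideal Z) [h𝔪 : 𝔪.IsMaximal]
    (L : Submodule Z V) (hfL : ∀ i, ∀ x ∈ L, f i x ∈ L)
    (g : V) (hgL : g ∈ L) (hg : g ∉ 𝔪 • L) (c : ι → Z) (hc : ∀ i, f i g - c i • g ∈ 𝔪 • L)
    (hint : ∀ (χ : ι → C) (v : V), v ≠ 0 → (∀ i, f i v = χ i • v) →
      ∀ i, ∃ z : Z, algebraMap Z C z = χ i) :
    ∃ (χ : ι → C) (v : V), v ≠ 0 ∧ (∀ i, f i v = χ i • v) ∧
      ∀ i, ∃ z : Z, algebraMap Z C z = χ i ∧ c i - z ∈ 𝔪 :=
  s48h_ds_lift_gen f hcomm 𝔪 (𝔪 • L)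
    (fun i => s48h_map_smul_submodule 𝔪 L (f i) (hfL i)) g hg
    (fun _ hz => Submodule.smul_mem_smul hz hgL) c hc hint

end Fermat.Agent.Lib.S48
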