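/-
S48 / DS-1, wall [T6] (helper3): PERIODS of weight two forms for an arbitrary `Γ ≤ SL(2, ℤ)`,
function level.

* `s48h_IsPrim F G` : `G` is a primitive of `F` on `ℍ`; chain rule for `SL(2,ℤ)` and for integral
  matrices of positive determinant.
* `s48h_IsPeriod Γ F χ` : `χ : Γ → ℂ` is the period homomorphism of `F` (`χ γ = G(γ z) - G(z)` for a
  primitive `G`); uniqueness, linearity, existence for `Γ`-invariant `F`.
* `s48h_MatDatum.heckeFun` : the function-level Hecke operator `F ↦ ∑_x F ∣[k] α_x` of a datum, and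
  **Hecke equivariance** `s48h_IsPeriod.hecke` : the period of `T_D F` is `D.heckeHom ℂ` of the
  period of `F` — for ANY datum with positive determinants (`T_p`, diamond operators, `U_p`, …).
* `s48h_Cuspidal M F`, `s48h_exists_prim`: existence of a primitive with limits at all cusps;
  `s48h_IsPeriod.isParabolic`, `s48h_IsPeriod.mem_Hpar`, and **injectivity**
  `s48h_IsPeriod.eq_zero` (period `0` ⇒ `F = 0`, for `Γ` of finite index).
-/
import Mathlib
import Fermat.Agent.Lib.S48.HHom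
import Fermat.Agent.Lib.S48.HCusp
import Fermat.Agent.Lib.ES.HeckeCompat
import Fermat.Agent.Lib.Period.Parabolic
import Fermat.Agent.Lib.Period.InjMaxMod

set_option autoImplicit false
set_option linter.unusedSectionVars false

noncomputable section

namespace Fermat.Agent.Lib.S48

open UpperHalfPlane Filter Topology Function Complex ModularCurve.Period
  Matrix.SpecialLinearGroup
open Fermat.Agent.Lib.ES Fermat.Agent.Lib.Period
open scoped Manifold MatrixGroups ModularForm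

local notation "Mat2" => Matrix (Fin 2) (Fin 2) ℤ

/-! ### Primitives -/

/-- `G` is a primitive of `F` on the upper half plane. -/
def s48h_IsPrim (F G : ℍ → ℂ) : Prop := ∀ τ : ℍ, HasDerivAt (G ∘ ofComplex) (F τ) ↑τ

namespace s48h_IsPrim

variable {F F' G G' : ℍ → ℂ}

theorem zero : s48h_IsPrim (0 : ℍ → ℂ) (0 : ℍ → ℂ) := fun τ => by
  have := hasDerivAt_const (τ : ℂ) (0 : ℂ)
  exact this

theorem add (h : s48h_IsPrim F G) (h' : s48h_IsPrim F' G') : s48h_IsPrim (F + F') (G + G') :=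
  fun τ => by
    have := (h τ).add (h' τ)
    exact this

theorem smul (h : s48h_IsPrim F G) (c : ℂ) : s48h_IsPrim (c • F) (c • G) := fun τ => by
  have := (h τ).const_smul c
  exact this

theorem sum {ι : Type*} (s : Finset ι) {f g : ι → ℍ → ℂ} (h : ∀ i ∈ s, s48h_IsPrim (f i) (g i)) :
    s48h_IsPrim (∑ i ∈ s, f i) (∑ i ∈ s, g i) := by
  classical
  induction s using Finset.induction_on with
  | empty => simpa using zero
  | insert a s ha ih =>
    rw [Finset.sum_insert ha, Finset.sum_insert ha]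
    exact (h a (Finset.mem_insert_self a s)).add (ih fun i hi => h i (Finset.mem_insert_of_mem hi))

/-- Chain rule for `SL(2, ℤ)`. -/
theorem comp_SL (h : s48h_IsPrim F G) (δ : SL(2, ℤ)) :
    s48h_IsPrim (F ∣[(2 : ℤ)] (mapGL ℝ δ : GL (Fin 2) ℝ)) (fun w => G (δ • w)) :=
  fun τ => pmP_hasDerivAt_comp_smul h δ τ

/-- Chain rule for integral matrices of positive determinant. -/
theorem comp_mat (h : s48h_IsPrim F G) {α : Mat2} {A : GL (Fin 2) ℝ}
    (hA : (A : Matrix (Fin 2) (Fin 2) ℝ) = α.map (Int.cast : ℤ → ℝ)) (hdet : 0 < α.det) :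
    s48h_IsPrim (F ∣[(2 : ℤ)] A) (fun w => G (A • w)) := by
  intro τ
  have hden : mobDen α (τ : ℂ) ≠ 0 := mobDen_ne_zero_of_coe_eq hA τ
  have h1 := hasDerivAt_mob α hden
  have h2 : HasDerivAt (G ∘ ofComplex) (F (A • τ)) (mob α (τ : ℂ)) := by
    rw [mob_eq_coe_smul_of_coe_eq hA hdet τ]
    exact h (A • τ)
  have h3 := h2.comp (τ : ℂ) h1
  have hval : F (A • τ) * (((α.det : ℤ) : ℂ) / mobDen α (τ : ℂ) ^ 2) = (F ∣[(2 : ℤ)] A) τ := by
    have := slash_apply_of_coe_eq hA hdet 0 F τ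
    simp only [Nat.cast_zero, zero_add, pow_one] at this
    rw [this]
    ring
  rw [hval] at h3
  refine h3.congr_of_eventuallyEq ?_
  have hopen : {z : ℂ | 0 < z.im} ∈ 𝓝 (τ : ℂ) :=
    (isOpen_lt continuous_const Complex.continuous_im).mem_nhds τ.im_pos
  filter_upwards [hopen] with z hz
  simp only [comp_apply]
  have e1 : ofComplex z = ⟨z, hz⟩ := ofComplex_apply_of_im_pos hz
  have e2 : mob α z = ((A • (⟨z, hz⟩ : ℍ) : ℍ) : ℂ) :=
    mob_eq_coe_smul_of_coe_eq hA hdet ⟨z, hz⟩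
  rw [e1, e2, ofComplex_apply]

/-- Two primitives of the same function differ by a constant. -/
theorem sub_const (h : s48h_IsPrim F G) (h' : s48h_IsPrim F G') (z w : ℍ) :
    G z - G' z = G w - G' w :=
  pmP_sub_const_of_hasDerivAt h h' z w

theorem mdiff (h : s48h_IsPrim F G) : MDiff G := by
  rw [UpperHalfPlane.mdifferentiable_iff]
  intro z hz
  exact (h ⟨z, hz⟩).differentiableAt.differentiableWithinAt

/-- A function with a constant primitive vanishes. -/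
theorem eq_zero_of_const (h : s48h_IsPrim F G) {c : ℂ} (hc : ∀ z, G z = c) : F = 0 := by
  funext τ
  have h1 : HasDerivAt (G ∘ ofComplex) 0 (τ : ℂ) := by
    have : (G ∘ ofComplex) = fun _ => c := by
      funext z
      exact hc _
    rw [this]
    exact hasDerivAt_const _ _
  exact (h τ).unique h1

end s48h_IsPrim

/-! ### Periods -/

/-- `χ` is the period homomorphism of `F` on `Γ`. -/
def s48h_IsPeriod (Γ : Subgroup SL(2, ℤ)) (F : ℍ → ℂ) (χ : Additive Γ →+ ℂ) : Prop :=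
  ∃ G : ℍ → ℂ, s48h_IsPrim F G ∧
    ∀ (γ : Γ) (z : ℍ), G ((γ : SL(2, ℤ)) • z) - G z = χ (Additive.ofMul γ)

namespace s48h_IsPeriod

variable {Γ : Subgroup SL(2, ℤ)} {F F' : ℍ → ℂ} {χ χ' : Additive Γ →+ ℂ}

/-- The period of `F` w.r.t. ANY primitive. -/
theorem apply_of_prim (h : s48h_IsPeriod Γ F χ) {G : ℍ → ℂ} (hG : s48h_IsPrim F G) (γ : Γ)
    (z : ℍ) : G ((γ : SL(2, ℤ)) • z) - G z = χ (Additive.ofMul γ) := by
  obtain ⟨G₁, hG₁, h₁⟩ := h
  rw [← h₁ γ z]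
  have := hG.sub_const hG₁ ((γ : SL(2, ℤ)) • z) z
  linear_combination this

theorem unique (h : s48h_IsPeriod Γ F χ) (h' : s48h_IsPeriod Γ F χ') : χ = χ' := by
  obtain ⟨G, hG, hχ⟩ := h
  refine AddMonoidHom.ext fun γ => ?_
  obtain ⟨γ, rfl⟩ := Additive.ofMul.surjective γ
  rw [← hχ γ UpperHalfPlane.I, h'.apply_of_prim hG γ UpperHalfPlane.I]

theorem zero : s48h_IsPeriod Γ (0 : ℍ → ℂ) (0 : Additive Γ →+ ℂ) :=
  ⟨0, s48h_IsPrim.zero, fun _ _ => by simp⟩

theorem add (h : s48h_IsPeriod Γ F χ) (h' : s48h_IsPeriod Γ F' χ') :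
    s48h_IsPeriod Γ (F + F') (χ + χ') := by
  obtain ⟨G, hG, hχ⟩ := h
  obtain ⟨G', hG', hχ'⟩ := h'
  refine ⟨G + G', hG.add hG', fun γ z => ?_⟩
  rw [AddMonoidHom.add_apply, ← hχ γ z, ← hχ' γ z]
  simp only [Pi.add_apply]
  ring

theorem smul (h : s48h_IsPeriod Γ F χ) (c : ℂ) : s48h_IsPeriod Γ (c • F) (c • χ) := by
  obtain ⟨G, hG, hχ⟩ := h
  refine ⟨c • G, hG.smul c, fun γ z => ?_⟩
  rw [AddMonoidHom.smul_apply, ← hχ γ z]
  simp only [Pi.smul_apply, smul_eq_mul]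
  ring

/-- Existence of the period homomorphism of a `Γ`-invariant function with a primitive. -/
theorem exists_of_invariant {G : ℍ → ℂ} (hG : s48h_IsPrim F G)
    (hinv : ∀ γ ∈ Γ, F ∣[(2 : ℤ)] (mapGL ℝ γ : GL (Fin 2) ℝ) = F) :
    ∃ χ : Additive Γ →+ ℂ, s48h_IsPeriod Γ F χ := by
  have hE : IsEquivariantPrimitive Γ G := by
    intro γ
    refine ⟨G ((γ : SL(2, ℤ)) • UpperHalfPlane.I) - G UpperHalfPlane.I, fun z => ?_⟩
    have h1 := hG.comp_SL (γ : SL(2, ℤ))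
    rw [hinv _ γ.2] at h1
    exact h1.sub_const hG z UpperHalfPlane.I
  exact ⟨hE.periodHom, G, hG, fun γ z => by
    rw [IsEquivariantPrimitive.periodHom_apply]
    exact hE.sub_eq_period γ z⟩

/-- Periods vanish on the elements of finite order. -/
theorem finOrd (χ : Additive Γ →+ ℂ) (γ : Γ) (hγ : IsOfFinOrder γ) :
    χ (Additive.ofMul γ) = 0 := by
  obtain ⟨n, hn, hγn⟩ := hγ.exists_pow_eq_one
  have h1 : (n : ℂ) * χ (Additive.ofMul γ) = 0 := by
    have h2 : χ (Additive.ofMul (γ ^ n)) = n • χ (Additive.ofMul γ) := by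
      rw [ofMul_pow, map_nsmul]
    rw [hγn, ofMul_one, map_zero, nsmul_eq_mul] at h2
    exact h2.symm
  rcases mul_eq_zero.mp h1 with h | h
  · exact absurd (Nat.cast_eq_zero.mp h) hn.ne'
  · exact h

end s48h_IsPeriod

/-! ### The function-level Hecke operator of a datum -/

namespace s48h_MatDatum

variable {Γ : Subgroup SL(2, ℤ)} {X : Type*} (D : s48h_MatDatum Γ X)

theorem det_map_ne (x : X) : ((D.α x).map (Int.cast : ℤ → ℝ)).det ≠ 0 := by
  have h : ((D.α x).map (Int.cast : ℤ → ℝ)).det = (((D.α x).det : ℤ) : ℝ) := by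
    rw [Matrix.det_fin_two, Matrix.det_fin_two]
    simp only [Matrix.map_apply]
    push_cast
    ring
  rw [h]
  exact_mod_cast D.det_ne x

/-- The representatives as elements of `GL(2, ℝ)`. -/
def toGL (x : X) : GL (Fin 2) ℝ :=
  Matrix.GeneralLinearGroup.mkOfDetNeZero ((D.α x).map (Int.cast : ℤ → ℝ)) (D.det_map_ne x)

theorem coe_toGL (x : X) :
    (D.toGL x : Matrix (Fin 2) (Fin 2) ℝ) = (D.α x).map (Int.cast : ℤ → ℝ) := rfl

/-- `toGL x` is characterised by its matrix. -/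
theorem toGL_eq {x : X} {A : GL (Fin 2) ℝ}
    (hA : (A : Matrix (Fin 2) (Fin 2) ℝ) = (D.α x).map (Int.cast : ℤ → ℝ)) : D.toGL x = A :=
  Units.ext ((D.coe_toGL x).trans hA.symm)

/-- The coset relation in `GL(2, ℝ)`. -/
theorem toGL_mul (γ : Γ) (x : X) :
    D.toGL x * mapGL ℝ (γ : SL(2, ℤ)) = mapGL ℝ (D.fam γ x : SL(2, ℤ)) * D.toGL (D.perm γ x) := by
  apply Units.ext
  rw [coe_mul_eq_map_mul (D.coe_toGL x) (coe_mapGL_eq_map_intCast _),
    coe_mul_eq_map_mul (coe_mapGL_eq_map_intCast _) (D.coe_toGL _), D.fam_spec γ x]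

theorem toGL_smul (γ : Γ) (x : X) (z : ℍ) :
    D.toGL x • ((γ : SL(2, ℤ)) • z) = (D.fam γ x : SL(2, ℤ)) • (D.toGL (D.perm γ x) • z) := by
  change D.toGL x • (mapGL ℝ (γ : SL(2, ℤ)) • z)
    = mapGL ℝ (D.fam γ x : SL(2, ℤ)) • (D.toGL (D.perm γ x) • z)
  rw [← mul_smul, ← mul_smul, D.toGL_mul γ x]

variable [Fintype X]

/-- **The function-level Hecke operator** of the datum `D`: `F ↦ ∑_x F ∣[k] α_x`. -/
def heckeFun (k : ℤ) (F : ℍ → ℂ) : ℍ → ℂ := ∑ x : X, F ∣[k] D.toGL x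

theorem heckeFun_def (k : ℤ) (F : ℍ → ℂ) : D.heckeFun k F = ∑ x : X, F ∣[k] D.toGL x := rfl

/-- `T_D F` is `Γ`-invariant if `F` is. -/
theorem heckeFun_invariant {k : ℤ} {F : ℍ → ℂ}
    (hinv : ∀ γ ∈ Γ, F ∣[k] (mapGL ℝ γ : GL (Fin 2) ℝ) = F) (γ : SL(2, ℤ)) (hγ : γ ∈ Γ) :
    (D.heckeFun k F) ∣[k] (mapGL ℝ γ : GL (Fin 2) ℝ) = D.heckeFun k F := by
  rw [heckeFun_def, SlashAction.sum_slash]
  rw [← Equiv.sum_comp (D.perm ⟨γ, hγ⟩) (fun x => F ∣[k] D.toGL x)]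
  refine Finset.sum_congr rfl fun x _ => ?_
  rw [← SlashAction.slash_mul]
  have h := D.toGL_mul ⟨γ, hγ⟩ x
  rw [h, SlashAction.slash_mul, hinv _ (D.fam ⟨γ, hγ⟩ x).2]

end s48h_MatDatum

/-- **Hecke equivariance of the periods.** -/
theorem s48h_IsPeriod.hecke {Γ : Subgroup SL(2, ℤ)} {X : Type*} [Fintype X]
    (D : s48h_MatDatum Γ X) (hdet : ∀ x, 0 < (D.α x).det) {F : ℍ → ℂ} {χ : Additive Γ →+ ℂ}
    (h : s48h_IsPeriod Γ F χ) : s48h_IsPeriod Γ (D.heckeFun 2 F) (D.heckeHom ℂ χ) := by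
  obtain ⟨G, hG, hχ⟩ := h
  refine ⟨∑ x : X, fun w => G (D.toGL x • w), ?_, fun γ z => ?_⟩
  · exact s48h_IsPrim.sum _ fun x _ => hG.comp_mat (D.coe_toGL x) (hdet x)
  · rw [D.heckeHom_apply, Finset.sum_apply, Finset.sum_apply]
    rw [← Equiv.sum_comp (D.perm γ) (fun x => G (D.toGL x • z)), ← Finset.sum_sub_distrib]
    refine Finset.sum_congr rfl fun x _ => ?_
    rw [D.toGL_smul γ x z]
    exact hχ (D.fam γ x) _

/-! ### Cuspidal functions: primitives with limits at the cusps -/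

/-- `F` is holomorphic, all its `SL(2,ℤ)`-translates are invariant under `T^M` and vanish at `i∞`. -/
structure s48h_Cuspidal (M : ℕ) (F : ℍ → ℂ) : Prop where
  hol : MDiff F
  per : ∀ δ : SL(2, ℤ),
    F ∣[(2 : ℤ)] (mapGL ℝ (δ * ModularGroup.T ^ (M : ℤ)) : GL (Fin 2) ℝ)
      = F ∣[(2 : ℤ)] (mapGL ℝ δ : GL (Fin 2) ℝ)
  zero : ∀ δ : SL(2, ℤ), IsZeroAtImInfty (F ∣[(2 : ℤ)] (mapGL ℝ δ : GL (Fin 2) ℝ))

/-- A function invariant under `T^M` is `M`-periodic. -/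
theorem s48h_periodic_of_slash_T {g : ℍ → ℂ} {k : ℤ} {M : ℕ}
    (h : g ∣[k] (mapGL ℝ (ModularGroup.T ^ (M : ℤ)) : GL (Fin 2) ℝ) = g) :
    Periodic (g ∘ ofComplex) (M : ℝ) := by
  have hvadd : ∀ z : ℍ, g ((((M : ℤ) : ℝ)) +ᵥ z) = g z := by
    intro z
    have h1 := pmP_slash_T_pow_apply g k (M : ℤ) z
    have h2 : (g ∣[k] (ModularGroup.T ^ (M : ℤ))) z = g z := by
      have := congrFun h z
      exact this
    rw [← h1, h2]
  intro w
  by_cases hw : 0 < w.im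
  · have hw' : 0 < (w + (M : ℝ)).im := by simpa using hw
    simp only [comp_apply, ofComplex_apply_of_im_pos hw', ofComplex_apply_of_im_pos hw]
    have := hvadd ⟨w, hw⟩
    convert this using 2
    ext
    simp [add_comm]
  · have hw0 : w.im ≤ 0 := not_lt.mp hw
    have hw' : (w + (M : ℝ)).im ≤ 0 := by simpa using hw0
    simp only [comp_apply, ofComplex_apply_of_im_nonpos hw', ofComplex_apply_of_im_nonpos hw0]

/-- Limits at all cusps. -/
def s48h_CuspLimits (G : ℍ → ℂ) : Prop :=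
  ∀ δ : SL(2, ℤ), ∃ L : ℂ, Tendsto (fun w : ℍ => G (δ • w)) atImInfty (𝓝 L)

theorem s48h_CuspLimits.of_sub_const {G G' : ℍ → ℂ} (h : s48h_CuspLimits G) {c : ℂ}
    (hc : ∀ z, G' z = G z + c) : s48h_CuspLimits G' := by
  intro δ
  obtain ⟨L, hL⟩ := h δ
  refine ⟨L + c, ?_⟩
  have : (fun w : ℍ => G' (δ • w)) = fun w => G (δ • w) + c := funext fun w => hc _
  rw [this]
  exact hL.add_const c

/-- A cuspidal function has a primitive with limits at all cusps. -/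
theorem s48h_exists_prim {M : ℕ} [NeZero M] {F : ℍ → ℂ} (hF : s48h_Cuspidal M F) :
    ∃ G : ℍ → ℂ, s48h_IsPrim F G ∧ s48h_CuspLimits G := by
  have hM : (0 : ℝ) < (M : ℝ) := by exact_mod_cast Nat.pos_of_ne_zero (NeZero.ne M)
  have hper : ∀ δ : SL(2, ℤ),
      Periodic ((F ∣[(2 : ℤ)] (mapGL ℝ δ : GL (Fin 2) ℝ)) ∘ ofComplex) (M : ℝ) := by
    intro δ
    apply s48h_periodic_of_slash_T (k := 2)
    rw [← SlashAction.slash_mul, ← map_mul]
    exact hF.per δ
  have hex : ∀ δ : SL(2, ℤ), ∃ G : ℍ → ℂ,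
      s48h_IsPrim (F ∣[(2 : ℤ)] (mapGL ℝ δ : GL (Fin 2) ℝ)) G ∧ Tendsto G atImInfty (𝓝 0) :=
    fun δ => pmP_exists_primitive hM (hF.hol.slash 2 _) (hper δ) (hF.zero δ)
  obtain ⟨G, hG, -⟩ := hex 1
  rw [map_one, SlashAction.slash_one] at hG
  refine ⟨G, hG, fun δ => ?_⟩
  obtain ⟨Gδ, hGδ, hGδ0⟩ := hex δ
  have h1 := hG.comp_SL δ
  refine ⟨G (δ • UpperHalfPlane.I) - Gδ UpperHalfPlane.I, ?_⟩
  have h2 : (fun w : ℍ => G (δ • w)) =
      fun w => Gδ w + (G (δ • UpperHalfPlane.I) - Gδ UpperHalfPlane.I) := by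
    funext w
    have := h1.sub_const hGδ w UpperHalfPlane.I
    linear_combination this
  rw [h2]
  simpa using hGδ0.add_const (G (δ • UpperHalfPlane.I) - Gδ UpperHalfPlane.I)

/-! ### Parabolicity and injectivity -/

namespace s48h_IsPeriod

variable {Γ : Subgroup SL(2, ℤ)} {F : ℍ → ℂ} {χ : Additive Γ →+ ℂ}

/-- The period homomorphism of a cuspidal function is parabolic. -/
theorem isParabolic {M : ℕ} [NeZero M] (h : s48h_IsPeriod Γ F χ) (hF : s48h_Cuspidal M F) :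
    IsParabolicHom Γ χ := by
  obtain ⟨G, hG, hlim⟩ := s48h_exists_prim hF
  intro γ hγ
  obtain ⟨δ, m, hconj⟩ := pmP_exists_conj_of_trace_sq (γ : SL(2, ℤ)) hγ
  obtain ⟨L, hL⟩ := hlim δ
  have hc : ∀ w : ℍ, G (δ • ((m : ℝ) +ᵥ w)) - G (δ • w) = χ (Additive.ofMul γ) := by
    intro w
    rw [← h.apply_of_prim hG γ (δ • w), pmP_smul_conj_smul hconj w]
  have h1 : Tendsto (fun w : ℍ => G (δ • ((m : ℝ) +ᵥ w)) - G (δ • w)) atImInfty (𝓝 (L - L)) :=
    (hL.comp (pmP_tendsto_vadd (m : ℝ))).sub hL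
  rw [sub_self] at h1
  have h2 : (fun w : ℍ => G (δ • ((m : ℝ) +ᵥ w)) - G (δ • w))
      = fun _ => χ (Additive.ofMul γ) := funext hc
  rw [h2] at h1
  exact tendsto_nhds_unique tendsto_const_nhds h1

theorem mem_Hpar {M : ℕ} [NeZero M] (h : s48h_IsPeriod Γ F χ) (hF : s48h_Cuspidal M F) :
    χ ∈ s48h_Hpar ℂ Γ ℂ :=
  ⟨h.isParabolic hF, fun γ hγ => s48h_IsPeriod.finOrd χ γ hγ⟩

/-- **Injectivity of the period map**: a cuspidal function with vanishing periods on a subgroup of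
finite index is zero. -/
theorem eq_zero [Γ.FiniteIndex] {M : ℕ} [NeZero M] (h : s48h_IsPeriod Γ F 0)
    (hF : s48h_Cuspidal M F) : F = 0 := by
  have hM : (0 : ℝ) < (M : ℝ) := by exact_mod_cast Nat.pos_of_ne_zero (NeZero.ne M)
  obtain ⟨G, hG, hlim⟩ := s48h_exists_prim hF
  -- the translates of `G` are `M`-periodic
  have hGper : ∀ (δ : SL(2, ℤ)) (w : ℍ), G (δ • (((M : ℤ) : ℝ) +ᵥ w)) = G (δ • w) := by
    intro δ w
    obtain ⟨L, hL⟩ := hlim δ
    have h1 := hG.comp_SL (δ * ModularGroup.T ^ (M : ℤ))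
    rw [hF.per δ] at h1
    have h2 := hG.comp_SL δ
    -- the difference is constant
    have hc : ∀ w' : ℍ, G (δ • (((M : ℤ) : ℝ) +ᵥ w')) - G (δ • w')
        = G (δ • (((M : ℤ) : ℝ) +ᵥ w)) - G (δ • w) := by
      intro w'
      have := h1.sub_const h2 w' w
      simp only [mul_smul, UpperHalfPlane.modular_T_zpow_smul] at this
      exact this
    have h3 : Tendsto (fun w' : ℍ => G (δ • (((M : ℤ) : ℝ) +ᵥ w')) - G (δ • w')) atImInfty
        (𝓝 (L - L)) := (hL.comp (pmP_tendsto_vadd (((M : ℤ) : ℝ)))).sub hL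
    rw [sub_self] at h3
    have h4 : (fun w' : ℍ => G (δ • (((M : ℤ) : ℝ) +ᵥ w')) - G (δ • w'))
        = fun _ => G (δ • (((M : ℤ) : ℝ) +ᵥ w)) - G (δ • w) := funext hc
    rw [h4] at h3
    exact sub_eq_zero.mp (tendsto_nhds_unique tendsto_const_nhds h3)
  have hper : ∀ δ : SL(2, ℤ), Periodic ((fun z : ℍ => G (δ • z)) ∘ ofComplex) (M : ℝ) := by
    intro δ w
    by_cases hw : 0 < w.im
    · have hw' : 0 < (w + (M : ℝ)).im := by simpa using hw
      simp only [comp_apply, ofComplex_apply_of_im_pos hw', ofComplex_apply_of_im_pos hw]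
      have := hGper δ ⟨w, hw⟩
      convert this using 3
      ext
      simp [add_comm]
    · have hw0 : w.im ≤ 0 := not_lt.mp hw
      have hw' : (w + (M : ℝ)).im ≤ 0 := by simpa using hw0
      simp only [comp_apply, ofComplex_apply_of_im_nonpos hw', ofComplex_apply_of_im_nonpos hw0]
  have hbdd : ∀ δ : SL(2, ℤ), IsBoundedAtImInfty (fun z : ℍ => G (δ • z)) := by
    intro δ
    obtain ⟨L, hL⟩ := hlim δ
    exact hL.isBigO_one ℝ
  have hinv : ∀ γ ∈ Γ, ∀ z : ℍ, ‖G (γ • z)‖ = ‖G z‖ := by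
    intro γ hγ z
    have := h.apply_of_prim hG ⟨γ, hγ⟩ z
    rw [AddMonoidHom.zero_apply, sub_eq_zero] at this
    rw [this]
  obtain ⟨c, hc⟩ := pmI_const_of_norm_invariant (Γ := Γ) hM G hG.mdiff hinv hper hbdd
  exact hG.eq_zero_of_const hc

end s48h_IsPeriod

end Fermat.Agent.Lib.S48
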