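/-
S48 / DS-1, wall [T6] (helper3): the SPACE `S₂(M, ψ)` at function level.

* `s48h_S2 M ψ : Submodule ℂ (ℍ → ℂ)` : weight two cusp forms of level `M` and nebentypus `ψ`;
* finite-dimensionality (Sturm bound for `Γ₁(M)` from the prelude);
* the Hecke operators `T_p`, `p ∤ M`, as commuting `ℂ`-linear endomorphisms (`s48h_TpV`), with the
  `q`-expansion formula.
-/
import Mathlib
import Fermat.Agent.Lib.S48.HNebT
import Fermat.Agent.Lib.S48.HProd
import Fermat.Prelude.Thm_ModularForm_sturm_bound_of_isArithmetic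

set_option autoImplicit false
set_option linter.unusedSectionVars false

noncomputable section

namespace Fermat.Agent.Lib.S48

open Matrix.SpecialLinearGroup ModularForm CongruenceSubgroup UpperHalfPlane ModularFormClass
open scoped MatrixGroups ModularForm Manifold

/-! ### The space -/

/-- Weight two cusp forms of level `M` and nebentypus `ψ`, as a space of functions. -/
def s48h_S2 (M : ℕ) (ψ : DirichletCharacter ℂ M) : Submodule ℂ (ℍ → ℂ) where
  carrier := {F | s48h_Neben M 2 ψ F ∧ s48h_ZeroCusps 2 F}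
  zero_mem' := ⟨s48h_Neben.zero, s48h_ZeroCusps.zero⟩
  add_mem' := fun hF hG => ⟨hF.1.add hG.1, hF.2.add hG.2⟩
  smul_mem' := fun c _ hF => ⟨hF.1.smul c, hF.2.smul c⟩

variable {M : ℕ} {ψ : DirichletCharacter ℂ M}

theorem s48h_mem_S2 {F : ℍ → ℂ} :
    F ∈ s48h_S2 M ψ ↔ s48h_Neben M 2 ψ F ∧ s48h_ZeroCusps 2 F := Iff.rfl

theorem s48h_S2.qnice (F : s48h_S2 M ψ) : s48h_QNice (F : ℍ → ℂ) := F.2.1.good.qnice

/-! ### The Sturm bound and finite-dimensionality -/

/-- The Sturm bound for weight `k` and `Γ₁(M)`. -/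
def s48h_sturmB (M : ℕ) (k : ℤ) : ℕ :=
  (k * (Subgroup.map (mapGL ℝ) (Gamma1 M)).relIndex 𝒮ℒ).toNat / 12

theorem s48h_sturm [NeZero M] {k : ℤ} {F : ℍ → ℂ} (hF : s48h_Good M k F)
    (h0 : s48h_ZeroCusps k F) (h : ∀ n ≤ s48h_sturmB M k, qCoeff F n = 0) : F = 0 := by
  set f : CuspForm (Gamma1 M) k := s48h_toCuspForm hF h0 with hf
  have h1 : (1 : ℝ) ∈ (Gamma1 M : Subgroup (GL (Fin 2) ℝ)).strictPeriods := by
    rw [strictPeriods_Gamma1]
    exact AddSubgroup.mem_zmultiples 1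
  have hmf : (ModularFormClass.modularForm f : ModularForm (Gamma1 M) k) = 0 := by
    refine ModularForm.sturm_bound_of_isArithmetic h1 ?_
    have hle : ((s48h_sturmB M k + 1 : ℕ) : ℕ∞) ≤ (qExpansion 1 (ModularFormClass.modularForm f :
        ModularForm (Gamma1 M) k)).order := by
      refine PowerSeries.nat_le_order _ _ fun i hi => ?_
      exact h i (Nat.lt_succ_iff.mp hi)
    refine lt_of_lt_of_le ?_ hle
    show ((s48h_sturmB M k : ℕ) : ℕ∞) < ((s48h_sturmB M k + 1 : ℕ) : ℕ∞)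
    exact_mod_cast Nat.lt_succ_self _
  funext z
  have hcoe := congrArg (fun G : ModularForm (Gamma1 M) k => (⇑G : ℍ → ℂ) z) hmf
  exact hcoe

/-- The truncated `q`-expansion on `S₂(M, ψ)`. -/
def s48h_truncLin (M : ℕ) (ψ : DirichletCharacter ℂ M) (B : ℕ) :
    s48h_S2 M ψ →ₗ[ℂ] (Fin (B + 1) → ℂ) where
  toFun F n := qCoeff (F : ℍ → ℂ) n
  map_add' F G := by
    funext n
    exact s48h_qCoeff_add (s48h_S2.qnice F) (s48h_S2.qnice G) n
  map_smul' c F := by
    funext n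
    exact s48h_qCoeff_smul (s48h_S2.qnice F) c n

theorem s48h_truncLin_injective [NeZero M] :
    Function.Injective (s48h_truncLin M ψ (s48h_sturmB M 2)) := by
  refine (injective_iff_map_eq_zero _).mpr fun F hF => ?_
  apply Subtype.ext
  refine s48h_sturm F.2.1.good F.2.2 fun n hn => ?_
  exact congrFun hF ⟨n, Nat.lt_succ_of_le hn⟩

instance s48h_finiteDimensional_S2 [NeZero M] : FiniteDimensional ℂ (s48h_S2 M ψ) :=
  FiniteDimensional.of_injective _ (s48h_truncLin_injective (M := M) (ψ := ψ))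

/-- The `q`-expansion principle on `S₂(M, ψ)`. -/
theorem s48h_S2.ext_qCoeff {F G : s48h_S2 M ψ}
    (h : ∀ n, qCoeff (F : ℍ → ℂ) n = qCoeff (G : ℍ → ℂ) n) : F = G :=
  Subtype.ext ((s48h_S2.qnice F).ext (s48h_S2.qnice G) h)

/-! ### The Hecke operators -/

theorem s48h_heckeTψ_add (k : ℤ) (p : ℕ) (c : ℂ) (F G : ℍ → ℂ) :
    s48h_heckeTψ k p c (F + G) = s48h_heckeTψ k p c F + s48h_heckeTψ k p c G := by
  rw [s48h_heckeTψ_def, s48h_heckeTψ_def, s48h_heckeTψ_def, heckeU_add, SlashAction.add_slash,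
    smul_add]
  abel

theorem s48h_heckeTψ_smul (k : ℤ) (p : ℕ) (c a : ℂ) (F : ℍ → ℂ) :
    s48h_heckeTψ k p c (a • F) = a • s48h_heckeTψ k p c F := by
  rw [s48h_heckeTψ_def, s48h_heckeTψ_def, heckeU_smul, ModularForm.smul_slash,
    σ_heckeDiagMatrix, ContinuousAlgEquiv.refl_apply, smul_add, smul_comm]

/-- `T_p` on `S₂(M, ψ)`, `p ∤ M` prime. -/
def s48h_TpV (M : ℕ) (ψ : DirichletCharacter ℂ M) (p : ℕ) [Fact p.Prime] (hpM : ¬ p ∣ M) :
    Module.End ℂ (s48h_S2 M ψ) where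
  toFun F := ⟨s48h_heckeTψ 2 p (ψ (p : ZMod M)) F, F.2.1.heckeT hpM, F.2.2.heckeTψ _⟩
  map_add' F G := Subtype.ext (s48h_heckeTψ_add 2 p _ F G)
  map_smul' a F := Subtype.ext (s48h_heckeTψ_smul 2 p _ a F)

@[simp] theorem s48h_TpV_coe (p : ℕ) [Fact p.Prime] (hpM : ¬ p ∣ M) (F : s48h_S2 M ψ) :
    ((s48h_TpV M ψ p hpM F : s48h_S2 M ψ) : ℍ → ℂ) = s48h_heckeTψ 2 p (ψ (p : ZMod M)) F := rfl

theorem s48h_qCoeff_TpV (p : ℕ) [Fact p.Prime] (hpM : ¬ p ∣ M) (F : s48h_S2 M ψ) (n : ℕ) :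
    qCoeff ((s48h_TpV M ψ p hpM F : s48h_S2 M ψ) : ℍ → ℂ) n
      = qCoeff (F : ℍ → ℂ) (n * p)
        + ψ (p : ZMod M) * (if p ∣ n then (p : ℂ) * qCoeff (F : ℍ → ℂ) (n / p) else 0) := by
  rw [s48h_TpV_coe, s48h_qCoeff_heckeTψ (s48h_S2.qnice F) 2 (Fact.out : p.Prime).ne_zero]
  norm_num

/-! ### The `T_p` commute -/

theorem s48h_Tp_comm_arith (a : ℕ → ℂ) (cp cq : ℂ) {p q : ℕ} (hp : p.Prime) (hq : q.Prime)
    (hpq : p ≠ q) (n : ℕ) :
    (a (n * p * q) + cq * (if q ∣ n * p then (q : ℂ) * a (n * p / q) else 0))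
      + cp * (if p ∣ n then (p : ℂ) * (a (n / p * q)
          + cq * (if q ∣ n / p then (q : ℂ) * a (n / p / q) else 0)) else 0)
    = (a (n * q * p) + cp * (if p ∣ n * q then (p : ℂ) * a (n * q / p) else 0))
      + cq * (if q ∣ n then (q : ℂ) * (a (n / q * p)
          + cp * (if p ∣ n / q then (p : ℂ) * a (n / q / p) else 0)) else 0) := by
  have hcop : Nat.Coprime p q := (Nat.coprime_primes hp hq).mpr hpq
  have h1 : q ∣ n * p ↔ q ∣ n := Nat.Coprime.dvd_mul_right hcop.symm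
  have h2 : p ∣ n * q ↔ p ∣ n := Nat.Coprime.dvd_mul_right hcop
  have e0 : n * p * q = n * q * p := by ring
  by_cases hpn : p ∣ n <;> by_cases hqn : q ∣ n
  · obtain ⟨m, rfl⟩ := hpn
    have hqm : q ∣ m := (Nat.Coprime.dvd_mul_left hcop.symm).mp hqn
    obtain ⟨r, rfl⟩ := hqm
    have d1 : p * (q * r) * p / q = p * r * p := by
      rw [show p * (q * r) * p = q * (p * r * p) by ring]
      exact Nat.mul_div_cancel_left _ hq.pos
    have d2 : p * (q * r) / p = q * r := Nat.mul_div_cancel_left _ hp.pos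
    have d3 : q * r / q = r := Nat.mul_div_cancel_left _ hq.pos
    have d4 : p * (q * r) * q / p = q * r * q := by
      rw [show p * (q * r) * q = p * (q * r * q) by ring]
      exact Nat.mul_div_cancel_left _ hp.pos
    have d5 : p * (q * r) / q = p * r := by
      rw [show p * (q * r) = q * (p * r) by ring]
      exact Nat.mul_div_cancel_left _ hq.pos
    have d6 : p * r / p = r := Nat.mul_div_cancel_left _ hp.pos
    rw [if_pos (h1.mpr hqn), if_pos (Dvd.intro _ rfl), if_pos (h2.mpr (Dvd.intro _ rfl)),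
      if_pos hqn, d1, d2, d3, d4, d5, d6, if_pos (Dvd.intro _ rfl), if_pos (Dvd.intro _ rfl), e0]
    ring_nf
  · obtain ⟨m, rfl⟩ := hpn
    have hqm : ¬ q ∣ m := fun h => hqn (Dvd.dvd.mul_left h p)
    have d2 : p * m / p = m := Nat.mul_div_cancel_left _ hp.pos
    have d4 : p * m * q / p = m * q := by
      rw [show p * m * q = p * (m * q) by ring]
      exact Nat.mul_div_cancel_left _ hp.pos
    rw [if_neg (fun h => hqn (h1.mp h)), if_pos (Dvd.intro _ rfl), if_pos (h2.mpr (Dvd.intro _ rfl)),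
      if_neg hqn, d2, d4, if_neg hqm, e0]
    ring
  · obtain ⟨m, rfl⟩ := hqn
    have hpm : ¬ p ∣ m := fun h => hpn (Dvd.dvd.mul_left h q)
    have d2 : q * m / q = m := Nat.mul_div_cancel_left _ hq.pos
    have d4 : q * m * p / q = m * p := by
      rw [show q * m * p = q * (m * p) by ring]
      exact Nat.mul_div_cancel_left _ hq.pos
    rw [if_pos (h1.mpr (Dvd.intro _ rfl)), if_neg hpn, if_neg (fun h => hpn (h2.mp h)),
      if_pos (Dvd.intro _ rfl), d2, d4, if_neg hpm, e0]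
    ring
  · rw [if_neg (fun h => hqn (h1.mp h)), if_neg hpn, if_neg (fun h => hpn (h2.mp h)), if_neg hqn,
      e0]
    ring

theorem s48h_TpV_comm (p q : ℕ) [Fact p.Prime] [Fact q.Prime] (hpM : ¬ p ∣ M) (hqM : ¬ q ∣ M) :
    s48h_TpV M ψ p hpM * s48h_TpV M ψ q hqM = s48h_TpV M ψ q hqM * s48h_TpV M ψ p hpM := by
  by_cases hpq : p = q
  · subst hpq
    rfl
  · refine LinearMap.ext fun F => s48h_S2.ext_qCoeff fun n => ?_
    rw [Module.End.mul_apply, Module.End.mul_apply]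
    simp only [s48h_qCoeff_TpV]
    exact s48h_Tp_comm_arith (fun n => qCoeff (F : ℍ → ℂ) n) (ψ (p : ZMod M)) (ψ (q : ZMod M))
      (Fact.out : p.Prime) (Fact.out : q.Prime) hpq n

end Fermat.Agent.Lib.S48
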