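/-
S48 / DS-1, wall [T6] (helper3): THE MAIN THEOREM of [T6], `s48h_DSCoreH`.

`M` a level, `ψ` a Dirichlet character mod `M`, `H ≤ ker ψ`, `Γ_H = s48h_GammaH M H`.
INPUT: a "mod `φ` eigenform" `g ∈ S₂(M, ψ)` (function level: `s48h_Neben M 2 ψ g`,
`s48h_ZeroCusps 2 g`) with `q`-coefficients `c n ∈ ℤ̄`, not all in `ker φ`, and
`T_p g ≡ a_p g mod ker φ` coefficientwise for all primes `p ∤ M` (`φ : ℤ̄ →+* k`, `char k = ℓ`).
OUTPUT: a nonzero `v ∈ k ⊗ Hom_par(Γ_H, 𝔽_ℓ)` with `T_p^H v = φ(a_p) v` (`p ∤ M`) and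
`⟨σ⟩^H v = φ(ψ(σ₁₁)) v` (`σ ∈ Γ₀(M)`).

Proof: Deligne–Serre lifting (`HLift`) in the finite-dimensional space `S₂(M, ψ)` (`HV`) with the
`ℤ̄`-submodule of forms with coefficients in `ker φ` gives a characteristic zero eigenform `F` with
eigenvalues `≡ a_p` — the hypothesis "eigenvalues are algebraic integers" comes from the period
map (`HPer`: injective, Hecke equivariant) and the lattice `Hom_par(Γ_H, ℤ)` (`HLat`); the period
of `F` is then reduced mod `ker φ` (`HLat`).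
-/
import Mathlib
import Fermat.Agent.Lib.S48.HV
import Fermat.Agent.Lib.S48.HHomH
import Fermat.Agent.Lib.S48.HPer
import Fermat.Agent.Lib.S48.HLat
import Fermat.Agent.Lib.S48.HLift

set_option autoImplicit false
set_option linter.unusedSectionVars false

noncomputable section

namespace Fermat.Agent.Lib.S48

open Matrix.SpecialLinearGroup ModularForm CongruenceSubgroup UpperHalfPlane ModularFormClass
  ModularCurve.Period
open Fermat.Agent.Lib.ES Fermat.Agent.Lib.S29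
open P2MW.S_ModularForm_heckeT_slash_eq_self_of_mem_Gamma0.ModularForm.HeckeSlashInvariance
open scoped MatrixGroups ModularForm Manifold OnePoint TensorProduct

local notation "Mat2" => Matrix (Fin 2) (Fin 2) ℤ
local notation "Zbar" => integralClosure ℤ ℂ

variable {M : ℕ} {ψ : DirichletCharacter ℂ M}

/-! ### `S₂(M, ψ)` consists of cuspidal, `Γ_H`-invariant functions -/

theorem s48h_conj_T_pow_mem_Gamma1 (M : ℕ) (δ : SL(2, ℤ)) :
    δ * ModularGroup.T ^ (M : ℤ) * δ⁻¹ ∈ Gamma1 M := by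
  have h1 : ModularGroup.T ^ (M : ℤ) ∈ CongruenceSubgroup.Gamma M := by
    simpa using ModularGroup_T_pow_mem_Gamma (M : ℤ) (M : ℤ) dvd_rfl
  have h2 : δ * ModularGroup.T ^ (M : ℤ) * δ⁻¹ ∈ CongruenceSubgroup.Gamma M :=
    (Gamma_normal M).conj_mem _ h1 δ
  rw [Gamma_mem] at h2
  rw [Gamma1_mem]
  exact ⟨h2.1, h2.2.2.2, h2.2.2.1⟩

theorem s48h_cuspidal_of_good {F : ℍ → ℂ} (hF : s48h_Good M 2 F) (h0 : s48h_ZeroCusps 2 F) :
    s48h_Cuspidal M F where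
  hol := hF.hol
  per := fun δ => by
    have h2 : δ * ModularGroup.T ^ (M : ℤ) = (δ * ModularGroup.T ^ (M : ℤ) * δ⁻¹) * δ := by group
    rw [h2, map_mul, SlashAction.slash_mul, hF.inv _ (s48h_conj_T_pow_mem_Gamma1 M δ)]
  zero := s48h_zeroCusps_iff.mp h0

theorem s48h_Neben.inv_GammaH {F : ℍ → ℂ} (hF : s48h_Neben M 2 ψ F) {H : Subgroup (ZMod M)ˣ}
    (hH : ∀ u ∈ H, ψ (u : ZMod M) = 1) :
    ∀ γ ∈ s48h_GammaH M H, F ∣[(2 : ℤ)] (mapGL ℝ γ : GL (Fin 2) ℝ) = F := by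
  rintro γ ⟨hγ0, u, hu, hγu⟩
  rw [hF.neben γ hγ0, hγu, hH u hu, one_smul]

instance s48h_finiteIndex_GammaH [NeZero M] (H : Subgroup (ZMod M)ˣ) :
    (s48h_GammaH M H).FiniteIndex :=
  Subgroup.finiteIndex_of_le (s48h_Gamma1_le_GammaH (N := M) (H := H))

instance s48h_groupFG_GammaH [NeZero M] (H : Subgroup (ZMod M)ˣ) : Group.FG (s48h_GammaH M H) :=
  Subgroup.fg_of_index_ne_zero (s48h_GammaH M H)

/-! ### The period map on `S₂(M, ψ)` -/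

section Period

variable [NeZero M] (H : Subgroup (ZMod M)ˣ) (hH : ∀ u ∈ H, ψ (u : ZMod M) = 1)

theorem s48h_S2.cuspidal (F : s48h_S2 M ψ) : s48h_Cuspidal M (F : ℍ → ℂ) :=
  s48h_cuspidal_of_good F.2.1.good F.2.2

include hH in
theorem s48h_exists_period (F : s48h_S2 M ψ) :
    ∃ χ : Additive (s48h_GammaH M H) →+ ℂ, s48h_IsPeriod (s48h_GammaH M H) (F : ℍ → ℂ) χ := by
  obtain ⟨G, hG, -⟩ := s48h_exists_prim (s48h_S2.cuspidal F)
  exact s48h_IsPeriod.exists_of_invariant hG (F.2.1.inv_GammaH hH)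

/-- **The period map** `S₂(M, ψ) → Hom(Γ_H, ℂ)`. -/
def s48h_periodV : s48h_S2 M ψ →ₗ[ℂ] (Additive (s48h_GammaH M H) →+ ℂ) where
  toFun F := (s48h_exists_period H hH F).choose
  map_add' F G :=
    (s48h_exists_period H hH (F + G)).choose_spec.unique
      ((s48h_exists_period H hH F).choose_spec.add (s48h_exists_period H hH G).choose_spec)
  map_smul' c F :=
    (s48h_exists_period H hH (c • F)).choose_spec.unique
      ((s48h_exists_period H hH F).choose_spec.smul c)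

theorem s48h_periodV_spec (F : s48h_S2 M ψ) :
    s48h_IsPeriod (s48h_GammaH M H) (F : ℍ → ℂ) (s48h_periodV H hH F) :=
  (s48h_exists_period H hH F).choose_spec

theorem s48h_periodV_mem_Hpar (F : s48h_S2 M ψ) :
    s48h_periodV H hH F ∈ s48h_Hpar ℂ (s48h_GammaH M H) ℂ :=
  (s48h_periodV_spec H hH F).mem_Hpar (s48h_S2.cuspidal F)

theorem s48h_periodV_injective : Function.Injective (s48h_periodV (ψ := ψ) H hH) := by
  refine (injective_iff_map_eq_zero _).mpr fun F hF => ?_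
  have h := s48h_periodV_spec H hH F
  rw [hF] at h
  exact Subtype.ext (h.eq_zero (s48h_S2.cuspidal F))

end Period

/-! ### The function-level operators of the data `T_p`, `⟨σ⟩` on forms with nebentypus -/

section Operators

variable (H : Subgroup (ZMod M)ˣ)

theorem s48h_TpDatum_det_pos {p : ℕ} [Fact p.Prime] (hpM : ¬ p ∣ M) (σp : SL(2, ℤ))
    (hσp : σp ∈ Gamma0 M) (hσp11 : ((σp 1 1 : ℤ) : ZMod M) = (p : ZMod M))
    (x : OnePoint (ZMod p)) : 0 < ((s48h_TpDatum H hpM σp hσp hσp11).α x).det := by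
  show 0 < ((s48h_tw p σp x : Mat2) * heckeRepZ p x).det
  rw [Matrix.det_mul, Matrix.SpecialLinearGroup.det_coe, one_mul, det_heckeRepZ]
  exact_mod_cast (Fact.out : p.Prime).pos

theorem s48h_TpDatum_heckeFun {p : ℕ} [Fact p.Prime] (hpM : ¬ p ∣ M) (σp : SL(2, ℤ))
    (hσp : σp ∈ Gamma0 M) (hσp11 : ((σp 1 1 : ℤ) : ZMod M) = (p : ZMod M)) {F : ℍ → ℂ}
    (hF : s48h_Neben M 2 ψ F) :
    (s48h_TpDatum H hpM σp hσp hσp11).heckeFun 2 F = s48h_heckeTψ 2 p (ψ (p : ZMod M)) F := by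
  have hp : p ≠ 0 := (Fact.out : p.Prime).ne_zero
  rw [s48h_heckeTψ_eq_sum, s48h_MatDatum.heckeFun_def]
  refine Finset.sum_congr rfl fun x _ => ?_
  have hgl : (s48h_TpDatum H hpM σp hσp hσp11).toGL x
      = (mapGL ℝ (s48h_tw p σp x) : GL (Fin 2) ℝ) * heckeRep p x := by
    apply s48h_MatDatum.toGL_eq
    rw [coe_mul_eq_map_mul (coe_mapGL_eq_map_intCast _) (coe_heckeRep_eq_map hp x)]
    rfl
  rw [hgl, SlashAction.slash_mul, hF.neben _ (s48h_tw_mem hσp x), s48h_tw_lowerRight hσp11,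
    s48h_smul_slash_heckeRep]

theorem s48h_diamondDatum_heckeFun (σ : SL(2, ℤ)) (hσ : σ ∈ Gamma0 M) {F : ℍ → ℂ}
    (hF : s48h_Neben M 2 ψ F) :
    (s48h_diamondDatum H σ hσ).heckeFun 2 F = ψ ((σ 1 1 : ℤ) : ZMod M) • F := by
  rw [s48h_MatDatum.heckeFun_def, Fintype.sum_unique]
  have hgl : (s48h_diamondDatum H σ hσ).toGL default = (mapGL ℝ σ : GL (Fin 2) ℝ) := by
    apply s48h_MatDatum.toGL_eq
    exact coe_mapGL_eq_map_intCast σ
  rw [hgl, hF.neben σ hσ]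

theorem s48h_exists_sigma_p {p : ℕ} [Fact p.Prime] (hpM : ¬ p ∣ M) :
    ∃ σp : SL(2, ℤ), σp ∈ Gamma0 M ∧ ((σp 1 1 : ℤ) : ZMod M) = (p : ZMod M) := by
  have hcop : Nat.Coprime p M := (Nat.Prime.coprime_iff_not_dvd Fact.out).mpr hpM
  obtain ⟨σ, h1, -, h3⟩ := s48h_exists_sigma M p hcop (ZMod.unitOfCoprime p hcop)
  refine ⟨σ, ?_, ?_⟩
  · rw [Gamma0_mem, ZMod.intCast_zmod_eq_zero_iff_dvd]
    exact dvd_trans (Dvd.intro _ rfl) h1
  · rw [h3, ZMod.coe_unitOfCoprime]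

end Operators

/-! ### Equivariance of the period map -/

section Equivariance

variable [NeZero M] (H : Subgroup (ZMod M)ˣ) (hH : ∀ u ∈ H, ψ (u : ZMod M) = 1)

theorem s48h_periodV_Tp {p : ℕ} [Fact p.Prime] (hpM : ¬ p ∣ M) (σp : SL(2, ℤ))
    (hσp : σp ∈ Gamma0 M) (hσp11 : ((σp 1 1 : ℤ) : ZMod M) = (p : ZMod M)) (F : s48h_S2 M ψ) :
    (s48h_TpDatum H hpM σp hσp hσp11).heckeHom ℂ (s48h_periodV H hH F)
      = s48h_periodV H hH (s48h_TpV M ψ p hpM F) := by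
  have h1 := (s48h_periodV_spec H hH F).hecke (s48h_TpDatum H hpM σp hσp hσp11)
    (s48h_TpDatum_det_pos H hpM σp hσp hσp11)
  rw [s48h_TpDatum_heckeFun H hpM σp hσp hσp11 F.2.1] at h1
  exact h1.unique (s48h_periodV_spec H hH (s48h_TpV M ψ p hpM F))

theorem s48h_periodV_diamond (σ : SL(2, ℤ)) (hσ : σ ∈ Gamma0 M) (F : s48h_S2 M ψ) :
    (s48h_diamondDatum H σ hσ).heckeHom ℂ (s48h_periodV H hH F)
      = ψ ((σ 1 1 : ℤ) : ZMod M) • s48h_periodV H hH F := by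
  have h1 := (s48h_periodV_spec H hH F).hecke (s48h_diamondDatum H σ hσ) (fun _ => by
    show 0 < ((σ : Mat2)).det
    rw [Matrix.SpecialLinearGroup.det_coe]
    exact one_pos)
  rw [s48h_diamondDatum_heckeFun H σ hσ F.2.1] at h1
  exact h1.unique ((s48h_periodV_spec H hH F).smul _)

end Equivariance

/-! ### The submodule of forms with coefficients in an ideal of `ℤ̄` -/

/-- Forms in `S₂(M, ψ)` all of whose `q`-coefficients lie in (the image of) the ideal `𝔪 ⊆ ℤ̄`. -/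
def s48h_Lm (M : ℕ) (ψ : DirichletCharacter ℂ M) (𝔪 : Ideal Zbar) :
    Submodule Zbar (s48h_S2 M ψ) where
  carrier := {F | ∀ n, ∃ z ∈ 𝔪, (z : ℂ) = qCoeff (F : ℍ → ℂ) n}
  zero_mem' := fun n => ⟨0, 𝔪.zero_mem, by
    show ((0 : Zbar) : ℂ) = qCoeff ((0 : s48h_S2 M ψ) : ℍ → ℂ) n
    rw [Submodule.coe_zero, s48h_qCoeff_zero]
    rfl⟩
  add_mem' := by
    intro F G hF hG n
    obtain ⟨z, hz, hzF⟩ := hF n
    obtain ⟨w, hw, hwG⟩ := hG n
    refine ⟨z + w, 𝔪.add_mem hz hw, ?_⟩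
    rw [Submodule.coe_add, s48h_qCoeff_add (s48h_S2.qnice F) (s48h_S2.qnice G), ← hzF, ← hwG]
    rfl
  smul_mem' := by
    intro z F hF n
    obtain ⟨w, hw, hwF⟩ := hF n
    refine ⟨z * w, 𝔪.mul_mem_left z hw, ?_⟩
    have h : ((z • F : s48h_S2 M ψ) : ℍ → ℂ) = (z : ℂ) • (F : ℍ → ℂ) := rfl
    rw [h, s48h_qCoeff_smul (s48h_S2.qnice F), ← hwF]
    rfl

theorem s48h_mem_Lm {𝔪 : Ideal Zbar} {F : s48h_S2 M ψ} :
    F ∈ s48h_Lm M ψ 𝔪 ↔ ∀ n, ∃ z ∈ 𝔪, (z : ℂ) = qCoeff (F : ℍ → ℂ) n := Iff.rfl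

theorem s48h_TpV_mem_Lm (𝔪 : Ideal Zbar) (ψZ : ZMod M → Zbar) (hψZ : ∀ x, (ψZ x : ℂ) = ψ x)
    {p : ℕ} [Fact p.Prime] (hpM : ¬ p ∣ M) {F : s48h_S2 M ψ} (hF : F ∈ s48h_Lm M ψ 𝔪) :
    s48h_TpV M ψ p hpM F ∈ s48h_Lm M ψ 𝔪 := by
  intro n
  obtain ⟨z₁, hz₁, h₁⟩ := hF (n * p)
  obtain ⟨z₂, hz₂, h₂⟩ := hF (n / p)
  refine ⟨z₁ + ψZ (p : ZMod M) * (if p ∣ n then (p : Zbar) * z₂ else 0), ?_, ?_⟩
  · refine 𝔪.add_mem hz₁ (𝔪.mul_mem_left _ ?_)
    split_ifs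
    · exact 𝔪.mul_mem_left _ hz₂
    · exact 𝔪.zero_mem
  · rw [s48h_qCoeff_TpV, ← h₁, ← h₂, ← hψZ]
    split_ifs
    · push_cast
      rfl
    · push_cast
      rfl

/-! ### The index family of all operators -/

/-- Index type of the operators: primes `p ∤ M` and elements of `Γ₀(M)`. -/
abbrev s48h_Idx (M : ℕ) : Type := {p : ℕ // p.Prime ∧ ¬ p ∣ M} ⊕ Gamma0 M

/-- The index sets of the data. -/
def s48h_XI (M : ℕ) : s48h_Idx M → Type
  | Sum.inl i => OnePoint (ZMod i.1)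
  | Sum.inr _ => Unit

instance s48h_XI_fintype (M : ℕ) : ∀ i, Fintype (s48h_XI M i)
  | Sum.inl i => by
    haveI : NeZero i.1 := ⟨i.2.1.ne_zero⟩
    exact (inferInstance : Fintype (OnePoint (ZMod i.1)))
  | Sum.inr _ => (inferInstance : Fintype Unit)

/-! ### The main theorem -/

/-- **[T6] = `s48h_DSCoreH`.** -/
theorem s48h_DSCoreH (M : ℕ) [NeZero M] (ψ : DirichletCharacter ℂ M) (H : Subgroup (ZMod M)ˣ)
    (hH : ∀ u ∈ H, ψ (u : ZMod M) = 1)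
    (g : ℍ → ℂ) (hg : s48h_Neben M 2 ψ g) (hg0 : s48h_ZeroCusps 2 g)
    (ℓ : ℕ) [Fact ℓ.Prime] (k : Type*) [Field k] [Algebra (ZMod ℓ) k] (φ : Zbar →+* k)
    (c : ℕ → Zbar) (hc : ∀ n, (c n : ℂ) = qCoeff g n) (hne : ∃ n, φ (c n) ≠ 0)
    (ψZ : ZMod M → Zbar) (hψZ : ∀ x, (ψZ x : ℂ) = ψ x)
    (a : ℕ → Zbar)
    (hcong : ∀ p : ℕ, p.Prime → ¬ p ∣ M → ∀ n,
      φ (c (n * p) + ψZ (p : ZMod M) * (if p ∣ n then (p : Zbar) * c (n / p) else 0))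
        = φ (a p) * φ (c n)) :
    ∃ v : k ⊗[ZMod ℓ] (s48h_Hpar (ZMod ℓ) (s48h_GammaH M H) (ZMod ℓ)), v ≠ 0 ∧
      (∀ (p : ℕ) [Fact p.Prime] (hpM : ¬ p ∣ M) (σp : SL(2, ℤ)) (hσp : σp ∈ Gamma0 M)
        (hσp11 : ((σp 1 1 : ℤ) : ZMod M) = (p : ZMod M)),
        ((s48h_TpDatum H hpM σp hσp hσp11).heckeHpar (ZMod ℓ)).baseChange k v = φ (a p) • v) ∧
      (∀ (σ : SL(2, ℤ)) (hσ : σ ∈ Gamma0 M),
        ((s48h_diamondDatum H σ hσ).heckeHpar (ZMod ℓ)).baseChange k v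
          = φ (ψZ ((σ 1 1 : ℤ) : ZMod M)) • v) := by
  classical
  haveI : CharP k ℓ := charP_of_injective_algebraMap (algebraMap (ZMod ℓ) k).injective ℓ
  haveI h𝔪 : (RingHom.ker φ).IsMaximal := s29s_ker_isMaximal ℓ φ
  set gV : s48h_S2 M ψ := ⟨g, hg, hg0⟩ with hgV
  -- the chosen `σ_p`
  have hσex : ∀ i : {p : ℕ // p.Prime ∧ ¬ p ∣ M}, ∃ σp : SL(2, ℤ), σp ∈ Gamma0 M ∧
      ((σp 1 1 : ℤ) : ZMod M) = (i.1 : ZMod M) := fun i =>
    @s48h_exists_sigma_p M i.1 ⟨i.2.1⟩ i.2.2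
  choose σc hσc hσc11 using hσex
  -- the operators on `S₂(M, ψ)`
  let f : {p : ℕ // p.Prime ∧ ¬ p ∣ M} → Module.End ℂ (s48h_S2 M ψ) := fun i =>
    @s48h_TpV M ψ i.1 ⟨i.2.1⟩ i.2.2
  have hcomm : ∀ i j, f i * f j = f j * f i := fun i j =>
    @s48h_TpV_comm M ψ i.1 j.1 ⟨i.2.1⟩ ⟨j.2.1⟩ i.2.2 j.2.2
  have hfL : ∀ i, ∀ x ∈ s48h_Lm M ψ (RingHom.ker φ), f i x ∈ s48h_Lm M ψ (RingHom.ker φ) :=
    fun i x hx => @s48h_TpV_mem_Lm M ψ (RingHom.ker φ) ψZ hψZ i.1 ⟨i.2.1⟩ i.2.2 x hx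
  have hgL : gV ∉ s48h_Lm M ψ (RingHom.ker φ) := by
    intro h
    obtain ⟨n, hn⟩ := hne
    obtain ⟨z, hz, hzn⟩ := h n
    have hzc : z = c n := Subtype.ext (hzn.trans (hc n).symm)
    rw [hzc] at hz
    exact hn (RingHom.mem_ker.mp hz)
  have h𝔪g : ∀ z ∈ RingHom.ker φ, z • gV ∈ s48h_Lm M ψ (RingHom.ker φ) := by
    intro z hz n
    refine ⟨z * c n, (RingHom.ker φ).mul_mem_right _ hz, ?_⟩
    have h : ((z • gV : s48h_S2 M ψ) : ℍ → ℂ) = (z : ℂ) • g := rfl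
    rw [h, s48h_qCoeff_smul (s48h_S2.qnice gV), ← hc n]
    rfl
  have hcL : ∀ i : {p : ℕ // p.Prime ∧ ¬ p ∣ M},
      f i gV - a i.1 • gV ∈ s48h_Lm M ψ (RingHom.ker φ) := by
    intro i n
    haveI : Fact i.1.Prime := ⟨i.2.1⟩
    refine ⟨c (n * i.1) + ψZ (i.1 : ZMod M) * (if i.1 ∣ n then (i.1 : Zbar) * c (n / i.1) else 0)
      - a i.1 * c n, ?_, ?_⟩
    · rw [RingHom.mem_ker, map_sub, hcong i.1 i.2.1 i.2.2 n, map_mul, sub_self]
    · have h : ((f i gV - a i.1 • gV : s48h_S2 M ψ) : ℍ → ℂ)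
          = ((s48h_TpV M ψ i.1 i.2.2 gV : s48h_S2 M ψ) : ℍ → ℂ) - (a i.1 : ℂ) • g := rfl
      rw [h, s48h_qCoeff_sub (s48h_S2.qnice _) ((s48h_S2.qnice gV).smul _), s48h_qCoeff_TpV,
        s48h_qCoeff_smul (s48h_S2.qnice gV)]
      show _ = qCoeff g (n * i.1) + ψ (i.1 : ZMod M) * (if i.1 ∣ n then (i.1 : ℂ) * qCoeff g (n / i.1)
        else 0) - (a i.1 : ℂ) * qCoeff g n
      rw [← hc, ← hc, ← hc, ← hψZ]
      split_ifs
      · push_cast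
        rfl
      · push_cast
        rfl
  -- integrality of the eigenvalues in characteristic zero
  have hint : ∀ (χ : {p : ℕ // p.Prime ∧ ¬ p ∣ M} → ℂ) (v : s48h_S2 M ψ), v ≠ 0 →
      (∀ i, f i v = χ i • v) → ∀ i, ∃ z : Zbar, algebraMap Zbar ℂ z = χ i := by
    intro χ v hv heig i
    haveI : Fact i.1.Prime := ⟨i.2.1⟩
    have hP0 : s48h_periodV H hH v ≠ 0 := fun h0 =>
      hv (s48h_periodV_injective H hH (h0.trans (map_zero _).symm))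
    have h1 : ∀ _u : Unit, (s48h_TpDatum H i.2.2 (σc i) (hσc i) (hσc11 i)).heckeHom ℂ
        (s48h_periodV H hH v) = χ i • s48h_periodV H hH v := by
      intro _
      rw [s48h_periodV_Tp H hH i.2.2 (σc i) (hσc i) (hσc11 i) v]
      have := heig i
      show s48h_periodV H hH (f i v) = _
      rw [this, map_smul]
    have h2 := s48h_isIntegral_of_hecke_eigen (I := Unit) (X := fun _ => OnePoint (ZMod i.1))
      (fun _ => s48h_TpDatum H i.2.2 (σc i) (hσc i) (hσc11 i)) hP0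
      (s48h_periodV_mem_Hpar H hH v) (fun _ => χ i) h1 ()
    exact ⟨⟨χ i, h2⟩, rfl⟩
  -- the lifting
  obtain ⟨χ, F, hF0, hFeig, hχ⟩ := s48h_ds_lift_gen f hcomm (RingHom.ker φ)
    (s48h_Lm M ψ (RingHom.ker φ)) hfL gV hgL h𝔪g (fun i => a i.1) hcL hint
  choose z hzχ hza using hχ
  -- the period of `F`
  have hP0 : s48h_periodV H hH F ≠ 0 := fun h0 =>
    hF0 (s48h_periodV_injective H hH (h0.trans (map_zero _).symm))
  -- the family of all data and the eigenvalues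
  let D : ∀ i : s48h_Idx M, s48h_MatDatum (s48h_GammaH M H) (s48h_XI M i) := fun i =>
    match i with
    | Sum.inl i => @s48h_TpDatum M i.1 ⟨i.2.1⟩ H i.2.2 (σc i) (hσc i) (hσc11 i)
    | Sum.inr σ => s48h_diamondDatum H σ.1 σ.2
  let a' : s48h_Idx M → Zbar := fun i =>
    match i with
    | Sum.inl i => z i
    | Sum.inr σ => ψZ (((σ : SL(2, ℤ)) 1 1 : ℤ) : ZMod M)
  have ha' : ∀ i, (D i).heckeHom ℂ (s48h_periodV H hH F) = (a' i : ℂ) • s48h_periodV H hH F := by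
    intro i
    rcases i with i | σ
    · haveI : Fact i.1.Prime := ⟨i.2.1⟩
      show (s48h_TpDatum H i.2.2 (σc i) (hσc i) (hσc11 i)).heckeHom ℂ (s48h_periodV H hH F)
        = (z i : ℂ) • s48h_periodV H hH F
      rw [s48h_periodV_Tp H hH i.2.2 (σc i) (hσc i) (hσc11 i) F]
      show s48h_periodV H hH (f i F) = _
      rw [hFeig i, map_smul, ← hzχ i]
      rfl
    · show (s48h_diamondDatum H σ.1 σ.2).heckeHom ℂ (s48h_periodV H hH F)
        = (ψZ (((σ : SL(2, ℤ)) 1 1 : ℤ) : ZMod M) : ℂ) • s48h_periodV H hH F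
      rw [s48h_periodV_diamond H hH σ.1 σ.2 F, hψZ]
  obtain ⟨v, hv0, hv⟩ := s48h_eigen_reduce D hP0 (s48h_periodV_mem_Hpar H hH F) a' ha' ℓ k φ
  refine ⟨v, hv0, ?_, ?_⟩
  · intro p _ hpM σp hσp hσp11
    have h1 := hv (Sum.inl ⟨p, Fact.out, hpM⟩)
    have hφ : φ (z ⟨p, Fact.out, hpM⟩) = φ (a p) := by
      have := hza ⟨p, Fact.out, hpM⟩
      rw [RingHom.mem_ker, map_sub, sub_eq_zero] at this
      exact this.symm
    have hop : (s48h_TpDatum H hpM σp hσp hσp11).heckeHpar (A := ZMod ℓ) (ZMod ℓ)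
        = (D (Sum.inl ⟨p, Fact.out, hpM⟩)).heckeHpar (A := ZMod ℓ) (ZMod ℓ) := by
      refine LinearMap.ext fun x => Subtype.ext ?_
      have hTp := s48h_TpH_eq (H := H) hpM hσp hσp11 (hσc ⟨p, Fact.out, hpM⟩)
        (hσc11 ⟨p, Fact.out, hpM⟩) (ZMod ℓ)
      exact DFunLike.congr_fun hTp (x : Additive (s48h_GammaH M H) →+ ZMod ℓ)
    rw [hop, ← hφ]
    exact h1
  · intro σ hσ
    exact hv (Sum.inr ⟨σ, hσ⟩)

end Fermat.Agent.Lib.S48
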