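/-
S48 / DS-1, (EQ) for a general subgroup `Γ ≤ SL(2,ℤ)` (helper3), part 1: the meromorphic
formulation of the equivariance of the Kummer map.

* `s48h_compO g hg`, `s48h_compM g hg` : composition with the Möbius action of `g ∈ GL₂(ℝ)`,
  `0 < det g`, on holomorphic / meromorphic functions on `ℍ` (`s29m_O`, `s29m_M`);
* `s48h_hprodM D hdet u = ∏_x u ∘ α_x` : the Hecke product of a matrix datum `D` on `s29m_M`;
* **(Q3)** `s48h_hprodM_char` : if `γ⁻¹ • u = ζ_p ^ ψ(γ) · u` on `Γ` then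
  `γ⁻¹ • hprodM u = ζ_p ^ (T_D ψ)(γ) · hprodM u`, `T_D = D.heckeHom`;
* `s48h_kappaG_hecke` : if `u` is Kummer data of `x` and `hprodM u` is Kummer data of `y` then
  `κ y = T_D (κ x)`;
* **`s48h_EQ`** : the abstract equivariance theorem `κ (c (T x₀)) = T_D (κ (c x₀))` for an operator
  `T` on `Pic0 K₀ F₀` with a function companion `t : F₀ → F₀`
  (`div f = p • D₀ ⇒ T [D₀] = [D₂], div (t f) = p • D₂`) satisfying
  **(Q1)** `Φ (t f) = hprodM (Φ f)`, `Φ = inclE ∘ φ ∘ j`.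
-/
import Mathlib
import Fermat.Agent.Lib.S29.EQComp
import Fermat.Agent.Lib.S48.HKConc
import Fermat.Agent.Lib.S48.HPer

set_option autoImplicit false
set_option linter.unusedSectionVars false

open AlgebraicCurve

namespace Fermat.Agent.Lib.S48

open Fermat.Agent.Lib.FF Fermat.Agent.Lib.S29 Fermat.Agent.Lib.ES
open UpperHalfPlane hiding I
open Complex CongruenceSubgroup Matrix.SpecialLinearGroup
open scoped MatrixGroups Manifold

noncomputable section

/-! ### Composition with the Möbius action on `s29m_O` and `s29m_M` -/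

/-- `f ↦ f ∘ (g • ·)` on holomorphic functions. -/
def s48h_compO (g : GL (Fin 2) ℝ) (hg : 0 < g.det.val) : s29m_O →+* s29m_O where
  toFun f := ⟨s29q_compFun g (f : ℍ → ℂ), s29q_compFun_mdiff hg f.2⟩
  map_one' := rfl
  map_mul' _ _ := rfl
  map_zero' := rfl
  map_add' _ _ := rfl

@[simp] theorem s48h_compO_apply (g : GL (Fin 2) ℝ) (hg : 0 < g.det.val) (f : s29m_O) (z : ℍ) :
    ((s48h_compO g hg f : s29m_O) : ℍ → ℂ) z = (f : ℍ → ℂ) (g • z) := rfl

theorem s48h_compO_injective (g : GL (Fin 2) ℝ) (hg : 0 < g.det.val) :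
    Function.Injective (s48h_compO g hg) := by
  intro f₁ f₂ h
  apply Subtype.ext
  exact s29q_compFun_injective g (congrArg Subtype.val h)

/-- `f ↦ f ∘ (g • ·)` on meromorphic functions. -/
def s48h_compM (g : GL (Fin 2) ℝ) (hg : 0 < g.det.val) : s29m_M →+* s29m_M :=
  IsFractionRing.lift (A := s29m_O) (K := s29m_M) (L := s29m_M)
    (g := (algebraMap s29m_O s29m_M).comp (s48h_compO g hg))
    (s29m_algebraMap_injective.comp (s48h_compO_injective g hg))

@[simp] theorem s48h_compM_algebraMap (g : GL (Fin 2) ℝ) (hg : 0 < g.det.val) (f : s29m_O) :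
    s48h_compM g hg (algebraMap s29m_O s29m_M f) = algebraMap s29m_O s29m_M (s48h_compO g hg f) :=
  IsFractionRing.lift_algebraMap _ f

theorem s48h_compM_ofFun (g : GL (Fin 2) ℝ) (hg : 0 < g.det.val) {f : ℍ → ℂ} (hf : MDiff f) :
    s48h_compM g hg (s29m_ofFun f hf) = s29m_ofFun (s29q_compFun g f) (s29q_compFun_mdiff hg hf) :=
  s48h_compM_algebraMap g hg _

theorem s48h_compM_const (g : GL (Fin 2) ℝ) (hg : 0 < g.det.val) (c : ℂ) :
    s48h_compM g hg (algebraMap ℂ s29m_M c) = algebraMap ℂ s29m_M c := by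
  rw [IsScalarTower.algebraMap_apply ℂ s29m_O s29m_M, s48h_compM_algebraMap]
  rfl

theorem s48h_compM_injective (g : GL (Fin 2) ℝ) (hg : 0 < g.det.val) :
    Function.Injective (s48h_compM g hg) := (s48h_compM g hg).injective

theorem s48h_det_mul_pos {g h : GL (Fin 2) ℝ} (hg : 0 < g.det.val) (hh : 0 < h.det.val) :
    0 < (g * h).det.val := by
  rw [map_mul, Units.val_mul]
  exact mul_pos hg hh

/-- `compM (g * h) = compM h ∘ compM g`. -/
theorem s48h_compM_mul (g h : GL (Fin 2) ℝ) (hg : 0 < g.det.val) (hh : 0 < h.det.val)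
    (x : s29m_M) :
    s48h_compM (g * h) (s48h_det_mul_pos hg hh) x = s48h_compM h hh (s48h_compM g hg x) := by
  have key : s48h_compM (g * h) (s48h_det_mul_pos hg hh) =
      (s48h_compM h hh).comp (s48h_compM g hg) := by
    refine IsLocalization.ringHom_ext (nonZeroDivisors s29m_O) ?_
    refine RingHom.ext fun f => ?_
    simp only [RingHom.comp_apply, s48h_compM_algebraMap]
    congr 1
    apply Subtype.ext
    exact s29q_compFun_mul g h _
  rw [key, RingHom.comp_apply]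

/-- Proof-irrelevance helper: `compM` only depends on the matrix. -/
theorem s48h_compM_congr {g h : GL (Fin 2) ℝ} (e : g = h) (hg : 0 < g.det.val)
    (hh : 0 < h.det.val) (x : s29m_M) : s48h_compM g hg x = s48h_compM h hh x := by
  subst e
  rfl

theorem s48h_det_mapGL_pos (γ : SL(2, ℤ)) : 0 < (mapGL ℝ γ : GL (Fin 2) ℝ).det.val := by
  simp

/-- For `γ ∈ SL(2,ℤ)`, composition with `γ` is the action of `γ⁻¹`. -/
theorem s48h_compM_SL (γ : SL(2, ℤ)) (x : s29m_M) :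
    s48h_compM (mapGL ℝ γ) (s48h_det_mapGL_pos γ) x = γ⁻¹ • x := by
  have key : s48h_compM (mapGL ℝ γ) (s48h_det_mapGL_pos γ) =
      MulSemiringAction.toRingHom SL(2, ℤ) s29m_M γ⁻¹ := by
    refine IsLocalization.ringHom_ext (nonZeroDivisors s29m_O) ?_
    refine RingHom.ext fun f => ?_
    simp only [RingHom.comp_apply, s48h_compM_algebraMap, MulSemiringAction.toRingHom_apply,
      s29m_smul_algebraMap]
    congr 1
    apply Subtype.ext
    funext z
    show (f : ℍ → ℂ) (mapGL ℝ γ • z) = (f : ℍ → ℂ) ((γ⁻¹)⁻¹ • z)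
    rw [inv_inv]
    rfl
  rw [key]
  rfl

/-! ### Powers of a `p`-th root of unity indexed by `ZMod p` -/

theorem s48h_pow_val_add {M : Type*} [Monoid M] {p : ℕ} [NeZero p] {ζ : M} (hζ : ζ ^ p = 1)
    (x y : ZMod p) : ζ ^ (x + y).val = ζ ^ x.val * ζ ^ y.val := by
  rw [ZMod.val_add, ← pow_add]
  conv_rhs => rw [← Nat.div_add_mod (x.val + y.val) p, pow_add, pow_mul, hζ, one_pow, one_mul]

theorem s48h_pow_val_sum {M : Type*} [CommMonoid M] {p : ℕ} [NeZero p] {ζ : M} (hζ : ζ ^ p = 1)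
    {ι : Type*} (s : Finset ι) (f : ι → ZMod p) :
    ζ ^ (∑ i ∈ s, f i).val = ∏ i ∈ s, ζ ^ (f i).val := by
  classical
  induction s using Finset.induction_on with
  | empty => simp
  | insert a s ha ih =>
    rw [Finset.sum_insert ha, Finset.prod_insert ha, s48h_pow_val_add hζ, ih]

/-! ### The Hecke product of a matrix datum on `s29m_M` -/

section HProd

variable {Γ : Subgroup SL(2, ℤ)} {X : Type*} [Fintype X] (D : s48h_MatDatum Γ X)

theorem s48h_MatDatum.det_toGL (x : X) : (D.toGL x).det.val = (((D.α x).det : ℤ) : ℝ) := by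
  show ((D.α x).map (Int.cast : ℤ → ℝ)).det = _
  rw [Matrix.det_fin_two, Matrix.det_fin_two]
  simp only [Matrix.map_apply]
  push_cast
  ring

theorem s48h_MatDatum.det_toGL_pos (hdet : ∀ x, 0 < (D.α x).det) (x : X) :
    0 < (D.toGL x).det.val := by
  rw [D.det_toGL]
  exact_mod_cast hdet x

/-- **The Hecke product** `u ↦ ∏_x u ∘ α_x` on meromorphic functions. -/
def s48h_hprodM (hdet : ∀ x, 0 < (D.α x).det) (u : s29m_M) : s29m_M :=
  ∏ x : X, s48h_compM (D.toGL x) (D.det_toGL_pos hdet x) u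

variable (hdet : ∀ x, 0 < (D.α x).det)

theorem s48h_hprodM_mul (u v : s29m_M) :
    s48h_hprodM D hdet (u * v) = s48h_hprodM D hdet u * s48h_hprodM D hdet v := by
  unfold s48h_hprodM
  rw [← Finset.prod_mul_distrib]
  exact Finset.prod_congr rfl fun x _ => map_mul _ _ _

theorem s48h_hprodM_pow (u : s29m_M) (n : ℕ) :
    s48h_hprodM D hdet (u ^ n) = s48h_hprodM D hdet u ^ n := by
  unfold s48h_hprodM
  rw [← Finset.prod_pow]
  exact Finset.prod_congr rfl fun x _ => map_pow _ _ _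

theorem s48h_hprodM_one : s48h_hprodM D hdet 1 = 1 := by
  unfold s48h_hprodM
  exact Finset.prod_eq_one fun x _ => map_one _

theorem s48h_hprodM_ne_zero {u : s29m_M} (hu : u ≠ 0) : s48h_hprodM D hdet u ≠ 0 := by
  unfold s48h_hprodM
  exact Finset.prod_ne_zero_iff.mpr fun x _ => (map_ne_zero _).mpr hu

theorem s48h_hprodM_inv (u : s29m_M) :
    s48h_hprodM D hdet u⁻¹ = (s48h_hprodM D hdet u)⁻¹ := by
  unfold s48h_hprodM
  rw [← Finset.prod_inv_distrib]
  exact Finset.prod_congr rfl fun x _ => map_inv₀ _ _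

theorem s48h_hprodM_div (u v : s29m_M) :
    s48h_hprodM D hdet (u / v) = s48h_hprodM D hdet u / s48h_hprodM D hdet v := by
  rw [div_eq_mul_inv, div_eq_mul_inv, s48h_hprodM_mul, s48h_hprodM_inv]

/-- **(Q2)**: the multiplier of the Hecke product. -/
theorem s48h_hprodM_smul (u : s29m_M) (m : Γ → ℂ)
    (hu : ∀ γ : Γ, ((γ : SL(2, ℤ))⁻¹) • u = algebraMap ℂ s29m_M (m γ) * u) (γ : Γ) :
    ((γ : SL(2, ℤ))⁻¹) • s48h_hprodM D hdet u =
      algebraMap ℂ s29m_M (∏ x : X, m (D.fam γ x)) * s48h_hprodM D hdet u := by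
  rw [← s48h_compM_SL]
  unfold s48h_hprodM
  rw [map_prod, map_prod, ← Equiv.prod_comp (D.perm γ)
    (fun x => s48h_compM (D.toGL x) (D.det_toGL_pos hdet x) u), ← Finset.prod_mul_distrib]
  refine Finset.prod_congr rfl fun x _ => ?_
  rw [← s48h_compM_mul (D.toGL x) (mapGL ℝ (γ : SL(2, ℤ))) (D.det_toGL_pos hdet x)
    (s48h_det_mapGL_pos _),
    s48h_compM_congr (D.toGL_mul γ x) _
      (s48h_det_mul_pos (s48h_det_mapGL_pos _) (D.det_toGL_pos hdet _)),
    s48h_compM_mul _ _ (s48h_det_mapGL_pos _) (D.det_toGL_pos hdet _), s48h_compM_SL, hu,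
    map_mul, s48h_compM_const]

/-- **(Q3)**: the character of the Hecke product. -/
theorem s48h_hprodM_char {p : ℕ} [NeZero p] (u : s29m_M) (ψ : Additive Γ →+ ZMod p)
    (hu : ∀ γ : Γ, ((γ : SL(2, ℤ))⁻¹) • u = s29m_zetaM p ^ (ψ (Additive.ofMul γ)).val * u)
    (γ : Γ) :
    ((γ : SL(2, ℤ))⁻¹) • s48h_hprodM D hdet u =
      s29m_zetaM p ^ (D.heckeHom (ZMod p) ψ (Additive.ofMul γ)).val * s48h_hprodM D hdet u := by
  have h1 := s48h_hprodM_smul D hdet u
    (fun δ => cexp (2 * Real.pi * I / p) ^ (ψ (Additive.ofMul δ)).val)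
    (fun δ => by rw [← s29m_zetaM_pow]; exact hu δ) γ
  rw [h1, D.heckeHom_apply, s48h_pow_val_sum (s29m_zetaM_prim p).pow_eq_one, map_prod]
  congr 1
  exact Finset.prod_congr rfl fun x _ => (s29m_zetaM_pow p _).symm

end HProd

/-! ### Equivariance of the Kummer map -/

section Kappa

variable {K : Type*} {N p : ℕ} [NeZero p] {Γ : Subgroup SL(2, ℤ)} {F : Type*} [Field K] [Field F]
  [Algebra K F] {φ : F →+* ffm_E N} {X : Type*} [Fintype X]

/-- **`κ` through Kummer data**: if `u` is Kummer data of `x` then `γ⁻¹ • u = ζ_p ^ κ(x)(γ) · u`. -/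
theorem s48h_kappaG_spec (hΓ : CongruenceSubgroup.Gamma N ≤ Γ) (hB : s48h_BridgeHyp K N Γ p φ)
    (x : Pic0.torsion K F p) {u : s29m_M}
    (hu : s29m_IsKData p ((s29m_inclE N).comp φ) (x : Pic0 K F) u) (γ : Γ) :
    ((γ : SL(2, ℤ))⁻¹) • u = s29m_zetaM p ^ (s48h_kappaG hΓ hB x (Additive.ofMul γ)).val * u := by
  have H := s48h_kappaHyp_of_bridge hΓ hB
  have hspec := s29m_kummerFun_spec H.prim hu.ne_zero (hu.smul_pow H) γ
  rw [← s29m_kappa_apply H x hu γ] at hspec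
  exact hspec

/-- **Equivariance at the level of Kummer data**: if `u` is Kummer data of `x` and the Hecke product
of `u` is Kummer data of `y`, then `κ y = T_D (κ x)`. -/
theorem s48h_kappaG_hecke (hΓ : CongruenceSubgroup.Gamma N ≤ Γ) (hB : s48h_BridgeHyp K N Γ p φ)
    (D : s48h_MatDatum Γ X) (hdet : ∀ x, 0 < (D.α x).det) (x y : Pic0.torsion K F p) {u : s29m_M}
    (hu : s29m_IsKData p ((s29m_inclE N).comp φ) (x : Pic0 K F) u)
    (hy : s29m_IsKData p ((s29m_inclE N).comp φ) (y : Pic0 K F) (s48h_hprodM D hdet u)) :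
    s48h_kappaG hΓ hB y = D.heckeHom (ZMod p) (s48h_kappaG hΓ hB x) := by
  have H := s48h_kappaHyp_of_bridge hΓ hB
  refine AddMonoidHom.ext fun γ => ?_
  obtain ⟨γ, rfl⟩ := Additive.ofMul.surjective γ
  refine s29m_kappa_eq H y hy γ _ ?_
  exact s48h_hprodM_char D hdet u (s48h_kappaG hΓ hB x) (s48h_kappaG_spec hΓ hB x hu) γ

/-- **[EQ], abstract form.**  `K₀ ⊆ K` constant fields, `j : F₀ →+* F`, `c : Pic0 K₀ F₀ →+ Pic0 K F`
compatible with `j` on `p`-divisible principal divisors (`hc`); `T` an operator on `Pic0 K₀ F₀` with a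
function companion `t` (`hT`) which on the analytic side is the Hecke product of the datum `D`
(`hQ1`).  Then `κ (c (T x₀)) = T_D (κ (c x₀))` for every `p`-torsion class `x₀`. -/
theorem s48h_EQ (hΓ : CongruenceSubgroup.Gamma N ≤ Γ) (hB : s48h_BridgeHyp K N Γ p φ)
    (D : s48h_MatDatum Γ X) (hdet : ∀ x, 0 < (D.α x).det)
    {K₀ F₀ : Type*} [Field K₀] [Field F₀] [Algebra K₀ F₀] (j : F₀ →+* F)
    (c : Pic0 K₀ F₀ → Pic0 K F)
    (hc : ∀ (D₀ : Divisor.degZero (K := K₀) (F := F₀)) (f : F₀), f ≠ 0 →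
      (∀ v : Place K₀ F₀, v.ord f = (p : ℤ) * (D₀ : Divisor K₀ F₀) v) →
      ∃ D' : Divisor.degZero (K := K) (F := F), c (Pic0.mk D₀) = Pic0.mk D' ∧
        ∀ w : Place K F, w.ord (j f) = (p : ℤ) * (D' : Divisor K F) w)
    (T : Pic0 K₀ F₀ → Pic0 K₀ F₀) (t : F₀ → F₀)
    (hT : ∀ (D₀ : Divisor.degZero (K := K₀) (F := F₀)) (f : F₀), f ≠ 0 →
      (∀ v : Place K₀ F₀, v.ord f = (p : ℤ) * (D₀ : Divisor K₀ F₀) v) →
      t f ≠ 0 ∧ ∃ D₂ : Divisor.degZero (K := K₀) (F := F₀), T (Pic0.mk D₀) = Pic0.mk D₂ ∧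
        ∀ v : Place K₀ F₀, v.ord (t f) = (p : ℤ) * (D₂ : Divisor K₀ F₀) v)
    (hQ1 : ∀ f : F₀, f ≠ 0 → s29m_inclE N (φ (j (t f))) =
      s48h_hprodM D hdet (s29m_inclE N (φ (j f))))
    (x₀ : Pic0 K₀ F₀) (hx₀ : (p : ℤ) • x₀ = 0) (y y' : Pic0.torsion K F p)
    (hy : (y : Pic0 K F) = c x₀) (hy' : (y' : Pic0 K F) = c (T x₀)) :
    s48h_kappaG hΓ hB y' = D.heckeHom (ZMod p) (s48h_kappaG hΓ hB y) := by
  have H := s48h_kappaHyp_of_bridge hΓ hB
  obtain ⟨D₀, rfl⟩ := Pic0.mk_surjective x₀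
  have h1 : Pic0.mk ((p : ℤ) • D₀) = (0 : Pic0 K₀ F₀) := hx₀
  have h2 : ((p : ℤ) • D₀) ∈ (Divisor.principal (K := K₀) (F := F₀)).addSubgroupOf
      (Divisor.degZero (K := K₀) (F := F₀)) := (QuotientAddGroup.eq_zero_iff _).mp h1
  obtain ⟨f, hf, hDf⟩ := h2
  have hDf' : ∀ v : Place K₀ F₀, v.ord f = (p : ℤ) * (D₀ : Divisor K₀ F₀) v := by
    intro v
    rw [← hDf v]
    simp
  obtain ⟨D', hcD, hD'⟩ := hc D₀ f hf hDf'
  obtain ⟨htf, D₂, hTD, hD₂⟩ := hT D₀ f hf hDf'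
  obtain ⟨D₂', hcD₂, hD₂'⟩ := hc D₂ (t f) htf hD₂
  have hjf : j f ≠ 0 := (map_ne_zero j).mpr hf
  have hjtf : j (t f) ≠ 0 := (map_ne_zero j).mpr htf
  obtain ⟨u, hu⟩ := H.root (j f) hjf D' hD'
  have hdata : s29m_IsKData p ((s29m_inclE N).comp φ) (y : Pic0 K F) u :=
    ⟨D', j f, hjf, by rw [hy, hcD], hD', hu⟩
  have hdata' : s29m_IsKData p ((s29m_inclE N).comp φ) (y' : Pic0 K F) (s48h_hprodM D hdet u) := by
    refine ⟨D₂', j (t f), hjtf, by rw [hy', hTD, hcD₂], hD₂', ?_⟩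
    rw [← s48h_hprodM_pow, hu]
    exact (hQ1 f hf).symm
  exact s48h_kappaG_hecke hΓ hB D hdet y y' hdata hdata'

end Kappa

end

end Fermat.Agent.Lib.S48
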