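/-
S48 / DS-1, (EQ) for `Γ_H` (helper3), part 2: `q`-expansions of meromorphic functions and the
analytic form **(Q1)** of the twisted norm formula.

* `s48h_HasQExp m x` : `m ∈ s29m_M` is a quotient `a / b` of holomorphic functions with convergent
  Laurent `q`-expansions `xa, xb`, and `x = xa / xb`;
* `s48h_HasQExp.unique` : `m` is determined by `x`;
* `s48h_hprodM_Tp_hasQExp` : if `m` has `q`-expansion `x` and `σ_p⁻¹ • m = m ∘ σ_p` has `q`-expansion
  `x'`, then the Hecke product of `m` for the datum `s48h_TpDatum` (representatives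
  `σ_p · diag(p,1)`, `[1 j; 0 p]`) has a `q`-expansion `y` with
  `y(q^p) = x'(q^{p²}) · ∏_{j<p} x(ζ^j q)`;
* `s48h_Q1_of_norm` : **(Q1)** from the twisted norm formula.
-/
import Mathlib
import Fermat.Agent.Lib.S29.EQMult
import Fermat.Agent.Lib.S48.HKEq
import Fermat.Agent.Lib.S48.HHomH

set_option autoImplicit false
set_option linter.unusedSectionVars false

namespace Fermat.Agent.Lib.S48

open Fermat.Agent.Lib.FF Fermat.Agent.Lib.S29 Fermat.Agent.Lib.ES Fermat.Agent.Lib.S37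
open Fermat.Agent.Lib.S28
open UpperHalfPlane hiding I
open Complex CongruenceSubgroup Matrix.SpecialLinearGroup ModularCurve ModularForm
open P2MW.S_ModularForm_heckeT_slash_eq_self_of_mem_Gamma0.ModularForm.HeckeSlashInvariance
open scoped MatrixGroups Manifold OnePoint

noncomputable section

/-- `m ∈ s29m_M` has the Laurent `q`-expansion `x`. -/
def s48h_HasQExp (m : s29m_M) (x : LaurentSeries ℂ) : Prop :=
  ∃ (a b : ℍ → ℂ) (ha : MDiff a) (hb : MDiff b) (xa xb : LaurentSeries ℂ),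
    ffb_IsLaurent a xa ∧ ffb_IsLaurent b xb ∧ xb ≠ 0 ∧
      m * s29m_ofFun b hb = s29m_ofFun a ha ∧ x * xb = xa

theorem s48h_isLaurent_zero : ffb_IsLaurent (0 : ℍ → ℂ) 0 := by
  have := ffb_IsLaurent.const (0 : ℂ)
  rwa [map_zero] at this

theorem s48h_exists_ne_zero_of_isLaurent {b : ℍ → ℂ} {xb : LaurentSeries ℂ}
    (h : ffb_IsLaurent b xb) (hxb : xb ≠ 0) : ∃ τ, b τ ≠ 0 := by
  by_contra hcon
  push Not at hcon
  have hb0 : b = 0 := funext hcon
  rw [hb0] at h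
  exact hxb (h.unique s48h_isLaurent_zero)

theorem s48h_ofFun_mul {f g : ℍ → ℂ} (hf : MDiff f) (hg : MDiff g) :
    s29m_ofFun f hf * s29m_ofFun g hg = s29m_ofFun (f * g) (hf.mul hg) := by
  unfold s29m_ofFun
  rw [← map_mul]
  rfl

theorem s48h_ofFun_congr {f g : ℍ → ℂ} (hf : MDiff f) (hg : MDiff g) (h : f = g) :
    s29m_ofFun f hf = s29m_ofFun g hg := by
  subst h
  rfl

namespace s48h_HasQExp

variable {m m' : s29m_M} {x x' : LaurentSeries ℂ}

/-- A meromorphic function is determined by its `q`-expansion. -/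
theorem unique (h : s48h_HasQExp m x) (h' : s48h_HasQExp m' x) : m = m' := by
  obtain ⟨a, b, ha, hb, xa, xb, hxa, hxb, hxb0, hm, hx⟩ := h
  obtain ⟨a', b', ha', hb', xa', xb', hxa', hxb', hxb0', hm', hx'⟩ := h'
  have hbM : s29m_ofFun b hb ≠ 0 :=
    s29m_ofFun_ne_zero hb (s48h_exists_ne_zero_of_isLaurent hxb hxb0)
  have hbM' : s29m_ofFun b' hb' ≠ 0 :=
    s29m_ofFun_ne_zero hb' (s48h_exists_ne_zero_of_isLaurent hxb' hxb0')
  have e : a * b' = a' * b := by
    have e1 : ffb_IsLaurent (a * b') (xa * xb') := hxa.mul hxb'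
    have e2 : ffb_IsLaurent (a' * b) (xa' * xb) := hxa'.mul hxb
    have e3 : xa * xb' = xa' * xb := by
      rw [← hx, ← hx']
      ring
    rw [e3] at e1
    exact e1.ext e2
  apply mul_right_cancel₀ (mul_ne_zero hbM hbM')
  calc m * (s29m_ofFun b hb * s29m_ofFun b' hb')
      = (m * s29m_ofFun b hb) * s29m_ofFun b' hb' := by ring
    _ = s29m_ofFun (a * b') (ha.mul hb') := by rw [hm, s48h_ofFun_mul]
    _ = s29m_ofFun (a' * b) (ha'.mul hb) := s48h_ofFun_congr _ _ e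
    _ = (m' * s29m_ofFun b' hb') * s29m_ofFun b hb := by rw [hm', s48h_ofFun_mul]
    _ = m' * (s29m_ofFun b hb * s29m_ofFun b' hb') := by ring

theorem mul (h : s48h_HasQExp m x) (h' : s48h_HasQExp m' x') : s48h_HasQExp (m * m') (x * x') := by
  obtain ⟨a, b, ha, hb, xa, xb, hxa, hxb, hxb0, hm, hx⟩ := h
  obtain ⟨a', b', ha', hb', xa', xb', hxa', hxb', hxb0', hm', hx'⟩ := h'
  refine ⟨a * a', b * b', ha.mul ha', hb.mul hb', xa * xa', xb * xb', hxa.mul hxa', hxb.mul hxb',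
    mul_ne_zero hxb0 hxb0', ?_, ?_⟩
  · rw [← s48h_ofFun_mul hb hb', ← s48h_ofFun_mul ha ha', ← hm, ← hm']
    ring
  · rw [← hx, ← hx']
    ring

theorem ofFun {a : ℍ → ℂ} (ha : MDiff a) {xa : LaurentSeries ℂ} (hxa : ffb_IsLaurent a xa) :
    s48h_HasQExp (s29m_ofFun a ha) xa := by
  refine ⟨a, fun _ => 1, ha, mdifferentiable_const, xa, HahnSeries.C 1, hxa, ffb_IsLaurent.const 1,
    ?_, ?_, ?_⟩
  · rw [map_one]
    exact one_ne_zero
  · rw [s48h_ofFun_mul]
    exact s48h_ofFun_congr _ _ (by funext z; simp)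
  · rw [map_one, mul_one]

/-- Composition with `z ↦ d z` substitutes `q ↦ q ^ d`. -/
theorem comp_of_dmul (h : s48h_HasQExp m x) (d : ℕ) [NeZero d] {g : GL (Fin 2) ℝ}
    (hg : 0 < g.det.val) (hgd : ∀ z : ℍ, g • z = ffb_dmul d z) :
    s48h_HasQExp (s48h_compM g hg m) (qExpand ℂ d x) := by
  obtain ⟨a, b, ha, hb, xa, xb, hxa, hxb, hxb0, hm, hx⟩ := h
  have ea : s29q_compFun g a = fun z => a (ffb_dmul d z) := by
    funext z
    rw [s29q_compFun_apply, hgd]
  have eb : s29q_compFun g b = fun z => b (ffb_dmul d z) := by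
    funext z
    rw [s29q_compFun_apply, hgd]
  refine ⟨s29q_compFun g a, s29q_compFun g b, s29q_compFun_mdiff hg ha, s29q_compFun_mdiff hg hb,
    qExpand ℂ d xa, qExpand ℂ d xb, ea ▸ hxa.comp_dmul d, eb ▸ hxb.comp_dmul d, ?_, ?_, ?_⟩
  · intro h0
    apply hxb0
    apply qExpand_injective (R := ℂ) d
    rw [h0, map_zero]
  · rw [← s48h_compM_ofFun g hg hb, ← s48h_compM_ofFun g hg ha, ← map_mul, hm]
  · rw [← map_mul, hx]

end s48h_HasQExp

/-! ### The product over the finite representatives -/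

theorem s48h_mdiff_prod {ι : Type*} (s : Finset ι) (f : ι → ℍ → ℂ) (hf : ∀ i, MDiff (f i)) :
    MDiff (∏ i ∈ s, f i) := by
  classical
  induction s using Finset.induction_on with
  | empty =>
    rw [Finset.prod_empty]
    exact mdifferentiable_const
  | insert a s ha ih =>
    rw [Finset.prod_insert ha]
    exact (hf a).mul ih

theorem s48h_ofFun_prod {ι : Type*} (s : Finset ι) (f : ι → ℍ → ℂ) (hf : ∀ i, MDiff (f i))
    (hprod : MDiff (∏ i ∈ s, f i)) :
    ∏ i ∈ s, s29m_ofFun (f i) (hf i) = s29m_ofFun (∏ i ∈ s, f i) hprod := by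
  classical
  induction s using Finset.induction_on with
  | empty =>
    rw [Finset.prod_empty]
    unfold s29m_ofFun
    rw [← map_one (algebraMap s29m_O s29m_M)]
    congr 1
  | insert a s ha ih =>
    have h1 : MDiff (∏ i ∈ s, f i) := s48h_mdiff_prod s f hf
    rw [Finset.prod_insert ha, ih h1, s48h_ofFun_mul]
    exact s48h_ofFun_congr _ _ (Finset.prod_insert ha).symm

variable (p : ℕ) [hp : Fact p.Prime]

/-- **The product over the finite representatives** `z ↦ (z + j) / p`: its `q`-expansion `y`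
satisfies `y(q^p) = ∏_{j<p} x(ζ^j q)`. -/
theorem s48h_HasQExp.prodP {m : s29m_M} {x : LaurentSeries ℂ} (h : s48h_HasQExp m x)
    (g : ZMod p → GL (Fin 2) ℝ) (hg : ∀ j, 0 < (g j).det.val)
    (hgd : ∀ (j : ZMod p) (z : ℍ), g j • z = s29q_div p j.val z) :
    ∃ y : LaurentSeries ℂ, s48h_HasQExp (∏ j : ZMod p, s48h_compM (g j) (hg j) m) y ∧
      qExpand ℂ p y = s37e_prodTw p (s29q_zeta p) x := by
  obtain ⟨a, b, ha, hb, xa, xb, hxa, hxb, hxb0, hm, hx⟩ := h
  obtain ⟨ya, hya⟩ := s29q_exists_isLaurent_P p hxa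
  obtain ⟨yb, hyb⟩ := s29q_exists_isLaurent_P p hxb
  have hqa := s29q_qExpand_P p hxa hya
  have hqb := s29q_qExpand_P p hxb hyb
  have hPfun : ∀ f : ℍ → ℂ, (∏ j : ZMod p, s29q_compFun (g j) f) = s29q_P p f := by
    intro f
    funext z
    rw [Finset.prod_apply, s29q_P_apply, s29q_prod_range_eq_prod_zmod]
    exact Finset.prod_congr rfl fun j _ => by rw [s29q_compFun_apply, hgd]
  have htw0 : s37e_prodTw p (s29q_zeta p) xb ≠ 0 := by
    unfold s37e_prodTw
    exact Finset.prod_ne_zero_iff.mpr fun j _ => (map_ne_zero _).mpr hxb0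
  have hyb0 : yb ≠ 0 := by
    intro h0
    apply htw0
    rw [← hqb, h0, map_zero]
  refine ⟨ya / yb, ⟨s29q_P p a, s29q_P p b, s29q_mdiff_P p ha, s29q_mdiff_P p hb, ya, yb, hya, hyb,
    hyb0, ?_, div_mul_cancel₀ _ hyb0⟩, ?_⟩
  · have e1 : ∀ f : ℍ → ℂ, ∀ hf : MDiff f,
        s29m_ofFun (s29q_P p f) (s29q_mdiff_P p hf) =
          ∏ j : ZMod p, s48h_compM (g j) (hg j) (s29m_ofFun f hf) := by
      intro f hf
      have h1 : ∀ j : ZMod p, s48h_compM (g j) (hg j) (s29m_ofFun f hf) =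
          s29m_ofFun (s29q_compFun (g j) f) (s29q_compFun_mdiff (hg j) hf) :=
        fun j => s48h_compM_ofFun (g j) (hg j) hf
      rw [Finset.prod_congr rfl fun j _ => h1 j,
        s48h_ofFun_prod Finset.univ (fun j => s29q_compFun (g j) f)
          (fun j => s29q_compFun_mdiff (hg j) hf) (by rw [hPfun]; exact s29q_mdiff_P p hf)]
      exact s48h_ofFun_congr _ _ (hPfun f).symm
    rw [e1 a ha, e1 b hb, ← Finset.prod_mul_distrib]
    exact Finset.prod_congr rfl fun j _ => by rw [← map_mul, hm]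
  · rw [map_div₀, hqa, hqb, ← hx, s29q_prodTw_mul, mul_div_assoc, div_self htw0, mul_one]

/-! ### The Hecke product of the datum `s48h_TpDatum` -/

section Tp

variable {N : ℕ} (H : Subgroup (ZMod N)ˣ) (hpN : ¬ p ∣ N) (σp : SL(2, ℤ)) (hσp : σp ∈ Gamma0 N)
  (hσp11 : ((σp 1 1 : ℤ) : ZMod N) = (p : ZMod N))

theorem s48h_TpDatum_toGL_infty :
    (s48h_TpDatum H hpN σp hσp hσp11).toGL ∞ = mapGL ℝ σp * heckeRep p ∞ :=
  s48h_MatDatum.toGL_eq _
    (coe_mul_eq_map_mul (coe_mapGL_eq_map_intCast σp) (coe_heckeRep_eq_map hp.out.ne_zero ∞))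

theorem s48h_TpDatum_toGL_coe (j : ZMod p) :
    (s48h_TpDatum H hpN σp hσp hσp11).toGL (j : OnePoint (ZMod p)) = heckeRep p j := by
  refine s48h_MatDatum.toGL_eq _ ?_
  rw [coe_heckeRep_eq_map hp.out.ne_zero]
  congr 1
  show heckeRepZ p j = ((1 : SL(2, ℤ)) : Matrix (Fin 2) (Fin 2) ℤ) * heckeRepZ p j
  rw [Matrix.SpecialLinearGroup.coe_one, Matrix.one_mul]

/-- **(Q1), analytic core for `Γ_H`**: the `q`-expansion of the Hecke product. -/
theorem s48h_hprodM_Tp_hasQExp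
    (hdet : ∀ x, 0 < ((s48h_TpDatum H hpN σp hσp hσp11).α x).det)
    {m : s29m_M} {x x' : LaurentSeries ℂ} (hm : s48h_HasQExp m x)
    (hm' : s48h_HasQExp (σp⁻¹ • m) x') :
    ∃ y : LaurentSeries ℂ,
      s48h_HasQExp (s48h_hprodM (s48h_TpDatum H hpN σp hσp hσp11) hdet m) y ∧
      qExpand ℂ p y = qExpand ℂ p (qExpand ℂ p x') * s37e_prodTw p (s29q_zeta p) x := by
  set D := s48h_TpDatum H hpN σp hσp hσp11 with hD
  -- the finite part
  obtain ⟨y, hy, hqy⟩ := hm.prodP p (fun j => D.toGL (j : OnePoint (ZMod p)))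
    (fun j => D.det_toGL_pos hdet _) (fun j z => by
      rw [hD, s48h_TpDatum_toGL_coe]
      show heckeMatrix p j.val • z = _
      exact s29q_heckeMatrix_smul p j.val z)
  -- the term at `∞`
  have hinf : s48h_HasQExp (s48h_compM (D.toGL ∞) (D.det_toGL_pos hdet ∞) m) (qExpand ℂ p x') := by
    have hpos : 0 < (heckeRep p ∞).det.val := s29q_det_heckeRep_pos p ∞
    have e1 : s48h_compM (D.toGL ∞) (D.det_toGL_pos hdet ∞) m =
        s48h_compM (heckeRep p ∞) hpos (σp⁻¹ • m) := by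
      rw [s48h_compM_congr (s48h_TpDatum_toGL_infty p H hpN σp hσp hσp11) _
        (s48h_det_mul_pos (s48h_det_mapGL_pos σp) hpos),
        s48h_compM_mul _ _ (s48h_det_mapGL_pos σp) hpos, s48h_compM_SL]
    rw [e1]
    exact hm'.comp_of_dmul p hpos (fun z => s29q_heckeDiagMatrix_smul p z)
  refine ⟨qExpand ℂ p x' * y, ?_, by rw [map_mul, hqy]⟩
  have e2 : s48h_hprodM D hdet m =
      s48h_compM (D.toGL ∞) (D.det_toGL_pos hdet ∞) m *
        ∏ j : ZMod p, s48h_compM (D.toGL (j : OnePoint (ZMod p))) (D.det_toGL_pos hdet _) m :=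
    Fintype.prod_option
      (fun x : OnePoint (ZMod p) => s48h_compM (D.toGL x) (D.det_toGL_pos hdet x) m)
  rw [e2]
  exact hinf.mul hy

/-- **(Q1) for `T_p` on `Γ_H` from the twisted norm formula.**  `Φ : F₀ → s29m_M` the analytic
realisation with `q`-expansions `q`, `dd` the diamond automorphism realised by `σ_p`
(`Φ (dd f) = Φ f ∘ σ_p`), `t` the function companion of `T_p` with the norm formula
`q(t f)(q^p) = q(dd f)(q^{p²}) · ∏_{j<p} q(f)(ζ^j q)`. -/
theorem s48h_Q1_of_norm {F₀ : Type*} (Φ : F₀ → s29m_M) (q : F₀ → LaurentSeries ℂ)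
    (hΦ : ∀ f, s48h_HasQExp (Φ f) (q f)) (dd t : F₀ → F₀)
    (hdd : ∀ f, Φ (dd f) = σp⁻¹ • Φ f)
    (hnorm : ∀ f, qExpand ℂ p (q (t f)) =
      qExpand ℂ (p * p) (q (dd f)) * s37e_prodTw p (s29q_zeta p) (q f))
    (hdet : ∀ x, 0 < ((s48h_TpDatum H hpN σp hσp hσp11).α x).det) (f : F₀) :
    Φ (t f) = s48h_hprodM (s48h_TpDatum H hpN σp hσp hσp11) hdet (Φ f) := by
  obtain ⟨y, hy, hqy⟩ := s48h_hprodM_Tp_hasQExp p H hpN σp hσp hσp11 hdet (hΦ f)
    (by rw [← hdd]; exact hΦ (dd f))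
  have hyq : y = q (t f) := by
    apply qExpand_injective (R := ℂ) p
    rw [hqy, hnorm, qExpand_qExpand]
  rw [hyq] at hy
  exact (hΦ (t f)).unique hy

end Tp

/-! ### Diamond operators -/

/-- The Hecke product of the diamond datum of `σ ∈ Γ₀(N)` is composition with `σ`. -/
theorem s48h_hprodM_diamond {N : ℕ} (H : Subgroup (ZMod N)ˣ) (σ : SL(2, ℤ)) (hσ : σ ∈ Gamma0 N)
    (hdet : ∀ x, 0 < ((s48h_diamondDatum H σ hσ).α x).det) (m : s29m_M) :
    s48h_hprodM (s48h_diamondDatum H σ hσ) hdet m = σ⁻¹ • m := by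
  unfold s48h_hprodM
  rw [Finset.prod_eq_single () (fun b _ hb => absurd rfl hb) (fun h => absurd (Finset.mem_univ _) h),
    ← s48h_compM_SL]
  refine s48h_compM_congr ?_ _ _ m
  exact s48h_MatDatum.toGL_eq _ (coe_mapGL_eq_map_intCast σ)

theorem s48h_diamondDatum_det_pos {N : ℕ} (H : Subgroup (ZMod N)ˣ) (σ : SL(2, ℤ))
    (hσ : σ ∈ Gamma0 N) (x : Unit) : 0 < ((s48h_diamondDatum H σ hσ).α x).det := by
  show 0 < (σ : Matrix (Fin 2) (Fin 2) ℤ).det
  rw [Matrix.SpecialLinearGroup.det_coe]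
  exact one_pos

end

end Fermat.Agent.Lib.S48
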