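/-
S48 / DS-1, (EQ) for `Γ_H` (helper3), part 3: **function companions** of operators on `Pic⁰`.

`s48h_THyp p T t` : whenever `div f = p • D₀` (`D₀` of degree zero), `t f ≠ 0` and
`T [D₀] = [D₂]` with `div (t f) = p • D₂`.  This is the divisor-level input `hT` of the abstract
equivariance theorem `s48h_EQ`.

* `s48h_THyp.comp` : composition;
* `s48h_THyp_smul` : a semilinear automorphism `g` of `F/K` (e.g. a diamond automorphism),
  `T = (g • ·)`, `t = (g • ·)`;
* `s48h_THyp_correspondence` : a correspondence `ψ_* φ^*` (Prelude `Pic0.correspondence`),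
  `t f = Nm_ψ (φ f)`.
-/
import Mathlib
import Fermat.Prelude.Def_AlgebraicCurve_Correspondence

set_option autoImplicit false
set_option linter.unusedSectionVars false
set_option linter.style.haveILetI false

open AlgebraicCurve

namespace Fermat.Agent.Lib.S48

noncomputable section

variable {K F : Type*} [Field K] [Field F] [Algebra K F]

/-- `t` is a function companion of `T` on `p`-divisible principal divisors. -/
def s48h_THyp (p : ℕ) (T : Pic0 K F → Pic0 K F) (t : F → F) : Prop :=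
  ∀ (D₀ : Divisor.degZero (K := K) (F := F)) (f : F), f ≠ 0 →
    (∀ v : Place K F, v.ord f = (p : ℤ) * (D₀ : Divisor K F) v) →
    t f ≠ 0 ∧ ∃ D₂ : Divisor.degZero (K := K) (F := F), T (Pic0.mk D₀) = Pic0.mk D₂ ∧
      ∀ v : Place K F, v.ord (t f) = (p : ℤ) * (D₂ : Divisor K F) v

theorem s48h_THyp.comp {p : ℕ} {T₁ T₂ : Pic0 K F → Pic0 K F} {t₁ t₂ : F → F}
    (h₂ : s48h_THyp p T₂ t₂) (h₁ : s48h_THyp p T₁ t₁) :
    s48h_THyp p (T₂ ∘ T₁) (t₂ ∘ t₁) := by
  intro D₀ f hf hD₀
  obtain ⟨h1, D₁, hT1, hD₁⟩ := h₁ D₀ f hf hD₀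
  obtain ⟨h2, D₂, hT2, hD₂⟩ := h₂ D₁ (t₁ f) h1 hD₁
  exact ⟨h2, D₂, by rw [Function.comp_apply, hT1, hT2], hD₂⟩

theorem s48h_THyp_id (p : ℕ) : s48h_THyp p (id : Pic0 K F → Pic0 K F) id :=
  fun D₀ _ hf hD₀ => ⟨hf, D₀, rfl, hD₀⟩

/-- **Semilinear automorphisms.** -/
theorem s48h_THyp_smul (p : ℕ) (g : SemilinearAut K F) :
    s48h_THyp p (fun x : Pic0 K F => g • x) (fun f : F => g • f) := by
  intro D₀ f hf hD₀
  refine ⟨by simpa using hf, SemilinearAut.degZeroSMulHom g D₀, SemilinearAut.pic0_smul_mk g D₀,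
    fun w => ?_⟩
  rw [SemilinearAut.coe_degZeroSMulHom, SemilinearAut.divisor_smul_apply, ← hD₀ (g⁻¹ • w)]
  have h := SemilinearAut.ord_smul g (g⁻¹ • w) f
  rw [smul_inv_smul] at h
  exact h

section Corr

variable {F' : Type*} [Field F'] [Algebra K F'] [HasPrincipalDivisors K F']
  (φ ψ : F →ₐ[K] F') (hφ : φ.toRingHom.IsIntegral) (hψ : ψ.toRingHom.IsIntegral)

/-- `ψ_* φ^* (div y) = div (Nm_ψ (φ y))`. -/
theorem s48h_correspondence_principal (hfin : FiniteAlong K ψ) (hN : NormFormulaAlong K ψ hfin)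
    {y : F} (hy : y ≠ 0) {D : Divisor K F} (hD : ∀ v : Place K F, D v = v.ord y)
    (v : Place K F) :
    Divisor.correspondence φ ψ hφ hψ D v =
      v.ord (letI := algebraAlong ψ; Algebra.norm F (φ y)) := by
  have hφy : φ y ≠ 0 := by
    intro h0
    apply hy
    apply φ.toRingHom.injective
    rw [map_zero]
    exact h0
  have hpull : ∀ w : Place K F', Divisor.pullbackAlong φ hφ D w = w.ord (φ y) := by
    intro w
    letI := algebraAlong φ
    haveI := isScalarTower_along φ
    haveI := isIntegral_along φ hφ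
    exact Divisor.pullback_apply_eq_ord hD w
  show Divisor.pushforwardAlong ψ hψ (Divisor.pullbackAlong φ hφ D) v = _
  letI := algebraAlong ψ
  haveI := isScalarTower_along ψ
  haveI := isIntegral_along ψ hψ
  haveI : Module.Finite F F' := hfin
  exact hN (φ y) hφy _ hpull v

/-- **Correspondences**: `T = ψ_* φ^*`, `t f = Nm_ψ (φ f)`. -/
theorem s48h_THyp_correspondence (p : ℕ) (hFI : FundamentalIdentityAlong K φ hφ)
    (hfin : FiniteAlong K ψ) (hN : NormFormulaAlong K ψ hfin) :
    s48h_THyp p (Pic0.correspondence φ ψ hφ hψ hFI hfin hN)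
      (fun f : F => letI := algebraAlong ψ; Algebra.norm F (φ f)) := by
  intro D₀ f hf hD₀
  have hφf : φ f ≠ 0 := by
    intro h0
    apply hf
    apply φ.toRingHom.injective
    rw [map_zero]
    exact h0
  refine ⟨?_, Pic0.degZeroCorrespondence φ ψ hφ hψ hFI D₀, Pic0.correspondence_mk _ _ _ _ _ _ _ D₀,
    fun v => ?_⟩
  · letI := algebraAlong ψ
    haveI : Module.Finite F F' := hfin
    haveI : Module.Free F F' := Module.Free.of_divisionRing _ _
    exact Algebra.norm_ne_zero_iff.mpr hφf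
  · have h1 := s48h_correspondence_principal φ ψ hφ hψ hfin hN hf
      (D := (p : ℤ) • (D₀ : Divisor K F))
      (fun w => by rw [Finsupp.smul_apply, smul_eq_mul, hD₀ w]) v
    rw [Pic0.coe_degZeroCorrespondence, ← h1, map_zsmul, Finsupp.smul_apply, smul_eq_mul]

end Corr

end

end Fermat.Agent.Lib.S48
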