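/-
S48 / DS-1, (EQ) for `Γ_H` (helper3), part 4: **the two equivariance clauses of helper5's
`s48desc_kappaCoreH_of`** for `κ₀ = s48desc_kappaH D = κ_{Γ_H} ∘ c_t` on `J_H(ℚ̄)[ℓ]`:

* `s48h_EQ_diamond` : `κ₀ (⟨d⟩ x) = ⟨σ⟩ (κ₀ x)` for `σ ∈ Γ₀(M)` with lower right entry `≡ d`;
* `s48h_EQ_Tp` : `κ₀ (T_p x) = T_p^H (κ₀ x)` for the classical `T_p = (α_* β^*) ∘ ⟨p⟩` (`s48k_TpJ`) and
  the datum `s48h_TpDatum` (any `σ_p ∈ Γ₀(M)` with lower right entry `≡ p`).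

Inputs, besides the model data `D : s48desc_ModelC M H ℓ`:
* `s48h_EqHyp D` (analytic interface of the bridge `φ_H`, [T5]): `qexp` — for every `h ∈ F_{H,ℂ}` the
  meromorphic function `φ_H h` has `q`-expansion `h`; `diam` — `φ_H (⟨d⟩ f) = φ_H f ∘ σ` for
  `σ ∈ Γ₀(M)` with lower right entry `≡ d`;
* `s48k_HeckeInputsH M H p` ([T8]) and the twisted norm formula [W] in the shape of helper8's
  `s48e_redAt_gen` (helper2's `WTw`).
-/
import Fermat.Agent.Lib.S48.DescKappa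
import Fermat.Agent.Lib.S48.HKQExp
import Fermat.Agent.Lib.S48.HKTHyp

set_option autoImplicit false
set_option linter.unusedSectionVars false
set_option linter.style.haveILetI false

noncomputable section

namespace Fermat.Agent.Lib.S48

open UpperHalfPlane hiding I
open AlgebraicCurve ModularCurve IntermediateField CongruenceSubgroup
open Fermat.Agent.Lib.FF Fermat.Agent.Lib.S18 Fermat.Agent.Lib.S29 Fermat.Agent.Lib.S37
open Fermat.Agent.Lib.S28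
open scoped MatrixGroups Manifold

local notation "Qbar" => AlgebraicClosure ℚ

attribute [local instance] s29a_algebraC

variable {M : ℕ} [NeZero M] {H : Subgroup (ZMod M)ˣ} {ℓ : ℕ} [Fact ℓ.Prime]

/-- **The analytic interface of the bridge `φ_H`** needed by (EQ). -/
structure s48h_EqHyp (D : s48desc_ModelC M H ℓ) : Prop where
  /-- the meromorphic function `φ_H h` has `q`-expansion `h`. -/
  qexp : ∀ h : ↥(laurentBaseChange ℂ (s48k_FHQ M H)),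
    s48h_HasQExp (s29m_inclE M (D.φ h)) (h : LaurentSeries ℂ)
  /-- the diamond automorphism `⟨d⟩` is `h ↦ h ∘ σ`, `σ ∈ Γ₀(M)` with lower right entry `≡ d`. -/
  diam : ∀ (d : (ZMod M)ˣ) (σ : SL(2, ℤ)), σ ∈ Gamma0 M →
    ((σ 1 1 : ℤ) : ZMod M) = ((d : (ZMod M)ˣ) : ZMod M) → ∀ f : ↥(s48k_FH M H),
      D.φ (s18q_map (algebraMap Qbar ℂ) (s48k_FHQ M H) (s48k_diamondAut M H d f)) =
        σ⁻¹ • D.φ (s18q_map (algebraMap Qbar ℂ) (s48k_FHQ M H) f)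

/-- **(EQ), diamond clause.** -/
theorem s48h_EQ_diamond (D : s48desc_ModelC M H ℓ) (hE : s48h_EqHyp D) (d : (ZMod M)ˣ)
    (σ : SL(2, ℤ)) (hσ : σ ∈ Gamma0 M)
    (hσd : ((σ 1 1 : ℤ) : ZMod M) = ((d : (ZMod M)ˣ) : ZMod M)) (x : s48k_JHl M H ℓ) :
    s48desc_kappaH D (s48k_torsionEnd M H ℓ (s48k_diamondJ M H d) x) =
      (s48h_diamondDatum H σ hσ).heckeHom (ZMod ℓ) (s48desc_kappaH D x) := by
  haveI : NeZero ℓ := ⟨(Fact.out : ℓ.Prime).ne_zero⟩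
  haveI := D.gen0
  haveI := D.gen1
  rw [s48desc_kappaH_apply, s48desc_kappaH_apply]
  refine s48h_EQ D.grp.le D.bridge (s48h_diamondDatum H σ hσ)
    (s48h_diamondDatum_det_pos H σ hσ)
    (s18q_map (algebraMap Qbar ℂ) (s48k_FHQ M H))
    (fun z => s29c_c (K1 := ℂ) (s48k_FHQ M H) D.x0 D.x1 z)
    (fun D₀ f hf hD₀ => s48desc_hc (K0 := Qbar) (K1 := ℂ) (s48k_FHQ M H) D.x0 D.x1 ℓ D₀ f hf hD₀)
    (fun z => s48k_diamondJ M H d z) (fun f => s48k_diamondAut M H d f)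
    (s48h_THyp_smul ℓ (SemilinearAut.ofAlgAut (s48k_diamondAut M H d)))
    (fun f _ => ?_) (x : s48k_JH M H) (Pic0.mem_torsion.mp x.2) _ _ rfl rfl
  rw [s48h_hprodM_diamond, hE.diam d σ hσ hσd f, s29m_inclE_smul]

/-- The function companion of the classical `T_p = (α_* β^*) ∘ ⟨p⟩`: `f ↦ Nm_α (β (⟨p⟩ f))`. -/
def s48h_tpFun (M : ℕ) (H : Subgroup (ZMod M)ˣ) (p : ℕ) [NeZero p] (pu : (ZMod M)ˣ)
    (f : ↥(s48k_FH M H)) : ↥(s48k_FH M H) :=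
  letI := algebraAlong (s48k_heckeAlphaH M H p)
  Algebra.norm ↥(s48k_FH M H) (s48k_heckeBetaH M H p (s48k_diamondAut M H pu f))

/-- `α_* β^*` has the function companion `Nm_α ∘ β`. -/
theorem s48h_THyp_heckeFF (M : ℕ) (H : Subgroup (ZMod M)ˣ) (p : ℕ) [NeZero p] (n : ℕ)
    (hInp : s48k_HeckeInputsH M H p) :
    s48h_THyp n (fun z : s48k_JH M H => s48k_heckeFF M H p z)
      (fun f : ↥(s48k_FH M H) => letI := algebraAlong (s48k_heckeAlphaH M H p)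
        Algebra.norm ↥(s48k_FH M H) (s48k_heckeBetaH M H p f)) := by
  unfold s48k_heckeFF
  rw [dif_pos hInp]
  haveI := hInp.snd.snd.fst
  exact s48h_THyp_correspondence (s48k_heckeBetaH M H p) (s48k_heckeAlphaH M H p) hInp.snd.fst
    hInp.fst n hInp.snd.snd.snd.snd.1 hInp.snd.snd.snd.fst hInp.snd.snd.snd.snd.2

/-- The classical `T_p` has the function companion `s48h_tpFun`. -/
theorem s48h_THyp_TpJ (M : ℕ) (H : Subgroup (ZMod M)ˣ) (p : ℕ) [NeZero p] (pu : (ZMod M)ˣ) (n : ℕ)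
    (hInp : s48k_HeckeInputsH M H p) :
    s48h_THyp n (fun z : s48k_JH M H => s48k_TpJ M H p pu z) (s48h_tpFun M H p pu) :=
  (s48h_THyp_heckeFF M H p n hInp).comp
    (s48h_THyp_smul n (SemilinearAut.ofAlgAut (s48k_diamondAut M H pu)))

/-- `⟨p⁻¹⟩ ⟨p⟩ = 1` on `F_H`, from the analytic description of the diamonds. -/
theorem s48h_diamondAut_inv_apply (D : s48desc_ModelC M H ℓ) (hE : s48h_EqHyp D) (d : (ZMod M)ˣ)
    (σ : SL(2, ℤ)) (hσ : σ ∈ Gamma0 M)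
    (hσd : ((σ 1 1 : ℤ) : ZMod M) = ((d : (ZMod M)ˣ) : ZMod M)) (f : ↥(s48k_FH M H)) :
    s48k_diamondAut M H d⁻¹ (s48k_diamondAut M H d f) = f := by
  have hinv : (((σ⁻¹) 1 1 : ℤ) : ZMod M) = ((d⁻¹ : (ZMod M)ˣ) : ZMod M) := by
    have h1 := s48h_lowerRight_inv_mul hσ
    rw [hσd] at h1
    calc (((σ⁻¹) 1 1 : ℤ) : ZMod M)
        = (((σ⁻¹) 1 1 : ℤ) : ZMod M) * (((d : (ZMod M)ˣ) : ZMod M) * ((d⁻¹ : (ZMod M)ˣ) : ZMod M)) := by
          rw [← Units.val_mul, mul_inv_cancel, Units.val_one, mul_one]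
      _ = ((d⁻¹ : (ZMod M)ˣ) : ZMod M) := by rw [← mul_assoc, h1, one_mul]
  apply (s18q_map (algebraMap Qbar ℂ) (s48k_FHQ M H)).injective
  apply D.φ.injective
  rw [hE.diam d⁻¹ σ⁻¹ (inv_mem hσ) hinv, hE.diam d σ hσ hσd, inv_inv, smul_inv_smul]

/-- **(EQ), `T_p` clause.** -/
theorem s48h_EQ_Tp (D : s48desc_ModelC M H ℓ) (hE : s48h_EqHyp D) (p : ℕ) [NeZero p]
    [hp : Fact p.Prime] (pu : (ZMod M)ˣ) (hpM : ¬ p ∣ M)
    (hpu : ((pu : (ZMod M)ˣ) : ZMod M) = (p : ZMod M)) (hInp : s48k_HeckeInputsH M H p)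
    (hW : ∀ ζ : Qbarˣ, IsPrimitiveRoot (ζ : Qbar) p → ∀ y : ↥(s48k_FH M H),
      qExpand Qbar p (((letI := algebraAlong (s48k_heckeAlphaH M H p)
          Algebra.norm ↥(s48k_FH M H) (s48k_heckeBetaH M H p y) : ↥(s48k_FH M H)) :
            LaurentSeries Qbar)) =
        qExpand Qbar (p * p) (y : LaurentSeries Qbar) *
          s37e_prodTw p ζ ((s48k_diamondAut M H pu⁻¹ y : ↥(s48k_FH M H)) : LaurentSeries Qbar))
    (σp : SL(2, ℤ)) (hσp : σp ∈ Gamma0 M) (hσp11 : ((σp 1 1 : ℤ) : ZMod M) = (p : ZMod M))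
    (x : s48k_JHl M H ℓ) :
    s48desc_kappaH D (s48k_torsionEnd M H ℓ (s48k_TpJ M H p pu) x) =
      (s48h_TpDatum H hpM σp hσp hσp11).heckeHom (ZMod ℓ) (s48desc_kappaH D x) := by
  haveI : NeZero ℓ := ⟨(Fact.out : ℓ.Prime).ne_zero⟩
  haveI := D.gen0
  haveI := D.gen1
  have hσpu : ((σp 1 1 : ℤ) : ZMod M) = ((pu : (ZMod M)ˣ) : ZMod M) := hσp11.trans hpu.symm
  obtain ⟨ζ, hζ, hζι⟩ := s29q_exists_zeta p (algebraMap Qbar ℂ)
  -- (Q1)
  have hQ1 : ∀ f : ↥(s48k_FH M H), f ≠ 0 →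
      s29m_inclE M (D.φ (s18q_map (algebraMap Qbar ℂ) (s48k_FHQ M H) (s48h_tpFun M H p pu f))) =
        s48h_hprodM (s48h_TpDatum H hpM σp hσp hσp11) (s48h_TpDatum_det_pos H hpM σp hσp hσp11)
          (s29m_inclE M (D.φ (s18q_map (algebraMap Qbar ℂ) (s48k_FHQ M H) f))) := by
    intro f _
    refine s48h_Q1_of_norm p H hpM σp hσp hσp11
      (fun g : ↥(s48k_FH M H) =>
        s29m_inclE M (D.φ (s18q_map (algebraMap Qbar ℂ) (s48k_FHQ M H) g)))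
      (fun g : ↥(s48k_FH M H) => coeffMap (algebraMap Qbar ℂ) (g : LaurentSeries Qbar))
      (fun g => hE.qexp (s18q_map (algebraMap Qbar ℂ) (s48k_FHQ M H) g))
      (fun g => s48k_diamondAut M H pu g) (s48h_tpFun M H p pu) (fun g => ?_) (fun g => ?_) _ f
    · show s29m_inclE M (D.φ (s18q_map (algebraMap Qbar ℂ) (s48k_FHQ M H)
        (s48k_diamondAut M H pu g))) = _
      rw [hE.diam pu σp hσp hσpu g, s29m_inclE_smul]
    · have h := congrArg (coeffMap (algebraMap Qbar ℂ)) (hW ζ hζ (s48k_diamondAut M H pu g))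
      rw [map_mul, ffb_coeffMap_qExpand, ffb_coeffMap_qExpand, s29q_coeffMap_prodTw, hζι,
        s48h_diamondAut_inv_apply D hE pu σp hσp hσpu g] at h
      exact h
  rw [s48desc_kappaH_apply, s48desc_kappaH_apply]
  exact s48h_EQ D.grp.le D.bridge (s48h_TpDatum H hpM σp hσp hσp11)
    (s48h_TpDatum_det_pos H hpM σp hσp hσp11)
    (s18q_map (algebraMap Qbar ℂ) (s48k_FHQ M H))
    (fun z => s29c_c (K1 := ℂ) (s48k_FHQ M H) D.x0 D.x1 z)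
    (fun D₀ f hf hD₀ => s48desc_hc (K0 := Qbar) (K1 := ℂ) (s48k_FHQ M H) D.x0 D.x1 ℓ D₀ f hf hD₀)
    (fun z => s48k_TpJ M H p pu z) (s48h_tpFun M H p pu)
    (s48h_THyp_TpJ M H p pu ℓ hInp) hQ1 (x : s48k_JH M H) (Pic0.mem_torsion.mp x.2) _ _ rfl rfl

/-- **`s48k_EigenSupportH`** from: the model data with the analytic interface `s48h_EqHyp` ([T5]),
the Hecke inputs ([T8]) and the twisted norm formula ([W]). -/
theorem s48h_eigenSupportH_of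
    (hmodel : ∀ (M N₁ ℓ₀ : ℕ) [NeZero M] (H : Subgroup (ZMod M)ˣ), s48k_Level M N₁ ℓ₀ H →
      ∀ (ℓ : ℕ) [Fact ℓ.Prime], ∃ D : s48desc_ModelC M H ℓ, s48h_EqHyp D)
    (hInp : ∀ (M N₁ ℓ₀ : ℕ) [NeZero M] (H : Subgroup (ZMod M)ˣ), s48k_Level M N₁ ℓ₀ H →
      ∀ (p : ℕ) [NeZero p], p.Prime → ¬ p ∣ M → s48k_HeckeInputsH M H p)
    (hW : ∀ (M N₁ ℓ₀ : ℕ) [NeZero M] (H : Subgroup (ZMod M)ˣ), s48k_Level M N₁ ℓ₀ H →
      ∀ (p : ℕ) [NeZero p] (pu : (ZMod M)ˣ), p.Prime → ¬ p ∣ M →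
      ((pu : (ZMod M)ˣ) : ZMod M) = (p : ZMod M) →
      ∀ ζ : Qbarˣ, IsPrimitiveRoot (ζ : Qbar) p → ∀ y : ↥(s48k_FH M H),
        qExpand Qbar p (((letI := algebraAlong (s48k_heckeAlphaH M H p)
            Algebra.norm ↥(s48k_FH M H) (s48k_heckeBetaH M H p y) : ↥(s48k_FH M H)) :
              LaurentSeries Qbar)) =
          qExpand Qbar (p * p) (y : LaurentSeries Qbar) *
            s37e_prodTw p ζ ((s48k_diamondAut M H pu⁻¹ y : ↥(s48k_FH M H)) :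
              LaurentSeries Qbar)) :
    s48k_EigenSupportH := by
  refine s48desc_eigenSupportH_of fun M N₁ ℓ₀ _ H hL ℓ _ => ?_
  obtain ⟨D, hE⟩ := hmodel M N₁ ℓ₀ H hL ℓ
  refine ⟨D, ?_, ?_⟩
  · intro p _ hp pu hpM _ hpu σp hσp hσp11 x
    exact s48h_EQ_Tp D hE p pu hpM hpu (hInp M N₁ ℓ₀ H hL p hp.out hpM)
      (hW M N₁ ℓ₀ H hL p pu hp.out hpM hpu) σp hσp hσp11 x
  · intro d σ hσ hσd x
    exact s48h_EQ_diamond D hE d σ hσ hσd x

end Fermat.Agent.Lib.S48
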