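/-
S48 / DS-1, (EQ) for `Γ_H` (helper3), part 5: **`s48h_EqHyp D` from GENERATOR-LEVEL facts.**

The analytic interface `s48h_EqHyp D` of the bridge `φ_H` (clauses `qexp`, `diam`) is reduced to
statements about the generators `J_d = j(q^d)` (`d ∣ M`) and `s_u` of `F_H`:

* `s48h_forall_of_gens` : a property of the elements of `laurentBaseChange L (adjoin ℚ S)` that holds
  for constants and the generators `coeffEmb L y`, `y ∈ S`, and is stable under `+`, `*`, `⁻¹` holds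
  everywhere;
* `s48h_HasQExp.zero/const/add/neg/inv` : closure properties of `s48h_HasQExp`;
* `s48h_qexp_of_gens` : clause `qexp` from `φ c = c` on constants and `qexp` on generators;
* `s48h_diam_of_gens` : clause `diam` from `IsDiamondAut (diamondAut d)` (existence of the diamond
  automorphisms), `Γ₀(M)`-invariance of `φ` on `F₀(M) ⊗ ℂ` and `σ⁻¹ • φ (s_u) = φ (s_{u d⁻¹})`;
* `s48h_eqHyp_of_gens` : both together.
-/
import Fermat.Agent.Lib.S48.HKEqH

set_option autoImplicit false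
set_option linter.unusedSectionVars false
set_option linter.style.haveILetI false

noncomputable section

namespace Fermat.Agent.Lib.S48

open UpperHalfPlane hiding I
open AlgebraicCurve ModularCurve IntermediateField CongruenceSubgroup
open Fermat.Agent.Lib.FF Fermat.Agent.Lib.S18 Fermat.Agent.Lib.S29 Fermat.Agent.Lib.S37
open Fermat.Agent.Lib.S28
open scoped MatrixGroups Manifold

local notation "Qbar" => AlgebraicClosure ℚ

attribute [local instance] s29a_algebraC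

/-! ### Induction over generators of `laurentBaseChange L (adjoin ℚ S)` -/

/-- A property of the elements of `laurentBaseChange L (adjoin ℚ S)` holding for the constants and
the generators and stable under `+`, `*`, `⁻¹` holds for every element. -/
theorem s48h_forall_of_gens {L : Type*} [Field L] [Algebra ℚ L] (S : Set (LaurentSeries ℚ))
    (P : ↥(laurentBaseChange L (IntermediateField.adjoin ℚ S)) → Prop)
    (hconst : ∀ c : L, P (algebraMap L _ c))
    (hadd : ∀ x y, P x → P y → P (x + y))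
    (hmul : ∀ x y, P x → P y → P (x * y))
    (hinv : ∀ x, P x → P x⁻¹)
    (hgen : ∀ y (hy : y ∈ S), P ⟨coeffEmb L y,
      coeffEmb_mem_laurentBaseChange L (IntermediateField.subset_adjoin ℚ S hy)⟩) :
    ∀ x, P x := by
  let T : IntermediateField L (LaurentSeries L) :=
    { carrier := {x | ∃ hx : x ∈ laurentBaseChange L (IntermediateField.adjoin ℚ S), P ⟨x, hx⟩}
      mul_mem' := by
        rintro x y ⟨hx, hPx⟩ ⟨hy, hPy⟩
        exact ⟨mul_mem hx hy, hmul ⟨x, hx⟩ ⟨y, hy⟩ hPx hPy⟩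
      one_mem' := ⟨one_mem _, by
        have := hconst 1
        rwa [map_one] at this⟩
      add_mem' := by
        rintro x y ⟨hx, hPx⟩ ⟨hy, hPy⟩
        exact ⟨add_mem hx hy, hadd ⟨x, hx⟩ ⟨y, hy⟩ hPx hPy⟩
      zero_mem' := ⟨zero_mem _, by
        have := hconst 0
        rwa [map_zero] at this⟩
      algebraMap_mem' := fun c => ⟨IntermediateField.algebraMap_mem _ c, hconst c⟩
      inv_mem' := by
        rintro x ⟨hx, hPx⟩
        exact ⟨inv_mem hx, hinv ⟨x, hx⟩ hPx⟩ }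
  have hle : laurentBaseChange L (IntermediateField.adjoin ℚ S) ≤ T := by
    rw [ffg_laurentBaseChange_adjoin, IntermediateField.adjoin_le_iff]
    rintro _ ⟨y, hy, rfl⟩
    exact ⟨_, hgen y hy⟩
  intro x
  obtain ⟨hx, hP⟩ := hle x.2
  exact hP

/-- The same for a field `F₀` generated by `S`. -/
theorem s48h_forall_of_gens' {L : Type*} [Field L] [Algebra ℚ L]
    (F₀ : IntermediateField ℚ (LaurentSeries ℚ)) (S : Set (LaurentSeries ℚ))
    (hS : ∀ y ∈ S, y ∈ F₀) (hF : F₀ ≤ IntermediateField.adjoin ℚ S)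
    (P : ↥(laurentBaseChange L F₀) → Prop)
    (hconst : ∀ c : L, P (algebraMap L _ c))
    (hadd : ∀ x y, P x → P y → P (x + y))
    (hmul : ∀ x y, P x → P y → P (x * y))
    (hinv : ∀ x, P x → P x⁻¹)
    (hgen : ∀ y (hy : y ∈ S), P ⟨coeffEmb L y, coeffEmb_mem_laurentBaseChange L (hS y hy)⟩) :
    ∀ x, P x := by
  obtain rfl : F₀ = IntermediateField.adjoin ℚ S :=
    le_antisymm hF (IntermediateField.adjoin_le_iff.mpr hS)
  exact s48h_forall_of_gens S P hconst hadd hmul hinv hgen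

/-! ### Closure properties of `s48h_HasQExp` -/

namespace s48h_HasQExp

variable {m m' : s29m_M} {x x' : LaurentSeries ℂ}

theorem const (c : ℂ) : s48h_HasQExp (algebraMap ℂ s29m_M c) (HahnSeries.C c) := by
  have h := s48h_HasQExp.ofFun (a := fun _ : ℍ => c) mdifferentiable_const (ffb_IsLaurent.const c)
  have e : s29m_ofFun (fun _ : ℍ => c) mdifferentiable_const = algebraMap ℂ s29m_M c := by
    rw [IsScalarTower.algebraMap_apply ℂ s29m_O s29m_M]
    rfl
  rwa [e] at h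

theorem zero : s48h_HasQExp 0 0 := by
  have := const 0
  rwa [map_zero, map_zero] at this

theorem add (h : s48h_HasQExp m x) (h' : s48h_HasQExp m' x') : s48h_HasQExp (m + m') (x + x') := by
  obtain ⟨a, b, ha, hb, xa, xb, hxa, hxb, hxb0, hm, hx⟩ := h
  obtain ⟨a', b', ha', hb', xa', xb', hxa', hxb', hxb0', hm', hx'⟩ := h'
  refine ⟨a * b' + a' * b, b * b', (ha.mul hb').add (ha'.mul hb), hb.mul hb',
    xa * xb' + xa' * xb, xb * xb', (hxa.mul hxb').add (hxa'.mul hxb), hxb.mul hxb',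
    mul_ne_zero hxb0 hxb0', ?_, ?_⟩
  · have e1 : s29m_ofFun (a * b' + a' * b) ((ha.mul hb').add (ha'.mul hb)) =
        s29m_ofFun a ha * s29m_ofFun b' hb' + s29m_ofFun a' ha' * s29m_ofFun b hb := by
      rw [s48h_ofFun_mul, s48h_ofFun_mul]
      unfold s29m_ofFun
      rw [← map_add]
      rfl
    rw [e1, ← s48h_ofFun_mul hb hb', ← hm, ← hm']
    ring
  · rw [← hx, ← hx']
    ring

theorem neg (h : s48h_HasQExp m x) : s48h_HasQExp (-m) (-x) := by
  have h1 := (const (-1)).mul h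
  rw [map_neg, map_one, map_neg, map_one, neg_one_mul] at h1
  have e : (-1 : LaurentSeries ℂ) * x = -x := neg_one_mul x
  rwa [e] at h1

theorem inv (h : s48h_HasQExp m x) : s48h_HasQExp m⁻¹ x⁻¹ := by
  rcases eq_or_ne x 0 with rfl | hx0
  · have hm0 : m = 0 := h.unique zero
    rw [hm0, inv_zero, inv_zero]
    exact zero
  obtain ⟨a, b, ha, hb, xa, xb, hxa, hxb, hxb0, hm, hx⟩ := h
  have hxa0 : xa ≠ 0 := by
    rw [← hx]
    exact mul_ne_zero hx0 hxb0
  have haM : s29m_ofFun a ha ≠ 0 :=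
    s29m_ofFun_ne_zero ha (s48h_exists_ne_zero_of_isLaurent hxa hxa0)
  have hm0 : m ≠ 0 := by
    rintro rfl
    rw [zero_mul] at hm
    exact haM hm.symm
  refine ⟨b, a, hb, ha, xb, xa, hxb, hxa, hxa0, ?_, ?_⟩
  · rw [← hm, ← mul_assoc, inv_mul_cancel₀ hm0, one_mul]
  · rw [← hx, ← mul_assoc, inv_mul_cancel₀ hx0, one_mul]

end s48h_HasQExp

/-! ### Clause `qexp` -/

/-- **Clause `qexp` from the generators**: a ring homomorphism `φ` on `laurentBaseChange ℂ (adjoin ℚ S)`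
which is the identity on constants and sends each generator to a meromorphic function with the right
`q`-expansion sends EVERY element to a meromorphic function with that `q`-expansion. -/
theorem s48h_qexp_of_gens {N : ℕ} (F₀ : IntermediateField ℚ (LaurentSeries ℚ))
    (S : Set (LaurentSeries ℚ)) (hS : ∀ y ∈ S, y ∈ F₀) (hF : F₀ ≤ IntermediateField.adjoin ℚ S)
    (φ : ↥(laurentBaseChange ℂ F₀) →+* ffm_E N)
    (hconst : ∀ c : ℂ, φ (algebraMap ℂ _ c) = algebraMap ℂ (ffm_E N) c)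
    (hgen : ∀ y (hy : y ∈ S), s48h_HasQExp (s29m_inclE N (φ ⟨coeffEmb ℂ y,
      coeffEmb_mem_laurentBaseChange ℂ (hS y hy)⟩)) (coeffEmb ℂ y)) :
    ∀ h : ↥(laurentBaseChange ℂ F₀),
      s48h_HasQExp (s29m_inclE N (φ h)) (h : LaurentSeries ℂ) := by
  refine s48h_forall_of_gens' F₀ S hS hF
    (fun h => s48h_HasQExp (s29m_inclE N (φ h)) (h : LaurentSeries ℂ)) ?_ ?_ ?_ ?_ hgen
  · intro c
    show s48h_HasQExp (s29m_inclE N (φ (algebraMap ℂ _ c))) (algebraMap ℂ (LaurentSeries ℂ) c)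
    rw [hconst, s29m_inclE_const, algebraMap_laurentSeries_eq_single]
    exact s48h_HasQExp.const c
  · intro x y hx hy
    show s48h_HasQExp (s29m_inclE N (φ (x + y))) ((x : LaurentSeries ℂ) + (y : LaurentSeries ℂ))
    rw [map_add, map_add]
    exact hx.add hy
  · intro x y hx hy
    show s48h_HasQExp (s29m_inclE N (φ (x * y))) ((x : LaurentSeries ℂ) * (y : LaurentSeries ℂ))
    rw [map_mul, map_mul]
    exact hx.mul hy
  · intro x hx
    show s48h_HasQExp (s29m_inclE N (φ x⁻¹)) ((x : LaurentSeries ℂ))⁻¹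
    rw [map_inv₀, map_inv₀]
    exact hx.inv

/-! ### Clause `diam` -/

variable {M : ℕ} [NeZero M] {H : Subgroup (ZMod M)ˣ} {ℓ : ℕ} [Fact ℓ.Prime]

/-- **Clause `diam` from the generators.** -/
theorem s48h_diam_of_gens (φ : ↥(laurentBaseChange ℂ (s48k_FHQ M H)) →+* ffm_E M)
    (hdiamAut : ∀ d : (ZMod M)ˣ, s48k_IsDiamondAut M H d (s48k_diamondAut M H d))
    (hJinv : ∀ σ : SL(2, ℤ), σ ∈ Gamma0 M → ∀ x : ↥(s48k_FH M H),
      (x : LaurentSeries Qbar) ∈ modularFunctionFieldBar M →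
        σ⁻¹ • φ (s18q_map (algebraMap Qbar ℂ) (s48k_FHQ M H) x) =
          φ (s18q_map (algebraMap Qbar ℂ) (s48k_FHQ M H) x))
    (hsinv : ∀ (d : (ZMod M)ˣ) (σ : SL(2, ℤ)), σ ∈ Gamma0 M →
      ((σ 1 1 : ℤ) : ZMod M) = ((d : (ZMod M)ˣ) : ZMod M) → ∀ u : (ZMod M)ˣ,
        σ⁻¹ • φ (s18q_map (algebraMap Qbar ℂ) (s48k_FHQ M H) (s48k_sBar M H u)) =
          φ (s18q_map (algebraMap Qbar ℂ) (s48k_FHQ M H) (s48k_sBar M H (u * d⁻¹))))
    (d : (ZMod M)ˣ) (σ : SL(2, ℤ)) (hσ : σ ∈ Gamma0 M)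
    (hσd : ((σ 1 1 : ℤ) : ZMod M) = ((d : (ZMod M)ˣ) : ZMod M)) (f : ↥(s48k_FH M H)) :
    φ (s18q_map (algebraMap Qbar ℂ) (s48k_FHQ M H) (s48k_diamondAut M H d f)) =
      σ⁻¹ • φ (s18q_map (algebraMap Qbar ℂ) (s48k_FHQ M H) f) := by
  revert f
  have hS : ∀ y ∈ divisorExpansions M ∪ Set.range (s48k_sQ M H), y ∈ s48k_FHQ M H :=
    fun y hy => IntermediateField.subset_adjoin ℚ _ hy
  refine s48h_forall_of_gens' (L := Qbar) (s48k_FHQ M H)
    (divisorExpansions M ∪ Set.range (s48k_sQ M H)) hS le_rfl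
    (fun f : ↥(s48k_FH M H) =>
      φ (s18q_map (algebraMap Qbar ℂ) (s48k_FHQ M H) (s48k_diamondAut M H d f)) =
        σ⁻¹ • φ (s18q_map (algebraMap Qbar ℂ) (s48k_FHQ M H) f)) ?_ ?_ ?_ ?_ ?_
  · intro c
    show φ (s18q_map (algebraMap Qbar ℂ) (s48k_FHQ M H)
        (s48k_diamondAut M H d (algebraMap Qbar ↥(s48k_FH M H) c))) =
      σ⁻¹ • φ (s18q_map (algebraMap Qbar ℂ) (s48k_FHQ M H) (algebraMap Qbar ↥(s48k_FH M H) c))
    rw [AlgEquiv.commutes]
    exact (hJinv σ hσ _ (IntermediateField.algebraMap_mem _ c)).symm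
  · intro x y hx hy
    show φ (s18q_map (algebraMap Qbar ℂ) (s48k_FHQ M H) (s48k_diamondAut M H d (x + y))) =
      σ⁻¹ • φ (s18q_map (algebraMap Qbar ℂ) (s48k_FHQ M H) (x + y))
    rw [map_add, map_add, map_add, map_add, map_add, smul_add]
    exact congrArg₂ (· + ·) hx hy
  · intro x y hx hy
    show φ (s18q_map (algebraMap Qbar ℂ) (s48k_FHQ M H) (s48k_diamondAut M H d (x * y))) =
      σ⁻¹ • φ (s18q_map (algebraMap Qbar ℂ) (s48k_FHQ M H) (x * y))
    rw [map_mul, map_mul, map_mul, map_mul, map_mul, smul_mul']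
    exact congrArg₂ (· * ·) hx hy
  · intro x hx
    show φ (s18q_map (algebraMap Qbar ℂ) (s48k_FHQ M H) (s48k_diamondAut M H d x⁻¹)) =
      σ⁻¹ • φ (s18q_map (algebraMap Qbar ℂ) (s48k_FHQ M H) x⁻¹)
    rw [map_inv₀, map_inv₀, map_inv₀, map_inv₀, map_inv₀, smul_inv'']
    exact congrArg (·⁻¹) hx
  · rintro y (hy | ⟨u, rfl⟩)
    · have hmem : coeffEmb Qbar y ∈ modularFunctionFieldBar M :=
        coeffEmb_mem_laurentBaseChange Qbar (IntermediateField.subset_adjoin ℚ _ hy)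
      show φ (s18q_map (algebraMap Qbar ℂ) (s48k_FHQ M H) (s48k_diamondAut M H d _)) = σ⁻¹ • φ _
      rw [(hdiamAut d).1 _ hmem]
      exact (hJinv σ hσ _ hmem).symm
    · show φ (s18q_map (algebraMap Qbar ℂ) (s48k_FHQ M H)
          (s48k_diamondAut M H d (s48k_sBar M H u))) = σ⁻¹ • φ _
      rw [(hdiamAut d).2 u]
      exact (hsinv d σ hσ hσd u).symm

/-- **`s48h_EqHyp D` from generator-level facts.** -/
theorem s48h_eqHyp_of_gens (D : s48desc_ModelC M H ℓ)
    (hconst : ∀ c : ℂ, D.φ (algebraMap ℂ _ c) = algebraMap ℂ (ffm_E M) c)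
    (hgenJ : ∀ y (hy : y ∈ divisorExpansions M), s48h_HasQExp (s29m_inclE M (D.φ ⟨coeffEmb ℂ y,
      coeffEmb_mem_laurentBaseChange ℂ
        (s48k_full_le_FHQ M H (IntermediateField.subset_adjoin ℚ _ hy))⟩)) (coeffEmb ℂ y))
    (hgenS : ∀ u : (ZMod M)ˣ, s48h_HasQExp (s29m_inclE M (D.φ ⟨coeffEmb ℂ (s48k_sQ M H u),
      coeffEmb_mem_laurentBaseChange ℂ (s48k_sQ_mem M H u)⟩)) (coeffEmb ℂ (s48k_sQ M H u)))
    (hdiamAut : ∀ d : (ZMod M)ˣ, s48k_IsDiamondAut M H d (s48k_diamondAut M H d))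
    (hJinv : ∀ σ : SL(2, ℤ), σ ∈ Gamma0 M → ∀ x : ↥(s48k_FH M H),
      (x : LaurentSeries Qbar) ∈ modularFunctionFieldBar M →
        σ⁻¹ • D.φ (s18q_map (algebraMap Qbar ℂ) (s48k_FHQ M H) x) =
          D.φ (s18q_map (algebraMap Qbar ℂ) (s48k_FHQ M H) x))
    (hsinv : ∀ (d : (ZMod M)ˣ) (σ : SL(2, ℤ)), σ ∈ Gamma0 M →
      ((σ 1 1 : ℤ) : ZMod M) = ((d : (ZMod M)ˣ) : ZMod M) → ∀ u : (ZMod M)ˣ,
        σ⁻¹ • D.φ (s18q_map (algebraMap Qbar ℂ) (s48k_FHQ M H) (s48k_sBar M H u)) =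
          D.φ (s18q_map (algebraMap Qbar ℂ) (s48k_FHQ M H) (s48k_sBar M H (u * d⁻¹)))) :
    s48h_EqHyp D where
  qexp := by
    refine s48h_qexp_of_gens (s48k_FHQ M H) (divisorExpansions M ∪ Set.range (s48k_sQ M H))
      (fun y hy => IntermediateField.subset_adjoin ℚ _ hy) le_rfl D.φ hconst ?_
    rintro y (hy | ⟨u, rfl⟩)
    · exact hgenJ y hy
    · exact hgenS u
  diam := s48h_diam_of_gens D.φ hdiamAut hJinv hsinv

end Fermat.Agent.Lib.S48
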