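/-
S48 / DS-1, [T5] (helper3), KField part (F1): **formal Fourier inversion on `(ℤ/M)ˣ/H`.**

The rational generators `s_u` (`s48k_sQ M H u`, weight = indicator of the coset `uH`) of `F_H` are
`ℂ`-linear combinations of the character generators `t_χ` (`s48h_tC χ`, weight `χ`), `χ` trivial
on `H`:

  `φ(M) • s_u = ∑_χ a_χ(u) • t_χ`,  `a_χ(u) = ∑_{h ∈ H} χ((uh)⁻¹)` (`= 0` unless `χ|_H = 1`).
-/
import Mathlib
import Fermat.Agent.Lib.S48.KIfaceH
import Fermat.Agent.Lib.FF.BridgeJ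

set_option autoImplicit false
set_option linter.unusedSectionVars false

namespace Fermat.Agent.Lib.S48

open ModularCurve
open Fermat.Agent.Lib.FF

noncomputable section

/-! ### Linearity of the formal generator in the weight -/

section Linear

variable {R : Type*} [CommRing R]

theorem s48h_sigma_sum {ι : Type*} (s : Finset ι) (a : ι → R) (w : ι → ℕ → R) (k n : ℕ) :
    s48k_sigma (fun c => ∑ i ∈ s, a i * w i c) k n = ∑ i ∈ s, a i * s48k_sigma (w i) k n := by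
  simp only [s48k_sigma, Finset.sum_mul, Finset.mul_sum]
  rw [Finset.sum_comm]
  refine Finset.sum_congr rfl fun i _ => Finset.sum_congr rfl fun x _ => ?_
  ring

theorem s48h_tPS_sum {ι : Type*} (s : Finset ι) (a : ι → R) (w : ι → ℕ → R) :
    s48k_tPS (fun c => ∑ i ∈ s, a i * w i c) = ∑ i ∈ s, PowerSeries.C (a i) * s48k_tPS (w i) := by
  have hG : s48k_G1PS (fun c => ∑ i ∈ s, a i * w i c) =
      ∑ i ∈ s, PowerSeries.C (a i) * s48k_G1PS (w i) := by
    ext n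
    rw [s48k_G1PS, PowerSeries.coeff_mk, s48h_sigma_sum, map_sum]
    refine Finset.sum_congr rfl fun i _ => ?_
    rw [PowerSeries.coeff_C_mul, s48k_G1PS, PowerSeries.coeff_mk]
  rw [s48k_tPS, hG, Finset.sum_mul]
  refine Finset.sum_congr rfl fun i _ => ?_
  rw [s48k_tPS, mul_assoc]

theorem s48h_tPS_smul (a : R) (w : ℕ → R) :
    s48k_tPS (fun c => a * w c) = PowerSeries.C a * s48k_tPS w := by
  have := s48h_tPS_sum (Finset.univ : Finset (Fin 1)) (fun _ => a) (fun _ => w)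
  simpa using this

end Linear

variable {M : ℕ} [NeZero M] (H : Subgroup (ZMod M)ˣ)

/-- The formal character generator `t_χ ∈ ℂ((q))`. -/
def s48h_tC (χ : DirichletCharacter ℂ M) : LaurentSeries ℂ :=
  HahnSeries.ofPowerSeries ℤ ℂ (s48k_tPS (fun c : ℕ => χ (c : ZMod M)))

open Classical in
/-- The Fourier coefficient `a_χ(u) = ∑_{h ∈ H} χ((uh)⁻¹)`. -/
def s48h_fcoef (χ : DirichletCharacter ℂ M) (u : (ZMod M)ˣ) : ℂ :=
  ∑ h : (ZMod M)ˣ, if h ∈ H then χ (((u * h)⁻¹ : (ZMod M)ˣ) : ZMod M) else 0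

/-- `a_χ(u) = 0` unless `χ` is trivial on `H`. -/
theorem s48h_fcoef_eq_zero (χ : DirichletCharacter ℂ M) {h₀ : (ZMod M)ˣ} (hh₀ : h₀ ∈ H)
    (hχ : χ ((h₀ : (ZMod M)ˣ) : ZMod M) ≠ 1) (u : (ZMod M)ˣ) : s48h_fcoef H χ u = 0 := by
  classical
  have h1 : s48h_fcoef H χ u =
      χ (((h₀⁻¹ : (ZMod M)ˣ)) : ZMod M) * s48h_fcoef H χ u := by
    have hre : s48h_fcoef H χ u = ∑ h : (ZMod M)ˣ,
        if h * h₀ ∈ H then χ (((u * (h * h₀))⁻¹ : (ZMod M)ˣ) : ZMod M) else 0 := by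
      rw [s48h_fcoef]
      exact (Equiv.sum_comp (Equiv.mulRight h₀)
        (fun h : (ZMod M)ˣ => if h ∈ H then χ (((u * h)⁻¹ : (ZMod M)ˣ) : ZMod M) else 0)).symm
    conv_lhs => rw [hre]
    rw [s48h_fcoef, Finset.mul_sum]
    refine Finset.sum_congr rfl fun h _ => ?_
    have hiff : h * h₀ ∈ H ↔ h ∈ H := Subgroup.mul_mem_cancel_right H hh₀
    by_cases hh : h ∈ H
    · rw [if_pos (hiff.mpr hh), if_pos hh, ← map_mul, ← Units.val_mul]
      congr 2
      group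
    · rw [if_neg (fun h' => hh (hiff.mp h')), if_neg hh, mul_zero]
  have h2 : χ (((h₀⁻¹ : (ZMod M)ˣ)) : ZMod M) ≠ 1 := by
    intro h3
    apply hχ
    have h4 : χ ((h₀ : (ZMod M)ˣ) : ZMod M) * χ (((h₀⁻¹ : (ZMod M)ˣ)) : ZMod M) = 1 := by
      rw [← map_mul, ← Units.val_mul, mul_inv_cancel, Units.val_one, map_one]
    rwa [h3, mul_one] at h4
  by_contra h0
  apply h2
  have h5 : (χ (((h₀⁻¹ : (ZMod M)ˣ)) : ZMod M) - 1) * s48h_fcoef H χ u = 0 := by
    rw [sub_mul, one_mul, ← h1, sub_self]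
  rcases mul_eq_zero.mp h5 with h6 | h6
  · exact sub_eq_zero.mp h6
  · exact absurd h6 h0

/-- **The weight identity**: `∑_χ a_χ(u) χ(c) = φ(M) · 1_{uH}(c)`. -/
theorem s48h_wCoset_fourier (u : (ZMod M)ˣ) (c : ℕ) :
    ∑ χ : DirichletCharacter ℂ M, s48h_fcoef H χ u * χ (c : ZMod M) =
      (M.totient : ℂ) * ((s48k_wCoset M H u c : ℚ) : ℂ) := by
  classical
  have h1 : ∀ h : (ZMod M)ˣ, ∑ χ : DirichletCharacter ℂ M,
      (if h ∈ H then χ (((u * h)⁻¹ : (ZMod M)ˣ) : ZMod M) else 0) * χ (c : ZMod M) =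
      if h ∈ H ∧ ((u * h : (ZMod M)ˣ) : ZMod M) = (c : ZMod M) then (M.totient : ℂ) else 0 := by
    intro h
    by_cases hh : h ∈ H
    · simp only [hh, true_and, if_true]
      have h2 := DirichletCharacter.sum_char_inv_mul_char_eq ℂ
        (a := ((u * h : (ZMod M)ˣ) : ZMod M)) (Units.isUnit _) (c : ZMod M)
      rw [ZMod.inv_coe_unit] at h2
      exact h2
    · simp [hh]
  simp only [s48h_fcoef, Finset.sum_mul]
  rw [Finset.sum_comm, Finset.sum_congr rfl fun h _ => h1 h]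
  rw [s48k_wCoset]
  by_cases hex : ∃ h ∈ H, ((c : ℕ) : ZMod M) = ((u * h : (ZMod M)ˣ) : ZMod M)
  · obtain ⟨h₀, hh₀, hc⟩ := hex
    rw [if_pos ⟨h₀, hh₀, hc⟩, Finset.sum_eq_single h₀]
    · rw [if_pos ⟨hh₀, hc.symm⟩]
      simp
    · intro h _ hne
      rw [if_neg]
      rintro ⟨-, h3⟩
      apply hne
      have : u * h = u * h₀ := Units.ext (by rw [h3, hc])
      exact mul_left_cancel this
    · intro h
      exact absurd (Finset.mem_univ _) h
  · rw [if_neg hex]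
    simp only [Rat.cast_zero, mul_zero]
    refine Finset.sum_eq_zero fun h _ => ?_
    rw [if_neg]
    rintro ⟨hh, h3⟩
    exact hex ⟨h, hh, h3.symm⟩

/-- The generator `s_u ⊗ ℂ` as a power series. -/
theorem s48h_coeffEmb_sQ (u : (ZMod M)ˣ) :
    coeffEmb ℂ (s48k_sQ M H u) = HahnSeries.ofPowerSeries ℤ ℂ
      (s48k_tPS (fun c : ℕ => ((s48k_wCoset M H u c : ℚ) : ℂ))) := by
  rw [s48k_sQ, coeffEmb, ffb_coeffMap_ofPowerSeries, s48k_tPS_map]
  rfl

/-- **Formal Fourier inversion**: `φ(M) • s_u = ∑_χ a_χ(u) • t_χ`. -/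
theorem s48h_sQ_fourier (u : (ZMod M)ˣ) :
    (M.totient : ℂ) • coeffEmb ℂ (s48k_sQ M H u) =
      ∑ χ : DirichletCharacter ℂ M, s48h_fcoef H χ u • s48h_tC χ := by
  have h1 := s48h_tPS_sum (Finset.univ : Finset (DirichletCharacter ℂ M))
    (fun χ => s48h_fcoef H χ u) (fun χ (c : ℕ) => χ (c : ZMod M))
  have h2 : (fun c : ℕ => ∑ χ : DirichletCharacter ℂ M, s48h_fcoef H χ u * χ (c : ZMod M)) =
      fun c : ℕ => (M.totient : ℂ) * ((s48k_wCoset M H u c : ℚ) : ℂ) :=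
    funext fun c => s48h_wCoset_fourier H u c
  rw [h2, s48h_tPS_smul] at h1
  have h3 := congrArg (HahnSeries.ofPowerSeries ℤ ℂ) h1
  rw [map_mul, map_sum] at h3
  simp only [map_mul] at h3
  have hC : ∀ a : ℂ, HahnSeries.ofPowerSeries ℤ ℂ (PowerSeries.C a) =
      (HahnSeries.C a : LaurentSeries ℂ) := fun a => HahnSeries.ofPowerSeries_C a
  simp only [hC, HahnSeries.C_mul_eq_smul] at h3
  rw [s48h_coeffEmb_sQ]
  exact h3

end

end Fermat.Agent.Lib.S48
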