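/-
S48 / DS-1, [T5] (helper3), KField part (F2): **the generic bridge on `Frac(B)`**, over an arbitrary
constant field `K` of characteristic zero with an embedding `ι : K →+* ℂ`.

`B = s29bp_B ι N ⊆ K((q))` is the `K`-algebra of Laurent series whose image under `ι` is the
`q`-expansion of an element of `ffm_R N` (landed, BPPhi), with the evaluation `ψ_B : B →+* ffm_R N`.
* `s48h_FB ι N` : the fraction field of `B` inside `K((q))`;
* `s48h_Phi ι N : ↥(s48h_FB ι N) →+* ffm_E N` : the extension of `ψ_B`;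
* `s48h_Phi_qexp` : `Φ x` is THE meromorphic function with `q`-expansion `ι x`;
* `s48h_Phi_of_isLaurent` : if `r ∈ ffm_R N` has the Laurent expansion `ι x` then `Φ x = r`.
-/
import Mathlib
import Fermat.Agent.Lib.S29.BPPhi
import Fermat.Agent.Lib.S48.HKQExp

set_option autoImplicit false
set_option linter.unusedSectionVars false

namespace Fermat.Agent.Lib.S48

open UpperHalfPlane hiding I
open ModularCurve IntermediateField Matrix.SpecialLinearGroup CongruenceSubgroup
open Fermat.Agent.Lib.FF Fermat.Agent.Lib.S29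
open scoped MatrixGroups Manifold

noncomputable section

variable {K : Type*} [Field K] [Algebra ℚ K] (ι : K →+* ℂ)

/-- The fraction field of `B` inside `K((q))`. -/
abbrev s48h_FB (N : ℕ) : IntermediateField K (LaurentSeries K) :=
  IntermediateField.adjoin K (s29bp_B ι N : Set (LaurentSeries K))

theorem s48h_B_le_FB (N : ℕ) : s29bp_B ι N ≤ (s48h_FB ι N).toSubalgebra :=
  fun _ hx => IntermediateField.subset_adjoin K _ hx

instance s48h_algebraBF (N : ℕ) : Algebra (s29bp_B ι N) ↥(s48h_FB ι N) :=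
  (Subalgebra.inclusion (s48h_B_le_FB ι N)).toAlgebra

@[simp] theorem s48h_algebraMap_BF_coe (N : ℕ) (a : s29bp_B ι N) :
    ((algebraMap (s29bp_B ι N) ↥(s48h_FB ι N) a : ↥(s48h_FB ι N)) : LaurentSeries K) =
      (a : LaurentSeries K) := rfl

instance s48h_isScalarTowerBF (N : ℕ) : IsScalarTower K (s29bp_B ι N) ↥(s48h_FB ι N) :=
  IsScalarTower.of_algebraMap_eq fun _ => rfl

instance s48h_faithfulSMulBF (N : ℕ) : FaithfulSMul (s29bp_B ι N) ↥(s48h_FB ι N) :=
  Subalgebra.inclusion.faithfulSMul (s48h_B_le_FB ι N)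

theorem s48h_BF_surj (N : ℕ) (z : ↥(s48h_FB ι N)) : ∃ x y : s29bp_B ι N,
    z = algebraMap (s29bp_B ι N) ↥(s48h_FB ι N) x / algebraMap (s29bp_B ι N) ↥(s48h_FB ι N) y := by
  have hz : (z : LaurentSeries K) ∈
      IntermediateField.adjoin K (s29bp_B ι N : Set (LaurentSeries K)) := z.2
  obtain ⟨x, hx, y, hy, heq⟩ := IntermediateField.mem_adjoin_iff_div.mp hz
  rw [Algebra.adjoin_eq] at hx hy
  refine ⟨⟨x, hx⟩, ⟨y, hy⟩, Subtype.ext ?_⟩
  rw [heq]
  rfl

instance s48h_isFractionRingBF (N : ℕ) : IsFractionRing (s29bp_B ι N) ↥(s48h_FB ι N) :=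
  IsFractionRing.of_field (s29bp_B ι N) ↥(s48h_FB ι N) (s48h_BF_surj ι N)

variable (N : ℕ)

/-- **The generic bridge**: the extension of `ψ_B` to the fraction fields. -/
def s48h_Phi : ↥(s48h_FB ι N) →+* ffm_E N :=
  ffg_lift (A := s29bp_B ι N) (F := ↥(s48h_FB ι N)) (R := ffm_R N) (E := ffm_E N)
    (s29bp_psiBHom ι N) (s29bp_psiBHom_injective ι N)

theorem s48h_Phi_algebraMap (a : s29bp_B ι N) :
    s48h_Phi ι N (algebraMap (s29bp_B ι N) ↥(s48h_FB ι N) a) =
      algebraMap (ffm_R N) (ffm_E N) (s29bp_psiBHom ι N a) :=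
  ffg_lift_algebraMap _ _ a

variable {N} in
/-- If `r ∈ ffm_R N` has the Laurent expansion `ι x` then `x ∈ B`. -/
theorem s48h_mem_B_of_isLaurent {x : LaurentSeries K} {r : ffm_R N}
    (h : ffb_IsLaurent (r : ℍ → ℂ) (coeffMap ι x)) : x ∈ s29bp_B ι N :=
  ⟨r, h⟩

variable {N} in
/-- If `r ∈ ffm_R N` has the Laurent expansion `ι x` then `Φ x = r`. -/
theorem s48h_Phi_of_isLaurent {x : ↥(s48h_FB ι N)} {r : ffm_R N}
    (h : ffb_IsLaurent (r : ℍ → ℂ) (coeffMap ι (x : LaurentSeries K))) :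
    s48h_Phi ι N x = algebraMap (ffm_R N) (ffm_E N) r := by
  have hx : (x : LaurentSeries K) ∈ s29bp_B ι N := s48h_mem_B_of_isLaurent ι h
  have e : x = algebraMap (s29bp_B ι N) ↥(s48h_FB ι N) ⟨(x : LaurentSeries K), hx⟩ :=
    Subtype.ext rfl
  rw [e, s48h_Phi_algebraMap]
  congr 1
  exact s29bp_psiB_eq ι (x := ⟨(x : LaurentSeries K), hx⟩) h

theorem s48h_Phi_const (c : K) :
    s48h_Phi ι N (algebraMap K ↥(s48h_FB ι N) c) = algebraMap ℂ (ffm_E N) (ι c) := by
  have h : ffb_IsLaurent ((algebraMap ℂ (ffm_R N) (ι c) : ffm_R N) : ℍ → ℂ)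
      (coeffMap ι ((algebraMap K ↥(s48h_FB ι N) c : ↥(s48h_FB ι N)) : LaurentSeries K)) := by
    show ffb_IsLaurent (fun _ : ℍ => ι c) (coeffMap ι (algebraMap K (LaurentSeries K) c))
    rw [s29bp_coeffMap_algebraMap]
    exact ffb_IsLaurent.const (ι c)
  rw [s48h_Phi_of_isLaurent ι h, ← IsScalarTower.algebraMap_apply]

/-- **`Φ x` has the `q`-expansion `ι x`.** -/
theorem s48h_Phi_qexp (x : ↥(s48h_FB ι N)) :
    s48h_HasQExp (s29m_inclE N (s48h_Phi ι N x)) (coeffMap ι (x : LaurentSeries K)) := by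
  obtain ⟨a, b, hb, rfl⟩ := IsFractionRing.div_surjective (A := s29bp_B ι N) x
  have hb0 : b ≠ 0 := nonZeroDivisors.ne_zero hb
  have hbF : algebraMap (s29bp_B ι N) ↥(s48h_FB ι N) b ≠ 0 := by
    intro h0
    exact hb0 ((FaithfulSMul.algebraMap_injective (s29bp_B ι N) ↥(s48h_FB ι N))
      (by rw [h0, map_zero]))
  have hbL : coeffMap ι (b : LaurentSeries K) ≠ 0 := by
    intro h0
    apply hb0
    apply Subtype.ext
    apply ffb_coeffMap_injective _ ι.injective
    rw [h0]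
    simp
  have hψb : s29bp_psiBHom ι N b ≠ 0 := fun h0 =>
    hb0 (s29bp_psiBHom_injective ι N (by rw [h0, map_zero]))
  refine ⟨(s29bp_psiBHom ι N a : ℍ → ℂ), (s29bp_psiBHom ι N b : ℍ → ℂ),
    (s29bp_psiBHom ι N a).2.mdiff, (s29bp_psiBHom ι N b).2.mdiff,
    coeffMap ι (a : LaurentSeries K), coeffMap ι (b : LaurentSeries K),
    s29bp_psiBHom_isLaurent ι N a, s29bp_psiBHom_isLaurent ι N b, hbL, ?_, ?_⟩
  · rw [map_div₀, s48h_Phi_algebraMap, s48h_Phi_algebraMap, map_div₀, s29m_inclE_algebraMap,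
      s29m_inclE_algebraMap]
    have hne : algebraMap s29m_O s29m_M (s29m_inclR N (s29bp_psiBHom ι N b)) ≠ 0 := by
      intro h0
      apply hψb
      apply s29m_inclR_injective N
      apply s29m_algebraMap_injective
      rw [h0, map_zero, map_zero]
    exact div_mul_cancel₀ _ hne
  · have h1 : algebraMap (s29bp_B ι N) ↥(s48h_FB ι N) a /
        algebraMap (s29bp_B ι N) ↥(s48h_FB ι N) b *
        algebraMap (s29bp_B ι N) ↥(s48h_FB ι N) b = algebraMap (s29bp_B ι N) ↥(s48h_FB ι N) a :=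
      div_mul_cancel₀ _ hbF
    have h2 := congrArg (fun z : ↥(s48h_FB ι N) => coeffMap ι (z : LaurentSeries K)) h1
    simp only [MulMemClass.coe_mul, map_mul] at h2
    exact h2

/-- `Φ x` is characterised by its `q`-expansion. -/
theorem s48h_Phi_unique {x : ↥(s48h_FB ι N)} {y : ffm_E N}
    (h : s48h_HasQExp (s29m_inclE N y) (coeffMap ι (x : LaurentSeries K))) :
    s48h_Phi ι N x = y :=
  s29m_inclE_injective N ((s48h_Phi_qexp ι N x).unique h)

end

end Fermat.Agent.Lib.S48
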