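/-
S48 / DS-1, [T5] (helper3), KField part (F3): **the bridge `φ_H : F_H ⊗ ℂ → ffm_E M`.**

* `s48h_TR`, `s48h_SR` : the analytic generators `T_χ`, `S_u = φ(M)⁻¹ ∑_χ a_χ(u) T_χ` in `ffm_R M`;
* `s48h_SR_isLaurent` : `S_u` has the `q`-expansion `s_u ⊗ ℂ`; `s48h_SR_smul` :
  `γ • S_u = S_{u e⁻¹}` for `γ ∈ Γ₀(M)`, `e ≡` lower right entry of `γ⁻¹`;
* `s48h_FHC_le` : `F_H ⊗ ℂ ⊆ Frac(B)`; `s48h_phiH` : the bridge, with `s48h_phiH_qexp`,
  `s48h_phiH_const`, `s48h_phiH_sC`, `s48h_phiH_Jd`, `s48h_phiH_unique`.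
-/
import Mathlib
import Fermat.Agent.Lib.S48.HKF1
import Fermat.Agent.Lib.S48.HKF2
import Fermat.Agent.Lib.S48.KEisT

set_option autoImplicit false
set_option linter.unusedSectionVars false

namespace Fermat.Agent.Lib.S48

open UpperHalfPlane hiding I
open ModularCurve IntermediateField Matrix.SpecialLinearGroup CongruenceSubgroup
open Fermat.Agent.Lib.FF Fermat.Agent.Lib.S29
open scoped MatrixGroups Manifold

noncomputable section

/-! ### `ffb_IsLaurent`: scalar multiples and finite sums -/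

theorem s48h_isLaurent_smul {f : ℍ → ℂ} {x : LaurentSeries ℂ} (c : ℂ) (h : ffb_IsLaurent f x) :
    ffb_IsLaurent (c • f) (c • x) := by
  have h1 := (ffb_IsLaurent.const c).mul h
  rw [HahnSeries.C_mul_eq_smul] at h1
  have e : (fun _ : ℍ => c) * f = c • f := by
    funext z
    simp
  rwa [e] at h1

theorem s48h_isLaurent_sum {ι : Type*} (s : Finset ι) (f : ι → ℍ → ℂ) (x : ι → LaurentSeries ℂ)
    (h : ∀ i ∈ s, ffb_IsLaurent (f i) (x i)) :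
    ffb_IsLaurent (∑ i ∈ s, f i) (∑ i ∈ s, x i) := by
  classical
  induction s using Finset.induction_on with
  | empty =>
    rw [Finset.sum_empty, Finset.sum_empty]
    exact s48h_isLaurent_zero
  | insert a s ha ih =>
    rw [Finset.sum_insert ha, Finset.sum_insert ha]
    exact (h a (Finset.mem_insert_self a s)).add
      (ih fun i hi => h i (Finset.mem_insert_of_mem hi))

variable {M : ℕ} [NeZero M]

/-! ### The analytic generators -/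

open Classical in
/-- The analytic character generator `T_χ ∈ ffm_R M` (zero for odd `χ`). -/
def s48h_TR (hM : 1 < M) (χ : DirichletCharacter ℂ M) : ffm_R M :=
  if hχ : χ.Even then ⟨s48k_T χ, s48k_T_isWH χ hM hχ⟩ else 0

theorem s48h_TR_of_even (hM : 1 < M) (χ : DirichletCharacter ℂ M) (hχ : χ.Even) :
    s48h_TR hM χ = ⟨s48k_T χ, s48k_T_isWH χ hM hχ⟩ := by
  rw [s48h_TR, dif_pos hχ]

theorem s48h_TR_of_not_even (hM : 1 < M) (χ : DirichletCharacter ℂ M) (hχ : ¬ χ.Even) :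
    s48h_TR hM χ = 0 := by
  rw [s48h_TR, dif_neg hχ]

/-- `γ • T_χ = χ(d_{γ⁻¹}) T_χ` for `γ ∈ Γ₀(M)`. -/
theorem s48h_TR_smul (hM : 1 < M) (χ : DirichletCharacter ℂ M) {γ : SL(2, ℤ)}
    (hγ : γ ∈ Gamma0 M) :
    γ • s48h_TR hM χ = χ ((((γ⁻¹ : SL(2, ℤ)) 1 1 : ℤ)) : ZMod M) • s48h_TR hM χ := by
  by_cases hχ : χ.Even
  · rw [s48h_TR_of_even hM χ hχ]
    apply Subtype.ext
    funext z
    show s48k_T χ (γ⁻¹ • z) = χ ((((γ⁻¹ : SL(2, ℤ)) 1 1 : ℤ)) : ZMod M) * s48k_T χ z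
    exact s48k_T_smul χ hM hχ (inv_mem hγ) z
  · rw [s48h_TR_of_not_even hM χ hχ, smul_zero, smul_zero]

variable (H : Subgroup (ZMod M)ˣ)

/-- The analytic generator `S_u = φ(M)⁻¹ ∑_χ a_χ(u) T_χ ∈ ffm_R M`. -/
def s48h_SR (hM : 1 < M) (u : (ZMod M)ˣ) : ffm_R M :=
  ((M.totient : ℂ))⁻¹ • ∑ χ : DirichletCharacter ℂ M, s48h_fcoef H χ u • s48h_TR hM χ

theorem s48h_totient_ne_zero : ((M.totient : ℕ) : ℂ) ≠ 0 := by
  have : 0 < M.totient := Nat.totient_pos.mpr (Nat.pos_of_ne_zero (NeZero.ne M))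
  exact_mod_cast this.ne'

/-- An odd character is nontrivial on `H ∋ -1`, so its Fourier coefficient vanishes. -/
theorem s48h_fcoef_of_not_even (hneg : (-1 : (ZMod M)ˣ) ∈ H) (χ : DirichletCharacter ℂ M)
    (hχ : ¬ χ.Even) (u : (ZMod M)ˣ) : s48h_fcoef H χ u = 0 := by
  refine s48h_fcoef_eq_zero H χ hneg ?_ u
  intro h1
  apply hχ
  simpa [DirichletCharacter.Even] using h1

/-- **`S_u` has the `q`-expansion `s_u ⊗ ℂ`.** -/
theorem s48h_SR_isLaurent (hM : 1 < M) (hneg : (-1 : (ZMod M)ˣ) ∈ H) (u : (ZMod M)ˣ) :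
    ffb_IsLaurent (s48h_SR H hM u : ℍ → ℂ) (coeffEmb ℂ (s48k_sQ M H u)) := by
  have hF := s48h_sQ_fourier H u
  have hx : coeffEmb ℂ (s48k_sQ M H u) = ((M.totient : ℂ))⁻¹ •
      ∑ χ : DirichletCharacter ℂ M, s48h_fcoef H χ u • s48h_tC χ := by
    rw [← hF, smul_smul, inv_mul_cancel₀ s48h_totient_ne_zero, one_smul]
  have hf : (s48h_SR H hM u : ℍ → ℂ) = ((M.totient : ℂ))⁻¹ •
      ∑ χ : DirichletCharacter ℂ M, s48h_fcoef H χ u • (s48h_TR hM χ : ℍ → ℂ) := by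
    rw [s48h_SR, Subalgebra.coe_smul, AddSubmonoidClass.coe_finsetSum]
    rfl
  rw [hx, hf]
  refine s48h_isLaurent_smul _ (s48h_isLaurent_sum _ _ _ fun χ _ => ?_)
  by_cases hχ : χ.Even
  · refine s48h_isLaurent_smul _ ?_
    rw [s48h_TR_of_even hM χ hχ]
    exact s48k_T_isLaurent χ hM hχ
  · rw [s48h_fcoef_of_not_even H hneg χ hχ u, zero_smul]
    have e : (0 : ℂ) • s48h_tC χ = 0 := by
      ext k
      simp
    rw [e]
    exact s48h_isLaurent_zero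

/-- `a_χ(u) χ(e) = a_χ(u e⁻¹)`. -/
theorem s48h_fcoef_mul (χ : DirichletCharacter ℂ M) (u e : (ZMod M)ˣ) :
    s48h_fcoef H χ u * χ ((e : (ZMod M)ˣ) : ZMod M) = s48h_fcoef H χ (u * e⁻¹) := by
  classical
  rw [s48h_fcoef, s48h_fcoef, Finset.sum_mul]
  refine Finset.sum_congr rfl fun h _ => ?_
  by_cases hh : h ∈ H
  · rw [if_pos hh, if_pos hh, ← map_mul, ← Units.val_mul]
    congr 2
    rw [mul_inv_rev, mul_inv_rev, mul_inv_rev, inv_inv]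
    rw [mul_comm h⁻¹ u⁻¹, mul_comm h⁻¹ (e * u⁻¹), mul_comm e u⁻¹, mul_assoc, mul_assoc,
      mul_comm h⁻¹ e]
  · rw [if_neg hh, if_neg hh, zero_mul]

/-- **`γ • S_u = S_{u e⁻¹}`** for `γ ∈ Γ₀(M)`, `e ≡` lower right entry of `γ⁻¹`. -/
theorem s48h_SR_smul (hM : 1 < M) {γ : SL(2, ℤ)} (hγ : γ ∈ Gamma0 M) (e : (ZMod M)ˣ)
    (he : ((e : (ZMod M)ˣ) : ZMod M) = ((((γ⁻¹ : SL(2, ℤ)) 1 1 : ℤ)) : ZMod M))
    (u : (ZMod M)ˣ) : γ • s48h_SR H hM u = s48h_SR H hM (u * e⁻¹) := by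
  rw [s48h_SR, s48h_SR, smul_comm, Finset.smul_sum]
  congr 1
  refine Finset.sum_congr rfl fun χ _ => ?_
  rw [smul_comm, s48h_TR_smul hM χ hγ, ← he, smul_smul, s48h_fcoef_mul]

end

end Fermat.Agent.Lib.S48
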