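/-
S48 / DS-1, [T5] (helper3), KField part (F3b): **the bridge `φ_H` and its formal properties**, over an
arbitrary constant field `K` of characteristic zero with an embedding `ι : K →+* ℂ`.

* `s48h_FHK_le` : `F_H ⊗ K ⊆ Frac(B_K)`; `s48h_phiH ι H hM hneg : F_H ⊗ K →+* ffm_E M` : the bridge;
* `s48h_phiH_qexp`, `s48h_phiH_const`, `s48h_phiH_unique`, `s48h_phiH_sK`, `s48h_phiH_Jd`;
* `s48h_phiH_smul_base` : `φ_H` is `Γ₀(M)`-invariant on `F̄₀(M) ⊗ K`;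
* `s48h_phiH_smul_sK` : `γ • φ_H (s_u) = φ_H (s_{u e⁻¹})`, `γ ∈ Γ₀(M)`, `e ≡ (γ⁻¹)₁₁`;
* `s48h_phiH_smul` : `Γ_H`-invariance; `s48h_phiH_gbridge` : helper9's `s48c_GBridge ι M Γ_H φ_H`;
* `s48h_phiH_map` : compatibility with base change `K → ℂ`;
* for `K = ℂ`: `s48h_phiHC_qexp`, `s48h_phiH_hJinv`, `s48h_phiH_hsinv` (the hypotheses of
  `s48h_eqHyp_of_gens`).
-/
import Mathlib
import Fermat.Agent.Lib.S48.HKF3
import Fermat.Agent.Lib.S48.HKEqG
import Fermat.Agent.Lib.S48.DescModel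

set_option autoImplicit false
set_option linter.unusedSectionVars false
set_option linter.style.haveILetI false

namespace Fermat.Agent.Lib.S48

open UpperHalfPlane hiding I
open AlgebraicCurve ModularCurve IntermediateField Matrix.SpecialLinearGroup CongruenceSubgroup
open Fermat.Agent.Lib.FF Fermat.Agent.Lib.S18 Fermat.Agent.Lib.S29
open scoped MatrixGroups Manifold

noncomputable section

local notation "Qbar" => AlgebraicClosure ℚ

attribute [local instance] s29a_algebraC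

variable {K : Type*} [Field K] [Algebra ℚ K] (ι : K →+* ℂ)
variable {M : ℕ} [NeZero M] (H : Subgroup (ZMod M)ˣ)

/-- `ι (y ⊗ K) = y ⊗ ℂ`. -/
theorem s48h_coeffMap_coeffEmb (y : LaurentSeries ℚ) :
    coeffMap ι (coeffEmb K y) = coeffEmb ℂ y := by
  rw [s29bp_coeffMap_coeffEmb]
  rfl

/-- `F_H ⊗ K ⊆ Frac(B_K)`. -/
theorem s48h_FHK_le (hM : 1 < M) (hneg : (-1 : (ZMod M)ˣ) ∈ H) :
    laurentBaseChange K (s48k_FHQ M H) ≤ s48h_FB ι M := by
  rw [s48k_FHQ, ffg_laurentBaseChange_adjoin, IntermediateField.adjoin_le_iff]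
  rintro _ ⟨y, hy | ⟨u, rfl⟩, rfl⟩
  · obtain ⟨d, hne, hd, rfl⟩ := hy
    haveI := hne
    refine IntermediateField.subset_adjoin K _
      (s48h_mem_B_of_isLaurent ι (r := ⟨ffb_jd d, ffb_jd_isWH M hd⟩) ?_)
    rw [s48h_coeffMap_coeffEmb]
    exact ffb_isLaurent_jd d
  · refine IntermediateField.subset_adjoin K _
      (s48h_mem_B_of_isLaurent ι (r := s48h_SR H hM u) ?_)
    rw [s48h_coeffMap_coeffEmb]
    exact s48h_SR_isLaurent H hM hneg u

/-- **The bridge `φ_H : F_H ⊗ K → ffm_E M`.** -/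
def s48h_phiH (hM : 1 < M) (hneg : (-1 : (ZMod M)ˣ) ∈ H) :
    ↥(laurentBaseChange K (s48k_FHQ M H)) →+* ffm_E M :=
  (s48h_Phi ι M).comp (IntermediateField.inclusion (s48h_FHK_le ι H hM hneg)).toRingHom

variable {H} (hM : 1 < M) (hneg : (-1 : (ZMod M)ˣ) ∈ H)

theorem s48h_phiH_apply (x : ↥(laurentBaseChange K (s48k_FHQ M H))) :
    s48h_phiH ι H hM hneg x =
      s48h_Phi ι M ⟨(x : LaurentSeries K), s48h_FHK_le ι H hM hneg x.2⟩ := rfl

/-- **`φ_H h` has the `q`-expansion `ι h`.** -/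
theorem s48h_phiH_qexp (x : ↥(laurentBaseChange K (s48k_FHQ M H))) :
    s48h_HasQExp (s29m_inclE M (s48h_phiH ι H hM hneg x)) (coeffMap ι (x : LaurentSeries K)) :=
  s48h_Phi_qexp ι M ⟨(x : LaurentSeries K), s48h_FHK_le ι H hM hneg x.2⟩

theorem s48h_phiH_unique {x : ↥(laurentBaseChange K (s48k_FHQ M H))} {y : ffm_E M}
    (h : s48h_HasQExp (s29m_inclE M y) (coeffMap ι (x : LaurentSeries K))) :
    s48h_phiH ι H hM hneg x = y :=
  s29m_inclE_injective M ((s48h_phiH_qexp ι hM hneg x).unique h)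

theorem s48h_phiH_const (c : K) :
    s48h_phiH ι H hM hneg (algebraMap K _ c) = algebraMap ℂ (ffm_E M) (ι c) :=
  s48h_Phi_const ι M c

theorem s48h_phiH_of_isLaurent {x : ↥(laurentBaseChange K (s48k_FHQ M H))} {r : ffm_R M}
    (h : ffb_IsLaurent (r : ℍ → ℂ) (coeffMap ι (x : LaurentSeries K))) :
    s48h_phiH ι H hM hneg x = algebraMap (ffm_R M) (ffm_E M) r :=
  s48h_Phi_of_isLaurent ι (x := ⟨(x : LaurentSeries K), s48h_FHK_le ι H hM hneg x.2⟩) h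

variable (K) in
/-- The generator `s_u ⊗ K`. -/
def s48h_sK (H : Subgroup (ZMod M)ˣ) (u : (ZMod M)ˣ) : ↥(laurentBaseChange K (s48k_FHQ M H)) :=
  ⟨coeffEmb K (s48k_sQ M H u), coeffEmb_mem_laurentBaseChange K (s48k_sQ_mem M H u)⟩

variable (K) in
/-- The generator `J_d ⊗ K`. -/
def s48h_JK (H : Subgroup (ZMod M)ˣ) {d : ℕ} [NeZero d] (hd : d ∣ M) :
    ↥(laurentBaseChange K (s48k_FHQ M H)) :=
  ⟨coeffEmb K (qExpand ℚ d jq), coeffEmb_mem_laurentBaseChange K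
    (s48k_full_le_FHQ M H (jqd_mem_full M hd))⟩

theorem s48h_phiH_sK (u : (ZMod M)ˣ) :
    s48h_phiH ι H hM hneg (s48h_sK K H u) =
      algebraMap (ffm_R M) (ffm_E M) (s48h_SR H hM u) := by
  refine s48h_phiH_of_isLaurent ι hM hneg ?_
  show ffb_IsLaurent _ (coeffMap ι (coeffEmb K (s48k_sQ M H u)))
  rw [s48h_coeffMap_coeffEmb]
  exact s48h_SR_isLaurent H hM hneg u

theorem s48h_phiH_Jd {d : ℕ} [NeZero d] (hd : d ∣ M) :
    s48h_phiH ι H hM hneg (s48h_JK K H hd) =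
      algebraMap (ffm_R M) (ffm_E M) ⟨ffb_jd d, ffb_jd_isWH M hd⟩ := by
  refine s48h_phiH_of_isLaurent ι hM hneg (r := ⟨ffb_jd d, ffb_jd_isWH M hd⟩) ?_
  show ffb_IsLaurent _ (coeffMap ι (coeffEmb K (qExpand ℚ d jq)))
  rw [s48h_coeffMap_coeffEmb]
  exact ffb_isLaurent_jd d

/-- `γ • φ_H (s_u) = φ_H (s_{u e⁻¹})` for `γ ∈ Γ₀(M)`, `e ≡ (γ⁻¹)₁₁`. -/
theorem s48h_phiH_smul_sK {γ : SL(2, ℤ)} (hγ : γ ∈ Gamma0 M) (e : (ZMod M)ˣ)
    (he : ((e : (ZMod M)ˣ) : ZMod M) = ((((γ⁻¹ : SL(2, ℤ)) 1 1 : ℤ)) : ZMod M))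
    (u : (ZMod M)ˣ) :
    γ • s48h_phiH ι H hM hneg (s48h_sK K H u) =
      s48h_phiH ι H hM hneg (s48h_sK K H (u * e⁻¹)) := by
  rw [s48h_phiH_sK, s48h_phiH_sK, ffm_smul_algebraMap, s48h_SR_smul H hM hγ e he u]

/-- `γ • φ_H (J_d) = φ_H (J_d)` for `γ ∈ Γ₀(M)`. -/
theorem s48h_phiH_smul_Jd {γ : SL(2, ℤ)} (hγ : γ ∈ Gamma0 M) {d : ℕ} [NeZero d] (hd : d ∣ M) :
    γ • s48h_phiH ι H hM hneg (s48h_JK K H hd) = s48h_phiH ι H hM hneg (s48h_JK K H hd) := by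
  rw [s48h_phiH_Jd, ffm_smul_algebraMap]
  congr 1
  apply Subtype.ext
  funext z
  show ffb_jd d (γ⁻¹ • z) = ffb_jd d z
  exact ffb_jd_smul_of_mem_Gamma0 M hd (inv_mem hγ) z

/-! ### Invariance -/

variable (K) in
/-- The inclusion `F̄₀(M) ⊗ K ⊆ F_H ⊗ K`. -/
def s48h_inclK (H : Subgroup (ZMod M)ˣ) :
    ↥(laurentBaseChange K (modularFunctionFieldFull M)) →ₐ[K]
      ↥(laurentBaseChange K (s48k_FHQ M H)) :=
  IntermediateField.inclusion (s48k_laurentBaseChange_mono K (s48k_full_le_FHQ M H))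

/-- `φ_H` is `Γ₀(M)`-invariant on `F̄₀(M) ⊗ K`. -/
theorem s48h_phiH_smul_base {γ : SL(2, ℤ)} (hγ : γ ∈ Gamma0 M)
    (y : ↥(laurentBaseChange K (modularFunctionFieldFull M))) :
    γ • s48h_phiH ι H hM hneg (s48h_inclK K H y) = s48h_phiH ι H hM hneg (s48h_inclK K H y) := by
  revert y
  refine s48h_forall_of_gens' (L := K) (modularFunctionFieldFull M) (divisorExpansions M)
    (fun y hy => IntermediateField.subset_adjoin ℚ _ hy) le_rfl
    (fun y => γ • s48h_phiH ι H hM hneg (s48h_inclK K H y) =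
      s48h_phiH ι H hM hneg (s48h_inclK K H y))
    ?_ ?_ ?_ ?_ ?_
  · intro c
    show γ • s48h_phiH ι H hM hneg (s48h_inclK K H (algebraMap K _ c)) =
      s48h_phiH ι H hM hneg (s48h_inclK K H (algebraMap K _ c))
    rw [AlgHom.commutes, s48h_phiH_const, smul_algebraMap]
  · intro x y hx hy
    show γ • s48h_phiH ι H hM hneg (s48h_inclK K H (x + y)) =
      s48h_phiH ι H hM hneg (s48h_inclK K H (x + y))
    rw [map_add, map_add, smul_add, hx, hy]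
  · intro x y hx hy
    show γ • s48h_phiH ι H hM hneg (s48h_inclK K H (x * y)) =
      s48h_phiH ι H hM hneg (s48h_inclK K H (x * y))
    rw [map_mul, map_mul, smul_mul', hx, hy]
  · intro x hx
    show γ • s48h_phiH ι H hM hneg (s48h_inclK K H x⁻¹) =
      s48h_phiH ι H hM hneg (s48h_inclK K H x⁻¹)
    rw [map_inv₀, map_inv₀, smul_inv'', hx]
  · rintro y ⟨d, hne, hd, rfl⟩
    haveI := hne
    exact s48h_phiH_smul_Jd ι hM hneg hγ hd

/-- `s_u` only depends on the coset `u H`. -/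
theorem s48h_sQ_mul_of_mem {e : (ZMod M)ˣ} (he : e ∈ H) (u : (ZMod M)ˣ) :
    s48k_sQ M H (u * e) = s48k_sQ M H u := by
  have hw : s48k_wCoset M H (u * e) = s48k_wCoset M H u := by
    funext c
    unfold s48k_wCoset
    congr 1
    apply propext
    constructor
    · rintro ⟨h, hh, hc⟩
      exact ⟨e * h, mul_mem he hh, by rw [hc, mul_assoc]⟩
    · rintro ⟨h, hh, hc⟩
      refine ⟨e⁻¹ * h, mul_mem (inv_mem he) hh, ?_⟩
      rw [hc]
      congr 1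
      group
  rw [s48k_sQ, hw, ← s48k_sQ]

theorem s48h_sK_mul_of_mem {e : (ZMod M)ˣ} (he : e ∈ H) (u : (ZMod M)ˣ) :
    s48h_sK K H (u * e) = s48h_sK K H u :=
  Subtype.ext (by show coeffEmb K _ = coeffEmb K _; rw [s48h_sQ_mul_of_mem he u])

/-- **`φ_H` is `Γ_H`-invariant.** -/
theorem s48h_phiH_smul {γ : SL(2, ℤ)} (hγ : γ ∈ s48h_GammaH M H)
    (x : ↥(laurentBaseChange K (s48k_FHQ M H))) :
    γ • s48h_phiH ι H hM hneg x = s48h_phiH ι H hM hneg x := by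
  have hγ0 : γ ∈ Gamma0 M := hγ.1
  obtain ⟨-, e, heH, he⟩ := inv_mem hγ
  revert x
  refine s48h_forall_of_gens' (L := K) (s48k_FHQ M H)
    (divisorExpansions M ∪ Set.range (s48k_sQ M H))
    (fun y hy => IntermediateField.subset_adjoin ℚ _ hy) le_rfl
    (fun x => γ • s48h_phiH ι H hM hneg x = s48h_phiH ι H hM hneg x) ?_ ?_ ?_ ?_ ?_
  · intro c
    show γ • s48h_phiH ι H hM hneg (algebraMap K _ c) = s48h_phiH ι H hM hneg (algebraMap K _ c)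
    rw [s48h_phiH_const, smul_algebraMap]
  · intro x y hx hy
    show γ • s48h_phiH ι H hM hneg (x + y) = s48h_phiH ι H hM hneg (x + y)
    rw [map_add, smul_add, hx, hy]
  · intro x y hx hy
    show γ • s48h_phiH ι H hM hneg (x * y) = s48h_phiH ι H hM hneg (x * y)
    rw [map_mul, smul_mul', hx, hy]
  · intro x hx
    show γ • s48h_phiH ι H hM hneg x⁻¹ = s48h_phiH ι H hM hneg x⁻¹
    rw [map_inv₀, smul_inv'', hx]
  · rintro y (⟨d, hne, hd, rfl⟩ | ⟨u, rfl⟩)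
    · haveI := hne
      exact s48h_phiH_smul_Jd ι hM hneg hγ0 hd
    · have h1 := s48h_phiH_smul_sK ι hM hneg hγ0 e he.symm u
      rw [s48h_sK_mul_of_mem (inv_mem heH) u] at h1
      exact h1

/-- **helper9's `s48c_GBridge` for `φ_H`.** -/
theorem s48h_phiH_gbridge :
    s48c_GBridge ι M (s48h_GammaH M H) (s48h_phiH ι H hM hneg) where
  const c := s48h_phiH_const ι hM hneg c
  inv γ hγ f := s48h_phiH_smul ι hM hneg hγ f

/-! ### Base change `K → ℂ`, and the case `K = ℂ` -/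

/-- `φ_{H,ℂ} (x ⊗ ℂ) = φ_{H,K} x`. -/
theorem s48h_phiH_map [Algebra K ℂ] (hι : algebraMap K ℂ = ι)
    (x : ↥(laurentBaseChange K (s48k_FHQ M H))) :
    s48h_phiH (RingHom.id ℂ) H hM hneg (s18q_map (algebraMap K ℂ) (s48k_FHQ M H) x) =
      s48h_phiH ι H hM hneg x := by
  refine s48h_phiH_unique (RingHom.id ℂ) hM hneg ?_
  rw [coeffMap_id, s18q_map_coe, hι]
  exact s48h_phiH_qexp ι hM hneg x

/-- `φ_{H,ℂ} h` has the `q`-expansion `h`. -/
theorem s48h_phiHC_qexp (x : ↥(laurentBaseChange ℂ (s48k_FHQ M H))) :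
    s48h_HasQExp (s29m_inclE M (s48h_phiH (RingHom.id ℂ) H hM hneg x)) (x : LaurentSeries ℂ) := by
  have h := s48h_phiH_qexp (RingHom.id ℂ) hM hneg x
  rwa [coeffMap_id] at h

/-- `s̄_u ⊗ ℂ = s_u ⊗ ℂ`. -/
theorem s48h_map_sBar (u : (ZMod M)ˣ) :
    s18q_map (algebraMap Qbar ℂ) (s48k_FHQ M H) (s48k_sBar M H u) = s48h_sK ℂ H u := by
  apply Subtype.ext
  show coeffMap (algebraMap Qbar ℂ) (coeffEmb Qbar (s48k_sQ M H u)) = coeffEmb ℂ (s48k_sQ M H u)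
  exact s18q_coeffMap_coeffEmb (algebraMap Qbar ℂ) _

/-- The hypothesis `hJinv` of `s48h_eqHyp_of_gens`. -/
theorem s48h_phiH_hJinv (σ : SL(2, ℤ)) (hσ : σ ∈ Gamma0 M) (x : ↥(s48k_FH M H))
    (hx : (x : LaurentSeries Qbar) ∈ modularFunctionFieldBar M) :
    σ⁻¹ • s48h_phiH (RingHom.id ℂ) H hM hneg
        (s18q_map (algebraMap Qbar ℂ) (s48k_FHQ M H) x) =
      s48h_phiH (RingHom.id ℂ) H hM hneg (s18q_map (algebraMap Qbar ℂ) (s48k_FHQ M H) x) := by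
  have hmem : coeffMap (algebraMap Qbar ℂ) (x : LaurentSeries Qbar) ∈
      laurentBaseChange ℂ (modularFunctionFieldFull M) :=
    s18q_coeffMap_mem (algebraMap Qbar ℂ) hx
  have e : s18q_map (algebraMap Qbar ℂ) (s48k_FHQ M H) x = s48h_inclK ℂ H ⟨_, hmem⟩ :=
    Subtype.ext rfl
  rw [e]
  exact s48h_phiH_smul_base (RingHom.id ℂ) hM hneg (inv_mem hσ) _

/-- The hypothesis `hsinv` of `s48h_eqHyp_of_gens`. -/
theorem s48h_phiH_hsinv (d : (ZMod M)ˣ) (σ : SL(2, ℤ)) (hσ : σ ∈ Gamma0 M)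
    (hσd : ((σ 1 1 : ℤ) : ZMod M) = ((d : (ZMod M)ˣ) : ZMod M)) (u : (ZMod M)ˣ) :
    σ⁻¹ • s48h_phiH (RingHom.id ℂ) H hM hneg
        (s18q_map (algebraMap Qbar ℂ) (s48k_FHQ M H) (s48k_sBar M H u)) =
      s48h_phiH (RingHom.id ℂ) H hM hneg
        (s18q_map (algebraMap Qbar ℂ) (s48k_FHQ M H) (s48k_sBar M H (u * d⁻¹))) := by
  rw [s48h_map_sBar, s48h_map_sBar]
  exact s48h_phiH_smul_sK (RingHom.id ℂ) hM hneg (inv_mem hσ) d (by rw [inv_inv, hσd]) u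

end

end Fermat.Agent.Lib.S48
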