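/-
S48 / DS-1, [T5] (helper3), KField part (F4): **the degree package for `(F_H ⊗ K, φ_H, Γ_H)`**, over an
arbitrary constant field `K` of characteristic zero with an embedding `ι : K →+* ℂ`.

* `s48h_jK K H` : the coordinate `j` in `F_H ⊗ K` (`s48h_j0 H` over `ℚ̄`);
* `s48h_phiH_j`    : `φ_H j = j`;
* `s48h_phiH_dist` : an element of `SL₂(ℤ)` fixing `φ_H (F_H ⊗ K)` pointwise lies in `Γ_H`;
* `s48h_phiH_linearIndependent` : linear disjointness;
* `s48h_phiH_degree` : `[F_H ⊗ K : K(j)] = [SL₂(ℤ) : Γ_H]`; `s48h_ffGen_jK : FFGen K j`;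
* `s48h_phiH_gdegHyp` : helper9's `s48c_GDegHyp K M Γ_H φ_H j`.
-/
import Mathlib
import Fermat.Agent.Lib.S48.HKF4
import Fermat.Agent.Lib.S29.BPDeg
import Fermat.Agent.Lib.S48.HDS

set_option autoImplicit false
set_option linter.unusedSectionVars false
set_option linter.style.haveILetI false

namespace Fermat.Agent.Lib.S48

open UpperHalfPlane hiding I
open AlgebraicCurve ModularCurve IntermediateField Matrix.SpecialLinearGroup CongruenceSubgroup
open Polynomial
open Fermat.Agent.Lib.FF Fermat.Agent.Lib.S18 Fermat.Agent.Lib.S29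
open scoped MatrixGroups Manifold

noncomputable section

local notation "Qbar" => AlgebraicClosure ℚ

attribute [local instance] s29a_algebraC

variable {K : Type*} [Field K] [Algebra ℚ K] (ι : K →+* ℂ)
variable {M : ℕ} [NeZero M] (H : Subgroup (ZMod M)ˣ)

theorem s48h_jq_mem_FHQ : jq ∈ s48k_FHQ M H := by
  have h := s48k_full_le_FHQ M H (jqd_mem_full M (one_dvd M))
  rwa [qExpand_one_apply] at h

variable (K) in
/-- The coordinate `j ∈ F_H ⊗ K`. -/
def s48h_jK : ↥(laurentBaseChange K (s48k_FHQ M H)) :=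
  ⟨coeffEmb K jq, coeffEmb_mem_laurentBaseChange K (s48h_jq_mem_FHQ H)⟩

/-- The coordinate `j ∈ F_H` over `ℚ̄`. -/
abbrev s48h_j0 : ↥(s48k_FH M H) := s48h_jK Qbar H

theorem s48h_map_j0 :
    s18q_map (algebraMap Qbar ℂ) (s48k_FHQ M H) (s48h_j0 H) = s48h_jK ℂ H := by
  apply Subtype.ext
  show coeffMap (algebraMap Qbar ℂ) (coeffEmb Qbar jq) = coeffEmb ℂ jq
  exact s18q_coeffMap_coeffEmb (algebraMap Qbar ℂ) _

variable {H} (hM : 1 < M) (hneg : (-1 : (ZMod M)ˣ) ∈ H)

/-- `φ_H j = j`. -/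
theorem s48h_phiH_j :
    s48h_phiH ι H hM hneg (s48h_jK K H) = algebraMap (ffm_R M) (ffm_E M) (ffg_jR M) := by
  refine s48h_phiH_of_isLaurent ι hM hneg (r := ffg_jR M) ?_
  show ffb_IsLaurent _ (coeffMap ι (coeffEmb K jq))
  rw [s48h_coeffMap_coeffEmb]
  exact ffb_isLaurent_j

theorem s48h_phiH_j_smul (γ : SL(2, ℤ)) :
    γ • s48h_phiH ι H hM hneg (s48h_jK K H) = s48h_phiH ι H hM hneg (s48h_jK K H) := by
  rw [s48h_phiH_j, ffm_smul_algebraMap, ffg_jR_smul]

theorem s48h_transcendental_jK : Transcendental K (s48h_jK K H) := by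
  have h : Transcendental K
      (algebraMap ↥(laurentBaseChange K (s48k_FHQ M H)) (LaurentSeries K) (s48h_jK K H)) :=
    s29bp_transcendental_jSeries K
  exact (transcendental_algebraMap_iff
    (algebraMap ↥(laurentBaseChange K (s48k_FHQ M H)) (LaurentSeries K)).injective).mp h

/-! ### Distinctness -/

/-- The constant coefficient of `s_u ⊗ ℂ` is `1_{uH}(1)`. -/
theorem s48h_coeff_zero_sQ (u : (ZMod M)ˣ) :
    (coeffEmb ℂ (s48k_sQ M H u)).coeff 0 = ((s48k_wCoset M H u 1 : ℚ) : ℂ) := by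
  rw [s48h_coeffEmb_sQ]
  have h := HahnSeries.ofPowerSeries_apply_coeff (Γ := ℤ)
    (s48k_tPS (fun c : ℕ => ((s48k_wCoset M H u c : ℚ) : ℂ))) 0
  rw [Nat.cast_zero] at h
  rw [h, PowerSeries.coeff_zero_eq_constantCoeff_apply, s48k_constantCoeff_tPS]

/-- DIST on generators: an element of `SL₂(ℤ)` fixing `φ_H (J_M)` and `φ_H (s_1)` lies in `Γ_H`. -/
theorem s48h_phiH_dist_gens (γ : SL(2, ℤ))
    (hJ : γ • s48h_phiH ι H hM hneg (s48h_JK K H (dvd_refl M)) =
      s48h_phiH ι H hM hneg (s48h_JK K H (dvd_refl M)))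
    (hs : γ • s48h_phiH ι H hM hneg (s48h_sK K H 1) = s48h_phiH ι H hM hneg (s48h_sK K H 1)) :
    γ ∈ s48h_GammaH M H := by
  -- `γ ∈ Γ₀(M)` from the generator `J_M`
  have hγ0 : γ ∈ Gamma0 M := by
    have h1 : γ • (⟨ffb_jd M, ffb_jd_isWH M (dvd_refl M)⟩ : ffm_R M) =
        ⟨ffb_jd M, ffb_jd_isWH M (dvd_refl M)⟩ := by
      apply ffm_algebraMap_injective M
      rw [← ffm_smul_algebraMap, ← s48h_phiH_Jd ι hM hneg (dvd_refl M), hJ]
    refine ffg_mem_Gamma0_of_j_scale_eq (NeZero.ne M) (ffb_dmul M) (fun z => ffb_dmul_coe M z) γ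
      fun z => ?_
    have h2 := congrArg (fun g : ffm_R M => (g : ℍ → ℂ) z) h1
    have h3 : ∀ w : ℍ, ((⟨ffb_jd M, ffb_jd_isWH M (dvd_refl M)⟩ : ffm_R M) : ℍ → ℂ) w =
        ffj_j (ffb_dmul M w) := fun w => ffb_jd_apply M w
    rw [← h3, ← h3]
    simpa using h2
  -- the lower right entry of `γ⁻¹` as a unit
  have hunit : IsUnit (((((γ⁻¹ : SL(2, ℤ)) 1 1 : ℤ)) : ZMod M)) := by
    have := s48h_lowerRight_inv_mul hγ0
    exact IsUnit.of_mul_eq_one _ this
  obtain ⟨e, he⟩ := hunit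
  -- `S_{e⁻¹} = S_1`
  have h4 := s48h_phiH_smul_sK ι hM hneg hγ0 e he 1
  rw [hs, one_mul, s48h_phiH_sK, s48h_phiH_sK] at h4
  have h5 : s48h_SR H hM 1 = s48h_SR H hM e⁻¹ := ffm_algebraMap_injective M h4
  have h6 : coeffEmb ℂ (s48k_sQ M H 1) = coeffEmb ℂ (s48k_sQ M H e⁻¹) := by
    have a1 := s48h_SR_isLaurent H hM hneg 1
    have a2 := s48h_SR_isLaurent H hM hneg e⁻¹
    rw [h5] at a1
    exact a1.unique a2
  have h7 := congrArg (fun x : LaurentSeries ℂ => x.coeff 0) h6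
  simp only [s48h_coeff_zero_sQ] at h7
  have h8 : s48k_wCoset M H 1 1 = 1 := by
    rw [s48k_wCoset, if_pos]
    exact ⟨1, one_mem H, by simp⟩
  rw [h8] at h7
  have h9 : s48k_wCoset M H e⁻¹ 1 ≠ 0 := by
    intro h0
    rw [h0] at h7
    norm_num at h7
  have h10 : ∃ h ∈ H, ((1 : ℕ) : ZMod M) = ((e⁻¹ * h : (ZMod M)ˣ) : ZMod M) := by
    by_contra hcon
    apply h9
    rw [s48k_wCoset, if_neg hcon]
  obtain ⟨h, hh, hh1⟩ := h10
  have h11 : e = h := by
    have : (1 : (ZMod M)ˣ) = e⁻¹ * h := Units.ext (by rw [← hh1]; simp)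
    calc e = e * 1 := (mul_one e).symm
      _ = e * (e⁻¹ * h) := by rw [← this]
      _ = h := by group
  have h12 : γ⁻¹ ∈ s48h_GammaH M H := ⟨inv_mem hγ0, e, h11 ▸ hh, he.symm⟩
  simpa using inv_mem h12

/-- DIST: an element of `SL₂(ℤ)` fixing `φ_H (F_H ⊗ K)` pointwise lies in `Γ_H`. -/
theorem s48h_phiH_dist (γ : SL(2, ℤ))
    (hγ : ∀ x : ↥(laurentBaseChange K (s48k_FHQ M H)),
      γ • s48h_phiH ι H hM hneg x = s48h_phiH ι H hM hneg x) : γ ∈ s48h_GammaH M H :=
  s48h_phiH_dist_gens ι hM hneg γ (hγ _) (hγ _)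

/-! ### Linear disjointness -/

/-- The inclusion `Frac(B) → K((q))` as a linear map. -/
def s48h_exFB (N : ℕ) : ↥(s48h_FB ι N) →ₗ[K] LaurentSeries K where
  toFun x := (x : LaurentSeries K)
  map_add' _ _ := rfl
  map_smul' c x := by
    simp only [RingHom.id_apply]
    rw [IntermediateField.coe_smul, Algebra.smul_def, algebraMap_laurentSeries_eq_single]
    exact HahnSeries.C_mul_eq_smul

theorem s48h_Phi_linearIndependent (N : ℕ) {I : Type*} (x : I → ↥(s48h_FB ι N))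
    (hx : LinearIndependent K x) : LinearIndependent ℂ (fun i => s48h_Phi ι N (x i)) := by
  refine ffg_linearIndependent_lift ι (s29bp_psiBHom ι N) (s48h_Phi ι N)
    (s48h_Phi_algebraMap ι N) (s48h_exFB ι N) (fun _ _ h => Subtype.ext h)
    (fun r y => ffb_IsLaurent (r : ℍ → ℂ) y) ?_ ?_ ffg_isLaurent_zero ?_
    (fun a => s29bp_psiBHom_isLaurent ι N a) x hx
  · intro r s y z hr hs
    exact hr.add hs
  · intro c r y hr
    have h1 := (ffb_IsLaurent.const c).mul hr
    rw [HahnSeries.C_mul_eq_smul] at h1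
    exact h1
  · intro y hy
    exact ffb_IsLaurent.unique hy ffg_isLaurent_zero

theorem s48h_phiH_linearIndependent {I : Type*}
    (x : I → ↥(laurentBaseChange K (s48k_FHQ M H))) (hx : LinearIndependent K x) :
    LinearIndependent ℂ (fun i => s48h_phiH ι H hM hneg (x i)) := by
  have h1 : LinearIndependent K
      (fun i => (IntermediateField.inclusion (s48h_FHK_le ι H hM hneg)) (x i)) :=
    hx.map' (IntermediateField.inclusion (s48h_FHK_le ι H hM hneg)).toLinearMap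
      (LinearMap.ker_eq_bot.mpr (IntermediateField.inclusion (s48h_FHK_le ι H hM hneg)).injective)
  exact s48h_Phi_linearIndependent ι M _ h1

/-! ### The degree -/

include ι hM hneg in
/-- **The degree**: `F_H ⊗ K` is finite over `K(j)` of degree `[SL₂(ℤ) : Γ_H]`. -/
theorem s48h_phiH_degree :
    FiniteDimensional K⟮s48h_jK K H⟯ ↥(laurentBaseChange K (s48k_FHQ M H)) ∧
      Module.finrank K⟮s48h_jK K H⟯ ↥(laurentBaseChange K (s48k_FHQ M H)) =
        (s48h_GammaH M H).index := by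
  haveI : CharZero K := algebraRat.charZero K
  haveI : Fintype (SL(2, ℤ) ⧸ s48h_GammaH M H) := Subgroup.fintypeQuotientOfFiniteIndex
  have hcard : Fintype.card (SL(2, ℤ) ⧸ s48h_GammaH M H) = (s48h_GammaH M H).index := by
    rw [Subgroup.index, Nat.card_eq_fintype_card]
  rw [← hcard]
  exact ffg_finrank_eq (K := K) (C := ℂ) (s48h_phiH ι H hM hneg) (s48h_GammaH M H) (s48h_jK K H)
    (fun γ hγ x => s48h_phiH_smul ι hM hneg hγ x)
    (fun γ c => by rw [s48h_phiH_const, smul_algebraMap])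
    (s48h_phiH_j_smul ι hM hneg) (s48h_phiH_dist ι hM hneg) (s48h_transcendental_jK)
    (fun x hx => by
      rw [s48h_phiH_j]
      exact ffg_model_invariants M x hx)
    (fun I x hx => s48h_phiH_linearIndependent ι hM hneg x hx)

include ι hM hneg in
/-- `j` is a separating transcendental generator of `F_H ⊗ K`. -/
theorem s48h_ffGen_jK : FFGen K (s48h_jK K H) :=
  ⟨s48h_transcendental_jK, (s48h_phiH_degree ι hM hneg).1⟩

/-- **Distinctness** of the twisted embeddings `σ_q`. -/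
theorem s48h_gsigma_injective :
    Function.Injective (s48c_gsigma M (s48h_GammaH M H) (s48h_phiH ι H hM hneg)) := by
  intro q q' hqq'
  have h1 : ∀ x : ↥(laurentBaseChange K (s48k_FHQ M H)),
      (q'.out⁻¹ * q.out) • s48h_phiH ι H hM hneg x = s48h_phiH ι H hM hneg x := by
    intro x
    have := congrArg (fun f : ↥(laurentBaseChange K (s48k_FHQ M H)) →+* ffm_E M => f x) hqq'
    simp only [s48c_gsigma_apply] at this
    rw [mul_smul, this, ← mul_smul, inv_mul_cancel, one_smul]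
  have h2 := s48h_phiH_dist ι hM hneg _ h1
  rw [← QuotientGroup.out_eq' q, ← QuotientGroup.out_eq' q']
  exact (QuotientGroup.eq.mpr h2).symm

/-- **helper9's degree package for `(F_H ⊗ K, φ_H, Γ_H)`.** -/
theorem s48h_phiH_gdegHyp :
    s48c_GDegHyp K M (s48h_GammaH M H) (s48h_phiH ι H hM hneg) (s48h_jK K H) where
  gen := s48h_ffGen_jK ι hM hneg
  finrank := (s48h_phiH_degree ι hM hneg).2
  inj := s48h_gsigma_injective ι hM hneg
  phi_j := s48h_phiH_j ι hM hneg

end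

end Fermat.Agent.Lib.S48
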