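/-
S48 / DS-1, [T5] (helper3), KField part (F5): **[INV] for `Γ_H`**: every `Γ_H`-invariant element of
`ffm_E M` lies in the image of the bridge `φ_H : F_H ⊗ ℂ → ffm_E M`.

From the landed [INV] for `Γ₀(M)` (`s29b_phi_surjective_invariants`) by the Fourier decomposition
over the characters of `(ℤ/M)ˣ/H` (`s48h_invH`), with the eigenfunctions
`t'_χ = ∑_u χ(u) φ_H (s_u)`.
-/
import Mathlib
import Fermat.Agent.Lib.S48.HKF5
import Fermat.Agent.Lib.S48.HInvH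
import Fermat.Agent.Lib.S29.BFixed

set_option autoImplicit false
set_option linter.unusedSectionVars false
set_option linter.style.haveILetI false

namespace Fermat.Agent.Lib.S48

open UpperHalfPlane hiding I
open AlgebraicCurve ModularCurve IntermediateField Matrix.SpecialLinearGroup CongruenceSubgroup
open Fermat.Agent.Lib.FF Fermat.Agent.Lib.S18 Fermat.Agent.Lib.S29
open scoped MatrixGroups Manifold

noncomputable section

variable {M : ℕ} [NeZero M]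

/-- The character `γ ↦ (γ⁻¹)₁₁ mod M` of `Γ₀(M)`. -/
def s48h_lam0 (M : ℕ) [NeZero M] : ↥(Gamma0 M) →* (ZMod M)ˣ where
  toFun g := Units.mkOfMulEqOne ((((g : SL(2, ℤ))⁻¹ 1 1 : ℤ)) : ZMod M)
    ((((g : SL(2, ℤ)) 1 1 : ℤ)) : ZMod M) (s48h_lowerRight_inv_mul g.2)
  map_one' := Units.ext (by simp)
  map_mul' g h := Units.ext (by
    show (((((g * h : ↥(Gamma0 M)) : SL(2, ℤ))⁻¹ 1 1 : ℤ)) : ZMod M) =
      ((((g : SL(2, ℤ))⁻¹ 1 1 : ℤ)) : ZMod M) * ((((h : SL(2, ℤ))⁻¹ 1 1 : ℤ)) : ZMod M)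
    rw [Subgroup.coe_mul, mul_inv_rev, s48h_lowerRight_mul (inv_mem h.2), mul_comm])

theorem s48h_lam0_val (g : ↥(Gamma0 M)) :
    ((s48h_lam0 M g : (ZMod M)ˣ) : ZMod M) = ((((g : SL(2, ℤ))⁻¹ 1 1 : ℤ)) : ZMod M) := rfl

theorem s48h_lam0_inv_val (g : ↥(Gamma0 M)) :
    (((s48h_lam0 M g)⁻¹ : (ZMod M)ˣ) : ZMod M) = ((((g : SL(2, ℤ)) 1 1 : ℤ)) : ZMod M) := rfl

theorem s48h_lam0_surjective : Function.Surjective (s48h_lam0 M) := by
  intro d
  obtain ⟨σ, h1, -, h3⟩ := s48h_exists_sigma M 1 (Nat.coprime_one_left M) d⁻¹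
  have hσ : σ ∈ Gamma0 M := by
    rw [Gamma0_mem, ZMod.intCast_zmod_eq_zero_iff_dvd]
    simpa using h1
  refine ⟨⟨σ, hσ⟩, ?_⟩
  rw [← inv_inj]
  exact Units.ext (by rw [s48h_lam0_inv_val]; exact h3)

theorem s48h_mem_GammaH_of_lam0 {H : Subgroup (ZMod M)ˣ} (g : ↥(Gamma0 M))
    (hg : s48h_lam0 M g ∈ H) : (g : SL(2, ℤ)) ∈ s48h_GammaH M H :=
  ⟨g.2, (s48h_lam0 M g)⁻¹, inv_mem hg, (s48h_lam0_inv_val g).symm⟩

variable {H : Subgroup (ZMod M)ˣ} (hM : 1 < M) (hneg : (-1 : (ZMod M)ˣ) ∈ H)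

local notation "φH" => s48h_phiH (RingHom.id ℂ) H hM hneg

/-- `φ_H` extends the landed bridge `s29bp_phi` of `F̄₀(M) ⊗ ℂ`. -/
theorem s48h_phiH_inclK (x : ↥(s29bp_FK ℂ M)) :
    φH (s48h_inclK ℂ H x) = s29bp_phi (RingHom.id ℂ) M x := by
  obtain ⟨a, b, -, rfl⟩ := IsFractionRing.div_surjective (A := s29bp_A ℂ M) x
  have key : ∀ a : s29bp_A ℂ M,
      φH (s48h_inclK ℂ H (algebraMap (s29bp_A ℂ M) ↥(s29bp_FK ℂ M) a)) =
        s29bp_phi (RingHom.id ℂ) M (algebraMap (s29bp_A ℂ M) ↥(s29bp_FK ℂ M) a) := by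
    intro a
    rw [s29bp_phi_algebraMap]
    exact s48h_phiH_of_isLaurent (RingHom.id ℂ) hM hneg (s29bp_psi_isLaurent (RingHom.id ℂ) M a)
  rw [map_div₀, map_div₀, map_div₀, key, key]

/-- The eigenfunction `∑_u χ(u) s_u ∈ F_H ⊗ ℂ`. -/
def s48h_tSum (H : Subgroup (ZMod M)ˣ) (χ : DirichletCharacter ℂ M) :
    ↥(laurentBaseChange ℂ (s48k_FHQ M H)) :=
  ∑ u : (ZMod M)ˣ, algebraMap ℂ _ (χ ((u : (ZMod M)ˣ) : ZMod M)) * s48h_sK ℂ H u

/-- `1_{uH}(1) = 1_H(u)`. -/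
theorem s48h_wCoset_one (u : (ZMod M)ˣ) [Decidable (u ∈ H)] :
    s48k_wCoset M H u 1 = if u ∈ H then 1 else 0 := by
  classical
  rw [s48k_wCoset]
  by_cases hu : u ∈ H
  · rw [if_pos hu, if_pos]
    exact ⟨u⁻¹, inv_mem hu, by simp⟩
  · rw [if_neg hu, if_neg]
    rintro ⟨h, hh, h1⟩
    apply hu
    have : (1 : (ZMod M)ˣ) = u * h := Units.ext (by rw [← h1]; simp)
    have hu' : u = h⁻¹ := eq_inv_of_mul_eq_one_left this.symm
    rw [hu']
    exact inv_mem hh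

/-- The eigenfunction is not zero (its constant coefficient is `|H|`). -/
theorem s48h_tSum_ne_zero (χ : DirichletCharacter ℂ M)
    (hχ : ∀ h ∈ H, χ ((h : (ZMod M)ˣ) : ZMod M) = 1) : s48h_tSum H χ ≠ 0 := by
  classical
  intro h0
  have h1 := congrArg (fun x : ↥(laurentBaseChange ℂ (s48k_FHQ M H)) =>
    (x : LaurentSeries ℂ).coeff 0) h0
  simp only [s48h_tSum, ZeroMemClass.coe_zero, HahnSeries.coeff_zero] at h1
  rw [AddSubmonoidClass.coe_finsetSum, HahnSeries.coeff_sum] at h1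
  have h2 : ∀ u : (ZMod M)ˣ,
      (((algebraMap ℂ ↥(laurentBaseChange ℂ (s48k_FHQ M H)) (χ ((u : (ZMod M)ˣ) : ZMod M)) *
        s48h_sK ℂ H u : ↥(laurentBaseChange ℂ (s48k_FHQ M H))) : LaurentSeries ℂ)).coeff 0 =
        if u ∈ H then 1 else 0 := by
    intro u
    have e : ((algebraMap ℂ ↥(laurentBaseChange ℂ (s48k_FHQ M H)) (χ ((u : (ZMod M)ˣ) : ZMod M)) *
        s48h_sK ℂ H u : ↥(laurentBaseChange ℂ (s48k_FHQ M H))) : LaurentSeries ℂ) =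
        algebraMap ℂ (LaurentSeries ℂ) (χ ((u : (ZMod M)ˣ) : ZMod M)) *
          coeffEmb ℂ (s48k_sQ M H u) := rfl
    rw [e, algebraMap_laurentSeries_eq_single, HahnSeries.coeff_single_zero_mul,
      s48h_coeff_zero_sQ, s48h_wCoset_one]
    by_cases hu : u ∈ H
    · rw [if_pos hu, if_pos hu, hχ u hu]
      simp
    · rw [if_neg hu, if_neg hu]
      simp
  rw [Finset.sum_congr rfl fun u _ => h2 u, Finset.sum_ite, Finset.sum_const_zero, add_zero,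
    Finset.sum_const, nsmul_eq_mul, mul_one] at h1
  have h3 : (Finset.filter (fun u : (ZMod M)ˣ => u ∈ H) Finset.univ).card ≠ 0 := by
    rw [Finset.card_ne_zero]
    exact ⟨1, Finset.mem_filter.mpr ⟨Finset.mem_univ _, one_mem H⟩⟩
  exact h3 (by exact_mod_cast h1)

/-- The eigenfunction transforms by `χ ∘ lam0`. -/
theorem s48h_tSum_smul (χ : DirichletCharacter ℂ M) (g : ↥(Gamma0 M)) :
    (g : SL(2, ℤ)) • φH (s48h_tSum H χ) =
      χ ((s48h_lam0 M g : (ZMod M)ˣ) : ZMod M) • φH (s48h_tSum H χ) := by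
  have h1 : ∀ u : (ZMod M)ˣ, (g : SL(2, ℤ)) • φH (s48h_sK ℂ H u) =
      φH (s48h_sK ℂ H (u * (s48h_lam0 M g)⁻¹)) := fun u =>
    s48h_phiH_smul_sK (RingHom.id ℂ) hM hneg g.2 (s48h_lam0 M g) (s48h_lam0_val g) u
  simp only [s48h_tSum, map_sum, map_mul, Finset.smul_sum, smul_mul', s48h_phiH_const,
    RingHom.id_apply, smul_algebraMap, h1]
  refine Fintype.sum_equiv (Equiv.mulRight (s48h_lam0 M g)⁻¹) _ _ fun u => ?_
  simp only [Equiv.coe_mulRight]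
  rw [Algebra.smul_def, ← mul_assoc, ← map_mul]
  congr 2
  rw [← map_mul, ← Units.val_mul]
  congr 2
  rw [mul_comm u, mul_inv_cancel_left]

/-- **[INV] for `Γ_H`.** -/
theorem s48h_phiH_fixed (y : ffm_E M)
    (hy : ∀ γ : SL(2, ℤ), γ ∈ s48h_GammaH M H → γ • y = y) :
    ∃ h : ↥(laurentBaseChange ℂ (s48k_FHQ M H)), φH h = y := by
  have hmem : y ∈ (φH).fieldRange := by
    refine s48h_invH (s48h_lam0 M) H s48h_lam0_surjective (φH).fieldRange ?_ ?_ ?_ y ?_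
    · intro c
      exact ⟨algebraMap ℂ _ c, s48h_phiH_const (RingHom.id ℂ) hM hneg c⟩
    · intro z hz
      obtain ⟨h, hh⟩ := s29b_phi_surjective_invariants M (RingHom.id ℂ)
        Function.surjective_id z (fun γ hγ => hz ⟨γ, hγ⟩)
      exact ⟨s48h_inclK ℂ H h, by rw [s48h_phiH_inclK, hh]⟩
    · intro χ hχ
      refine ⟨φH (s48h_tSum H χ), ⟨_, rfl⟩, ?_, fun g => s48h_tSum_smul hM hneg χ g⟩
      exact (map_ne_zero _).mpr (s48h_tSum_ne_zero χ hχ)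
    · intro g hg
      exact hy _ (s48h_mem_GammaH_of_lam0 g hg)
  exact hmem

end

end Fermat.Agent.Lib.S48
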