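/-
S48 / DS-1, [T5] (helper3), KField part (F6): **existence of the diamond automorphisms of `F_H`**
(over an arbitrary constant field `K ⊆ ℂ`, in particular `K = ℚ̄`).

For `σ ∈ Γ₀(M)` the substitution `y ↦ σ⁻¹ • y` of `ffm_E M` preserves the image of the bridge `φ_H`
(it maps generators to generators), hence induces a `K`-algebra automorphism `s48h_diamEquiv ι σ` of
`F_H ⊗ K` with `φ_H (e x) = σ⁻¹ • φ_H x`; it fixes `F̄₀(M) ⊗ K` and maps `s_u ↦ s_{u d⁻¹}`,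
`d ≡ σ₁₁`.
* `s48h_exists_isDiamondAut` : `∃ e, s48k_IsDiamondAut M H d e`;
* `s48h_isDiamondAut_diamondAut` : `s48k_IsDiamondAut M H d (s48k_diamondAut M H d)`.
-/
import Mathlib
import Fermat.Agent.Lib.S48.HKF6

set_option autoImplicit false
set_option linter.unusedSectionVars false
set_option linter.style.haveILetI false

namespace Fermat.Agent.Lib.S48

open UpperHalfPlane hiding I
open AlgebraicCurve ModularCurve IntermediateField Matrix.SpecialLinearGroup CongruenceSubgroup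
open Fermat.Agent.Lib.FF Fermat.Agent.Lib.S18 Fermat.Agent.Lib.S29
open scoped MatrixGroups Manifold

noncomputable section

local notation "Qbar" => AlgebraicClosure ℚ

attribute [local instance] s29a_algebraC

variable {K : Type*} [Field K] [Algebra ℚ K] (ι : K →+* ℂ)
variable {M : ℕ} [NeZero M] {H : Subgroup (ZMod M)ˣ} (hM : 1 < M) (hneg : (-1 : (ZMod M)ˣ) ∈ H)

/-- The substitution `σ⁻¹ • ·` preserves the image of `φ_H`. -/
theorem s48h_exists_diam {σ : SL(2, ℤ)} (hσ : σ ∈ Gamma0 M)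
    (x : ↥(laurentBaseChange K (s48k_FHQ M H))) :
    ∃ y : ↥(laurentBaseChange K (s48k_FHQ M H)),
      s48h_phiH ι H hM hneg y = σ⁻¹ • s48h_phiH ι H hM hneg x := by
  have hunit : IsUnit (((σ 1 1 : ℤ)) : ZMod M) :=
    IsUnit.of_mul_eq_one_right _ (s48h_lowerRight_inv_mul hσ)
  obtain ⟨d, hd⟩ := hunit
  revert x
  refine s48h_forall_of_gens' (L := K) (s48k_FHQ M H)
    (divisorExpansions M ∪ Set.range (s48k_sQ M H))
    (fun y hy => IntermediateField.subset_adjoin ℚ _ hy) le_rfl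
    (fun x => ∃ y : ↥(laurentBaseChange K (s48k_FHQ M H)),
      s48h_phiH ι H hM hneg y = σ⁻¹ • s48h_phiH ι H hM hneg x) ?_ ?_ ?_ ?_ ?_
  · intro c
    refine ⟨algebraMap K _ c, ?_⟩
    show s48h_phiH ι H hM hneg (algebraMap K _ c) = σ⁻¹ • s48h_phiH ι H hM hneg (algebraMap K _ c)
    rw [s48h_phiH_const, smul_algebraMap]
  · rintro x y ⟨x', hx'⟩ ⟨y', hy'⟩
    refine ⟨x' + y', ?_⟩
    show s48h_phiH ι H hM hneg (x' + y') = σ⁻¹ • s48h_phiH ι H hM hneg (x + y)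
    rw [map_add, map_add, smul_add, hx', hy']
  · rintro x y ⟨x', hx'⟩ ⟨y', hy'⟩
    refine ⟨x' * y', ?_⟩
    show s48h_phiH ι H hM hneg (x' * y') = σ⁻¹ • s48h_phiH ι H hM hneg (x * y)
    rw [map_mul, map_mul, smul_mul', hx', hy']
  · rintro x ⟨x', hx'⟩
    refine ⟨x'⁻¹, ?_⟩
    show s48h_phiH ι H hM hneg x'⁻¹ = σ⁻¹ • s48h_phiH ι H hM hneg x⁻¹
    rw [map_inv₀, map_inv₀, smul_inv'', hx']
  · rintro y (⟨d', hne, hd', rfl⟩ | ⟨u, rfl⟩)
    · haveI := hne
      exact ⟨s48h_JK K H hd', (s48h_phiH_smul_Jd ι hM hneg (inv_mem hσ) hd').symm⟩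
    · exact ⟨s48h_sK K H (u * d⁻¹),
        (s48h_phiH_smul_sK ι hM hneg (inv_mem hσ) d (by rw [inv_inv, hd]) u).symm⟩

/-- The substitution automorphism as a function. -/
def s48h_diamFun {σ : SL(2, ℤ)} (hσ : σ ∈ Gamma0 M)
    (x : ↥(laurentBaseChange K (s48k_FHQ M H))) : ↥(laurentBaseChange K (s48k_FHQ M H)) :=
  (s48h_exists_diam ι hM hneg hσ x).choose

theorem s48h_phiH_diamFun {σ : SL(2, ℤ)} (hσ : σ ∈ Gamma0 M)
    (x : ↥(laurentBaseChange K (s48k_FHQ M H))) :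
    s48h_phiH ι H hM hneg (s48h_diamFun ι hM hneg hσ x) = σ⁻¹ • s48h_phiH ι H hM hneg x :=
  (s48h_exists_diam ι hM hneg hσ x).choose_spec

/-- **The substitution automorphism** `e_σ` of `F_H ⊗ K`: `φ_H (e_σ x) = σ⁻¹ • φ_H x`. -/
def s48h_diamEquiv {σ : SL(2, ℤ)} (hσ : σ ∈ Gamma0 M) :
    ↥(laurentBaseChange K (s48k_FHQ M H)) ≃ₐ[K] ↥(laurentBaseChange K (s48k_FHQ M H)) where
  toFun := s48h_diamFun ι hM hneg hσ
  invFun := s48h_diamFun ι hM hneg (inv_mem hσ)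
  left_inv x := by
    apply (s48h_phiH ι H hM hneg).injective
    rw [s48h_phiH_diamFun, s48h_phiH_diamFun, inv_inv, smul_inv_smul]
  right_inv x := by
    apply (s48h_phiH ι H hM hneg).injective
    rw [s48h_phiH_diamFun, s48h_phiH_diamFun, inv_inv, inv_smul_smul]
  map_mul' x y := by
    apply (s48h_phiH ι H hM hneg).injective
    rw [map_mul, s48h_phiH_diamFun, s48h_phiH_diamFun, s48h_phiH_diamFun, map_mul, smul_mul']
  map_add' x y := by
    apply (s48h_phiH ι H hM hneg).injective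
    rw [map_add, s48h_phiH_diamFun, s48h_phiH_diamFun, s48h_phiH_diamFun, map_add, smul_add]
  commutes' c := by
    apply (s48h_phiH ι H hM hneg).injective
    rw [s48h_phiH_diamFun, s48h_phiH_const, smul_algebraMap]

theorem s48h_phiH_diamEquiv {σ : SL(2, ℤ)} (hσ : σ ∈ Gamma0 M)
    (x : ↥(laurentBaseChange K (s48k_FHQ M H))) :
    s48h_phiH ι H hM hneg (s48h_diamEquiv ι hM hneg hσ x) = σ⁻¹ • s48h_phiH ι H hM hneg x :=
  s48h_phiH_diamFun ι hM hneg hσ x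

/-- `e_σ` fixes `F̄₀(M) ⊗ K`. -/
theorem s48h_diamEquiv_base {σ : SL(2, ℤ)} (hσ : σ ∈ Gamma0 M)
    (y : ↥(laurentBaseChange K (modularFunctionFieldFull M))) :
    s48h_diamEquiv ι hM hneg hσ (s48h_inclK K H y) = s48h_inclK K H y := by
  apply (s48h_phiH ι H hM hneg).injective
  rw [s48h_phiH_diamEquiv]
  exact s48h_phiH_smul_base ι hM hneg (inv_mem hσ) y

/-- `e_σ (s_u) = s_{u d⁻¹}`, `d ≡ σ₁₁`. -/
theorem s48h_diamEquiv_sK {σ : SL(2, ℤ)} (hσ : σ ∈ Gamma0 M) (d : (ZMod M)ˣ)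
    (hd : ((d : (ZMod M)ˣ) : ZMod M) = ((σ 1 1 : ℤ) : ZMod M)) (u : (ZMod M)ˣ) :
    s48h_diamEquiv ι hM hneg hσ (s48h_sK K H u) = s48h_sK K H (u * d⁻¹) := by
  apply (s48h_phiH ι H hM hneg).injective
  rw [s48h_phiH_diamEquiv]
  exact s48h_phiH_smul_sK ι hM hneg (inv_mem hσ) d (by rw [inv_inv, hd]) u

/-! ### The diamond automorphisms of `F_H` over `ℚ̄` -/

include hM hneg in
/-- **Existence of the diamond automorphisms.** -/
theorem s48h_exists_isDiamondAut (d : (ZMod M)ˣ) :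
    ∃ e : ↥(s48k_FH M H) ≃ₐ[Qbar] ↥(s48k_FH M H), s48k_IsDiamondAut M H d e := by
  obtain ⟨σ, h1, -, h3⟩ := s48h_exists_sigma M 1 (Nat.coprime_one_left M) d
  have hσ : σ ∈ Gamma0 M := by
    rw [Gamma0_mem, ZMod.intCast_zmod_eq_zero_iff_dvd]
    simpa using h1
  refine ⟨s48h_diamEquiv (algebraMap Qbar ℂ) hM hneg hσ, ?_, ?_⟩
  · intro x hx
    have e : x = s48h_inclK Qbar H ⟨(x : LaurentSeries Qbar), hx⟩ := Subtype.ext rfl
    rw [e]
    exact s48h_diamEquiv_base (algebraMap Qbar ℂ) hM hneg hσ _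
  · intro u
    exact s48h_diamEquiv_sK (algebraMap Qbar ℂ) hM hneg hσ d h3.symm u

include hM hneg in
/-- **helper4's `s48k_diamondAut` is the diamond automorphism.** -/
theorem s48h_isDiamondAut_diamondAut (d : (ZMod M)ˣ) :
    s48k_IsDiamondAut M H d (s48k_diamondAut M H d) := by
  have h := s48h_exists_isDiamondAut hM hneg d
  rw [s48k_diamondAut, dif_pos h]
  exact h.choose_spec

end

end Fermat.Agent.Lib.S48
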