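/-
S48 / DS-1, [T5] (helper3), KField part (F7): **the model data of `Γ_H` and its analytic interface.**

* `s48h_modelC hL ℓ : s48desc_ModelC M H ℓ` (helper5's model data) from the bridge `φ_H`;
* `s48h_eqHyp_modelC : s48h_EqHyp (s48h_modelC hL ℓ)`;
* `s48h_hmodel` : the hypothesis `hmodel` of `s48h_eigenSupportH_of`;
* `s48h_modelInputs_nonp` : the part of helper8's `s48e_ModelInputs` not involving `p`
  (`FFGen ℚ̄ j` and the existence of the diamond automorphisms);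
* `s48h_eigenSupportH_of'` : `s48k_EigenSupportH` from the Hecke inputs and twisted [W] ALONE.
-/
import Mathlib
import Fermat.Agent.Lib.S48.HKF7
import Fermat.Agent.Lib.S48.HKDivL

set_option autoImplicit false
set_option linter.unusedSectionVars false
set_option linter.style.haveILetI false

namespace Fermat.Agent.Lib.S48

open UpperHalfPlane hiding I
open AlgebraicCurve ModularCurve IntermediateField Matrix.SpecialLinearGroup CongruenceSubgroup
open Fermat.Agent.Lib.FF Fermat.Agent.Lib.S18 Fermat.Agent.Lib.S29 Fermat.Agent.Lib.S37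
open scoped MatrixGroups Manifold

noncomputable section

local notation "Qbar" => AlgebraicClosure ℚ

attribute [local instance] s29a_algebraC

variable {M N₁ ℓ₀ : ℕ} [NeZero M] {H : Subgroup (ZMod M)ˣ}

/-- **The model data of `Γ_H`.** -/
def s48h_modelC (hL : s48k_Level M N₁ ℓ₀ H) (ℓ : ℕ) : s48desc_ModelC M H ℓ :=
  s48desc_modelC_of M H ℓ hL.neg_one
    (s48h_phiH (RingHom.id ℂ) H (s48h_level_one_lt hL) hL.neg_one) (s48h_j0 H)
    (s48h_ffGen_jK (algebraMap Qbar ℂ) (s48h_level_one_lt hL) hL.neg_one)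
    (s48h_phiH_gbridge (RingHom.id ℂ) (s48h_level_one_lt hL) hL.neg_one)
    (by
      rw [s48h_map_j0]
      exact s48h_phiH_gdegHyp (RingHom.id ℂ) (s48h_level_one_lt hL) hL.neg_one)
    (s48h_phiH_fixed (s48h_level_one_lt hL) hL.neg_one)

theorem s48h_modelC_phi (hL : s48k_Level M N₁ ℓ₀ H) (ℓ : ℕ) :
    (s48h_modelC hL ℓ).φ = s48h_phiH (RingHom.id ℂ) H (s48h_level_one_lt hL) hL.neg_one := rfl

/-- **The analytic interface of the bridge.** -/
theorem s48h_eqHyp_modelC (hL : s48k_Level M N₁ ℓ₀ H) (ℓ : ℕ) [Fact ℓ.Prime] :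
    s48h_EqHyp (s48h_modelC hL ℓ) := by
  have hM := s48h_level_one_lt hL
  refine s48h_eqHyp_of_gens (s48h_modelC hL ℓ) ?_ ?_ ?_ ?_ ?_ ?_
  · intro c
    exact s48h_phiH_const (RingHom.id ℂ) hM hL.neg_one c
  · intro y hy
    exact s48h_phiHC_qexp hM hL.neg_one _
  · intro u
    exact s48h_phiHC_qexp hM hL.neg_one _
  · exact s48h_isDiamondAut_diamondAut hM hL.neg_one
  · exact s48h_phiH_hJinv hM hL.neg_one
  · exact s48h_phiH_hsinv hM hL.neg_one

/-- **The hypothesis `hmodel` of `s48h_eigenSupportH_of`.** -/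
theorem s48h_hmodel (M N₁ ℓ₀ : ℕ) [NeZero M] (H : Subgroup (ZMod M)ˣ)
    (hL : s48k_Level M N₁ ℓ₀ H) (ℓ : ℕ) [Fact ℓ.Prime] :
    ∃ D : s48desc_ModelC M H ℓ, s48h_EqHyp D :=
  ⟨s48h_modelC hL ℓ, s48h_eqHyp_modelC hL ℓ⟩

/-- **The non-`p` part of helper8's `s48e_ModelInputs`.** -/
theorem s48h_modelInputs_nonp (M N₁ ℓ₀ : ℕ) [NeZero M] (H : Subgroup (ZMod M)ˣ)
    (hL : s48k_Level M N₁ ℓ₀ H) :
    (∃ x : ↥(s48k_FH M H), FFGen Qbar x) ∧
      ∀ d : (ZMod M)ˣ, ∃ e, s48k_IsDiamondAut M H d e :=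
  ⟨⟨s48h_j0 H, s48h_ffGen_jK (algebraMap Qbar ℂ) (s48h_level_one_lt hL) hL.neg_one⟩,
    s48h_exists_isDiamondAut (s48h_level_one_lt hL) hL.neg_one⟩

/-- **`s48k_EigenSupportH`** from the Hecke inputs ([T8]) and the twisted norm formula ([W]) alone:
the whole of [T5] (bridge, degree, places, [INV], diamonds, (EQ)) is discharged. -/
theorem s48h_eigenSupportH_of'
    (hInp : ∀ (M N₁ ℓ₀ : ℕ) [NeZero M] (H : Subgroup (ZMod M)ˣ), s48k_Level M N₁ ℓ₀ H →
      ∀ (p : ℕ) [NeZero p], p.Prime → ¬ p ∣ M → s48k_HeckeInputsH M H p)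
    (hW : ∀ (M N₁ ℓ₀ : ℕ) [NeZero M] (H : Subgroup (ZMod M)ˣ), s48k_Level M N₁ ℓ₀ H →
      ∀ (p : ℕ) [NeZero p] (pu : (ZMod M)ˣ), p.Prime → ¬ p ∣ M →
      ((pu : (ZMod M)ˣ) : ZMod M) = (p : ZMod M) →
      ∀ ζ : Qbarˣ, IsPrimitiveRoot (ζ : Qbar) p → ∀ y : ↥(s48k_FH M H),
        qExpand Qbar p (((letI := algebraAlong (s48k_heckeAlphaH M H p)
            Algebra.norm ↥(s48k_FH M H) (s48k_heckeBetaH M H p y) : ↥(s48k_FH M H)) :
              LaurentSeries Qbar)) =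
          qExpand Qbar (p * p) (y : LaurentSeries Qbar) *
            s37e_prodTw p ζ ((s48k_diamondAut M H pu⁻¹ y : ↥(s48k_FH M H)) :
              LaurentSeries Qbar)) :
    s48k_EigenSupportH :=
  s48h_eigenSupportH_of (fun M N₁ ℓ₀ _ H hL ℓ _ => s48h_hmodel M N₁ ℓ₀ H hL ℓ) hInp hW

end

end Fermat.Agent.Lib.S48
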