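/-
S48 / DS-1, [T5] brick (helper3): **(K-Div) in the layer form of the tower (T-conc)**.

For `hL : s48k_Level M N₁ ℓ₀ H`, `H ≤ H'`, a character `χ : DirichletCharacter ℚ̄ M` trivial on `H` and
`h ∈ F_{H'}` whose `q`-expansion is `(t_χ) ^ r`
(`t_χ = HahnSeries.ofPowerSeries ℤ ℚ̄ (s48k_tPS (fun c => χ c))`, helper5's `s48wf_tq χ` unfolded):

* `s48h_kdiv_layer`   : `(r : ℤ) ∣ P.ord h` for every place `P` of `F_{H'}` over `ℚ̄`;
* `s48h_kdiv_layer_L` : the same for the `L₀`-models `laurentBaseChange L₀ (s48k_FHQ M H')`, `L₀ ⊆ ℚ̄`.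

This is the hypothesis `hdiv` of the tame Kummer steps (helper6 `s48g_tame_step`, helper7
`s48d_q_kummer_step`) and of the wild steps; it is the only analytic input of the tower.
-/
import Mathlib
import Fermat.Agent.Lib.S48.HKF8
import Fermat.Agent.Lib.S48.HKDivQ

set_option autoImplicit false
set_option linter.unusedSectionVars false
set_option linter.style.haveILetI false

namespace Fermat.Agent.Lib.S48

open UpperHalfPlane hiding I
open AlgebraicCurve ModularCurve IntermediateField Matrix.SpecialLinearGroup CongruenceSubgroup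
open Fermat.Agent.Lib.FF Fermat.Agent.Lib.S18 Fermat.Agent.Lib.S29 Fermat.Agent.Lib.S37
open scoped MatrixGroups Manifold

noncomputable section

local notation "Qbar" => AlgebraicClosure ℚ

attribute [local instance] s29a_algebraC

/-- Laurent expansions are compatible with powers. -/
theorem s48h_isLaurent_pow {f : ℍ → ℂ} {x : LaurentSeries ℂ} (h : ffb_IsLaurent f x) (n : ℕ) :
    ffb_IsLaurent (fun z => f z ^ n) (x ^ n) := by
  induction n with
  | zero =>
    have := ffb_IsLaurent.const 1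
    simpa using this
  | succ n ih =>
    have := ih.mul h
    simp only [pow_succ]
    exact this

variable {M N₁ ℓ₀ : ℕ} [NeZero M] {H : Subgroup (ZMod M)ˣ}

/-- **(K-Div), layer form, over `ℚ̄`.** -/
theorem s48h_kdiv_layer (hL : s48k_Level M N₁ ℓ₀ H) {H' : Subgroup (ZMod M)ˣ} (hHH' : H ≤ H')
    (χ : DirichletCharacter Qbar M) (hχH : ∀ u ∈ H, χ (u : ZMod M) = 1)
    (r : ℕ) [NeZero r] (h : ↥(s48k_FH M H'))
    (hh : (h : LaurentSeries Qbar) =
      (HahnSeries.ofPowerSeries ℤ Qbar (s48k_tPS (fun c : ℕ => χ (c : ZMod M)))) ^ r)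
    (P : Place Qbar ↥(s48k_FH M H')) : (r : ℤ) ∣ P.ord h := by
  have hM := s48h_level_one_lt hL
  have hneg' : (-1 : (ZMod M)ˣ) ∈ H' := hHH' hL.neg_one
  set ψ : DirichletCharacter ℂ M := χ.ringHomComp (algebraMap Qbar ℂ) with hψ
  have hψH : ∀ u ∈ H, ψ (u : ZMod M) = 1 := by
    intro u hu
    show algebraMap Qbar ℂ (χ (u : ZMod M)) = 1
    rw [hχH u hu, map_one]
  have hpl : s48h_PlacesHyp ℂ M (s48h_GammaH M H') (s48h_phiH (RingHom.id ℂ) H' hM hneg') :=
    s48desc_placesHyp_of_gplaces (s48h_phiH_gbridge (RingHom.id ℂ) hM hneg')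
      (s48h_phiH_gdegHyp (RingHom.id ℂ) hM hneg')
  haveI : FFGen Qbar (s48h_j0 H') := s48h_ffGen_jK (algebraMap Qbar ℂ) hM hneg'
  have h0 : h ≠ 0 := by
    intro h0
    have h1 : (h : LaurentSeries Qbar) = 0 := by rw [h0]; rfl
    rw [hh] at h1
    have h2 := pow_eq_zero_iff (NeZero.ne r) |>.mp h1
    have h3 : s48k_tPS (fun c : ℕ => χ (c : ZMod M)) = 0 :=
      (map_eq_zero_iff _ HahnSeries.ofPowerSeries_injective).mp h2
    have h4 := s48k_constantCoeff_tPS (fun c : ℕ => χ (c : ZMod M))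
    rw [h3, map_zero] at h4
    simp at h4
  refine s48h_kdivQ_level (s48k_FHQ M H') hL ψ hψH hpl s48h_GammaH_le_Gamma0 (s48h_j0 H') r h h0
    ?_ P
  refine s48h_phiH_of_isLaurent (RingHom.id ℂ) hM hneg' ?_
  rw [coeffMap_id, s18q_map_coe, hh, map_pow, ffb_coeffMap_ofPowerSeries, s48k_tPS_map]
  exact s48h_isLaurent_pow (s48k_T_isLaurent ψ hM (s48h_level_even hL ψ hψH)) r

/-- **(K-Div), layer form, over the subfields `L₀ ⊆ ℚ̄`.** -/
theorem s48h_kdiv_layer_L (hL : s48k_Level M N₁ ℓ₀ H) {H' : Subgroup (ZMod M)ˣ} (hHH' : H ≤ H')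
    (χ : DirichletCharacter Qbar M) (hχH : ∀ u ∈ H, χ (u : ZMod M) = 1)
    (L₀ : Type*) [Field L₀] [Algebra ℚ L₀] [Algebra L₀ Qbar] [Algebra.IsAlgebraic L₀ Qbar]
    (r : ℕ) [NeZero r] (h : ↥(laurentBaseChange L₀ (s48k_FHQ M H')))
    (hh : coeffMap (algebraMap L₀ Qbar) (h : LaurentSeries L₀) =
      (HahnSeries.ofPowerSeries ℤ Qbar (s48k_tPS (fun c : ℕ => χ (c : ZMod M)))) ^ r)
    (P : Place L₀ ↥(laurentBaseChange L₀ (s48k_FHQ M H'))) : (r : ℤ) ∣ P.ord h :=
  s48h_dvd_ord_restrict (s48k_FHQ M H') L₀ (K := Qbar) r h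
    (s48h_kdiv_layer hL hHH' χ hχH r _ hh) P

end

end Fermat.Agent.Lib.S48
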