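/-
DS-1 (S48), twisted [W], items (F1)/(F2) (helper5), part A: GENERIC ANALYTIC LEMMAS.
* `s48wf_isWH_mono` : `ffm_IsWH N f → N ∣ N' → ffm_IsWH N' f`;
* `s48wf_dmul_smul` : `d · (γ z) = γ' (d z)` for `d ∣ γ₁₀`, `γ' = (γ₀₀, d γ₀₁; γ₁₀/d, γ₁₁)`;
* `s48wf_growth_aff` : moderate growth is stable under `z ↦ (a z + b)/e`;
* `s48wf_isWH_dmul` : `ffm_IsWH N f → ffm_IsWH (N * d) (f ∘ (d ·))`.
-/
import Fermat.Agent.Lib.FF.JAnalyticLevel
import Fermat.Agent.Lib.FF.BridgeJ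
import Fermat.Agent.Lib.FF.BridgePsi
import Fermat.Agent.Lib.FF.Model

set_option autoImplicit false

namespace Fermat.Agent.Lib.S48

open UpperHalfPlane hiding I
open Complex Filter CongruenceSubgroup Matrix.SpecialLinearGroup
open Fermat.Agent.Lib.FF
open scoped MatrixGroups Real Manifold Topology

noncomputable section

theorem s48wf_dmul_one (z : ℍ) : ffb_dmul 1 z = z := by
  apply UpperHalfPlane.ext
  rw [ffb_dmul_coe]
  simp

theorem s48wf_dmul_eq_aff (d : ℕ) [NeZero d] (z : ℍ) :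
    ffb_dmul d z = ffj_aff (⟨d, NeZero.pos d⟩ : ℕ+) 1 0 z := by
  apply UpperHalfPlane.ext
  show (d : ℂ) * z = ((((⟨d, NeZero.pos d⟩ : ℕ+) : ℕ) : ℂ) * z + ((0 : ℤ) : ℂ)) / (((1 : ℕ+) : ℕ) : ℂ)
  simp

theorem s48wf_Gamma_le {N N' : ℕ} (h : N ∣ N') :
    CongruenceSubgroup.Gamma N' ≤ CongruenceSubgroup.Gamma N := by
  intro γ hγ
  rw [Gamma_mem] at hγ ⊢
  obtain ⟨h00, h01, h10, h11⟩ := hγ
  have hcast : ∀ x : ℤ, ((x : ZMod N') = 1) → ((x : ZMod N) = 1) := by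
    intro x hx
    have := congrArg (ZMod.castHom h (ZMod N)) hx
    rwa [map_intCast, map_one] at this
  have hcast0 : ∀ x : ℤ, ((x : ZMod N') = 0) → ((x : ZMod N) = 0) := by
    intro x hx
    have := congrArg (ZMod.castHom h (ZMod N)) hx
    rwa [map_intCast, map_zero] at this
  exact ⟨hcast _ h00, hcast0 _ h01, hcast0 _ h10, hcast _ h11⟩

theorem s48wf_isWH_mono {N N' : ℕ} {f : ℍ → ℂ} (hf : ffm_IsWH N f) (h : N ∣ N') :
    ffm_IsWH N' f where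
  mdiff := hf.mdiff
  inv := fun γ hγ z => hf.inv γ (s48wf_Gamma_le h hγ) z
  growth := hf.growth

/-- `d · (γ z) = γ' (d z)` for `d ∣ γ₁₀`. -/
theorem s48wf_dmul_smul (d : ℕ) [NeZero d] (γ : SL(2, ℤ)) (c' : ℤ) (hc' : γ 1 0 = (d : ℤ) * c') :
    ∃ γ' : SL(2, ℤ), γ' 0 0 = γ 0 0 ∧ γ' 0 1 = (d : ℤ) * γ 0 1 ∧ γ' 1 0 = c' ∧ γ' 1 1 = γ 1 1 ∧
      ∀ z : ℍ, ffb_dmul d (γ • z) = γ' • ffb_dmul d z := by
  have hdetγ : γ 0 0 * γ 1 1 - γ 0 1 * γ 1 0 = 1 := by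
    have := γ.det_coe
    rwa [Matrix.det_fin_two] at this
  let γ' : SL(2, ℤ) := ⟨!![γ 0 0, (d : ℤ) * γ 0 1; c', γ 1 1], by
    rw [Matrix.det_fin_two_of]
    rw [hc'] at hdetγ
    linear_combination hdetγ⟩
  have g00 : γ' 0 0 = γ 0 0 := rfl
  have g01 : γ' 0 1 = (d : ℤ) * γ 0 1 := rfl
  have g10 : γ' 1 0 = c' := rfl
  have g11 : γ' 1 1 = γ 1 1 := rfl
  refine ⟨γ', g00, g01, g10, g11, fun z => ?_⟩
  apply UpperHalfPlane.ext
  rw [ffb_dmul_coe, coe_specialLinearGroup_apply, coe_specialLinearGroup_apply, ffb_dmul_coe]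
  rw [g00, g01, g10, g11]
  simp only [algebraMap_int_eq, Int.coe_castRingHom, ofReal_intCast]
  have hA : ((γ 1 0 : ℤ) : ℂ) * z + ((γ 1 1 : ℤ) : ℂ) ≠ 0 := by
    have := UpperHalfPlane.denom_ne_zero γ z
    simpa [UpperHalfPlane.denom] using this
  have hc : ((γ 1 0 : ℤ) : ℂ) = (d : ℂ) * ((c' : ℤ) : ℂ) := by
    rw [hc']; push_cast; ring
  have hden : ((c' : ℤ) : ℂ) * ((d : ℂ) * z) + ((γ 1 1 : ℤ) : ℂ)
      = ((γ 1 0 : ℤ) : ℂ) * z + ((γ 1 1 : ℤ) : ℂ) := by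
    rw [hc]; ring
  rw [hden]
  push_cast
  field_simp

/-- Moderate growth is stable under `z ↦ (a z + b) / e`. -/
theorem s48wf_growth_aff {g : ℍ → ℂ} (hg : ffm_ModerateGrowth g) (a e : ℕ+) (b : ℤ) :
    ffm_ModerateGrowth (fun z => g (ffj_aff a e b z)) := by
  obtain ⟨M, hM⟩ := hg
  refine ⟨M * (a : ℕ), ?_⟩
  rw [UpperHalfPlane.isBoundedAtImInfty_iff] at hM ⊢
  obtain ⟨C, A, hC⟩ := hM
  have ha : (0 : ℝ) < ((a : ℕ) : ℝ) := by exact_mod_cast a.pos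
  have he : (0 : ℝ) < ((e : ℕ) : ℝ) := by exact_mod_cast e.pos
  have he1 : (1 : ℝ) ≤ ((e : ℕ) : ℝ) := by exact_mod_cast e.pos
  refine ⟨C, A * ((e : ℕ) : ℝ) / ((a : ℕ) : ℝ), fun z hz => ?_⟩
  have him : A ≤ (ffj_aff a e b z).im := by
    rw [ffj_im_aff]
    rw [div_le_iff₀ ha] at hz
    rw [div_mul_eq_mul_div, le_div_iff₀ he]
    linarith
  have h1 := hC (ffj_aff a e b z) him
  have hsplit : g (ffj_aff a e b z) * cexp (2 * π * I * ((M * (a : ℕ) : ℕ) : ℂ) * z)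
      = (g (ffj_aff a e b z) * cexp (2 * π * I * (M : ℂ) * (ffj_aff a e b z : ℂ)))
        * cexp (2 * π * I * (M : ℂ) * (((a : ℕ) : ℂ) * z - (ffj_aff a e b z : ℂ))) := by
    rw [mul_assoc (g _) (cexp _) (cexp _), ← Complex.exp_add]
    congr 2
    push_cast
    ring
  rw [hsplit, norm_mul]
  have hle : ‖cexp (2 * π * I * (M : ℂ) * (((a : ℕ) : ℂ) * z - (ffj_aff a e b z : ℂ)))‖ ≤ 1 := by
    rw [Complex.norm_exp]
    have him0 : ∀ x w : ℂ, (2 * π * I * (M : ℂ) * (x - w)).re = -(2 * π * M * (x.im - w.im)) := by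
      intro x w
      simp [mul_re, mul_im]
    have him1 : (2 * π * I * (M : ℂ) * (((a : ℕ) : ℂ) * z - (ffj_aff a e b z : ℂ))).re
        = -(2 * π * M * (((a : ℕ) : ℝ) * z.im - (ffj_aff a e b z).im)) := by
      rw [him0]
      have h1 : (((a : ℕ) : ℂ) * (z : ℂ)).im = ((a : ℕ) : ℝ) * z.im := by simp
      have h2 : ((ffj_aff a e b z : ℍ) : ℂ).im = (ffj_aff a e b z).im := rfl
      rw [h1, h2]
    rw [him1, Real.exp_le_one_iff, ffj_im_aff]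
    have hzp := z.im_pos
    have hdiv : ((a : ℕ) : ℝ) / ((e : ℕ) : ℝ) ≤ ((a : ℕ) : ℝ) := div_le_self ha.le he1
    have h0 : 0 ≤ ((a : ℕ) : ℝ) * z.im - ((a : ℕ) : ℝ) / ((e : ℕ) : ℝ) * z.im := by
      have := mul_le_mul_of_nonneg_right hdiv hzp.le
      linarith
    have hpi := Real.pi_pos
    have hM0 : (0 : ℝ) ≤ M := Nat.cast_nonneg M
    have : 0 ≤ 2 * π * M * (((a : ℕ) : ℝ) * z.im - ((a : ℕ) : ℝ) / ((e : ℕ) : ℝ) * z.im) :=
      mul_nonneg (mul_nonneg (by positivity) hM0) h0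
    linarith
  calc _ ≤ C * 1 := mul_le_mul h1 hle (norm_nonneg _) ((norm_nonneg _).trans h1)
    _ = C := mul_one C

theorem s48wf_mdiff_dmul (d : ℕ) [NeZero d] {f : ℍ → ℂ} (hf : MDiff f) :
    MDiff (fun z => f (ffb_dmul d z)) := by
  have hd : (0 : ℝ) < d := Nat.cast_pos.mpr (NeZero.pos d)
  rw [UpperHalfPlane.mdifferentiable_iff]
  have h1 : DifferentiableOn ℂ (f ∘ ofComplex) {z | 0 < z.im} :=
    UpperHalfPlane.mdifferentiable_iff.mp hf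
  have h2 : DifferentiableOn ℂ ((f ∘ ofComplex) ∘ fun w : ℂ => (d : ℂ) * w) {z | 0 < z.im} := by
    refine h1.comp (by fun_prop) fun w hw => ?_
    simpa using mul_pos hd hw
  refine h2.congr fun w hw => ?_
  simp only [Function.comp_apply]
  rw [ffb_dmul_ofComplex d hw]

/-- **Level raising**: `f ∈ ffm_R N ⇒ f(d ·) ∈ ffm_R (N d)`. -/
theorem s48wf_isWH_dmul {N : ℕ} (d : ℕ) [NeZero d] {f : ℍ → ℂ} (hf : ffm_IsWH N f) :
    ffm_IsWH (N * d) (fun z => f (ffb_dmul d z)) where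
  mdiff := s48wf_mdiff_dmul d hf.mdiff
  inv := fun γ hγ z => by
    rw [Gamma_mem] at hγ
    obtain ⟨h00, h01, h10, h11⟩ := hγ
    have hdvd : ((N * d : ℕ) : ℤ) ∣ γ 1 0 := (ZMod.intCast_zmod_eq_zero_iff_dvd _ _).mp h10
    obtain ⟨c'', hc''⟩ := hdvd
    have hc' : γ 1 0 = (d : ℤ) * ((N : ℤ) * c'') := by rw [hc'']; push_cast; ring
    obtain ⟨γ', g00, g01, g10, g11, hγ'⟩ := s48wf_dmul_smul d γ _ hc'
    rw [hγ' z]
    refine hf.inv γ' ?_ _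
    have hG : γ ∈ CongruenceSubgroup.Gamma N :=
      s48wf_Gamma_le (dvd_mul_right N d) (Gamma_mem.mpr ⟨h00, h01, h10, h11⟩)
    obtain ⟨k00, k01, -, k11⟩ := Gamma_mem.mp hG
    rw [Gamma_mem]
    refine ⟨?_, ?_, ?_, ?_⟩
    · rw [g00]; exact k00
    · rw [g01]; push_cast; rw [k01, mul_zero]
    · rw [g10]; push_cast; simp
    · rw [g11]; exact k11
  growth := fun γ => by
    obtain ⟨σ, a, e, b, -, h⟩ := ffj_exists_aff ⟨d, NeZero.pos d⟩ γ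
    have hfun : (fun z : ℍ => f (ffb_dmul d (γ • z))) =
        fun z => (fun w => f (σ • w)) (ffj_aff a e b z) := by
      funext z
      rw [s48wf_dmul_eq_aff, h z]
    rw [hfun]
    exact s48wf_growth_aff (hf.growth σ) a e b

end

end Fermat.Agent.Lib.S48
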