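/-
DS-1 (S48), twisted [W], item (F1) (helper5), part B: over `ℂ`.
For an even Dirichlet character `ψ` modulo `M > 1` and `p` with `NeZero p`:
the function `z ↦ T_ψ(p z) / T_ψ(z)` is `Γ₀(M p)`-invariant, hence ([INV] for `Γ₀(M p)`,
`s29b_phi_surjective_invariants`) its `q`-expansion `t(q^p)/t(q)` lies in
`laurentBaseChange ℂ (modularFunctionFieldFull (M p))`.
-/
import Fermat.Agent.Lib.S48.WFA
import Fermat.Agent.Lib.S48.KEisT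
import Fermat.Agent.Lib.S29.BFixed
import Fermat.Agent.Lib.S29.BPPhi

set_option autoImplicit false
set_option linter.unusedSectionVars false

namespace Fermat.Agent.Lib.S48

open UpperHalfPlane hiding I
open Complex Filter CongruenceSubgroup Matrix.SpecialLinearGroup ModularCurve
open Fermat.Agent.Lib.FF Fermat.Agent.Lib.S29
open scoped MatrixGroups Real Manifold Topology

noncomputable section

theorem s48wf_isUnit_lowerRight {N : ℕ} {γ : SL(2, ℤ)} (hγ : γ ∈ Gamma0 N) :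
    IsUnit (((γ 1 1 : ℤ) : ZMod N)) := by
  have hdet : γ 0 0 * γ 1 1 - γ 0 1 * γ 1 0 = 1 := by
    have := γ.det_coe
    rwa [Matrix.det_fin_two] at this
  rw [Gamma0_mem] at hγ
  have h1 := congrArg (Int.cast : ℤ → ZMod N) hdet
  push_cast at h1
  rw [hγ, mul_zero, sub_zero] at h1
  exact IsUnit.of_mul_eq_one _ (by rw [mul_comm]; exact h1)

theorem s48wf_Gamma0_le {N N' : ℕ} (h : N ∣ N') : Gamma0 N' ≤ Gamma0 N := by
  intro γ hγ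
  rw [Gamma0_mem] at hγ ⊢
  have := congrArg (ZMod.castHom h (ZMod N)) hγ
  rwa [map_intCast, map_zero] at this

variable {M : ℕ} [NeZero M] (ψ : DirichletCharacter ℂ M) (p : ℕ) [NeZero p]

/-- The formal generator over `ℂ`. -/
def s48wf_tC : LaurentSeries ℂ :=
  HahnSeries.ofPowerSeries ℤ ℂ (s48k_tPS (fun c : ℕ => ψ (c : ZMod M)))

theorem s48wf_tC_ne_zero : s48wf_tC ψ ≠ 0 := by
  intro h
  have h1 : s48k_tPS (fun c : ℕ => ψ (c : ZMod M)) = 0 :=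
    (map_eq_zero_iff _ HahnSeries.ofPowerSeries_injective).mp h
  have h2 := s48k_constantCoeff_tPS (fun c : ℕ => ψ (c : ZMod M))
  rw [h1, map_zero] at h2
  simp at h2

/-- `T_ψ` at level `M p`. -/
def s48wf_TR (hM : 1 < M) (hψ : ψ.Even) : ffm_R (M * p) :=
  ⟨s48k_T ψ, s48wf_isWH_mono (s48k_T_isWH ψ hM hψ) (dvd_mul_right M p)⟩

/-- `z ↦ T_ψ(p z)` at level `M p`. -/
def s48wf_TpR (hM : 1 < M) (hψ : ψ.Even) : ffm_R (M * p) :=
  ⟨fun z => s48k_T ψ (ffb_dmul p z), s48wf_isWH_dmul p (s48k_T_isWH ψ hM hψ)⟩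

theorem s48wf_TR_isLaurent (hM : 1 < M) (hψ : ψ.Even) :
    ffb_IsLaurent (s48wf_TR ψ p hM hψ : ℍ → ℂ) (s48wf_tC ψ) :=
  s48k_T_isLaurent ψ hM hψ

theorem s48wf_TpR_isLaurent (hM : 1 < M) (hψ : ψ.Even) :
    ffb_IsLaurent (s48wf_TpR ψ p hM hψ : ℍ → ℂ) (qExpand ℂ p (s48wf_tC ψ)) :=
  (s48k_T_isLaurent ψ hM hψ).comp_dmul p

theorem s48wf_TR_ne_zero (hM : 1 < M) (hψ : ψ.Even) : s48wf_TR ψ p hM hψ ≠ 0 := by
  intro h
  have h1 := s48wf_TR_isLaurent ψ p hM hψ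
  rw [h] at h1
  have h0 : ffb_IsLaurent ((0 : ffm_R (M * p)) : ℍ → ℂ) (0 : LaurentSeries ℂ) := by
    have := ffb_IsLaurent.const 0
    rw [map_zero] at this
    exact this
  exact s48wf_tC_ne_zero ψ (h1.unique h0)

/-- The nebentypus factor is the same for `T(z)` and `T(p z)`. -/
theorem s48wf_smul_TR (hM : 1 < M) (hψ : ψ.Even) {γ : SL(2, ℤ)} (hγ : γ ∈ Gamma0 (M * p)) :
    γ • s48wf_TR ψ p hM hψ =
      ψ (((γ⁻¹ : SL(2, ℤ)) 1 1 : ℤ) : ZMod M) • s48wf_TR ψ p hM hψ := by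
  have hγ' : γ⁻¹ ∈ Gamma0 M := s48wf_Gamma0_le (dvd_mul_right M p) (inv_mem hγ)
  ext z
  show s48k_T ψ (γ⁻¹ • z) = ψ (((γ⁻¹ : SL(2, ℤ)) 1 1 : ℤ) : ZMod M) * s48k_T ψ z
  exact s48k_T_smul ψ hM hψ hγ' z

theorem s48wf_smul_TpR (hM : 1 < M) (hψ : ψ.Even) {γ : SL(2, ℤ)} (hγ : γ ∈ Gamma0 (M * p)) :
    γ • s48wf_TpR ψ p hM hψ =
      ψ (((γ⁻¹ : SL(2, ℤ)) 1 1 : ℤ) : ZMod M) • s48wf_TpR ψ p hM hψ := by
  have hγi : γ⁻¹ ∈ Gamma0 (M * p) := inv_mem hγ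
  rw [Gamma0_mem] at hγi
  have hdvd : ((M * p : ℕ) : ℤ) ∣ (γ⁻¹ : SL(2, ℤ)) 1 0 :=
    (ZMod.intCast_zmod_eq_zero_iff_dvd _ _).mp hγi
  obtain ⟨c'', hc''⟩ := hdvd
  have hc' : (γ⁻¹ : SL(2, ℤ)) 1 0 = (p : ℤ) * ((M : ℤ) * c'') := by rw [hc'']; push_cast; ring
  obtain ⟨γ', -, -, g10, g11, hγ'⟩ := s48wf_dmul_smul p (γ⁻¹ : SL(2, ℤ)) _ hc'
  have hγ'0 : γ' ∈ Gamma0 M := by
    rw [Gamma0_mem, g10]
    push_cast
    simp
  ext z
  show s48k_T ψ (ffb_dmul p (γ⁻¹ • z)) =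
    ψ (((γ⁻¹ : SL(2, ℤ)) 1 1 : ℤ) : ZMod M) * s48k_T ψ (ffb_dmul p z)
  rw [hγ' z, s48k_T_smul ψ hM hψ hγ'0, g11]

/-- The `Γ₀(M p)`-invariant function `T(p z)/T(z)` in the model field. -/
def s48wf_CE (hM : 1 < M) (hψ : ψ.Even) : ffm_E (M * p) :=
  algebraMap (ffm_R (M * p)) (ffm_E (M * p)) (s48wf_TpR ψ p hM hψ) /
    algebraMap (ffm_R (M * p)) (ffm_E (M * p)) (s48wf_TR ψ p hM hψ)

theorem s48wf_CE_smul (hM : 1 < M) (hψ : ψ.Even) {γ : SL(2, ℤ)} (hγ : γ ∈ Gamma0 (M * p)) :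
    γ • s48wf_CE ψ p hM hψ = s48wf_CE ψ p hM hψ := by
  have hγ' : γ⁻¹ ∈ Gamma0 M := s48wf_Gamma0_le (dvd_mul_right M p) (inv_mem hγ)
  have hu : ψ (((γ⁻¹ : SL(2, ℤ)) 1 1 : ℤ) : ZMod M) ≠ 0 := by
    have := s48wf_isUnit_lowerRight hγ'
    exact (this.map ψ).ne_zero
  set c := ψ (((γ⁻¹ : SL(2, ℤ)) 1 1 : ℤ) : ZMod M) with hc
  have hcE : algebraMap ℂ (ffm_E (M * p)) c ≠ 0 := by
    rw [Ne, map_eq_zero_iff _ (algebraMap ℂ (ffm_E (M * p))).injective]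
    exact hu
  unfold s48wf_CE
  rw [smul_div₀', ffm_smul_algebraMap, ffm_smul_algebraMap, s48wf_smul_TR ψ p hM hψ hγ,
    s48wf_smul_TpR ψ p hM hψ hγ, ← hc, Algebra.smul_def, Algebra.smul_def, map_mul, map_mul,
    ← IsScalarTower.algebraMap_apply, mul_div_mul_left _ _ hcE]

/-- **(F1) over `ℂ`**: `t(q^p)/t(q) ∈ ℂ(j(q^d) : d ∣ M p)`. -/
theorem s48wf_F1C (hM : 1 < M) (hψ : ψ.Even) :
    qExpand ℂ p (s48wf_tC ψ) / s48wf_tC ψ ∈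
      laurentBaseChange ℂ (modularFunctionFieldFull (M * p)) := by
  have : NeZero (M * p) := ⟨Nat.mul_ne_zero (NeZero.ne M) (NeZero.ne p)⟩
  obtain ⟨h, hh⟩ := s29b_phi_surjective_invariants (K := ℂ) (M * p) (RingHom.id ℂ)
    Function.surjective_id (s48wf_CE ψ p hM hψ) (fun γ hγ => s48wf_CE_smul ψ p hM hψ hγ)
  obtain ⟨a, b, hb0, hab, hφ⟩ := s29bp_exists_frac (RingHom.id ℂ) (M * p) h
  have hTR0 : algebraMap (ffm_R (M * p)) (ffm_E (M * p)) (s48wf_TR ψ p hM hψ) ≠ 0 := by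
    rw [Ne, map_eq_zero_iff _ (IsFractionRing.injective (ffm_R (M * p)) (ffm_E (M * p)))]
    exact s48wf_TR_ne_zero ψ p hM hψ
  -- the identity of functions
  have hfun : s48wf_TpR ψ p hM hψ * s29bp_psi (RingHom.id ℂ) (M * p) b =
      s29bp_psi (RingHom.id ℂ) (M * p) a * s48wf_TR ψ p hM hψ := by
    apply IsFractionRing.injective (ffm_R (M * p)) (ffm_E (M * p))
    rw [map_mul, map_mul, ← hφ, hh, s48wf_CE]
    field_simp
  -- the identity of Laurent series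
  have h1 := (s48wf_TpR_isLaurent ψ p hM hψ).mul (s29bp_psi_isLaurent (RingHom.id ℂ) (M * p) b)
  have h2 := (s29bp_psi_isLaurent (RingHom.id ℂ) (M * p) a).mul (s48wf_TR_isLaurent ψ p hM hψ)
  have hfun' : ((s48wf_TpR ψ p hM hψ : ffm_R (M * p)) : ℍ → ℂ) *
      ((s29bp_psi (RingHom.id ℂ) (M * p) b : ffm_R (M * p)) : ℍ → ℂ) =
      ((s29bp_psi (RingHom.id ℂ) (M * p) a : ffm_R (M * p)) : ℍ → ℂ) *
        ((s48wf_TR ψ p hM hψ : ffm_R (M * p)) : ℍ → ℂ) := congrArg Subtype.val hfun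
  rw [hfun'] at h1
  have hser := h1.unique h2
  rw [coeffMap_id, coeffMap_id] at hser
  -- conclude
  have hbL : (b : LaurentSeries ℂ) ≠ 0 := fun h0 => hb0 (Subtype.ext h0)
  have ht0 := s48wf_tC_ne_zero ψ
  have hfinal : qExpand ℂ p (s48wf_tC ψ) / s48wf_tC ψ = (h : LaurentSeries ℂ) := by
    rw [div_eq_iff ht0]
    apply mul_right_cancel₀ hbL
    rw [hser, ← hab]
    ring
  rw [hfinal]
  exact h.2

end

end Fermat.Agent.Lib.S48
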