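/-
DS-1 (S48), twisted [W], item (F1) (helper5), part C: descent to `ℚ̄`.
For an even Dirichlet character `χ` modulo `M > 1` with values in `ℚ̄`, the formal generator
`s48wf_tq χ = (∑ σ^χ_{11}(n) qⁿ)/Δ ∈ ℚ̄((q))` satisfies
**(F1)** `t(q^p)/t(q) ∈ F̄₀(M p) = modularFunctionFieldBar (M * p)`.
-/
import Fermat.Agent.Lib.S48.WFB
import Fermat.Agent.Lib.S29.DCRetract

set_option autoImplicit false
set_option linter.unusedSectionVars false

namespace Fermat.Agent.Lib.S48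

open ModularCurve
open Fermat.Agent.Lib.FF Fermat.Agent.Lib.S29

noncomputable section

local notation "Kb" => AlgebraicClosure ℚ

variable {M : ℕ} [NeZero M] (χ : DirichletCharacter Kb M) (p : ℕ) [NeZero p]

/-- The formal generator `t_χ = (∑_{n ≥ 1} σ^χ_{11}(n) qⁿ)/Δ ∈ 1 + q ℚ̄[[q]]`. -/
def s48wf_tq : LaurentSeries Kb :=
  HahnSeries.ofPowerSeries ℤ Kb (s48k_tPS (fun c : ℕ => χ (c : ZMod M)))

/-- The complex character `ι ∘ χ`. -/
def s48wf_psi : DirichletCharacter ℂ M := χ.ringHomComp ffb_iota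

theorem s48wf_psi_apply (a : ZMod M) : s48wf_psi χ a = ffb_iota (χ a) := rfl

theorem s48wf_psi_even (hχ : χ.Even) : (s48wf_psi χ).Even := by
  show s48wf_psi χ (-1) = 1
  rw [s48wf_psi_apply, show χ (-1) = 1 from hχ, map_one]

theorem s48wf_coeffMap_tq : coeffMap ffb_iota (s48wf_tq χ) = s48wf_tC (s48wf_psi χ) := by
  rw [s48wf_tq, s48wf_tC, ffb_coeffMap_ofPowerSeries, s48k_tPS_map]
  rfl

theorem s48wf_tq_ne_zero : s48wf_tq χ ≠ 0 := by
  intro h
  have h1 : s48k_tPS (fun c : ℕ => χ (c : ZMod M)) = 0 :=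
    (map_eq_zero_iff _ HahnSeries.ofPowerSeries_injective).mp h
  have h2 := s48k_constantCoeff_tPS (fun c : ℕ => χ (c : ZMod M))
  rw [h1, map_zero] at h2
  simp at h2

/-- **(F1)**: `c_χ = t_χ(q^p)/t_χ(q) ∈ F̄₀(M p)`. -/
theorem s48wf_F1 (hM : 1 < M) (hχ : χ.Even) :
    qExpand Kb p (s48wf_tq χ) / s48wf_tq χ ∈ modularFunctionFieldBar (M * p) := by
  refine s29cf_mem_of_coeffMap_mem' ffb_iota (modularFunctionFieldFull (M * p)) _ ?_
  rw [map_div₀, ffb_coeffMap_qExpand, s48wf_coeffMap_tq]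
  exact s48wf_F1C (s48wf_psi χ) p hM (s48wf_psi_even χ hχ)

end

end Fermat.Agent.Lib.S48
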