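/-
DS-1 (S48), twisted [W] (helper5), part L: LINEARITY of the formal generator in the weight, and
**(LIN)** `∑_u χ(u) s̄_u = |H| · t_χ` for a Dirichlet character `χ` trivial on `H`
(`s̄_u = s48k_sBar M H u` the rational generators of `F_H`, `t_χ = s48wf_tq χ`).
-/
import Fermat.Agent.Lib.S48.WFC
import Fermat.Agent.Lib.S48.KIfaceH

set_option autoImplicit false
set_option linter.unusedSectionVars false

namespace Fermat.Agent.Lib.S48

open ModularCurve
open Fermat.Agent.Lib.FF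

noncomputable section

local notation "Kb" => AlgebraicClosure ℚ

section Linear

variable {R : Type*} [CommRing R]

theorem s48wf_sigma_sum {ι : Type*} (s : Finset ι) (a : ι → R) (w : ι → ℕ → R) (k n : ℕ) :
    s48k_sigma (fun c => ∑ i ∈ s, a i * w i c) k n = ∑ i ∈ s, a i * s48k_sigma (w i) k n := by
  simp only [s48k_sigma, Finset.sum_mul, Finset.mul_sum]
  rw [Finset.sum_comm]
  refine Finset.sum_congr rfl fun i _ => Finset.sum_congr rfl fun x _ => ?_
  ring

theorem s48wf_tPS_sum {ι : Type*} (s : Finset ι) (a : ι → R) (w : ι → ℕ → R) :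
    s48k_tPS (fun c => ∑ i ∈ s, a i * w i c) = ∑ i ∈ s, PowerSeries.C (a i) * s48k_tPS (w i) := by
  have hG : s48k_G1PS (fun c => ∑ i ∈ s, a i * w i c) =
      ∑ i ∈ s, PowerSeries.C (a i) * s48k_G1PS (w i) := by
    ext n
    rw [s48k_G1PS, PowerSeries.coeff_mk, s48wf_sigma_sum, map_sum]
    refine Finset.sum_congr rfl fun i _ => ?_
    rw [PowerSeries.coeff_C_mul, s48k_G1PS, PowerSeries.coeff_mk]
  rw [s48k_tPS, hG, Finset.sum_mul]
  refine Finset.sum_congr rfl fun i _ => ?_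
  rw [s48k_tPS, mul_assoc]

end Linear

variable {M : ℕ} [NeZero M] (H : Subgroup (ZMod M)ˣ) (χ : DirichletCharacter Kb M)

/-- The weight identity: `∑_u χ(u) 1_{uH}(c) = |H| χ(c)`. -/
theorem s48wf_sum_wCoset (hχH : ∀ h ∈ H, χ ((h : (ZMod M)ˣ) : ZMod M) = 1) (c : ℕ) :
    ∑ u : (ZMod M)ˣ, χ ((u : (ZMod M)ˣ) : ZMod M) * ((s48k_wCoset M H u c : ℚ) : Kb) =
      (Nat.card H : Kb) * χ (c : ZMod M) := by
  classical
  by_cases hc : IsUnit ((c : ℕ) : ZMod M)
  · obtain ⟨v, hv⟩ := hc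
    have hw : ∀ u : (ZMod M)ˣ, ((s48k_wCoset M H u c : ℚ) : Kb) = if u⁻¹ * v ∈ H then 1 else 0 := by
      intro u
      rw [s48k_wCoset]
      by_cases hu : u⁻¹ * v ∈ H
      · rw [if_pos hu, if_pos ⟨u⁻¹ * v, hu, by rw [← hv]; congr 1; group⟩]
        simp
      · rw [if_neg hu, if_neg]
        · simp
        · rintro ⟨h, hh, heq⟩
          apply hu
          have : v = u * h := Units.ext (by rw [hv]; exact heq)
          rw [this]
          simpa using hh
    simp only [hw, mul_ite, mul_one, mul_zero]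
    rw [← Finset.sum_filter]
    have hterm : ∀ u ∈ Finset.filter (fun u : (ZMod M)ˣ => u⁻¹ * v ∈ H) Finset.univ,
        χ ((u : (ZMod M)ˣ) : ZMod M) = χ (c : ZMod M) := by
      intro u hu
      have hu' : u⁻¹ * v ∈ H := (Finset.mem_filter.mp hu).2
      have h1 := hχH _ hu'
      have h2 : ((c : ℕ) : ZMod M) = ((u : (ZMod M)ˣ) : ZMod M) * (((u⁻¹ * v : (ZMod M)ˣ)) : ZMod M) := by
        rw [← hv, ← Units.val_mul]
        congr 1
        group
      rw [h2, map_mul, h1, mul_one]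
    rw [Finset.sum_congr rfl hterm, Finset.sum_const, nsmul_eq_mul]
    congr 2
    rw [Nat.card_eq_fintype_card, Fintype.card_subtype]
    refine Finset.card_bij (fun u _ => u⁻¹ * v) ?_ ?_ ?_
    · intro u hu
      exact Finset.mem_filter.mpr ⟨Finset.mem_univ _, (Finset.mem_filter.mp hu).2⟩
    · intro a _ b _ hab
      have : a⁻¹ = b⁻¹ := mul_right_cancel hab
      exact inv_injective this
    · intro h hh
      refine ⟨v * h⁻¹, Finset.mem_filter.mpr ⟨Finset.mem_univ _, ?_⟩, ?_⟩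
      · have : (v * h⁻¹)⁻¹ * v = h := by group
        rw [this]
        exact (Finset.mem_filter.mp hh).2
      · group
  · have hw : ∀ u : (ZMod M)ˣ, ((s48k_wCoset M H u c : ℚ) : Kb) = 0 := by
      intro u
      rw [s48k_wCoset, if_neg]
      · simp
      · rintro ⟨h, -, heq⟩
        exact hc ⟨u * h, heq.symm⟩
    simp only [hw, mul_zero, Finset.sum_const_zero]
    rw [MulChar.map_nonunit χ hc, mul_zero]

theorem s48wf_coe_sBar (u : (ZMod M)ˣ) :
    ((s48k_sBar M H u : s48k_FH M H) : LaurentSeries Kb) =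
      HahnSeries.ofPowerSeries ℤ Kb
        (s48k_tPS (fun c : ℕ => ((s48k_wCoset M H u c : ℚ) : Kb))) := by
  show coeffEmb Kb (s48k_sQ M H u) = _
  rw [s48k_sQ, coeffEmb, ffb_coeffMap_ofPowerSeries, s48k_tPS_map]
  rfl

/-- **(LIN)**: `∑_u χ(u) s̄_u = |H| · t_χ`. -/
theorem s48wf_sum_sBar (hχH : ∀ h ∈ H, χ ((h : (ZMod M)ˣ) : ZMod M) = 1) :
    ∑ u : (ZMod M)ˣ, χ ((u : (ZMod M)ˣ) : ZMod M) •
        ((s48k_sBar M H u : s48k_FH M H) : LaurentSeries Kb) =
      (Nat.card H : Kb) • s48wf_tq χ := by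
  have h1 := s48wf_tPS_sum (Finset.univ : Finset (ZMod M)ˣ)
    (fun u => χ ((u : (ZMod M)ˣ) : ZMod M))
    (fun u (c : ℕ) => ((s48k_wCoset M H u c : ℚ) : Kb))
  have h2 : (fun c : ℕ => ∑ u : (ZMod M)ˣ, χ ((u : (ZMod M)ˣ) : ZMod M) *
      ((s48k_wCoset M H u c : ℚ) : Kb)) =
      fun c : ℕ => ∑ i ∈ (Finset.univ : Finset (Fin 1)), (Nat.card H : Kb) * χ (c : ZMod M) := by
    funext c
    rw [s48wf_sum_wCoset H χ hχH c]
    simp
  have h3 := s48wf_tPS_sum (Finset.univ : Finset (Fin 1)) (fun _ => (Nat.card H : Kb))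
    (fun _ (c : ℕ) => χ (c : ZMod M))
  rw [h2, h3] at h1
  simp only [Finset.univ_unique, Finset.sum_singleton] at h1
  simp only [s48wf_coe_sBar, s48wf_tq]
  have h4 := congrArg (HahnSeries.ofPowerSeries ℤ Kb) h1
  rw [map_mul, map_sum] at h4
  simp only [map_mul] at h4
  have hC : ∀ a : Kb, HahnSeries.ofPowerSeries ℤ Kb (PowerSeries.C a) =
      (HahnSeries.C a : LaurentSeries Kb) := fun a => HahnSeries.ofPowerSeries_C a
  simp only [hC, HahnSeries.C_mul_eq_smul] at h4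
  exact h4.symm

end

end Fermat.Agent.Lib.S48
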