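/-
DS-1 (S48), [T5]/(I1) (helper5), part A: the GENERIC INVARIANCE CRITERION over `ℚ̄`
(`s48wg_mem_bar_of_invariant`: a Laurent series over `ℚ̄` which is the quotient of the `q`-expansions
of two elements `r_a, r_b` of `ffm_R N` with `r_a / r_b` `Γ₀(N)`-invariant lies in `F̄₀(N)`), and its
consequences for the formal generators `t_χ = s48wf_tq χ`:
`t_χ t_χ' / t_{χχ'} ∈ F̄₀(N)`, `t_1 ∈ F̄₀(N)` (`M ∣ N`).
-/
import Fermat.Agent.Lib.S48.WFC

set_option autoImplicit false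
set_option linter.unusedSectionVars false

namespace Fermat.Agent.Lib.S48

open UpperHalfPlane hiding I
open Complex Filter CongruenceSubgroup Matrix.SpecialLinearGroup ModularCurve
open Fermat.Agent.Lib.FF Fermat.Agent.Lib.S29
open scoped MatrixGroups Real Manifold Topology

noncomputable section

local notation "Kb" => AlgebraicClosure ℚ

/-- Semi-invariant numerator and denominator with the same nonzero factor give an invariant
quotient. -/
theorem s48wg_smul_div_of_semi {N : ℕ} (γ : SL(2, ℤ)) (ra rb : ffm_R N) (c : ℂ) (hc : c ≠ 0)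
    (hra : γ • ra = c • ra) (hrb : γ • rb = c • rb) :
    γ • (algebraMap (ffm_R N) (ffm_E N) ra / algebraMap (ffm_R N) (ffm_E N) rb) =
      algebraMap (ffm_R N) (ffm_E N) ra / algebraMap (ffm_R N) (ffm_E N) rb := by
  have hcE : algebraMap ℂ (ffm_E N) c ≠ 0 := by
    rw [Ne, map_eq_zero_iff _ (algebraMap ℂ (ffm_E N)).injective]
    exact hc
  rw [smul_div₀', ffm_smul_algebraMap, ffm_smul_algebraMap, hra, hrb, Algebra.smul_def,
    Algebra.smul_def, map_mul, map_mul, ← IsScalarTower.algebraMap_apply,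
    mul_div_mul_left _ _ hcE]

/-- **Generic invariance criterion over `ℚ̄`.** -/
theorem s48wg_mem_bar_of_invariant (N : ℕ) [NeZero N] (x : LaurentSeries Kb) (ra rb : ffm_R N)
    (xa xb : LaurentSeries ℂ) (ha : ffb_IsLaurent (ra : ℍ → ℂ) xa)
    (hb : ffb_IsLaurent (rb : ℍ → ℂ) xb) (hb0 : xb ≠ 0)
    (hx : coeffMap ffb_iota x * xb = xa)
    (hinv : ∀ γ : SL(2, ℤ), γ ∈ Gamma0 N →
      γ • (algebraMap (ffm_R N) (ffm_E N) ra / algebraMap (ffm_R N) (ffm_E N) rb) =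
        algebraMap (ffm_R N) (ffm_E N) ra / algebraMap (ffm_R N) (ffm_E N) rb) :
    x ∈ modularFunctionFieldBar N := by
  refine s29cf_mem_of_coeffMap_mem' ffb_iota (modularFunctionFieldFull N) _ ?_
  have hrb0 : rb ≠ 0 := by
    intro h
    rw [h] at hb
    have h0 : ffb_IsLaurent ((0 : ffm_R N) : ℍ → ℂ) (0 : LaurentSeries ℂ) := by
      have := ffb_IsLaurent.const 0
      rw [map_zero] at this
      exact this
    exact hb0 (hb.unique h0)
  obtain ⟨h, hh⟩ := s29b_phi_surjective_invariants (K := ℂ) N (RingHom.id ℂ)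
    Function.surjective_id _ hinv
  obtain ⟨a, b, hb0', hab, hφ⟩ := s29bp_exists_frac (RingHom.id ℂ) N h
  have hrbE : algebraMap (ffm_R N) (ffm_E N) rb ≠ 0 := by
    rw [Ne, map_eq_zero_iff _ (IsFractionRing.injective (ffm_R N) (ffm_E N))]
    exact hrb0
  have hfun : ra * s29bp_psi (RingHom.id ℂ) N b = s29bp_psi (RingHom.id ℂ) N a * rb := by
    apply IsFractionRing.injective (ffm_R N) (ffm_E N)
    rw [map_mul, map_mul, ← hφ, hh]
    field_simp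
  have h1 := ha.mul (s29bp_psi_isLaurent (RingHom.id ℂ) N b)
  have h2 := (s29bp_psi_isLaurent (RingHom.id ℂ) N a).mul hb
  have hfun' : ((ra : ffm_R N) : ℍ → ℂ) * ((s29bp_psi (RingHom.id ℂ) N b : ffm_R N) : ℍ → ℂ) =
      ((s29bp_psi (RingHom.id ℂ) N a : ffm_R N) : ℍ → ℂ) * ((rb : ffm_R N) : ℍ → ℂ) :=
    congrArg Subtype.val hfun
  rw [hfun'] at h1
  have hser := h1.unique h2
  rw [coeffMap_id, coeffMap_id] at hser
  have hbL : (b : LaurentSeries ℂ) ≠ 0 := fun h0 => hb0' (Subtype.ext h0)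
  have hfinal : coeffMap ffb_iota x = (h : LaurentSeries ℂ) := by
    apply mul_right_cancel₀ hb0
    apply mul_right_cancel₀ hbL
    rw [hx, hser, ← hab]
    ring
  rw [hfinal]
  exact h.2

variable {M : ℕ} [NeZero M]

/-- `T_ψ` as an element of `ffm_R N`, `M ∣ N`. -/
def s48wg_TN (ψ : DirichletCharacter ℂ M) (hM : 1 < M) (hψ : ψ.Even) {N : ℕ} (hMN : M ∣ N) :
    ffm_R N :=
  ⟨s48k_T ψ, s48wf_isWH_mono (s48k_T_isWH ψ hM hψ) hMN⟩

theorem s48wg_TN_isLaurent (ψ : DirichletCharacter ℂ M) (hM : 1 < M) (hψ : ψ.Even) {N : ℕ}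
    (hMN : M ∣ N) : ffb_IsLaurent (s48wg_TN ψ hM hψ hMN : ℍ → ℂ) (s48wf_tC ψ) :=
  s48k_T_isLaurent ψ hM hψ

theorem s48wg_TN_ne_zero (ψ : DirichletCharacter ℂ M) (hM : 1 < M) (hψ : ψ.Even) {N : ℕ}
    (hMN : M ∣ N) : s48wg_TN ψ hM hψ hMN ≠ 0 := by
  intro h
  have h1 := s48wg_TN_isLaurent ψ hM hψ hMN
  rw [h] at h1
  have h0 : ffb_IsLaurent ((0 : ffm_R N) : ℍ → ℂ) (0 : LaurentSeries ℂ) := by
    have := ffb_IsLaurent.const 0
    rw [map_zero] at this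
    exact this
  exact s48wf_tC_ne_zero ψ (h1.unique h0)

theorem s48wg_smul_TN (ψ : DirichletCharacter ℂ M) (hM : 1 < M) (hψ : ψ.Even) {N : ℕ}
    (hMN : M ∣ N) {γ : SL(2, ℤ)} (hγ : γ ∈ Gamma0 N) :
    γ • s48wg_TN ψ hM hψ hMN =
      ψ (((γ⁻¹ : SL(2, ℤ)) 1 1 : ℤ) : ZMod M) • s48wg_TN ψ hM hψ hMN := by
  have hγ' : γ⁻¹ ∈ Gamma0 M := s48wf_Gamma0_le hMN (inv_mem hγ)
  ext z
  show s48k_T ψ (γ⁻¹ • z) = ψ (((γ⁻¹ : SL(2, ℤ)) 1 1 : ℤ) : ZMod M) * s48k_T ψ z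
  exact s48k_T_smul ψ hM hψ hγ' z

theorem s48wg_psi_mul (χ χ' : DirichletCharacter Kb M) :
    s48wf_psi (χ * χ') = s48wf_psi χ * s48wf_psi χ' := by
  ext a
  simp [s48wf_psi, MulChar.ringHomComp_apply, MulChar.mul_apply]

theorem s48wg_even_mul {χ χ' : DirichletCharacter Kb M} (hχ : χ.Even) (hχ' : χ'.Even) :
    (χ * χ').Even := by
  show (χ * χ') (-1) = 1
  rw [MulChar.mul_apply, show χ (-1) = 1 from hχ, show χ' (-1) = 1 from hχ', one_mul]

/-- **Multiplicativity up to `F̄₀(N)`**: `t_χ t_χ' / t_{χχ'} ∈ F̄₀(N)`. -/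
theorem s48wg_mul_div_mem (hM : 1 < M) {N : ℕ} [NeZero N] (hMN : M ∣ N)
    (χ χ' : DirichletCharacter Kb M) (hχ : χ.Even) (hχ' : χ'.Even) :
    s48wf_tq χ * s48wf_tq χ' / s48wf_tq (χ * χ') ∈ modularFunctionFieldBar N := by
  have hψ := s48wf_psi_even χ hχ
  have hψ' := s48wf_psi_even χ' hχ'
  have hψψ' := s48wf_psi_even (χ * χ') (s48wg_even_mul hχ hχ')
  refine s48wg_mem_bar_of_invariant N _
    (s48wg_TN (s48wf_psi χ) hM hψ hMN * s48wg_TN (s48wf_psi χ') hM hψ' hMN)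
    (s48wg_TN (s48wf_psi (χ * χ')) hM hψψ' hMN)
    (s48wf_tC (s48wf_psi χ) * s48wf_tC (s48wf_psi χ')) (s48wf_tC (s48wf_psi (χ * χ')))
    ((s48wg_TN_isLaurent _ hM hψ hMN).mul (s48wg_TN_isLaurent _ hM hψ' hMN))
    (s48wg_TN_isLaurent _ hM hψψ' hMN) (s48wf_tC_ne_zero _) ?_ ?_
  · rw [map_div₀, map_mul, s48wf_coeffMap_tq, s48wf_coeffMap_tq, s48wf_coeffMap_tq,
      div_mul_cancel₀ _ (s48wf_tC_ne_zero _)]
  · intro γ hγ
    have hγ' : γ⁻¹ ∈ Gamma0 M := s48wf_Gamma0_le hMN (inv_mem hγ)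
    have hu := s48wf_isUnit_lowerRight hγ'
    refine s48wg_smul_div_of_semi γ _ _
      (s48wf_psi (χ * χ') (((γ⁻¹ : SL(2, ℤ)) 1 1 : ℤ) : ZMod M)) (hu.map _).ne_zero ?_ ?_
    · rw [smul_mul', s48wg_smul_TN _ hM hψ hMN hγ, s48wg_smul_TN _ hM hψ' hMN hγ,
        s48wg_psi_mul, MulChar.mul_apply, smul_mul_smul_comm]
    · exact s48wg_smul_TN _ hM hψψ' hMN hγ

/-- `t_1 ∈ F̄₀(N)`. -/
theorem s48wg_tq_one_mem (hM : 1 < M) {N : ℕ} [NeZero N] (hMN : M ∣ N) :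
    s48wf_tq (1 : DirichletCharacter Kb M) ∈ modularFunctionFieldBar N := by
  have h1 : (1 : DirichletCharacter Kb M).Even := by
    show (1 : DirichletCharacter Kb M) (-1) = 1
    exact MulChar.one_apply (isUnit_one.neg)
  have h := s48wg_mul_div_mem hM hMN (1 : DirichletCharacter Kb M) 1 h1 h1
  rw [one_mul, mul_div_assoc, div_self (s48wf_tq_ne_zero _), mul_one] at h
  exact h

end

end Fermat.Agent.Lib.S48
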