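/-
DS-1 (S48), [T5]/(I1) (helper5), part B: the GENERIC BRIDGE on the fraction field of
`ffb_B N` (all Laurent series over `ℚ̄` which are `q`-expansions of elements of `ffm_R N`), and the
LINEAR INDEPENDENCE of the formal generators `t_χ` (distinct even characters modulo `M ∣ N`) over
`F̄₀(N)`, provided the lower right entries of `Γ₀(N)` exhaust `(ℤ/M)ˣ`.
-/
import Fermat.Agent.Lib.S48.WGA

set_option autoImplicit false
set_option linter.unusedSectionVars false

namespace Fermat.Agent.Lib.S48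

open UpperHalfPlane hiding I
open Complex CongruenceSubgroup Matrix.SpecialLinearGroup ModularCurve
open Fermat.Agent.Lib.FF Fermat.Agent.Lib.S29
open scoped MatrixGroups

noncomputable section

local notation "Kb" => AlgebraicClosure ℚ

/-! ### The bridge on `Frac (ffb_B N)` -/

/-- The subfield of `ℚ̄((q))` generated by the `q`-expansions of elements of `ffm_R N`. -/
def s48wg_FB (N : ℕ) : IntermediateField Kb (LaurentSeries Kb) :=
  IntermediateField.adjoin Kb (ffb_B N : Set (LaurentSeries Kb))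

theorem s48wg_B_le (N : ℕ) : ffb_B N ≤ (s48wg_FB N).toSubalgebra :=
  fun _ hx => IntermediateField.subset_adjoin Kb _ hx

instance s48wg_algebraBF (N : ℕ) : Algebra (ffb_B N) ↥(s48wg_FB N) :=
  (Subalgebra.inclusion (s48wg_B_le N)).toAlgebra

@[simp] theorem s48wg_algebraMap_BF_coe (N : ℕ) (b : ffb_B N) :
    ((algebraMap (ffb_B N) ↥(s48wg_FB N) b : ↥(s48wg_FB N)) : LaurentSeries Kb) =
      (b : LaurentSeries Kb) := rfl

instance s48wg_faithfulSMulBF (N : ℕ) : FaithfulSMul (ffb_B N) ↥(s48wg_FB N) :=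
  Subalgebra.inclusion.faithfulSMul (s48wg_B_le N)

instance s48wg_isFractionRingBF (N : ℕ) : IsFractionRing (ffb_B N) ↥(s48wg_FB N) :=
  .of_field _ _ fun ⟨z, hz⟩ => by
    obtain ⟨x, hx, y, hy, heq⟩ := IntermediateField.mem_adjoin_iff_div.mp hz
    rw [Algebra.adjoin_eq] at hx hy
    exact ⟨⟨x, hx⟩, ⟨y, hy⟩, Subtype.ext heq⟩

/-- **The generic bridge** `Frac (ffb_B N) →+* ffm_E N`. -/
def s48wg_Phi (N : ℕ) : ↥(s48wg_FB N) →+* ffm_E N :=
  ffg_lift (A := ffb_B N) (F := ↥(s48wg_FB N)) (R := ffm_R N) (E := ffm_E N)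
    (ffb_psiBHom N) (ffb_psiBHom_injective N)

theorem s48wg_Phi_algebraMap (N : ℕ) (b : ffb_B N) :
    s48wg_Phi N (algebraMap (ffb_B N) ↥(s48wg_FB N) b) =
      algebraMap (ffm_R N) (ffm_E N) (ffb_psiBHom N b) :=
  ffg_lift_algebraMap _ _ b

theorem s48wg_mem_FB_of_isLaurent {N : ℕ} {x : LaurentSeries Kb} {r : ffm_R N}
    (h : ffb_IsLaurent (r : ℍ → ℂ) (coeffMap ffb_iota x)) : x ∈ s48wg_FB N :=
  s48wg_B_le N ⟨r, h⟩

/-- `Φ x = r` as soon as `r` has the `q`-expansion `x`. -/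
theorem s48wg_Phi_of_isLaurent {N : ℕ} (x : ↥(s48wg_FB N)) (r : ffm_R N)
    (h : ffb_IsLaurent (r : ℍ → ℂ) (coeffMap ffb_iota (x : LaurentSeries Kb))) :
    s48wg_Phi N x = algebraMap (ffm_R N) (ffm_E N) r := by
  have hx : x = algebraMap (ffb_B N) ↥(s48wg_FB N) ⟨(x : LaurentSeries Kb), ⟨r, h⟩⟩ :=
    Subtype.ext rfl
  rw [hx, s48wg_Phi_algebraMap]
  congr 1
  exact ffb_psiBHom_eq h

theorem s48wg_bar_le_FB (N : ℕ) : modularFunctionFieldBar N ≤ s48wg_FB N := by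
  rw [ffg_field_eq]
  exact IntermediateField.adjoin.mono Kb _ _ (ffb_gens_subset_B N)

/-- `Φ` is `Γ₀(N)`-invariant on `F̄₀(N)`. -/
theorem s48wg_Phi_smul_of_mem_bar {N : ℕ} {γ : SL(2, ℤ)} (hγ : γ ∈ Gamma0 N)
    (a : ↥(s48wg_FB N)) (ha : (a : LaurentSeries Kb) ∈ modularFunctionFieldBar N) :
    γ • s48wg_Phi N a = s48wg_Phi N a := by
  obtain ⟨x, y, -, hxy⟩ := IsFractionRing.div_surjective (A := ffg_A N)
    (⟨(a : LaurentSeries Kb), ha⟩ : ffi_F N)
  have hxB : (x : LaurentSeries Kb) ∈ ffb_B N := ffb_A_le_B N x.2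
  have hyB : (y : LaurentSeries Kb) ∈ ffb_B N := ffb_A_le_B N y.2
  have ha' : a = algebraMap (ffb_B N) ↥(s48wg_FB N) ⟨x, hxB⟩ /
      algebraMap (ffb_B N) ↥(s48wg_FB N) ⟨y, hyB⟩ := by
    apply Subtype.ext
    have := congrArg (fun z : ffi_F N => (z : LaurentSeries Kb)) hxy
    simp only at this
    rw [← this]
    rfl
  let x' : ffb_A N := ⟨(x : LaurentSeries Kb), x.2⟩
  let y' : ffb_A N := ⟨(y : LaurentSeries Kb), y.2⟩
  have hpx : ffb_psiBHom N ⟨x, hxB⟩ = ffb_psi N x' := rfl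
  have hpy : ffb_psiBHom N ⟨y, hyB⟩ = ffb_psi N y' := rfl
  rw [ha', map_div₀, s48wg_Phi_algebraMap, s48wg_Phi_algebraMap, smul_div₀',
    ffm_smul_algebraMap, ffm_smul_algebraMap, hpx, hpy, ffb_psi_smul N hγ, ffb_psi_smul N hγ]

theorem s48wg_algebraMap_smul {N : ℕ} (c : ℂ) (r : ffm_R N) :
    algebraMap (ffm_R N) (ffm_E N) (c • r) = c • algebraMap (ffm_R N) (ffm_E N) r := by
  rw [Algebra.smul_def, map_mul, ← IsScalarTower.algebraMap_apply, Algebra.smul_def]

/-! ### Linear independence of the `t_χ` -/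

variable {M : ℕ} [NeZero M]

theorem s48wg_psi_injective : Function.Injective (s48wf_psi (M := M)) := by
  intro χ χ' h
  ext a
  have := congrArg (fun ψ : DirichletCharacter ℂ M => ψ (a : ZMod M)) h
  exact ffb_iota_injective this

/-- Orthogonality on the units of `ZMod M`. -/
theorem s48wg_sum_units_inv_mul (ψ₀ ψ : DirichletCharacter ℂ M) :
    ∑ d : (ZMod M)ˣ, (ψ₀ (d : ZMod M))⁻¹ * ψ (d : ZMod M) =
      if ψ = ψ₀ then (Fintype.card (ZMod M)ˣ : ℂ) else 0 := by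
  split_ifs with h
  · subst h
    have : ∀ d : (ZMod M)ˣ, (ψ (d : ZMod M))⁻¹ * ψ (d : ZMod M) = 1 := fun d =>
      inv_mul_cancel₀ (d.isUnit.map ψ).ne_zero
    simp [this]
  · let f : (ZMod M)ˣ →* ℂ :=
      ((ψ₀⁻¹ * ψ : DirichletCharacter ℂ M).toMonoidHom).comp (Units.coeHom (ZMod M))
    have hf : f ≠ 1 := by
      intro hf
      apply h
      ext d
      have h1 := DFunLike.congr_fun hf d
      have h2 : (ψ₀⁻¹ * ψ : DirichletCharacter ℂ M) (d : ZMod M) = 1 := h1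
      rw [MulChar.mul_apply, MulChar.inv_apply_eq_inv'] at h2
      have h0 : ψ₀ (d : ZMod M) ≠ 0 := (d.isUnit.map ψ₀).ne_zero
      field_simp at h2
      exact h2
    have := sum_hom_units_eq_zero f hf
    rw [← this]
    refine Finset.sum_congr rfl fun d _ => ?_
    show _ = (ψ₀⁻¹ * ψ : DirichletCharacter ℂ M) (d : ZMod M)
    rw [MulChar.mul_apply, MulChar.inv_apply_eq_inv']

set_option synthInstance.maxHeartbeats 200000 in
/-- **Linear independence** of the `t_χ` over `F̄₀(N)`. -/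
theorem s48wg_linearIndependent (hM : 1 < M) (N : ℕ) [NeZero N] (hMN : M ∣ N)
    (hsurj : ∀ d : (ZMod M)ˣ, ∃ σ : SL(2, ℤ), σ ∈ Gamma0 N ∧
      ((σ 1 1 : ℤ) : ZMod M) = (d : ZMod M))
    (S : Finset (DirichletCharacter Kb M)) (hS : ∀ χ ∈ S, χ.Even) :
    LinearIndependent ↥(modularFunctionFieldBar N)
      (fun χ : S => s48wf_tq (χ : DirichletCharacter Kb M)) := by
  classical
  rw [Fintype.linearIndependent_iff]
  intro g hg χ₀
  -- the data in `Frac B`
  have hev : ∀ χ : S, (s48wf_psi (χ : DirichletCharacter Kb M)).Even := fun χ =>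
    s48wf_psi_even _ (hS χ χ.2)
  let TN : S → ffm_R N := fun χ => s48wg_TN (s48wf_psi (χ : DirichletCharacter Kb M)) hM (hev χ) hMN
  have hTL : ∀ χ : S, ffb_IsLaurent (TN χ : ℍ → ℂ)
      (coeffMap ffb_iota (s48wf_tq (χ : DirichletCharacter Kb M))) := fun χ => by
    rw [s48wf_coeffMap_tq]
    exact s48wg_TN_isLaurent _ hM (hev χ) hMN
  let τ : S → ↥(s48wg_FB N) := fun χ =>
    ⟨s48wf_tq (χ : DirichletCharacter Kb M), s48wg_mem_FB_of_isLaurent (hTL χ)⟩
  let G : S → ↥(s48wg_FB N) := fun χ => ⟨(g χ : LaurentSeries Kb), s48wg_bar_le_FB N (g χ).2⟩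
  have hrel : ∑ χ : S, G χ * τ χ = 0 := by
    apply Subtype.ext
    rw [IntermediateField.coe_sum]
    exact hg
  have hΦτ : ∀ χ : S, s48wg_Phi N (τ χ) = algebraMap (ffm_R N) (ffm_E N) (TN χ) := fun χ =>
    s48wg_Phi_of_isLaurent (τ χ) (TN χ) (hTL χ)
  have hrelE : ∑ χ : S, s48wg_Phi N (G χ) * algebraMap (ffm_R N) (ffm_E N) (TN χ) = 0 := by
    have := congrArg (s48wg_Phi N) hrel
    rw [map_sum, map_zero] at this
    rw [← this]
    refine Finset.sum_congr rfl fun χ _ => ?_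
    rw [map_mul, hΦτ]
  -- apply `σ_d⁻¹`
  have hd : ∀ d : (ZMod M)ˣ, ∑ χ : S, (s48wf_psi (χ : DirichletCharacter Kb M) (d : ZMod M)) •
      (s48wg_Phi N (G χ) * algebraMap (ffm_R N) (ffm_E N) (TN χ)) = 0 := by
    intro d
    obtain ⟨σ, hσ, hσd⟩ := hsurj d
    have hσi : σ⁻¹ ∈ Gamma0 N := inv_mem hσ
    have := congrArg (fun x : ffm_E N => σ⁻¹ • x) hrelE
    simp only [smul_zero, Finset.smul_sum, smul_mul'] at this
    rw [← this]
    refine Finset.sum_congr rfl fun χ _ => ?_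
    rw [s48wg_Phi_smul_of_mem_bar hσi (G χ) (g χ).2, ffm_smul_algebraMap,
      s48wg_smul_TN _ hM (hev χ) hMN hσi, inv_inv, hσd, s48wg_algebraMap_smul, mul_smul_comm]
  -- orthogonality
  have hsum : ∑ d : (ZMod M)ˣ, (s48wf_psi (χ₀ : DirichletCharacter Kb M) (d : ZMod M))⁻¹ •
      ∑ χ : S, (s48wf_psi (χ : DirichletCharacter Kb M) (d : ZMod M)) •
        (s48wg_Phi N (G χ) * algebraMap (ffm_R N) (ffm_E N) (TN χ)) = 0 := by
    simp only [hd, smul_zero, Finset.sum_const_zero]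
  simp only [Finset.smul_sum, smul_smul] at hsum
  rw [Finset.sum_comm] at hsum
  simp only [← Finset.sum_smul, s48wg_sum_units_inv_mul] at hsum
  rw [Finset.sum_eq_single χ₀] at hsum
  · rw [if_pos rfl] at hsum
    have hcard : (Fintype.card (ZMod M)ˣ : ℂ) ≠ 0 :=
      Nat.cast_ne_zero.mpr Fintype.card_ne_zero
    have h1 : s48wg_Phi N (G χ₀) * algebraMap (ffm_R N) (ffm_E N) (TN χ₀) = 0 := by
      rcases smul_eq_zero.mp hsum with h | h
      · exact absurd h hcard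
      · exact h
    have hT0 : algebraMap (ffm_R N) (ffm_E N) (TN χ₀) ≠ 0 := by
      rw [Ne, map_eq_zero_iff _ (IsFractionRing.injective (ffm_R N) (ffm_E N))]
      exact s48wg_TN_ne_zero _ hM (hev χ₀) hMN
    have h2 : s48wg_Phi N (G χ₀) = 0 := (mul_eq_zero.mp h1).resolve_right hT0
    have h3 : G χ₀ = 0 := (map_eq_zero_iff _ (s48wg_Phi N).injective).mp h2
    have h4 := congrArg (fun z : ↥(s48wg_FB N) => (z : LaurentSeries Kb)) h3
    exact Subtype.ext h4
  · intro χ _ hχ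
    rw [if_neg, zero_smul]
    intro h
    exact hχ (Subtype.ext (s48wg_psi_injective h))
  · intro h
    exact absurd (Finset.mem_univ χ₀) h

end

end Fermat.Agent.Lib.S48
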