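/-
DS-1 (S48), [T5]/(I1) (helper5), part C: THE DEGREE of `F̄₀(N)(t_χ : χ ∈ X)` over `F̄₀(N)`.
For a finite set `X` of even Dirichlet characters modulo `M ∣ N`, closed under multiplication and
containing `1`, the field `R_N = F̄₀(N)(t_χ : χ ∈ X) ⊆ ℚ̄((q))` has degree exactly `#X` over
`F̄₀(N)`, provided the lower right entries of `Γ₀(N)` exhaust `(ℤ/M)ˣ`:
`≤` because the `F̄₀(N)`-span of the `t_χ` is a ring (`t_χ t_χ' ∈ F̄₀(N) t_{χχ'}`),
`≥` by the linear independence of part B.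
-/
import Fermat.Agent.Lib.S48.WGB

set_option autoImplicit false
set_option linter.unusedSectionVars false

namespace Fermat.Agent.Lib.S48

open ModularCurve CongruenceSubgroup
open Fermat.Agent.Lib.FF
open scoped MatrixGroups

noncomputable section

local notation "Kb" => AlgebraicClosure ℚ

variable {M : ℕ} [NeZero M] (N : ℕ) [NeZero N] (X : Finset (DirichletCharacter Kb M))

/-- The family `χ ↦ t_χ`, `χ ∈ X`. -/
def s48wg_tfam : X → LaurentSeries Kb := fun χ => s48wf_tq (χ : DirichletCharacter Kb M)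

/-- The `F̄₀(N)`-span of the `t_χ`, `χ ∈ X`. -/
def s48wg_V : Submodule ↥(modularFunctionFieldBar N) (LaurentSeries Kb) :=
  Submodule.span ↥(modularFunctionFieldBar N) (Set.range (s48wg_tfam X))

/-- The field `F̄₀(N)(t_χ : χ ∈ X)` as an intermediate field over `F̄₀(N)`. -/
def s48wg_RN : IntermediateField ↥(modularFunctionFieldBar N) (LaurentSeries Kb) :=
  IntermediateField.adjoin ↥(modularFunctionFieldBar N) (Set.range (s48wg_tfam X))

theorem s48wg_tfam_mem_V (χ : X) : s48wg_tfam X χ ∈ s48wg_V N X :=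
  Submodule.subset_span ⟨χ, rfl⟩

theorem s48wg_tfam_mem_RN (χ : X) : s48wg_tfam X χ ∈ s48wg_RN N X :=
  IntermediateField.subset_adjoin _ _ ⟨χ, rfl⟩

variable {N X}

/-- Hypotheses on the set of characters. -/
structure s48wg_CharSet (X : Finset (DirichletCharacter Kb M)) : Prop where
  one_mem : (1 : DirichletCharacter Kb M) ∈ X
  mul_mem : ∀ χ ∈ X, ∀ χ' ∈ X, χ * χ' ∈ X
  even : ∀ χ ∈ X, χ.Even

theorem s48wg_one_mem_V (hM : 1 < M) (hMN : M ∣ N) (hX : s48wg_CharSet X) :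
    (1 : LaurentSeries Kb) ∈ s48wg_V N X := by
  have h1 := s48wg_tq_one_mem (M := M) hM hMN
  have h0 := s48wf_tq_ne_zero (1 : DirichletCharacter Kb M)
  have hmem := s48wg_tfam_mem_V N X ⟨1, hX.one_mem⟩
  have hinv : (s48wf_tq (1 : DirichletCharacter Kb M))⁻¹ ∈ modularFunctionFieldBar N :=
    inv_mem h1
  have := (s48wg_V N X).smul_mem ⟨_, hinv⟩ hmem
  have e : (⟨_, hinv⟩ : ↥(modularFunctionFieldBar N)) • s48wg_tfam X ⟨1, hX.one_mem⟩ =
      (1 : LaurentSeries Kb) := by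
    show (s48wf_tq (1 : DirichletCharacter Kb M))⁻¹ * s48wf_tq (1 : DirichletCharacter Kb M) = 1
    exact inv_mul_cancel₀ h0
  rwa [e] at this

theorem s48wg_mul_mem_V (hM : 1 < M) (hMN : M ∣ N) (hX : s48wg_CharSet X)
    {x y : LaurentSeries Kb} (hx : x ∈ s48wg_V N X) (hy : y ∈ s48wg_V N X) :
    x * y ∈ s48wg_V N X := by
  have hgen : ∀ χ χ' : X, s48wg_tfam X χ * s48wg_tfam X χ' ∈ s48wg_V N X := by
    intro χ χ'
    have hr := s48wg_mul_div_mem hM hMN (χ : DirichletCharacter Kb M)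
      (χ' : DirichletCharacter Kb M) (hX.even _ χ.2) (hX.even _ χ'.2)
    have hmem := s48wg_tfam_mem_V N X ⟨_, hX.mul_mem _ χ.2 _ χ'.2⟩
    have := (s48wg_V N X).smul_mem ⟨_, hr⟩ hmem
    have e : (⟨_, hr⟩ : ↥(modularFunctionFieldBar N)) •
        s48wg_tfam X ⟨_, hX.mul_mem _ χ.2 _ χ'.2⟩ = s48wg_tfam X χ * s48wg_tfam X χ' := by
      show s48wf_tq _ * s48wf_tq _ / s48wf_tq _ * s48wf_tq _ = s48wf_tq _ * s48wf_tq _
      exact div_mul_cancel₀ _ (s48wf_tq_ne_zero _)
    rwa [e] at this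
  have hmul : s48wg_V N X * s48wg_V N X ≤ s48wg_V N X := by
    rw [s48wg_V, Submodule.span_mul_span, Submodule.span_le]
    rintro _ ⟨_, ⟨χ, rfl⟩, _, ⟨χ', rfl⟩, rfl⟩
    exact hgen χ χ'
  exact hmul (Submodule.mul_mem_mul hx hy)

/-- The span as a subalgebra. -/
def s48wg_VAlg (hM : 1 < M) (hMN : M ∣ N) (hX : s48wg_CharSet X) :
    Subalgebra ↥(modularFunctionFieldBar N) (LaurentSeries Kb) :=
  (s48wg_V N X).toSubalgebra (s48wg_one_mem_V hM hMN hX)
    (fun _ _ hx hy => s48wg_mul_mem_V hM hMN hX hx hy)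

theorem s48wg_VAlg_toSubmodule (hM : 1 < M) (hMN : M ∣ N) (hX : s48wg_CharSet X) :
    Subalgebra.toSubmodule (s48wg_VAlg hM hMN hX) = s48wg_V N X :=
  Submodule.toSubalgebra_toSubmodule _ _ _

instance s48wg_finite_V : Module.Finite ↥(modularFunctionFieldBar N) ↥(s48wg_V N X) :=
  FiniteDimensional.span_of_finite _ (Set.finite_range _)

theorem s48wg_isIntegral_tfam (hM : 1 < M) (hMN : M ∣ N) (hX : s48wg_CharSet X) (χ : X) :
    IsIntegral ↥(modularFunctionFieldBar N) (s48wg_tfam X χ) := by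
  refine IsIntegral.of_mem_of_fg (s48wg_VAlg hM hMN hX) ?_ _ ?_
  · rw [s48wg_VAlg_toSubmodule]
    exact Submodule.fg_span (Set.finite_range _)
  · exact s48wg_tfam_mem_V N X χ

theorem s48wg_finiteDimensional_RN (hM : 1 < M) (hMN : M ∣ N) (hX : s48wg_CharSet X) :
    FiniteDimensional ↥(modularFunctionFieldBar N) ↥(s48wg_RN N X) := by
  have : Finite (Set.range (s48wg_tfam X)) := Set.finite_range _
  refine IntermediateField.finiteDimensional_adjoin ?_
  rintro _ ⟨χ, rfl⟩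
  exact s48wg_isIntegral_tfam hM hMN hX χ

theorem s48wg_RN_le_V (hM : 1 < M) (hMN : M ∣ N) (hX : s48wg_CharSet X) :
    Subalgebra.toSubmodule (s48wg_RN N X).toSubalgebra ≤ s48wg_V N X := by
  have halg : ∀ x ∈ Set.range (s48wg_tfam X), IsAlgebraic ↥(modularFunctionFieldBar N) x := by
    rintro _ ⟨χ, rfl⟩
    exact (s48wg_isIntegral_tfam hM hMN hX χ).isAlgebraic
  rw [s48wg_RN, IntermediateField.adjoin_toSubalgebra_of_isAlgebraic halg,
    ← s48wg_VAlg_toSubmodule hM hMN hX]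
  have : Algebra.adjoin ↥(modularFunctionFieldBar N) (Set.range (s48wg_tfam X)) ≤
      s48wg_VAlg hM hMN hX := by
    refine Algebra.adjoin_le ?_
    rintro _ ⟨χ, rfl⟩
    exact s48wg_tfam_mem_V N X χ
  exact this

/-- **The degree**: `[F̄₀(N)(t_χ : χ ∈ X) : F̄₀(N)] = #X`. -/
theorem s48wg_finrank_RN (hM : 1 < M) (hMN : M ∣ N) (hX : s48wg_CharSet X)
    (hsurj : ∀ d : (ZMod M)ˣ, ∃ σ : SL(2, ℤ), σ ∈ Gamma0 N ∧
      ((σ 1 1 : ℤ) : ZMod M) = (d : ZMod M)) :
    Module.finrank ↥(modularFunctionFieldBar N) ↥(s48wg_RN N X) = X.card := by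
  have := s48wg_finiteDimensional_RN hM hMN hX
  apply le_antisymm
  · have h1 : Module.finrank ↥(modularFunctionFieldBar N) ↥(s48wg_RN N X) ≤
        Module.finrank ↥(modularFunctionFieldBar N) ↥(s48wg_V N X) :=
      Submodule.finrank_mono (s48wg_RN_le_V hM hMN hX)
    have h2 : Module.finrank ↥(modularFunctionFieldBar N) ↥(s48wg_V N X) ≤ Fintype.card X :=
      finrank_range_le_card (s48wg_tfam X)
    rw [Fintype.card_coe] at h2
    exact h1.trans h2
  · have hli := s48wg_linearIndependent hM N hMN hsurj X hX.even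
    let b : X → ↥(s48wg_RN N X) := fun χ => ⟨s48wg_tfam X χ, s48wg_tfam_mem_RN N X χ⟩
    have hb : LinearIndependent ↥(modularFunctionFieldBar N) b := by
      refine LinearIndependent.of_comp (s48wg_RN N X).val.toLinearMap ?_
      exact hli
    have := hb.fintype_card_le_finrank
    rwa [Fintype.card_coe] at this

end

end Fermat.Agent.Lib.S48
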