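/-
DS-1 (S48), [T5]/(I1) (helper5), part D: FOURIER INVERSION and the identification of the layer
fields with the span fields of part C.
* `s48wg_XH H` : the finite set of Dirichlet characters (values in `ℚ̄`) trivial on `H`;
* `s48wg_fourier` : `φ(M) s̄_u = ∑_χ χ(u)⁻¹ ∑_v χ(v) s̄_v`, and `∑_v χ(v) s̄_v = 0` for `χ` nontrivial on `H`;
* `s48wg_sBar_mem` : every intermediate field containing the `t_χ` (`χ ∈ X_H`) contains the `s̄_u`;
* `s48wg_mem_RN_iff_FH` : `F_H = F̄₀(M)(t_χ : χ ∈ X_H)` as subsets of `ℚ̄((q))`;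
* `s48wg_mem_RN_iff_FHp` : `F'_p = F̄₀(M p)(t_χ : χ ∈ X_H)` (uses (F1));
* `s48wg_exists_sigma` : lower right entries of `Γ₀(N)` exhaust `(ℤ/M)ˣ`, `M ∣ N`.
-/
import Fermat.Agent.Lib.S48.WGC
import Fermat.Agent.Lib.S48.WFL

set_option autoImplicit false
set_option linter.unusedSectionVars false

namespace Fermat.Agent.Lib.S48

open ModularCurve CongruenceSubgroup IntermediateField
open Fermat.Agent.Lib.FF
open scoped MatrixGroups

noncomputable section

local notation "Kb" => AlgebraicClosure ℚ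

/-- Lower right entries of `Γ₀(N)` exhaust `(ℤ/M)ˣ` for `M ∣ N`. -/
theorem s48wg_exists_sigma {M N : ℕ} [NeZero M] [NeZero N] (hMN : M ∣ N) (d : (ZMod M)ˣ) :
    ∃ σ : SL(2, ℤ), σ ∈ Gamma0 N ∧ ((σ 1 1 : ℤ) : ZMod M) = (d : ZMod M) := by
  obtain ⟨d', hd'⟩ := ZMod.unitsMap_surjective hMN d
  have hcop : Nat.Coprime (d' : ZMod N).val N := ZMod.val_coe_unit_coprime d'
  set δ : ℕ := (d' : ZMod N).val with hδ
  have hg : Int.gcd (δ : ℤ) (N : ℤ) = 1 := by
    rw [Int.gcd_natCast_natCast]; exact hcop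
  have hbez := Int.gcd_eq_gcd_ab (δ : ℤ) (N : ℤ)
  rw [hg] at hbez
  set a := Int.gcdA δ N with ha
  set b := Int.gcdB δ N with hb
  have hdet : a * (δ : ℤ) - (-b) * (N : ℤ) = 1 := by
    have : ((1 : ℕ) : ℤ) = (δ : ℤ) * a + (N : ℤ) * b := hbez
    push_cast at this
    linarith
  let σ : SL(2, ℤ) := ⟨!![a, -b; (N : ℤ), (δ : ℤ)], by
    rw [Matrix.det_fin_two_of]; exact hdet⟩
  refine ⟨σ, ?_, ?_⟩
  · rw [Gamma0_mem]
    show (((N : ℤ) : ℤ) : ZMod N) = 0
    simp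
  · show (((δ : ℤ) : ℤ) : ZMod M) = (d : ZMod M)
    rw [← hd', ZMod.unitsMap_val, Int.cast_natCast, hδ, ZMod.natCast_val]

/-- Scalar multiples (for the coefficientwise scalar action) stay in an intermediate field. -/
theorem s48wg_smul_mem (K' : IntermediateField Kb (LaurentSeries Kb)) (c : Kb)
    {x : LaurentSeries Kb} (hx : x ∈ K') : c • x ∈ K' := by
  rw [← HahnSeries.C_mul_eq_smul, Fermat.Agent.Lib.S29.s29cf_C_eq]
  exact K'.mul_mem (K'.algebraMap_mem c) hx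

theorem s48wg_mem_of_smul_mem (K' : IntermediateField Kb (LaurentSeries Kb)) {c : Kb} (hc : c ≠ 0)
    {x : LaurentSeries Kb} (hx : c • x ∈ K') : x ∈ K' := by
  have h2 := s48wg_smul_mem K' c⁻¹ hx
  rwa [smul_smul, inv_mul_cancel₀ hc, one_smul] at h2

variable {M : ℕ} [NeZero M] (H : Subgroup (ZMod M)ˣ)

/-- The Dirichlet characters (values in `ℚ̄`) trivial on `H`. -/
def s48wg_XH : Finset (DirichletCharacter Kb M) :=
  (Set.toFinite {χ : DirichletCharacter Kb M |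
    ∀ h ∈ H, χ ((h : (ZMod M)ˣ) : ZMod M) = 1}).toFinset

theorem s48wg_mem_XH {χ : DirichletCharacter Kb M} :
    χ ∈ s48wg_XH H ↔ ∀ h ∈ H, χ ((h : (ZMod M)ˣ) : ZMod M) = 1 :=
  Set.Finite.mem_toFinset _

theorem s48wg_charSet_XH (hneg : (-1 : (ZMod M)ˣ) ∈ H) : s48wg_CharSet (s48wg_XH H) where
  one_mem := (s48wg_mem_XH H).mpr fun h _ => MulChar.one_apply h.isUnit
  mul_mem := fun χ hχ χ' hχ' => (s48wg_mem_XH H).mpr fun h hh => by
    rw [MulChar.mul_apply, (s48wg_mem_XH H).mp hχ h hh, (s48wg_mem_XH H).mp hχ' h hh, one_mul]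
  even := fun χ hχ => by
    show χ (-1) = 1
    have := (s48wg_mem_XH H).mp hχ (-1) hneg
    simpa using this

/-- `s̄_u` only depends on the coset `u H`. -/
theorem s48wg_sBar_mul (u h : (ZMod M)ˣ) (hh : h ∈ H) :
    s48k_sBar M H (u * h) = s48k_sBar M H u := by
  have hw : s48k_wCoset M H (u * h) = s48k_wCoset M H u := by
    funext c
    unfold s48k_wCoset
    congr 1
    apply propext
    constructor
    · rintro ⟨h', hh', hc⟩
      exact ⟨h * h', H.mul_mem hh hh', by rw [hc, mul_assoc]⟩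
    · rintro ⟨h', hh', hc⟩
      exact ⟨h⁻¹ * h', H.mul_mem (H.inv_mem hh) hh', by rw [hc]; congr 1; group⟩
  apply Subtype.ext
  show coeffEmb Kb (s48k_sQ M H (u * h)) = coeffEmb Kb (s48k_sQ M H u)
  rw [s48k_sQ, s48k_sQ, hw]

/-- The `χ`-isotypic combination vanishes for `χ` nontrivial on `H`. -/
theorem s48wg_tau_eq_zero (χ : DirichletCharacter Kb M)
    (hχ : ¬ ∀ h ∈ H, χ ((h : (ZMod M)ˣ) : ZMod M) = 1) :
    ∑ v : (ZMod M)ˣ, χ ((v : (ZMod M)ˣ) : ZMod M) •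
      ((s48k_sBar M H v : s48k_FH M H) : LaurentSeries Kb) = 0 := by
  push Not at hχ
  obtain ⟨h, hh, hne⟩ := hχ
  set τ := ∑ v : (ZMod M)ˣ, χ ((v : (ZMod M)ˣ) : ZMod M) •
      ((s48k_sBar M H v : s48k_FH M H) : LaurentSeries Kb) with hτ
  have h1 : τ = χ ((h : (ZMod M)ˣ) : ZMod M) • τ := by
    rw [hτ, Finset.smul_sum]
    rw [← Equiv.sum_comp (Equiv.mulRight h)]
    refine Finset.sum_congr rfl fun v _ => ?_
    rw [Equiv.coe_mulRight, s48wg_sBar_mul H v h hh, Units.val_mul, map_mul, smul_smul, mul_comm]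
  have h2 : (1 - χ ((h : (ZMod M)ˣ) : ZMod M)) • τ = 0 := by
    rw [sub_smul, one_smul, ← h1, sub_self]
  rcases smul_eq_zero.mp h2 with h3 | h3
  · exact absurd (sub_eq_zero.mp h3).symm hne
  · exact h3

/-- **Fourier inversion** on `(ℤ/M)ˣ`. -/
theorem s48wg_fourier (u : (ZMod M)ˣ) :
    (M.totient : Kb) • ((s48k_sBar M H u : s48k_FH M H) : LaurentSeries Kb) =
      ∑ χ : DirichletCharacter Kb M, χ (((u : (ZMod M)ˣ) : ZMod M)⁻¹) •
        ∑ v : (ZMod M)ˣ, χ ((v : (ZMod M)ˣ) : ZMod M) •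
          ((s48k_sBar M H v : s48k_FH M H) : LaurentSeries Kb) := by
  simp only [Finset.smul_sum, smul_smul]
  rw [Finset.sum_comm]
  simp only [← Finset.sum_smul]
  have key : ∀ v : (ZMod M)ˣ, ∑ χ : DirichletCharacter Kb M,
      χ (((u : (ZMod M)ˣ) : ZMod M)⁻¹) * χ ((v : (ZMod M)ˣ) : ZMod M) =
      if u = v then (M.totient : Kb) else 0 := by
    intro v
    rw [DirichletCharacter.sum_char_inv_mul_char_eq Kb u.isUnit]
    by_cases huv : u = v
    · rw [if_pos huv, if_pos (by rw [huv])]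
    · rw [if_neg huv, if_neg (fun h => huv (Units.ext h))]
  simp only [key]
  rw [Finset.sum_eq_single u]
  · rw [if_pos rfl]
  · intro v _ hv
    rw [if_neg (Ne.symm hv), zero_smul]
  · intro h
    exact absurd (Finset.mem_univ u) h

/-- Every intermediate field containing the `t_χ`, `χ ∈ X_H`, contains the `s̄_u`. -/
theorem s48wg_sBar_mem (K' : IntermediateField Kb (LaurentSeries Kb))
    (hK : ∀ χ ∈ s48wg_XH H, s48wf_tq χ ∈ K') (u : (ZMod M)ˣ) :
    ((s48k_sBar M H u : s48k_FH M H) : LaurentSeries Kb) ∈ K' := by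
  have htot : (M.totient : Kb) ≠ 0 :=
    Nat.cast_ne_zero.mpr (Nat.totient_pos.mpr (NeZero.pos M)).ne'
  have h1 : (M.totient : Kb) • ((s48k_sBar M H u : s48k_FH M H) : LaurentSeries Kb) ∈ K' := by
    rw [s48wg_fourier H u]
    refine sum_mem fun χ _ => ?_
    by_cases hχ : ∀ h ∈ H, χ ((h : (ZMod M)ˣ) : ZMod M) = 1
    · rw [s48wf_sum_sBar H χ hχ]
      refine s48wg_smul_mem K' _ ?_
      exact s48wg_smul_mem K' _ (hK χ ((s48wg_mem_XH H).mpr hχ))
    · rw [s48wg_tau_eq_zero H χ hχ, smul_zero]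
      exact zero_mem _
  exact s48wg_mem_of_smul_mem K' htot h1

/-- `t_χ ∈ F_H` for `χ` trivial on `H`. -/
theorem s48wg_tq_mem_FH (χ : DirichletCharacter Kb M) (hχ : χ ∈ s48wg_XH H) :
    s48wf_tq χ ∈ s48k_FH M H := by
  have hcard : (Nat.card H : Kb) ≠ 0 := Nat.cast_ne_zero.mpr Nat.card_pos.ne'
  have h1 : (Nat.card H : Kb) • s48wf_tq χ ∈ s48k_FH M H := by
    rw [← s48wf_sum_sBar H χ ((s48wg_mem_XH H).mp hχ)]
    refine sum_mem fun u _ => ?_
    exact s48wg_smul_mem (s48k_FH M H) _ (s48k_sBar M H u).2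
  exact s48wg_mem_of_smul_mem (s48k_FH M H) hcard h1

theorem s48wg_bar_le_FH : modularFunctionFieldBar M ≤ s48k_FH M H :=
  s48k_laurentBaseChange_mono Kb (s48k_full_le_FHQ M H)

/-- **`F_H = F̄₀(M)(t_χ : χ ∈ X_H)`** as subsets of `ℚ̄((q))`. -/
theorem s48wg_mem_RN_iff_FH (x : LaurentSeries Kb) :
    x ∈ s48wg_RN M (s48wg_XH H) ↔ x ∈ s48k_FH M H := by
  constructor
  · intro hx
    have hle : s48wg_RN M (s48wg_XH H) ≤
        IntermediateField.extendScalars (s48wg_bar_le_FH H) := by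
      rw [s48wg_RN, IntermediateField.adjoin_le_iff]
      rintro _ ⟨χ, rfl⟩
      exact s48wg_tq_mem_FH H _ χ.2
    exact hle hx
  · intro hx
    have hle : s48k_FH M H ≤ (s48wg_RN M (s48wg_XH H)).restrictScalars Kb := by
      rw [s48k_FH, s48k_FHQ, ffg_laurentBaseChange_adjoin, IntermediateField.adjoin_le_iff]
      rintro _ ⟨y, hy | ⟨u, rfl⟩, rfl⟩
      · have hmem : coeffEmb Kb y ∈ modularFunctionFieldBar M :=
          coeffEmb_mem_laurentBaseChange Kb (IntermediateField.subset_adjoin ℚ _ hy)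
        exact (s48wg_RN M (s48wg_XH H)).algebraMap_mem ⟨_, hmem⟩
      · exact s48wg_sBar_mem H ((s48wg_RN M (s48wg_XH H)).restrictScalars Kb)
          (fun χ hχ => s48wg_tfam_mem_RN M (s48wg_XH H) ⟨χ, hχ⟩) u
    exact hle hx

/-! ### Level `M p` -/

/-- `q ↦ q^p` as a `ℚ̄`-algebra endomorphism of `ℚ̄((q))`. -/
def s48wg_qExpandK (p : ℕ) [NeZero p] : LaurentSeries Kb →ₐ[Kb] LaurentSeries Kb :=
  { qExpand Kb p with
    commutes' := fun a => by
      show qExpand Kb p (algebraMap Kb (LaurentSeries Kb) a) = algebraMap Kb (LaurentSeries Kb) a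
      rw [algebraMap_laurentSeries_eq_single, qExpand_single, mul_zero] }

@[simp] theorem s48wg_qExpandK_apply (p : ℕ) [NeZero p] (x : LaurentSeries Kb) :
    s48wg_qExpandK p x = qExpand Kb p x := rfl

variable (p : ℕ) [NeZero p]

theorem s48wg_bar_le_FHp :
    modularFunctionFieldBar (M * p) ≤ laurentBaseChange Kb (s48k_FHQp M H p) := by
  refine s48k_laurentBaseChange_mono Kb ?_
  rw [modularFunctionFieldFull, IntermediateField.adjoin_le_iff]
  intro x hx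
  exact IntermediateField.subset_adjoin ℚ _ (Or.inl (Or.inl hx))

theorem s48wg_FH_le_FHp : s48k_FH M H ≤ laurentBaseChange Kb (s48k_FHQp M H p) :=
  s48k_laurentBaseChange_mono Kb (s48k_FHQ_le_FHQp M H p)

/-- **`F'_p = F̄₀(M p)(t_χ : χ ∈ X_H)`** as subsets of `ℚ̄((q))`. -/
theorem s48wg_mem_RN_iff_FHp (hM : 1 < M) (hneg : (-1 : (ZMod M)ˣ) ∈ H)
    (x : LaurentSeries Kb) :
    x ∈ s48wg_RN (M * p) (s48wg_XH H) ↔ x ∈ laurentBaseChange Kb (s48k_FHQp M H p) := by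
  have hX := s48wg_charSet_XH H hneg
  constructor
  · intro hx
    have hle : s48wg_RN (M * p) (s48wg_XH H) ≤
        IntermediateField.extendScalars (s48wg_bar_le_FHp H p) := by
      rw [s48wg_RN, IntermediateField.adjoin_le_iff]
      rintro _ ⟨χ, rfl⟩
      exact s48wg_FH_le_FHp H p (s48wg_tq_mem_FH H _ χ.2)
    exact hle hx
  · intro hx
    set R := (s48wg_RN (M * p) (s48wg_XH H)).restrictScalars Kb with hR
    have htR : ∀ χ ∈ s48wg_XH H, s48wf_tq χ ∈ R := fun χ hχ =>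
      s48wg_tfam_mem_RN (M * p) (s48wg_XH H) ⟨χ, hχ⟩
    have hbarR : ∀ y ∈ modularFunctionFieldBar (M * p), y ∈ R := fun y hy =>
      (s48wg_RN (M * p) (s48wg_XH H)).algebraMap_mem ⟨y, hy⟩
    -- `t_χ(q^p) ∈ R` by (F1)
    have htpR : ∀ χ ∈ s48wg_XH H, s48wf_tq χ ∈ R.comap (s48wg_qExpandK p) := by
      intro χ hχ
      show s48wg_qExpandK p (s48wf_tq χ) ∈ R
      rw [s48wg_qExpandK_apply]
      have hF1 := s48wf_F1 χ p hM (hX.even χ hχ)
      have h0 := s48wf_tq_ne_zero χ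
      have : qExpand Kb p (s48wf_tq χ) =
          qExpand Kb p (s48wf_tq χ) / s48wf_tq χ * s48wf_tq χ := (div_mul_cancel₀ _ h0).symm
      rw [this]
      exact R.mul_mem (hbarR _ hF1) (htR χ hχ)
    have hle : laurentBaseChange Kb (s48k_FHQp M H p) ≤ R := by
      rw [s48k_FHQp, ffg_laurentBaseChange_adjoin, IntermediateField.adjoin_le_iff]
      rintro _ ⟨y, (hy | ⟨u, rfl⟩) | ⟨_, ⟨u, rfl⟩, rfl⟩, rfl⟩
      · exact hbarR _ (coeffEmb_mem_laurentBaseChange Kb (IntermediateField.subset_adjoin ℚ _ hy))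
      · exact s48wg_sBar_mem H R htR u
      · have h1 := s48wg_sBar_mem H (R.comap (s48wg_qExpandK p)) htpR u
        have h2 : s48wg_qExpandK p ((s48k_sBar M H u : s48k_FH M H) : LaurentSeries Kb) ∈ R := h1
        rw [s48wg_qExpandK_apply] at h2
        rw [s48k_coeffEmb_qExpand]
        exact h2
    exact hle hx

end

end Fermat.Agent.Lib.S48
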