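/-
DS-1 (S48), [T5]/(I1) (helper5), part E: THE `p`-PART OF THE MODEL INPUTS.
For `1 < M`, `-1 ∈ H`, `p` prime, `p ∤ M`:
* `s48wg_finrank_FH`  : `[F_H : F̄₀(M)] = #X_H`;
* `s48wg_finrank_FHp` : `[F'_p : F̄₀(M p)] = #X_H` (linear disjointness of `F_H` and `F̄₀(M p)`);
* `s48wg_finrankAlong_alpha`, `s48wg_finrankAlong_beta` : `[F'_p : α F_H] = [F'_p : β F_H] = p + 1`;
* `s48wg_finiteAlong_alpha`, `s48wg_finiteAlong_beta`;
* `s48wg_ffGen_FH`, `s48wg_ffGen_FHp` : `j` is a generator (`FFGen ℚ̄`) of `F_H` and of `F'_p`.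
-/
import Fermat.Agent.Lib.S48.WGD
import Fermat.Agent.Lib.S37.WNorm
import Fermat.Agent.Lib.S18.RData

set_option autoImplicit false
set_option linter.unusedSectionVars false
set_option linter.style.haveILetI false

namespace Fermat.Agent.Lib.S48

open ModularCurve CongruenceSubgroup IntermediateField AlgebraicCurve
open Fermat.Agent.Lib.FF Fermat.Agent.Lib.S37 Fermat.Agent.Lib.S18
open scoped MatrixGroups

noncomputable section

local notation "Kb" => AlgebraicClosure ℚ

/-! ### Generic lemmas -/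

/-- Degrees in a commutative square of field homomorphisms. -/
theorem s48wg_tower_square {A B C D : Type*} [Field A] [Field B] [Field C] [Field D]
    (i : A →+* B) (a : B →+* D) (a₀ : A →+* C) (i' : C →+* D) (h : a.comp i = i'.comp a₀) :
    @Module.finrank A B _ _ i.toAlgebra.toModule * @Module.finrank B D _ _ a.toAlgebra.toModule =
      @Module.finrank A C _ _ a₀.toAlgebra.toModule *
        @Module.finrank C D _ _ i'.toAlgebra.toModule := by
  have h1 : @Module.finrank A B _ _ i.toAlgebra.toModule *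
      @Module.finrank B D _ _ a.toAlgebra.toModule =
      @Module.finrank A D _ _ (a.comp i).toAlgebra.toModule := by
    letI := i.toAlgebra
    letI := a.toAlgebra
    letI := (a.comp i).toAlgebra
    haveI : IsScalarTower A B D := IsScalarTower.of_algebraMap_eq (fun _ => rfl)
    exact Module.finrank_mul_finrank A B D
  have h2 : @Module.finrank A C _ _ a₀.toAlgebra.toModule *
      @Module.finrank C D _ _ i'.toAlgebra.toModule =
      @Module.finrank A D _ _ (i'.comp a₀).toAlgebra.toModule := by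
    letI := a₀.toAlgebra
    letI := i'.toAlgebra
    letI := (i'.comp a₀).toAlgebra
    haveI : IsScalarTower A C D := IsScalarTower.of_algebraMap_eq (fun _ => rfl)
    exact Module.finrank_mul_finrank A C D
  rw [h1, h2, h]

/-- Degrees in a commutative square of `K`-algebra homomorphisms of fields (pointwise form). -/
theorem s48wg_tower_square' {K A B C D : Type*} [Field K] [Field A] [Field B] [Field C] [Field D]
    [Algebra K A] [Algebra K B] [Algebra K C] [Algebra K D]
    (i : A →ₐ[K] B) (a : B →ₐ[K] D) (a₀ : A →ₐ[K] C) (i' : C →ₐ[K] D)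
    (h : ∀ x, a (i x) = i' (a₀ x)) :
    @Module.finrank A B _ _ i.toRingHom.toAlgebra.toModule *
        @Module.finrank B D _ _ a.toRingHom.toAlgebra.toModule =
      @Module.finrank A C _ _ a₀.toRingHom.toAlgebra.toModule *
        @Module.finrank C D _ _ i'.toRingHom.toAlgebra.toModule :=
  s48wg_tower_square i.toRingHom a.toRingHom a₀.toRingHom i'.toRingHom (RingHom.ext h)

/-- An intermediate field over a subfield `E` with the same carrier as `F ≥ E` has the same degree. -/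
theorem s48wg_finrank_eq_of_carrier {L : Type*} [Field L] [Algebra Kb L]
    {E F : IntermediateField Kb L} (hle : E ≤ F) (R : IntermediateField ↥E L)
    (hR : ∀ x, x ∈ R ↔ x ∈ F) :
    @Module.finrank ↥E ↥F _ _ (IntermediateField.inclusion hle).toRingHom.toAlgebra.toModule =
      Module.finrank ↥E ↥R := by
  letI := (IntermediateField.inclusion hle).toRingHom.toAlgebra
  let e : ↥F ≃ₗ[↥E] ↥R :=
    { toFun := fun x => ⟨x.1, (hR _).mpr x.2⟩
      invFun := fun x => ⟨x.1, (hR _).mp x.2⟩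
      map_add' := fun _ _ => rfl
      map_smul' := fun a x => by
        apply Subtype.ext
        rfl
      left_inv := fun _ => rfl
      right_inv := fun _ => rfl }
  exact e.finrank_eq

/-- A generator of a function field remains a generator in a finite extension. -/
theorem s48wg_ffGen_of_finite {K F₁ F₂ : Type*} [Field K] [Field F₁] [Field F₂] [Algebra K F₁]
    [Algebra K F₂] [Algebra F₁ F₂] [IsScalarTower K F₁ F₂] [FiniteDimensional F₁ F₂]
    (x : F₁) [hx : FFGen K x] : FFGen K (algebraMap F₁ F₂ x) := by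
  refine ⟨(transcendental_algebraMap_iff (algebraMap F₁ F₂).injective).mpr hx.transc, ?_⟩
  let f : F₁ →ₐ[K] F₂ := IsScalarTower.toAlgHom K F₁ F₂
  have hmap : (K⟮x⟯).map f = K⟮algebraMap F₁ F₂ x⟯ := by
    rw [IntermediateField.adjoin_map, Set.image_singleton]
    rfl
  haveI : Module.Finite K⟮x⟯ F₁ := hx.finite
  haveI : Module.Finite K⟮x⟯ F₂ := Module.Finite.trans F₁ F₂
  let e₁ : K⟮x⟯ ≃+* K⟮algebraMap F₁ F₂ x⟯ :=
    ((K⟮x⟯).equivMap f).toRingEquiv.trans (IntermediateField.equivOfEq hmap).toRingEquiv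
  have hfin := Algebra.finrank_eq_of_equiv_equiv (R₀ := K⟮x⟯) (S₀ := F₂)
    (R₁ := K⟮algebraMap F₁ F₂ x⟯) (S₁ := F₂) e₁ (RingEquiv.refl F₂)
    (RingHom.ext fun y => rfl)
  have hpos : 0 < Module.finrank K⟮x⟯ F₂ := Module.finrank_pos
  rw [hfin] at hpos
  exact Module.finite_of_finrank_pos hpos

/-! ### The relative degrees -/

variable {M : ℕ} [NeZero M] (H : Subgroup (ZMod M)ˣ)

/-- **`[F_H : F̄₀(M)] = #X_H`.** -/
theorem s48wg_finrank_FH (hM : 1 < M) (hneg : (-1 : (ZMod M)ˣ) ∈ H) :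
    @Module.finrank ↥(modularFunctionFieldBar M) ↥(s48k_FH M H) _ _
      (IntermediateField.inclusion (s48wg_bar_le_FH H)).toRingHom.toAlgebra.toModule =
      (s48wg_XH H).card := by
  rw [s48wg_finrank_eq_of_carrier (s48wg_bar_le_FH H) (s48wg_RN M (s48wg_XH H))
    (s48wg_mem_RN_iff_FH H)]
  exact s48wg_finrank_RN hM dvd_rfl (s48wg_charSet_XH H hneg)
    (fun d => s48wg_exists_sigma dvd_rfl d)

variable (p : ℕ) [NeZero p]

/-- **`[F'_p : F̄₀(M p)] = #X_H`** (linear disjointness). -/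
theorem s48wg_finrank_FHp (hM : 1 < M) (hneg : (-1 : (ZMod M)ˣ) ∈ H) :
    @Module.finrank ↥(modularFunctionFieldBar (M * p))
      ↥(laurentBaseChange Kb (s48k_FHQp M H p)) _ _
      (IntermediateField.inclusion (s48wg_bar_le_FHp H p)).toRingHom.toAlgebra.toModule =
      (s48wg_XH H).card := by
  rw [s48wg_finrank_eq_of_carrier (s48wg_bar_le_FHp H p) (s48wg_RN (M * p) (s48wg_XH H))
    (s48wg_mem_RN_iff_FHp H p hM hneg)]
  exact s48wg_finrank_RN hM (dvd_mul_right M p) (s48wg_charSet_XH H hneg)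
    (fun d => s48wg_exists_sigma (dvd_mul_right M p) d)

theorem s48wg_card_XH_pos (hneg : (-1 : (ZMod M)ˣ) ∈ H) : 0 < (s48wg_XH H).card :=
  Finset.card_pos.mpr ⟨1, (s48wg_charSet_XH H hneg).one_mem⟩

theorem s48wg_square_alpha (x : ↥(modularFunctionFieldBar M)) :
    s48k_heckeAlphaH M H p (IntermediateField.inclusion (s48wg_bar_le_FH H) x) =
      IntermediateField.inclusion (s48wg_bar_le_FHp H p) (heckeAlphaBar Kb M p x) := by
  apply Subtype.ext
  rw [s48k_coe_heckeAlphaH, IntermediateField.coe_inclusion, IntermediateField.coe_inclusion,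
    coe_heckeAlphaBar]

theorem s48wg_square_beta (x : ↥(modularFunctionFieldBar M)) :
    s48k_heckeBetaH M H p (IntermediateField.inclusion (s48wg_bar_le_FH H) x) =
      IntermediateField.inclusion (s48wg_bar_le_FHp H p) (heckeBetaBar Kb M p x) := by
  apply Subtype.ext
  rw [s48k_coe_heckeBetaH, IntermediateField.coe_inclusion, IntermediateField.coe_inclusion,
    coe_heckeBetaBar]

/-- **`[F'_p : α F_H] = p + 1`.** -/
theorem s48wg_finrankAlong_alpha (hM : 1 < M) (hneg : (-1 : (ZMod M)ˣ) ∈ H) (hp : p.Prime)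
    (hpM : ¬ p ∣ M) : finrankAlong Kb (s48k_heckeAlphaH M H p) = p + 1 := by
  have hsq := s48wg_tower_square'
    (IntermediateField.inclusion (s48wg_bar_le_FH H))
    (s48k_heckeAlphaH M H p) (heckeAlphaBar Kb M p)
    (IntermediateField.inclusion (s48wg_bar_le_FHp H p))
    (s48wg_square_alpha H p)
  rw [s48wg_finrank_FH H hM hneg, s48wg_finrank_FHp H p hM hneg] at hsq
  have h0 : @Module.finrank (ffi_F M) (ffi_F (M * p)) _ _
      (heckeAlphaBar Kb M p).toRingHom.toAlgebra.toModule = p + 1 :=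
    s37w_finrank_alpha M p hp hpM
  rw [h0, mul_comm] at hsq
  exact Nat.eq_of_mul_eq_mul_right (s48wg_card_XH_pos H hneg) hsq

/-- **`[F'_p : β F_H] = p + 1`.** -/
theorem s48wg_finrankAlong_beta (hM : 1 < M) (hneg : (-1 : (ZMod M)ˣ) ∈ H) (hp : p.Prime)
    (hpM : ¬ p ∣ M) : finrankAlong Kb (s48k_heckeBetaH M H p) = p + 1 := by
  have hsq := s48wg_tower_square'
    (IntermediateField.inclusion (s48wg_bar_le_FH H))
    (s48k_heckeBetaH M H p) (heckeBetaBar Kb M p)
    (IntermediateField.inclusion (s48wg_bar_le_FHp H p))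
    (s48wg_square_beta H p)
  rw [s48wg_finrank_FH H hM hneg, s48wg_finrank_FHp H p hM hneg] at hsq
  have h0 : @Module.finrank (ffi_F M) (ffi_F (M * p)) _ _
      (heckeBetaBar Kb M p).toRingHom.toAlgebra.toModule = p + 1 :=
    s37w_finrank_beta M p hp hpM
  rw [h0, mul_comm] at hsq
  exact Nat.eq_of_mul_eq_mul_right (s48wg_card_XH_pos H hneg) hsq

theorem s48wg_finiteAlong_alpha (hM : 1 < M) (hneg : (-1 : (ZMod M)ˣ) ∈ H) (hp : p.Prime)
    (hpM : ¬ p ∣ M) : FiniteAlong Kb (s48k_heckeAlphaH M H p) := by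
  letI := algebraAlong (s48k_heckeAlphaH M H p)
  show Module.Finite ↥(s48k_FH M H) ↥(laurentBaseChange Kb (s48k_FHQp M H p))
  refine Module.finite_of_finrank_pos ?_
  have := s48wg_finrankAlong_alpha H p hM hneg hp hpM
  rw [finrankAlong] at this
  rw [this]
  omega

theorem s48wg_finiteAlong_beta (hM : 1 < M) (hneg : (-1 : (ZMod M)ˣ) ∈ H) (hp : p.Prime)
    (hpM : ¬ p ∣ M) : FiniteAlong Kb (s48k_heckeBetaH M H p) := by
  letI := algebraAlong (s48k_heckeBetaH M H p)
  show Module.Finite ↥(s48k_FH M H) ↥(laurentBaseChange Kb (s48k_FHQp M H p))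
  refine Module.finite_of_finrank_pos ?_
  have := s48wg_finrankAlong_beta H p hM hneg hp hpM
  rw [finrankAlong] at this
  rw [this]
  omega

/-! ### Generators -/

/-- **`j` generates `F_H`.** -/
theorem s48wg_ffGen_FH (hM : 1 < M) (hneg : (-1 : (ZMod M)ˣ) ∈ H) :
    ∃ x : ↥(s48k_FH M H), FFGen Kb x := by
  letI := (IntermediateField.inclusion (s48wg_bar_le_FH H)).toRingHom.toAlgebra
  haveI : IsScalarTower Kb ↥(modularFunctionFieldBar M) ↥(s48k_FH M H) :=
    IsScalarTower.of_algebraMap_eq (fun _ => rfl)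
  haveI : FiniteDimensional ↥(modularFunctionFieldBar M) ↥(s48k_FH M H) :=
    Module.finite_of_finrank_pos (by
      rw [s48wg_finrank_FH H hM hneg]; exact s48wg_card_XH_pos H hneg)
  haveI : FFGen Kb (ffd_jBar M) := s18r_ffGen M
  exact ⟨_, s48wg_ffGen_of_finite (F₂ := ↥(s48k_FH M H)) (ffd_jBar M)⟩

/-- **`j` generates `F'_p`.** -/
theorem s48wg_ffGen_FHp (hM : 1 < M) (hneg : (-1 : (ZMod M)ˣ) ∈ H) :
    ∃ x : ↥(laurentBaseChange Kb (s48k_FHQp M H p)), FFGen Kb x := by
  haveI : NeZero (M * p) := ⟨Nat.mul_ne_zero (NeZero.ne M) (NeZero.ne p)⟩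
  letI := (IntermediateField.inclusion (s48wg_bar_le_FHp H p)).toRingHom.toAlgebra
  haveI : IsScalarTower Kb ↥(modularFunctionFieldBar (M * p))
      ↥(laurentBaseChange Kb (s48k_FHQp M H p)) :=
    IsScalarTower.of_algebraMap_eq (fun _ => rfl)
  haveI : FiniteDimensional ↥(modularFunctionFieldBar (M * p))
      ↥(laurentBaseChange Kb (s48k_FHQp M H p)) :=
    Module.finite_of_finrank_pos (by
      rw [s48wg_finrank_FHp H p hM hneg]; exact s48wg_card_XH_pos H hneg)
  haveI : FFGen Kb (ffd_jBar (M * p)) := s18r_ffGen (M * p)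
  exact ⟨_, s48wg_ffGen_of_finite (F₂ := ↥(laurentBaseChange Kb (s48k_FHQp M H p)))
    (ffd_jBar (M * p))⟩

/-! ### Wrappers from `s48k_Level` (the shape of helper8's `s48e_ModelInputs`) -/

theorem s48wg_one_lt_of_level {N₁ ℓ₀ : ℕ} (hL : s48k_Level M N₁ ℓ₀ H) : 1 < M := by
  have h1 : 2 ≤ ℓ₀ := hL.prime.two_le
  have h2 : N₁ ≠ 0 := by
    rintro rfl
    exact NeZero.ne M (by rw [hL.eq]; simp)
  have h3 : 0 < N₁ ^ 2 := pow_pos (Nat.pos_of_ne_zero h2) 2
  rw [hL.eq]
  nlinarith

/-- The function-field part of `s48e_ModelInputs`: `F_H` has a generator. -/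
theorem s48wg_modelInputs_ffGen {N₁ ℓ₀ : ℕ} (hL : s48k_Level M N₁ ℓ₀ H) :
    ∃ x : ↥(s48k_FH M H), FFGen Kb x :=
  s48wg_ffGen_FH H (s48wg_one_lt_of_level H hL) hL.neg_one

/-- **The `p`-part of `s48e_ModelInputs`.** -/
theorem s48wg_modelInputs_p {N₁ ℓ₀ : ℕ} (hL : s48k_Level M N₁ ℓ₀ H) (hp : p.Prime)
    (hpM : ¬ p ∣ M) :
    (∃ x' : ↥(laurentBaseChange Kb (s48k_FHQp M H p)), FFGen Kb x') ∧
      FiniteAlong Kb (s48k_heckeAlphaH M H p) ∧ FiniteAlong Kb (s48k_heckeBetaH M H p) ∧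
      finrankAlong Kb (s48k_heckeBetaH M H p) = p + 1 :=
  have hM := s48wg_one_lt_of_level H hL
  ⟨s48wg_ffGen_FHp H p hM hL.neg_one, s48wg_finiteAlong_alpha H p hM hL.neg_one hp hpM,
    s48wg_finiteAlong_beta H p hM hL.neg_one hp hpM,
    s48wg_finrankAlong_beta H p hM hL.neg_one hp hpM⟩

end

end Fermat.Agent.Lib.S48
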