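/-
DS-1 (S48), [T5]/(I1) (helper5), part F: EXISTENCE OF THE DIAMOND AUTOMORPHISMS of `F_H`,
without the analytic model of `F_H`: the generic bridge `Φ : Frac (ffb_B M) → ffm_E M` restricts to
an injective ring homomorphism `Φ_H : F_H → ffm_E M` whose image is stable under `Γ₀(M)`
(`F_H = F̄₀(M)(t_χ)`, `γ • Φ t_χ = χ(d_{γ⁻¹}) Φ t_χ`), so `e_γ := Φ_H⁻¹ ∘ (γ •) ∘ Φ_H` is a
`ℚ̄`-automorphism of `F_H`, fixing `F̄₀(M)` and with `e_γ s̄_u = s̄_{u d⁻¹}` (`d = (γ⁻¹)₁₁`).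
* `s48wg_exists_diamondAut : ∀ d, ∃ e, s48k_IsDiamondAut M H d e`;
* `s48wg_modelInputs` : the body of helper8's `s48e_ModelInputs`, verbatim.
-/
import Fermat.Agent.Lib.S48.WGE

set_option autoImplicit false
set_option linter.unusedSectionVars false
set_option linter.style.haveILetI false

namespace Fermat.Agent.Lib.S48

open UpperHalfPlane hiding I
open ModularCurve CongruenceSubgroup IntermediateField AlgebraicCurve
open Fermat.Agent.Lib.FF Fermat.Agent.Lib.S29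
open scoped MatrixGroups

noncomputable section

local notation "Kb" => AlgebraicClosure ℚ

/-! ### Generic lemmas -/

theorem s48wg_algEquiv_smul {K A : Type*} [CommSemiring K] [Semiring A] [Algebra K A]
    (e : A ≃ₐ[K] A) (c : K) (x : A) : e (c • x) = c • e x :=
  map_smul e c x

theorem s48wg_algEquiv_sum {K A ι : Type*} [CommSemiring K] [Semiring A] [Algebra K A]
    (e : A ≃ₐ[K] A) (s : Finset ι) (f : ι → A) : e (∑ i ∈ s, f i) = ∑ i ∈ s, e (f i) :=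
  map_sum e f s

theorem s48wg_smul_left_cancel {K A : Type*} [Field K] [AddCommGroup A] [Module K A] {c : K}
    (hc : c ≠ 0) {x y : A} (h : c • x = c • y) : x = y := by
  have := congrArg (fun z => c⁻¹ • z) h
  simpa [smul_smul, inv_mul_cancel₀ hc] using this

/-! ### The bridge on constants -/

theorem s48wg_Phi_const (N : ℕ) (c : Kb) :
    s48wg_Phi N (algebraMap Kb ↥(s48wg_FB N) c) = algebraMap ℂ (ffm_E N) (ffb_iota c) := by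
  rw [s48wg_Phi_of_isLaurent _ (algebraMap ℂ (ffm_R N) (ffb_iota c)) ?_]
  · rw [← IsScalarTower.algebraMap_apply]
  · show ffb_IsLaurent _ (coeffMap ffb_iota (algebraMap Kb (LaurentSeries Kb) c))
    rw [ffb_coeffMap_iota_algebraMap]
    exact ffb_IsLaurent.const _

variable {M : ℕ} [NeZero M] (H : Subgroup (ZMod M)ˣ)

/-- An intermediate field containing `F̄₀(M)` and the `t_χ` (`χ ∈ X_H`) contains `F_H`. -/
theorem s48wg_FH_le_of (K' : IntermediateField Kb (LaurentSeries Kb))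
    (hbar : modularFunctionFieldBar M ≤ K') (ht : ∀ χ ∈ s48wg_XH H, s48wf_tq χ ∈ K') :
    s48k_FH M H ≤ K' := by
  rw [s48k_FH, s48k_FHQ, ffg_laurentBaseChange_adjoin, IntermediateField.adjoin_le_iff]
  rintro _ ⟨y, hy | ⟨u, rfl⟩, rfl⟩
  · exact hbar (coeffEmb_mem_laurentBaseChange Kb (IntermediateField.subset_adjoin ℚ _ hy))
  · exact s48wg_sBar_mem H K' ht u

theorem s48wg_tq_isLaurent (hM : 1 < M) (χ : DirichletCharacter Kb M) (hχ : χ.Even) :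
    ffb_IsLaurent (s48wg_TN (s48wf_psi χ) hM (s48wf_psi_even χ hχ) (dvd_refl M) : ℍ → ℂ)
      (coeffMap ffb_iota (s48wf_tq χ)) := by
  rw [s48wf_coeffMap_tq]
  exact s48wg_TN_isLaurent _ hM _ _

theorem s48wg_tq_mem_FB (hM : 1 < M) (χ : DirichletCharacter Kb M) (hχ : χ.Even) :
    s48wf_tq χ ∈ s48wg_FB M :=
  s48wg_mem_FB_of_isLaurent (s48wg_tq_isLaurent hM χ hχ)

theorem s48wg_FH_le_FB (hM : 1 < M) (hneg : (-1 : (ZMod M)ˣ) ∈ H) :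
    s48k_FH M H ≤ s48wg_FB M :=
  s48wg_FH_le_of H _ (s48wg_bar_le_FB M)
    (fun χ hχ => s48wg_tq_mem_FB hM χ ((s48wg_charSet_XH H hneg).even χ hχ))

/-- **The restricted bridge** `Φ_H : F_H → ffm_E M`. -/
def s48wg_PhiH (hM : 1 < M) (hneg : (-1 : (ZMod M)ˣ) ∈ H) : ↥(s48k_FH M H) →+* ffm_E M :=
  (s48wg_Phi M).comp (IntermediateField.inclusion (s48wg_FH_le_FB H hM hneg)).toRingHom

theorem s48wg_PhiH_apply (hM : 1 < M) (hneg : (-1 : (ZMod M)ˣ) ∈ H) (x : ↥(s48k_FH M H)) :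
    s48wg_PhiH H hM hneg x =
      s48wg_Phi M ⟨(x : LaurentSeries Kb), s48wg_FH_le_FB H hM hneg x.2⟩ := rfl

theorem s48wg_PhiH_injective (hM : 1 < M) (hneg : (-1 : (ZMod M)ˣ) ∈ H) :
    Function.Injective (s48wg_PhiH H hM hneg) :=
  RingHom.injective _

theorem s48wg_PhiH_algebraMap (hM : 1 < M) (hneg : (-1 : (ZMod M)ˣ) ∈ H) (c : Kb) :
    s48wg_PhiH H hM hneg (algebraMap Kb ↥(s48k_FH M H) c) =
      algebraMap ℂ (ffm_E M) (ffb_iota c) := by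
  rw [s48wg_PhiH_apply, ← s48wg_Phi_const]
  rfl

theorem s48wg_PhiH_smul (hM : 1 < M) (hneg : (-1 : (ZMod M)ˣ) ∈ H) (c : Kb)
    (x : ↥(s48k_FH M H)) :
    s48wg_PhiH H hM hneg (c • x) = ffb_iota c • s48wg_PhiH H hM hneg x := by
  rw [Algebra.smul_def, map_mul, s48wg_PhiH_algebraMap, Algebra.smul_def]

/-- `Φ_H` is `Γ₀(M)`-invariant on `F̄₀(M)`. -/
theorem s48wg_PhiH_smul_of_mem_bar (hM : 1 < M) (hneg : (-1 : (ZMod M)ˣ) ∈ H) {γ : SL(2, ℤ)}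
    (hγ : γ ∈ Gamma0 M) (x : ↥(s48k_FH M H))
    (hx : (x : LaurentSeries Kb) ∈ modularFunctionFieldBar M) :
    γ • s48wg_PhiH H hM hneg x = s48wg_PhiH H hM hneg x := by
  rw [s48wg_PhiH_apply]
  exact s48wg_Phi_smul_of_mem_bar hγ _ hx

/-- The generator `t_χ` as an element of `F_H`. -/
def s48wg_tauH (χ : DirichletCharacter Kb M) (hχ : χ ∈ s48wg_XH H) : ↥(s48k_FH M H) :=
  ⟨s48wf_tq χ, s48wg_tq_mem_FH H χ hχ⟩

/-- `γ • Φ_H t_χ = χ((γ⁻¹)₁₁) Φ_H t_χ`. -/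
theorem s48wg_PhiH_smul_tauH (hM : 1 < M) (hneg : (-1 : (ZMod M)ˣ) ∈ H) {γ : SL(2, ℤ)}
    (hγ : γ ∈ Gamma0 M) (χ : DirichletCharacter Kb M) (hχ : χ ∈ s48wg_XH H) :
    γ • s48wg_PhiH H hM hneg (s48wg_tauH H χ hχ) =
      s48wg_PhiH H hM hneg
        (χ ((((γ⁻¹ : SL(2, ℤ)) 1 1 : ℤ) : ZMod M)) • s48wg_tauH H χ hχ) := by
  have hev := (s48wg_charSet_XH H hneg).even χ hχ
  have h1 : s48wg_PhiH H hM hneg (s48wg_tauH H χ hχ) =
      algebraMap (ffm_R M) (ffm_E M)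
        (s48wg_TN (s48wf_psi χ) hM (s48wf_psi_even χ hev) (dvd_refl M)) := by
    rw [s48wg_PhiH_apply]
    exact s48wg_Phi_of_isLaurent _ _ (s48wg_tq_isLaurent hM χ hev)
  rw [s48wg_PhiH_smul, h1, ffm_smul_algebraMap, s48wg_smul_TN _ hM _ _ hγ, s48wg_algebraMap_smul,
    s48wf_psi_apply]

/-! ### Stability of `Φ_H F_H` under `Γ₀(M)` -/

/-- The elements `x ∈ F_H` with `γ • Φ_H x ∈ Φ_H F_H`, as an intermediate field. -/
def s48wg_stab (hM : 1 < M) (hneg : (-1 : (ZMod M)ˣ) ∈ H) (γ : SL(2, ℤ)) (hγ : γ ∈ Gamma0 M) :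
    IntermediateField Kb (LaurentSeries Kb) where
  carrier := {x | ∃ hx : x ∈ s48k_FH M H, ∃ y : ↥(s48k_FH M H),
    γ • s48wg_PhiH H hM hneg ⟨x, hx⟩ = s48wg_PhiH H hM hneg y}
  mul_mem' := by
    rintro x x' ⟨hx, y, h⟩ ⟨hx', y', h'⟩
    refine ⟨mul_mem hx hx', y * y', ?_⟩
    have e : (⟨x * x', mul_mem hx hx'⟩ : ↥(s48k_FH M H)) = ⟨x, hx⟩ * ⟨x', hx'⟩ := rfl
    rw [e, map_mul, smul_mul', h, h', map_mul]
  one_mem' := by
    refine ⟨one_mem _, 1, ?_⟩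
    have e : (⟨1, one_mem _⟩ : ↥(s48k_FH M H)) = 1 := rfl
    rw [e, map_one, smul_one]
  add_mem' := by
    rintro x x' ⟨hx, y, h⟩ ⟨hx', y', h'⟩
    refine ⟨add_mem hx hx', y + y', ?_⟩
    have e : (⟨x + x', add_mem hx hx'⟩ : ↥(s48k_FH M H)) = ⟨x, hx⟩ + ⟨x', hx'⟩ := rfl
    rw [e, RingHom.map_add, smul_add, h, h', RingHom.map_add]
  zero_mem' := by
    refine ⟨zero_mem _, 0, ?_⟩
    have e : (⟨0, zero_mem _⟩ : ↥(s48k_FH M H)) = 0 := rfl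
    rw [e, map_zero, smul_zero]
  algebraMap_mem' := fun c => by
    refine ⟨(s48k_FH M H).algebraMap_mem c, ⟨_, (s48k_FH M H).algebraMap_mem c⟩, ?_⟩
    exact s48wg_PhiH_smul_of_mem_bar H hM hneg hγ _ ((modularFunctionFieldBar M).algebraMap_mem c)
  inv_mem' := by
    rintro x ⟨hx, y, h⟩
    refine ⟨inv_mem hx, y⁻¹, ?_⟩
    have e : (⟨x⁻¹, inv_mem hx⟩ : ↥(s48k_FH M H)) = (⟨x, hx⟩ : ↥(s48k_FH M H))⁻¹ := rfl
    rw [e, map_inv₀, smul_inv'', h, map_inv₀]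

theorem s48wg_FH_le_stab (hM : 1 < M) (hneg : (-1 : (ZMod M)ˣ) ∈ H) (γ : SL(2, ℤ))
    (hγ : γ ∈ Gamma0 M) : s48k_FH M H ≤ s48wg_stab H hM hneg γ hγ := by
  refine s48wg_FH_le_of H _ ?_ ?_
  · intro x hx
    exact ⟨s48wg_bar_le_FH H hx, ⟨x, s48wg_bar_le_FH H hx⟩,
      s48wg_PhiH_smul_of_mem_bar H hM hneg hγ _ hx⟩
  · intro χ hχ
    exact ⟨s48wg_tq_mem_FH H χ hχ, _, s48wg_PhiH_smul_tauH H hM hneg hγ χ hχ⟩

theorem s48wg_exists_smul (hM : 1 < M) (hneg : (-1 : (ZMod M)ˣ) ∈ H) (γ : SL(2, ℤ))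
    (hγ : γ ∈ Gamma0 M) (x : ↥(s48k_FH M H)) :
    ∃ y : ↥(s48k_FH M H), γ • s48wg_PhiH H hM hneg x = s48wg_PhiH H hM hneg y := by
  obtain ⟨_, y, hy⟩ := s48wg_FH_le_stab H hM hneg γ hγ x.2
  exact ⟨y, hy⟩

/-! ### The automorphisms -/

/-- `e_γ x` : the element of `F_H` with `Φ_H (e_γ x) = γ • Φ_H x`. -/
def s48wg_actFun (hM : 1 < M) (hneg : (-1 : (ZMod M)ˣ) ∈ H) (γ : SL(2, ℤ))
    (hγ : γ ∈ Gamma0 M) (x : ↥(s48k_FH M H)) : ↥(s48k_FH M H) :=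
  (s48wg_exists_smul H hM hneg γ hγ x).choose

theorem s48wg_PhiH_actFun (hM : 1 < M) (hneg : (-1 : (ZMod M)ˣ) ∈ H) (γ : SL(2, ℤ))
    (hγ : γ ∈ Gamma0 M) (x : ↥(s48k_FH M H)) :
    s48wg_PhiH H hM hneg (s48wg_actFun H hM hneg γ hγ x) = γ • s48wg_PhiH H hM hneg x :=
  (s48wg_exists_smul H hM hneg γ hγ x).choose_spec.symm

theorem s48wg_actFun_eq (hM : 1 < M) (hneg : (-1 : (ZMod M)ˣ) ∈ H) (γ : SL(2, ℤ))
    (hγ : γ ∈ Gamma0 M) (x y : ↥(s48k_FH M H))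
    (h : γ • s48wg_PhiH H hM hneg x = s48wg_PhiH H hM hneg y) :
    s48wg_actFun H hM hneg γ hγ x = y :=
  s48wg_PhiH_injective H hM hneg (by rw [s48wg_PhiH_actFun, h])

/-- `e_γ` as a `ℚ̄`-algebra endomorphism of `F_H`. -/
def s48wg_actHom (hM : 1 < M) (hneg : (-1 : (ZMod M)ˣ) ∈ H) (γ : SL(2, ℤ))
    (hγ : γ ∈ Gamma0 M) : ↥(s48k_FH M H) →ₐ[Kb] ↥(s48k_FH M H) where
  toFun := s48wg_actFun H hM hneg γ hγ
  map_one' := s48wg_actFun_eq H hM hneg γ hγ _ _ (by rw [map_one, smul_one])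
  map_mul' := fun x y => s48wg_actFun_eq H hM hneg γ hγ _ _ (by
    rw [map_mul, smul_mul', map_mul, s48wg_PhiH_actFun, s48wg_PhiH_actFun])
  map_zero' := s48wg_actFun_eq H hM hneg γ hγ _ _ (by rw [map_zero, smul_zero])
  map_add' := fun x y => s48wg_actFun_eq H hM hneg γ hγ _ _ (by
    rw [RingHom.map_add, smul_add, RingHom.map_add, s48wg_PhiH_actFun, s48wg_PhiH_actFun])
  commutes' := fun c => s48wg_actFun_eq H hM hneg γ hγ _ _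
    (s48wg_PhiH_smul_of_mem_bar H hM hneg hγ _ ((modularFunctionFieldBar M).algebraMap_mem c))

theorem s48wg_PhiH_actHom (hM : 1 < M) (hneg : (-1 : (ZMod M)ˣ) ∈ H) (γ : SL(2, ℤ))
    (hγ : γ ∈ Gamma0 M) (x : ↥(s48k_FH M H)) :
    s48wg_PhiH H hM hneg (s48wg_actHom H hM hneg γ hγ x) = γ • s48wg_PhiH H hM hneg x :=
  s48wg_PhiH_actFun H hM hneg γ hγ x

/-- `e_γ` as a `ℚ̄`-algebra automorphism of `F_H`. -/
def s48wg_actEquiv (hM : 1 < M) (hneg : (-1 : (ZMod M)ˣ) ∈ H) (γ : SL(2, ℤ))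
    (hγ : γ ∈ Gamma0 M) : ↥(s48k_FH M H) ≃ₐ[Kb] ↥(s48k_FH M H) :=
  AlgEquiv.ofAlgHom (s48wg_actHom H hM hneg γ hγ) (s48wg_actHom H hM hneg γ⁻¹ (inv_mem hγ))
    (AlgHom.ext fun x => s48wg_PhiH_injective H hM hneg (by
      rw [AlgHom.comp_apply, s48wg_PhiH_actHom, s48wg_PhiH_actHom, smul_inv_smul]
      rfl))
    (AlgHom.ext fun x => s48wg_PhiH_injective H hM hneg (by
      rw [AlgHom.comp_apply, s48wg_PhiH_actHom, s48wg_PhiH_actHom, inv_smul_smul]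
      rfl))

theorem s48wg_PhiH_actEquiv (hM : 1 < M) (hneg : (-1 : (ZMod M)ˣ) ∈ H) (γ : SL(2, ℤ))
    (hγ : γ ∈ Gamma0 M) (x : ↥(s48k_FH M H)) :
    s48wg_PhiH H hM hneg (s48wg_actEquiv H hM hneg γ hγ x) = γ • s48wg_PhiH H hM hneg x :=
  s48wg_PhiH_actFun H hM hneg γ hγ x

theorem s48wg_actEquiv_of_mem_bar (hM : 1 < M) (hneg : (-1 : (ZMod M)ˣ) ∈ H) (γ : SL(2, ℤ))
    (hγ : γ ∈ Gamma0 M) (x : ↥(s48k_FH M H))
    (hx : (x : LaurentSeries Kb) ∈ modularFunctionFieldBar M) :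
    s48wg_actEquiv H hM hneg γ hγ x = x :=
  s48wg_actFun_eq H hM hneg γ hγ _ _ (s48wg_PhiH_smul_of_mem_bar H hM hneg hγ x hx)

theorem s48wg_actEquiv_tauH (hM : 1 < M) (hneg : (-1 : (ZMod M)ˣ) ∈ H) (γ : SL(2, ℤ))
    (hγ : γ ∈ Gamma0 M) (χ : DirichletCharacter Kb M) (hχ : χ ∈ s48wg_XH H) :
    s48wg_actEquiv H hM hneg γ hγ (s48wg_tauH H χ hχ) =
      χ ((((γ⁻¹ : SL(2, ℤ)) 1 1 : ℤ) : ZMod M)) • s48wg_tauH H χ hχ :=
  s48wg_actFun_eq H hM hneg γ hγ _ _ (s48wg_PhiH_smul_tauH H hM hneg hγ χ hχ)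

/-! ### The action on the `s̄_u` -/

/-- The two scalar actions of `ℚ̄` on `ℚ̄((q))` agree. -/
theorem s48wg_coe_smul (F : IntermediateField Kb (LaurentSeries Kb)) (c : Kb) (x : ↥F) :
    ((c • x : ↥F) : LaurentSeries Kb) = c • (x : LaurentSeries Kb) := by
  rw [IntermediateField.coe_smul, Algebra.smul_def, ← HahnSeries.C_mul_eq_smul, s29cf_C_eq]

/-- `σ_χ = ∑_v χ(v) s̄_v ∈ F_H`. -/
def s48wg_sigH (χ : DirichletCharacter Kb M) : ↥(s48k_FH M H) :=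
  ∑ v : (ZMod M)ˣ, χ ((v : (ZMod M)ˣ) : ZMod M) • s48k_sBar M H v

theorem s48wg_coe_sigH (χ : DirichletCharacter Kb M) :
    ((s48wg_sigH H χ : ↥(s48k_FH M H)) : LaurentSeries Kb) =
      ∑ v : (ZMod M)ˣ, χ ((v : (ZMod M)ˣ) : ZMod M) •
        ((s48k_sBar M H v : s48k_FH M H) : LaurentSeries Kb) := by
  rw [s48wg_sigH, IntermediateField.coe_sum]
  exact Finset.sum_congr rfl fun v _ => s48wg_coe_smul _ _ _

theorem s48wg_sigH_eq (χ : DirichletCharacter Kb M) (hχ : χ ∈ s48wg_XH H) :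
    s48wg_sigH H χ = (Nat.card H : Kb) • s48wg_tauH H χ hχ := by
  apply Subtype.ext
  rw [s48wg_coe_sigH, s48wf_sum_sBar H χ ((s48wg_mem_XH H).mp hχ), s48wg_coe_smul]
  rfl

theorem s48wg_sigH_eq_zero (χ : DirichletCharacter Kb M) (hχ : χ ∉ s48wg_XH H) :
    s48wg_sigH H χ = 0 := by
  apply Subtype.ext
  rw [s48wg_coe_sigH, s48wg_tau_eq_zero H χ (fun h => hχ ((s48wg_mem_XH H).mpr h))]
  rfl

/-- Fourier inversion inside `F_H`. -/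
theorem s48wg_fourierH (u : (ZMod M)ˣ) :
    (M.totient : Kb) • s48k_sBar M H u =
      ∑ χ : DirichletCharacter Kb M,
        χ (((u : (ZMod M)ˣ) : ZMod M)⁻¹) • s48wg_sigH H χ := by
  apply Subtype.ext
  rw [s48wg_coe_smul, s48wg_fourier H u, IntermediateField.coe_sum]
  refine Finset.sum_congr rfl fun χ _ => ?_
  rw [s48wg_coe_smul, s48wg_coe_sigH]

theorem s48wg_actEquiv_sigH (hM : 1 < M) (hneg : (-1 : (ZMod M)ˣ) ∈ H) (γ : SL(2, ℤ))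
    (hγ : γ ∈ Gamma0 M) (χ : DirichletCharacter Kb M) :
    s48wg_actEquiv H hM hneg γ hγ (s48wg_sigH H χ) =
      χ ((((γ⁻¹ : SL(2, ℤ)) 1 1 : ℤ) : ZMod M)) • s48wg_sigH H χ := by
  by_cases hχ : χ ∈ s48wg_XH H
  · rw [s48wg_sigH_eq H χ hχ, s48wg_algEquiv_smul, s48wg_actEquiv_tauH, smul_comm]
  · rw [s48wg_sigH_eq_zero H χ hχ, map_zero, smul_zero]

/-- **`e_γ s̄_u = s̄_{u d⁻¹}`**, `d = (γ⁻¹)₁₁`. -/
theorem s48wg_actEquiv_sBar (hM : 1 < M) (hneg : (-1 : (ZMod M)ˣ) ∈ H) (γ : SL(2, ℤ))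
    (hγ : γ ∈ Gamma0 M) (d : (ZMod M)ˣ)
    (hd : (((γ⁻¹ : SL(2, ℤ)) 1 1 : ℤ) : ZMod M) = (d : ZMod M)) (u : (ZMod M)ˣ) :
    s48wg_actEquiv H hM hneg γ hγ (s48k_sBar M H u) = s48k_sBar M H (u * d⁻¹) := by
  have htot : (M.totient : Kb) ≠ 0 :=
    Nat.cast_ne_zero.mpr (Nat.totient_pos.mpr (NeZero.pos M)).ne'
  have h1 : (M.totient : Kb) • s48wg_actEquiv H hM hneg γ hγ (s48k_sBar M H u) =
      (M.totient : Kb) • s48k_sBar M H (u * d⁻¹) := by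
    rw [← s48wg_algEquiv_smul, s48wg_fourierH, s48wg_algEquiv_sum, s48wg_fourierH]
    refine Finset.sum_congr rfl fun χ _ => ?_
    rw [s48wg_algEquiv_smul, s48wg_actEquiv_sigH, hd, smul_smul]
    congr 1
    rw [ZMod.inv_coe_unit, ZMod.inv_coe_unit, ← map_mul, ← Units.val_mul]
    congr 2
    rw [mul_inv_rev, inv_inv, mul_comm]
  exact s48wg_smul_left_cancel htot h1

/-- **Existence of the diamond automorphisms of `F_H`.** -/
theorem s48wg_exists_diamondAut (hM : 1 < M) (hneg : (-1 : (ZMod M)ˣ) ∈ H) (d : (ZMod M)ˣ) :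
    ∃ e, s48k_IsDiamondAut M H d e := by
  obtain ⟨σ, hσ, hσd⟩ := s48wg_exists_sigma (dvd_refl M) d
  refine ⟨s48wg_actEquiv H hM hneg σ⁻¹ (inv_mem hσ), fun x hx => ?_, fun u => ?_⟩
  · exact s48wg_actEquiv_of_mem_bar H hM hneg _ _ x hx
  · exact s48wg_actEquiv_sBar H hM hneg _ _ d (by rw [inv_inv]; exact hσd) u

/-- The canonical diamond automorphism of KIfaceH has the defining property. -/
theorem s48wg_isDiamondAut (hM : 1 < M) (hneg : (-1 : (ZMod M)ˣ) ∈ H) (d : (ZMod M)ˣ) :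
    s48k_IsDiamondAut M H d (s48k_diamondAut M H d) := by
  have h := s48wg_exists_diamondAut H hM hneg d
  rw [s48k_diamondAut, dif_pos h]
  exact h.choose_spec

/-! ### The model inputs -/

/-- **[T5] `s48e_ModelInputs`** (the body of helper8's definition, verbatim). -/
theorem s48wg_modelInputs :
    ∀ (M N₁ ℓ₀ : ℕ) [NeZero M] (H : Subgroup (ZMod M)ˣ), s48k_Level M N₁ ℓ₀ H →
      (∃ x : ↥(s48k_FH M H), FFGen Kb x) ∧
      (∀ d : (ZMod M)ˣ, ∃ e, s48k_IsDiamondAut M H d e) ∧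
      ∀ (p : ℕ) [NeZero p], p.Prime → ¬ p ∣ M →
        (∃ x' : ↥(laurentBaseChange Kb (s48k_FHQp M H p)), FFGen Kb x') ∧
        FiniteAlong Kb (s48k_heckeAlphaH M H p) ∧ FiniteAlong Kb (s48k_heckeBetaH M H p) ∧
        finrankAlong Kb (s48k_heckeBetaH M H p) = p + 1 := by
  intro M N₁ ℓ₀ _ H hL
  have hM := s48wg_one_lt_of_level H hL
  exact ⟨s48wg_modelInputs_ffGen H hL, fun d => s48wg_exists_diamondAut H hM hL.neg_one d,
    fun p _ hp hpM => s48wg_modelInputs_p H p hL hp hpM⟩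

end

end Fermat.Agent.Lib.S48
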