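/-
DS-1 (S48), (T-conc) (helper5), part L: THE ALGEBRAIC LAYER PACKAGE of the tower of the `F_H`.
For subgroups `H' ≤ H''` of `(ℤ/M)ˣ`:
* (L1) `s48wg_FHQ_anti : s48k_FHQ M H'' ≤ s48k_FHQ M H'` (rational) and `s48wg_FH_anti` (over `ℚ̄`);
* (L2) `s48wg_pow_div_mem`, `s48wg_tq_pow_mem` : `t_χ^r ∈ F_{H''}` when `χ^r` is trivial on `H''`.
-/
import Fermat.Agent.Lib.S48.WGF

set_option autoImplicit false
set_option linter.unusedSectionVars false
set_option linter.style.haveILetI false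

namespace Fermat.Agent.Lib.S48

open ModularCurve CongruenceSubgroup IntermediateField AlgebraicCurve
open Fermat.Agent.Lib.FF Fermat.Agent.Lib.S29
open scoped MatrixGroups

noncomputable section

local notation "Kb" => AlgebraicClosure ℚ

variable {M : ℕ} [NeZero M] (H' H'' : Subgroup (ZMod M)ˣ)

/-! ### (L1): `F_{H''} ⊆ F_{H'}` for `H' ≤ H''` -/

open Classical in
/-- The coset indicator of `u H''` is the sum over `h ∈ H''` of the indicators of `u h H'`,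
divided by `|H'|`. -/
theorem s48wg_sum_wCoset_sub (hle : H' ≤ H'') (u : (ZMod M)ˣ) (c : ℕ) :
    ∑ h : ↥H'', s48k_wCoset M H' (u * h) c = (Nat.card H' : ℚ) * s48k_wCoset M H'' u c := by
  by_cases hc : ∃ h₀ ∈ H'', ((c : ℕ) : ZMod M) = ((u * h₀ : (ZMod M)ˣ) : ZMod M)
  · obtain ⟨h₀, hh₀, hc0⟩ := hc
    have hR : s48k_wCoset M H'' u c = 1 := by
      rw [s48k_wCoset, if_pos ⟨h₀, hh₀, hc0⟩]
    have hterm : ∀ h : ↥H'', s48k_wCoset M H' (u * h) c =
        if (h : (ZMod M)ˣ)⁻¹ * h₀ ∈ H' then 1 else 0 := by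
      intro h
      rw [s48k_wCoset]
      by_cases hh : (h : (ZMod M)ˣ)⁻¹ * h₀ ∈ H'
      · rw [if_pos hh, if_pos ⟨(h : (ZMod M)ˣ)⁻¹ * h₀, hh, by rw [hc0]; congr 1; group⟩]
      · rw [if_neg hh, if_neg]
        rintro ⟨h', hh', heq⟩
        apply hh
        have h1 : u * h₀ = u * h * h' := Units.ext (by rw [← hc0]; exact heq)
        have h2 : h₀ = h * h' := mul_left_cancel (a := u) (by rw [h1, mul_assoc])
        rw [h2]
        simpa using hh'
    simp only [hterm, hR, mul_one]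
    rw [Finset.sum_boole, Nat.card_eq_fintype_card, Fintype.card_subtype]
    congr 1
    refine Finset.card_bij (fun h _ => (h : (ZMod M)ˣ)⁻¹ * h₀) ?_ ?_ ?_
    · intro h hh
      exact Finset.mem_filter.mpr ⟨Finset.mem_univ _, (Finset.mem_filter.mp hh).2⟩
    · intro a _ b _ hab
      have : (a : (ZMod M)ˣ)⁻¹ = (b : (ZMod M)ˣ)⁻¹ := mul_right_cancel hab
      exact Subtype.ext (inv_injective this)
    · intro h' hh'
      have hh'' : h' ∈ H' := (Finset.mem_filter.mp hh').2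
      refine ⟨⟨h₀ * h'⁻¹, H''.mul_mem hh₀ (H''.inv_mem (hle hh''))⟩,
        Finset.mem_filter.mpr ⟨Finset.mem_univ _, ?_⟩, ?_⟩
      · show (h₀ * h'⁻¹)⁻¹ * h₀ ∈ H'
        have : (h₀ * h'⁻¹)⁻¹ * h₀ = h' := by group
        rw [this]
        exact hh''
      · show (h₀ * h'⁻¹)⁻¹ * h₀ = h'
        group
  · have hR : s48k_wCoset M H'' u c = 0 := by
      rw [s48k_wCoset, if_neg hc]
    have hterm : ∀ h : ↥H'', s48k_wCoset M H' (u * h) c = 0 := by
      intro h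
      rw [s48k_wCoset, if_neg]
      rintro ⟨h', hh', heq⟩
      exact hc ⟨h * h', H''.mul_mem h.2 (hle hh'), by rw [heq, mul_assoc]⟩
    simp only [hterm, hR, mul_zero, Finset.sum_const_zero]

open Classical in
/-- `|H'| · s^{(H'')}_u = ∑_{h ∈ H''} s^{(H')}_{u h}`. -/
theorem s48wg_sQ_sub (hle : H' ≤ H'') (u : (ZMod M)ˣ) :
    HahnSeries.C (Nat.card H' : ℚ) * s48k_sQ M H'' u = ∑ h : ↥H'', s48k_sQ M H' (u * h) := by
  have h1 := s48wf_tPS_sum (Finset.univ : Finset ↥H'') (fun _ => (1 : ℚ))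
    (fun h => s48k_wCoset M H' (u * h))
  have h2 := s48wf_tPS_sum (Finset.univ : Finset (Fin 1)) (fun _ => (Nat.card H' : ℚ))
    (fun _ => s48k_wCoset M H'' u)
  have h3 : (fun c : ℕ => ∑ h : ↥H'', (1 : ℚ) * s48k_wCoset M H' (u * h) c) =
      fun c : ℕ => ∑ _i : Fin 1, (Nat.card H' : ℚ) * s48k_wCoset M H'' u c := by
    funext c
    simp only [one_mul, s48wg_sum_wCoset_sub H' H'' hle u c]
    simp
  rw [h3, h2] at h1
  simp only [Finset.univ_unique, Finset.sum_singleton, map_one, one_mul] at h1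
  simp only [s48k_sQ]
  rw [← map_sum, ← h1, map_mul, HahnSeries.ofPowerSeries_C]

theorem s48wg_sQ_mem_of_le (hle : H' ≤ H'') (u : (ZMod M)ˣ) :
    s48k_sQ M H'' u ∈ s48k_FHQ M H' := by
  classical
  have hcard : (Nat.card H' : ℚ) ≠ 0 := Nat.cast_ne_zero.mpr Nat.card_pos.ne'
  have h1 : HahnSeries.C (Nat.card H' : ℚ) * s48k_sQ M H'' u ∈ s48k_FHQ M H' := by
    rw [s48wg_sQ_sub H' H'' hle u]
    exact sum_mem fun h _ => s48k_sQ_mem M H' _
  have hC : (HahnSeries.C (Nat.card H' : ℚ) : LaurentSeries ℚ) ∈ s48k_FHQ M H' := by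
    rw [s29cf_C_eq]
    exact (s48k_FHQ M H').algebraMap_mem _
  have hC0 : (HahnSeries.C (Nat.card H' : ℚ) : LaurentSeries ℚ) ≠ 0 := by
    rw [s29cf_C_eq]
    exact (map_ne_zero _).mpr hcard
  have := (s48k_FHQ M H').mul_mem ((s48k_FHQ M H').inv_mem hC) h1
  rwa [← mul_assoc, inv_mul_cancel₀ hC0, one_mul] at this

/-- **(L1), rational.** -/
theorem s48wg_FHQ_anti (hle : H' ≤ H'') : s48k_FHQ M H'' ≤ s48k_FHQ M H' := by
  rw [s48k_FHQ, IntermediateField.adjoin_le_iff]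
  rintro x (hx | ⟨u, rfl⟩)
  · exact IntermediateField.subset_adjoin ℚ _ (Or.inl hx)
  · exact s48wg_sQ_mem_of_le H' H'' hle u

/-- **(L1), over `ℚ̄`.** -/
theorem s48wg_FH_anti (hle : H' ≤ H'') : s48k_FH M H'' ≤ s48k_FH M H' :=
  s48k_laurentBaseChange_mono Kb (s48wg_FHQ_anti H' H'' hle)

theorem s48wg_XH_anti (hle : H' ≤ H'') : s48wg_XH H'' ⊆ s48wg_XH H' := fun _ hχ =>
  (s48wg_mem_XH H').mpr fun h hh => (s48wg_mem_XH H'').mp hχ h (hle hh)

/-! ### (L2): powers of the generators -/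

theorem s48wg_even_pow {χ : DirichletCharacter Kb M} (hχ : χ.Even) (i : ℕ) : (χ ^ i).Even := by
  induction i with
  | zero =>
    rw [pow_zero]
    show (1 : DirichletCharacter Kb M) (-1) = 1
    exact MulChar.one_apply (isUnit_one.neg)
  | succ i ih =>
    rw [pow_succ]
    exact s48wg_even_mul ih hχ

/-- `t_χ^i / t_{χ^i} ∈ F̄₀(N)`. -/
theorem s48wg_pow_div_mem (hM : 1 < M) {N : ℕ} [NeZero N] (hMN : M ∣ N)
    (χ : DirichletCharacter Kb M) (hχ : χ.Even) (i : ℕ) :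
    s48wf_tq χ ^ i / s48wf_tq (χ ^ i) ∈ modularFunctionFieldBar N := by
  induction i with
  | zero =>
    rw [pow_zero, pow_zero, one_div]
    exact inv_mem (s48wg_tq_one_mem hM hMN)
  | succ i ih =>
    have h1 := s48wg_mul_div_mem hM hMN (χ ^ i) χ (s48wg_even_pow hχ i) hχ
    have h0 := s48wf_tq_ne_zero (χ ^ i)
    have h0' := s48wf_tq_ne_zero (χ ^ i * χ)
    have e : s48wf_tq χ ^ (i + 1) / s48wf_tq (χ ^ (i + 1)) =
        s48wf_tq χ ^ i / s48wf_tq (χ ^ i) *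
          (s48wf_tq (χ ^ i) * s48wf_tq χ / s48wf_tq (χ ^ i * χ)) := by
      rw [pow_succ χ i, pow_succ (s48wf_tq χ) i]
      field_simp
    rw [e]
    exact mul_mem ih h1

/-- **(L2)**: `t_χ^r ∈ F_{H''}` as soon as `χ^r` is trivial on `H''`. -/
theorem s48wg_tq_pow_mem (hM : 1 < M)
    (χ : DirichletCharacter Kb M) (hχ : χ.Even) (r : ℕ) (hχr : χ ^ r ∈ s48wg_XH H'') :
    s48wf_tq χ ^ r ∈ s48k_FH M H'' := by
  have h1 := s48wg_bar_le_FH H'' (s48wg_pow_div_mem hM (dvd_refl M) χ hχ r)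
  have h2 := s48wg_tq_mem_FH H'' (χ ^ r) hχr
  have h0 := s48wf_tq_ne_zero (χ ^ r)
  have := mul_mem h1 h2
  rwa [div_mul_cancel₀ _ h0] at this

/-! ### The decomposition of the characters -/

/-- The value of a Dirichlet character at a unit, as a unit-group homomorphism, has kernel a
subgroup: a character trivial on `H'` and at `g` is trivial on `H' ⊔ ⟨g⟩`. -/
theorem s48wg_mem_XH_sup (g : (ZMod M)ˣ) (hgen : H'' ≤ H' ⊔ Subgroup.zpowers g)
    (ψ : DirichletCharacter Kb M) (hψ : ψ ∈ s48wg_XH H')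
    (hg : ψ ((g : (ZMod M)ˣ) : ZMod M) = 1) : ψ ∈ s48wg_XH H'' := by
  have hker : H' ⊔ Subgroup.zpowers g ≤ (MulChar.toUnitHom ψ).ker := by
    refine sup_le ?_ ?_
    · intro h hh
      rw [MonoidHom.mem_ker]
      apply Units.ext
      rw [MulChar.coe_toUnitHom, (s48wg_mem_XH H').mp hψ h hh, Units.val_one]
    · rw [Subgroup.zpowers_le, MonoidHom.mem_ker]
      apply Units.ext
      rw [MulChar.coe_toUnitHom, hg, Units.val_one]
  refine (s48wg_mem_XH H'').mpr fun h hh => ?_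
  have := hker (hgen hh)
  rw [MonoidHom.mem_ker] at this
  have h2 := congrArg Units.val this
  rwa [MulChar.coe_toUnitHom, Units.val_one] at h2

/-- The layer data: `H' ≤ H'' ≤ H' ⊔ ⟨g⟩`, `g^r ∈ H'`, `r` prime, `χ` trivial on `H'`,
`χ(g) ≠ 1`. -/
structure s48wg_Layer (g : (ZMod M)ˣ) (r : ℕ) (χ : DirichletCharacter Kb M) : Prop where
  le : H' ≤ H''
  gen : H'' ≤ H' ⊔ Subgroup.zpowers g
  g_mem : g ∈ H''
  pow_mem : g ^ r ∈ H'
  prime : r.Prime
  chi_mem : χ ∈ s48wg_XH H'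
  chi_g : χ ((g : (ZMod M)ˣ) : ZMod M) ≠ 1

variable {H' H''}

theorem s48wg_Layer.isPrimitiveRoot {g : (ZMod M)ˣ} {r : ℕ} {χ : DirichletCharacter Kb M}
    (hL : s48wg_Layer H' H'' g r χ) : IsPrimitiveRoot (χ ((g : (ZMod M)ˣ) : ZMod M)) r := by
  haveI : Fact r.Prime := ⟨hL.prime⟩
  have h1 : χ ((g : (ZMod M)ˣ) : ZMod M) ^ r = 1 := by
    rw [← map_pow, ← Units.val_pow_eq_pow_val]
    exact (s48wg_mem_XH H').mp hL.chi_mem _ hL.pow_mem
  have := orderOf_eq_prime h1 hL.chi_g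
  rw [← this]
  exact IsPrimitiveRoot.orderOf _

theorem s48wg_Layer.pow_mem_XH {g : (ZMod M)ˣ} {r : ℕ} {χ : DirichletCharacter Kb M}
    (hL : s48wg_Layer H' H'' g r χ) : χ ^ r ∈ s48wg_XH H'' := by
  refine s48wg_mem_XH_sup H' H'' g hL.gen _ ?_ ?_
  · refine (s48wg_mem_XH H').mpr fun h hh => ?_
    rw [MulChar.pow_apply_coe, (s48wg_mem_XH H').mp hL.chi_mem h hh, one_pow]
  · rw [MulChar.pow_apply_coe]
    exact hL.isPrimitiveRoot.pow_eq_one

/-- Every character trivial on `H'` is `χ^i ψ''` with `i < r` and `ψ''` trivial on `H''`. -/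
theorem s48wg_Layer.exists_decomp {g : (ZMod M)ˣ} {r : ℕ} {χ : DirichletCharacter Kb M}
    (hL : s48wg_Layer H' H'' g r χ) (ψ : DirichletCharacter Kb M) (hψ : ψ ∈ s48wg_XH H') :
    ∃ i < r, ∃ ψ'' ∈ s48wg_XH H'', ψ = χ ^ i * ψ'' := by
  haveI : NeZero r := ⟨hL.prime.ne_zero⟩
  have h1 : ψ ((g : (ZMod M)ˣ) : ZMod M) ^ r = 1 := by
    rw [← map_pow, ← Units.val_pow_eq_pow_val]
    exact (s48wg_mem_XH H').mp hψ _ hL.pow_mem
  obtain ⟨i, hi, hi'⟩ := hL.isPrimitiveRoot.eq_pow_of_pow_eq_one h1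
  refine ⟨i, hi, ψ * (χ ^ i)⁻¹, ?_, by rw [mul_comm ψ, mul_inv_cancel_left]⟩
  refine s48wg_mem_XH_sup H' H'' g hL.gen _ ?_ ?_
  · refine (s48wg_mem_XH H').mpr fun h hh => ?_
    rw [MulChar.mul_apply, MulChar.inv_apply_eq_inv', MulChar.pow_apply_coe,
      (s48wg_mem_XH H').mp hψ h hh, (s48wg_mem_XH H').mp hL.chi_mem h hh, one_pow, inv_one,
      mul_one]
  · rw [MulChar.mul_apply, MulChar.inv_apply_eq_inv', MulChar.pow_apply_coe, hi', ← hi']
    exact mul_inv_cancel₀ (pow_ne_zero _ (hL.isPrimitiveRoot.ne_zero (NeZero.ne r)))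

/-- The decomposition is unique. -/
theorem s48wg_Layer.decomp_inj {g : (ZMod M)ˣ} {r : ℕ} {χ : DirichletCharacter Kb M}
    (hL : s48wg_Layer H' H'' g r χ) {i j : ℕ} (hi : i < r) (hj : j < r)
    {ψ₁ ψ₂ : DirichletCharacter Kb M} (h₁ : ψ₁ ∈ s48wg_XH H'') (h₂ : ψ₂ ∈ s48wg_XH H'')
    (h : χ ^ i * ψ₁ = χ ^ j * ψ₂) : i = j ∧ ψ₁ = ψ₂ := by
  have hg := congrArg (fun ψ : DirichletCharacter Kb M => ψ ((g : (ZMod M)ˣ) : ZMod M)) h
  simp only [MulChar.mul_apply, MulChar.pow_apply_coe,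
    (s48wg_mem_XH H'').mp h₁ g hL.g_mem, (s48wg_mem_XH H'').mp h₂ g hL.g_mem, mul_one] at hg
  have hij : i = j := hL.isPrimitiveRoot.pow_inj hi hj hg
  subst hij
  exact ⟨rfl, mul_left_cancel h⟩

/-- **`#X_{H'} = r · #X_{H''}`.** -/
theorem s48wg_Layer.card_XH {g : (ZMod M)ˣ} {r : ℕ} {χ : DirichletCharacter Kb M}
    (hL : s48wg_Layer H' H'' g r χ) : (s48wg_XH H').card = r * (s48wg_XH H'').card := by
  classical
  let f : Fin r × ↥(s48wg_XH H'') → DirichletCharacter Kb M := fun x => χ ^ (x.1 : ℕ) * x.2.1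
  have hf : Function.Injective f := by
    rintro ⟨i, ψ₁⟩ ⟨j, ψ₂⟩ h
    obtain ⟨h1, h2⟩ := hL.decomp_inj i.2 j.2 ψ₁.2 ψ₂.2 h
    exact Prod.ext (Fin.ext h1) (Subtype.ext h2)
  have himg : Finset.univ.image f = s48wg_XH H' := by
    ext ψ
    constructor
    · intro hψ
      obtain ⟨⟨i, ψ''⟩, -, rfl⟩ := Finset.mem_image.mp hψ
      refine (s48wg_mem_XH H').mpr fun h hh => ?_
      show (χ ^ (i : ℕ) * ψ''.1) _ = 1
      rw [MulChar.mul_apply, MulChar.pow_apply_coe, (s48wg_mem_XH H').mp hL.chi_mem h hh,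
        (s48wg_mem_XH H'').mp ψ''.2 h (hL.le hh), one_pow, one_mul]
    · intro hψ
      obtain ⟨i, hi, ψ'', hψ'', rfl⟩ := hL.exists_decomp ψ hψ
      exact Finset.mem_image.mpr ⟨(⟨i, hi⟩, ⟨ψ'', hψ''⟩), Finset.mem_univ _, rfl⟩
  rw [← himg, Finset.card_image_of_injective _ hf, Finset.card_univ, Fintype.card_prod,
    Fintype.card_fin, Fintype.card_coe]

end

end Fermat.Agent.Lib.S48
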