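/-
DS-1 (S48), (T-conc) (helper5), part M: THE LAYER `F_{H'} / F_{H''}` IS A KUMMER LAYER.
For a layer datum `s48wg_Layer H' H'' g r χ` (`H' ≤ H'' ≤ H' ⊔ ⟨g⟩`, `g^r ∈ H'`, `r` prime, `χ` trivial
on `H'`, `χ(g) ≠ 1`), `1 < M`, `-1 ∈ H'`, with `τ = t_χ ∈ F_{H'}`:
* `s48wg_Layer.finrank` : `[F_{H'} : F_{H''}] = r`;
* `s48wg_Layer.span`    : the `τ^i`, `i < r`, span `F_{H'}` over `F_{H''}`;
* `s48wg_Layer.basis`   : the basis `i ↦ τ^i`; `s48wg_Layer.hpow` : `τ^r = h ∈ F_{H''}`.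
-/
import Fermat.Agent.Lib.S48.WGL

set_option autoImplicit false
set_option linter.unusedSectionVars false
set_option linter.style.haveILetI false

namespace Fermat.Agent.Lib.S48

open ModularCurve CongruenceSubgroup IntermediateField AlgebraicCurve
open Fermat.Agent.Lib.FF Fermat.Agent.Lib.S29
open scoped MatrixGroups

noncomputable section

local notation "Kb" => AlgebraicClosure ℚ

/-- Degrees in a commutative triangle of `K`-algebra homomorphisms of fields. -/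
theorem s48wg_tower_triangle {K A B D : Type*} [Field K] [Field A] [Field B] [Field D]
    [Algebra K A] [Algebra K B] [Algebra K D]
    (i : A →ₐ[K] B) (a : B →ₐ[K] D) (i' : A →ₐ[K] D) (h : ∀ x, a (i x) = i' x) :
    @Module.finrank A B _ _ i.toRingHom.toAlgebra.toModule *
        @Module.finrank B D _ _ a.toRingHom.toAlgebra.toModule =
      @Module.finrank A D _ _ i'.toRingHom.toAlgebra.toModule := by
  letI := i.toRingHom.toAlgebra
  letI := a.toRingHom.toAlgebra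
  letI := i'.toRingHom.toAlgebra
  haveI : IsScalarTower A B D := IsScalarTower.of_algebraMap_eq (fun x => (h x).symm)
  exact Module.finrank_mul_finrank A B D

variable {M : ℕ} [NeZero M] {H' H'' : Subgroup (ZMod M)ˣ}

/-- The algebra structure `F_{H''} → F_{H'}` of a layer (the inclusion). -/
@[reducible] def s48wg_layerAlgebra (hle : H' ≤ H'') :
    Algebra ↥(s48k_FH M H'') ↥(s48k_FH M H') :=
  (IntermediateField.inclusion (s48wg_FH_anti H' H'' hle)).toRingHom.toAlgebra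

theorem s48wg_layerAlgebra_coe (hle : H' ≤ H'') (a : ↥(s48k_FH M H'')) :
    ((@algebraMap ↥(s48k_FH M H'') ↥(s48k_FH M H') _ _ (s48wg_layerAlgebra hle) a :
      ↥(s48k_FH M H')) : LaurentSeries Kb) = (a : LaurentSeries Kb) := by
  rw [RingHom.algebraMap_toAlgebra]
  exact IntermediateField.coe_inclusion _ a

theorem s48wg_layer_isScalarTower (hle : H' ≤ H'') :
    letI := s48wg_layerAlgebra hle
    IsScalarTower Kb ↥(s48k_FH M H'') ↥(s48k_FH M H') := by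
  letI := s48wg_layerAlgebra hle
  exact IsScalarTower.of_algebraMap_eq (fun _ => rfl)

variable {g : (ZMod M)ˣ} {r : ℕ} {χ : DirichletCharacter Kb M}

theorem s48wg_Layer.even (hL : s48wg_Layer H' H'' g r χ) (hneg : (-1 : (ZMod M)ˣ) ∈ H') :
    χ.Even :=
  (s48wg_charSet_XH H' hneg).even χ hL.chi_mem

/-- **`[F_{H'} : F_{H''}] = r`.** -/
theorem s48wg_Layer.finrank (hL : s48wg_Layer H' H'' g r χ) (hM : 1 < M)
    (hneg : (-1 : (ZMod M)ˣ) ∈ H') :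
    @Module.finrank ↥(s48k_FH M H'') ↥(s48k_FH M H') _ _ (s48wg_layerAlgebra hL.le).toModule =
      r := by
  have hneg'' : (-1 : (ZMod M)ˣ) ∈ H'' := hL.le hneg
  have h := s48wg_tower_triangle (IntermediateField.inclusion (s48wg_bar_le_FH H''))
    (IntermediateField.inclusion (s48wg_FH_anti H' H'' hL.le))
    (IntermediateField.inclusion (s48wg_bar_le_FH H')) (fun x => Subtype.ext (by
      rw [IntermediateField.coe_inclusion, IntermediateField.coe_inclusion,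
        IntermediateField.coe_inclusion]))
  rw [s48wg_finrank_FH H'' hM hneg'', s48wg_finrank_FH H' hM hneg, hL.card_XH] at h
  exact Nat.eq_of_mul_eq_mul_left (s48wg_card_XH_pos H'' hneg'') (by rw [h, mul_comm])

/-- `t_ψ / τ^i ∈ F_{H''}` for `ψ = χ^i ψ''`. -/
theorem s48wg_Layer.tq_div_mem (hL : s48wg_Layer H' H'' g r χ) (hM : 1 < M)
    (hneg : (-1 : (ZMod M)ˣ) ∈ H') (i : ℕ) (ψ'' : DirichletCharacter Kb M)
    (hψ'' : ψ'' ∈ s48wg_XH H'') :
    s48wf_tq (χ ^ i * ψ'') / s48wf_tq χ ^ i ∈ s48k_FH M H'' := by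
  have hneg'' : (-1 : (ZMod M)ˣ) ∈ H'' := hL.le hneg
  have hev := hL.even hneg
  have hev'' := (s48wg_charSet_XH H'' hneg'').even ψ'' hψ''
  have hA := s48wg_bar_le_FH H''
    (inv_mem (s48wg_mul_div_mem hM (dvd_refl M) (χ ^ i) ψ'' (s48wg_even_pow hev i) hev''))
  have hB := s48wg_bar_le_FH H'' (inv_mem (s48wg_pow_div_mem hM (dvd_refl M) χ hev i))
  have hC := s48wg_tq_mem_FH H'' ψ'' hψ''
  have h1 := s48wf_tq_ne_zero (χ ^ i)
  have h2 := s48wf_tq_ne_zero ψ''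
  have h3 := s48wf_tq_ne_zero χ
  have h4 := s48wf_tq_ne_zero (χ ^ i * ψ'')
  have e : s48wf_tq (χ ^ i * ψ'') / s48wf_tq χ ^ i =
      (s48wf_tq (χ ^ i) * s48wf_tq ψ'' / s48wf_tq (χ ^ i * ψ''))⁻¹ *
        (s48wf_tq χ ^ i / s48wf_tq (χ ^ i))⁻¹ * s48wf_tq ψ'' := by
    field_simp
  rw [e]
  exact mul_mem (mul_mem hA hB) hC

/-- The generator `τ = t_χ` of the layer, in `F_{H'}`. -/
def s48wg_Layer.tau (hL : s48wg_Layer H' H'' g r χ) : ↥(s48k_FH M H') :=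
  s48wg_tauH H' χ hL.chi_mem

/-- `h = τ^r`, in `F_{H''}`. -/
def s48wg_Layer.h (hL : s48wg_Layer H' H'' g r χ) (hM : 1 < M)
    (hneg : (-1 : (ZMod M)ˣ) ∈ H') : ↥(s48k_FH M H'') :=
  ⟨s48wf_tq χ ^ r, s48wg_tq_pow_mem H'' hM χ (hL.even hneg) r hL.pow_mem_XH⟩

theorem s48wg_Layer.coe_tau (hL : s48wg_Layer H' H'' g r χ) :
    ((hL.tau : ↥(s48k_FH M H')) : LaurentSeries Kb) = s48wf_tq χ := rfl

theorem s48wg_Layer.coe_h (hL : s48wg_Layer H' H'' g r χ) (hM : 1 < M)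
    (hneg : (-1 : (ZMod M)ˣ) ∈ H') :
    ((hL.h hM hneg : ↥(s48k_FH M H'')) : LaurentSeries Kb) = s48wf_tq χ ^ r := rfl

/-- **`τ^r = h`.** -/
theorem s48wg_Layer.hpow (hL : s48wg_Layer H' H'' g r χ) (hM : 1 < M)
    (hneg : (-1 : (ZMod M)ˣ) ∈ H') :
    letI := s48wg_layerAlgebra hL.le
    hL.tau ^ r = algebraMap ↥(s48k_FH M H'') ↥(s48k_FH M H') (hL.h hM hneg) := by
  apply Subtype.ext
  rw [SubmonoidClass.coe_pow]
  rfl

theorem s48wg_Layer.h_ne_zero (hL : s48wg_Layer H' H'' g r χ) (hM : 1 < M)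
    (hneg : (-1 : (ZMod M)ˣ) ∈ H') : hL.h hM hneg ≠ 0 := by
  intro h0
  have := congrArg (fun z : ↥(s48k_FH M H'') => (z : LaurentSeries Kb)) h0
  simp only [s48wg_Layer.coe_h, ZeroMemClass.coe_zero] at this
  exact pow_ne_zero r (s48wf_tq_ne_zero χ) this

/-- **The `τ^i`, `i < r`, span `F_{H'}` over `F_{H''}`.** -/
theorem s48wg_Layer.span (hL : s48wg_Layer H' H'' g r χ) (hM : 1 < M)
    (hneg : (-1 : (ZMod M)ˣ) ∈ H') :
    letI := s48wg_layerAlgebra hL.le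
    ⊤ ≤ Submodule.span ↥(s48k_FH M H'')
      (Set.range fun i : Fin r => hL.tau ^ (i : ℕ)) := by
  letI := s48wg_layerAlgebra hL.le
  set S := Submodule.span ↥(s48k_FH M H'')
      (Set.range fun i : Fin r => hL.tau ^ (i : ℕ)) with hS
  have hX := s48wg_charSet_XH H' hneg
  -- the property, on `V`
  have key : ∀ y ∈ s48wg_V M (s48wg_XH H'),
      ∃ hy : y ∈ s48k_FH M H', (⟨y, hy⟩ : ↥(s48k_FH M H')) ∈ S := by
    intro y hy
    refine Submodule.span_induction (p := fun y _ =>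
      ∃ hy : y ∈ s48k_FH M H', (⟨y, hy⟩ : ↥(s48k_FH M H')) ∈ S) ?_ ?_ ?_ ?_ hy
    · rintro _ ⟨ψ, rfl⟩
      obtain ⟨i, hi, ψ'', hψ'', hψ⟩ := hL.exists_decomp ψ.1 ψ.2
      have hc := hL.tq_div_mem hM hneg i ψ'' hψ''
      refine ⟨s48wg_tq_mem_FH H' ψ.1 ψ.2, ?_⟩
      have e : (⟨s48wg_tfam (s48wg_XH H') ψ, s48wg_tq_mem_FH H' ψ.1 ψ.2⟩ : ↥(s48k_FH M H')) =
          (⟨_, hc⟩ : ↥(s48k_FH M H'')) • hL.tau ^ i := by
        apply Subtype.ext
        show s48wf_tq ψ.1 = s48wf_tq (χ ^ i * ψ'') / s48wf_tq χ ^ i * (s48wf_tq χ) ^ i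
        rw [div_mul_cancel₀ _ (pow_ne_zero i (s48wf_tq_ne_zero χ)), hψ]
      rw [e]
      exact S.smul_mem _ (Submodule.subset_span ⟨⟨i, hi⟩, rfl⟩)
    · exact ⟨zero_mem _, S.zero_mem⟩
    · rintro x y _ _ ⟨hx, hxS⟩ ⟨hy, hyS⟩
      exact ⟨add_mem hx hy, S.add_mem hxS hyS⟩
    · rintro a x _ ⟨hx, hxS⟩
      have ha : (a : LaurentSeries Kb) ∈ s48k_FH M H'' := s48wg_bar_le_FH H'' a.2
      refine ⟨mul_mem (s48wg_FH_anti H' H'' hL.le ha) hx, ?_⟩
      have e : (⟨a • x, mul_mem (s48wg_FH_anti H' H'' hL.le ha) hx⟩ : ↥(s48k_FH M H')) =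
          (⟨a, ha⟩ : ↥(s48k_FH M H'')) • (⟨x, hx⟩ : ↥(s48k_FH M H')) := rfl
      rw [e]
      exact S.smul_mem _ hxS
  intro x _
  have hx1 : (x : LaurentSeries Kb) ∈ s48wg_RN M (s48wg_XH H') :=
    (s48wg_mem_RN_iff_FH H' _).mpr x.2
  have hx2 : (x : LaurentSeries Kb) ∈ s48wg_V M (s48wg_XH H') :=
    s48wg_RN_le_V hM (dvd_refl M) hX hx1
  obtain ⟨_, h⟩ := key _ hx2
  exact h

/-- **The basis `i ↦ τ^i` of `F_{H'}` over `F_{H''}`.** -/
def s48wg_Layer.basis (hL : s48wg_Layer H' H'' g r χ) (hM : 1 < M)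
    (hneg : (-1 : (ZMod M)ˣ) ∈ H') :
    letI := s48wg_layerAlgebra hL.le
    Module.Basis (Fin r) ↥(s48k_FH M H'') ↥(s48k_FH M H') :=
  letI := s48wg_layerAlgebra hL.le
  basisOfTopLeSpanOfCardEqFinrank (fun i : Fin r => hL.tau ^ (i : ℕ)) (hL.span hM hneg)
    (by rw [Fintype.card_fin]; exact (hL.finrank hM hneg).symm)

theorem s48wg_Layer.basis_apply (hL : s48wg_Layer H' H'' g r χ) (hM : 1 < M)
    (hneg : (-1 : (ZMod M)ˣ) ∈ H') (i : Fin r) :
    letI := s48wg_layerAlgebra hL.le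
    hL.basis hM hneg i = hL.tau ^ (i : ℕ) := by
  letI := s48wg_layerAlgebra hL.le
  rw [s48wg_Layer.basis, coe_basisOfTopLeSpanOfCardEqFinrank]

theorem s48wg_Layer.finiteDimensional (hL : s48wg_Layer H' H'' g r χ) (hM : 1 < M)
    (hneg : (-1 : (ZMod M)ˣ) ∈ H') :
    letI := s48wg_layerAlgebra hL.le
    FiniteDimensional ↥(s48k_FH M H'') ↥(s48k_FH M H') := by
  letI := s48wg_layerAlgebra hL.le
  exact Module.Finite.of_basis (hL.basis hM hneg)

end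

end Fermat.Agent.Lib.S48
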