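/-
DS-1 (S48), (T-conc) (helper5), part N: EXISTENCE OF THE LAYER DATA and THE BASE OF THE TOWER.
* `s48wg_exists_char`  : for `g ∉ H'` there is `χ ∈ X_{H'}` with `χ(g) ≠ 1`;
* `s48wg_exists_layer` : `r` prime, `g ∉ H'`, `g^r ∈ H'` ⇒ `∃ χ, s48wg_Layer H' (H' ⊔ ⟨g⟩) g r χ`;
* `s48wg_FH_top`, `s48wg_FHQ_top` : `F_⊤ = F̄₀(M)` over `ℚ̄` and `s48k_FHQ M ⊤ = F₀(M)` over `ℚ`.
-/
import Fermat.Agent.Lib.S48.WGM

set_option autoImplicit false
set_option linter.unusedSectionVars false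
set_option linter.style.haveILetI false

namespace Fermat.Agent.Lib.S48

open ModularCurve CongruenceSubgroup IntermediateField AlgebraicCurve
open Fermat.Agent.Lib.FF Fermat.Agent.Lib.S29
open scoped MatrixGroups

noncomputable section

local notation "Kb" => AlgebraicClosure ℚ

variable {M : ℕ} [NeZero M]

/-- **(L0)** Characters of `(ℤ/M)ˣ/H'` separate points. -/
theorem s48wg_exists_char (H' : Subgroup (ZMod M)ˣ) (g : (ZMod M)ˣ) (hg : g ∉ H') :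
    ∃ χ ∈ s48wg_XH H', χ ((g : (ZMod M)ˣ) : ZMod M) ≠ 1 := by
  have hne : (QuotientGroup.mk g : (ZMod M)ˣ ⧸ H') ≠ 1 := by
    rwa [ne_eq, QuotientGroup.eq_one_iff]
  have hexp : Monoid.exponent ((ZMod M)ˣ ⧸ H') ≠ 0 := by
    have := Monoid.exponent_ne_zero_of_finite (G := (ZMod M)ˣ ⧸ H')
    convert this
  haveI : NeZero ((Monoid.exponent ((ZMod M)ˣ ⧸ H') : ℕ) : Kb) :=
    ⟨Nat.cast_ne_zero.mpr hexp⟩
  obtain ⟨φ, hφ⟩ :=
    CommGroup.exists_apply_ne_one_of_hasEnoughRootsOfUnity ((ZMod M)ˣ ⧸ H') Kb hne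
  let χ₀ : (ZMod M)ˣ →* Kbˣ := φ.comp (QuotientGroup.mk' H')
  refine ⟨MulChar.ofUnitHom χ₀, (s48wg_mem_XH H').mpr fun h hh => ?_, ?_⟩
  · rw [MulChar.ofUnitHom_coe]
    show ((φ (QuotientGroup.mk h) : Kbˣ) : Kb) = 1
    rw [(QuotientGroup.eq_one_iff h).mpr hh, map_one, Units.val_one]
  · rw [MulChar.ofUnitHom_coe]
    intro h
    exact hφ (Units.ext h)

/-- **Existence of the layer datum** for a step `(H', g, r)` of the subgroup induction. -/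
theorem s48wg_exists_layer (H' : Subgroup (ZMod M)ˣ) (g : (ZMod M)ˣ) (r : ℕ) (hr : r.Prime)
    (hg : g ∉ H') (hgr : g ^ r ∈ H') :
    ∃ χ, s48wg_Layer H' (H' ⊔ Subgroup.zpowers g) g r χ := by
  obtain ⟨χ, hχ, hχg⟩ := s48wg_exists_char H' g hg
  exact ⟨χ, ⟨le_sup_left, le_rfl,
    (le_sup_right : Subgroup.zpowers g ≤ H' ⊔ Subgroup.zpowers g) (Subgroup.mem_zpowers g),
    hgr, hr, hχ, hχg⟩⟩

/-! ### The base of the tower -/

theorem s48wg_XH_top (χ : DirichletCharacter Kb M)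
    (hχ : χ ∈ s48wg_XH (⊤ : Subgroup (ZMod M)ˣ)) : χ = 1 := by
  refine MulChar.ext fun a => ?_
  rw [(s48wg_mem_XH ⊤).mp hχ a (Subgroup.mem_top a), MulChar.one_apply_coe]

/-- **`F_⊤ = F̄₀(M)`.** -/
theorem s48wg_FH_top (hM : 1 < M) :
    s48k_FH M (⊤ : Subgroup (ZMod M)ˣ) = modularFunctionFieldBar M := by
  refine le_antisymm ?_ (s48wg_bar_le_FH ⊤)
  refine s48wg_FH_le_of ⊤ _ le_rfl fun χ hχ => ?_
  rw [s48wg_XH_top χ hχ]
  exact s48wg_tq_one_mem hM (dvd_refl M)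

/-- `laurentBaseChange ℚ F₀ = F₀`. -/
theorem s48wg_lbc_rat (F₀ : IntermediateField ℚ (LaurentSeries ℚ)) :
    laurentBaseChange ℚ F₀ = F₀ := by
  have hid : ∀ x : LaurentSeries ℚ, coeffEmb ℚ x = x := by
    intro x
    ext k
    simp
  rw [laurentBaseChange]
  have : (⇑(coeffEmb ℚ) '' (F₀ : Set (LaurentSeries ℚ))) = (F₀ : Set (LaurentSeries ℚ)) := by
    ext x
    constructor
    · rintro ⟨y, hy, rfl⟩
      rw [hid]
      exact hy
    · intro hx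
      exact ⟨x, hx, hid x⟩
  rw [this]
  exact IntermediateField.adjoin_self ℚ F₀

/-- Descent to `ℚ`: a rational series whose base change lies in `F₀ ⊗ ℚ̄` lies in `F₀`. -/
theorem s48wg_mem_of_coeffEmb_mem (F₀ : IntermediateField ℚ (LaurentSeries ℚ))
    (y : LaurentSeries ℚ) (h : coeffEmb Kb y ∈ laurentBaseChange Kb F₀) : y ∈ F₀ := by
  have := s29cf_mem_of_coeffMap_mem' (algebraMap ℚ Kb) F₀ y h
  rwa [s48wg_lbc_rat] at this

/-- **`s48k_FHQ M ⊤ = F₀(M)`** (rational base of the tower). -/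
theorem s48wg_FHQ_top (hM : 1 < M) :
    s48k_FHQ M (⊤ : Subgroup (ZMod M)ˣ) = modularFunctionFieldFull M := by
  refine le_antisymm ?_ (s48k_full_le_FHQ M ⊤)
  rw [s48k_FHQ, IntermediateField.adjoin_le_iff]
  rintro x (hx | ⟨u, rfl⟩)
  · exact IntermediateField.subset_adjoin ℚ _ hx
  · refine s48wg_mem_of_coeffEmb_mem _ _ ?_
    have h1 : coeffEmb Kb (s48k_sQ M ⊤ u) ∈ s48k_FH M (⊤ : Subgroup (ZMod M)ˣ) :=
      (s48k_sBar M ⊤ u).2
    rw [s48wg_FH_top hM] at h1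
    exact h1

end

end Fermat.Agent.Lib.S48
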