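/-
DS-1 (S48), (T-conc) (helper5), part S: THE INTEGRAL SERIES DATA OF A LAYER.
For a valuation subring `A` of `ℚ̄` and a Dirichlet character `χ` (values in `ℚ̄`, hence in `A`):
* `s48wg_chiA A χ : ℕ → ↥A`, `s48wg_TA A χ : LaurentSeries ↥A` the `A`-integral lift of `t_χ`:
  `s48wg_iota_TA : coeffMap A.subtype (TA) = s48wf_tq χ`, `s48wg_rho_TA_ne_zero`;
* the integer series `s48wg_sZ M H u : LaurentSeries ℤ` with `s48wg_sZ_cast : (sZ) ⊗ ℚ = s48k_sQ M H u`;
* `s48wg_rho_TA_mem` : `ρ T_χ ∈ adjoin κ (ρ_ℤ '' range (s48wg_sZ M H))` for `χ` trivial on `H`.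
-/
import Fermat.Agent.Lib.S48.WGN

set_option autoImplicit false
set_option linter.unusedSectionVars false
set_option linter.style.haveILetI false

namespace Fermat.Agent.Lib.S48

open ModularCurve CongruenceSubgroup IntermediateField AlgebraicCurve
open Fermat.Agent.Lib.FF Fermat.Agent.Lib.S29
open scoped MatrixGroups

noncomputable section

local notation "Kb" => AlgebraicClosure ℚ

/-! ### Character values are integral -/

theorem s48wg_mem_of_pow_eq_one (A : ValuationSubring Kb) {x : Kb} {n : ℕ} (hn : n ≠ 0)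
    (hx : x ^ n = 1) : x ∈ A := by
  rcases A.mem_or_inv_mem x with h | h
  · exact h
  · have hx0 : x ≠ 0 := by
      rintro rfl
      rw [zero_pow hn] at hx
      exact zero_ne_one hx
    have e : x = (x⁻¹) ^ (n - 1) := by
      have h1 : x ^ (n - 1) * x = 1 := by
        rw [← pow_succ, Nat.sub_add_cancel (Nat.one_le_iff_ne_zero.mpr hn)]
        exact hx
      rw [inv_pow, eq_inv_of_mul_eq_one_left h1, inv_inv]
    rw [e]
    exact pow_mem h _

variable {M : ℕ} [NeZero M] (A : ValuationSubring Kb)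

theorem s48wg_chi_mem (χ : DirichletCharacter Kb M) (a : ZMod M) : χ a ∈ A := by
  by_cases ha : IsUnit a
  · obtain ⟨u, rfl⟩ := ha
    have h1 : χ ((u : (ZMod M)ˣ) : ZMod M) ^ (Fintype.card (ZMod M)ˣ) = 1 := by
      rw [← map_pow, ← Units.val_pow_eq_pow_val, pow_card_eq_one, Units.val_one, map_one]
    exact s48wg_mem_of_pow_eq_one A Fintype.card_ne_zero h1
  · rw [MulChar.map_nonunit χ ha]
    exact zero_mem _

/-- The character with values in `A`. -/
def s48wg_chiA (χ : DirichletCharacter Kb M) : ℕ → ↥A :=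
  fun c => ⟨χ (c : ZMod M), s48wg_chi_mem A χ _⟩

@[simp] theorem s48wg_coe_chiA (χ : DirichletCharacter Kb M) (c : ℕ) :
    ((s48wg_chiA A χ c : ↥A) : Kb) = χ (c : ZMod M) := rfl

/-- **The `A`-integral lift of `t_χ`.** -/
def s48wg_TA (χ : DirichletCharacter Kb M) : LaurentSeries ↥A :=
  HahnSeries.ofPowerSeries ℤ ↥A (s48k_tPS (s48wg_chiA A χ))

theorem s48wg_iota_TA (χ : DirichletCharacter Kb M) :
    coeffMap A.subtype (s48wg_TA A χ) = s48wf_tq χ := by
  rw [s48wg_TA, ffb_coeffMap_ofPowerSeries, s48k_tPS_map]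
  rfl

theorem s48wg_rho_TA (χ : DirichletCharacter Kb M) :
    coeffMap (IsLocalRing.residue ↥A) (s48wg_TA A χ) =
      HahnSeries.ofPowerSeries ℤ (IsLocalRing.ResidueField ↥A)
        (s48k_tPS (fun c => IsLocalRing.residue ↥A (s48wg_chiA A χ c))) := by
  rw [s48wg_TA, ffb_coeffMap_ofPowerSeries, s48k_tPS_map]

theorem s48wg_rho_TA_ne_zero (χ : DirichletCharacter Kb M) :
    coeffMap (IsLocalRing.residue ↥A) (s48wg_TA A χ) ≠ 0 := by
  rw [s48wg_rho_TA]
  intro h
  have h1 : s48k_tPS (fun c => IsLocalRing.residue ↥A (s48wg_chiA A χ c)) = 0 :=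
    (map_eq_zero_iff _ HahnSeries.ofPowerSeries_injective).mp h
  have h2 := s48k_constantCoeff_tPS (fun c => IsLocalRing.residue ↥A (s48wg_chiA A χ c))
  rw [h1, map_zero] at h2
  have h3 : s48wg_chiA A χ 1 = 1 := by
    apply Subtype.ext
    simp
  rw [h3, map_one] at h2
  exact zero_ne_one h2

/-! ### The integer series `s_u` -/

open Classical in
/-- The `ℤ`-valued indicator of the coset `u H` on natural numbers. -/
def s48wg_wCosetZ (M : ℕ) (H : Subgroup (ZMod M)ˣ) (u : (ZMod M)ˣ) (c : ℕ) : ℤ :=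
  if ∃ h ∈ H, ((c : ℕ) : ZMod M) = ((u * h : (ZMod M)ˣ) : ZMod M) then 1 else 0

/-- The integer generators `s_u ∈ ℤ((q))`. -/
def s48wg_sZ (M : ℕ) (H : Subgroup (ZMod M)ˣ) (u : (ZMod M)ˣ) : LaurentSeries ℤ :=
  HahnSeries.ofPowerSeries ℤ ℤ (s48k_tPS (s48wg_wCosetZ M H u))

open Classical in
theorem s48wg_wCosetZ_cast {R : Type*} [CommRing R] (f : ℤ →+* R) (H : Subgroup (ZMod M)ˣ)
    (u : (ZMod M)ˣ) (c : ℕ) :
    f (s48wg_wCosetZ M H u c) =
      if ∃ h ∈ H, ((c : ℕ) : ZMod M) = ((u * h : (ZMod M)ˣ) : ZMod M) then 1 else 0 := by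
  rw [s48wg_wCosetZ]
  split_ifs <;> simp

theorem s48wg_sZ_cast (H : Subgroup (ZMod M)ˣ) (u : (ZMod M)ˣ) :
    coeffMap (Int.castRingHom ℚ) (s48wg_sZ M H u) = s48k_sQ M H u := by
  rw [s48wg_sZ, ffb_coeffMap_ofPowerSeries, s48k_tPS_map, s48k_sQ]
  congr 2
  funext c
  rw [s48wg_wCosetZ_cast, s48k_wCoset]
  by_cases h : ∃ h ∈ H, ((c : ℕ) : ZMod M) = ((u * h : (ZMod M)ˣ) : ZMod M)
  · rw [if_pos h, if_pos h]
  · rw [if_neg h, if_neg h]

/-- the base change of the integer series to any ring. -/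
theorem s48wg_sZ_map {R : Type*} [CommRing R] (f : ℤ →+* R) (H : Subgroup (ZMod M)ˣ)
    (u : (ZMod M)ˣ) :
    coeffMap f (s48wg_sZ M H u) =
      HahnSeries.ofPowerSeries ℤ R (s48k_tPS (fun c => f (s48wg_wCosetZ M H u c))) := by
  rw [s48wg_sZ, ffb_coeffMap_ofPowerSeries, s48k_tPS_map]

/-! ### Coset representatives -/

open Classical in
/-- A function on `ℤ/M`, vanishing on non-units and `H`-invariant on units, is the combination of
the coset indicators over a system of representatives. -/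
theorem s48wg_sum_quot_wCoset {R : Type*} [CommRing R] (H : Subgroup (ZMod M)ˣ)
    (f : ZMod M → R) (hf0 : ∀ a, ¬ IsUnit a → f a = 0)
    (hfH : ∀ u h : (ZMod M)ˣ, h ∈ H → f ((u * h : (ZMod M)ˣ) : ZMod M) = f (u : ZMod M))
    (c : ℕ) :
    ∑ q : (ZMod M)ˣ ⧸ H, f ((q.out : (ZMod M)ˣ) : ZMod M) *
        ((s48wg_wCosetZ M H q.out c : ℤ) : R) = f (c : ZMod M) := by
  by_cases hc : IsUnit ((c : ℕ) : ZMod M)
  · obtain ⟨v, hv⟩ := hc
    rw [Finset.sum_eq_single (QuotientGroup.mk v : (ZMod M)ˣ ⧸ H)]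
    · have hmem : ((QuotientGroup.mk v : (ZMod M)ˣ ⧸ H).out)⁻¹ * v ∈ H :=
        QuotientGroup.eq.mp (QuotientGroup.out_eq' _)
      have hw : s48wg_wCosetZ M H (QuotientGroup.mk v : (ZMod M)ˣ ⧸ H).out c = 1 := by
        rw [s48wg_wCosetZ, if_pos ⟨_, hmem, by rw [← hv]; congr 1; group⟩]
      rw [hw, Int.cast_one, mul_one, ← hv]
      have := hfH (QuotientGroup.mk v : (ZMod M)ˣ ⧸ H).out _ hmem
      rw [← this]
      congr 2
      group
    · intro q _ hq
      have hw : s48wg_wCosetZ M H q.out c = 0 := by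
        rw [s48wg_wCosetZ, if_neg]
        rintro ⟨h, hh, heq⟩
        apply hq
        have hvq : v = q.out * h := Units.ext (by rw [hv]; exact heq)
        rw [← QuotientGroup.out_eq' q, hvq]
        exact (QuotientGroup.eq.mpr (by simpa using hh))
      rw [hw, Int.cast_zero, mul_zero]
    · intro h
      exact absurd (Finset.mem_univ _) h
  · rw [hf0 _ hc]
    refine Finset.sum_eq_zero fun q _ => ?_
    have hw : s48wg_wCosetZ M H q.out c = 0 := by
      rw [s48wg_wCosetZ, if_neg]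
      rintro ⟨h, -, heq⟩
      exact hc ⟨q.out * h, heq.symm⟩
    rw [hw, Int.cast_zero, mul_zero]

open Classical in
/-- The series of an `H`-invariant weight is the combination of the `s_u` over a system of
representatives of `(ℤ/M)ˣ/H`. -/
theorem s48wg_tPS_quot {R : Type*} [CommRing R] (H : Subgroup (ZMod M)ˣ)
    (f : ZMod M → R) (hf0 : ∀ a, ¬ IsUnit a → f a = 0)
    (hfH : ∀ u h : (ZMod M)ˣ, h ∈ H → f ((u * h : (ZMod M)ˣ) : ZMod M) = f (u : ZMod M)) :
    HahnSeries.ofPowerSeries ℤ R (s48k_tPS (fun c : ℕ => f (c : ZMod M))) =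
      ∑ q : (ZMod M)ˣ ⧸ H, HahnSeries.C (f ((q.out : (ZMod M)ˣ) : ZMod M)) *
        coeffMap (Int.castRingHom R) (s48wg_sZ M H q.out) := by
  have h1 := s48wf_tPS_sum (Finset.univ : Finset ((ZMod M)ˣ ⧸ H))
    (fun q => f ((q.out : (ZMod M)ˣ) : ZMod M))
    (fun q c => ((s48wg_wCosetZ M H q.out c : ℤ) : R))
  have h2 : (fun c : ℕ => ∑ q : (ZMod M)ˣ ⧸ H, f ((q.out : (ZMod M)ˣ) : ZMod M) *
      ((s48wg_wCosetZ M H q.out c : ℤ) : R)) = fun c : ℕ => f (c : ZMod M) := by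
    funext c
    exact s48wg_sum_quot_wCoset H f hf0 hfH c
  rw [h2] at h1
  rw [h1, map_sum]
  refine Finset.sum_congr rfl fun q _ => ?_
  rw [map_mul, HahnSeries.ofPowerSeries_C, s48wg_sZ_map]
  rfl

/-- **`ρ T_χ` lies in the field generated by the reductions of the integer series `s_u`.** -/
theorem s48wg_rho_TA_mem (H : Subgroup (ZMod M)ˣ) (χ : DirichletCharacter Kb M)
    (hχ : χ ∈ s48wg_XH H) :
    coeffMap (IsLocalRing.residue ↥A) (s48wg_TA A χ) ∈
      IntermediateField.adjoin (IsLocalRing.ResidueField ↥A)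
        ((fun y => coeffMap (Int.castRingHom (IsLocalRing.ResidueField ↥A)) y) ''
          Set.range (s48wg_sZ M H)) := by
  classical
  rw [s48wg_rho_TA]
  have h := s48wg_tPS_quot H
    (fun a : ZMod M => IsLocalRing.residue ↥A (⟨χ a, s48wg_chi_mem A χ a⟩ : ↥A))
    (fun a ha => by
      have : (⟨χ a, s48wg_chi_mem A χ a⟩ : ↥A) = 0 :=
        Subtype.ext (MulChar.map_nonunit χ ha)
      rw [this, map_zero])
    (fun u h hh => by
      have : (⟨χ ((u * h : (ZMod M)ˣ) : ZMod M), s48wg_chi_mem A χ _⟩ : ↥A) =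
          ⟨χ ((u : (ZMod M)ˣ) : ZMod M), s48wg_chi_mem A χ _⟩ :=
        Subtype.ext (by
          show χ ((u * h : (ZMod M)ˣ) : ZMod M) = χ ((u : (ZMod M)ˣ) : ZMod M)
          rw [Units.val_mul, map_mul, (s48wg_mem_XH H).mp hχ h hh, mul_one])
      rw [this])
  have e : (fun c : ℕ => IsLocalRing.residue ↥A (s48wg_chiA A χ c)) =
      fun c : ℕ => (fun a : ZMod M =>
        IsLocalRing.residue ↥A (⟨χ a, s48wg_chi_mem A χ a⟩ : ↥A)) (c : ZMod M) := rfl
  rw [e, h]
  refine sum_mem fun q _ => mul_mem ?_ ?_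
  · rw [s29cf_C_eq]
    exact IntermediateField.algebraMap_mem _ _
  · exact IntermediateField.subset_adjoin _ _ ⟨_, ⟨q.out, rfl⟩, rfl⟩

end

end Fermat.Agent.Lib.S48
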