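/-
DS-1 (S48), (T-conc) (helper5), part W: THE SERIES DATA OF A WILD LAYER.
For a layer datum `s48wg_Layer H' H'' g p χ`, `ζ = χ(g)`, and `lamA : ↥A` with `lamA = ζ - 1`:
* `s48wg_X0 A H'' χ` : `X₀ = ∑_{v ∈ reps (ℤ/M)ˣ/H''} χ(v) s''_v` (integral, `ι X₀ ∈ F_{H''}`);
* `s48wg_Tw` : the integral series with `T_χ = X₀ + C lamA * T_w`;
* `s48wg_exists_cc` : `(X₀ + C λ T)^p = X₀^p + C (λ^p) cc` when `p = u λ^(p-1)`;
* `s48wg_Layer.wild_data` : the package, in the shape of `s48a_q_wild_step_series`.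
-/
import Fermat.Agent.Lib.S48.WGS

set_option autoImplicit false
set_option linter.unusedSectionVars false
set_option linter.style.haveILetI false

namespace Fermat.Agent.Lib.S48

open ModularCurve CongruenceSubgroup IntermediateField AlgebraicCurve
open Fermat.Agent.Lib.FF Fermat.Agent.Lib.S29
open scoped MatrixGroups

noncomputable section

local notation "Kb" => AlgebraicClosure ℚ

/-! ### Generic: the binomial expansion modulo `λ^p` -/

theorem s48wg_exists_cc {R : Type*} [CommRing R] {p : ℕ} (hp : p.Prime) (x t lam u : R)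
    (hpu : ((p : ℕ) : R) = u * lam ^ (p - 1)) :
    ∃ cc : R, (x + lam * t) ^ p = x ^ p + lam ^ p * cc := by
  have h := add_pow_prime_eq hp x (lam * t)
  refine ⟨t ^ p + u * x * t * ∑ k ∈ Finset.Ioo 0 p,
      x ^ (k - 1) * (lam * t) ^ (p - k - 1) * ((p.choose k / p : ℕ) : R), ?_⟩
  have hlp : lam ^ p = lam ^ (p - 1) * lam := by
    rw [← pow_succ, Nat.sub_add_cancel hp.one_le]
  rw [h, hpu, mul_pow, hlp]
  ring

variable {M : ℕ} [NeZero M] (A : ValuationSubring Kb)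

/-! ### Sums over coset representatives -/

open Classical in
theorem s48wg_sum_quot_wCoset_unit {R : Type*} [CommRing R] (H : Subgroup (ZMod M)ˣ)
    (a : (ZMod M)ˣ ⧸ H → R) (v : (ZMod M)ˣ) (c : ℕ)
    (hv : ((v : (ZMod M)ˣ) : ZMod M) = ((c : ℕ) : ZMod M)) :
    ∑ q : (ZMod M)ˣ ⧸ H, a q * ((s48wg_wCosetZ M H q.out c : ℤ) : R) =
      a (QuotientGroup.mk v) := by
  rw [Finset.sum_eq_single (QuotientGroup.mk v : (ZMod M)ˣ ⧸ H)]
  · have hmem : ((QuotientGroup.mk v : (ZMod M)ˣ ⧸ H).out)⁻¹ * v ∈ H :=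
      QuotientGroup.eq.mp (QuotientGroup.out_eq' _)
    have hw : s48wg_wCosetZ M H (QuotientGroup.mk v : (ZMod M)ˣ ⧸ H).out c = 1 := by
      rw [s48wg_wCosetZ, if_pos ⟨_, hmem, by rw [← hv]; congr 1; group⟩]
    rw [hw, Int.cast_one, mul_one]
  · intro q _ hq
    have hw : s48wg_wCosetZ M H q.out c = 0 := by
      rw [s48wg_wCosetZ, if_neg]
      rintro ⟨h, hh, heq⟩
      apply hq
      have hvq : v = q.out * h := Units.ext (by rw [hv]; exact heq)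
      rw [← QuotientGroup.out_eq' q, hvq]
      exact (QuotientGroup.eq.mpr (by simpa using hh))
    rw [hw, Int.cast_zero, mul_zero]
  · intro h
    exact absurd (Finset.mem_univ _) h

open Classical in
theorem s48wg_sum_quot_wCoset_nonunit {R : Type*} [CommRing R] (H : Subgroup (ZMod M)ˣ)
    (a : (ZMod M)ˣ ⧸ H → R) (c : ℕ) (hc : ¬ IsUnit ((c : ℕ) : ZMod M)) :
    ∑ q : (ZMod M)ˣ ⧸ H, a q * ((s48wg_wCosetZ M H q.out c : ℤ) : R) = 0 := by
  refine Finset.sum_eq_zero fun q _ => ?_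
  have hw : s48wg_wCosetZ M H q.out c = 0 := by
    rw [s48wg_wCosetZ, if_neg]
    rintro ⟨h, -, heq⟩
    exact hc ⟨q.out * h, heq.symm⟩
  rw [hw, Int.cast_zero, mul_zero]

/-! ### `X₀` -/

/-- The value `χ(a)` as an element of `A`. -/
def s48wg_chiV (χ : DirichletCharacter Kb M) (a : ZMod M) : ↥A :=
  ⟨χ a, s48wg_chi_mem A χ a⟩

@[simp] theorem s48wg_coe_chiV (χ : DirichletCharacter Kb M) (a : ZMod M) :
    ((s48wg_chiV A χ a : ↥A) : Kb) = χ a := rfl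

/-- The integer series `s_u` over `A`. -/
def s48wg_sA (H : Subgroup (ZMod M)ˣ) (u : (ZMod M)ˣ) : LaurentSeries ↥A :=
  coeffMap (Int.castRingHom ↥A) (s48wg_sZ M H u)

theorem s48wg_iota_sA (H : Subgroup (ZMod M)ˣ) (u : (ZMod M)ˣ) :
    coeffMap A.subtype (s48wg_sA A H u) =
      ((s48k_sBar M H u : s48k_FH M H) : LaurentSeries Kb) := by
  show _ = coeffEmb Kb (s48k_sQ M H u)
  rw [s48wg_sA, coeffMap_coeffMap, ← s48wg_sZ_cast, coeffEmb, coeffMap_coeffMap]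
  exact coeffMap_congr (RingHom.ext_int _ _) _

theorem s48wg_rho_sA (H : Subgroup (ZMod M)ˣ) (u : (ZMod M)ˣ) :
    coeffMap (IsLocalRing.residue ↥A) (s48wg_sA A H u) =
      coeffMap (Int.castRingHom (IsLocalRing.ResidueField ↥A)) (s48wg_sZ M H u) := by
  rw [s48wg_sA, coeffMap_coeffMap]
  exact coeffMap_congr (RingHom.ext_int _ _) _

open Classical in
/-- `X₀ = ∑_{v ∈ reps (ℤ/M)ˣ/H''} χ(v) s''_v`. -/
def s48wg_X0 (H'' : Subgroup (ZMod M)ˣ) (χ : DirichletCharacter Kb M) : LaurentSeries ↥A :=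
  ∑ q : (ZMod M)ˣ ⧸ H'', HahnSeries.C (s48wg_chiV A χ ((q.out : (ZMod M)ˣ) : ZMod M)) *
    s48wg_sA A H'' q.out

theorem s48wg_iota_C (a : ↥A) :
    coeffMap A.subtype (HahnSeries.C a : LaurentSeries ↥A) =
      algebraMap Kb (LaurentSeries Kb) (a : Kb) := by
  rw [← s29cf_C_eq]
  exact coeffMap_single _ _ _

theorem s48wg_iota_X0_mem (H'' : Subgroup (ZMod M)ˣ) (χ : DirichletCharacter Kb M) :
    coeffMap A.subtype (s48wg_X0 A H'' χ) ∈ s48k_FH M H'' := by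
  classical
  rw [s48wg_X0, map_sum]
  refine sum_mem fun q _ => ?_
  rw [map_mul, s48wg_iota_C, s48wg_iota_sA]
  exact mul_mem ((s48k_FH M H'').algebraMap_mem _) (s48k_sBar M H'' q.out).2

theorem s48wg_rho_X0_mem (H'' : Subgroup (ZMod M)ˣ) (χ : DirichletCharacter Kb M) :
    coeffMap (IsLocalRing.residue ↥A) (s48wg_X0 A H'' χ) ∈
      IntermediateField.adjoin (IsLocalRing.ResidueField ↥A)
        ((fun y => coeffMap (Int.castRingHom (IsLocalRing.ResidueField ↥A)) y) ''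
          Set.range (s48wg_sZ M H'')) := by
  classical
  rw [s48wg_X0, map_sum]
  refine sum_mem fun q _ => ?_
  rw [map_mul, s48wg_rho_sA]
  refine mul_mem ?_ (IntermediateField.subset_adjoin _ _ ⟨_, ⟨q.out, rfl⟩, rfl⟩)
  have : coeffMap (IsLocalRing.residue ↥A)
      (HahnSeries.C (s48wg_chiV A χ ((q.out : (ZMod M)ˣ) : ZMod M)) : LaurentSeries ↥A) =
      HahnSeries.C (IsLocalRing.residue ↥A (s48wg_chiV A χ ((q.out : (ZMod M)ˣ) : ZMod M))) :=
    coeffMap_single _ _ _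
  rw [this, s29cf_C_eq]
  exact IntermediateField.algebraMap_mem _ _

open Classical in
/-- The weight of `X₀`: `a ↦ χ(rep of a H'')` on units. -/
def s48wg_f1 (H'' : Subgroup (ZMod M)ˣ) (χ : DirichletCharacter Kb M) : ZMod M → ↥A :=
  fun a => if h : IsUnit a then
    s48wg_chiV A χ (((QuotientGroup.mk h.unit : (ZMod M)ˣ ⧸ H'').out : (ZMod M)ˣ) : ZMod M)
  else 0

theorem s48wg_f1_unit (H'' : Subgroup (ZMod M)ˣ) (χ : DirichletCharacter Kb M)
    (v : (ZMod M)ˣ) :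
    s48wg_f1 A H'' χ ((v : (ZMod M)ˣ) : ZMod M) =
      s48wg_chiV A χ (((QuotientGroup.mk v : (ZMod M)ˣ ⧸ H'').out : (ZMod M)ˣ) : ZMod M) := by
  rw [s48wg_f1, dif_pos v.isUnit]
  congr 4
  exact Units.ext (IsUnit.unit_spec _)

theorem s48wg_f1_nonunit (H'' : Subgroup (ZMod M)ˣ) (χ : DirichletCharacter Kb M)
    {a : ZMod M} (ha : ¬ IsUnit a) : s48wg_f1 A H'' χ a = 0 := by
  rw [s48wg_f1, dif_neg ha]

theorem s48wg_X0_eq (H'' : Subgroup (ZMod M)ˣ) (χ : DirichletCharacter Kb M) :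
    s48wg_X0 A H'' χ =
      HahnSeries.ofPowerSeries ℤ ↥A
        (s48k_tPS (fun c : ℕ => s48wg_f1 A H'' χ ((c : ℕ) : ZMod M))) := by
  classical
  have h1 := s48wf_tPS_sum (Finset.univ : Finset ((ZMod M)ˣ ⧸ H''))
    (fun q => s48wg_chiV A χ ((q.out : (ZMod M)ˣ) : ZMod M))
    (fun q c => ((s48wg_wCosetZ M H'' q.out c : ℤ) : ↥A))
  have h2 : (fun c : ℕ => ∑ q : (ZMod M)ˣ ⧸ H'',
      s48wg_chiV A χ ((q.out : (ZMod M)ˣ) : ZMod M) *
        ((s48wg_wCosetZ M H'' q.out c : ℤ) : ↥A)) =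
      fun c : ℕ => s48wg_f1 A H'' χ ((c : ℕ) : ZMod M) := by
    funext c
    by_cases hc : IsUnit ((c : ℕ) : ZMod M)
    · obtain ⟨v, hv⟩ := hc
      rw [s48wg_sum_quot_wCoset_unit H''
        (fun q => s48wg_chiV A χ ((q.out : (ZMod M)ˣ) : ZMod M)) v c hv, ← hv, s48wg_f1_unit]
    · rw [s48wg_sum_quot_wCoset_nonunit H'' _ c hc, s48wg_f1_nonunit A H'' χ hc]
  rw [h2] at h1
  rw [h1, map_sum, s48wg_X0]
  refine Finset.sum_congr rfl fun q _ => ?_
  rw [map_mul, HahnSeries.ofPowerSeries_C, s48wg_sA, s48wg_sZ_map]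
  rfl

/-! ### `T_w` -/

variable {A} {H' H'' : Subgroup (ZMod M)ˣ} {g : (ZMod M)ˣ} {p : ℕ} {χ : DirichletCharacter Kb M}

/-- `χ(a) = χ(rep) + λ w` with `w ∈ A`. -/
theorem s48wg_Layer.exists_w (hL : s48wg_Layer H' H'' g p χ) (lamA : ↥A)
    (hlam : (lamA : Kb) = χ ((g : (ZMod M)ˣ) : ZMod M) - 1) (a : ZMod M) :
    ∃ w : ↥A, s48wg_chiV A χ a = s48wg_f1 A H'' χ a + lamA * w := by
  haveI : NeZero p := ⟨hL.prime.ne_zero⟩
  by_cases ha : IsUnit a
  · obtain ⟨v, rfl⟩ := ha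
    set rep : (ZMod M)ˣ := (QuotientGroup.mk v : (ZMod M)ˣ ⧸ H'').out with hrep
    have hmem : rep⁻¹ * v ∈ H'' := QuotientGroup.eq.mp (QuotientGroup.out_eq' _)
    have h1 : χ (((rep⁻¹ * v : (ZMod M)ˣ)) : ZMod M) ^ p = 1 := by
      have := (s48wg_mem_XH H'').mp hL.pow_mem_XH _ hmem
      rwa [MulChar.pow_apply_coe] at this
    obtain ⟨m, -, hm⟩ := hL.isPrimitiveRoot.eq_pow_of_pow_eq_one h1
    let ζA : ↥A := s48wg_chiV A χ ((g : (ZMod M)ˣ) : ZMod M)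
    refine ⟨s48wg_chiV A χ ((rep : (ZMod M)ˣ) : ZMod M) * ∑ k ∈ Finset.range m, ζA ^ k, ?_⟩
    rw [s48wg_f1_unit]
    apply Subtype.ext
    have hgeom := geom_sum_mul (χ ((g : (ZMod M)ˣ) : ZMod M)) m
    have hv : χ ((v : (ZMod M)ˣ) : ZMod M) =
        χ ((rep : (ZMod M)ˣ) : ZMod M) * χ (((rep⁻¹ * v : (ZMod M)ˣ)) : ZMod M) := by
      rw [← map_mul, ← Units.val_mul, mul_inv_cancel_left]
    show χ ((v : (ZMod M)ˣ) : ZMod M) =
      χ ((rep : (ZMod M)ˣ) : ZMod M) +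
        (lamA : Kb) * (χ ((rep : (ZMod M)ˣ) : ZMod M) *
          ((∑ k ∈ Finset.range m, ζA ^ k : ↥A) : Kb))
    have hsum : ((∑ k ∈ Finset.range m, ζA ^ k : ↥A) : Kb) =
        ∑ k ∈ Finset.range m, χ ((g : (ZMod M)ˣ) : ZMod M) ^ k := by
      rw [AddSubmonoidClass.coe_finsetSum]
      rfl
    rw [hsum, hlam, hv, ← hm]
    have : (χ ((g : (ZMod M)ˣ) : ZMod M) - 1) *
        (χ ((rep : (ZMod M)ˣ) : ZMod M) *
          ∑ k ∈ Finset.range m, χ ((g : (ZMod M)ˣ) : ZMod M) ^ k) =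
        χ ((rep : (ZMod M)ˣ) : ZMod M) * (χ ((g : (ZMod M)ˣ) : ZMod M) ^ m - 1) := by
      rw [← hgeom]
      ring
    rw [this]
    ring
  · refine ⟨0, ?_⟩
    rw [s48wg_f1_nonunit A H'' χ ha, mul_zero, add_zero]
    exact Subtype.ext (MulChar.map_nonunit χ ha)

/-- The weight of `T_w`. -/
def s48wg_Layer.fW (hL : s48wg_Layer H' H'' g p χ) (lamA : ↥A)
    (hlam : (lamA : Kb) = χ ((g : (ZMod M)ˣ) : ZMod M) - 1) (a : ZMod M) : ↥A :=
  (hL.exists_w lamA hlam a).choose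

theorem s48wg_Layer.fW_spec (hL : s48wg_Layer H' H'' g p χ) (lamA : ↥A)
    (hlam : (lamA : Kb) = χ ((g : (ZMod M)ˣ) : ZMod M) - 1) (a : ZMod M) :
    s48wg_chiV A χ a = s48wg_f1 A H'' χ a + lamA * hL.fW lamA hlam a :=
  (hL.exists_w lamA hlam a).choose_spec

/-- **The integral series `T_w`.** -/
def s48wg_Layer.Tw (hL : s48wg_Layer H' H'' g p χ) (lamA : ↥A)
    (hlam : (lamA : Kb) = χ ((g : (ZMod M)ˣ) : ZMod M) - 1) : LaurentSeries ↥A :=
  HahnSeries.ofPowerSeries ℤ ↥A (s48k_tPS (fun c : ℕ => hL.fW lamA hlam ((c : ℕ) : ZMod M)))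

/-- **`T_χ = X₀ + C λ · T_w`.** -/
theorem s48wg_Layer.TA_eq (hL : s48wg_Layer H' H'' g p χ) (lamA : ↥A)
    (hlam : (lamA : Kb) = χ ((g : (ZMod M)ˣ) : ZMod M) - 1) :
    s48wg_TA A χ = s48wg_X0 A H'' χ + HahnSeries.C lamA * hL.Tw lamA hlam := by
  have h1 := s48wf_tPS_sum (Finset.univ : Finset (Fin 2)) (![1, lamA] : Fin 2 → ↥A)
    (![fun c : ℕ => s48wg_f1 A H'' χ ((c : ℕ) : ZMod M),
      fun c : ℕ => hL.fW lamA hlam ((c : ℕ) : ZMod M)] : Fin 2 → ℕ → ↥A)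
  have h2 : (fun c : ℕ => ∑ i : Fin 2, (![1, lamA] : Fin 2 → ↥A) i *
      (![fun c : ℕ => s48wg_f1 A H'' χ ((c : ℕ) : ZMod M),
        fun c : ℕ => hL.fW lamA hlam ((c : ℕ) : ZMod M)] : Fin 2 → ℕ → ↥A) i c) =
      s48wg_chiA A χ := by
    funext c
    rw [Fin.sum_univ_two]
    show 1 * s48wg_f1 A H'' χ ((c : ℕ) : ZMod M) + lamA * hL.fW lamA hlam ((c : ℕ) : ZMod M) = _
    rw [one_mul, ← hL.fW_spec lamA hlam]
    rfl
  rw [h2, Fin.sum_univ_two] at h1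
  rw [s48wg_TA, h1, map_add, s48wg_X0_eq, s48wg_Layer.Tw]
  simp only [Matrix.cons_val_zero, Matrix.cons_val_one, map_one, one_mul, map_mul,
    HahnSeries.ofPowerSeries_C]

/-- `ι T_w`, as a series over `ℚ̄`, is `(t_χ - ι X₀)/λ`. -/
theorem s48wg_Layer.iota_Tw (hL : s48wg_Layer H' H'' g p χ) (lamA : ↥A)
    (hlam : (lamA : Kb) = χ ((g : (ZMod M)ˣ) : ZMod M) - 1) :
    s48wf_tq χ = coeffMap A.subtype (s48wg_X0 A H'' χ) +
      algebraMap Kb (LaurentSeries Kb) (lamA : Kb) * coeffMap A.subtype (hL.Tw lamA hlam) := by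
  rw [← s48wg_iota_TA A χ, hL.TA_eq lamA hlam, map_add, map_mul, s48wg_iota_C]

theorem s48wg_Layer.lamA_ne_zero (hL : s48wg_Layer H' H'' g p χ) (lamA : ↥A)
    (hlam : (lamA : Kb) = χ ((g : (ZMod M)ˣ) : ZMod M) - 1) : lamA ≠ 0 := by
  intro h
  apply hL.chi_g
  have h1 := congrArg (fun z : ↥A => (z : Kb)) h
  simp only [hlam, ZeroMemClass.coe_zero] at h1
  exact sub_eq_zero.mp h1

theorem s48wg_Layer.fW_nonunit (hL : s48wg_Layer H' H'' g p χ) (lamA : ↥A)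
    (hlam : (lamA : Kb) = χ ((g : (ZMod M)ˣ) : ZMod M) - 1) {a : ZMod M} (ha : ¬ IsUnit a) :
    hL.fW lamA hlam a = 0 := by
  have h := hL.fW_spec lamA hlam a
  have h0 : s48wg_chiV A χ a = 0 := Subtype.ext (MulChar.map_nonunit χ ha)
  rw [h0, s48wg_f1_nonunit A H'' χ ha, zero_add] at h
  exact (mul_eq_zero.mp h.symm).resolve_left (hL.lamA_ne_zero lamA hlam)

theorem s48wg_Layer.fW_mul (hL : s48wg_Layer H' H'' g p χ) (lamA : ↥A)
    (hlam : (lamA : Kb) = χ ((g : (ZMod M)ˣ) : ZMod M) - 1) (u h : (ZMod M)ˣ) (hh : h ∈ H') :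
    hL.fW lamA hlam ((u * h : (ZMod M)ˣ) : ZMod M) = hL.fW lamA hlam ((u : (ZMod M)ˣ) : ZMod M) := by
  have h1 := hL.fW_spec lamA hlam ((u * h : (ZMod M)ˣ) : ZMod M)
  have h2 := hL.fW_spec lamA hlam ((u : (ZMod M)ˣ) : ZMod M)
  have e1 : s48wg_chiV A χ ((u * h : (ZMod M)ˣ) : ZMod M) =
      s48wg_chiV A χ ((u : (ZMod M)ˣ) : ZMod M) := by
    apply Subtype.ext
    show χ ((u * h : (ZMod M)ˣ) : ZMod M) = χ ((u : (ZMod M)ˣ) : ZMod M)
    rw [Units.val_mul, map_mul, (s48wg_mem_XH H').mp hL.chi_mem h hh, mul_one]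
  have e2 : s48wg_f1 A H'' χ ((u * h : (ZMod M)ˣ) : ZMod M) =
      s48wg_f1 A H'' χ ((u : (ZMod M)ˣ) : ZMod M) := by
    rw [s48wg_f1_unit, s48wg_f1_unit, QuotientGroup.mk_mul_of_mem u (hL.le hh)]
  rw [e1, e2, h2] at h1
  exact (mul_left_cancel₀ (hL.lamA_ne_zero lamA hlam) (add_left_cancel h1)).symm

/-- **`ρ T_w` lies in the field generated by the reductions of the integer series `s'_u`.** -/
theorem s48wg_Layer.rho_Tw_mem (hL : s48wg_Layer H' H'' g p χ) (lamA : ↥A)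
    (hlam : (lamA : Kb) = χ ((g : (ZMod M)ˣ) : ZMod M) - 1) :
    coeffMap (IsLocalRing.residue ↥A) (hL.Tw lamA hlam) ∈
      IntermediateField.adjoin (IsLocalRing.ResidueField ↥A)
        ((fun y => coeffMap (Int.castRingHom (IsLocalRing.ResidueField ↥A)) y) ''
          Set.range (s48wg_sZ M H')) := by
  classical
  rw [s48wg_Layer.Tw, ffb_coeffMap_ofPowerSeries, s48k_tPS_map]
  have h := s48wg_tPS_quot H'
    (fun a : ZMod M => IsLocalRing.residue ↥A (hL.fW lamA hlam a))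
    (fun a ha => by rw [hL.fW_nonunit lamA hlam ha, map_zero])
    (fun u h hh => by rw [hL.fW_mul lamA hlam u h hh])
  rw [h]
  refine sum_mem fun q _ => mul_mem ?_ ?_
  · rw [s29cf_C_eq]
    exact IntermediateField.algebraMap_mem _ _
  · exact IntermediateField.subset_adjoin _ _ ⟨_, ⟨q.out, rfl⟩, rfl⟩

/-- **The series data of a wild layer**, in the shape of `s48a_q_wild_step_series` /
`s48c_q_wild_step_top`: `T := T_w`, `X₀`, `Y := T_χ^p`, `cc`. -/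
theorem s48wg_Layer.wild_data (hL : s48wg_Layer H' H'' g p χ) (hM : 1 < M)
    (hneg : (-1 : (ZMod M)ˣ) ∈ H') (lamA uA : ↥A)
    (hlam : (lamA : Kb) = χ ((g : (ZMod M)ˣ) : ZMod M) - 1)
    (hpu : ((p : ℕ) : ↥A) = uA * lamA ^ (p - 1)) :
    ∃ T X₀ Y cc : LaurentSeries ↥A,
      s48wg_TA A χ = X₀ + HahnSeries.C lamA * T ∧
      coeffMap A.subtype X₀ ∈ s48k_FH M H'' ∧
      coeffMap A.subtype Y ∈ s48k_FH M H'' ∧
      coeffMap A.subtype Y = s48wf_tq χ ^ p ∧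
      Y = (X₀ + HahnSeries.C lamA * T) ^ p ∧
      Y = X₀ ^ p + HahnSeries.C (lamA ^ p) * cc ∧
      coeffMap (IsLocalRing.residue ↥A) Y ≠ 0 ∧
      coeffMap (IsLocalRing.residue ↥A) T ∈
        IntermediateField.adjoin (IsLocalRing.ResidueField ↥A)
          ((fun y => coeffMap (Int.castRingHom (IsLocalRing.ResidueField ↥A)) y) ''
            Set.range (s48wg_sZ M H')) ∧
      coeffMap (IsLocalRing.residue ↥A) X₀ ∈
        IntermediateField.adjoin (IsLocalRing.ResidueField ↥A)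
          ((fun y => coeffMap (Int.castRingHom (IsLocalRing.ResidueField ↥A)) y) ''
            Set.range (s48wg_sZ M H'')) := by
  have hTA := hL.TA_eq lamA hlam
  have hpuS : ((p : ℕ) : LaurentSeries ↥A) =
      HahnSeries.C uA * (HahnSeries.C lamA : LaurentSeries ↥A) ^ (p - 1) := by
    rw [← map_pow, ← map_mul, ← hpu, map_natCast]
  obtain ⟨cc, hcc⟩ := s48wg_exists_cc hL.prime (s48wg_X0 A H'' χ) (hL.Tw lamA hlam)
    (HahnSeries.C lamA : LaurentSeries ↥A) (HahnSeries.C uA) hpuS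
  have hιY : coeffMap A.subtype (s48wg_TA A χ ^ p) = s48wf_tq χ ^ p := by
    rw [map_pow, s48wg_iota_TA]
  refine ⟨hL.Tw lamA hlam, s48wg_X0 A H'' χ, s48wg_TA A χ ^ p, cc, hTA,
    s48wg_iota_X0_mem A H'' χ, ?_, hιY, by rw [hTA], ?_, ?_, hL.rho_Tw_mem lamA hlam,
    s48wg_rho_X0_mem A H'' χ⟩
  · rw [hιY]
    exact s48wg_tq_pow_mem H'' hM χ ((s48wg_charSet_XH H' hneg).even χ hL.chi_mem) p
      hL.pow_mem_XH
  · rw [hTA, hcc, map_pow]
  · rw [map_pow]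
    exact pow_ne_zero p (s48wg_rho_TA_ne_zero A χ)

/-! ### A finite generating set of the rational model -/

omit [NeZero M] in
theorem s48wg_finite_divisorExpansions (M : ℕ) [NeZero M] : (divisorExpansions M).Finite := by
  classical
  refine Set.Finite.subset ((M.divisors.image fun d =>
    if h : d ≠ 0 then (haveI : NeZero d := ⟨h⟩; qExpand ℚ d jq) else 0).finite_toSet) ?_
  rintro x ⟨d, hd0, hd, rfl⟩
  rw [Finset.mem_coe, Finset.mem_image]
  exact ⟨d, Nat.mem_divisors.mpr ⟨hd, NeZero.ne M⟩, by rw [dif_pos (NeZero.ne d)]⟩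

/-- **A finite generating set of `s48k_FHQ M H`** (the `S₂` of the tower steps). -/
theorem s48wg_exists_finset_gens (H : Subgroup (ZMod M)ˣ) :
    ∃ S : Finset (LaurentSeries ℚ),
      s48k_FHQ M H ≤ IntermediateField.adjoin ℚ (S : Set (LaurentSeries ℚ)) ∧
      ∀ s ∈ S, s ∈ s48k_FHQ M H := by
  classical
  refine ⟨(s48wg_finite_divisorExpansions M).toFinset ∪ Finset.univ.image (s48k_sQ M H), ?_, ?_⟩
  · rw [s48k_FHQ]
    refine IntermediateField.adjoin.mono ℚ _ _ ?_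
    rintro x (hx | ⟨u, rfl⟩)
    · exact Finset.mem_coe.mpr (Finset.mem_union_left _ ((Set.Finite.mem_toFinset _).mpr hx))
    · exact Finset.mem_coe.mpr (Finset.mem_union_right _
        (Finset.mem_image.mpr ⟨u, Finset.mem_univ _, rfl⟩))
  · intro s hs
    rcases Finset.mem_union.mp hs with h | h
    · exact IntermediateField.subset_adjoin ℚ _ (Or.inl ((Set.Finite.mem_toFinset _).mp h))
    · obtain ⟨u, -, rfl⟩ := Finset.mem_image.mp h
      exact s48k_sQ_mem M H u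

end

end Fermat.Agent.Lib.S48
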