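/-
DS-1 (S48), (T-conc) (helper5), part X: THE MODELS `F_H ⊗ K` LIE IN THE GAUSS FRACTION FIELD
(`hFrac₂` of the tower steps), for every Gauss datum `G` over any field `K ⊇ ℚ`.
-/
import Fermat.Agent.Lib.S48.WGW
import Fermat.Agent.Lib.S18.GInst

set_option autoImplicit false
set_option linter.unusedSectionVars false
set_option linter.style.haveILetI false

namespace Fermat.Agent.Lib.S48

open ModularCurve IntermediateField
open Fermat.Agent.Lib.FF Fermat.Agent.Lib.S18

noncomputable section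

variable {M : ℕ} [NeZero M] {K : Type*} [Field K] [Algebra ℚ K] {κ : Type*} [Field κ]
  (G : s18g_GaussData K κ)

/-- The base change of `s_u` is the image of an `A`-integral series. -/
theorem s48wg_coeffEmb_sQ_eq (H : Subgroup (ZMod M)ˣ) (u : (ZMod M)ˣ) :
    coeffEmb K (s48k_sQ M H u) =
      s18g_iota G (coeffMap (Int.castRingHom ↥G.A) (s48wg_sZ M H u)) := by
  rw [← s48wg_sZ_cast, coeffEmb, coeffMap_coeffMap, s18g_iota, coeffMap_coeffMap]
  exact coeffMap_congr (RingHom.ext_int _ _) _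

theorem s48wg_coeffEmb_sQ_mem_O (H : Subgroup (ZMod M)ˣ) (u : (ZMod M)ˣ) :
    coeffEmb K (s48k_sQ M H u) ∈ s18g_O G := by
  rw [s48wg_coeffEmb_sQ_eq G H u]
  exact s18g_iota_mem_O G _

theorem s48wg_coeffEmb_FHQ_mem_Frac (H : Subgroup (ZMod M)ˣ) {x : LaurentSeries ℚ}
    (hx : x ∈ s48k_FHQ M H) : coeffEmb K x ∈ s18g_Frac G := by
  let S : Subfield (LaurentSeries ℚ) := (s18g_Frac G).comap (coeffEmb K)
  let FI : IntermediateField ℚ (LaurentSeries ℚ) :=
    S.toIntermediateField (fun c => by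
      rw [eq_ratCast (algebraMap ℚ (LaurentSeries ℚ)) c]
      exact SubfieldClass.ratCast_mem _ c)
  have hle : s48k_FHQ M H ≤ FI := by
    rw [s48k_FHQ, IntermediateField.adjoin_le_iff]
    rintro y (hy | ⟨u, rfl⟩)
    · exact s18g_coeffEmb_full_mem_Frac G M (IntermediateField.subset_adjoin ℚ _ hy)
    · exact s18g_O_le_Frac G (s48wg_coeffEmb_sQ_mem_O G H u)
  exact hle hx

/-- **`hFrac₂`**: `F_H ⊗ K` lies in the Gauss fraction field. -/
theorem s48wg_FHK_mem_Frac (H : Subgroup (ZMod M)ˣ) :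
    ∀ f ∈ laurentBaseChange K (s48k_FHQ M H), f ∈ s18g_Frac G := by
  have hle : laurentBaseChange K (s48k_FHQ M H) ≤ s18g_FracI G := by
    rw [laurentBaseChange, IntermediateField.adjoin_le_iff]
    rintro y ⟨x, hx, rfl⟩
    exact s48wg_coeffEmb_FHQ_mem_Frac G H hx
  exact fun f hf => hle hf

end

end Fermat.Agent.Lib.S48
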