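/-
S48 (Deligne–Serre), wall [T8] (helper8): `s48e_CoeffStable` for a field GENERATED by a set of series which is stable
(up to the field) under the coefficientwise action of `Aut κ` — e.g. reductions of series with integer coefficients, or a
Galois-stable family of reductions of series with cyclotomic coefficients.
-/
import Fermat.Agent.Lib.S48.EGenDefs

set_option autoImplicit false

namespace Fermat.Agent.Lib.S48

open ModularCurve HahnSeries AlgebraicCurve IntermediateField

noncomputable section

variable {κ : Type*} [Field κ]

/-- a field generated by a coefficientwise-stable set of series is coefficientwise stable. -/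
theorem s48e_coeffStable_adjoin (S : Set (LaurentSeries κ))
    (hS : ∀ (φ : κ ≃+* κ) (x : LaurentSeries κ), x ∈ S →
      coeffMap (φ : κ →+* κ) x ∈ IntermediateField.adjoin κ S) :
    s48e_CoeffStable (IntermediateField.adjoin κ S) := by
  intro φ x hx
  induction hx using IntermediateField.adjoin_induction with
  | mem y hy => exact hS φ y hy
  | algebraMap c =>
    rw [s48e_coeffMap_algebraMap]
    exact (IntermediateField.adjoin κ S).algebraMap_mem _
  | add x y _ _ hx hy => rw [map_add]; exact add_mem hx hy
  | inv x _ hx => rw [map_inv₀]; exact inv_mem hx
  | mul x y _ _ hx hy => rw [map_mul]; exact mul_mem hx hy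

/-- series with coefficients in the prime ring: reductions of integral-coefficient series are fixed by every coefficient
automorphism. -/
theorem s48e_coeffMap_intCast_fixed (φ : κ ≃+* κ) (y : LaurentSeries ℤ) :
    coeffMap (φ : κ →+* κ) (coeffMap (Int.castRingHom κ) y) = coeffMap (Int.castRingHom κ) y := by
  rw [coeffMap_coeffMap]
  exact coeffMap_congr (RingHom.ext fun n => by simp) y

/-- a field generated by reductions of series with integer coefficients is coefficientwise stable. -/
theorem s48e_coeffStable_adjoin_int (T : Set (LaurentSeries ℤ)) :
    s48e_CoeffStable
      (IntermediateField.adjoin κ ((fun y => coeffMap (Int.castRingHom κ) y) '' T)) := by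
  refine s48e_coeffStable_adjoin _ ?_
  rintro φ _ ⟨y, hy, rfl⟩
  rw [s48e_coeffMap_intCast_fixed]
  exact IntermediateField.subset_adjoin κ _ ⟨y, hy, rfl⟩

/-- **`s48e_CoeffStable` from integer-coefficient generators**: if `Fb` contains the reductions of a set `T` of series with
integer coefficients and is generated over `κ` by them, then `Fb` is coefficientwise stable.  (For the special fibre of the
layer `F_H`: `T` = the series `j(q^d)` and `s_u^{(H')}`; every generator `ρ T_i` of the tower is a `κ`-linear combination of
their reductions, and conversely their reductions lie in `Fb` because they are integral series of `F_H`.) -/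
theorem s48e_coeffStable_of_int_gens (Fb : IntermediateField κ (LaurentSeries κ))
    (T : Set (LaurentSeries ℤ))
    (hmem : ∀ y ∈ T, coeffMap (Int.castRingHom κ) y ∈ Fb)
    (hgen : Fb ≤ IntermediateField.adjoin κ ((fun y => coeffMap (Int.castRingHom κ) y) '' T)) :
    s48e_CoeffStable Fb := by
  have h : Fb = IntermediateField.adjoin κ ((fun y => coeffMap (Int.castRingHom κ) y) '' T) := by
    refine le_antisymm hgen ?_
    rw [IntermediateField.adjoin_le_iff]
    rintro _ ⟨y, hy, rfl⟩
    exact hmem y hy
  rw [h]
  exact s48e_coeffStable_adjoin_int T

/-- the reduction of an integer-coefficient series through a valuation subring of a field of characteristic zero. -/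
theorem s48e_coeffMap_intCast_comp {L : Type*} [Field L] (A : ValuationSubring L) (π : ↥A →+* κ)
    (y : LaurentSeries ℤ) :
    coeffMap π (coeffMap (Int.castRingHom ↥A) y) = coeffMap (Int.castRingHom κ) y := by
  rw [coeffMap_coeffMap]
  exact coeffMap_congr (RingHom.ext fun n => by simp) y

end

end Fermat.Agent.Lib.S48
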