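/-
S48 (Deligne–Serre), wall [T8] (helper8): **the canonical INTEGER-coefficient generators of `s48k_FHQ M H` and the ambient
field `s48e_GbZ κ M H` of the special fibres.**

* `s48e_sZ M H u : LaurentSeries ℤ` — the integer version of helper4's `s48k_sQ M H u` (`s48e_coeffMap_sZ_rat`);
* `s48e_TZ M H : Set (LaurentSeries ℤ)` := `{j(q^d) : d ∣ M} ∪ range (s48e_sZ M H)`; their rational versions lie in
  `s48k_FHQ M H` (`s48e_TZ_mem_FHQ` = the hypothesis `hT` of `s48e_topPack_of_IH`);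
* `s48e_GbZ κ M H := adjoin κ (ρ_ℤ '' s48e_TZ M H)` — take `Gb := s48e_GbZ κ_A M H` in helper6's `s48g_TopIH`
  (then `hGb = le_rfl` in `s48e_redInputsQ_of_IH`);
* `s48e_tPS_mem_GbZ` : for every weight of the form `c ↦ ∑_{u ∈ S} a_u · 1_{uH}(c)` (`a_u ∈ κ`), the series
  `ofPowerSeries (s48k_tPS w)` lies in `s48e_GbZ` (= the hypothesis `hTG : ρT ∈ Gb` of the tame/wild steps for the
  generators `T_χ`, `X₀`, `T_w` of the concrete tower, whose reductions have such weights);
* `s48e_jqNModC_mem_GbZ`, `s48e_fullC_le_GbZ` : the special fibre of the base lies in `s48e_GbZ`.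
-/
import Fermat.Agent.Lib.S48.KIfaceH
import Fermat.Agent.Lib.S48.EGenStable

set_option autoImplicit false
set_option linter.unusedSectionVars false

noncomputable section

namespace Fermat.Agent.Lib.S48

open ModularCurve HahnSeries IntermediateField

variable (M : ℕ) (H : Subgroup (ZMod M)ˣ)

open Classical in
/-- the indicator of the coset `u H` on natural numbers, with values in `ℤ`. -/
def s48e_wCosetZ (u : (ZMod M)ˣ) (c : ℕ) : ℤ :=
  if ∃ h ∈ H, ((c : ℕ) : ZMod M) = ((u * h : (ZMod M)ˣ) : ZMod M) then 1 else 0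

theorem s48e_wCosetZ_cast (u : (ZMod M)ˣ) (c : ℕ) :
    ((s48e_wCosetZ M H u c : ℤ) : ℚ) = s48k_wCoset M H u c := by
  unfold s48e_wCosetZ s48k_wCoset
  split_ifs <;> simp

/-- the integer version of the generator `s_u`. -/
def s48e_sZ (u : (ZMod M)ˣ) : LaurentSeries ℤ :=
  HahnSeries.ofPowerSeries ℤ ℤ (s48k_tPS (s48e_wCosetZ M H u))

theorem s48e_coeffMap_sZ {R : Type*} [CommRing R] (u : (ZMod M)ˣ) :
    coeffMap (Int.castRingHom R) (s48e_sZ M H u) =
      HahnSeries.ofPowerSeries ℤ R (s48k_tPS fun c => ((s48e_wCosetZ M H u c : ℤ) : R)) := by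
  rw [s48e_sZ, coeffMap_ofPowerSeries, s48k_tPS_map]
  rfl

theorem s48e_coeffMap_sZ_rat (u : (ZMod M)ˣ) :
    coeffMap (Int.castRingHom ℚ) (s48e_sZ M H u) = s48k_sQ M H u := by
  rw [s48e_coeffMap_sZ, s48k_sQ]
  congr 2
  funext c
  exact s48e_wCosetZ_cast M H u c

variable [NeZero M]

/-- **the canonical integer-coefficient generators** of `s48k_FHQ M H`. -/
def s48e_TZ : Set (LaurentSeries ℤ) :=
  {x | ∃ (d : ℕ) (_ : NeZero d), d ∣ M ∧ x = jqNModC ℤ d} ∪ Set.range (s48e_sZ M H)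

theorem s48e_TZ_mem_FHQ (y : LaurentSeries ℤ) (hy : y ∈ s48e_TZ M H) :
    coeffMap (Int.castRingHom ℚ) y ∈ s48k_FHQ M H := by
  rcases hy with ⟨d, hd, hdM, rfl⟩ | ⟨u, rfl⟩
  · rw [coeffMap_jqNModC, jqNModC_rat]
    exact IntermediateField.subset_adjoin ℚ _ (Or.inl (mem_divisorExpansions M hdM))
  · rw [s48e_coeffMap_sZ_rat]
    exact s48k_sQ_mem M H u

variable (κ : Type*) [Field κ]

/-- **the ambient field of the special fibres**, generated by the reductions of the integer generators. -/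
def s48e_GbZ : IntermediateField κ (LaurentSeries κ) :=
  IntermediateField.adjoin κ ((fun y => coeffMap (Int.castRingHom κ) y) '' s48e_TZ M H)

theorem s48e_coeffStable_GbZ : s48e_CoeffStable (s48e_GbZ M H κ) :=
  s48e_coeffStable_adjoin_int (s48e_TZ M H)

theorem s48e_sZ_mem_GbZ (u : (ZMod M)ˣ) :
    coeffMap (Int.castRingHom κ) (s48e_sZ M H u) ∈ s48e_GbZ M H κ :=
  IntermediateField.subset_adjoin κ _ ⟨s48e_sZ M H u, Or.inr ⟨u, rfl⟩, rfl⟩

theorem s48e_jqNModC_mem_GbZ (d : ℕ) [NeZero d] (hd : d ∣ M) : jqNModC κ d ∈ s48e_GbZ M H κ := by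
  rw [← coeffMap_jqNModC (Int.castRingHom κ) d]
  exact IntermediateField.subset_adjoin κ _ ⟨jqNModC ℤ d, Or.inl ⟨d, inferInstance, hd, rfl⟩, rfl⟩

/-- the special fibre of the base lies in the ambient field. -/
theorem s48e_fullC_le_GbZ : modularFunctionFieldFullC κ M ≤ s48e_GbZ M H κ := by
  rw [modularFunctionFieldFullC, IntermediateField.adjoin_le_iff]
  rintro x ⟨d, hd, hdM, rfl⟩
  exact s48e_jqNModC_mem_GbZ M H κ d hdM

/-- linearity of the formal generator in the weight. -/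
theorem s48e_tPS_sum {R : Type*} [CommRing R] {ι : Type*} (S : Finset ι) (a : ι → R)
    (w : ι → ℕ → R) :
    s48k_tPS (fun c => ∑ i ∈ S, a i * w i c) = ∑ i ∈ S, PowerSeries.C (a i) * s48k_tPS (w i) := by
  unfold s48k_tPS
  have h : s48k_G1PS (fun c => ∑ i ∈ S, a i * w i c) =
      ∑ i ∈ S, PowerSeries.C (a i) * s48k_G1PS (w i) := by
    ext n
    rw [map_sum]
    simp only [s48k_G1PS, PowerSeries.coeff_mk, PowerSeries.coeff_C_mul, s48k_sigma]
    simp_rw [Finset.sum_mul, Finset.mul_sum]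
    rw [Finset.sum_comm]
    refine Finset.sum_congr rfl fun i _ => Finset.sum_congr rfl fun x _ => ?_
    ring
  rw [h, Finset.sum_mul]
  refine Finset.sum_congr rfl fun i _ => ?_
  ring

/-- **`hTG`**: a series whose weight is a `κ`-linear combination of coset indicators lies in the ambient field. -/
theorem s48e_tPS_mem_GbZ (S : Finset (ZMod M)ˣ) (a : (ZMod M)ˣ → κ) :
    HahnSeries.ofPowerSeries ℤ κ
        (s48k_tPS fun c => ∑ u ∈ S, a u * ((s48e_wCosetZ M H u c : ℤ) : κ)) ∈ s48e_GbZ M H κ := by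
  rw [s48e_tPS_sum, map_sum]
  refine sum_mem fun u _ => ?_
  rw [map_mul, HahnSeries.ofPowerSeries_C, ← s48e_coeffMap_sZ]
  refine mul_mem ?_ (s48e_sZ_mem_GbZ M H κ u)
  have : (HahnSeries.C (a u) : LaurentSeries κ) = algebraMap κ (LaurentSeries κ) (a u) := by
    rw [algebraMap_laurentSeries_eq_single]
    rfl
  rw [this]
  exact (s48e_GbZ M H κ).algebraMap_mem _

end Fermat.Agent.Lib.S48
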