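/-
DS-1 (S48), (T-conc) (helper5), part Y: THE `hTG` FACTS AGAINST helper8's CANONICAL AMBIENT FIELD
`s48e_GbZ M H κ` (`H` the BOTTOM subgroup): the reductions of `T_χ` (`χ` trivial on `H`), of `X₀` and
of `T_w` lie in `s48e_GbZ M H κ`.
-/
import Fermat.Agent.Lib.S48.WGW
import Fermat.Agent.Lib.S48.EIntTZ

set_option autoImplicit false
set_option linter.unusedSectionVars false
set_option linter.style.haveILetI false

namespace Fermat.Agent.Lib.S48

open ModularCurve CongruenceSubgroup IntermediateField AlgebraicCurve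
open Fermat.Agent.Lib.FF Fermat.Agent.Lib.S29
open scoped MatrixGroups

noncomputable section

local notation "Kb" => AlgebraicClosure ℚ

variable {M : ℕ} [NeZero M]

theorem s48wg_sZ_eq (H : Subgroup (ZMod M)ˣ) (u : (ZMod M)ˣ) :
    s48wg_sZ M H u = s48e_sZ M H u := rfl

/-- The series of a weight on `ℤ/M`, vanishing on non-units and `H`-invariant, lies in `Gb`. -/
theorem s48wg_tPS_mem_GbZ {κ : Type*} [Field κ] (H : Subgroup (ZMod M)ˣ) (f : ZMod M → κ)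
    (hf0 : ∀ a, ¬ IsUnit a → f a = 0)
    (hfH : ∀ u h : (ZMod M)ˣ, h ∈ H → f ((u * h : (ZMod M)ˣ) : ZMod M) = f (u : ZMod M)) :
    HahnSeries.ofPowerSeries ℤ κ (s48k_tPS (fun c : ℕ => f (c : ZMod M))) ∈ s48e_GbZ M H κ := by
  classical
  rw [s48wg_tPS_quot H f hf0 hfH]
  refine sum_mem fun q _ => mul_mem ?_ ?_
  · rw [s29cf_C_eq]
    exact IntermediateField.algebraMap_mem _ _
  · rw [s48wg_sZ_eq]
    exact s48e_sZ_mem_GbZ M H κ q.out

variable (A : ValuationSubring Kb)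

/-- **`hTG` for `T_χ`**, `χ` trivial on the bottom subgroup `H`. -/
theorem s48wg_rho_TA_mem_GbZ (H : Subgroup (ZMod M)ˣ) (χ : DirichletCharacter Kb M)
    (hχ : χ ∈ s48wg_XH H) :
    coeffMap (IsLocalRing.residue ↥A) (s48wg_TA A χ) ∈
      s48e_GbZ M H (IsLocalRing.ResidueField ↥A) := by
  rw [s48wg_rho_TA]
  exact s48wg_tPS_mem_GbZ H
    (fun a : ZMod M => IsLocalRing.residue ↥A (s48wg_chiV A χ a))
    (fun a ha => by
      have : s48wg_chiV A χ a = 0 := Subtype.ext (MulChar.map_nonunit χ ha)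
      rw [this, map_zero])
    (fun u h hh => by
      have : s48wg_chiV A χ ((u * h : (ZMod M)ˣ) : ZMod M) =
          s48wg_chiV A χ ((u : (ZMod M)ˣ) : ZMod M) :=
        Subtype.ext (by
          show χ ((u * h : (ZMod M)ˣ) : ZMod M) = χ ((u : (ZMod M)ˣ) : ZMod M)
          rw [Units.val_mul, map_mul, (s48wg_mem_XH H).mp hχ h hh, mul_one])
      rw [this])

/-- **`hTG` for `X₀`** (`H ≤ H''`). -/
theorem s48wg_rho_X0_mem_GbZ (H H'' : Subgroup (ZMod M)ˣ) (hH : H ≤ H'')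
    (χ : DirichletCharacter Kb M) :
    coeffMap (IsLocalRing.residue ↥A) (s48wg_X0 A H'' χ) ∈
      s48e_GbZ M H (IsLocalRing.ResidueField ↥A) := by
  rw [s48wg_X0_eq, ffb_coeffMap_ofPowerSeries, s48k_tPS_map]
  exact s48wg_tPS_mem_GbZ H
    (fun a : ZMod M => IsLocalRing.residue ↥A (s48wg_f1 A H'' χ a))
    (fun a ha => by rw [s48wg_f1_nonunit A H'' χ ha, map_zero])
    (fun u h hh => by
      rw [s48wg_f1_unit, s48wg_f1_unit, QuotientGroup.mk_mul_of_mem u (hH hh)])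

variable {A} {H' H'' : Subgroup (ZMod M)ˣ} {g : (ZMod M)ˣ} {p : ℕ} {χ : DirichletCharacter Kb M}

/-- **`hTG` for `T_w`** (`H ≤ H'`). -/
theorem s48wg_Layer.rho_Tw_mem_GbZ (hL : s48wg_Layer H' H'' g p χ) (H : Subgroup (ZMod M)ˣ)
    (hH : H ≤ H') (lamA : ↥A)
    (hlam : (lamA : Kb) = χ ((g : (ZMod M)ˣ) : ZMod M) - 1) :
    coeffMap (IsLocalRing.residue ↥A) (hL.Tw lamA hlam) ∈
      s48e_GbZ M H (IsLocalRing.ResidueField ↥A) := by
  rw [s48wg_Layer.Tw, ffb_coeffMap_ofPowerSeries, s48k_tPS_map]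
  exact s48wg_tPS_mem_GbZ H
    (fun a : ZMod M => IsLocalRing.residue ↥A (hL.fW lamA hlam a))
    (fun a ha => by rw [hL.fW_nonunit lamA hlam ha, map_zero])
    (fun u h hh => by rw [hL.fW_mul lamA hlam u h (hH hh)])

/-- **The series data of a wild layer** with the memberships in the canonical ambient field
`s48e_GbZ M H κ` of the bottom subgroup `H ≤ H'`. -/
theorem s48wg_Layer.wild_data_Z (hL : s48wg_Layer H' H'' g p χ) (hM : 1 < M)
    (hneg : (-1 : (ZMod M)ˣ) ∈ H') (H : Subgroup (ZMod M)ˣ) (hH : H ≤ H') (lamA uA : ↥A)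
    (hlam : (lamA : Kb) = χ ((g : (ZMod M)ˣ) : ZMod M) - 1)
    (hpu : ((p : ℕ) : ↥A) = uA * lamA ^ (p - 1)) :
    ∃ T X₀ Y cc : LaurentSeries ↥A,
      s48wg_TA A χ = X₀ + HahnSeries.C lamA * T ∧
      coeffMap A.subtype X₀ ∈ s48k_FH M H'' ∧
      coeffMap A.subtype Y ∈ s48k_FH M H'' ∧
      coeffMap A.subtype Y = s48wf_tq χ ^ p ∧
      Y = (X₀ + HahnSeries.C lamA * T) ^ p ∧
      Y = X₀ ^ p + HahnSeries.C (lamA ^ p) * cc ∧
      coeffMap (IsLocalRing.residue ↥A) Y ≠ 0 ∧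
      coeffMap (IsLocalRing.residue ↥A) T ∈ s48e_GbZ M H (IsLocalRing.ResidueField ↥A) ∧
      coeffMap (IsLocalRing.residue ↥A) X₀ ∈ s48e_GbZ M H (IsLocalRing.ResidueField ↥A) := by
  have hTA := hL.TA_eq lamA hlam
  have hpuS : ((p : ℕ) : LaurentSeries ↥A) =
      HahnSeries.C uA * (HahnSeries.C lamA : LaurentSeries ↥A) ^ (p - 1) := by
    rw [← map_pow, ← map_mul, ← hpu, map_natCast]
  obtain ⟨cc, hcc⟩ := s48wg_exists_cc hL.prime (s48wg_X0 A H'' χ) (hL.Tw lamA hlam)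
    (HahnSeries.C lamA : LaurentSeries ↥A) (HahnSeries.C uA) hpuS
  have hιY : coeffMap A.subtype (s48wg_TA A χ ^ p) = s48wf_tq χ ^ p := by
    rw [map_pow, s48wg_iota_TA]
  refine ⟨hL.Tw lamA hlam, s48wg_X0 A H'' χ, s48wg_TA A χ ^ p, cc, hTA,
    s48wg_iota_X0_mem A H'' χ, ?_, hιY, by rw [hTA], ?_, ?_,
    hL.rho_Tw_mem_GbZ H hH lamA hlam, s48wg_rho_X0_mem_GbZ A H H'' (hH.trans hL.le) χ⟩
  · rw [hιY]
    exact s48wg_tq_pow_mem H'' hM χ ((s48wg_charSet_XH H' hneg).even χ hL.chi_mem) p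
      hL.pow_mem_XH
  · rw [hTA, hcc, map_pow]
  · rw [map_pow]
    exact pow_ne_zero p (s48wg_rho_TA_ne_zero A χ)

end

end Fermat.Agent.Lib.S48
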