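/-
DS-1 (S48), (T-conc) the concrete tower of `F_H` (helper1): **the induction predicate and the concrete TAME
step.**

* `s48a_TowerP M H A H''` : helper6's two induction hypotheses (`s48g_TopIH`, `s48g_FinIH`, GTowerS) for the
  rational model `s48k_FHQ M H''`, base `modularFunctionFieldFull M`, ambient special fibre
  helper8's canonical `s48e_GbZ M H κ_A` (`H` = the BOTTOM subgroup of the tower), for some coordinate `w ≠ 0`;
* `s48a_tame_step_conc` : `P(H' ⊔ ⟨g⟩) ⇒ P(H')` for a prime step of order `r ≠ p`, = ONE call of helper6's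
  `s48g_tame_step` fed with helper5's layer package (`s48wg_Layer`: basis `τ^i`, `τ = t_χ`, integral lift
  `s48wg_TA`, membership in `GbZ`, finite generating set, `hFrac`) and helper3's `s48h_kdiv_layer`.
-/
import Fermat.Agent.Lib.S48.GTowerS
import Fermat.Agent.Lib.S48.WGY
import Fermat.Agent.Lib.S48.WGX
import Fermat.Agent.Lib.S48.HKDivT
import Fermat.Agent.Lib.S48.ATGrp

set_option autoImplicit false
set_option linter.unusedSectionVars false
set_option linter.style.haveILetI false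

noncomputable section

namespace Fermat.Agent.Lib.S48

open ModularCurve HahnSeries AlgebraicCurve IntermediateField Fermat.Agent.Lib.S18
  Fermat.Agent.Lib.FF

local notation "Qbar" => AlgebraicClosure ℚ

variable {M : ℕ} [NeZero M]

/-- **the induction predicate of the concrete tower** (`H` = the bottom subgroup). -/
def s48a_TowerP (M : ℕ) [NeZero M] (H : Subgroup (ZMod M)ˣ) (A : ValuationSubring Qbar)
    (H'' : Subgroup (ZMod M)ˣ) : Prop :=
  ∃ w : ↥(s48k_FH M H''), w ≠ 0 ∧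
    s48g_TopIH A (modularFunctionFieldFull M) (s48e_GbZ M H (IsLocalRing.ResidueField ↥A))
      (s48k_FHQ M H'') w ∧
    s48g_FinIH A (s48k_FHQ M H'') w

set_option synthInstance.maxHeartbeats 400000 in
set_option maxHeartbeats 1600000 in
/-- **the concrete tame step.** -/
theorem s48a_tame_step_conc {N₁ ℓ₀ : ℕ} {H : Subgroup (ZMod M)ˣ} (hL : s48k_Level M N₁ ℓ₀ H)
    {p : ℕ} [Fact p.Prime] (A : ValuationSubring Qbar) (hA : A.LiesOverPrime p)
    {H' : Subgroup (ZMod M)ˣ} (hHH' : H ≤ H') (g : (ZMod M)ˣ) {r : ℕ} (hr : r.Prime)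
    (hg : g ∉ H') (hgr : g ^ r ∈ H') (hpr : p ≠ r)
    (hP : s48a_TowerP M H A (H' ⊔ Subgroup.zpowers g)) : s48a_TowerP M H A H' := by
  classical
  obtain ⟨w, hw0, htop, hfin⟩ := hP
  obtain ⟨χ, hLay⟩ := s48wg_exists_layer H' g r hr hg hgr
  have hM : 1 < M := s48wg_one_lt_of_level H hL
  have hneg : (-1 : (ZMod M)ˣ) ∈ H' := hHH' hL.neg_one
  have hp : p.Prime := Fact.out
  haveI : NeZero r := ⟨hr.ne_zero⟩
  letI alg := s48wg_layerAlgebra hLay.le
  haveI := s48wg_layer_isScalarTower hLay.le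
  haveI := hLay.finiteDimensional hM hneg
  have halg : ∀ a : ↥(s48k_FH M (H' ⊔ Subgroup.zpowers g)),
      ((algebraMap ↥(s48k_FH M (H' ⊔ Subgroup.zpowers g)) ↥(s48k_FH M H') a : ↥(s48k_FH M H')) :
        LaurentSeries Qbar) = (a : LaurentSeries Qbar) := fun a => s48wg_layerAlgebra_coe hLay.le a
  obtain ⟨S₂, hS₂, hS₂mem⟩ := s48wg_exists_finset_gens H'
  have hpr' : ¬ p ∣ r := fun h => hpr ((Nat.prime_dvd_prime_iff_eq hp hr).mp h)
  have hrA : ((r : Qbar))⁻¹ ∈ A := s18x_natCast_inv_mem A hp hA r hpr'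
  have hχH : χ ∈ s48wg_XH H := s48wg_XH_anti H H' hHH' hLay.chi_mem
  have hT2 : coeffMap A.subtype (s48wg_TA A χ) ∈ s48k_FH M H' := by
    rw [s48wg_iota_TA]
    exact s48wg_tq_mem_FH H' χ hLay.chi_mem
  have htau : hLay.tau = (⟨coeffMap A.subtype (s48wg_TA A χ), hT2⟩ : ↥(s48k_FH M H')) :=
    Subtype.ext (s48wg_iota_TA A χ).symm
  have hb : ∀ i : Fin r, hLay.basis hM hneg i =
      (⟨coeffMap A.subtype (s48wg_TA A χ), hT2⟩ : ↥(s48k_FH M H')) ^ (i : ℕ) := by
    intro i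
    rw [hLay.basis_apply hM hneg i, htau]
  have hh : (⟨coeffMap A.subtype (s48wg_TA A χ), hT2⟩ : ↥(s48k_FH M H')) ^ r =
      algebraMap ↥(s48k_FH M (H' ⊔ Subgroup.zpowers g)) ↥(s48k_FH M H') (hLay.h hM hneg) := by
    rw [← htau]
    exact hLay.hpow hM hneg
  have hdiv : ∀ P : Place Qbar ↥(s48k_FH M (H' ⊔ Subgroup.zpowers g)),
      (r : ℤ) ∣ P.ord (hLay.h hM hneg) := fun P =>
    s48h_kdiv_layer hL (hHH'.trans hLay.le) χ ((s48wg_mem_XH H).mp hχH) r (hLay.h hM hneg) rfl P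
  have hres := s48g_tame_step (Gb := s48e_GbZ M H (IsLocalRing.ResidueField ↥A)) hA halg
    (s48k_full_le_FHQ M (H' ⊔ Subgroup.zpowers g))
    (s48wg_FHQ_anti H' (H' ⊔ Subgroup.zpowers g) hLay.le) S₂ hS₂ hS₂mem w hw0 hr hpr' hrA
    (s48wg_TA A χ) hT2 (s48wg_rho_TA_ne_zero A χ) (s48wg_rho_TA_mem_GbZ A H χ hχH)
    (hLay.basis hM hneg) hb (hLay.h hM hneg) hh hdiv
    (fun L₀ _ ϖ hϖ f hf => s48wg_FHK_mem_Frac _ H' f hf) ⟨htop, hfin⟩
  refine ⟨algebraMap ↥(s48k_FH M (H' ⊔ Subgroup.zpowers g)) ↥(s48k_FH M H') w, ?_, hres.1, hres.2⟩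
  exact (map_ne_zero_iff _ (algebraMap ↥(s48k_FH M (H' ⊔ Subgroup.zpowers g))
    ↥(s48k_FH M H')).injective).mpr hw0

end Fermat.Agent.Lib.S48
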