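/-
DS-1 (S48), wall [T7] (helper7, prefix `s48d_`): **from helper6's finite-level packages to Theorem X and torsion
injectivity** for a base-changed `ℚ`-model `F = laurentBaseChange ℚ̄ F₀`.

* `s48d_FinLevels F₀ A Lmin`        : helper6's `s48g_FinPack2` (GFinQ) at every number field `L₀ ⊇ Lmin`;
* `s48d_kummerTrivial_of_finPack2`  : `s48d_FinLevels` + constants ⇒ `s48d_KummerTrivial A π F Fb m` for every `m`
                                      prime to the residue characteristic (DBaseMin ∘ `s48g_geoInputs_of_finPack2`);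
* `s48d_torsion_injective_of_finPack2` : + place reduction etc. ⇒ `s48e_redPic0` injective on `m`-torsion.
-/
import Fermat.Agent.Lib.S48.DBaseMin
import Fermat.Agent.Lib.S48.GFinQ

set_option autoImplicit false
set_option linter.unusedSectionVars false
set_option linter.style.haveILetI false

noncomputable section

namespace Fermat.Agent.Lib.S48

open AlgebraicCurve ModularCurve HahnSeries Fermat.Agent.Lib.FF Fermat.Agent.Lib.S18

local notation "Qbar" => AlgebraicClosure ℚ

set_option synthInstance.maxHeartbeats 400000 in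
/-- **the finite-level packages at all number fields `L₀ ⊇ Lmin`** (helper6's `s48g_FinPack2`). -/
def s48d_FinLevels (F₀ : IntermediateField ℚ (LaurentSeries ℚ)) (A : ValuationSubring Qbar)
    (Lmin : IntermediateField ℚ Qbar) : Prop :=
  ∀ (L₀ : IntermediateField ℚ Qbar) (_ : FiniteDimensional ℚ L₀ ∧ Lmin ≤ L₀)
    [IsDiscreteValuationRing ↥(A.comap (algebraMap ↥L₀ Qbar))]
    (ϖ : ↥(A.comap (algebraMap ↥L₀ Qbar))) (hϖ : Irreducible ϖ),
    ∃ (hFrac : ∀ f ∈ laurentBaseChange ↥L₀ F₀,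
        f ∈ s18g_Frac (s18g_GaussData.ofResidue (A.comap (algebraMap ↥L₀ Qbar)) ϖ hϖ))
      (w : ↥(laurentBaseChange ↥L₀ F₀)) (_ : FFGen ↥L₀ w), w ≠ 0 ∧
      s48g_FinPack2 (s18g_GaussData.ofResidue (A.comap (algebraMap ↥L₀ Qbar)) ϖ hϖ)
        (laurentBaseChange ↥L₀ F₀) hFrac w

set_option synthInstance.maxHeartbeats 400000 in
/-- **Theorem X from the finite-level packages.** -/
theorem s48d_kummerTrivial_of_finPack2 (F₀ : IntermediateField ℚ (LaurentSeries ℚ))
    (A : ValuationSubring Qbar) {p : ℕ} [Fact p.Prime] (hA : A.LiesOverPrime p) (m : ℕ)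
    (hm : ¬ p ∣ m)
    (Fb : IntermediateField (IsLocalRing.ResidueField A) (LaurentSeries (IsLocalRing.ResidueField A)))
    (hconst : ∀ g : ↥(laurentBaseChange Qbar F₀),
      (∀ P : Place Qbar ↥(laurentBaseChange Qbar F₀), P.ord g ≤ 0) →
        ∃ c : Qbar, g = algebraMap Qbar ↥(laurentBaseChange Qbar F₀) c)
    (Lmin : IntermediateField ℚ Qbar) [FiniteDimensional ℚ Lmin]
    (hfin : s48d_FinLevels F₀ A Lmin) :
    s48d_KummerTrivial A (IsLocalRing.residue A) (laurentBaseChange Qbar F₀) Fb m := by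
  have hp : p.Prime := Fact.out
  have hm0 : m ≠ 0 := by
    rintro rfl
    exact hm (dvd_zero p)
  refine s48d_kummerTrivial_baseChange_min F₀ A hA m hm Fb hconst Lmin ?_
  intro L₀ hL _ ϖ hϖ
  obtain ⟨hFrac, w, hw, hw0, hP⟩ := hfin L₀ hL ϖ hϖ
  haveI := hw
  have hmA : ((m : ↥L₀))⁻¹ ∈
      (s18g_GaussData.ofResidue (A.comap (algebraMap ↥L₀ Qbar)) ϖ hϖ).A := by
    show ((m : ↥L₀))⁻¹ ∈ A.comap (algebraMap ↥L₀ Qbar)
    rw [ValuationSubring.mem_comap, map_inv₀, map_natCast]
    exact s18x_natCast_inv_mem A hp hA m hm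
  haveI : IsDiscreteValuationRing
      ↥(s18g_GaussData.ofResidue (A.comap (algebraMap ↥L₀ Qbar)) ϖ hϖ).A :=
    (inferInstance : IsDiscreteValuationRing ↥(A.comap (algebraMap ↥L₀ Qbar)))
  exact ⟨hFrac, w, s48g_geoInputs_of_finPack2 _ (laurentBaseChange ↥L₀ F₀) hFrac w hw0 hP m hm0 hmA⟩

set_option synthInstance.maxHeartbeats 400000 in
/-- **torsion injectivity from the finite-level packages.** -/
theorem s48d_torsion_injective_of_finPack2 (F₀ : IntermediateField ℚ (LaurentSeries ℚ))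
    (A : ValuationSubring Qbar) {p : ℕ} [Fact p.Prime] (hA : A.LiesOverPrime p) (m : ℕ)
    (hm : ¬ p ∣ m)
    (Fb : IntermediateField (IsLocalRing.ResidueField A) (LaurentSeries (IsLocalRing.ResidueField A)))
    {r : Place Qbar ↥(laurentBaseChange Qbar F₀) → Place (IsLocalRing.ResidueField A) ↥Fb}
    (hr : s48e_IsPlaceRed A (IsLocalRing.residue A) (laurentBaseChange Qbar F₀) Fb r)
    (hgen : s48e_PrinGen A (IsLocalRing.residue A) (laurentBaseChange Qbar F₀) Fb)
    (hlift : s48d_LiftDiv A (IsLocalRing.residue A) (laurentBaseChange Qbar F₀) Fb)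
    (hC : s48d_ConstFb Fb)
    (hconst : ∀ g : ↥(laurentBaseChange Qbar F₀),
      (∀ P : Place Qbar ↥(laurentBaseChange Qbar F₀), P.ord g ≤ 0) →
        ∃ c : Qbar, g = algebraMap Qbar ↥(laurentBaseChange Qbar F₀) c)
    (Lmin : IntermediateField ℚ Qbar) [FiniteDimensional ℚ Lmin]
    (hfin : s48d_FinLevels F₀ A Lmin)
    (z : Pic0 Qbar ↥(laurentBaseChange Qbar F₀)) (hmz : m • z = 0)
    (hz : s48e_redPic0 r hr hgen z = 0) : z = 0 := by
  have hm0 : m ≠ 0 := by
    rintro rfl
    exact hm (dvd_zero p)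
  exact s48d_main IsLocalRing.residue_surjective hr hgen hlift m hm0
    (s48d_kummerTrivial_of_finPack2 F₀ A hA m hm Fb hconst Lmin hfin) hC z hmz hz

end Fermat.Agent.Lib.S48
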