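/-
DS-1 (S48), wall [T7] (helper7, prefix `s48d_`): **the reduction inputs of [T8] from the top package and the finite
packages** of a base-changed `ℚ`-model `F = laurentBaseChange ℚ̄ F₀` (e.g. `F₀ = s48k_FHQ M H`).

`s48d_redInputs_core`: the q-model package `Q` of `(F, Fb)`, helper6's chart packages of `(s48d_qO Q, s48d_qRed Q)` for
`w`, `w'` (`w w' = 1`), a separating generator `xb` of the special fibre, and helper6's finite-level packages at all
number fields `L₀ ⊇ Lmin`  ⇒  a place reduction `r` with `s48e_IsPlaceRed`, `s48e_PrinGen`, three places with distinct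
reductions, injectivity of `s48e_redPic0` on `ℓ`-torsion (`p ∤ ℓ`), and `s48e_PrinGenOn S` for every class `S` with
(Q3′) — i.e. the body of helper8's `s48e_RedInputs` except `s48e_CoeffStable Fb` and `s48e_RedCompatOn`.
-/
import Fermat.Agent.Lib.S48.DRed
import Fermat.Agent.Lib.S48.DQTop
import Fermat.Agent.Lib.S48.DQOn
import Fermat.Agent.Lib.S48.GTwo
import Fermat.Agent.Lib.S18.NResidue

set_option autoImplicit false
set_option linter.unusedSectionVars false
set_option linter.style.haveILetI false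

noncomputable section

namespace Fermat.Agent.Lib.S48

open AlgebraicCurve ModularCurve HahnSeries IntermediateField Fermat.Agent.Lib.FF Fermat.Agent.Lib.S18
  Fermat.Agent.Lib.S37

local notation "Qbar" => AlgebraicClosure ℚ

set_option synthInstance.maxHeartbeats 400000 in
set_option maxHeartbeats 800000 in
/-- **the reduction inputs of [T8]** (body of helper8's `s48e_RedInputs`, except `s48e_CoeffStable` and
`s48e_RedCompatOn`). -/
theorem s48d_redInputs_core (F₀ : IntermediateField ℚ (LaurentSeries ℚ))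
    (A : ValuationSubring Qbar) {p : ℕ} [Fact p.Prime] (hA : A.LiesOverPrime p) (ℓ : ℕ)
    (hℓ : ¬ p ∣ ℓ)
    (Fb : IntermediateField (IsLocalRing.ResidueField A) (LaurentSeries (IsLocalRing.ResidueField A)))
    (Q : s48d_QPack A (IsLocalRing.residue A) (laurentBaseChange Qbar F₀) Fb)
    {x : ↥(laurentBaseChange Qbar F₀)} [FFGen Qbar x] {w w' : ↥(laurentBaseChange Qbar F₀)}
    (hww : w * w' = 1)
    (hP : s48g_ChartPack x A (IsLocalRing.residue A) (s48d_qO Q) (s48d_qRed Q) w)
    (hP' : s48g_ChartPack x A (IsLocalRing.residue A) (s48d_qO Q) (s48d_qRed Q) w')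
    (xb : ↥Fb) [FFGen (IsLocalRing.ResidueField A) xb]
    [Algebra.IsSeparable (IsLocalRing.ResidueField A)⟮xb⟯ ↥Fb]
    (Lmin : IntermediateField ℚ Qbar) [FiniteDimensional ℚ Lmin]
    (hfin : s48d_FinLevels F₀ A Lmin) :
    ∃ (r : Place Qbar ↥(laurentBaseChange Qbar F₀) → Place (IsLocalRing.ResidueField A) ↥Fb)
      (hr : s48e_IsPlaceRed A (IsLocalRing.residue A) (laurentBaseChange Qbar F₀) Fb r)
      (hgen : s48e_PrinGen A (IsLocalRing.residue A) (laurentBaseChange Qbar F₀) Fb),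
      (∃ P₁ P₂ P₃, r P₁ ≠ r P₂ ∧ r P₁ ≠ r P₃ ∧ r P₂ ≠ r P₃) ∧
      (∀ z : Pic0 Qbar ↥(laurentBaseChange Qbar F₀),
        (ℓ : ℤ) • z = 0 → s48e_redPic0 r hr hgen z = 0 → z = 0) ∧
      ∀ S : LaurentSeries ↥A → Prop,
        s48d_QPresOn A (IsLocalRing.residue A) (laurentBaseChange Qbar F₀) Fb S →
          s48e_PrinGenOn A (IsLocalRing.residue A) (laurentBaseChange Qbar F₀) Fb S := by
  haveI : IsAlgClosed (IsLocalRing.ResidueField ↥A) := s18n_isAlgClosed_residueField A
  obtain rfl : w' = w⁻¹ := eq_inv_of_mul_eq_one_right hww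
  obtain ⟨D₁, i1, i2, i3, i4, i5, i6, Psi₁, h₁⟩ := hP
  obtain ⟨D₂, j1, j2, j3, j4, j5, j6, Psi₂, h₂⟩ := hP'
  obtain ⟨hr, hgen, h3, hlift, hC, hconst⟩ := s48d_q_of_charts Q h₁ h₂ xb
  refine ⟨s37r_r h₁ h₂, hr, hgen, h3, ?_, ?_⟩
  · intro z hz hred
    have hz' : ℓ • z = 0 := by
      rw [← natCast_zsmul]
      exact hz
    exact s48d_torsion_injective_of_finPack2 F₀ A hA ℓ hℓ Fb hr hgen hlift hC hconst Lmin hfin z
      hz' hred
  · intro S hS
    exact s48d_q_prinGenOn Q hS h₁.fin

end Fermat.Agent.Lib.S48
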