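/-
S48 (Deligne–Serre), wall [T8] (helper8): the GALOIS SIDE of `KIfaceH.s48k_S37IntH` for helper4's rational model
`s48k_FH M H = laurentBaseChange ℚ̄ (ℚ(j(q^d), s_u))`.

* `s48e_FH_algHom_ext` : a `ℚ̄`-algebra map out of `F_H` is determined on `F̄₀(M) ∩ F_H` and the `s̄_u`;
* `s48e_commD` : **`commD` UNCONDITIONALLY** (Galois commutes with the diamond operators on `J_H`);
* `s48e_openStab` : **`openStab`** given `HasPrincipalDivisors`.
-/
import Fermat.Agent.Lib.S48.EIntA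
import Fermat.Agent.Lib.S48.KIfaceH

set_option autoImplicit false
set_option linter.style.haveILetI false
set_option linter.unusedSectionVars false

noncomputable section

open AlgebraicCurve ModularCurve HahnSeries IntermediateField

namespace Fermat.Agent.Lib.S48

local notation "Qbar" => AlgebraicClosure ℚ

section Ext

variable (M : ℕ) (H : Subgroup (ZMod M)ˣ)

/-- the coefficientwise embedding `F_{H,ℚ} → F_H`. -/
def s48e_iotaH : ↥(s48k_FHQ M H) →+* ↥(s48k_FH M H) where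
  toFun z := ⟨coeffEmb Qbar (z : LaurentSeries ℚ), coeffEmb_mem_laurentBaseChange Qbar z.2⟩
  map_one' := Subtype.ext (map_one (coeffEmb Qbar))
  map_mul' _ _ := Subtype.ext (map_mul (coeffEmb Qbar) _ _)
  map_zero' := Subtype.ext (map_zero (coeffEmb Qbar))
  map_add' _ _ := Subtype.ext (map_add (coeffEmb Qbar) _ _)

theorem s48e_coe_iotaH (z : ↥(s48k_FHQ M H)) :
    ((s48e_iotaH M H z : ↥(s48k_FH M H)) : LaurentSeries Qbar) =
      coeffEmb Qbar (z : LaurentSeries ℚ) := rfl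

theorem s48e_divExp_mem_FHQ {z : LaurentSeries ℚ} (hz : z ∈ divisorExpansions M) :
    z ∈ s48k_FHQ M H :=
  IntermediateField.subset_adjoin ℚ _ (Or.inl hz)

/-- **extensionality on `F_H`**: ring homomorphisms out of `F_{H,ℚ}` agreeing on the generators are equal. -/
theorem s48e_FHQ_ringHom_ext {R : Type*} [DivisionRing R] [CharZero R]
    {ψ₁ ψ₂ : ↥(s48k_FHQ M H) →+* R}
    (h0 : ∀ (z : LaurentSeries ℚ) (hz : z ∈ divisorExpansions M),
      ψ₁ ⟨z, s48e_divExp_mem_FHQ M H hz⟩ = ψ₂ ⟨z, s48e_divExp_mem_FHQ M H hz⟩)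
    (hs : ∀ u : (ZMod M)ˣ, ψ₁ ⟨s48k_sQ M H u, s48k_sQ_mem M H u⟩ =
      ψ₂ ⟨s48k_sQ M H u, s48k_sQ_mem M H u⟩) : ψ₁ = ψ₂ := by
  have key : ∀ (z : LaurentSeries ℚ) (hz : z ∈ IntermediateField.adjoin ℚ
      (divisorExpansions M ∪ Set.range (s48k_sQ M H))), ψ₁ ⟨z, hz⟩ = ψ₂ ⟨z, hz⟩ := by
    intro z hz
    induction hz using IntermediateField.adjoin_induction with
    | mem x hx =>
      rcases hx with hx | ⟨u, rfl⟩
      · exact h0 x hx
      · exact hs u
    | algebraMap q =>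
      have e : (⟨algebraMap ℚ (LaurentSeries ℚ) q, IntermediateField.algebraMap_mem _ q⟩ :
          ↥(s48k_FHQ M H)) = ((q : ℚ) : ↥(s48k_FHQ M H)) :=
        Subtype.ext (eq_ratCast (algebraMap ℚ (LaurentSeries ℚ)) q)
      exact (congrArg ψ₁ e).trans ((map_ratCast ψ₁ q).trans
        ((map_ratCast ψ₂ q).symm.trans (congrArg ψ₂ e).symm))
    | add x y hx hy ihx ihy =>
      have e : (⟨x + y, add_mem hx hy⟩ : ↥(s48k_FHQ M H)) = ⟨x, hx⟩ + ⟨y, hy⟩ := rfl
      exact (congrArg ψ₁ e).trans ((map_add ψ₁ _ _).trans ((congrArg₂ (· + ·) ihx ihy).trans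
        ((map_add ψ₂ _ _).symm.trans (congrArg ψ₂ e).symm)))
    | inv x hx ih =>
      have e : (⟨x⁻¹, inv_mem hx⟩ : ↥(s48k_FHQ M H)) = (⟨x, hx⟩ : ↥(s48k_FHQ M H))⁻¹ := rfl
      exact (congrArg ψ₁ e).trans ((map_inv₀ ψ₁ _).trans ((congrArg (·⁻¹) ih).trans
        ((map_inv₀ ψ₂ _).symm.trans (congrArg ψ₂ e).symm)))
    | mul x y hx hy ihx ihy =>
      have e : (⟨x * y, mul_mem hx hy⟩ : ↥(s48k_FHQ M H)) = ⟨x, hx⟩ * ⟨y, hy⟩ := rfl
      exact (congrArg ψ₁ e).trans ((map_mul ψ₁ _ _).trans ((congrArg₂ (· * ·) ihx ihy).trans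
        ((map_mul ψ₂ _ _).symm.trans (congrArg ψ₂ e).symm)))
  ext ⟨z, hz⟩
  exact key z hz

/-- **extensionality on `F_H`**: `ℚ̄`-algebra maps out of `F_H` agreeing on `F̄₀(M)` and on the `s̄_u` are equal. -/
theorem s48e_FH_algHom_ext {R : Type*} [DivisionRing R] [CharZero R] [Algebra Qbar R]
    {φ₁ φ₂ : ↥(s48k_FH M H) →ₐ[Qbar] R}
    (h0 : ∀ x : ↥(s48k_FH M H), (x : LaurentSeries Qbar) ∈ modularFunctionFieldBar M →
      φ₁ x = φ₂ x)
    (hs : ∀ u : (ZMod M)ˣ, φ₁ (s48k_sBar M H u) = φ₂ (s48k_sBar M H u)) : φ₁ = φ₂ := by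
  have hι : (φ₁ : ↥(s48k_FH M H) →+* R).comp (s48e_iotaH M H) =
      (φ₂ : ↥(s48k_FH M H) →+* R).comp (s48e_iotaH M H) := by
    refine s48e_FHQ_ringHom_ext M H (fun z hz => ?_) (fun u => hs u)
    refine h0 _ ?_
    exact coeffEmb_mem_laurentBaseChange Qbar (IntermediateField.subset_adjoin ℚ _ hz)
  refine IntermediateField.algHom_ext_of_eq_adjoin (F := Qbar) (K := R) (S := s48k_FH M H)
    (s := ⇑(coeffEmb Qbar) '' ((s48k_FHQ M H : IntermediateField ℚ (LaurentSeries ℚ)) :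
      Set (LaurentSeries ℚ))) rfl ?_
  rintro x ⟨z, hz, rfl⟩
  exact congrArg (fun f => f ⟨z, hz⟩) hι

end Ext

/-! ### `commD` -/

section CommD

variable (M : ℕ) (H : Subgroup (ZMod M)ˣ)

theorem s48e_gal_smul_sBar (σ : s48k_G) (u : (ZMod M)ˣ) :
    arithmeticGalois (s48k_FHQ M H) σ • s48k_sBar M H u = s48k_sBar M H u :=
  Subtype.ext (coeffMap_coeffEmb σ _)

theorem s48e_gal_smul_mem_bar (σ : s48k_G) (x : ↥(s48k_FH M H))
    (hx : (x : LaurentSeries Qbar) ∈ modularFunctionFieldBar M) :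
    ((arithmeticGalois (s48k_FHQ M H) σ • x : ↥(s48k_FH M H)) : LaurentSeries Qbar) ∈
      modularFunctionFieldBar M :=
  coeffMap_mem_laurentBaseChange σ hx

/-- the conjugate `S⁻¹ ∘ e ∘ S` of a `ℚ̄`-automorphism by the Galois action, as a `ℚ̄`-algebra map. -/
def s48e_conjAlgHom (σ : s48k_G) (e : ↥(s48k_FH M H) ≃ₐ[Qbar] ↥(s48k_FH M H)) :
    ↥(s48k_FH M H) →ₐ[Qbar] ↥(s48k_FH M H) :=
  { ((SemilinearAut.toRingAut (arithmeticGalois (s48k_FHQ M H) σ)).symm :
        ↥(s48k_FH M H) →+* ↥(s48k_FH M H)).comp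
      (((e : ↥(s48k_FH M H) ≃+* ↥(s48k_FH M H)) : ↥(s48k_FH M H) →+* ↥(s48k_FH M H)).comp
        ((SemilinearAut.toRingAut (arithmeticGalois (s48k_FHQ M H) σ)) :
          ↥(s48k_FH M H) →+* ↥(s48k_FH M H))) with
    commutes' := fun a => by
      show (arithmeticGalois (s48k_FHQ M H) σ)⁻¹ •
        e (arithmeticGalois (s48k_FHQ M H) σ • algebraMap Qbar ↥(s48k_FH M H) a) =
          algebraMap Qbar ↥(s48k_FH M H) a
      rw [SemilinearAut.smul_algebraMap, AlgEquiv.commutes, SemilinearAut.smul_algebraMap,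
        SemilinearAut.baseAut_inv, RingEquiv.symm_apply_apply] }

theorem s48e_conjAlgHom_apply (σ : s48k_G) (e : ↥(s48k_FH M H) ≃ₐ[Qbar] ↥(s48k_FH M H))
    (x : ↥(s48k_FH M H)) :
    s48e_conjAlgHom M H σ e x =
      (arithmeticGalois (s48k_FHQ M H) σ)⁻¹ • e (arithmeticGalois (s48k_FHQ M H) σ • x) := rfl

/-- a diamond automorphism commutes with the Galois action. -/
theorem s48e_isDiamondAut_comm {d : (ZMod M)ˣ} {e : ↥(s48k_FH M H) ≃ₐ[Qbar] ↥(s48k_FH M H)}
    (he : s48k_IsDiamondAut M H d e) (σ : s48k_G) (x : ↥(s48k_FH M H)) :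
    arithmeticGalois (s48k_FHQ M H) σ • e x = e (arithmeticGalois (s48k_FHQ M H) σ • x) := by
  have h : s48e_conjAlgHom M H σ e = (e : ↥(s48k_FH M H) →ₐ[Qbar] ↥(s48k_FH M H)) := by
    refine s48e_FH_algHom_ext M H (fun y hy => ?_) (fun u => ?_)
    · rw [s48e_conjAlgHom_apply, he.1 _ (s48e_gal_smul_mem_bar M H σ y hy), inv_smul_smul]
      exact (he.1 y hy).symm
    · rw [s48e_conjAlgHom_apply, s48e_gal_smul_sBar, AlgEquiv.coe_toAlgHom, he.2 u]
      have h2 := s48e_gal_smul_sBar M H σ (u * d⁻¹)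
      rw [← h2, inv_smul_smul, h2]
  have h1 := congrArg (fun f => f x) h
  simp only [s48e_conjAlgHom_apply, AlgEquiv.coe_toAlgHom] at h1
  rw [← h1, smul_inv_smul]

/-- the chosen diamond automorphism commutes with the Galois action (in both cases of its definition). -/
theorem s48e_diamondAut_comm (d : (ZMod M)ˣ) (σ : s48k_G) (x : ↥(s48k_FH M H)) :
    arithmeticGalois (s48k_FHQ M H) σ • s48k_diamondAut M H d x =
      s48k_diamondAut M H d (arithmeticGalois (s48k_FHQ M H) σ • x) := by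
  rcases Classical.em (∃ e, s48k_IsDiamondAut M H d e) with h | h
  · have e1 : s48k_diamondAut M H d = h.choose := by
      unfold s48k_diamondAut
      exact dif_pos h
    rw [e1]
    exact s48e_isDiamondAut_comm M H h.choose_spec σ x
  · have e1 : s48k_diamondAut M H d = AlgEquiv.refl := by
      unfold s48k_diamondAut
      exact dif_neg h
    rw [e1]
    rfl

/-- … as an identity in the group of semilinear automorphisms. -/
theorem s48e_diamondAut_comm_mul (d : (ZMod M)ˣ) (σ : s48k_G) :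
    arithmeticGalois (s48k_FHQ M H) σ * SemilinearAut.ofAlgAut (s48k_diamondAut M H d) =
      SemilinearAut.ofAlgAut (s48k_diamondAut M H d) * arithmeticGalois (s48k_FHQ M H) σ := by
  refine Subtype.ext (Prod.ext (RingEquiv.ext fun x => ?_) ?_)
  · exact s48e_diamondAut_comm M H d σ x
  · show SemilinearAut.baseAut (arithmeticGalois (s48k_FHQ M H) σ) * 1 =
      1 * SemilinearAut.baseAut (arithmeticGalois (s48k_FHQ M H) σ)
    rw [mul_one, one_mul]

/-- **`commD`: Galois commutes with the diamond operators on `J_H`** (unconditionally). -/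
theorem s48e_commD (d : (ZMod M)ˣ) (σ : s48k_G) (x : s48k_JH M H) :
    σ • s48k_diamondJ M H d x = s48k_diamondJ M H d (σ • x) := by
  rw [s48k_diamondJ_apply, s48k_diamondJ_apply, galois_smul_pic0_def, galois_smul_pic0_def,
    smul_smul, smul_smul, s48e_diamondAut_comm_mul]

end CommD

end Fermat.Agent.Lib.S48
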