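/-
S48 (Deligne–Serre), wall [T8] (helper8): `KIfaceH.s48k_S37IntH`, part 2.

* `s48e_openStab`   : `openStab` from `HasPrincipalDivisors` of `F_H`;
* `s48e_heckeFF_smul`, `s48e_commT` : **`commT`** (Galois commutes with `T_p` on `J_H`), given only `deg P ≠ 0` for the places
  of `F_H` (landed generic `s29g_pic0_correspondence_smul` + `commD`);
* `s48e_diamondAut_inv` : `diamondAut d⁻¹ = (diamondAut d)⁻¹` when both exist.
-/
import Fermat.Agent.Lib.S48.EIntH
import Fermat.Agent.Lib.S29.GSHecke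

set_option autoImplicit false
set_option linter.style.haveILetI false
set_option linter.unusedSectionVars false

noncomputable section

open AlgebraicCurve ModularCurve HahnSeries IntermediateField Fermat.Agent.Lib.S29
  Fermat.Agent.Lib.S18

namespace Fermat.Agent.Lib.S48

local notation "Qbar" => AlgebraicClosure ℚ

section OpenStab

variable (M : ℕ) (H : Subgroup (ZMod M)ˣ)

/-- **`openStab`** for `J_H`. -/
theorem s48e_openStab [HasPrincipalDivisors Qbar ↥(s48k_FH M H)] (x : s48k_JH M H) :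
    ∃ L : IntermediateField ℚ Qbar, FiniteDimensional ℚ ↥L ∧
      ∀ σ : s48k_G, (∀ y ∈ L, σ y = y) → σ • x = x :=
  s48e_exists_level_pic0 (s48k_FHQ M H) x

end OpenStab

section CommT

variable (M : ℕ) (H : Subgroup (ZMod M)ˣ) (p : ℕ) [NeZero p]

/-- `α` intertwines the arithmetic Galois actions. -/
theorem s48e_alphaH_intertwines (σ : s48k_G) :
    SemilinearAut.IntertwinesAlong
      ((s48k_heckeAlphaH M H p : _ →ₐ[Qbar] _) :
        ↥(s48k_FH M H) →+* ↥(laurentBaseChange Qbar (s48k_FHQp M H p)))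
      (arithmeticGalois (s48k_FHQ M H) σ) (arithmeticGalois (s48k_FHQp M H p) σ) := by
  intro x
  apply Subtype.ext
  show ((arithmeticGalois (s48k_FHQp M H p) σ • (s48k_heckeAlphaH M H p x) :
      ↥(laurentBaseChange Qbar (s48k_FHQp M H p))) : LaurentSeries Qbar) =
    ((s48k_heckeAlphaH M H p (arithmeticGalois (s48k_FHQ M H) σ • x) :
      ↥(laurentBaseChange Qbar (s48k_FHQp M H p))) : LaurentSeries Qbar)
  rw [coe_arithmeticGalois_smul, s48k_coe_heckeAlphaH, s48k_coe_heckeAlphaH,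
    coe_arithmeticGalois_smul]

/-- `β` intertwines the arithmetic Galois actions. -/
theorem s48e_betaH_intertwines (σ : s48k_G) :
    SemilinearAut.IntertwinesAlong
      ((s48k_heckeBetaH M H p : _ →ₐ[Qbar] _) :
        ↥(s48k_FH M H) →+* ↥(laurentBaseChange Qbar (s48k_FHQp M H p)))
      (arithmeticGalois (s48k_FHQ M H) σ) (arithmeticGalois (s48k_FHQp M H p) σ) := by
  intro x
  apply Subtype.ext
  show ((arithmeticGalois (s48k_FHQp M H p) σ • (s48k_heckeBetaH M H p x) :
      ↥(laurentBaseChange Qbar (s48k_FHQp M H p))) : LaurentSeries Qbar) =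
    ((s48k_heckeBetaH M H p (arithmeticGalois (s48k_FHQ M H) σ • x) :
      ↥(laurentBaseChange Qbar (s48k_FHQp M H p))) : LaurentSeries Qbar)
  rw [coe_arithmeticGalois_smul, s48k_coe_heckeBetaH, s48k_coe_heckeBetaH,
    coe_arithmeticGalois_smul, s18u_coeffMap_qExpand]

/-- **Galois commutes with `α_* β^*` on `J_H`.** -/
theorem s48e_heckeFF_smul (hdeg : ∀ v : Place Qbar ↥(s48k_FH M H), v.deg ≠ 0)
    (σ : s48k_G) (x : s48k_JH M H) :
    s48k_heckeFF M H p (σ • x) = σ • s48k_heckeFF M H p x := by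
  rcases Classical.em (s48k_HeckeInputsH M H p) with h | h
  · haveI := h.snd.snd.fst
    have e1 : s48k_heckeFF M H p =
        Pic0.correspondence (s48k_heckeBetaH M H p) (s48k_heckeAlphaH M H p) h.snd.fst h.fst
          h.snd.snd.snd.snd.1 h.snd.snd.snd.fst h.snd.snd.snd.snd.2 := by
      unfold s48k_heckeFF
      exact dif_pos h
    rw [e1, galois_smul_pic0_def, galois_smul_pic0_def]
    exact s29g_pic0_correspondence_smul _ _ _ _ _ _ _ _
      (arithmeticGalois (s48k_FHQp M H p) σ)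
      (s48e_betaH_intertwines M H p σ) (s48e_alphaH_intertwines M H p σ) hdeg x
  · have e1 : s48k_heckeFF M H p = 0 := by
      unfold s48k_heckeFF
      exact dif_neg h
    rw [e1, AddMonoidHom.zero_apply, AddMonoidHom.zero_apply, smul_zero]

/-- **`commT`**: Galois commutes with the classical `T_p` on `J_H`. -/
theorem s48e_commT (hdeg : ∀ v : Place Qbar ↥(s48k_FH M H), v.deg ≠ 0) (pu : (ZMod M)ˣ)
    (σ : s48k_G) (x : s48k_JH M H) :
    σ • s48k_TpJ M H p pu x = s48k_TpJ M H p pu (σ • x) := by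
  show σ • s48k_heckeFF M H p (s48k_diamondJ M H pu x) =
    s48k_heckeFF M H p (s48k_diamondJ M H pu (σ • x))
  rw [← s48e_commD, s48e_heckeFF_smul M H p hdeg]

end CommT

section DiamondInv

variable (M : ℕ) (H : Subgroup (ZMod M)ˣ)

/-- diamond automorphisms are unique. -/
theorem s48e_isDiamondAut_unique {d : (ZMod M)ˣ}
    {e e' : ↥(s48k_FH M H) ≃ₐ[Qbar] ↥(s48k_FH M H)}
    (he : s48k_IsDiamondAut M H d e) (he' : s48k_IsDiamondAut M H d e') : e = e' := by
  have h : (e : ↥(s48k_FH M H) →ₐ[Qbar] ↥(s48k_FH M H)) = e' :=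
    s48e_FH_algHom_ext M H (fun y hy => by
      rw [AlgEquiv.coe_toAlgHom, AlgEquiv.coe_toAlgHom, he.1 y hy, he'.1 y hy])
      (fun u => by rw [AlgEquiv.coe_toAlgHom, AlgEquiv.coe_toAlgHom, he.2 u, he'.2 u])
  exact AlgEquiv.ext fun x => congrArg (fun f => f x) h

theorem s48e_isDiamondAut_symm {d : (ZMod M)ˣ} {e : ↥(s48k_FH M H) ≃ₐ[Qbar] ↥(s48k_FH M H)}
    (he : s48k_IsDiamondAut M H d e) : s48k_IsDiamondAut M H d⁻¹ e.symm := by
  refine ⟨fun y hy => ?_, fun u => ?_⟩
  · rw [AlgEquiv.symm_apply_eq, he.1 y hy]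
  · rw [AlgEquiv.symm_apply_eq, he.2, inv_inv, mul_inv_cancel_right]

theorem s48e_diamondAut_spec {d : (ZMod M)ˣ} (h : ∃ e, s48k_IsDiamondAut M H d e) :
    s48k_IsDiamondAut M H d (s48k_diamondAut M H d) := by
  have e1 : s48k_diamondAut M H d = h.choose := by
    unfold s48k_diamondAut
    exact dif_pos h
  rw [e1]
  exact h.choose_spec

/-- `⟨d⁻¹⟩ = ⟨d⟩⁻¹` on `F_H` (when `⟨d⟩` exists). -/
theorem s48e_diamondAut_inv {d : (ZMod M)ˣ} (h : ∃ e, s48k_IsDiamondAut M H d e) :
    s48k_diamondAut M H d⁻¹ = (s48k_diamondAut M H d).symm := by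
  have h1 := s48e_isDiamondAut_symm M H (s48e_diamondAut_spec M H h)
  exact s48e_isDiamondAut_unique M H (s48e_diamondAut_spec M H ⟨_, h1⟩) h1

theorem s48e_ofAlgAut_diamondAut_inv {d : (ZMod M)ˣ} (h : ∃ e, s48k_IsDiamondAut M H d e) :
    (SemilinearAut.ofAlgAut (s48k_diamondAut M H d⁻¹))⁻¹ =
      SemilinearAut.ofAlgAut (s48k_diamondAut M H d) := by
  rw [s48e_diamondAut_inv M H h, ← map_inv]
  rfl

end DiamondInv

end Fermat.Agent.Lib.S48
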