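/-
S48 (Deligne–Serre), wall [T8] (helper8): `s48e_RedCompatQ` for the DIAMOND automorphisms of helper4's model `s48k_FH M H`
from the integrality of its Gauss ring over the Gauss ring of `F̄₀(M) = modularFunctionFieldBar M` (`s48e_IntOver`, proved
layer by layer along the tower with `s48e_intOver_of_layer`, `s48e_intOver_trans`) and the three soft fields
`val`/`pres`/`surj` of helper7's `s48d_QPack` (in the language of `s48e_gaussF`, `s48e_gaussRed`).
-/
import Fermat.Agent.Lib.S48.EIntH2
import Fermat.Agent.Lib.S48.EGenQInt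

set_option autoImplicit false
set_option linter.style.haveILetI false
set_option linter.unusedSectionVars false

noncomputable section

open AlgebraicCurve ModularCurve HahnSeries IntermediateField
open Fermat.Agent.Lib.S37

namespace Fermat.Agent.Lib.S48

local notation "Qbar" => AlgebraicClosure ℚ

/-- `s48k_diamondAut` fixes `F̄₀(M)` pointwise (whether or not the diamond automorphism exists). -/
theorem s48e_diamondAut_fixes (M : ℕ) (H : Subgroup (ZMod M)ˣ) (d : (ZMod M)ˣ)
    (x : ↥(s48k_FH M H)) (hx : (x : LaurentSeries Qbar) ∈ modularFunctionFieldBar M) :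
    s48k_diamondAut M H d x = x := by
  by_cases hdia : ∃ e, s48k_IsDiamondAut M H d e
  · exact (s48e_diamondAut_spec M H hdia).1 x hx
  · have e1 : s48k_diamondAut M H d = AlgEquiv.refl := by
      unfold s48k_diamondAut
      exact dif_neg hdia
    rw [e1]
    rfl

/-- **the diamond automorphisms of `F_H` are Gauss-compatible** (as soon as the Gauss ring of `F_H` is integral over the
Gauss ring of `F̄₀(M)`). -/
theorem s48e_redCompatQ_diamond (M : ℕ) (H : Subgroup (ZMod M)ˣ)
    (A : ValuationSubring Qbar) {κ : Type*} [Field κ] (π : ↥A →+* κ) (hπ : Function.Surjective π)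
    {Fb : IntermediateField κ (LaurentSeries κ)}
    (hint : s48e_IntOver A π (modularFunctionFieldBar M) (s48k_FH M H))
    (hval : ∀ y : ↥(s48k_FH M H),
      y ∈ s48e_gaussF A π (s48k_FH M H) ∨ y⁻¹ ∈ s48e_gaussF A π (s48k_FH M H))
    (hredmem : ∀ y : ↥(s48e_gaussF A π (s48k_FH M H)), s48e_gaussRed A π (s48k_FH M H) y ∈ Fb)
    (hsurj : ∀ g : ↥Fb, ∃ y : ↥(s48e_gaussF A π (s48k_FH M H)),
      s48e_gaussRed A π (s48k_FH M H) y = (g : LaurentSeries κ))
    (d : (ZMod M)ˣ) :
    ∃ δ : SemilinearAut κ ↥Fb,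
      s48e_RedCompatQ A π (s48k_FH M H) Fb (SemilinearAut.ofAlgAut (s48k_diamondAut M H d)) δ := by
  have hF₀ : modularFunctionFieldBar M ≤ s48k_FH M H :=
    s48k_laurentBaseChange_mono Qbar (s48k_full_le_FHQ M H)
  obtain ⟨δ, hδ⟩ := s48e_redCompatQ_of_intOver hF₀ hint hval hredmem hsurj hπ
    (s48k_diamondAut M H d) (fun x hx => s48e_diamondAut_fixes M H d x hx)
  exact ⟨SemilinearAut.ofAlgAut δ, hδ⟩

end Fermat.Agent.Lib.S48
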