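/-
S48 (Deligne–Serre), wall [T8] (helper8): **the final adapter — from the top package of the tower to `s48e_RedInputsQ`.**

`s48e_TopPack M H A` (the induction predicate `P(H)` of the concrete tower (T-conc), at a valuation subring `A ∣ p` of `ℚ̄`):
a special fibre `Fb ⊆ κ_A((q))`, coefficient-stable; helper7's q-model package `Q` of `(F_H, Fb)`; helper6's chart packages of
`(s48d_qO Q, s48d_qRed Q)` for `w`, `w′` (`w w′ = 1`); a separating generator of `Fb`; integrality of the Gauss ring of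
`F_H` over the Gauss ring of `F̄₀(M)` (`s48e_IntOver`); helper6's finite-level packages at all number fields `L₀ ⊇ Lmin`.

`s48e_redInputsQ_body` : `s48e_TopPack M H A` ⇒ the body of `s48e_RedInputsQ` at `(M, H, ℓ, p, A)`
(helper7's `s48d_q_of_charts`, `s48d_torsion_injective_of_finPack2`; strong conservation = `s37r_conservation`; the diamond
field by `s48e_redCompatQ_diamond`).
`s48e_redInputsQ_of`   : `s48e_TopPack` at all levels ⇒ `s48e_RedInputsQ`.
-/
import Fermat.Agent.Lib.S48.EIntTopQ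
import Fermat.Agent.Lib.S48.EIntH4Q
import Fermat.Agent.Lib.S48.DRedTop

set_option autoImplicit false
set_option linter.unusedSectionVars false
set_option linter.style.haveILetI false
set_option synthInstance.maxHeartbeats 400000

noncomputable section

namespace Fermat.Agent.Lib.S48

open AlgebraicCurve ModularCurve HahnSeries IntermediateField Fermat.Agent.Lib.FF Fermat.Agent.Lib.S18
  Fermat.Agent.Lib.S37

local notation "Qbar" => AlgebraicClosure ℚ

/-- **the top package of the tower at `A`** (the induction predicate `P(H)` of (T-conc)). -/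
def s48e_TopPack (M : ℕ) (H : Subgroup (ZMod M)ˣ) (A : ValuationSubring Qbar) : Prop :=
  ∃ (Fb : IntermediateField (IsLocalRing.ResidueField ↥A)
        (LaurentSeries (IsLocalRing.ResidueField ↥A)))
    (_ : s48e_CoeffStable Fb)
    (Q : s48d_QPack A (IsLocalRing.residue ↥A) (s48k_FH M H) Fb)
    (x : ↥(s48k_FH M H)) (_ : FFGen Qbar x) (w w' : ↥(s48k_FH M H)),
    w * w' = 1 ∧
    s48g_ChartPack x A (IsLocalRing.residue ↥A) (s48d_qO Q) (s48d_qRed Q) w ∧
    s48g_ChartPack x A (IsLocalRing.residue ↥A) (s48d_qO Q) (s48d_qRed Q) w' ∧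
    (∃ (xb : ↥Fb) (_ : FFGen (IsLocalRing.ResidueField ↥A) xb),
      Algebra.IsSeparable (IsLocalRing.ResidueField ↥A)⟮xb⟯ ↥Fb) ∧
    s48e_IntOver A (IsLocalRing.residue ↥A) (modularFunctionFieldBar M) (s48k_FH M H) ∧
    ∃ (Lmin : IntermediateField ℚ Qbar) (_ : FiniteDimensional ℚ Lmin),
      s48d_FinLevels (s48k_FHQ M H) A Lmin

set_option maxHeartbeats 1600000 in
/-- **the body of `s48e_RedInputsQ` from the top package.** -/
theorem s48e_redInputsQ_body (M : ℕ) (H : Subgroup (ZMod M)ˣ) (A : ValuationSubring Qbar)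
    {p : ℕ} [Fact p.Prime] (hA : A.LiesOverPrime p) (ℓ : ℕ) (hℓ : ¬ p ∣ ℓ)
    (hT : s48e_TopPack M H A) :
    ∃ (Fb : IntermediateField (IsLocalRing.ResidueField ↥A)
          (LaurentSeries (IsLocalRing.ResidueField ↥A)))
      (_ : s48e_CoeffStable Fb)
      (r : Place Qbar ↥(s48k_FH M H) → Place (IsLocalRing.ResidueField ↥A) ↥Fb)
      (hrQ : s48e_IsPlaceRedQ A (IsLocalRing.residue ↥A) (s48k_FH M H) Fb r)
      (hgen : s48e_PrinGen A (IsLocalRing.residue ↥A) (s48k_FH M H) Fb),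
      (∃ P₁ P₂ P₃, r P₁ ≠ r P₂ ∧ r P₁ ≠ r P₃ ∧ r P₂ ≠ r P₃) ∧
      (∀ z : s48k_JH M H, (ℓ : ℤ) • z = 0 →
        s48e_redPic0 r hrQ.isPlaceRed hgen z = 0 → z = 0) ∧
      ∀ pu : (ZMod M)ˣ, ((pu : (ZMod M)ˣ) : ZMod M) = (p : ZMod M) →
        ∃ δ : SemilinearAut (IsLocalRing.ResidueField ↥A) ↥Fb,
          s48e_RedCompatQ A (IsLocalRing.residue ↥A) (s48k_FH M H) Fb
            (SemilinearAut.ofAlgAut (s48k_diamondAut M H pu⁻¹)) δ := by
  obtain ⟨Fb, hFb, Q, x, hx, w, w', hww, hP, hP', ⟨xb, hxb, hsep⟩, hint, Lmin, hLmin, hfin⟩ := hT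
  haveI := hx
  haveI := hxb
  haveI := hsep
  haveI := hLmin
  haveI : IsAlgClosed (IsLocalRing.ResidueField ↥A) := s18n_isAlgClosed_residueField A
  obtain rfl : w' = w⁻¹ := eq_inv_of_mul_eq_one_right hww
  obtain ⟨D₁, i1, i2, i3, i4, i5, i6, Psi₁, h₁⟩ := hP
  obtain ⟨D₂, j1, j2, j3, j4, j5, j6, Psi₂, h₂⟩ := hP'
  obtain ⟨hr, hgen, h3, hlift, hC, hconst⟩ := s48d_q_of_charts Q h₁ h₂ xb
  -- strong conservation
  have hrQ : s48e_IsPlaceRedQ A (IsLocalRing.residue ↥A) (s48k_FH M H) Fb (s37r_r h₁ h₂) := by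
    refine s48e_isPlaceRedQ_of_gauss _ hr.1 (fun y yb hy hyb D hD Qp => ?_)
    have hyO : (y : ↥(s48k_FH M H)) ∈ s48d_qO Q := y.2
    have hred : s48d_qRed Q ⟨(y : ↥(s48k_FH M H)), hyO⟩ = yb := Subtype.ext hy
    have h := s37r_conservation h₁ h₂ (y : ↥(s48k_FH M H)) hyO (by rw [hred]; exact hyb) D hD Qp
    rw [hred] at h
    exact h
  refine ⟨Fb, hFb, s37r_r h₁ h₂, hrQ, hgen, h3, ?_, ?_⟩
  · intro z hz hredz
    have hz' : ℓ • z = 0 := by
      rw [← natCast_zsmul]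
      exact hz
    exact s48d_torsion_injective_of_finPack2 (s48k_FHQ M H) A hA ℓ hℓ Fb hr hgen hlift hC hconst
      Lmin hfin z hz' hredz
  · intro pu _
    refine s48e_redCompatQ_diamond M H A (IsLocalRing.residue ↥A) IsLocalRing.residue_surjective
      hint Q.val (fun y => s48d_qRedV_mem Q ⟨(y : ↥(s48k_FH M H)), y.2⟩) (fun g => ?_) pu⁻¹
    obtain ⟨f, hO, hf⟩ := Q.surj g
    exact ⟨⟨f, hO⟩, hf⟩

/-- **`s48e_RedInputsQ` from the top packages of the tower.** -/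
theorem s48e_redInputsQ_of
    (h : ∀ (M N₁ ℓ₀ : ℕ) [NeZero M] (H : Subgroup (ZMod M)ˣ), s48k_Level M N₁ ℓ₀ H →
      ∀ p : ℕ, p.Prime → ¬ p ∣ M → ∀ A : ValuationSubring Qbar, A.LiesOverPrime p →
        s48e_TopPack M H A) : s48e_RedInputsQ := by
  intro M N₁ ℓ₀ _ H hL ℓ p hp hpMℓ A hA
  haveI : Fact p.Prime := ⟨hp⟩
  have hpM : ¬ p ∣ M := fun h' => hpMℓ (Dvd.dvd.mul_right h' ℓ)
  have hpℓ : ¬ p ∣ ℓ := fun h' => hpMℓ (Dvd.dvd.mul_left h' M)
  exact s48e_redInputsQ_body M H A hA ℓ hpℓ (h M N₁ ℓ₀ H hL p hp hpM A hA)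

end Fermat.Agent.Lib.S48
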