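/-
S48 (Deligne–Serre), wall [T8] (helper8): **glue from helper6's induction hypotheses of the tower (`GTowerS`) to the top
package `s48e_TopPack` and to `s48e_RedInputsQ`.**

* `s48e_finLevels_of_finIH` : `s48g_FinIH A FQ w` (`w ≠ 0`) ⇒ `∃ Lmin, s48d_FinLevels FQ A Lmin`;
* `s48e_topPack_of_IH`      : `s48g_TopIH A F₀(M)_ℚ Gb (s48k_FHQ M H) w ∧ s48g_FinIH A (s48k_FHQ M H) w`, with the ambient
  field `Gb` of the special fibres generated by reductions of INTEGER-coefficient series of `s48k_FHQ M H`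
  ⇒ `s48e_TopPack M H A` (`s48e_CoeffStable Fb` by `s48e_coeffStable_of_int_gens`: `Fb ≤ Gb`, and the generators of `Gb`
  lie in `Fb` because they are reductions of integral series of `F_H`);
* `s48e_redInputsQ_of_IH`   : the induction hypotheses at all levels ⇒ `s48e_RedInputsQ`.
-/
import Fermat.Agent.Lib.S48.EIntRedQ
import Fermat.Agent.Lib.S48.GTowerS
import Fermat.Agent.Lib.S48.EGenStable

set_option autoImplicit false
set_option linter.unusedSectionVars false
set_option linter.style.haveILetI false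
set_option synthInstance.maxHeartbeats 400000

noncomputable section

namespace Fermat.Agent.Lib.S48

open AlgebraicCurve ModularCurve HahnSeries IntermediateField Fermat.Agent.Lib.FF Fermat.Agent.Lib.S18
  Fermat.Agent.Lib.S37

local notation "Qbar" => AlgebraicClosure ℚ

/-- the finite half of the induction hypothesis gives helper7's `s48d_FinLevels`. -/
theorem s48e_finLevels_of_finIH (A : ValuationSubring Qbar)
    (FQ : IntermediateField ℚ (LaurentSeries ℚ)) (w : ↥(laurentBaseChange Qbar FQ)) (hw0 : w ≠ 0)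
    (hfin : s48g_FinIH A FQ w) :
    ∃ (Lmin : IntermediateField ℚ Qbar) (_ : FiniteDimensional ℚ Lmin),
      s48d_FinLevels FQ A Lmin := by
  obtain ⟨Lmin, hfd, H⟩ := hfin
  refine ⟨Lmin, hfd, fun L₀ hL inst ϖ hϖ => ?_⟩
  obtain ⟨hFrac, w₀, iw, hw, hP⟩ := H L₀ hL ϖ hϖ
  have hw0' : w₀ ≠ 0 := by
    rintro rfl
    rw [map_zero] at hw
    exact hw0 hw.symm
  exact ⟨hFrac, w₀, iw, hw0', hP⟩

/-- an integer-coefficient series, viewed over `A`, then over `ℚ̄`, is the base change of its rational version. -/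
theorem s48e_iota_intCast (A : ValuationSubring Qbar) (y : LaurentSeries ℤ) :
    coeffMap A.subtype (coeffMap (Int.castRingHom ↥A) y) =
      coeffEmb Qbar (coeffMap (Int.castRingHom ℚ) y) := by
  rw [coeffEmb, coeffMap_coeffMap, coeffMap_coeffMap]
  exact coeffMap_congr (RingHom.ext fun n => by simp) y

set_option maxHeartbeats 800000 in
/-- **the top package from the induction hypotheses of the tower.** -/
theorem s48e_topPack_of_IH (M : ℕ) (H : Subgroup (ZMod M)ˣ) (A : ValuationSubring Qbar)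
    (Gb : IntermediateField (IsLocalRing.ResidueField ↥A)
      (LaurentSeries (IsLocalRing.ResidueField ↥A)))
    (T : Set (LaurentSeries ℤ))
    (hGb : Gb ≤ IntermediateField.adjoin (IsLocalRing.ResidueField ↥A)
      ((fun y => coeffMap (Int.castRingHom (IsLocalRing.ResidueField ↥A)) y) '' T))
    (hT : ∀ y ∈ T, coeffMap (Int.castRingHom ℚ) y ∈ s48k_FHQ M H)
    (w : ↥(s48k_FH M H)) (hw0 : w ≠ 0)
    (htop : s48g_TopIH A (modularFunctionFieldFull M) Gb (s48k_FHQ M H) w)
    (hfin : s48g_FinIH A (s48k_FHQ M H) w) : s48e_TopPack M H A := by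
  obtain ⟨Fb, Q, x, ix, hP, hP', hint, hFbG, xb, ixb, hsep⟩ := htop
  have hCS : s48e_CoeffStable Fb := by
    refine s48e_coeffStable_of_int_gens Fb T (fun y hy => ?_) (hFbG.trans hGb)
    have hY : coeffMap A.subtype (coeffMap (Int.castRingHom ↥A) y) ∈ s48k_FH M H := by
      rw [s48e_iota_intCast]
      exact coeffEmb_mem_laurentBaseChange Qbar (hT y hy)
    have h1 := s48d_qRedV_mem Q
      ⟨⟨coeffMap A.subtype (coeffMap (Int.castRingHom ↥A) y), hY⟩, s48d_q_iota_mem Q _ hY⟩
    rw [s48d_qRedV_iota, s48e_coeffMap_intCast_comp] at h1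
    exact h1
  exact ⟨Fb, hCS, Q, x, ix, w, w⁻¹, mul_inv_cancel₀ hw0, hP, hP', ⟨xb, ixb, hsep⟩, hint,
    s48e_finLevels_of_finIH A (s48k_FHQ M H) w hw0 hfin⟩

/-- **`s48e_RedInputsQ` from the induction hypotheses of the tower at all levels.** -/
theorem s48e_redInputsQ_of_IH
    (h : ∀ (M N₁ ℓ₀ : ℕ) [NeZero M] (H : Subgroup (ZMod M)ˣ), s48k_Level M N₁ ℓ₀ H →
      ∀ p : ℕ, p.Prime → ¬ p ∣ M → ∀ A : ValuationSubring Qbar, A.LiesOverPrime p →
        ∃ (Gb : IntermediateField (IsLocalRing.ResidueField ↥A)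
            (LaurentSeries (IsLocalRing.ResidueField ↥A)))
          (T : Set (LaurentSeries ℤ)) (w : ↥(s48k_FH M H)), w ≠ 0 ∧
          Gb ≤ IntermediateField.adjoin (IsLocalRing.ResidueField ↥A)
            ((fun y => coeffMap (Int.castRingHom (IsLocalRing.ResidueField ↥A)) y) '' T) ∧
          (∀ y ∈ T, coeffMap (Int.castRingHom ℚ) y ∈ s48k_FHQ M H) ∧
          s48g_TopIH A (modularFunctionFieldFull M) Gb (s48k_FHQ M H) w ∧
          s48g_FinIH A (s48k_FHQ M H) w) : s48e_RedInputsQ := by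
  refine s48e_redInputsQ_of fun M N₁ ℓ₀ _ H hL p hp hpM A hA => ?_
  obtain ⟨Gb, T, w, hw0, hGb, hT, htop, hfin⟩ := h M N₁ ℓ₀ H hL p hp hpM A hA
  exact s48e_topPack_of_IH M H A Gb T hGb hT w hw0 htop hfin

end Fermat.Agent.Lib.S48
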