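/-
S48 (Deligne–Serre), wall [T8] (helper8): `s48e_RedInputsQ` from helper6's induction hypotheses of the tower with the
CANONICAL ambient field `Gb := s48e_GbZ M H κ_A` (generated by the reductions of the integer generators `j(q^d)`, `s_u`).
-/
import Fermat.Agent.Lib.S48.EIntGlue
import Fermat.Agent.Lib.S48.EIntTZ

set_option autoImplicit false
set_option linter.unusedSectionVars false
set_option synthInstance.maxHeartbeats 400000

noncomputable section

namespace Fermat.Agent.Lib.S48

open AlgebraicCurve ModularCurve HahnSeries IntermediateField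

local notation "Qbar" => AlgebraicClosure ℚ

/-- **`s48e_RedInputsQ` from the induction hypotheses of the tower at all levels, canonical ambient field.** -/
theorem s48e_redInputsQ_of_IHZ
    (h : ∀ (M N₁ ℓ₀ : ℕ) [NeZero M] (H : Subgroup (ZMod M)ˣ), s48k_Level M N₁ ℓ₀ H →
      ∀ p : ℕ, p.Prime → ¬ p ∣ M → ∀ A : ValuationSubring Qbar, A.LiesOverPrime p →
        ∃ w : ↥(s48k_FH M H), w ≠ 0 ∧
          s48g_TopIH A (modularFunctionFieldFull M) (s48e_GbZ M H (IsLocalRing.ResidueField ↥A))
            (s48k_FHQ M H) w ∧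
          s48g_FinIH A (s48k_FHQ M H) w) : s48e_RedInputsQ := by
  refine s48e_redInputsQ_of_IH fun M N₁ ℓ₀ _ H hL p hp hpM A hA => ?_
  obtain ⟨w, hw0, htop, hfin⟩ := h M N₁ ℓ₀ H hL p hp hpM A hA
  exact ⟨s48e_GbZ M H (IsLocalRing.ResidueField ↥A), s48e_TZ M H, w, hw0, le_rfl,
    s48e_TZ_mem_FHQ M H, htop, hfin⟩

end Fermat.Agent.Lib.S48
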