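/-
DS-1 (S48), wall [T7] (helper6), brick (F7): **the base of the finite-level induction.**

* `s48g_finPack_of_contract` (abstract): the finite-level package `s48g_FinPack` from an S18-style
  chart contract (`ψ : B ↠ D` Dedekind with `ker ψ = (ϖ)`), a surjective reduction `red : O → Fb` with
  kernel `ϖ O`, integrality of `B` over `A₀[w]` and the fraction property of `red B`.
* `s48g_finPack_base`: the package for `𝓕 = laurentBaseChange K F₀(M)` over a Gauss datum `G`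
  (landed S18: `s18g_redF`, (α), `s18f_ChartS G M w 1`), for a coordinate `w` with transcendental
  reduction.
-/
import Fermat.Agent.Lib.S48.GFinP
import Fermat.Agent.Lib.S18.FFinal
import Fermat.Agent.Lib.S18.FChartS
import Fermat.Agent.Lib.S18.GRedF

set_option autoImplicit false
set_option linter.unusedSectionVars false
set_option linter.style.haveILetI false

noncomputable section

namespace Fermat.Agent.Lib.S48

open AlgebraicCurve ModularCurve IsDedekindDomain Fermat.Agent.Lib.FF Fermat.Agent.Lib.S18 Polynomial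

universe u

section Abs

variable {K F : Type*} [Field K] [Field F] [Algebra K F] {Fb : Type u} [Field Fb]

/-- **the finite-level package from an S18-style contract.** -/
theorem s48g_finPack_of_contract (A₀ : ValuationSubring K) (ϖ : ↥A₀) (O : ValuationSubring F)
    (w : F) (red : ↥O →+* Fb)
    (hconst : ∀ a : ↥A₀, algebraMap K F (a : K) ∈ O) (hϖ0 : (ϖ : K) ≠ 0)
    (U : ∀ u : F, u ∈ O → u ≠ 0 → ∃ (k : ℕ) (v : F), v ∈ O ∧ v⁻¹ ∈ O ∧
      u = algebraMap K F (ϖ : K) ^ k * v)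
    (hw : w ∈ O) (hsurj : Function.Surjective red)
    (hker : ∀ y : ↥O, red y = 0 ↔ ∃ z ∈ O, (y : F) = algebraMap K F (ϖ : K) * z)
    {D : Type u} [CommRing D] [IsDedekindDomain D]
    (ψ : ↥(s18_ring O (s18_chart1 (L₀ := K) w)) →+* D) (hψ : Function.Surjective ψ)
    (hkerψ : RingHom.ker ψ = Ideal.span {s18i_const O (s18_chart1 (L₀ := K) w) (ϖ : K) (hconst ϖ)})
    (hfrac : ∀ z : Fb, ∃ b₁ b₂ : ↥(s18_ring O (s18_chart1 (L₀ := K) w)),
      red ⟨(b₂ : F), b₂.2.1⟩ ≠ 0 ∧ z * red ⟨(b₂ : F), b₂.2.1⟩ = red ⟨(b₁ : F), b₁.2.1⟩)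
    (hint : ∀ y ∈ s18_ring O (s18_chart1 (L₀ := K) w), (s18b_evA ↥A₀ K w).IsIntegralElem y) :
    s48g_FinPack A₀ ϖ O red w := by
  let φ : ↥(s18_ring O (s18_chart1 (L₀ := K) w)) →+* Fb :=
    red.comp (Subring.inclusion (s18_ring_le O (s18_chart1 (L₀ := K) w)))
  have hφ : ∀ b : ↥(s18_ring O (s18_chart1 (L₀ := K) w)), φ b = red ⟨(b : F), b.2.1⟩ :=
    fun _ => rfl
  have hkerφ : RingHom.ker φ = RingHom.ker ψ := by
    rw [hkerψ]
    ext b
    rw [RingHom.mem_ker, Ideal.mem_span_singleton, hφ]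
    constructor
    · intro h0
      obtain ⟨z, hz, e⟩ := (hker _).mp h0
      have hzB : z ∈ s18_ring O (s18_chart1 (L₀ := K) w) :=
        s18f_ring_pure O (s18_chart1 (L₀ := K) w) (ϖ : K) hϖ0 b.2 hz e
      exact ⟨⟨z, hzB⟩, Subtype.ext e⟩
    · rintro ⟨c, rfl⟩
      exact (hker _).mpr ⟨(c : F), c.2.1, rfl⟩
  set θ : D →+* Fb := RingHom.liftOfSurjective ψ hψ ⟨φ, hkerφ.ge⟩ with hθ
  have hθψ : ∀ b, θ (ψ b) = φ b := fun b =>
    RingHom.liftOfSurjective_comp_apply ψ hψ ⟨φ, hkerφ.ge⟩ b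
  have hθinj : Function.Injective θ := by
    rw [injective_iff_map_eq_zero]
    intro d hd
    obtain ⟨b, rfl⟩ := hψ d
    rw [hθψ] at hd
    have : b ∈ RingHom.ker ψ := by rw [← hkerφ]; exact hd
    exact this
  letI alg : Algebra D Fb := θ.toAlgebra
  have halg : ∀ d : D, algebraMap D Fb d = θ d := fun _ => rfl
  haveI : FaithfulSMul D Fb := (faithfulSMul_iff_algebraMap_injective D Fb).mpr hθinj
  haveI hfr : IsFractionRing D Fb := by
    apply IsFractionRing.of_field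
    intro z
    obtain ⟨b₁, b₂, hb₂, hz⟩ := hfrac z
    refine ⟨ψ b₁, ψ b₂, ?_⟩
    rw [halg, halg, hθψ, hθψ, hφ, hφ, eq_div_iff hb₂, hz]
  exact ⟨D, inferInstance, inferInstance, alg, hfr, ψ,
    { const_mem := hconst
      unif_ne_zero := hϖ0
      U := U
      w_mem := hw
      red_surj := hsurj
      ker := hker
      psi_surj := hψ
      psi_eq := fun r => by rw [halg, hθψ, hφ]
      int := hint }⟩

end Abs

section Base

variable {K : Type} [Field K] [CharZero K] [Algebra ℚ K] {κ : Type} [Field κ]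
  (G : s18g_GaussData K κ) (M : ℕ) [NeZero M]

local notation "𝓕M" => laurentBaseChange K (modularFunctionFieldFull M)
local notation "hFM" => (fun (f : LaurentSeries K)
  (hf : f ∈ laurentBaseChange K (modularFunctionFieldFull M)) => s18g_baseChange_mem_Frac G M hf)

/-- **the finite-level package of the base `F₀(M)`** over a Gauss datum, for a coordinate `w` with
(α), the landed per-chart contract and transcendental reduction. -/
theorem s48g_finPack_base [IsDiscreteValuationRing G.A] (hπ : Function.Surjective G.π)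
    (hT : s18g_HT κ M) (hdeg : s18g_HDeg K M)
    (w : ↥𝓕M) [FFGen K w] (hwV : w ∈ s18g_V G 𝓕M hFM)
    (hα : ∀ y ∈ s18g_V G 𝓕M hFM, ∃ s : G.A[X], s.map G.π ≠ 0 ∧
      (s18b_ev G 𝓕M w).IsIntegralElem (s18b_ev G 𝓕M w s * y))
    (hS : s18f_ChartS G M w 1)
    (htr : Transcendental κ (s18g_redF G M hFM hT hdeg ⟨w, hwV⟩)) :
    s48g_FinPack G.A G.ϖ (s18g_V G 𝓕M hFM) (s18g_redF G M hFM hT hdeg) w := by
  have hS' : ∃ (D : Type) (_ : CommRing D) (_ : IsDedekindDomain D)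
      (ψ : s18_ring (s18g_V G 𝓕M hFM) (s18_chart1 (L₀ := K) w) →+* D),
      Function.Surjective ψ ∧
      RingHom.ker ψ = Ideal.span {s18i_const (s18g_V G 𝓕M hFM) (s18_chart1 (L₀ := K) w)
        ((G.ϖ : G.A) : K) (s18f_const_mem_V G 𝓕M hFM G.ϖ)} := by
    obtain ⟨D, iD, iDed, ψ, hψ, hkerψ, -⟩ := hS
    exact ⟨D, iD, iDed, ψ, hψ, hkerψ⟩
  obtain ⟨D, iD, iDed, ψ, hψ, hkerψ⟩ := hS'
  have hevB : ∀ q : G.A[X], s18b_ev G 𝓕M w q ∈
      s18_ring (s18g_V G 𝓕M hFM) (s18_chart1 (L₀ := K) w) := fun q =>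
    s18b_mem_ring_of_isIntegralElem G 𝓕M hFM w hwV _ (s18b_ev G 𝓕M w).isIntegralElem_map
  have hredev : ∀ q : G.A[X], s18g_redF G M hFM hT hdeg ⟨s18b_ev G 𝓕M w q, (hevB q).1⟩ =
      Polynomial.aeval (s18g_redF G M hFM hT hdeg ⟨w, hwV⟩) (q.map G.π) := fun q =>
    s18g_redF_ev G M hFM hT hdeg w hwV q
  refine s48g_finPack_of_contract G.A G.ϖ (s18g_V G 𝓕M hFM) w (s18g_redF G M hFM hT hdeg)
    (s18f_const_mem_V G 𝓕M hFM) (s18g_unifK_ne_zero G) (s18f_U_gauss G 𝓕M hFM) hwV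
    (s18g_redF_surjective G M hFM hT hdeg hπ) ?_ ψ hψ hkerψ ?_ ?_
  · -- the kernel of the reduction
    intro y
    constructor
    · intro h0
      have hmem : y ∈ RingHom.ker (s18g_redF G M hFM hT hdeg) := h0
      rw [s18g_ker_redF, Ideal.mem_span_singleton] at hmem
      obtain ⟨z, hz⟩ := hmem
      refine ⟨(z : ↥𝓕M), z.2, ?_⟩
      have := congrArg (fun v : ↥(s18g_V G 𝓕M hFM) => (v : ↥𝓕M)) hz
      exact this
    · rintro ⟨z, hz, e⟩
      have h1 : y = s18g_constV G 𝓕M hFM G.ϖ * ⟨z, hz⟩ := Subtype.ext e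
      rw [h1, map_mul, s18g_redF_constV, s18g_pi_unif, map_zero, zero_mul]
  · -- the fraction property
    intro z
    obtain ⟨v, rfl⟩ := s18g_redF_surjective G M hFM hT hdeg hπ z
    obtain ⟨s, hs, hint⟩ := hα (v : ↥𝓕M) v.2
    have hb₁ : s18b_ev G 𝓕M w s * (v : ↥𝓕M) ∈
        s18_ring (s18g_V G 𝓕M hFM) (s18_chart1 (L₀ := K) w) :=
      s18b_mem_ring_of_isIntegralElem G 𝓕M hFM w hwV _ hint
    refine ⟨⟨_, hb₁⟩, ⟨_, hevB s⟩, ?_, ?_⟩
    · have := hredev s
      intro h0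
      rw [this] at h0
      exact hs ((transcendental_iff_injective.mp htr) (by rw [h0, map_zero]))
    · rw [← map_mul]
      congr 1
      apply Subtype.ext
      show (v : ↥𝓕M) * s18b_ev G 𝓕M w s = s18b_ev G 𝓕M w s * (v : ↥𝓕M)
      exact mul_comm _ _
  · exact fun y hy => s18b_isIntegralElem_of_mem_ring G 𝓕M hFM w hα y hy

end Base

end Fermat.Agent.Lib.S48
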