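/-
DS-1 (S48), wall [T7] (helper6), brick (F8): **the base of the finite-level induction at the number
field levels of a valuation ring `A ⊆ ℚ̄`.**

From the landed level inputs `s37r_LevelInputs A M w`, `s37r_LevelInputs A M w'` (S37, package [R])
of two coordinates of `F̄₀(M)` with transcendental reductions: at every number field level `L₀` the
finite-level packages `s48g_FinPack` of `laurentBaseChange L₀ F₀(M)` for the descended coordinates
`w₀`, `w₀'`, with the common reduction map `s18g_redF`.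
-/
import Fermat.Agent.Lib.S48.GFinBase
import Fermat.Agent.Lib.S37.RSurjOf

set_option autoImplicit false
set_option linter.unusedSectionVars false
set_option linter.style.haveILetI false
set_option synthInstance.maxHeartbeats 400000
set_option maxHeartbeats 800000

noncomputable section

namespace Fermat.Agent.Lib.S48

open ModularCurve HahnSeries AlgebraicCurve Fermat.Agent.Lib.S18 Fermat.Agent.Lib.S37
  Fermat.Agent.Lib.FF Polynomial

local notation "Qbar" => AlgebraicClosure ℚ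

variable (A : ValuationSubring Qbar) (M : ℕ) [NeZero M] {ℓ : ℕ} [Fact ℓ.Prime]
  (hA : A.LiesOverPrime ℓ) (hℓM : ¬ ℓ ∣ M)

/-- transcendence of the reduction descends to the level. -/
theorem s48g_level_transcendental (w : ↥(modularFunctionFieldBar M)) (hwO : w ∈ s37r_OF A M hA)
    (htr : Transcendental (IsLocalRing.ResidueField ↥A) (s37r_redF A M hA hℓM ⟨w, hwO⟩))
    (L₀ : IntermediateField ℚ Qbar) [FiniteDimensional ℚ L₀]
    [IsDiscreteValuationRing ↥(s18q_A0 A L₀)] (ϖ : ↥(s18q_A0 A L₀)) (hϖ : Irreducible ϖ)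
    (hT : s18g_HT (IsLocalRing.ResidueField ↥(s18q_A0 A L₀)) M) (hdeg : s18g_HDeg ↥L₀ M)
    (w₀ : ↥(laurentBaseChange ↥L₀ (modularFunctionFieldFull M)))
    (hw₀ : s18q_incl M L₀ w₀ = w) (hwV : w₀ ∈ s18x_V (s37r_G A L₀ ϖ hϖ) M) :
    Transcendental (IsLocalRing.ResidueField ↥(s18q_A0 A L₀))
      (s18g_redF (s37r_G A L₀ ϖ hϖ) M
        (fun _ hf => s18g_baseChange_mem_Frac (s37r_G A L₀ ϖ hϖ) M hf) hT hdeg ⟨w₀, hwV⟩) := by
  set w0b := s18g_redF (s37r_G A L₀ ϖ hϖ) M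
    (fun _ hf => s18g_baseChange_mem_Frac (s37r_G A L₀ ϖ hϖ) M hf) hT hdeg ⟨w₀, hwV⟩ with hw0b
  have hmemw : s18q_incl M L₀ w₀ ∈ s37r_OF A M hA := by rw [hw₀]; exact hwO
  have hwbar : coeffMap (s37r_resMap A L₀)
      (w0b : LaurentSeries (IsLocalRing.ResidueField ↥(s18q_A0 A L₀))) =
      (s37r_redF A M hA hℓM ⟨w, hwO⟩ : LaurentSeries (IsLocalRing.ResidueField ↥A)) := by
    rw [s37r_coe_redF, hw0b, s18g_coe_redF]
    have h1 := s37r_redV_incl A M hA L₀ ϖ hϖ w₀ hwV hmemw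
    rw [← h1]
    congr 1
    exact Subtype.ext hw₀
  intro halg
  obtain ⟨p, hp0, hp⟩ := halg
  have htr' := s37r3_transcendental_coe M _ htr
  apply htr'
  refine ⟨p.map (s37r_resMap A L₀), ?_, ?_⟩
  · intro h0
    apply hp0
    apply Polynomial.map_injective (s37r_resMap A L₀) (s37r_resMap A L₀).injective
    rw [h0, Polynomial.map_zero]
  · rw [← hwbar]
    have h1 : ((Polynomial.aeval w0b p :
        ↥(modularFunctionFieldFullC (IsLocalRing.ResidueField ↥(s18q_A0 A L₀)) M)) :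
        LaurentSeries (IsLocalRing.ResidueField ↥(s18q_A0 A L₀))) = 0 := by
      rw [hp]; rfl
    have h2 := Polynomial.aeval_algebraMap_apply
      (LaurentSeries (IsLocalRing.ResidueField ↥(s18q_A0 A L₀))) w0b p
    have h3 : Polynomial.aeval
        (w0b : LaurentSeries (IsLocalRing.ResidueField ↥(s18q_A0 A L₀))) p = 0 :=
      h2.trans h1
    rw [Polynomial.aeval_def, Polynomial.eval₂_map]
    have h4 := Polynomial.hom_eval₂ p
      (algebraMap (IsLocalRing.ResidueField ↥(s18q_A0 A L₀))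
        (LaurentSeries (IsLocalRing.ResidueField ↥(s18q_A0 A L₀))))
      (coeffMap (s37r_resMap A L₀))
      (w0b : LaurentSeries (IsLocalRing.ResidueField ↥(s18q_A0 A L₀)))
    rw [Polynomial.aeval_def] at h3
    rw [h3, map_zero] at h4
    rw [h4]
    congr 1
    refine RingHom.ext fun c => ?_
    simp only [RingHom.comp_apply]
    rw [algebraMap_laurentSeries_eq_single, algebraMap_laurentSeries_eq_single, coeffMap_single]

/-- **the finite-level packages of the base at a number field level**, for two coordinates. -/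
theorem s48g_finPack_level (w w' : ↥(modularFunctionFieldBar M))
    (hlev : s37r_LevelInputs A M w) (hlev' : s37r_LevelInputs A M w')
    (hwO : w ∈ s37r_OF A M hA) (hwO' : w' ∈ s37r_OF A M hA)
    (htr : Transcendental (IsLocalRing.ResidueField ↥A) (s37r_redF A M hA hℓM ⟨w, hwO⟩))
    (htr' : Transcendental (IsLocalRing.ResidueField ↥A) (s37r_redF A M hA hℓM ⟨w', hwO'⟩))
    (L₀ : IntermediateField ℚ Qbar) [FiniteDimensional ℚ L₀]
    [IsDiscreteValuationRing ↥(s18q_A0 A L₀)] (ϖ : ↥(s18q_A0 A L₀)) (hϖ : Irreducible ϖ) :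
    ∃ (w₀ w₀' : ↥(laurentBaseChange ↥L₀ (modularFunctionFieldFull M))),
      s18q_incl M L₀ w₀ = w ∧ s18q_incl M L₀ w₀' = w' ∧ FFGen ↥L₀ w₀ ∧ FFGen ↥L₀ w₀' ∧
      ∃ (Fb : Type) (_ : Field Fb)
        (red : ↥(s18g_V (s37r_G A L₀ ϖ hϖ) (laurentBaseChange ↥L₀ (modularFunctionFieldFull M))
          (fun _ hf => s18g_baseChange_mem_Frac (s37r_G A L₀ ϖ hϖ) M hf)) →+* Fb),
        s48g_FinPack (s37r_G A L₀ ϖ hϖ).A (s37r_G A L₀ ϖ hϖ).ϖ
          (s18g_V (s37r_G A L₀ ϖ hϖ) (laurentBaseChange ↥L₀ (modularFunctionFieldFull M))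
            (fun _ hf => s18g_baseChange_mem_Frac (s37r_G A L₀ ϖ hϖ) M hf)) red w₀ ∧
        s48g_FinPack (s37r_G A L₀ ϖ hϖ).A (s37r_G A L₀ ϖ hϖ).ϖ
          (s18g_V (s37r_G A L₀ ϖ hϖ) (laurentBaseChange ↥L₀ (modularFunctionFieldFull M))
            (fun _ hf => s18g_baseChange_mem_Frac (s37r_G A L₀ ϖ hϖ) M hf)) red w₀' := by
  classical
  obtain ⟨w₀, hw₀, hgen, hwV, hα, hS⟩ := hlev L₀ ϖ hϖ
  obtain ⟨w₀', hw₀', hgen', hwV', hα', hS'⟩ := hlev' L₀ ϖ hϖ
  haveI := hgen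
  haveI := hgen'
  have hℓ : ℓ.Prime := Fact.out
  have hℓ0 : ((ℓ : ℕ) : ↥L₀) ∈ (A.comap (algebraMap ↥L₀ Qbar)).nonunits := by
    rw [ValuationSubring.mem_nonunits_iff_or]
    right
    intro hinv
    rw [ValuationSubring.mem_comap, map_inv₀, map_natCast] at hinv
    rcases (ValuationSubring.mem_nonunits_iff_or (A := A)).mp hA with h0 | h0
    · exact (Nat.cast_ne_zero.mpr hℓ.ne_zero) h0
    · exact h0 hinv
  haveI hchar : CharP (IsLocalRing.ResidueField ↥(s18q_A0 A L₀)) ℓ :=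
    s18x_charP_residueField _ hℓ hℓ0
  have hT : s18g_HT (IsLocalRing.ResidueField ↥(s18q_A0 A L₀)) M := s18t_indep_j ℓ M hℓM _
  have hdeg : s18g_HDeg ↥L₀ M := fun n b hb hn =>
    s18g_exists_relation M (algebraMap ↥L₀ Qbar) hn b hb
  haveI : IsDiscreteValuationRing ↥(s37r_G A L₀ ϖ hϖ).A :=
    ‹IsDiscreteValuationRing ↥(s18q_A0 A L₀)›
  have hπ : Function.Surjective (s37r_G A L₀ ϖ hϖ).π := IsLocalRing.residue_surjective
  have htr₀ := s48g_level_transcendental A M hA hℓM w hwO htr L₀ ϖ hϖ hT hdeg w₀ hw₀ hwV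
  have htr₀' := s48g_level_transcendental A M hA hℓM w' hwO' htr' L₀ ϖ hϖ hT hdeg w₀' hw₀' hwV'
  exact ⟨w₀, w₀', hw₀, hw₀', hgen, hgen', _, inferInstance,
    s18g_redF (s37r_G A L₀ ϖ hϖ) M
      (fun _ hf => s18g_baseChange_mem_Frac (s37r_G A L₀ ϖ hϖ) M hf) hT hdeg,
    s48g_finPack_base (s37r_G A L₀ ϖ hϖ) M hπ hT hdeg w₀ hwV hα hS htr₀,
    s48g_finPack_base (s37r_G A L₀ ϖ hϖ) M hπ hT hdeg w₀' hwV' hα' hS' htr₀'⟩

end Fermat.Agent.Lib.S48
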