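/-
DS-1 (S48), wall [T7]/[T9] (helper9): **the BASE of the tower induction at a good level.**

`A ⊆ ℚ̄` a valuation subring over the prime `ℓ`, `ℓ ∤ M`, `s18_GoodLevel ℓ M` (`5 ≤ ℓ`, or `ℓ = 3 ∧ 2 ∣ M`,
or `ℓ = 2 ∧ 3 ∣ M`).  For the coordinate `w` of the landed `s37rl_exists_coord` (`j`, `t₂`, `t₃`):

* `s48c_finIH_of_levelInputs` : helper6's finite half `s48g_FinIH A F₀(M) w` from the landed level
  inputs of `w`, `w⁻¹` with transcendental reductions (helper6's `s48g_finPack_level`), `L_min = ⊥`;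
* `s48c_topIH_base_of`       : helper6's top half `s48g_TopIH A F₀(M) Gb F₀(M) w` from the level
  inputs and `s37b_Coord` of the reduction (chart packages as in the landed `s44g_i_charts`, transported
  by helper7's `s48d_q_base_charts_of`; integrality = `s48e_intOver_refl`; separating coordinate
  `j(q^M)` of `F̄b₀(M)`);
* `s48c_tower_base`          : both halves for one coordinate `w ≠ 0`, at every good level.
-/
import Fermat.Agent.Lib.S48.GTowerS
import Fermat.Agent.Lib.S48.GFinLev
import Fermat.Agent.Lib.S48.DQBase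
import Fermat.Agent.Lib.S37.RExists
import Fermat.Agent.Lib.S37.RLevel
import Fermat.Agent.Lib.S18.NConst
import Fermat.Agent.Lib.S28.TPrimeAll

set_option autoImplicit false
set_option linter.unusedSectionVars false
set_option linter.style.haveILetI false
set_option synthInstance.maxHeartbeats 400000

noncomputable section

namespace Fermat.Agent.Lib.S48

open ModularCurve HahnSeries AlgebraicCurve IntermediateField Polynomial Fermat.Agent.Lib.S37
  Fermat.Agent.Lib.FF Fermat.Agent.Lib.S18 Fermat.Agent.Lib.S28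

local notation "Qbar" => AlgebraicClosure ℚ

/-- transcendence of an element of an intermediate field from transcendence of its value. -/
theorem s48c_transcendental_of_coe {κ E : Type*} [Field κ] [Field E] [Algebra κ E]
    (F : IntermediateField κ E) (x : ↥F) (h : Transcendental κ (x : E)) : Transcendental κ x := by
  intro halg
  exact h (halg.algebraMap (A := E))

variable (M : ℕ) [NeZero M] {ℓ : ℕ} [Fact ℓ.Prime] (hℓM : ¬ ℓ ∣ M)
  (A : ValuationSubring Qbar) (hA : A.LiesOverPrime ℓ)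

include hℓM hA in
set_option maxHeartbeats 800000 in
/-- **the finite half of the induction hypothesis at the base**, from the landed level inputs. -/
theorem s48c_finIH_of_levelInputs (w : ↥(modularFunctionFieldBar M))
    (hlev : s37r_LevelInputs A M w) (hlev' : s37r_LevelInputs A M w⁻¹)
    (hwO : w ∈ s37r_OF A M hA) (hwO' : w⁻¹ ∈ s37r_OF A M hA)
    (htr : Transcendental (IsLocalRing.ResidueField ↥A) (s37r_redF A M hA hℓM ⟨w, hwO⟩))
    (htr' : Transcendental (IsLocalRing.ResidueField ↥A) (s37r_redF A M hA hℓM ⟨w⁻¹, hwO'⟩)) :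
    s48g_FinIH A (modularFunctionFieldFull M) w := by
  refine ⟨⊥, inferInstance, ?_⟩
  intro L₀ hL inst ϖ hϖ
  haveI := hL.1
  haveI : IsDiscreteValuationRing ↥(s18q_A0 A L₀) := inst
  obtain ⟨w₀, w₀', h1, h2, g1, g2, Fb, iF, red, hP, hP'⟩ :=
    s48g_finPack_level A M hA hℓM w w⁻¹ hlev hlev' hwO hwO' htr htr' L₀ ϖ hϖ
  have hinv : w₀' = w₀⁻¹ := by
    apply s18q_incl_injective M L₀
    rw [h2, map_inv₀, h1]
  subst hinv
  exact ⟨fun _ hf => s18g_baseChange_mem_Frac (s37r_G A L₀ ϖ hϖ) M hf, w₀, g1, h1, Fb, iF, red,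
    hP, hP'⟩

include hℓM hA in
set_option maxHeartbeats 1600000 in
/-- **the top half of the induction hypothesis at the base**, from the landed level inputs and the
coordinate property of the reduction. -/
theorem s48c_topIH_base_of (w : ↥(modularFunctionFieldBar M)) (hw0 : w ≠ 0)
    (hlev : s37r_LevelInputs A M w) (hlev' : s37r_LevelInputs A M w⁻¹)
    (hcoord : s37b_Coord (IsLocalRing.ResidueField ↥A) ℓ
      ((s37r_redF A M hA hℓM ⟨w, s37r7_w_mem_OF A M hA w hlev⟩ :
        ↥(modularFunctionFieldFullC (IsLocalRing.ResidueField ↥A) M)) :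
        LaurentSeries (IsLocalRing.ResidueField ↥A)))
    (Gb : IntermediateField (IsLocalRing.ResidueField ↥A)
      (LaurentSeries (IsLocalRing.ResidueField ↥A)))
    (hGb : modularFunctionFieldFullC (IsLocalRing.ResidueField ↥A) M ≤ Gb) :
    s48g_TopIH A (modularFunctionFieldFull M) Gb (modularFunctionFieldFull M) w := by
  haveI : FFGen Qbar (ffd_jBar M) := s18r_ffGen M
  have hℓ : ℓ.Prime := Fact.out
  haveI : IsAlgClosed (IsLocalRing.ResidueField ↥A) := s18n_isAlgClosed_residueField A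
  haveI : CharP (IsLocalRing.ResidueField ↥A) ℓ := s18n_charP_residueField A hℓ hA
  have hPL : s28e_PrimeLevelAll (IsLocalRing.ResidueField ↥A) M :=
    s28t_primeLevelAll (IsLocalRing.ResidueField ↥A) ℓ M hℓM
  have hcoord' : s37b_Coord (IsLocalRing.ResidueField ↥A) ℓ
      ((s37r_redF A M hA hℓM ⟨w⁻¹, s37r7_w_mem_OF A M hA w⁻¹ hlev'⟩ :
        ↥(modularFunctionFieldFullC (IsLocalRing.ResidueField ↥A) M)) :
        LaurentSeries (IsLocalRing.ResidueField ↥A)) := by
    rw [s37rl_redF_inv A M hA hℓM hw0 (s37r7_w_mem_OF A M hA w hlev), IntermediateField.coe_inv]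
    exact s37b_coord_inv hcoord
  obtain ⟨D₁, i1, i2, i3, i4, i5, i6, PsiD₁, h₁⟩ :=
    s37rp_chartPackage A M hA hℓM w hlev hcoord (s37r_P3s A M hA hℓM w hlev hcoord)
  obtain ⟨D₂, j1, j2, j3, j4, j5, j6, PsiD₂, h₂⟩ :=
    s37rp_chartPackage A M hA hℓM w⁻¹ hlev' hcoord' (s37r_P3s A M hA hℓM w⁻¹ hlev' hcoord')
  refine ⟨modularFunctionFieldFullC (IsLocalRing.ResidueField ↥A) M, s48d_q_base M hℓM A hA,
    ffd_jBar M, s18r_ffGen M,
    s48d_q_base_charts_of M hℓM A hA _ ⟨D₁, i1, i2, i3, i4, i5, i6, PsiD₁, h₁⟩,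
    s48d_q_base_charts_of M hℓM A hA _ ⟨D₂, j1, j2, j3, j4, j5, j6, PsiD₂, h₂⟩,
    s48e_intOver_refl _, hGb, s18n_xN (IsLocalRing.ResidueField ↥A) M,
    ⟨s18n_transcendental_xN (IsLocalRing.ResidueField ↥A) M,
      s18n_finiteDimensional_Fk (IsLocalRing.ResidueField ↥A) M hPL⟩,
    s18n_isSeparable_Fk (IsLocalRing.ResidueField ↥A) M hPL⟩

include hℓM hA in
set_option maxHeartbeats 1600000 in
/-- **the base of the tower induction at every good level**: one coordinate `w ≠ 0` of `F̄₀(M)` with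
both halves of the induction hypothesis. -/
theorem s48c_tower_base (hgood : s18_GoodLevel ℓ M)
    (Gb : IntermediateField (IsLocalRing.ResidueField ↥A)
      (LaurentSeries (IsLocalRing.ResidueField ↥A)))
    (hGb : modularFunctionFieldFullC (IsLocalRing.ResidueField ↥A) M ≤ Gb) :
    ∃ w : ↥(laurentBaseChange Qbar (modularFunctionFieldFull M)), w ≠ 0 ∧
      s48g_TopIH A (modularFunctionFieldFull M) Gb (modularFunctionFieldFull M) w ∧
      s48g_FinIH A (modularFunctionFieldFull M) w := by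
  obtain ⟨w, hwO, hwinvO, hw0, hlev₁, hlev₂, hred⟩ := s37rl_exists_coord A M hA hℓM hgood
  have hcoord : s37b_Coord (IsLocalRing.ResidueField ↥A) ℓ
      ((s37r_redF A M hA hℓM ⟨w, s37r7_w_mem_OF A M hA w hlev₁⟩ :
        ↥(modularFunctionFieldFullC (IsLocalRing.ResidueField ↥A) M)) :
        LaurentSeries (IsLocalRing.ResidueField ↥A)) := by
    rcases hred with h | h | h
    · rw [h]; exact s37b_coord_jq _ ℓ
    · rw [h]; exact s37b_coord_t2 _ ℓ
    · rw [h]; exact s37b_coord_t3 _ ℓ
  have hcoord' : s37b_Coord (IsLocalRing.ResidueField ↥A) ℓ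
      ((s37r_redF A M hA hℓM ⟨w⁻¹, hwinvO⟩ :
        ↥(modularFunctionFieldFullC (IsLocalRing.ResidueField ↥A) M)) :
        LaurentSeries (IsLocalRing.ResidueField ↥A)) := by
    rw [s37rl_redF_inv A M hA hℓM hw0 hwO, IntermediateField.coe_inv]
    exact s37b_coord_inv hcoord
  refine ⟨w, hw0, s48c_topIH_base_of M hℓM A hA w hw0 hlev₁ hlev₂ hcoord Gb hGb,
    s48c_finIH_of_levelInputs M hℓM A hA w hlev₁ hlev₂ hwO hwinvO
      (s48c_transcendental_of_coe _ _ hcoord.1) (s48c_transcendental_of_coe _ _ hcoord'.1)⟩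

end Fermat.Agent.Lib.S48
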