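/-
DS-1 (S48), (T-conc) the concrete tower of `F_H` (helper1): **the induction along the tower and
`s48e_RedInputsQ`.**

* `s48a_goodLevel_of_level` : at the levels of `s48k_Level` (v2, `two_or_three`) every prime `p ∤ M` is good;
* `s48a_towerP_top`         : the base `P(⊤)` (helper9's `s48c_tower_base`, `F_⊤ = F₀(M)` rationally);
* `s48a_towerP`             : `P(H)` by induction over the subgroups `H ≤ H'` along prime steps
                              (tame steps: `s48a_tame_step_conc`; wild steps: the hypothesis `hwild`);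
* `s48a_redInputsQ_of_wild` : helper8's `s48e_RedInputsQ` from the concrete wild step.
-/
import Fermat.Agent.Lib.S48.ATStep
import Fermat.Agent.Lib.S48.WildBase
import Fermat.Agent.Lib.S48.EIntGlueZ

set_option autoImplicit false
set_option linter.unusedSectionVars false
set_option linter.style.haveILetI false

noncomputable section

namespace Fermat.Agent.Lib.S48

open ModularCurve HahnSeries AlgebraicCurve IntermediateField Fermat.Agent.Lib.S18
  Fermat.Agent.Lib.FF

local notation "Qbar" => AlgebraicClosure ℚ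

/-- at the levels of `s48k_Level` every prime not dividing `M` is good for `M`. -/
theorem s48a_goodLevel_of_level {M N₁ ℓ₀ : ℕ} {H : Subgroup (ZMod M)ˣ}
    (hL : s48k_Level M N₁ ℓ₀ H) {p : ℕ} (hp : p.Prime) (hpM : ¬ p ∣ M) : s18_GoodLevel p M := by
  refine ⟨hpM, ?_⟩
  have hN : ∀ q : ℕ, q ∣ N₁ → q ∣ M := fun q hq => by
    rw [hL.eq]
    exact Dvd.dvd.mul_right (Dvd.dvd.trans hq (dvd_pow_self N₁ (by norm_num))) ℓ₀
  by_cases h5 : 5 ≤ p
  · exact Or.inl h5
  · have hp2 := hp.two_le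
    have hcases : p = 2 ∨ p = 3 := by
      have : p < 5 := by omega
      interval_cases p
      · left; rfl
      · right; rfl
      · exact absurd hp (by norm_num)
    rcases hcases with rfl | rfl
    · -- p = 2
      rcases hL.two_or_three with h2 | h3
      · exact absurd (hN 2 h2) hpM
      · exact Or.inr (Or.inr ⟨rfl, hN 3 h3⟩)
    · rcases hL.two_or_three with h2 | h3
      · exact Or.inr (Or.inl ⟨rfl, hN 2 h2⟩)
      · exact absurd (hN 3 h3) hpM

variable {M : ℕ} [NeZero M]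

set_option maxHeartbeats 800000 in
/-- **the base of the concrete tower.** -/
theorem s48a_towerP_top {N₁ ℓ₀ : ℕ} {H : Subgroup (ZMod M)ˣ} (hL : s48k_Level M N₁ ℓ₀ H)
    {p : ℕ} [Fact p.Prime] (hpM : ¬ p ∣ M) (A : ValuationSubring Qbar) (hA : A.LiesOverPrime p) :
    s48a_TowerP M H A ⊤ := by
  have hp : p.Prime := Fact.out
  have hM : 1 < M := s48wg_one_lt_of_level H hL
  obtain ⟨w, hw0, htop, hfin⟩ := s48c_tower_base M hpM A hA (s48a_goodLevel_of_level hL hp hpM)
    (s48e_GbZ M H (IsLocalRing.ResidueField ↥A)) (s48e_fullC_le_GbZ M H _)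
  unfold s48a_TowerP
  have e : s48k_FHQ M (⊤ : Subgroup (ZMod M)ˣ) = modularFunctionFieldFull M := s48wg_FHQ_top hM
  show ∃ w : ↥(laurentBaseChange Qbar (s48k_FHQ M (⊤ : Subgroup (ZMod M)ˣ))), w ≠ 0 ∧
    s48g_TopIH A (modularFunctionFieldFull M) (s48e_GbZ M H (IsLocalRing.ResidueField ↥A))
      (s48k_FHQ M (⊤ : Subgroup (ZMod M)ˣ)) w ∧
    s48g_FinIH A (s48k_FHQ M (⊤ : Subgroup (ZMod M)ˣ)) w
  rw [e]
  exact ⟨w, hw0, htop, hfin⟩

/-- **the concrete wild step**, as a hypothesis shape. -/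
def s48a_WildStep : Prop :=
  ∀ (M N₁ ℓ₀ : ℕ) [NeZero M] (H : Subgroup (ZMod M)ˣ), s48k_Level M N₁ ℓ₀ H →
    ∀ (p : ℕ) [Fact p.Prime], ¬ p ∣ M → ∀ (A : ValuationSubring Qbar), A.LiesOverPrime p →
      ∀ (H' : Subgroup (ZMod M)ˣ), H ≤ H' → ∀ g : (ZMod M)ˣ, g ∉ H' → g ^ p ∈ H' →
        s48a_TowerP M H A (H' ⊔ Subgroup.zpowers g) → s48a_TowerP M H A H'

/-- **`P(H)`** by induction along the tower. -/
theorem s48a_towerP (hwild : s48a_WildStep) {N₁ ℓ₀ : ℕ} {H : Subgroup (ZMod M)ˣ}
    (hL : s48k_Level M N₁ ℓ₀ H) {p : ℕ} [Fact p.Prime] (hpM : ¬ p ∣ M)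
    (A : ValuationSubring Qbar) (hA : A.LiesOverPrime p) : s48a_TowerP M H A H := by
  have key : ∀ K : Subgroup (ZMod M)ˣ, H ≤ K → s48a_TowerP M H A K := by
    refine s48a_subgroup_induction (fun K => H ≤ K → s48a_TowerP M H A K) ?_ ?_
    · intro _
      exact s48a_towerP_top hL hpM A hA
    · intro H' g r hr hg hgr ih hHH'
      have hP := ih (hHH'.trans le_sup_left)
      by_cases hpr : p = r
      · subst hpr
        exact hwild M N₁ ℓ₀ H hL p hpM A hA H' hHH' g hg hgr hP
      · exact s48a_tame_step_conc hL A hA hHH' g hr hg hgr hpr hP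
  exact key H le_rfl

/-- **`s48e_RedInputsQ`** from the concrete wild step. -/
theorem s48a_redInputsQ_of_wild (hwild : s48a_WildStep) : s48e_RedInputsQ := by
  refine s48e_redInputsQ_of_IHZ fun M N₁ ℓ₀ _ H hL p hp hpM A hA => ?_
  haveI : Fact p.Prime := ⟨hp⟩
  exact s48a_towerP hwild hL hpM A hA

end Fermat.Agent.Lib.S48
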