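/-
DS-1 (S48), wall [T7]/[T9] (helper6), brick (T6): **the wild step of the tower induction, finite
half, and the full wild step.**

Descent of the layer `F₂ = F₁(t)`, `τ = a + λ t`, `τ ^ p = h`, to all number fields
`L₀ ⊇ L_min ∋ λ, u, u⁻¹`, then helper9's `s48c_finPack2_wild` at each level; the irreducibility and
separability of the reduced wild polynomial are imported from the top (`s48g_wild_top_aux`).
-/
import Fermat.Agent.Lib.S48.GTowerW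

set_option autoImplicit false
set_option linter.unusedSectionVars false
set_option linter.style.haveILetI false
set_option synthInstance.maxHeartbeats 400000

noncomputable section

namespace Fermat.Agent.Lib.S48

open ModularCurve HahnSeries AlgebraicCurve IntermediateField Polynomial Fermat.Agent.Lib.S37
  Fermat.Agent.Lib.FF Fermat.Agent.Lib.S18

local notation "Qbar" => AlgebraicClosure ℚ

/-- the wild polynomial commutes with ring homomorphisms of fields. -/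
theorem s48g_wpoly_map {F₀ F₁ : Type*} [Field F₀] [Field F₁] (i : F₀ →+* F₁) (y lam d : F₀)
    (n : ℕ) : (s48a_wpoly y lam d n).map i = s48a_wpoly (i y) (i lam) (i d) n := by
  simp only [s48a_wpoly, Polynomial.map_sub, Polynomial.map_pow, Polynomial.map_add,
    Polynomial.map_X, Polynomial.map_C, map_div₀, map_pow]

/-- a function of the level whose `q`-expansion is `A`-integral at the top is Gauss-integral. -/
theorem s48g_level_mem_V_of_iota (A : ValuationSubring Qbar) (L₀ : IntermediateField ℚ Qbar)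
    [IsDiscreteValuationRing ↥(A.comap (algebraMap ↥L₀ Qbar))]
    (ϖ : ↥(A.comap (algebraMap ↥L₀ Qbar))) (hϖ : Irreducible ϖ)
    (FQ : IntermediateField ℚ (LaurentSeries ℚ))
    (hFrac : ∀ f ∈ laurentBaseChange ↥L₀ FQ,
      f ∈ s18g_Frac (s18g_GaussData.ofResidue (A.comap (algebraMap ↥L₀ Qbar)) ϖ hϖ))
    (y : ↥(laurentBaseChange ↥L₀ FQ)) (W : LaurentSeries ↥A)
    (hy : coeffMap (algebraMap ↥L₀ Qbar) (y : LaurentSeries ↥L₀) = coeffMap A.subtype W) :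
    y ∈ s18g_V (s18g_GaussData.ofResidue (A.comap (algebraMap ↥L₀ Qbar)) ϖ hϖ)
      (laurentBaseChange ↥L₀ FQ) hFrac := by
  set G := s18g_GaussData.ofResidue (A.comap (algebraMap ↥L₀ Qbar)) ϖ hϖ with hG
  have hc : ∀ n, algebraMap ↥L₀ Qbar ((y : LaurentSeries ↥L₀).coeff n) =
      ((W.coeff n : ↥A) : Qbar) := by
    intro n
    have h1 := congrArg (fun s : LaurentSeries Qbar => s.coeff n) hy
    simpa using h1
  have hm : ∀ n, (y : LaurentSeries ↥L₀).coeff n ∈ G.A := by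
    intro n
    show (y : LaurentSeries ↥L₀).coeff n ∈ A.comap (algebraMap ↥L₀ Qbar)
    rw [ValuationSubring.mem_comap, hc n]
    exact (W.coeff n).2
  obtain ⟨P, hP⟩ := s18g_exists_iota_eq G (y : LaurentSeries ↥L₀) hm
  rw [s18g_mem_V_iff]
  refine ⟨P, 1, ?_, ?_⟩
  · rw [map_one]
    exact one_ne_zero
  · rw [map_one, one_mul, hP]

section FinStep

variable {A : ValuationSubring Qbar} {p : ℕ} [Fact p.Prime] (hA : A.LiesOverPrime p)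
  {FQ₀ : IntermediateField ℚ (LaurentSeries ℚ)}
  {Gb : IntermediateField (IsLocalRing.ResidueField ↥A)
    (LaurentSeries (IsLocalRing.ResidueField ↥A))}
  {FQ₁ FQ₂ : IntermediateField ℚ (LaurentSeries ℚ)}
  [Algebra ↥(laurentBaseChange Qbar FQ₁) ↥(laurentBaseChange Qbar FQ₂)]
  [IsScalarTower Qbar ↥(laurentBaseChange Qbar FQ₁) ↥(laurentBaseChange Qbar FQ₂)]
  [FiniteDimensional ↥(laurentBaseChange Qbar FQ₁) ↥(laurentBaseChange Qbar FQ₂)]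
  (halg : ∀ a : ↥(laurentBaseChange Qbar FQ₁),
    ((algebraMap ↥(laurentBaseChange Qbar FQ₁) ↥(laurentBaseChange Qbar FQ₂) a :
      ↥(laurentBaseChange Qbar FQ₂)) : LaurentSeries Qbar) = (a : LaurentSeries Qbar))

include hA halg in
set_option maxHeartbeats 6400000 in
/-- **the wild step, finite half.** -/
theorem s48g_wild_step_fin (h01 : FQ₀ ≤ FQ₁) (h12 : FQ₁ ≤ FQ₂) (S₂ : Finset (LaurentSeries ℚ))
    (hS₂ : FQ₂ ≤ IntermediateField.adjoin ℚ (S₂ : Set (LaurentSeries ℚ)))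
    (hS₂mem : ∀ s ∈ S₂, s ∈ FQ₂)
    (w : ↥(laurentBaseChange Qbar FQ₁)) (hw0 : w ≠ 0)
    (T X₀ Y cc : LaurentSeries ↥A)
    (hT2 : coeffMap A.subtype T ∈ laurentBaseChange Qbar FQ₂)
    (hTG : coeffMap (IsLocalRing.residue ↥A) T ∈ Gb)
    (b : Module.Basis (Fin p) ↥(laurentBaseChange Qbar FQ₁) ↥(laurentBaseChange Qbar FQ₂))
    (hb : ∀ i : Fin p, b i = (⟨coeffMap A.subtype T, hT2⟩ : ↥(laurentBaseChange Qbar FQ₂)) ^ (i : ℕ))
    (hX₀ : coeffMap A.subtype X₀ ∈ laurentBaseChange Qbar FQ₁)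
    (hY : coeffMap A.subtype Y ∈ laurentBaseChange Qbar FQ₁)
    (lamA uA uinvA : ↥A) (huinv : uA * uinvA = 1)
    (hpu : ((p : ℕ) : ↥A) = uA * lamA ^ (p - 1))
    (hlamπ : IsLocalRing.residue ↥A lamA = 0) (hlam0 : lamA ≠ 0)
    (hrelS : Y = (X₀ + HahnSeries.C lamA * T) ^ p)
    (hcc : Y = X₀ ^ p + HahnSeries.C (lamA ^ p) * cc)
    (hY0 : coeffMap (IsLocalRing.residue ↥A) Y ≠ 0)
    (hdiv : ∀ P : Place Qbar ↥(laurentBaseChange Qbar FQ₁),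
      (p : ℤ) ∣ P.ord (⟨coeffMap A.subtype Y, hY⟩ : ↥(laurentBaseChange Qbar FQ₁)))
    (hFrac₂ : ∀ (L₀ : IntermediateField ℚ Qbar)
      [IsDiscreteValuationRing ↥(A.comap (algebraMap ↥L₀ Qbar))]
      (ϖ : ↥(A.comap (algebraMap ↥L₀ Qbar))) (hϖ : Irreducible ϖ),
      ∀ f ∈ laurentBaseChange ↥L₀ FQ₂,
        f ∈ s18g_Frac (s18g_GaussData.ofResidue (A.comap (algebraMap ↥L₀ Qbar)) ϖ hϖ))
    (htop : s48g_TopIH A FQ₀ Gb FQ₁ w) (hfin : s48g_FinIH A FQ₁ w) :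
    s48g_FinIH A FQ₂
      (algebraMap ↥(laurentBaseChange Qbar FQ₁) ↥(laurentBaseChange Qbar FQ₂) w) := by
  classical
  have hn : p.Prime := Fact.out
  obtain ⟨Fb₁, Q₁, x₁, ix₁, hP, hP', hint₁, hFbG, xb₁, ixb, hsep₁⟩ := htop
  haveI := ix₁
  haveI := ixb
  haveI := hsep₁
  obtain ⟨hirrsep, -⟩ := s48g_wild_top_aux hA halg h01 w hw0 T X₀ Y cc hT2 hTG b hb hX₀ hY lamA
    uA uinvA huinv hpu hlamπ hlam0 hrelS hcc hY0 hdiv Q₁ x₁ hP hP' hint₁ hFbG xb₁ hfin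
  set t : ↥(laurentBaseChange Qbar FQ₂) := ⟨coeffMap A.subtype T, hT2⟩ with ht
  set a : ↥(laurentBaseChange Qbar FQ₁) := ⟨coeffMap A.subtype X₀, hX₀⟩ with ha
  set h : ↥(laurentBaseChange Qbar FQ₁) := ⟨coeffMap A.subtype Y, hY⟩ with hh_def
  set lam : Qbar := ((lamA : ↥A) : Qbar) with hlamdef
  have hlamL0 : lam ≠ 0 := fun h0 => hlam0 (Subtype.ext h0)
  have hlamF0 : algebraMap Qbar ↥(laurentBaseChange Qbar FQ₁) lam ≠ 0 :=
    (_root_.map_ne_zero _).mpr hlamL0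
  have hnu : (p : Qbar) = (uA : Qbar) * lam ^ (p - 1) := by
    have := congrArg (fun x : ↥A => (x : Qbar)) hpu
    simpa using this
  have huu : (uA : Qbar) * (uinvA : Qbar) = 1 := by
    have := congrArg (fun x : ↥A => (x : Qbar)) huinv
    simpa using this
  have haO : a ∈ s48d_qO Q₁ := s48d_q_iota_mem Q₁ X₀ hX₀
  have hhO : h ∈ s48d_qO Q₁ := s48d_q_iota_mem Q₁ Y hY
  have hredh : ((s48d_qRed Q₁ ⟨h, hhO⟩ : ↥Fb₁) : LaurentSeries (IsLocalRing.ResidueField ↥A)) =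
      coeffMap (IsLocalRing.residue ↥A) Y := s48d_qRedV_iota Q₁ Y hY
  have hhred : s48d_qRed Q₁ ⟨h, hhO⟩ ≠ 0 := by
    intro h0
    apply hY0
    rw [← hredh, h0]
    rfl
  -- `τ`
  set τ : ↥(laurentBaseChange Qbar FQ₂) :=
    algebraMap ↥(laurentBaseChange Qbar FQ₁) ↥(laurentBaseChange Qbar FQ₂) a +
      algebraMap Qbar ↥(laurentBaseChange Qbar FQ₂) lam * t with hτ
  have hτser : (τ : LaurentSeries Qbar) = coeffMap A.subtype (X₀ + HahnSeries.C lamA * T) := by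
    rw [hτ, map_add, map_mul, s48a_iota_C]
    show ((algebraMap ↥(laurentBaseChange Qbar FQ₁) ↥(laurentBaseChange Qbar FQ₂) a :
        ↥(laurentBaseChange Qbar FQ₂)) : LaurentSeries Qbar) +
      ((algebraMap Qbar ↥(laurentBaseChange Qbar FQ₂) lam : ↥(laurentBaseChange Qbar FQ₂)) :
        LaurentSeries Qbar) * (t : LaurentSeries Qbar) = _
    rw [halg]
    rfl
  have hτh : (τ : LaurentSeries Qbar) ^ p = (h : LaurentSeries Qbar) := by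
    rw [hτser, ← map_pow, ← hrelS]
  -- the power basis of `τ`
  obtain ⟨bτ, hbτ'⟩ := s48a_exists_basis_affine b t hb
    (algebraMap Qbar ↥(laurentBaseChange Qbar FQ₁) lam) a hlamF0
  have hbτ : ∀ i : Fin p, bτ i = τ ^ (i : ℕ) := by
    intro i
    rw [hbτ' i, hτ, ← IsScalarTower.algebraMap_apply Qbar ↥(laurentBaseChange Qbar FQ₁)
      ↥(laurentBaseChange Qbar FQ₂) lam, add_comm]
  obtain ⟨hspanT, hindepT⟩ := s48g_span_indep_of_basis (laurentBaseChange Qbar FQ₁)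
    (laurentBaseChange Qbar FQ₂) halg τ bτ hbτ
  have hSgen : ∀ s ∈ S₂, ∃ c : Fin p → ↥(laurentBaseChange Qbar FQ₁),
      coeffEmb Qbar s = ∑ j : Fin p, (c j : LaurentSeries Qbar) *
        (τ : LaurentSeries Qbar) ^ (j : ℕ) := by
    intro s hs
    have hsF : coeffEmb Qbar s ∈ laurentBaseChange Qbar FQ₂ :=
      coeffEmb_mem_laurentBaseChange Qbar (hS₂mem s hs)
    exact hspanT ⟨coeffEmb Qbar s, hsF⟩
  -- descent of the layer
  haveI := s18q_isAlgebraic_bar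
  obtain ⟨Lmin₂, hfd₂, HD⟩ := s48g_layer_descent (K := Qbar) (F₀ := FQ₁) (F₁ := FQ₂) S₂ hS₂
    hn.ne_zero τ h hτh hSgen {a} {t}
  obtain ⟨Lmin₁, hfd₁, H₁⟩ := hfin
  -- the constants
  set Lmin₃ : IntermediateField ℚ Qbar :=
    IntermediateField.adjoin ℚ ({lam, (uA : Qbar), (uinvA : Qbar)} : Set Qbar) with hLmin₃
  haveI hfd₃ : FiniteDimensional ℚ ↥Lmin₃ :=
    IntermediateField.finiteDimensional_adjoin fun x _ => Algebra.IsIntegral.isIntegral x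
  haveI := hfd₁
  haveI := hfd₂
  refine ⟨Lmin₁ ⊔ Lmin₂ ⊔ Lmin₃, inferInstance, ?_⟩
  intro L₀ hL inst ϖ hϖ
  haveI := hL.1
  have hL₁ : Lmin₁ ≤ L₀ := (le_sup_left.trans le_sup_left).trans hL.2
  have hL₂ : Lmin₂ ≤ L₀ := (le_sup_right.trans le_sup_left).trans hL.2
  have hL₃ : Lmin₃ ≤ L₀ := le_sup_right.trans hL.2
  obtain ⟨hFrac₁, w₀, iw, hw, hPf⟩ := H₁ L₀ ⟨hL.1, hL₁⟩ ϖ hϖ
  haveI := iw
  obtain ⟨hX0, hX1, τ₀, h₀, hτ₀, hh₀, hpow₀, hspan₀⟩ := HD L₀ hL₂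
  obtain ⟨a₀, ha₀⟩ := hX0 a (Finset.mem_singleton_self a)
  obtain ⟨t₀, ht₀⟩ := hX1 t (Finset.mem_singleton_self t)
  haveI hdvrA0 : IsDiscreteValuationRing ↥(s18q_A0 A L₀) := inst
  haveI hdvrG : IsDiscreteValuationRing
      ↥(s18g_GaussData.ofResidue (A.comap (algebraMap ↥L₀ Qbar)) ϖ hϖ).A := inst
  have hle₀ : laurentBaseChange ↥L₀ FQ₁ ≤ laurentBaseChange ↥L₀ FQ₂ := s48g_lbc_mono ↥L₀ h12
  letI a0 : Algebra ↥(laurentBaseChange ↥L₀ FQ₁) ↥(laurentBaseChange ↥L₀ FQ₂) :=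
    (IntermediateField.inclusion hle₀).toAlgebra
  haveI t0 : IsScalarTower ↥L₀ ↥(laurentBaseChange ↥L₀ FQ₁) ↥(laurentBaseChange ↥L₀ FQ₂) :=
    IsScalarTower.of_algebraMap_eq fun _ => rfl
  have halg₀ : ∀ y : ↥(laurentBaseChange ↥L₀ FQ₁),
      ((algebraMap ↥(laurentBaseChange ↥L₀ FQ₁) ↥(laurentBaseChange ↥L₀ FQ₂) y :
        ↥(laurentBaseChange ↥L₀ FQ₂)) : LaurentSeries ↥L₀) = (y : LaurentSeries ↥L₀) :=
    fun _ => rfl
  -- the constants at the level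
  have hlamL : lam ∈ L₀ := hL₃ (IntermediateField.subset_adjoin ℚ _ (by simp))
  have huL : (uA : Qbar) ∈ L₀ := hL₃ (IntermediateField.subset_adjoin ℚ _ (by simp))
  have huinvL : (uinvA : Qbar) ∈ L₀ := hL₃ (IntermediateField.subset_adjoin ℚ _ (by simp))
  set G := s18g_GaussData.ofResidue (A.comap (algebraMap ↥L₀ Qbar)) ϖ hϖ with hG
  set lamG : ↥G.A := ⟨⟨lam, hlamL⟩, lamA.2⟩ with hlamG
  set uG : ↥G.A := ⟨⟨(uA : Qbar), huL⟩, uA.2⟩ with huG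
  set uinvG : ↥G.A := ⟨⟨(uinvA : Qbar), huinvL⟩, uinvA.2⟩ with huinvG
  have hlamG0 : lamG ≠ 0 := by
    intro h0
    apply hlamL0
    have := congrArg (fun z : ↥G.A => (((z : ↥G.A) : ↥L₀) : Qbar)) h0
    exact this
  have hlamGnu : ¬ IsUnit lamG := by
    intro hu
    have h1 : IsUnit (s18q_comapHom (algebraMap ↥L₀ Qbar) A lamG) := hu.map _
    have h2 : s18q_comapHom (algebraMap ↥L₀ Qbar) A lamG = lamA := Subtype.ext rfl
    rw [h2] at h1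
    have hlam : lamA ∈ IsLocalRing.maximalIdeal ↥A :=
      (IsLocalRing.residue_eq_zero_iff _).mp hlamπ
    rw [IsLocalRing.mem_maximalIdeal, mem_nonunits_iff] at hlam
    exact hlam h1
  have huuG : uG * uinvG = 1 := by
    apply Subtype.ext
    apply Subtype.ext
    exact huu
  have hnuG : (p : ↥L₀) = ((uG : ↥G.A) : ↥L₀) * ((lamG : ↥G.A) : ↥L₀) ^ (p - 1) := by
    apply Subtype.ext
    show ((p : ↥L₀) : Qbar) = (uA : Qbar) * lam ^ (p - 1)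
    rw [← hnu]
    norm_cast
  -- the relation at the level
  have hinc : ∀ y : ↥(laurentBaseChange ↥L₀ FQ₁),
      s18q_map (algebraMap ↥L₀ Qbar) FQ₂
        (algebraMap ↥(laurentBaseChange ↥L₀ FQ₁) ↥(laurentBaseChange ↥L₀ FQ₂) y) =
      algebraMap ↥(laurentBaseChange Qbar FQ₁) ↥(laurentBaseChange Qbar FQ₂)
        (s18q_map (algebraMap ↥L₀ Qbar) FQ₁ y) := by
    intro y
    apply Subtype.ext
    rw [halg]
    rfl
  have hτ₀rel : τ₀ = algebraMap ↥(laurentBaseChange ↥L₀ FQ₁) ↥(laurentBaseChange ↥L₀ FQ₂) a₀ +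
      algebraMap ↥L₀ ↥(laurentBaseChange ↥L₀ FQ₂) ((lamG : ↥G.A) : ↥L₀) * t₀ := by
    apply s18q_map_injective (algebraMap ↥L₀ Qbar) FQ₂
    rw [hτ₀, map_add, map_mul, hinc, ha₀, ht₀, s18q_map_algebraMap]
    rfl
  -- independence at the level
  have hτ₀' : coeffMap (algebraMap ↥L₀ Qbar) (τ₀ : LaurentSeries ↥L₀) =
      (τ : LaurentSeries Qbar) := by
    rw [← hτ₀]; rfl
  have hindep₀ : ∀ c : Fin p → ↥(laurentBaseChange ↥L₀ FQ₁),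
      ∑ j : Fin p, (c j : LaurentSeries ↥L₀) * (τ₀ : LaurentSeries ↥L₀) ^ (j : ℕ) = 0 →
        ∀ j, c j = 0 := by
    intro c hc j
    have h1 := congrArg (coeffMap (algebraMap ↥L₀ Qbar)) hc
    rw [map_sum, map_zero] at h1
    have h2 : ∑ j : Fin p, ((s18q_map (algebraMap ↥L₀ Qbar) FQ₁ (c j) :
        ↥(laurentBaseChange Qbar FQ₁)) : LaurentSeries Qbar) *
        (τ : LaurentSeries Qbar) ^ (j : ℕ) = 0 := by
      rw [← h1]
      refine Finset.sum_congr rfl fun j _ => ?_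
      rw [map_mul, map_pow, hτ₀']
      rfl
    have h3 := hindepT (fun j => s18q_map (algebraMap ↥L₀ Qbar) FQ₁ (c j)) h2 j
    exact (s18q_map_injective _ FQ₁) (h3.trans (map_zero _).symm)
  obtain ⟨bτ₀, hbτ₀⟩ := s48g_basis_of_span_indep (laurentBaseChange ↥L₀ FQ₁)
    (laurentBaseChange ↥L₀ FQ₂) halg₀ τ₀ hspan₀ hindep₀
  haveI hfd₀ : FiniteDimensional ↥(laurentBaseChange ↥L₀ FQ₁) ↥(laurentBaseChange ↥L₀ FQ₂) :=
    Module.Finite.of_basis bτ₀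
  have hhτ₀ : τ₀ ^ p = algebraMap ↥(laurentBaseChange ↥L₀ FQ₁)
      ↥(laurentBaseChange ↥L₀ FQ₂) h₀ :=
    Subtype.ext (by rw [SubmonoidClass.coe_pow]; exact hpow₀)
  -- the power basis of `t₀`
  set lamc : ↥(laurentBaseChange ↥L₀ FQ₁) :=
    algebraMap ↥L₀ ↥(laurentBaseChange ↥L₀ FQ₁) ((lamG : ↥G.A) : ↥L₀) with hlamc
  have hlamG0' : ((lamG : ↥G.A) : ↥L₀) ≠ 0 := fun h0 => hlamG0 (Subtype.ext h0)
  have hlamc0 : lamc ≠ 0 := (_root_.map_ne_zero _).mpr hlamG0'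
  have hlamc2 : algebraMap ↥(laurentBaseChange ↥L₀ FQ₁) ↥(laurentBaseChange ↥L₀ FQ₂) lamc =
      algebraMap ↥L₀ ↥(laurentBaseChange ↥L₀ FQ₂) ((lamG : ↥G.A) : ↥L₀) :=
    (IsScalarTower.algebraMap_apply ↥L₀ ↥(laurentBaseChange ↥L₀ FQ₁)
      ↥(laurentBaseChange ↥L₀ FQ₂) _).symm
  have hlamc20 : algebraMap ↥(laurentBaseChange ↥L₀ FQ₁) ↥(laurentBaseChange ↥L₀ FQ₂) lamc ≠ 0 :=
    (_root_.map_ne_zero _).mpr hlamc0
  obtain ⟨b₀, hb₀'⟩ := s48a_exists_basis_affine bτ₀ τ₀ hbτ₀ lamc⁻¹ (-(a₀ / lamc))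
    (inv_ne_zero hlamc0)
  have ht₀τ : algebraMap ↥(laurentBaseChange ↥L₀ FQ₁) ↥(laurentBaseChange ↥L₀ FQ₂) lamc⁻¹ * τ₀ +
      algebraMap ↥(laurentBaseChange ↥L₀ FQ₁) ↥(laurentBaseChange ↥L₀ FQ₂) (-(a₀ / lamc)) =
      t₀ := by
    rw [hτ₀rel, ← hlamc2, map_neg, map_div₀, map_inv₀]
    field_simp
    ring
  have hb₀ : ∀ i : Fin p, b₀ i = t₀ ^ (i : ℕ) := by
    intro i
    rw [hb₀' i, ht₀τ]
  -- the map to the top
  have hi : ∀ y ∈ s18g_V G (laurentBaseChange ↥L₀ FQ₁) hFrac₁,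
      s18q_map (algebraMap ↥L₀ Qbar) FQ₁ y ∈ s48d_qO Q₁ := by
    intro y hy
    show coeffMap (algebraMap ↥L₀ Qbar) (y : LaurentSeries ↥L₀) ∈ s37r_O A _
    exact s37r_level_mem_O A L₀ ϖ hϖ hy
  -- the uniformiser dies at the top
  have hPc := hP
  obtain ⟨D₁, i1, i2, i3, i4, i5, i6, PsiD₁, hc₁⟩ := hPc
  have hϖA : algebraMap ↥L₀ Qbar (ϖ : ↥L₀) ∈ A := ϖ.2
  have hϖmax : (⟨algebraMap ↥L₀ Qbar (ϖ : ↥L₀), hϖA⟩ : ↥A) ∈ IsLocalRing.maximalIdeal ↥A :=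
    s37r_unif_mem_maximalIdeal A L₀ ϖ hϖ
  have hϖ0 : s48d_qRed Q₁ ⟨s18q_map (algebraMap ↥L₀ Qbar) FQ₁
      (algebraMap ↥L₀ ↥(laurentBaseChange ↥L₀ FQ₁) (((G.ϖ : G.A)) : ↥L₀)),
      hi _ (s18f_const_mem_V _ (laurentBaseChange ↥L₀ FQ₁) hFrac₁ _)⟩ = 0 := by
    have h1 := hc₁.red_const ⟨algebraMap ↥L₀ Qbar (ϖ : ↥L₀), hϖA⟩
    have h2 : IsLocalRing.residue ↥A ⟨algebraMap ↥L₀ Qbar (ϖ : ↥L₀), hϖA⟩ = 0 :=
      (IsLocalRing.residue_eq_zero_iff _).mpr hϖmax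
    rw [h2, map_zero] at h1
    rw [← h1]
    congr 1
    exact Subtype.ext (s18q_map_algebraMap _ _ _)
  -- Gauss unit at the level
  have hPf' := hPf
  obtain ⟨Fbf, iFf, redf, hPf1, hPf2⟩ := hPf'
  obtain ⟨Df, j1, j2, j3, j4, ψf, hcf⟩ := hPf1
  have hih₀ : s18q_map (algebraMap ↥L₀ Qbar) FQ₁ h₀ ∈ s48d_qO Q₁ := by rw [hh₀]; exact hhO
  have hredh₀ : s48d_qRed Q₁ ⟨s18q_map (algebraMap ↥L₀ Qbar) FQ₁ h₀, hih₀⟩ ≠ 0 := by
    have : (⟨s18q_map (algebraMap ↥L₀ Qbar) FQ₁ h₀, hih₀⟩ : ↥(s48d_qO Q₁)) = ⟨h, hhO⟩ :=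
      Subtype.ext hh₀
    rw [this]
    exact hhred
  have hunit := s48g_level_unit_of_top hcf.U (hcf.const_mem _) (s48d_qO Q₁) (s48d_qRed Q₁)
    (s18q_map (algebraMap ↥L₀ Qbar) FQ₁) hi hϖ0 h₀ hih₀ hredh₀
  have hh₀ne : h₀ ≠ 0 := by
    rintro rfl
    apply hredh₀
    have : (⟨s18q_map (algebraMap ↥L₀ Qbar) FQ₁ 0, hih₀⟩ : ↥(s48d_qO Q₁)) = 0 :=
      Subtype.ext (map_zero _)
    rw [this, map_zero]
  have hdiv₀ : ∀ P₀ : Place ↥L₀ ↥(laurentBaseChange ↥L₀ FQ₁), (p : ℤ) ∣ P₀.ord h₀ := by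
    haveI := s18q_isAlgebraic_over L₀
    intro P₀
    obtain ⟨P, rfl⟩ := s18q_restrictGen_surjective ↥L₀ (K := Qbar) FQ₁ P₀
    rw [← s18q_ord_restrictGen, hh₀]
    exact hdiv P
  -- integrality of `a₀` and of the constant term
  have haV : a₀ ∈ s18g_V G (laurentBaseChange ↥L₀ FQ₁) hFrac₁ := by
    refine s48g_level_mem_V_of_iota A L₀ ϖ hϖ FQ₁ hFrac₁ a₀ X₀ ?_
    have := congrArg (fun z : ↥(laurentBaseChange Qbar FQ₁) => (z : LaurentSeries Qbar)) ha₀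
    exact this
  have hlamF₁ : (algebraMap Qbar (LaurentSeries Qbar) lam) ≠ 0 :=
    (_root_.map_ne_zero _).mpr hlamL0
  have hccrel : coeffMap A.subtype cc =
      (coeffMap A.subtype Y - coeffMap A.subtype X₀ ^ p) /
        (algebraMap Qbar (LaurentSeries Qbar) lam) ^ p := by
    rw [hcc, map_add, map_mul, map_pow, map_pow, map_pow, s48a_iota_C]
    field_simp
    simp only [hlamdef]
    ring
  have hlamcmap : s18q_map (algebraMap ↥L₀ Qbar) FQ₁ lamc =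
      algebraMap Qbar ↥(laurentBaseChange Qbar FQ₁) lam := by
    rw [hlamc, s18q_map_algebraMap]
    rfl
  have hc0V : (a₀ ^ p - h₀) / lamc ^ p ∈ s18g_V G (laurentBaseChange ↥L₀ FQ₁) hFrac₁ := by
    refine s48g_level_mem_V_of_iota A L₀ ϖ hϖ FQ₁ hFrac₁ _ (-cc) ?_
    have h1 : s18q_map (algebraMap ↥L₀ Qbar) FQ₁ ((a₀ ^ p - h₀) / lamc ^ p) =
        (a ^ p - h) / algebraMap Qbar ↥(laurentBaseChange Qbar FQ₁) lam ^ p := by
      rw [map_div₀, map_sub, map_pow, map_pow, ha₀, hh₀, hlamcmap]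
    have h2 := congrArg (fun z : ↥(laurentBaseChange Qbar FQ₁) => (z : LaurentSeries Qbar)) h1
    simp only [s18q_map_coe] at h2
    rw [h2, map_neg, hccrel]
    show ((a ^ p - h : ↥(laurentBaseChange Qbar FQ₁)) : LaurentSeries Qbar) /
      ((algebraMap Qbar ↥(laurentBaseChange Qbar FQ₁) lam ^ p :
        ↥(laurentBaseChange Qbar FQ₁)) : LaurentSeries Qbar) = _
    rw [AddSubgroupClass.coe_sub, SubmonoidClass.coe_pow, SubmonoidClass.coe_pow]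
    show (coeffMap A.subtype X₀ ^ p - coeffMap A.subtype Y) /
      (algebraMap Qbar (LaurentSeries Qbar) lam) ^ p = _
    rw [← neg_div, neg_sub]
  -- the wild polynomial at the level
  have hlamV : lamc ∈ s18g_V G (laurentBaseChange ↥L₀ FQ₁) hFrac₁ :=
    s18f_const_mem_V G (laurentBaseChange ↥L₀ FQ₁) hFrac₁ lamG
  have huV : algebraMap ↥L₀ ↥(laurentBaseChange ↥L₀ FQ₁) ((uG : ↥G.A) : ↥L₀) ∈
      s18g_V G (laurentBaseChange ↥L₀ FQ₁) hFrac₁ :=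
    s18f_const_mem_V G (laurentBaseChange ↥L₀ FQ₁) hFrac₁ uG
  have hnuF₀ : (p : ↥(laurentBaseChange ↥L₀ FQ₁)) =
      algebraMap ↥L₀ ↥(laurentBaseChange ↥L₀ FQ₁) ((uG : ↥G.A) : ↥L₀) * lamc ^ (p - 1) := by
    rw [hlamc, ← map_pow, ← map_mul, ← hnuG, map_natCast]
  have hrelK₀ : (t₀ + algebraMap ↥(laurentBaseChange ↥L₀ FQ₁) ↥(laurentBaseChange ↥L₀ FQ₂)
      (a₀ / lamc)) ^ p =
      algebraMap ↥(laurentBaseChange ↥L₀ FQ₁) ↥(laurentBaseChange ↥L₀ FQ₂) (h₀ / lamc ^ p) := by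
    have h3 : t₀ + algebraMap ↥(laurentBaseChange ↥L₀ FQ₁) ↥(laurentBaseChange ↥L₀ FQ₂)
        (a₀ / lamc) =
        τ₀ / algebraMap ↥(laurentBaseChange ↥L₀ FQ₁) ↥(laurentBaseChange ↥L₀ FQ₂) lamc := by
      rw [hτ₀rel, map_div₀, ← hlamc2]
      field_simp
      ring
    rw [h3, div_pow, hhτ₀, map_div₀, map_pow]
  obtain ⟨f₀, hf₀monic, hf₀deg, hf₀root, hf₀map⟩ := s48c_wild_poly
    (s18g_V G (laurentBaseChange ↥L₀ FQ₁) hFrac₁) hn t₀ lamc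
    (algebraMap ↥L₀ ↥(laurentBaseChange ↥L₀ FQ₁) ((uG : ↥G.A) : ↥L₀)) a₀ h₀ hlamV hlamc0 huV
    hnuF₀ haV hc0V hrelK₀
  -- the polynomial at the top
  set i' : ↥(s18g_V G (laurentBaseChange ↥L₀ FQ₁) hFrac₁) →+* ↥(s48d_qO Q₁) :=
    ((s18q_map (algebraMap ↥L₀ Qbar) FQ₁).comp
      (s18g_V G (laurentBaseChange ↥L₀ FQ₁) hFrac₁).subtype).codRestrict (s48d_qO Q₁)
      (fun y => hi y y.2) with hi'
  set ft : (↥(s48d_qO Q₁))[X] := f₀.map i' with hft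
  have hftcoe : ∀ k : ℕ, ((ft.coeff k : ↥(s48d_qO Q₁)) : ↥(laurentBaseChange Qbar FQ₁)) =
      s18q_map (algebraMap ↥L₀ Qbar) FQ₁
        ((f₀.coeff k : ↥(s18g_V G (laurentBaseChange ↥L₀ FQ₁) hFrac₁)) :
          ↥(laurentBaseChange ↥L₀ FQ₁)) := by
    intro k
    rw [hft, coeff_map]
    rfl
  have hftmap : ft.map (s48d_qO Q₁).subtype =
      s48a_wpoly a (algebraMap Qbar ↥(laurentBaseChange Qbar FQ₁) lam) h p := by
    have h1 : ft.map (s48d_qO Q₁).subtype =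
        (f₀.map (s18g_V G (laurentBaseChange ↥L₀ FQ₁) hFrac₁).subtype).map
          (s18q_map (algebraMap ↥L₀ Qbar) FQ₁) := by
      rw [hft, Polynomial.map_map, Polynomial.map_map]
      rfl
    rw [h1, hf₀map, s48g_wpoly_map, ha₀, hh₀, hlamcmap]
  obtain ⟨hirr, hsep⟩ := hirrsep ft hftmap
  have hϖG : Irreducible G.ϖ := hϖ
  have hτ₀rel' : τ₀ = algebraMap ↥(laurentBaseChange ↥L₀ FQ₁) ↥(laurentBaseChange ↥L₀ FQ₂) a₀ +
      algebraMap ↥L₀ ↥(laurentBaseChange ↥L₀ FQ₂) ((lamG : ↥G.A) : ↥L₀) * t₀ := hτ₀rel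
  have hP₂ := s48c_finPack2_wild G (laurentBaseChange ↥L₀ FQ₁) (laurentBaseChange ↥L₀ FQ₂)
    hFrac₁ (hFrac₂ L₀ ϖ hϖ) halg₀ w₀ hPf hϖG hn b₀ t₀ hb₀ f₀ hf₀monic hf₀deg hf₀root
    (s48d_qO Q₁) (s48d_qRed Q₁) (s18q_map (algebraMap ↥L₀ Qbar) FQ₁) hi hϖ0 ft hftcoe hirr hsep
    lamG uG uinvG hlamG0 hlamGnu huuG hnuG τ₀ a₀ haV hτ₀rel' h₀ hhτ₀ hunit.1 hunit.2 hh₀ne hdiv₀
  haveI : FFGen ↥L₀ (algebraMap ↥(laurentBaseChange ↥L₀ FQ₁)
      ↥(laurentBaseChange ↥L₀ FQ₂) w₀) := s48g_ffGen_algebraMap w₀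
  refine ⟨hFrac₂ L₀ ϖ hϖ, algebraMap ↥(laurentBaseChange ↥L₀ FQ₁)
    ↥(laurentBaseChange ↥L₀ FQ₂) w₀, inferInstance, ?_, hP₂⟩
  apply Subtype.ext
  rw [halg, ← hw]
  rfl

include hA halg in
/-- **(T6) the wild step of the tower induction**: `IH(FQ₁, w) ⇒ IH(FQ₂, w)` for a layer
`F₂ = F₁(t)` of degree `p` (the residue characteristic), `t = ιT`, `τ = ι(X₀ + λ T)`,
`τ ^ p = ιY ∈ F₁`, `Y = X₀ ^ p + λ ^ p cc`, `p = u λ ^ (p - 1)`, `ρY ≠ 0`, `p ∣ div (ιY)`. -/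
theorem s48g_wild_step (h01 : FQ₀ ≤ FQ₁) (h12 : FQ₁ ≤ FQ₂) (S₂ : Finset (LaurentSeries ℚ))
    (hS₂ : FQ₂ ≤ IntermediateField.adjoin ℚ (S₂ : Set (LaurentSeries ℚ)))
    (hS₂mem : ∀ s ∈ S₂, s ∈ FQ₂)
    (w : ↥(laurentBaseChange Qbar FQ₁)) (hw0 : w ≠ 0)
    (T X₀ Y cc : LaurentSeries ↥A)
    (hT2 : coeffMap A.subtype T ∈ laurentBaseChange Qbar FQ₂)
    (hTG : coeffMap (IsLocalRing.residue ↥A) T ∈ Gb)
    (b : Module.Basis (Fin p) ↥(laurentBaseChange Qbar FQ₁) ↥(laurentBaseChange Qbar FQ₂))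
    (hb : ∀ i : Fin p, b i = (⟨coeffMap A.subtype T, hT2⟩ : ↥(laurentBaseChange Qbar FQ₂)) ^ (i : ℕ))
    (hX₀ : coeffMap A.subtype X₀ ∈ laurentBaseChange Qbar FQ₁)
    (hY : coeffMap A.subtype Y ∈ laurentBaseChange Qbar FQ₁)
    (lamA uA uinvA : ↥A) (huinv : uA * uinvA = 1)
    (hpu : ((p : ℕ) : ↥A) = uA * lamA ^ (p - 1))
    (hlamπ : IsLocalRing.residue ↥A lamA = 0) (hlam0 : lamA ≠ 0)
    (hrelS : Y = (X₀ + HahnSeries.C lamA * T) ^ p)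
    (hcc : Y = X₀ ^ p + HahnSeries.C (lamA ^ p) * cc)
    (hY0 : coeffMap (IsLocalRing.residue ↥A) Y ≠ 0)
    (hdiv : ∀ P : Place Qbar ↥(laurentBaseChange Qbar FQ₁),
      (p : ℤ) ∣ P.ord (⟨coeffMap A.subtype Y, hY⟩ : ↥(laurentBaseChange Qbar FQ₁)))
    (hFrac₂ : ∀ (L₀ : IntermediateField ℚ Qbar)
      [IsDiscreteValuationRing ↥(A.comap (algebraMap ↥L₀ Qbar))]
      (ϖ : ↥(A.comap (algebraMap ↥L₀ Qbar))) (hϖ : Irreducible ϖ),
      ∀ f ∈ laurentBaseChange ↥L₀ FQ₂,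
        f ∈ s18g_Frac (s18g_GaussData.ofResidue (A.comap (algebraMap ↥L₀ Qbar)) ϖ hϖ))
    (hIH : s48g_TopIH A FQ₀ Gb FQ₁ w ∧ s48g_FinIH A FQ₁ w) :
    s48g_TopIH A FQ₀ Gb FQ₂
        (algebraMap ↥(laurentBaseChange Qbar FQ₁) ↥(laurentBaseChange Qbar FQ₂) w) ∧
      s48g_FinIH A FQ₂
        (algebraMap ↥(laurentBaseChange Qbar FQ₁) ↥(laurentBaseChange Qbar FQ₂) w) :=
  ⟨s48g_wild_step_top hA halg h01 w hw0 T X₀ Y cc hT2 hTG b hb hX₀ hY lamA uA uinvA huinv hpu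
      hlamπ hlam0 hrelS hcc hY0 hdiv hIH.1 hIH.2,
    s48g_wild_step_fin hA halg h01 h12 S₂ hS₂ hS₂mem w hw0 T X₀ Y cc hT2 hTG b hb hX₀ hY lamA uA
      uinvA huinv hpu hlamπ hlam0 hrelS hcc hY0 hdiv hFrac₂ hIH.1 hIH.2⟩

end FinStep

end Fermat.Agent.Lib.S48
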