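/-
DS-1 (S48), wild step of the tower (helper2, Mathlib only; request of helper1 #2455): the cyclotomic
data `λ = ζ − 1`, `p = u · λ^(p−1)` with `u` a unit, inside ANY valuation subring `A` of a field `L`
containing a primitive `p`-th root of unity `ζ`; and `λ` reduces to `0` if `A` lies over `p`.
These are the `lamA uA uinvA huinv hpu hlamπ hlam0` inputs of the wild step.
-/
import Mathlib
import Fermat.Prelude.Def_FLTPrelim_Ramification

set_option autoImplicit false

namespace Fermat.Agent.Lib.S48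

open Finset

/-- A root of unity lies in every valuation subring. -/
theorem s48w_mem_of_pow_eq_one {L : Type*} [Field L] (A : ValuationSubring L) {n : ℕ} (hn : n ≠ 0)
    {ζ : L} (hζ : ζ ^ n = 1) : ζ ∈ A := by
  rcases A.mem_or_inv_mem ζ with h | h
  · exact h
  · have h1 : ζ = ζ⁻¹ ^ (n - 1) := by
      have hζ0 : ζ ≠ 0 := by
        rintro rfl
        rw [zero_pow hn] at hζ
        exact zero_ne_one hζ
      have h2 : ζ * ζ ^ (n - 1) = 1 := by
        rw [← pow_succ', Nat.sub_add_cancel (Nat.pos_of_ne_zero hn), hζ]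
      rw [inv_pow]
      exact eq_inv_of_mul_eq_one_left h2
    rw [h1]
    exact pow_mem h _

/-- In a domain with a primitive `p`-th root of unity `μ` (`p` prime):
`p = u · (μ − 1)^(p−1)` with `u` a unit. -/
theorem s48w_prime_eq_unit_mul_pow {R : Type*} [CommRing R] [IsDomain R] {p : ℕ} (hp : p.Prime)
    {μ : R} (hμ : IsPrimitiveRoot μ p) :
    ∃ u : R, IsUnit u ∧ ((p : ℕ) : R) = u * (μ - 1) ^ (p - 1) := by
  obtain ⟨n, rfl⟩ : ∃ n, p = n + 1 := ⟨p - 1, (Nat.sub_add_cancel hp.one_lt.le).symm⟩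
  have hprod := hμ.prod_one_sub_pow_eq_order
  have hfac : ∀ k : ℕ, 1 - μ ^ (k + 1) = (-1) * ((μ - 1) * ∑ i ∈ range (k + 1), μ ^ i) := by
    intro k
    rw [mul_geom_sum]
    ring
  have hunit : ∀ k ∈ range n, IsUnit (∑ i ∈ range (k + 1), μ ^ i) := by
    intro k hk
    have hk' : k + 1 < n + 1 := by
      have := mem_range.mp hk
      omega
    exact hμ.geom_sum_isUnit hp.two_le
      (Nat.coprime_of_lt_prime (Nat.succ_ne_zero k) hk' hp).symm
  refine ⟨(-1) ^ n * ∏ k ∈ range n, ∑ i ∈ range (k + 1), μ ^ i, ?_, ?_⟩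
  · refine IsUnit.mul (IsUnit.pow _ isUnit_one.neg) ?_
    exact Finset.prod_induction _ IsUnit (fun _ _ => IsUnit.mul) isUnit_one hunit
  · rw [Nat.add_sub_cancel]
    have h1 : ((n + 1 : ℕ) : R) = (n : R) + 1 := by push_cast; ring
    rw [h1, ← hprod]
    simp_rw [hfac]
    rw [Finset.prod_mul_distrib, Finset.prod_mul_distrib, Finset.prod_const, Finset.prod_const,
      card_range]
    ring

/-- **The cyclotomic data of the wild step**: for a valuation subring `A` of `L` and a primitive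
`p`-th root of unity `ζ ∈ L`: `λ = ζ − 1 ∈ A`, `p = u · λ^(p−1)` with `u ∈ Aˣ`, `λ ≠ 0`, and
`λ ≡ 0` modulo the maximal ideal as soon as `A` lies over `p`. -/
theorem s48w_cyc {L : Type*} [Field L] (A : ValuationSubring L) {p : ℕ} (hp : p.Prime) (ζ : L)
    (hζ : IsPrimitiveRoot ζ p) :
    ∃ lamA uA uinvA : ↥A, (lamA : L) = ζ - 1 ∧ uA * uinvA = 1 ∧
      ((p : ℕ) : ↥A) = uA * lamA ^ (p - 1) ∧ lamA ≠ 0 ∧
      (A.LiesOverPrime p → IsLocalRing.residue ↥A lamA = 0) := by
  have hζA : ζ ∈ A := s48w_mem_of_pow_eq_one A hp.ne_zero hζ.pow_eq_one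
  set μ : ↥A := ⟨ζ, hζA⟩ with hμdef
  have hμ : IsPrimitiveRoot μ p := by
    refine IsPrimitiveRoot.of_map_of_injective (f := A.subtype) ?_ Subtype.val_injective
    exact hζ
  obtain ⟨u, hu, hpu⟩ := s48w_prime_eq_unit_mul_pow hp hμ
  obtain ⟨uinv, huinv⟩ := hu.exists_right_inv
  have hne : μ - 1 ≠ 0 := sub_ne_zero.mpr (hμ.ne_one hp.one_lt)
  refine ⟨μ - 1, u, uinv, rfl, huinv, hpu, hne, ?_⟩
  intro hA
  rw [IsLocalRing.residue_eq_zero_iff]
  obtain ⟨hpA, hpm⟩ := (ValuationSubring.mem_nonunits_iff_exists_mem_maximalIdeal).mp hA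
  have h1 : ((p : ℕ) : ↥A) = ⟨(p : L), hpA⟩ := Subtype.ext (by simp)
  rw [← h1, hpu] at hpm
  have hprime := (IsLocalRing.maximalIdeal.isMaximal ↥A).isPrime
  rcases hprime.mem_or_mem hpm with h2 | h2
  · exact absurd hu ((IsLocalRing.mem_maximalIdeal _).mp h2)
  · exact hprime.mem_of_pow_mem _ h2

end Fermat.Agent.Lib.S48
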