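/-
DS-1 (S48), wall [T9] (helper9): **the affine change of basis of a wild layer.**

A layer `F₂/F₁` of degree `n` with a power basis `b i = τ ^ i` and an affine substitution
`τ = a + λ t` (`a, λ ∈ F₁`): the powers of `t` are again a basis.

* `s48c_affine_basis`        : the abstract statement for fields;
* `s48c_affine_basis_series` : the form for intermediate fields of `L((q))` with integral series
  data over a valuation subring `A ⊆ L`: `τ = ι(T_A)`, `T_A = X₀ + C λ_A * T`, `ι X₀ ∈ F₁`, `λ_A ≠ 0`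
  ⇒ `ι T ∈ F₂` and the powers of `⟨ι T, _⟩` are a basis (the `b t hb` inputs of the wild step).
-/
import Mathlib
import Fermat.Prelude.Def_ModularCurve_LaurentCoeff

set_option autoImplicit false
set_option linter.unusedSectionVars false
set_option linter.style.haveILetI false

noncomputable section

namespace Fermat.Agent.Lib.S48

open ModularCurve HahnSeries

/-- **the affine change of basis**: `b i = τ ^ i`, `τ = a + λ t` ⇒ the powers of `t` form a basis. -/
theorem s48c_affine_basis {F₁ F₂ : Type*} [Field F₁] [Field F₂] [Algebra F₁ F₂] {n : ℕ}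
    (b : Module.Basis (Fin n) F₁ F₂) (τ : F₂) (hb : ∀ i : Fin n, b i = τ ^ (i : ℕ))
    (a lam : F₁) (t : F₂) (hτ : τ = algebraMap F₁ F₂ a + algebraMap F₁ F₂ lam * t) :
    ∃ b' : Module.Basis (Fin n) F₁ F₂, ∀ i : Fin n, b' i = t ^ (i : ℕ) := by
  classical
  have hspan : ⊤ ≤ Submodule.span F₁ (Set.range fun i : Fin n => t ^ (i : ℕ)) := by
    rw [← b.span_eq]
    apply Submodule.span_le.mpr
    rintro _ ⟨i, rfl⟩
    rw [hb i, hτ, add_pow]
    refine Submodule.sum_mem _ fun j _ => ?_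
    have hj' : (i : ℕ) - j < n := lt_of_le_of_lt (Nat.sub_le _ _) i.2
    have h1 : (algebraMap F₁ F₂ a) ^ j * (algebraMap F₁ F₂ lam * t) ^ ((i : ℕ) - j) *
        (((i : ℕ).choose j : ℕ) : F₂) =
        (a ^ j * lam ^ ((i : ℕ) - j) * (((i : ℕ).choose j : ℕ) : F₁)) • t ^ ((i : ℕ) - j) := by
      rw [Algebra.smul_def, map_mul, map_mul, map_pow, map_pow, map_natCast, mul_pow]
      ring
    rw [h1]
    exact Submodule.smul_mem _ _ (Submodule.subset_span ⟨⟨(i : ℕ) - j, hj'⟩, rfl⟩)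
  have hcard : Fintype.card (Fin n) = Module.finrank F₁ F₂ := by
    rw [Module.finrank_eq_card_basis b]
  refine ⟨basisOfTopLeSpanOfCardEqFinrank (fun i : Fin n => t ^ (i : ℕ)) hspan hcard, fun i => ?_⟩
  rw [coe_basisOfTopLeSpanOfCardEqFinrank]

/-- **the affine change of basis, series form.** -/
theorem s48c_affine_basis_series {L : Type*} [Field L]
    {F₁ F₂ : IntermediateField L (LaurentSeries L)} [Algebra ↥F₁ ↥F₂]
    (halg : ∀ a : ↥F₁, ((algebraMap ↥F₁ ↥F₂ a : ↥F₂) : LaurentSeries L) = (a : LaurentSeries L))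
    {n : ℕ} (b : Module.Basis (Fin n) ↥F₁ ↥F₂) (τ : ↥F₂) (hb : ∀ i : Fin n, b i = τ ^ (i : ℕ))
    (A : ValuationSubring L) (TA X₀ T : LaurentSeries ↥A) (lamA : ↥A) (hlam0 : lamA ≠ 0)
    (hτ : (τ : LaurentSeries L) = coeffMap A.subtype TA)
    (hTA : TA = X₀ + HahnSeries.C lamA * T)
    (hX₀ : coeffMap A.subtype X₀ ∈ F₁) :
    ∃ (hT2 : coeffMap A.subtype T ∈ F₂) (b' : Module.Basis (Fin n) ↥F₁ ↥F₂),
      ∀ i : Fin n, b' i = (⟨coeffMap A.subtype T, hT2⟩ : ↥F₂) ^ (i : ℕ) := by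
  have hle : ∀ y ∈ F₁, y ∈ F₂ := fun y hy => by
    have := (algebraMap ↥F₁ ↥F₂ ⟨y, hy⟩).2
    rwa [halg] at this
  have hC : coeffMap A.subtype (HahnSeries.C lamA : LaurentSeries ↥A) =
      algebraMap L (LaurentSeries L) (lamA : L) := by
    rw [algebraMap_laurentSeries_eq_single, HahnSeries.C_apply, coeffMap_single]
    rfl
  have hlamL : (lamA : L) ≠ 0 := fun h => hlam0 (Subtype.ext h)
  have hCne : algebraMap L (LaurentSeries L) (lamA : L) ≠ 0 := by
    rw [Ne, map_eq_zero]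
    exact hlamL
  have hrel : (τ : LaurentSeries L) = coeffMap A.subtype X₀ +
      algebraMap L (LaurentSeries L) (lamA : L) * coeffMap A.subtype T := by
    rw [hτ, hTA, map_add, map_mul, hC]
  have hT2 : coeffMap A.subtype T ∈ F₂ := by
    have h1 : coeffMap A.subtype T = ((τ : LaurentSeries L) - coeffMap A.subtype X₀) *
        (algebraMap L (LaurentSeries L) (lamA : L))⁻¹ := by
      rw [hrel, add_sub_cancel_left, mul_comm, ← mul_assoc, inv_mul_cancel₀ hCne, one_mul]
    rw [h1]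
    exact F₂.mul_mem (F₂.sub_mem τ.2 (hle _ hX₀)) (F₂.inv_mem (F₂.algebraMap_mem _))
  refine ⟨hT2, ?_⟩
  refine s48c_affine_basis b τ hb ⟨coeffMap A.subtype X₀, hX₀⟩ (algebraMap L ↥F₁ (lamA : L))
    ⟨coeffMap A.subtype T, hT2⟩ ?_
  apply Subtype.ext
  rw [AddMemClass.coe_add, MulMemClass.coe_mul, halg, halg]
  exact hrel

end Fermat.Agent.Lib.S48
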