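/-
DS-1 (S48), (T-conc) the concrete tower of `F_H` (helper1): **the concrete WILD step** (`r = p`), as ONE call
of the generic wild step (helper6's `s48g_wild_step`), fed with helper5's wild series data
(`s48wg_Layer.wild_data_Z`), helper2's cyclotomic unit (`s48w_cyc`), helper9's affine change of basis
(`s48c_affine_basis_series`) and helper3's `s48h_kdiv_layer`; hence **`s48a_redInputsQ : s48e_RedInputsQ`**.
-/
import Fermat.Agent.Lib.S48.ATStep
import Fermat.Agent.Lib.S48.ATTower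
import Fermat.Agent.Lib.S48.WCyc
import Fermat.Agent.Lib.S48.WildAff
import Fermat.Agent.Lib.S48.GTowerWF

set_option autoImplicit false
set_option linter.unusedSectionVars false
set_option linter.style.haveILetI false

noncomputable section

namespace Fermat.Agent.Lib.S48

open ModularCurve HahnSeries AlgebraicCurve IntermediateField Fermat.Agent.Lib.S18
  Fermat.Agent.Lib.FF

local notation "Qbar" => AlgebraicClosure ℚ

set_option synthInstance.maxHeartbeats 400000 in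
set_option maxHeartbeats 1600000 in
/-- **the concrete wild step** (`r = p`): one call of the generic wild step `s48g_wild_step`. -/
theorem s48a_wildStep : s48a_WildStep := by
  classical
  intro M N₁ ℓ₀ _ H hL p _ hpM A hA H' hHH' g hg hgp hP
  obtain ⟨w, hw0, htop, hfin⟩ := hP
  have hp : p.Prime := Fact.out
  obtain ⟨χ, hLay⟩ := s48wg_exists_layer H' g p hp hg hgp
  have hM : 1 < M := s48wg_one_lt_of_level H hL
  have hneg : (-1 : (ZMod M)ˣ) ∈ H' := hHH' hL.neg_one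
  haveI : NeZero p := ⟨hp.ne_zero⟩
  letI alg := s48wg_layerAlgebra hLay.le
  haveI := s48wg_layer_isScalarTower hLay.le
  haveI := hLay.finiteDimensional hM hneg
  have halg : ∀ a : ↥(s48k_FH M (H' ⊔ Subgroup.zpowers g)),
      ((algebraMap ↥(s48k_FH M (H' ⊔ Subgroup.zpowers g)) ↥(s48k_FH M H') a : ↥(s48k_FH M H')) :
        LaurentSeries Qbar) = (a : LaurentSeries Qbar) := fun a => s48wg_layerAlgebra_coe hLay.le a
  obtain ⟨S₂, hS₂, hS₂mem⟩ := s48wg_exists_finset_gens H'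
  have hχH : χ ∈ s48wg_XH H := s48wg_XH_anti H H' hHH' hLay.chi_mem
  -- the cyclotomic unit
  obtain ⟨lamA, uA, uinvA, hlam, huinv, hpu, hlam0, hlamπ⟩ :=
    s48w_cyc A hp (χ ((g : (ZMod M)ˣ) : ZMod M)) hLay.isPrimitiveRoot
  -- the series data
  obtain ⟨T, X₀, Y, cc, hTA, hX₀, hY, hιY, hrelS, hcc, hY0, hTG, -⟩ :=
    hLay.wild_data_Z hM hneg H hHH' lamA uA hlam hpu
  -- the basis
  obtain ⟨hT2, b', hb'⟩ := s48c_affine_basis_series halg (hLay.basis hM hneg) hLay.tau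
    (fun i => hLay.basis_apply hM hneg i) A (s48wg_TA A χ) X₀ T lamA hlam0
    (by rw [hLay.coe_tau, s48wg_iota_TA]) hTA hX₀
  -- (K-Div)
  have hdiv : ∀ P : Place Qbar ↥(s48k_FH M (H' ⊔ Subgroup.zpowers g)),
      (p : ℤ) ∣ P.ord (⟨coeffMap A.subtype Y, hY⟩ : ↥(s48k_FH M (H' ⊔ Subgroup.zpowers g))) :=
    fun P => s48h_kdiv_layer hL (hHH'.trans hLay.le) χ ((s48wg_mem_XH H).mp hχH) p
      ⟨coeffMap A.subtype Y, hY⟩ hιY P
  have hres := s48g_wild_step hA (FQ₀ := modularFunctionFieldFull M)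
    (Gb := s48e_GbZ M H (IsLocalRing.ResidueField ↥A))
    (FQ₁ := s48k_FHQ M (H' ⊔ Subgroup.zpowers g)) (FQ₂ := s48k_FHQ M H') halg
    (s48k_full_le_FHQ M (H' ⊔ Subgroup.zpowers g))
    (s48wg_FHQ_anti H' (H' ⊔ Subgroup.zpowers g) hLay.le) S₂ hS₂ hS₂mem w hw0
    T X₀ Y cc hT2 hTG b' hb' hX₀ hY lamA uA uinvA huinv hpu (hlamπ hA) hlam0 hrelS hcc hY0 hdiv
    (fun L₀ _ ϖ hϖ f hf => s48wg_FHK_mem_Frac _ H' f hf) ⟨htop, hfin⟩
  refine ⟨algebraMap ↥(s48k_FH M (H' ⊔ Subgroup.zpowers g)) ↥(s48k_FH M H') w, ?_, hres.1, hres.2⟩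
  exact (map_ne_zero_iff _ (algebraMap ↥(s48k_FH M (H' ⊔ Subgroup.zpowers g))
    ↥(s48k_FH M H')).injective).mpr hw0

/-- **(RedInputsQ)** — the last input of S48. -/
theorem s48a_redInputsQ : s48e_RedInputsQ := s48a_redInputsQ_of_wild s48a_wildStep

end Fermat.Agent.Lib.S48
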