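/-
DS-1 (S48), wall [T9] (helper1), brick (W3-a): **the trace-dual family of an étale chart datum is
generic** (Euler's formula).

If `s` generates `F/F₀` (powers = basis `bs`), `g ∈ F₀[X]` is monic of degree `n = [F : F₀]` with
`g(s) = 0`, and `g'(s) * η = d ∈ F₀`, then with `g / (X - s) = ∑ β_l X^l` the family
`sd l = β_l * η` satisfies `Tr (s ^ i * sd l) = d • δ_il` (`s48a_dualGen_of_cert`); if the
coefficients of `g` lie in a subring `R₀` and `s, η` in a subring `R ⊇ R₀`, then `sd l ∈ R`.
Consequence `s48a_etale_of_cert`: helper6's `s48g_Etale` from generators, monic polynomials,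
certificates and a partition of unity alone.
-/
import Fermat.Agent.Lib.S48.GEtale

set_option autoImplicit false
set_option linter.unusedSectionVars false
set_option linter.style.haveILetI false

noncomputable section

namespace Fermat.Agent.Lib.S48

open Polynomial

variable {F₀ F : Type*} [Field F₀] [Field F] [Algebra F₀ F]

/-- the quotient `g / (X - s)` over `F`. -/
def s48a_quot (g : F₀[X]) (s : F) : F[X] := g.map (algebraMap F₀ F) /ₘ (X - C s)

theorem s48a_quot_spec {g : F₀[X]} {s : F} (hroot : aeval s g = 0) :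
    s48a_quot g s * (X - C s) = g.map (algebraMap F₀ F) := by
  rw [s48a_quot, mul_comm, mul_divByMonic_eq_iff_isRoot, IsRoot, eval_map_algebraMap, hroot]

theorem s48a_quot_coeff {g : F₀[X]} {s : F} (hroot : aeval s g = 0) (i : ℕ) :
    (s48a_quot g s).coeff i =
      algebraMap F₀ F (g.coeff (i + 1)) + (s48a_quot g s).coeff (i + 1) * s := by
  rw [← coeff_map, ← s48a_quot_spec hroot]
  simp [mul_sub]

/-- the coefficients of `g / (X - s)` lie in any subring containing `s` and the coefficients of `g`. -/
theorem s48a_quot_coeff_mem {g : F₀[X]} {s : F} (hroot : aeval s g = 0) (R : Subring F)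
    (hs : s ∈ R) (hg : ∀ i, algebraMap F₀ F (g.coeff i) ∈ R) (i : ℕ) :
    (s48a_quot g s).coeff i ∈ R := by
  by_contra H
  have : ∀ j, (s48a_quot g s).coeff (i + j) ∉ R := by
    intro j
    induction j with
    | zero => exact H
    | succ j IH =>
      intro H'
      apply IH
      rw [s48a_quot_coeff hroot]
      exact R.add_mem (hg _) (R.mul_mem H' hs)
  apply this ((s48a_quot g s).natDegree + 1)
  rw [coeff_eq_zero_of_natDegree_lt (by omega)]
  exact R.zero_mem

variable [FiniteDimensional F₀ F] [Algebra.IsSeparable F₀ F]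

/-- **Euler's formula**: a monic polynomial of degree `[F : F₀]` killing a generator, with a
certificate `g'(s) * η = d`, gives a dual generator. -/
theorem s48a_dualGen_of_cert {n : ℕ} (bs : Module.Basis (Fin n) F₀ F) (s : F)
    (hbs : ∀ i : Fin n, bs i = s ^ (i : ℕ)) (g : F₀[X]) (hmonic : g.Monic) (hdeg : g.natDegree = n)
    (hroot : aeval s g = 0) (η : F) (d : F₀)
    (hcert : aeval s (derivative g) * η = algebraMap F₀ F d) :
    s48g_DualGen bs s (fun l : Fin n => (s48a_quot g s).coeff (l : ℕ) * η) d := by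
  classical
  set pb : PowerBasis F₀ F := PowerBasis.mk s n bs hbs with hpb
  -- `g` is the minimal polynomial of `s`
  have hmin : minpoly F₀ s = g := by
    have h1 : minpoly F₀ s ∣ g := minpoly.dvd F₀ s hroot
    have h2 : (minpoly F₀ s).natDegree = n := pb.natDegree_minpoly
    have hint : IsIntegral F₀ s := Algebra.IsIntegral.isIntegral s
    exact (Polynomial.eq_of_monic_of_dvd_of_natDegree_le (minpoly.monic hint) hmonic h1
      (by rw [h2, hdeg])).symm
  have hquot : s48a_quot g s = minpolyDiv F₀ s := by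
    rw [s48a_quot, minpolyDiv, hmin]
  refine ⟨hbs, fun i l => ?_⟩
  have h1 := Module.Basis.traceDual_powerBasis_eq pb l
  have hgen : pb.gen = s := rfl
  rw [hgen, hmin, ← hquot] at h1
  have h2 := Module.Basis.trace_mul_traceDual pb.basis i l
  rw [h1] at h2
  have hbasis : pb.basis i = s ^ (i : ℕ) := by
    rw [PowerBasis.coe_basis]
  rw [hbasis] at h2
  -- `sd l = (coeff / g'(s)) * d`
  have hne : aeval s (derivative g) ≠ 0 := by
    have hsep : IsSeparable F₀ s := Algebra.IsSeparable.isSeparable F₀ s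
    rw [IsSeparable, hmin] at hsep
    exact hsep.aeval_derivative_ne_zero hroot
  have h3 : s ^ (i : ℕ) * ((s48a_quot g s).coeff (l : ℕ) * η) =
      d • (s ^ (i : ℕ) * ((s48a_quot g s).coeff (l : ℕ) / aeval s (derivative g))) := by
    rw [Algebra.smul_def, ← hcert]
    field_simp
  rw [h3, map_smul, h2, smul_eq_mul]
  split_ifs <;> simp

/-- **an étale chart datum from certificates alone**: the trace-dual families are those of Euler's
formula. -/
theorem s48a_etale_of_cert (R₀ : Subring F₀) (R : Subring F) {n : ℕ} {ι : Type*} (J : Finset ι)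
    (bs : ι → Module.Basis (Fin n) F₀ F) (s : ι → F) (fR : ι → (↥R₀)[X]) (η : ι → F)
    (d e : ι → ↥R₀)
    (hbs : ∀ j ∈ J, ∀ i : Fin n, bs j i = s j ^ (i : ℕ))
    (s_mem : ∀ j ∈ J, s j ∈ R) (eta_mem : ∀ j ∈ J, η j ∈ R)
    (monic : ∀ j ∈ J, (fR j).Monic) (natDegree : ∀ j ∈ J, (fR j).natDegree = n)
    (root : ∀ j ∈ J, eval₂ (s48g_incl (F := F) R₀) (s j) (fR j) = 0)
    (cert : ∀ j ∈ J, eval₂ (s48g_incl (F := F) R₀) (s j) (derivative (fR j)) * η j =
      algebraMap F₀ F ((d j : ↥R₀) : F₀))
    (one : ∑ j ∈ J, e j * d j = 1)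
    (base_mem : ∀ y ∈ R₀, algebraMap F₀ F y ∈ R)
    (trace_mem : ∀ y ∈ R, Algebra.trace F₀ F y ∈ R₀) :
    s48g_Etale R₀ R J bs s fR
      (fun j (l : Fin n) => (s48a_quot ((fR j).map R₀.subtype) (s j)).coeff (l : ℕ) * η j)
      η d e := by
  have hev : ∀ (j : ι) (q : (↥R₀)[X]), aeval (s j) (q.map R₀.subtype) =
      eval₂ (s48g_incl (F := F) R₀) (s j) q := by
    intro j q
    rw [aeval_def, eval₂_map]
    rfl
  have hroot : ∀ j ∈ J, aeval (s j) ((fR j).map R₀.subtype) = 0 := fun j hj => by
    rw [hev, root j hj]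
  refine
  { dual := ?_
    s_mem := s_mem
    sd_mem := ?_
    eta_mem := eta_mem
    monic := monic
    natDegree := natDegree
    root := root
    cert := cert
    one := one
    base_mem := base_mem
    trace_mem := trace_mem }
  · intro j hj
    refine s48a_dualGen_of_cert (bs j) (s j) (hbs j hj) _ ((monic j hj).map _) ?_ (hroot j hj)
      (η j) _ ?_
    · rw [(monic j hj).natDegree_map, natDegree j hj]
    · rw [derivative_map, hev, cert j hj]
  · intro j hj l
    refine R.mul_mem (s48a_quot_coeff_mem (hroot j hj) R (s_mem j hj) (fun i => ?_) _)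
      (eta_mem j hj)
    rw [coeff_map]
    exact base_mem _ ((fR j).coeff i).2

end Fermat.Agent.Lib.S48
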