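/-
DS-1 (S48), wall [T9] (helper1), brick (W3-b): **the étale datum of a wild Kummer layer, algebraic
form** (level-agnostic: `R₀ ⊆ F₀`, `R ⊆ F` arbitrary subrings with `R₀ ⊆ R`, `Tr R ⊆ R₀`).

`F = F₀(τ)`, `τ ^ p = h`, `p` prime, `p = u' * lam ^ (p - 1)` with `lam ∈ R₀`, `u' ∈ R₀ˣ`
(`lam = 1 - ζ_p`).  Given an approximant `Aapp ∈ F₀` of `τ` modulo `lam` and local scalings `a j`:
  `s j = (a j / lam) * (τ - Aapp)`,  `fR j = (X + a j Aapp / lam) ^ p - a j ^ p h / lam ^ p`,
  `fR j ′ (s j) = u' * (a j τ) ^ (p - 1)`,  `η j = a j τ / u'`,  `d j = a j ^ p h`.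
-/
import Fermat.Agent.Lib.S48.AWildA

set_option autoImplicit false
set_option linter.unusedSectionVars false
set_option linter.style.haveILetI false

noncomputable section

namespace Fermat.Agent.Lib.S48

open Polynomial

variable {F₀ F : Type*} [Field F₀] [Field F] [Algebra F₀ F]

/-- a power basis stays a power basis after an affine change of the generator. -/
theorem s48a_exists_basis_affine [FiniteDimensional F₀ F] {n : ℕ} (b : Module.Basis (Fin n) F₀ F)
    (t : F) (hb : ∀ i : Fin n, b i = t ^ (i : ℕ)) (c c' : F₀) (hc : c ≠ 0) :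
    ∃ bs : Module.Basis (Fin n) F₀ F,
      ∀ i : Fin n, bs i = (algebraMap F₀ F c * t + algebraMap F₀ F c') ^ (i : ℕ) := by
  classical
  set s : F := algebraMap F₀ F c * t + algebraMap F₀ F c' with hs
  set pb : PowerBasis F₀ F := PowerBasis.mk t n b hb with hpb
  have htop : Algebra.adjoin F₀ {t} = ⊤ := pb.adjoin_gen_eq_top
  have hmem : t ∈ Algebra.adjoin F₀ {s} := by
    have h1 : t = algebraMap F₀ F c⁻¹ * (s - algebraMap F₀ F c') := by
      rw [hs, add_sub_cancel_right, ← mul_assoc, ← map_mul, inv_mul_cancel₀ hc, map_one, one_mul]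
    rw [h1]
    exact Subalgebra.mul_mem _ (Subalgebra.algebraMap_mem _ _)
      (Subalgebra.sub_mem _ (Algebra.self_mem_adjoin_singleton F₀ s)
        (Subalgebra.algebraMap_mem _ _))
  have htop' : Algebra.adjoin F₀ {s} = ⊤ := by
    rw [eq_top_iff, ← htop]
    exact Algebra.adjoin_le (Set.singleton_subset_iff.mpr hmem)
  have hint : IsIntegral F₀ s := Algebra.IsIntegral.isIntegral s
  set pb' : PowerBasis F₀ F := PowerBasis.ofAdjoinEqTop hint htop' with hpb'
  have hdim : pb'.dim = n := by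
    have h1 : Module.finrank F₀ F = pb'.dim := pb'.finrank
    have h2 : Module.finrank F₀ F = n := by
      rw [Module.finrank_eq_card_basis b, Fintype.card_fin]
    rw [← h1, h2]
  refine ⟨pb'.basis.reindex (finCongr hdim), fun i => ?_⟩
  rw [Module.Basis.reindex_apply, PowerBasis.coe_basis]
  rfl

/-- the polynomial `(X + y / lam) ^ n - d / lam ^ n`. -/
def s48a_wpoly (y lam d : F₀) (n : ℕ) : F₀[X] := (X + C (y / lam)) ^ n - C (d / lam ^ n)

theorem s48a_wpoly_natDegree (y lam d : F₀) (n : ℕ) :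
    (s48a_wpoly y lam d n).natDegree = n := by
  rw [s48a_wpoly]
  have h1 : ((X + C (y / lam)) ^ n : F₀[X]).natDegree = n := by
    rw [natDegree_pow, natDegree_X_add_C, mul_one]
  rw [natDegree_sub_C, h1]

theorem s48a_wpoly_monic (y lam d : F₀) {n : ℕ} (hn : 0 < n) : (s48a_wpoly y lam d n).Monic := by
  rw [s48a_wpoly]
  have h1 : ((X + C (y / lam)) ^ n : F₀[X]).Monic := (monic_X_add_C _).pow n
  refine h1.sub_of_left ?_
  have h2 : ((X + C (y / lam)) ^ n : F₀[X]).degree = n := by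
    rw [degree_pow, degree_X_add_C, nsmul_eq_mul, mul_one]
  rw [h2]
  refine lt_of_le_of_lt degree_C_le ?_
  exact_mod_cast hn

theorem s48a_wpoly_aeval (y lam d : F₀) (n : ℕ) (s : F) :
    aeval s (s48a_wpoly y lam d n) =
      (s + algebraMap F₀ F (y / lam)) ^ n - algebraMap F₀ F (d / lam ^ n) := by
  rw [s48a_wpoly, map_sub, map_pow, map_add, aeval_X, aeval_C, aeval_C]

theorem s48a_wpoly_derivative (y lam d : F₀) (n : ℕ) (s : F) :
    aeval s (derivative (s48a_wpoly y lam d n)) =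
      (n : F) * (s + algebraMap F₀ F (y / lam)) ^ (n - 1) := by
  rw [s48a_wpoly, derivative_sub, derivative_C, sub_zero, derivative_pow, derivative_add,
    derivative_X, derivative_C, add_zero, mul_one, map_mul, map_pow, map_add, aeval_X,
    aeval_C, aeval_C, map_natCast]

/-- the coefficients of `s48a_wpoly` lie in `R₀`. -/
theorem s48a_wpoly_coeff_mem (R₀ : Subring F₀) {n : ℕ} (hn : n.Prime) {y lam d u' : F₀}
    (hlam : lam ∈ R₀) (hlam0 : lam ≠ 0) (hu' : u' ∈ R₀) (hnu : (n : F₀) = u' * lam ^ (n - 1))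
    (hy : y ∈ R₀) (hc0 : (y ^ n - d) / lam ^ n ∈ R₀) (k : ℕ) :
    (s48a_wpoly y lam d n).coeff k ∈ R₀ := by
  rw [s48a_wpoly, coeff_sub, coeff_X_add_C_pow, coeff_C]
  rcases Nat.eq_zero_or_pos k with hk | hk
  · subst hk
    rw [if_pos rfl, Nat.choose_zero_right, Nat.cast_one, mul_one, Nat.sub_zero]
    have : (y / lam) ^ n - d / lam ^ n = (y ^ n - d) / lam ^ n := by
      rw [div_pow, sub_div]
    rw [this]
    exact hc0
  rw [if_neg hk.ne', sub_zero]
  rcases lt_trichotomy k n with hkn | hkn | hkn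
  · -- `n ∣ choose n k`
    obtain ⟨m, hm⟩ := hn.dvd_choose_self hk.ne' hkn
    rw [hm]
    push_cast
    rw [hnu]
    have h1 : n - 1 = (n - k) + (k - 1) := by omega
    have h2 : (y / lam) ^ (n - k) * (u' * lam ^ (n - 1) * (m : F₀)) =
        y ^ (n - k) * u' * lam ^ (k - 1) * (m : F₀) := by
      rw [h1, div_pow, pow_add]
      field_simp
    rw [h2]
    exact R₀.mul_mem (R₀.mul_mem (R₀.mul_mem (R₀.pow_mem hy _) hu') (R₀.pow_mem hlam _))
      (natCast_mem R₀ m)
  · subst hkn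
    rw [Nat.sub_self, pow_zero, Nat.choose_self, Nat.cast_one, mul_one]
    exact R₀.one_mem
  · rw [Nat.choose_eq_zero_of_lt hkn, Nat.cast_zero, mul_zero]
    exact R₀.zero_mem

/-- **the étale datum of a wild Kummer layer** (algebraic form). -/
theorem s48a_wild_etale [FiniteDimensional F₀ F] [Algebra.IsSeparable F₀ F]
    (R₀ : Subring F₀) (R : Subring F)
    (base_mem : ∀ y ∈ R₀, algebraMap F₀ F y ∈ R)
    (trace_mem : ∀ y ∈ R, Algebra.trace F₀ F y ∈ R₀)
    {n : ℕ} (hn : n.Prime) (b : Module.Basis (Fin n) F₀ F) (t : F)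
    (hb : ∀ i : Fin n, b i = t ^ (i : ℕ))
    (lam u' u'' : F₀) (hlam : lam ∈ R₀) (hlam0 : lam ≠ 0) (hu' : u' ∈ R₀) (hu'' : u'' ∈ R₀)
    (huu : u' * u'' = 1) (hnu : (n : F₀) = u' * lam ^ (n - 1))
    (τ : F) (c c' : F₀) (hc : c ≠ 0) (hτt : τ = algebraMap F₀ F c * t + algebraMap F₀ F c')
    (h : F₀) (hh : τ ^ n = algebraMap F₀ F h)
    {ι : Type*} (J : Finset ι) (a : ι → F₀) (Aapp : F₀) (d e : ι → ↥R₀)
    (ha0 : ∀ j ∈ J, a j ≠ 0)
    (hy : ∀ j ∈ J, a j * Aapp ∈ R₀)
    (hs : ∀ j ∈ J, algebraMap F₀ F (a j / lam) * (τ - algebraMap F₀ F Aapp) ∈ R)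
    (hη : ∀ j ∈ J, algebraMap F₀ F (a j) * τ ∈ R)
    (hd : ∀ j ∈ J, ((d j : ↥R₀) : F₀) = a j ^ n * h)
    (hc0 : ∀ j ∈ J, ((a j * Aapp) ^ n - a j ^ n * h) / lam ^ n ∈ R₀)
    (hone : ∑ j ∈ J, e j * d j = 1) :
    ∃ (bs : ι → Module.Basis (Fin n) F₀ F) (s : ι → F) (fR : ι → (↥R₀)[X])
      (sd : ι → Fin n → F) (η : ι → F), s48g_Etale R₀ R J bs s fR sd η d e := by
  classical
  have hnpos : 0 < n := hn.pos
  set s : ι → F := fun j => algebraMap F₀ F (a j / lam) * (τ - algebraMap F₀ F Aapp) with hsdef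
  -- the bases
  have hbs : ∀ j : ι, ∃ bs : Module.Basis (Fin n) F₀ F, j ∈ J → ∀ i : Fin n, bs i = s j ^ (i : ℕ) := by
    intro j
    by_cases hj : j ∈ J
    · obtain ⟨bs, hbs⟩ := s48a_exists_basis_affine b t hb (a j / lam * c)
        (a j / lam * (c' - Aapp)) (mul_ne_zero (div_ne_zero (ha0 j hj) hlam0) hc)
      refine ⟨bs, fun _ i => ?_⟩
      rw [hbs i]
      congr 1
      rw [hsdef, hτt]
      simp only [map_mul, map_sub]
      ring
    · exact ⟨b, fun h => absurd h hj⟩
  choose bs hbs using hbs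
  -- the polynomials
  have hfR : ∀ j : ι, ∃ q : (↥R₀)[X], j ∈ J →
      q.map R₀.subtype = s48a_wpoly (a j * Aapp) lam (a j ^ n * h) n := by
    intro j
    by_cases hj : j ∈ J
    · have hcoeff : ∀ k, (s48a_wpoly (a j * Aapp) lam (a j ^ n * h) n).coeff k ∈ R₀ :=
        s48a_wpoly_coeff_mem R₀ hn hlam hlam0 hu' hnu (hy j hj) (hc0 j hj)
      have hsub : (↑(s48a_wpoly (a j * Aapp) lam (a j ^ n * h) n).coeffs : Set F₀) ⊆ R₀ := by
        intro x hx
        obtain ⟨k, -, rfl⟩ := mem_coeffs_iff.mp (Finset.mem_coe.mp hx)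
        exact hcoeff k
      exact ⟨toSubring _ R₀ hsub, fun _ => map_toSubring _ R₀ hsub⟩
    · exact ⟨0, fun h => absurd h hj⟩
  choose fR hfR using hfR
  set η : ι → F := fun j => algebraMap F₀ F (a j * u'') * τ with hηdef
  have hinj : Function.Injective (R₀.subtype) := Subtype.coe_injective
  have hev : ∀ (j : ι) (q : (↥R₀)[X]), eval₂ (s48g_incl (F := F) R₀) (s j) q =
      aeval (s j) (q.map R₀.subtype) := by
    intro j q
    rw [aeval_def, eval₂_map]
    rfl
  -- the key relation `s j + y j / lam = (a j / lam) τ`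
  have hkey : ∀ j, s j + algebraMap F₀ F (a j * Aapp / lam) = algebraMap F₀ F (a j / lam) * τ := by
    intro j
    rw [hsdef]
    simp only [map_mul, map_div₀]
    ring
  have hpow : ∀ j, (algebraMap F₀ F (a j / lam) * τ) ^ n =
      algebraMap F₀ F (a j ^ n * h / lam ^ n) := by
    intro j
    rw [mul_pow, hh, ← map_pow, ← map_mul]
    congr 1
    rw [div_pow]
    ring
  refine ⟨bs, s, fR, _, η, s48a_etale_of_cert R₀ R J bs s fR η d e hbs hs ?_ ?_ ?_ ?_ ?_ hone
    base_mem trace_mem⟩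
  · -- `η j ∈ R`
    intro j hj
    have : η j = algebraMap F₀ F u'' * (algebraMap F₀ F (a j) * τ) := by
      rw [hηdef]
      simp only [map_mul]
      ring
    rw [this]
    exact R.mul_mem (base_mem _ hu'') (hη j hj)
  · -- monic
    intro j hj
    apply monic_of_injective hinj
    rw [hfR j hj]
    exact s48a_wpoly_monic _ _ _ hnpos
  · -- degree
    intro j hj
    rw [← natDegree_map_eq_of_injective hinj, hfR j hj]
    exact s48a_wpoly_natDegree _ _ _ _
  · -- root
    intro j hj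
    rw [hev, hfR j hj, s48a_wpoly_aeval, hkey, hpow, sub_self]
  · -- certificate
    intro j hj
    rw [hev, ← derivative_map, hfR j hj, s48a_wpoly_derivative, hkey, hd j hj]
    have hnF : (n : F) = algebraMap F₀ F (u' * lam ^ (n - 1)) := by
      rw [← hnu, map_natCast]
    have h1 : (algebraMap F₀ F (a j / lam) * τ) ^ (n - 1) * (algebraMap F₀ F (a j * u'') * τ) =
        algebraMap F₀ F ((a j / lam) ^ (n - 1) * (a j * u'')) * τ ^ n := by
      have h2 : τ ^ n = τ ^ (n - 1) * τ := by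
        rw [← pow_succ]
        congr 1
        omega
      rw [h2]
      simp only [map_mul, map_pow]
      ring
    rw [hηdef]
    beta_reduce
    rw [mul_assoc, h1, hh, hnF, ← map_mul, ← map_mul]
    congr 1
    have h3 : a j ^ n = a j ^ (n - 1) * a j := by
      rw [← pow_succ]
      congr 1
      omega
    rw [h3, div_pow]
    field_simp
    linear_combination (a j ^ (n - 1) * a j * h) * huu

end Fermat.Agent.Lib.S48
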