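/-
DS-1 (S48), wall [T9] (helper1), brick (W3-c): **the étale datum of a wild Kummer layer on a chart**
(top level, helper6's abstract setting of `GKumGen`).

`hK : s48g_LayerData O₀ red₀ b t f tb` the layer datum of the wild layer (`n = p` prime, generator
`t = (τ - a) / lam`, `τ ^ p = h`), `h₀` the chart hypotheses of the base for `w₀`, and the wild chart
approximation property `s48a_WApp` of the base chart (from the finite levels, wall (W2)).
-/
import Fermat.Agent.Lib.S48.AWildB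
import Fermat.Agent.Lib.S48.GKumGen

set_option autoImplicit false
set_option linter.unusedSectionVars false
set_option linter.style.haveILetI false

noncomputable section

namespace Fermat.Agent.Lib.S48

open AlgebraicCurve IsDedekindDomain Fermat.Agent.Lib.FF Fermat.Agent.Lib.S37
  Fermat.Agent.Lib.S18 Polynomial

section Alg

variable {F₀ F : Type*} [Field F₀] [Field F] [Algebra F₀ F]

/-- a polynomial with coefficients in `R₀` takes values in `R` on `R`. -/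
theorem s48a_aeval_mem (R₀ : Subring F₀) (R : Subring F)
    (base_mem : ∀ y ∈ R₀, algebraMap F₀ F y ∈ R) (g : F₀[X]) (hg : ∀ k, g.coeff k ∈ R₀)
    {s : F} (hs : s ∈ R) : aeval s g ∈ R := by
  rw [aeval_eq_sum_range]
  refine R.sum_mem fun i _ => ?_
  rw [Algebra.smul_def]
  exact R.mul_mem (base_mem _ (hg i)) (R.pow_mem hs i)

/-- the constant term of `s48a_wpoly` is forced into `R₀` by an integral root. -/
theorem s48a_wpoly_const_mem (R₀ : Subring F₀) (R : Subring F)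
    (base_mem : ∀ y ∈ R₀, algebraMap F₀ F y ∈ R)
    (hcap : ∀ y : F₀, algebraMap F₀ F y ∈ R → y ∈ R₀)
    {n : ℕ} (hn : n.Prime) {y lam d u' : F₀}
    (hlam : lam ∈ R₀) (hlam0 : lam ≠ 0) (hu' : u' ∈ R₀) (hnu : (n : F₀) = u' * lam ^ (n - 1))
    (hy : y ∈ R₀) {s : F} (hs : s ∈ R)
    (hrel : (s + algebraMap F₀ F (y / lam)) ^ n = algebraMap F₀ F (d / lam ^ n)) :
    (y ^ n - d) / lam ^ n ∈ R₀ := by
  apply hcap
  have h0 : (y ^ n - y ^ n) / lam ^ n ∈ R₀ := by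
    rw [sub_self, zero_div]
    exact R₀.zero_mem
  have h1 : aeval s (s48a_wpoly y lam (y ^ n) n) ∈ R :=
    s48a_aeval_mem R₀ R base_mem _
      (s48a_wpoly_coeff_mem R₀ hn hlam hlam0 hu' hnu hy h0) hs
  rw [s48a_wpoly_aeval, hrel, ← map_sub] at h1
  have h2 : d / lam ^ n - y ^ n / lam ^ n = - ((y ^ n - d) / lam ^ n) := by
    rw [sub_div]
    ring
  rw [h2, map_neg] at h1
  exact (R.neg_mem_iff).mp h1

end Alg

/-- **(W2) the wild chart approximation property** of the base chart `w₀`. -/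
def s48a_WApp (K : Type*) [Field K] {F₀ : Type*} [Field F₀] [Algebra K F₀]
    (O₀ : ValuationSubring F₀) (w₀ lam : F₀) (p : ℕ) : Prop :=
  ∀ y ∈ O₀, ∀ c₀ ∈ s18_ring O₀ (s18_chart1 (L₀ := K) w₀), (y ^ p - c₀) / lam ^ p ∈ O₀ →
    ∃ b' ∈ s18_ring O₀ (s18_chart1 (L₀ := K) w₀), (y - b') / lam ∈ O₀

section Wild

variable {K F₀ F : Type*} [Field K] [Field F₀] [Field F] [Algebra K F₀] [Algebra K F]
  [Algebra F₀ F] [IsScalarTower K F₀ F] [FiniteDimensional F₀ F] [CharZero F₀]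
  {Fb₀ Fb : Type*} [Field Fb₀] [Field Fb] [Algebra Fb₀ Fb]
  {O₀ : ValuationSubring F₀} {red₀ : ↥O₀ →+* Fb₀} {n : ℕ}
  {b : Module.Basis (Fin n) F₀ F} {t : F} {f : (↥O₀)[X]} {tb : Fb}
  (hK : s48g_LayerData O₀ red₀ b t f tb)
  [IsAlgClosed K] [CharZero K]
  {k : Type*} [Field k]
  {D₀ : Type*} [CommRing D₀] [Algebra D₀ Fb₀]
  {x₀ : F₀} [FFGen K x₀]
  {A : ValuationSubring K} {π : ↥A →+* k} {w₀ : F₀}
  {PsiD₀ : ↥(s18_ring O₀ (s18_chart1 (L₀ := K) w₀)) →+* D₀}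

set_option maxHeartbeats 1600000 in
/-- **the étale datum of a wild Kummer layer** `τ ^ n = h`, `τ = a + lam * t`, `n` the residue
characteristic, `n = u' * lam ^ (n - 1)`. -/
theorem s48a_wild_chart_etale [Algebra k Fb₀] (h₀ : s37r_ChartHyp x₀ A π O₀ red₀ w₀ PsiD₀)
    (hn : n.Prime) (lam u' u'' : K) (hlamA : lam ∈ A) (hlam0 : lam ≠ 0) (hu'A : u' ∈ A)
    (hu''A : u'' ∈ A) (huu : u' * u'' = 1) (hnu : (n : K) = u' * lam ^ (n - 1))
    (τ : F) (a : F₀) (haO : a ∈ O₀)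
    (hτ : τ = algebraMap F₀ F a + algebraMap K F lam * t)
    (h : F₀) (hh : τ ^ n = algebraMap F₀ F h) (hhO : h ∈ O₀)
    (hhred : red₀ ⟨h, hhO⟩ ≠ 0)
    (hdiv : ∀ P : Place K F₀, (n : ℤ) ∣ P.ord h)
    (happ : s48a_WApp K O₀ w₀ (algebraMap K F₀ lam) n) :
    ∃ (J : Finset ℕ) (bs : ℕ → Module.Basis (Fin n) F₀ F) (s : ℕ → F)
      (fR : ℕ → (↥(s48g_B₀ K O₀ w₀))[X]) (sd : ℕ → Fin n → F) (η : ℕ → F)
      (d e : ℕ → ↥(s48g_B₀ K O₀ w₀)),
      s48g_Etale (s48g_B₀ K O₀ w₀) (s48g_B hK K w₀) J bs s fR sd η d e := by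
  classical
  have hnpos : 0 < n := hn.pos
  have hnK : (n : K) ≠ 0 := by exact_mod_cast hnpos.ne'
  have hh0 : h ≠ 0 := by
    rintro rfl
    apply hhred
    have : (⟨0, hhO⟩ : ↥O₀) = 0 := rfl
    rw [this, map_zero]
  have hhinvO : h⁻¹ ∈ O₀ := h₀.inv_mem ⟨h, hhO⟩ hhred
  set lamF : F₀ := algebraMap K F₀ lam with hlamF
  have hlamF0 : lamF ≠ 0 := (_root_.map_ne_zero _).mpr hlam0
  have hlamFF : algebraMap K F lam = algebraMap F₀ F lamF := IsScalarTower.algebraMap_apply K F₀ F lam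
  have hL0 : algebraMap F₀ F lamF ≠ 0 := (_root_.map_ne_zero _).mpr hlamF0
  -- constants
  have hconstO₀ : ∀ a' : ↥A, algebraMap K F₀ (a' : K) ∈ O₀ := fun a' => h₀.const_mem a'
  have hconstB₀ : ∀ a' : ↥A, algebraMap K F₀ (a' : K) ∈ s48g_B₀ K O₀ w₀ := fun a' =>
    ⟨h₀.const_mem a', fun P _ => P.algebraMap_mem' _⟩
  have hlamB₀ : lamF ∈ s48g_B₀ K O₀ w₀ := hconstB₀ ⟨lam, hlamA⟩
  have hu'B₀ : algebraMap K F₀ u' ∈ s48g_B₀ K O₀ w₀ := hconstB₀ ⟨u', hu'A⟩
  have hu''B₀ : algebraMap K F₀ u'' ∈ s48g_B₀ K O₀ w₀ := hconstB₀ ⟨u'', hu''A⟩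
  have huuF : algebraMap K F₀ u' * algebraMap K F₀ u'' = 1 := by
    rw [← map_mul, huu, map_one]
  have hnuF : (n : F₀) = algebraMap K F₀ u' * lamF ^ (n - 1) := by
    rw [hlamF, ← map_pow, ← map_mul, ← hnu, map_natCast]
  -- `τ ∈ O`
  have hτO : τ ∈ s48g_O hK := by
    rw [hτ, hlamFF]
    exact (s48g_O hK).add_mem _ _ (s48g_algebraMap_mem_O hK ⟨a, haO⟩)
      ((s48g_O hK).mul_mem _ _ (s48g_algebraMap_mem_O hK ⟨lamF, hlamB₀.1⟩) (s48g_t_mem_O hK))
  have hτ0 : τ ≠ 0 := by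
    rintro rfl
    rw [zero_pow hnpos.ne'] at hh
    exact hh0 ((map_eq_zero (algebraMap F₀ F)).mp hh.symm)
  -- `(a ^ n - h) / lam ^ n ∈ O₀`
  have hkey0 : t + algebraMap F₀ F (a / lamF) = algebraMap F₀ F (1 / lamF) * τ := by
    rw [hτ, hlamFF]
    simp only [map_div₀, map_one]
    field_simp
    ring
  have hglob : (a ^ n - h) / lamF ^ n ∈ O₀ := by
    refine s48a_wpoly_const_mem O₀.toSubring (s48g_O hK).toSubring
      (fun y hy => s48g_algebraMap_mem_O hK ⟨y, hy⟩)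
      (fun y hy => (s48g_algebraMap_mem_O_iff hK y).mp hy) hn hlamB₀.1 hlamF0 hu'B₀.1 hnuF haO
      (s48g_t_mem_O hK) ?_
    rw [hkey0, mul_pow, hh, ← map_pow, ← map_mul]
    congr 1
    rw [div_pow, one_pow]
    ring
  -- the lattices
  set E₀ : Place K F₀ → ℤ := fun Q => Q.ord h / (n : ℤ) with hE₀
  have hnE : ∀ Q, (n : ℤ) * E₀ Q = Q.ord h := fun Q => Int.mul_ediv_cancel' (hdiv Q)
  have hfin : {Q | Q ∈ s18_chart1 (L₀ := K) w₀ ∧ (fun Q => - E₀ Q) Q ≠ 0}.Finite := by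
    refine (h₀.fin h hh0).subset ?_
    rintro Q ⟨-, hQ⟩
    show Q.ord h ≠ 0
    intro h0
    apply hQ
    show - E₀ Q = 0
    rw [hE₀]
    simp [h0]
  obtain ⟨s₀, av, bq, ha, hb, hab⟩ := h₀.hinv (fun Q => - E₀ Q) hfin
  -- memberships in the chart ring of the base
  have hxB : ∀ i ∈ s₀, ∀ j ∈ s₀, av i * bq j ∈ s48g_B₀ K O₀ w₀ := by
    intro i hi j hj
    have h1 := s18_latSet_mul O₀ _ _ _ (ha i hi) (hb j hj)
    have h2 : av i * bq j ∈ s18_latSet O₀ (s18_chart1 (L₀ := K) w₀) (fun _ => 0) :=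
      s48g_latSet_congr (fun Q _ => by ring) h1
    rw [← s18_ringSet_eq_latSet_zero] at h2
    exact h2
  have huB : ∀ j ∈ s₀, av j ^ n * h ∈ s48g_B₀ K O₀ w₀ := by
    intro j hj
    refine ⟨O₀.mul_mem _ _ (pow_mem (ha j hj).1 n) hhO, fun Q hQ => ?_⟩
    by_cases ha0 : av j = 0
    · rw [ha0, zero_pow hnpos.ne', zero_mul]
      exact Q.toValuationSubring.zero_mem
    rcases (ha j hj).2 Q hQ with h0 | h1
    · exact absurd h0 ha0
    beta_reduce at h1
    rw [ff_mem_iff_ord_nonneg Q (mul_ne_zero (pow_ne_zero n ha0) hh0),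
      Q.ord_mul (pow_ne_zero n ha0) hh0, s48g_ord_pow, ← hnE Q]
    have : 0 ≤ (n : ℤ) * (Q.ord (av j) + E₀ Q) :=
      mul_nonneg (Int.natCast_nonneg n) (by linarith)
    linarith
  have hvB : ∀ j ∈ s₀, bq j ^ n * h⁻¹ ∈ s48g_B₀ K O₀ w₀ := by
    intro j hj
    refine ⟨O₀.mul_mem _ _ (pow_mem (hb j hj).1 n) hhinvO, fun Q hQ => ?_⟩
    by_cases hb0 : bq j = 0
    · rw [hb0, zero_pow hnpos.ne', zero_mul]
      exact Q.toValuationSubring.zero_mem
    rcases (hb j hj).2 Q hQ with h0 | h1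
    · exact absurd h0 hb0
    beta_reduce at h1
    rw [ff_mem_iff_ord_nonneg Q (mul_ne_zero (pow_ne_zero n hb0) (inv_ne_zero hh0)),
      Q.ord_mul (pow_ne_zero n hb0) (inv_ne_zero hh0), s48g_ord_pow, Q.ord_inv, ← hnE Q]
    have : 0 ≤ (n : ℤ) * (Q.ord (bq j) - E₀ Q) :=
      mul_nonneg (Int.natCast_nonneg n) (by linarith)
    linarith
  -- the local approximants `b' j` of `av j * a`
  have hex : ∀ j : ℕ, ∃ b' ∈ s48g_B₀ K O₀ w₀, j ∈ s₀ → (av j * a - b') / lamF ∈ O₀ := by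
    intro j
    by_cases hj : j ∈ s₀
    · have h1 : ((av j * a) ^ n - av j ^ n * h) / lamF ^ n ∈ O₀ := by
        have : ((av j * a) ^ n - av j ^ n * h) / lamF ^ n =
            av j ^ n * ((a ^ n - h) / lamF ^ n) := by
          rw [mul_pow]
          ring
        rw [this]
        exact O₀.mul_mem _ _ (pow_mem (ha j hj).1 n) hglob
      obtain ⟨b', hb', hb'2⟩ := happ (av j * a) (O₀.mul_mem _ _ (ha j hj).1 haO) _ (huB j hj) h1
      exact ⟨b', hb', fun _ => hb'2⟩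
    · exact ⟨0, Subring.zero_mem _, fun h => absurd h hj⟩
  choose b' hb'B hb' using hex
  -- the approximant
  set Aapp : F₀ := ∑ i ∈ s₀, bq i * b' i with hAapp
  have hAappO : Aapp ∈ O₀ :=
    sum_mem fun i hi => O₀.mul_mem _ _ (hb i hi).1 (hb'B i).1
  have hyB : ∀ j ∈ s₀, av j * Aapp ∈ s48g_B₀ K O₀ w₀ := by
    intro j hj
    rw [hAapp, Finset.mul_sum]
    refine Subring.sum_mem _ fun i hi => ?_
    rw [← mul_assoc]
    exact Subring.mul_mem _ (hxB j hj i hi) (hb'B i)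
  -- `τ - Aapp = lam * s'` with `s' ∈ O`
  set s' : F := ∑ i ∈ s₀, algebraMap F₀ F (bq i) *
    (algebraMap F₀ F (av i) * t + algebraMap F₀ F ((av i * a - b' i) / lamF)) with hs'
  have hs'O : s' ∈ s48g_O hK := by
    refine sum_mem fun i hi => ?_
    refine (s48g_O hK).mul_mem _ _ (s48g_algebraMap_mem_O hK ⟨bq i, (hb i hi).1⟩) ?_
    exact (s48g_O hK).add_mem _ _
      ((s48g_O hK).mul_mem _ _ (s48g_algebraMap_mem_O hK ⟨av i, (ha i hi).1⟩) (s48g_t_mem_O hK))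
      (s48g_algebraMap_mem_O hK ⟨_, hb' i hi⟩)
  have hτA : τ - algebraMap F₀ F Aapp = algebraMap F₀ F lamF * s' := by
    have h1 : τ = ∑ i ∈ s₀, algebraMap F₀ F (bq i) * (algebraMap F₀ F (av i) * τ) := by
      have : (∑ i ∈ s₀, algebraMap F₀ F (bq i) * (algebraMap F₀ F (av i) * τ)) =
          algebraMap F₀ F (∑ i ∈ s₀, av i * bq i) * τ := by
        rw [map_sum, Finset.sum_mul]
        refine Finset.sum_congr rfl fun i _ => ?_
        rw [map_mul]
        ring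
      rw [this, hab, map_one, one_mul]
    rw [hs', Finset.mul_sum, hAapp, map_sum]
    conv_lhs => rw [h1]
    rw [← Finset.sum_sub_distrib]
    refine Finset.sum_congr rfl fun i _ => ?_
    rw [hτ, hlamFF]
    simp only [map_mul, map_div₀, map_sub]
    field_simp
    ring
  have hrelA : (s' + algebraMap F₀ F (Aapp / lamF)) = algebraMap F₀ F (1 / lamF) * τ := by
    have h1 : τ = algebraMap F₀ F Aapp + algebraMap F₀ F lamF * s' := by
      rw [← hτA]
      ring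
    rw [h1]
    simp only [map_div₀, map_one]
    field_simp
    ring
  have hglobA : (Aapp ^ n - h) / lamF ^ n ∈ O₀ := by
    refine s48a_wpoly_const_mem O₀.toSubring (s48g_O hK).toSubring
      (fun y hy => s48g_algebraMap_mem_O hK ⟨y, hy⟩)
      (fun y hy => (s48g_algebraMap_mem_O_iff hK y).mp hy) hn hlamB₀.1 hlamF0 hu'B₀.1 hnuF hAappO
      hs'O ?_
    rw [hrelA, mul_pow, hh, ← map_pow, ← map_mul]
    congr 1
    rw [div_pow, one_pow]
    ring
  -- elements of `B₀`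
  let xB : ℕ → ↥(s48g_B₀ K O₀ w₀) := fun j =>
    if hj : j ∈ s₀ then ⟨av j * bq j, hxB j hj j hj⟩ else 0
  let uB : ℕ → ↥(s48g_B₀ K O₀ w₀) := fun j =>
    if hj : j ∈ s₀ then ⟨av j ^ n * h, huB j hj⟩ else 0
  let vB : ℕ → ↥(s48g_B₀ K O₀ w₀) := fun j =>
    if hj : j ∈ s₀ then ⟨bq j ^ n * h⁻¹, hvB j hj⟩ else 0
  have hxBcoe : ∀ j ∈ s₀, ((xB j : ↥(s48g_B₀ K O₀ w₀)) : F₀) = av j * bq j := fun j hj => by
    show ((if hj : j ∈ s₀ then (⟨av j * bq j, hxB j hj j hj⟩ : ↥(s48g_B₀ K O₀ w₀)) else 0 :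
      ↥(s48g_B₀ K O₀ w₀)) : F₀) = _
    rw [dif_pos hj]
  have huBcoe : ∀ j ∈ s₀, ((uB j : ↥(s48g_B₀ K O₀ w₀)) : F₀) = av j ^ n * h := fun j hj => by
    show ((if hj : j ∈ s₀ then (⟨av j ^ n * h, huB j hj⟩ : ↥(s48g_B₀ K O₀ w₀)) else 0 :
      ↥(s48g_B₀ K O₀ w₀)) : F₀) = _
    rw [dif_pos hj]
  have hvBcoe : ∀ j ∈ s₀, ((vB j : ↥(s48g_B₀ K O₀ w₀)) : F₀) = bq j ^ n * h⁻¹ := fun j hj => by
    show ((if hj : j ∈ s₀ then (⟨bq j ^ n * h⁻¹, hvB j hj⟩ : ↥(s48g_B₀ K O₀ w₀)) else 0 :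
      ↥(s48g_B₀ K O₀ w₀)) : F₀) = _
    rw [dif_pos hj]
  have hxsum : ∑ j ∈ s₀, xB j = 1 := by
    apply Subtype.ext
    rw [AddSubmonoidClass.coe_finsetSum, Finset.sum_congr rfl fun j hj => hxBcoe j hj, hab]
    rfl
  obtain ⟨c, hc⟩ := s48g_exists_pow_partition s₀ xB hxsum n
  have huv : ∀ j ∈ s₀, uB j * vB j = xB j ^ n := by
    intro j hj
    apply Subtype.ext
    rw [Subring.coe_mul, SubmonoidClass.coe_pow, huBcoe j hj, hvBcoe j hj, hxBcoe j hj, mul_pow]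
    field_simp
  let J : Finset ℕ := s₀.filter fun j => av j ≠ 0
  have hJs : ∀ j ∈ J, j ∈ s₀ := fun j hj => (Finset.mem_filter.mp hj).1
  have hJa : ∀ j ∈ J, av j ≠ 0 := fun j hj => (Finset.mem_filter.mp hj).2
  -- `av j * τ ∈ B`
  have hηB : ∀ j ∈ J, algebraMap F₀ F (av j) * τ ∈ s48g_B hK K w₀ := by
    intro j hj
    refine ⟨(s48g_O hK).mul_mem _ _ (s48g_algebraMap_mem_O hK ⟨av j, (ha j (hJs j hj)).1⟩) hτO,
      fun P hP => ?_⟩
    have hs0 : algebraMap F₀ F (av j) * τ ≠ 0 :=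
      mul_ne_zero ((_root_.map_ne_zero _).mpr (hJa j hj)) hτ0
    have h1 : (algebraMap F₀ F (av j) * τ) ^ n ∈ P.toValuationSubring := by
      rw [mul_pow, hh, ← map_pow, ← map_mul]
      exact (Place.mem_restrict_iff P).mp ((huB j (hJs j hj)).2 _ (s48g_restrict_mem_chart hP))
    rw [ff_mem_iff_ord_nonneg P (pow_ne_zero n hs0), s48g_ord_pow] at h1
    rw [ff_mem_iff_ord_nonneg P hs0]
    have hn' : (0 : ℤ) < n := by exact_mod_cast hnpos
    by_contra hneg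
    push Not at hneg
    have : (n : ℤ) * P.ord (algebraMap F₀ F (av j) * τ) < 0 := mul_neg_of_pos_of_neg hn' hneg
    omega
  -- `(av j / lam) * (τ - Aapp) ∈ B`
  have hsB : ∀ j ∈ J, algebraMap F₀ F (av j / lamF) * (τ - algebraMap F₀ F Aapp) ∈
      s48g_B hK K w₀ := by
    intro j hj
    refine ⟨?_, fun P hP => ?_⟩
    · have : algebraMap F₀ F (av j / lamF) * (τ - algebraMap F₀ F Aapp) =
          algebraMap F₀ F (av j) * s' := by
        rw [hτA]
        simp only [map_div₀]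
        field_simp
      rw [this]
      exact (s48g_O hK).mul_mem _ _ (s48g_algebraMap_mem_O hK ⟨av j, (ha j (hJs j hj)).1⟩) hs'O
    · have : algebraMap F₀ F (av j / lamF) * (τ - algebraMap F₀ F Aapp) =
          algebraMap K F lam⁻¹ * (algebraMap F₀ F (av j) * τ - algebraMap F₀ F (av j * Aapp)) := by
        rw [IsScalarTower.algebraMap_apply K F₀ F lam⁻¹, map_inv₀, ← hlamF]
        simp only [map_div₀, map_mul, map_inv₀]
        field_simp
      rw [this]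
      refine P.toValuationSubring.mul_mem _ _ (P.algebraMap_mem' _) ?_
      refine sub_mem ((hηB j hj).2 P hP) ?_
      exact (Place.mem_restrict_iff P).mp
        ((hyB j (hJs j hj)).2 _ (s48g_restrict_mem_chart hP))
  -- the constant terms
  have hc0B : ∀ j ∈ J, ((av j * Aapp) ^ n - av j ^ n * h) / lamF ^ n ∈ s48g_B₀ K O₀ w₀ := by
    intro j hj
    refine ⟨?_, fun Q hQ => ?_⟩
    · have : ((av j * Aapp) ^ n - av j ^ n * h) / lamF ^ n =
          av j ^ n * ((Aapp ^ n - h) / lamF ^ n) := by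
        rw [mul_pow]
        ring
      rw [this]
      exact O₀.mul_mem _ _ (pow_mem (ha j (hJs j hj)).1 n) hglobA
    · have : ((av j * Aapp) ^ n - av j ^ n * h) / lamF ^ n =
          algebraMap K F₀ (lam ^ n)⁻¹ * ((av j * Aapp) ^ n - av j ^ n * h) := by
        rw [map_inv₀, map_pow, ← hlamF]
        field_simp
      rw [this]
      refine Q.toValuationSubring.mul_mem _ _ (Q.algebraMap_mem' _) ?_
      exact sub_mem (pow_mem ((hyB j (hJs j hj)).2 Q hQ) n) ((huB j (hJs j hj)).2 Q hQ)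
  haveI : Algebra.IsSeparable F₀ F := inferInstance
  have hone : ∑ j ∈ J, (c j * vB j) * uB j = 1 := by
    have h1 : ∀ j ∈ J, (c j * vB j) * uB j = c j * xB j ^ n := by
      intro j hj
      rw [← huv j (hJs j hj)]
      ring
    rw [Finset.sum_congr rfl h1, ← hc]
    refine Finset.sum_subset (Finset.filter_subset _ _) fun j hj hjJ => ?_
    have ha0 : av j = 0 := by
      by_contra hne
      exact hjJ (Finset.mem_filter.mpr ⟨hj, hne⟩)
    have hx0 : xB j = 0 := by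
      apply Subtype.ext
      rw [hxBcoe j hj, ha0, zero_mul]
      rfl
    rw [hx0, zero_pow hnpos.ne', mul_zero]
  obtain ⟨bs, s, fR, sd, η, hE⟩ := s48a_wild_etale (s48g_B₀ K O₀ w₀) (s48g_B hK K w₀)
    (fun y hy => s48g_chart_base_mem hK hy) (fun y hy => s48g_chart_trace_mem hK hy)
    hn b t hK.basis lamF (algebraMap K F₀ u') (algebraMap K F₀ u'') hlamB₀ hlamF0 hu'B₀ hu''B₀
    huuF hnuF τ lamF a hlamF0 (by rw [hτ, hlamFF]; ring) h hh J av Aapp uB
    (fun j => c j * vB j) hJa (fun j hj => hyB j (hJs j hj)) hsB hηB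
    (fun j hj => huBcoe j (hJs j hj)) hc0B hone
  exact ⟨J, bs, s, fR, sd, η, uB, fun j => c j * vB j, hE⟩

end Wild

end Fermat.Agent.Lib.S48
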