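/-
DS-1 (S48), wall [T9] (helper1), brick (W4): **the chart package of a wild Kummer layer.**

The analogue of helper6's `s48g_chartPack_kummer` for a layer of degree `n = p` = the residue
characteristic: `F = F₀(τ)`, `τ ^ p = h` a Gauss unit with `p ∣ ord_P h` for all `P`,
`τ = a + lam * t` with `a ∈ O₀` and `t` the generator of the layer datum (`lam = 1 - ζ_p`,
`p = u' * lam ^ (p - 1)`), the special fibre being the Artin–Schreier extension
`tb ^ p + γ * tb = β`, `γ ≠ 0`.  Inputs besides the base packages: the wild chart approximation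
property `s48a_WApp` of the two base charts (wall (W2), from the finite levels).
-/
import Fermat.Agent.Lib.S48.AWildC
import Fermat.Agent.Lib.S48.GTwo

set_option autoImplicit false
set_option linter.unusedSectionVars false
set_option linter.style.haveILetI false

noncomputable section

namespace Fermat.Agent.Lib.S48

open AlgebraicCurve IsDedekindDomain Fermat.Agent.Lib.FF Fermat.Agent.Lib.S37
  Fermat.Agent.Lib.S18 Polynomial

universe u

/-- an Artin–Schreier extension `tb ^ p + γ * tb = β`, `γ ≠ 0`, is separable. -/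
theorem s48a_as_isSeparable {L₀ L : Type*} [Field L₀] [Field L] [Algebra L₀ L] {p : ℕ}
    [CharP L₀ p]
    (bb : Module.Basis (Fin p) L₀ L) (tb : L) (hbb : ∀ i : Fin p, bb i = tb ^ (i : ℕ))
    (γ β : L₀) (hγ : γ ≠ 0) (htb : tb ^ p + algebraMap L₀ L γ * tb = algebraMap L₀ L β) :
    Algebra.IsSeparable L₀ L := by
  have hsep : IsSeparable L₀ tb := by
    have h1 : minpoly L₀ tb ∣ X ^ p + C γ * X - C β := by
      apply minpoly.dvd
      rw [map_sub, map_add, map_pow, map_mul, aeval_X, aeval_C, aeval_C, htb, sub_self]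
    refine Separable.of_dvd ?_ h1
    rw [separable_def]
    have hd : derivative (X ^ p + C γ * X - C β : L₀[X]) = C γ := by
      rw [derivative_sub, derivative_add, derivative_X_pow, derivative_C_mul, derivative_X,
        derivative_C, CharP.cast_eq_zero, C_0, zero_mul, zero_add, mul_one, sub_zero]
    rw [hd]
    refine ⟨0, C γ⁻¹, ?_⟩
    rw [zero_mul, zero_add, ← C_mul, inv_mul_cancel₀ hγ, C_1]
  have htop : IntermediateField.adjoin L₀ {tb} = ⊤ := by
    apply IntermediateField.adjoin_eq_top_of_algebra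
    exact (PowerBasis.mk tb p bb hbb).adjoin_gen_eq_top
  haveI h2 : Algebra.IsSeparable L₀ ↥(IntermediateField.adjoin L₀ {tb}) :=
    (IntermediateField.isSeparable_adjoin_simple_iff_isSeparable L₀ L).mpr hsep
  refine ⟨fun y => ?_⟩
  have hy : y ∈ IntermediateField.adjoin L₀ {tb} := by
    rw [htop]
    exact IntermediateField.mem_top
  exact IntermediateField.isSeparable_of_mem_isSeparable L₀ L hy

section Step

variable {K F₀ F : Type*} [Field K] [Field F₀] [Field F] [Algebra K F₀] [Algebra K F]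
  [Algebra F₀ F] [IsScalarTower K F₀ F] [FiniteDimensional F₀ F] [CharZero F₀]
  {Fb₀ Fb : Type u} [Field Fb₀] [Field Fb] [Algebra Fb₀ Fb]
  {O₀ : ValuationSubring F₀} {red₀ : ↥O₀ →+* Fb₀} {n : ℕ}
  {b : Module.Basis (Fin n) F₀ F} {t : F} {f : (↥O₀)[X]} {tb : Fb}
  (hK : s48g_LayerData O₀ red₀ b t f tb)
  [IsAlgClosed K] [CharZero K]
  {k : Type*} [Field k] [Algebra k Fb₀] [Algebra k Fb] [IsScalarTower k Fb₀ Fb]
  {x₀ : F₀} [FFGen K x₀] {x : F} [FFGen K x]
  {A : ValuationSubring K} {π : ↥A →+* k} {w₀ w₀' : F₀}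
  (bb : Module.Basis (Fin n) Fb₀ Fb) (hbb : ∀ i : Fin n, bb i = tb ^ (i : ℕ))

include hbb in
/-- **the step for a wild Kummer layer.** -/
theorem s48a_chartPack_wild [CharP Fb₀ n] (hn : n.Prime) (hww : w₀ * w₀' = 1)
    (hP : s48g_ChartPack x₀ A π O₀ red₀ w₀) (hP' : s48g_ChartPack x₀ A π O₀ red₀ w₀')
    (lam u' u'' : K) (hlamA : lam ∈ A) (hlam0 : lam ≠ 0) (hu'A : u' ∈ A)
    (hu''A : u'' ∈ A) (huu : u' * u'' = 1) (hnu : (n : K) = u' * lam ^ (n - 1))
    (τ : F) (a : F₀) (haO : a ∈ O₀)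
    (hτ : τ = algebraMap F₀ F a + algebraMap K F lam * t)
    (h : F₀) (hh : τ ^ n = algebraMap F₀ F h) (hhO : h ∈ O₀)
    (hhred : red₀ ⟨h, hhO⟩ ≠ 0)
    (hdiv : ∀ P : Place K F₀, (n : ℤ) ∣ P.ord h)
    (γ β : Fb₀) (hγ : γ ≠ 0) (htb : tb ^ n + algebraMap Fb₀ Fb γ * tb = algebraMap Fb₀ Fb β)
    (happ : s48a_WApp K O₀ w₀ (algebraMap K F₀ lam) n)
    (happ' : s48a_WApp K O₀ w₀' (algebraMap K F₀ lam) n) :
    s48g_ChartPack x A π (s48g_O hK) (s48g_red hK) (algebraMap F₀ F w₀) := by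
  haveI hsep : Algebra.IsSeparable Fb₀ Fb := s48a_as_isSeparable bb tb hbb γ β hγ htb
  have hE : ∃ (ι : Type) (J : Finset ι) (bs : ι → Module.Basis (Fin n) F₀ F) (s : ι → F)
      (fR : ι → (↥(s48g_B₀ K O₀ w₀))[X]) (sd : ι → Fin n → F) (η : ι → F)
      (d e : ι → ↥(s48g_B₀ K O₀ w₀)),
      s48g_Etale (s48g_B₀ K O₀ w₀) (s48g_B hK K w₀) J bs s fR sd η d e := by
    obtain ⟨D₀, i1, i2, i3, i4, i5, i6, PsiD₀, h₀⟩ := hP
    obtain ⟨J, bs, s, fR, sd, η, d, e, hE⟩ :=
      s48a_wild_chart_etale hK h₀ hn lam u' u'' hlamA hlam0 hu'A hu''A huu hnu τ a haO hτ h hh hhO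
        hhred hdiv happ
    exact ⟨ℕ, J, bs, s, fR, sd, η, d, e, hE⟩
  have hE' : ∃ (ι : Type) (J : Finset ι) (bs : ι → Module.Basis (Fin n) F₀ F) (s : ι → F)
      (fR : ι → (↥(s48g_B₀ K O₀ w₀'))[X]) (sd : ι → Fin n → F) (η : ι → F)
      (d e : ι → ↥(s48g_B₀ K O₀ w₀')),
      s48g_Etale (s48g_B₀ K O₀ w₀') (s48g_B hK K w₀') J bs s fR sd η d e := by
    obtain ⟨D₀', j1, j2, j3, j4, j5, j6, PsiD₀', h₀'⟩ := hP'
    obtain ⟨J, bs, s, fR, sd, η, d, e, hE⟩ :=
      s48a_wild_chart_etale hK h₀' hn lam u' u'' hlamA hlam0 hu'A hu''A huu hnu τ a haO hτ h hh hhO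
        hhred hdiv happ'
    exact ⟨ℕ, J, bs, s, fR, sd, η, d, e, hE⟩
  exact s48g_chartPack_step hK bb hbb hn.two_le hww hP hP' hE hE'

end Step

end Fermat.Agent.Lib.S48
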