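/-
DS-1 (S48), wall [T9] (helper1), brick (W1): **the layer datum of a wild layer**, abstract form.

`t = (τ - a) / lam`, i.e. `(t + a / lam) ^ n = h / lam ^ n`, `n` prime, `n = u' * lam ^ (n - 1)`,
`a, lam, u' ∈ O₀`, `(a ^ n - h) / lam ^ n ∈ O₀`: then `t` is a root of the monic polynomial
`s48a_wpoly a lam h n = (X + a / lam) ^ n - h / lam ^ n ∈ O₀[X]`, which gives helper6's
`s48g_LayerData` once `indep` (= [II]) and the compatibility `rootb` are known.
-/
import Fermat.Agent.Lib.S48.AWildB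

set_option autoImplicit false
set_option linter.unusedSectionVars false
set_option linter.style.haveILetI false

noncomputable section

namespace Fermat.Agent.Lib.S48

open Polynomial

variable {F₀ F : Type*} [Field F₀] [Field F] [Algebra F₀ F]
  {Fb₀ Fb : Type*} [Field Fb₀] [Field Fb] [Algebra Fb₀ Fb]

/-- the identity `↥O₀.toSubring →+* ↥O₀`. -/
def s48a_ofSubring (O₀ : ValuationSubring F₀) : ↥O₀.toSubring →+* ↥O₀ :=
  RingHom.codRestrict O₀.toSubring.subtype O₀ fun x => x.2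

theorem s48a_ofSubring_coe (O₀ : ValuationSubring F₀) (x : ↥O₀.toSubring) :
    ((s48a_ofSubring O₀ x : ↥O₀) : F₀) = (x : F₀) := rfl

theorem s48a_ofSubring_injective (O₀ : ValuationSubring F₀) :
    Function.Injective (s48a_ofSubring O₀) := fun _ _ hxy =>
  Subtype.ext (congrArg (fun z : ↥O₀ => (z : F₀)) hxy)

/-- **the layer datum of a wild layer.** -/
theorem s48a_layerData_of_wild {O₀ : ValuationSubring F₀} {red₀ : ↥O₀ →+* Fb₀} {n : ℕ}
    (b : Module.Basis (Fin n) F₀ F) (t : F) (tb : Fb) (hn : n.Prime)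
    (inv₀ : ∀ y : ↥O₀, red₀ y ≠ 0 → ((y : F₀))⁻¹ ∈ O₀)
    (basis : ∀ i : Fin n, b i = t ^ (i : ℕ))
    (lam u' a h : F₀) (hlam : lam ∈ O₀) (hlam0 : lam ≠ 0) (hu' : u' ∈ O₀)
    (hnu : (n : F₀) = u' * lam ^ (n - 1)) (ha : a ∈ O₀)
    (hc0 : (a ^ n - h) / lam ^ n ∈ O₀)
    (hrel : (t + algebraMap F₀ F (a / lam)) ^ n = algebraMap F₀ F (h / lam ^ n))
    (hrootb : ∀ f : (↥O₀)[X], s48g_ev O₀ t f = 0 → s48g_evb red₀ tb f = 0)
    (indep : LinearIndependent Fb₀ (fun i : Fin n => tb ^ (i : ℕ))) :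
    ∃ f : (↥O₀)[X], s48g_LayerData O₀ red₀ b t f tb := by
  classical
  set g : F₀[X] := s48a_wpoly a lam h n with hg
  have hcoeff : ∀ k, g.coeff k ∈ O₀.toSubring :=
    s48a_wpoly_coeff_mem O₀.toSubring hn hlam hlam0 hu' hnu ha hc0
  have hsub : (↑g.coeffs : Set F₀) ⊆ O₀.toSubring := by
    intro x hx
    obtain ⟨k, -, rfl⟩ := mem_coeffs_iff.mp (Finset.mem_coe.mp hx)
    exact hcoeff k
  set f₀ : (↥O₀.toSubring)[X] := toSubring g O₀.toSubring hsub with hf₀
  set f : (↥O₀)[X] := f₀.map (s48a_ofSubring O₀) with hf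
  have hmonic₀ : f₀.Monic := (monic_toSubring g O₀.toSubring hsub).mpr
    (s48a_wpoly_monic a lam h hn.pos)
  have hmonic : f.Monic := hmonic₀.map _
  have hdeg : f.natDegree = n := by
    rw [hf, hmonic₀.natDegree_map, hf₀, natDegree_toSubring]
    exact s48a_wpoly_natDegree a lam h n
  have hev : s48g_ev O₀ t f = aeval t g := by
    rw [s48g_ev, coe_eval₂RingHom, hf, eval₂_map]
    have hcomp : ((algebraMap F₀ F).comp O₀.subtype).comp (s48a_ofSubring O₀) =
        (algebraMap F₀ F).comp O₀.toSubring.subtype := RingHom.ext fun x => rfl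
    rw [hcomp, aeval_def, ← eval₂_map, hf₀, map_toSubring]
  have hroot : s48g_ev O₀ t f = 0 := by
    rw [hev, hg, s48a_wpoly_aeval, hrel, sub_self]
  exact ⟨f, ⟨inv₀, basis, hmonic, hdeg, hroot, hrootb f hroot, indep⟩⟩

end Fermat.Agent.Lib.S48
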