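/-
DS-1 (S48), wall [T9] (helper1): **the wild step of the tower induction, top level, q-model** — the
analogue of helper7's `s48d_q_kummer_step` (DQKummer) for a layer of degree `p` = the residue
characteristic: helper6's abstract machinery through `s48a_chartPack_wild_of_app` (AWildE) + helper7's
q-model step (DQStep).

`F₁ ⊆ F₂ = F₁(τ) ⊆ L((q))`, `τ ^ p = h ∈ F₁`, `τ = a + λ t` with `a ∈ F₁` Gauss-integral and
`t = ιT` an `A`-integral series generating `F₂/F₁`, `Fb₂ = Fb₁(ρT)`.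
-/
import Fermat.Agent.Lib.S48.AWildE
import Fermat.Agent.Lib.S48.DQKummer

set_option autoImplicit false
set_option linter.unusedSectionVars false
set_option linter.style.haveILetI false

noncomputable section

namespace Fermat.Agent.Lib.S48

open ModularCurve HahnSeries AlgebraicCurve IntermediateField Polynomial Fermat.Agent.Lib.S37
  Fermat.Agent.Lib.FF Fermat.Agent.Lib.S18

universe u

variable {L : Type*} [Field L] [CharZero L] [IsAlgClosed L] {A : ValuationSubring L}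
  {κ : Type u} [Field κ] {π : ↥A →+* κ}
  {F₁ F₂ : IntermediateField L (LaurentSeries L)} {Fb₁ Fb₂ : IntermediateField κ (LaurentSeries κ)}
  [Algebra ↥F₁ ↥F₂] [IsScalarTower L ↥F₁ ↥F₂] [FiniteDimensional ↥F₁ ↥F₂]
  [Algebra ↥Fb₁ ↥Fb₂] [IsScalarTower κ ↥Fb₁ ↥Fb₂]

set_option maxHeartbeats 800000 in
/-- **the wild step (top level, q-model)**, layer datum and chart approximants as inputs. -/
theorem s48a_q_wild_step
    (halg : ∀ a : ↥F₁, ((algebraMap ↥F₁ ↥F₂ a : ↥F₂) : LaurentSeries L) = (a : LaurentSeries L))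
    (halgb : ∀ a : ↥Fb₁, ((algebraMap ↥Fb₁ ↥Fb₂ a : ↥Fb₂) : LaurentSeries κ) = (a : LaurentSeries κ))
    (Q₁ : s48d_QPack A π F₁ Fb₁)
    {x₁ : ↥F₁} [FFGen L x₁] {x₂ : ↥F₂} [FFGen L x₂] {w₁ w₁' : ↥F₁} (hww : w₁ * w₁' = 1)
    (hP : s48g_ChartPack x₁ A π (s48d_qO Q₁) (s48d_qRed Q₁) w₁)
    (hP' : s48g_ChartPack x₁ A π (s48d_qO Q₁) (s48d_qRed Q₁) w₁')
    {n : ℕ} (hn : n.Prime) [CharP ↥Fb₁ n] {b : Module.Basis (Fin n) ↥F₁ ↥F₂} {t : ↥F₂}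
    {f : (↥(s48d_qO Q₁))[X]} {tb : ↥Fb₂}
    (T : LaurentSeries ↥A) (hT : (t : LaurentSeries L) = coeffMap A.subtype T)
    (hTb : (tb : LaurentSeries κ) = coeffMap π T)
    (hK : s48g_LayerData (s48d_qO Q₁) (s48d_qRed Q₁) b t f tb)
    (hspan : ⊤ ≤ Submodule.span ↥Fb₁ (Set.range fun i : Fin n => tb ^ (i : ℕ)))
    (lam u' u'' : L) (hlamA : lam ∈ A) (hlam0 : lam ≠ 0) (hu'A : u' ∈ A)
    (hu''A : u'' ∈ A) (huu : u' * u'' = 1) (hnu : (n : L) = u' * lam ^ (n - 1))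
    (τ : ↥F₂) (a : ↥F₁) (haO : a ∈ s48d_qO Q₁)
    (hτ : τ = algebraMap ↥F₁ ↥F₂ a + algebraMap L ↥F₂ lam * t)
    (h : ↥F₁) (hh : τ ^ n = algebraMap ↥F₁ ↥F₂ h) (hhO : h ∈ s48d_qO Q₁)
    (hhred : s48d_qRed Q₁ ⟨h, hhO⟩ ≠ 0)
    (hdiv : ∀ P : Place L ↥F₁, (n : ℤ) ∣ P.ord h)
    (γ β : ↥Fb₁) (hγ : γ ≠ 0)
    (htb : tb ^ n + algebraMap ↥Fb₁ ↥Fb₂ γ * tb = algebraMap ↥Fb₁ ↥Fb₂ β)
    (happ : ∃ Aapp ∈ s18_latSet (s48d_qO Q₁) (s18_chart1 (L₀ := L) w₁) (s18_E h n),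
      ∃ y ∈ s48d_qO Q₁, a - Aapp = algebraMap L ↥F₁ lam * y)
    (happ' : ∃ Aapp ∈ s18_latSet (s48d_qO Q₁) (s18_chart1 (L₀ := L) w₁') (s18_E h n),
      ∃ y ∈ s48d_qO Q₁, a - Aapp = algebraMap L ↥F₁ lam * y) :
    ∃ Q₂ : s48d_QPack A π F₂ Fb₂,
      s48g_ChartPack x₂ A π (s48d_qO Q₂) (s48d_qRed Q₂) (algebraMap ↥F₁ ↥F₂ w₁) ∧
      s48g_ChartPack x₂ A π (s48d_qO Q₂) (s48d_qRed Q₂) (algebraMap ↥F₁ ↥F₂ w₁') := by
  classical
  set bb : Module.Basis (Fin n) ↥Fb₁ ↥Fb₂ := Module.Basis.mk hK.indep hspan with hbbdef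
  have hbb : ∀ i : Fin n, bb i = tb ^ (i : ℕ) := fun i => by
    rw [hbbdef, Module.Basis.mk_apply]
  have hww' : w₁' * w₁ = 1 := by rw [mul_comm]; exact hww
  have hpack := s48a_chartPack_wild_of_app (x := x₂) hK bb hbb hn hww hP hP' lam u' u'' hlamA hlam0
    hu'A hu''A huu hnu τ a haO hτ h hh hhO hhred hdiv γ β hγ htb happ happ'
  have hpack' := s48a_chartPack_wild_of_app (x := x₂) hK bb hbb hn hww' hP' hP lam u' u'' hlamA
    hlam0 hu'A hu''A huu hnu τ a haO hτ h hh hhO hhred hdiv γ β hγ htb happ' happ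
  refine ⟨s48d_q_step halg halgb Q₁ T hT hTb hK hspan, ?_, ?_⟩
  · exact s48d_q_chartPack_congr (s48d_q_step_O halg halgb Q₁ T hT hTb hK hspan)
      (s48d_q_step_red halg halgb Q₁ T hT hTb hK hspan) hpack
  · exact s48d_q_chartPack_congr (s48d_q_step_O halg halgb Q₁ T hT hTb hK hspan)
      (s48d_q_step_red halg halgb Q₁ T hT hTb hK hspan) hpack'

end Fermat.Agent.Lib.S48
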