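/-
DS-1 (S48), wall [T9] (helper9), part 6: **Artin–Schreier independence** — pure field theory,
Mathlib only.

`K` a field of characteristic `p`, `γ ≠ 0`, `β ∈ K`.  If the additive trinomial `X^p + γ X - β` has no
root in `K`, then for every root `tb` in an extension field the powers `1, tb, …, tb^(p-1)` are
linearly independent over `K` (`s48c_as_indep`: the `indep` field of a wild layer datum).
The proof is the trace trick: if `[K(tb) : K] = d < p` then `c = Tr(tb) / d` is a root in `K`,
because `Tr(x^p) = Tr(x)^p` for a separable extension of characteristic `p`.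
-/
import Mathlib

set_option autoImplicit false
set_option linter.unusedSectionVars false
set_option linter.style.haveILetI false

namespace Fermat.Agent.Lib.S48

open Polynomial IntermediateField

/-- `Tr(x^p) = Tr(x)^p` for a finite separable extension of characteristic `p`. -/
theorem s48c_trace_pow_char {K E : Type*} [Field K] [Field E] [Algebra K E]
    [FiniteDimensional K E] [Algebra.IsSeparable K E] (p : ℕ) [Fact p.Prime] [CharP K p]
    (x : E) : Algebra.trace K E (x ^ p) = (Algebra.trace K E x) ^ p := by
  haveI : CharP (AlgebraicClosure E) p :=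
    charP_of_injective_algebraMap (algebraMap K (AlgebraicClosure E)).injective p
  apply (algebraMap K (AlgebraicClosure E)).injective
  rw [map_pow (algebraMap K (AlgebraicClosure E)), trace_eq_sum_embeddings (AlgebraicClosure E),
    trace_eq_sum_embeddings (AlgebraicClosure E), sum_pow_char]
  exact Finset.sum_congr rfl fun σ _ => map_pow σ x p

/-- the trace trick: a root of `X^p + γ X - β` in a separable extension of degree prime to `p`
gives a root in the base field. -/
theorem s48c_as_root_of_trace {K E : Type*} [Field K] [Field E] [Algebra K E]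
    [FiniteDimensional K E] [Algebra.IsSeparable K E] (p : ℕ) [Fact p.Prime] [CharP K p]
    (γ β : K) (θ : E) (hθ : θ ^ p + algebraMap K E γ * θ = algebraMap K E β)
    (hd : ¬ p ∣ Module.finrank K E) : ∃ c : K, c ^ p + γ * c = β := by
  set d : ℕ := Module.finrank K E with hd_def
  have hdK : (d : K) ≠ 0 := by
    intro h
    exact hd ((CharP.cast_eq_zero_iff K p d).mp h)
  have hT : (Algebra.trace K E θ) ^ p + γ * Algebra.trace K E θ = (d : K) * β := by
    have h1 := congrArg (Algebra.trace K E) hθ
    rw [map_add, s48c_trace_pow_char p θ, ← Algebra.smul_def, map_smul, smul_eq_mul,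
      Algebra.trace_algebraMap, nsmul_eq_mul] at h1
    exact h1
  have hdp : (d : K) ^ p = d := by
    have := map_natCast (frobenius K p) d
    rwa [frobenius_def] at this
  refine ⟨Algebra.trace K E θ / d, ?_⟩
  rw [div_pow, hdp]
  field_simp
  linear_combination hT

/-- **Artin–Schreier independence.** -/
theorem s48c_as_indep {K Fb : Type*} [Field K] [Field Fb] [Algebra K Fb] (p : ℕ) [Fact p.Prime]
    [CharP K p] (γ β : K) (hγ : γ ≠ 0) (tb : Fb)
    (htb : tb ^ p + algebraMap K Fb γ * tb = algebraMap K Fb β)
    (hno : ∀ c : K, c ^ p + γ * c ≠ β) :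
    LinearIndependent K (fun i : Fin p => tb ^ (i : ℕ)) := by
  have hp : p.Prime := Fact.out
  have hp2 : 2 ≤ p := hp.two_le
  set f : K[X] := X ^ p + (C γ * X - C β) with hf
  have hdeg : (C γ * X - C β : K[X]).degree < ((p : ℕ) : WithBot ℕ) := by
    refine lt_of_le_of_lt (degree_sub_le _ _) (max_lt ?_ ?_)
    · refine lt_of_le_of_lt (degree_C_mul_X_le _) ?_
      exact_mod_cast hp2
    · refine lt_of_le_of_lt degree_C_le ?_
      exact_mod_cast (by omega : 0 < p)
  have hmonic : f.Monic := monic_X_pow_add hdeg
  have hnat : f.natDegree = p := by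
    rw [hf, natDegree_add_eq_left_of_degree_lt (by rwa [degree_X_pow]), natDegree_X_pow]
  have hroot : aeval tb f = 0 := by
    rw [hf, map_add, map_pow, aeval_X, map_sub, map_mul, aeval_C, aeval_X, aeval_C]
    rw [← htb]; ring
  have hint : IsIntegral K tb := ⟨f, hmonic, by rwa [← aeval_def]⟩
  have hfsep : f.Separable := by
    have hder : derivative f = C γ := by
      rw [hf, derivative_add, derivative_X_pow, derivative_sub, derivative_C_mul, derivative_X,
        derivative_C, mul_one, sub_zero]
      have : (C (p : K) : K[X]) = 0 := by rw [CharP.cast_eq_zero K p, C_0]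
      rw [this, zero_mul, zero_add]
    rw [separable_def, hder]
    refine ⟨0, C γ⁻¹, ?_⟩
    rw [zero_mul, zero_add, ← C_mul, inv_mul_cancel₀ hγ, C_1]
  have hmin : minpoly K tb ∣ f := minpoly.dvd K tb hroot
  have hsep : IsSeparable K tb := hfsep.of_dvd hmin
  have hle : (minpoly K tb).natDegree ≤ p := by
    rw [← hnat]
    exact natDegree_le_of_dvd hmin hmonic.ne_zero
  have hpos : 0 < (minpoly K tb).natDegree := minpoly.natDegree_pos hint
  have key : ∀ n, (minpoly K tb).natDegree = n →
      LinearIndependent K (fun i : Fin n => tb ^ (i : ℕ)) := by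
    rintro n rfl
    exact linearIndependent_pow tb
  rcases eq_or_lt_of_le hle with heq | hlt
  · exact key p heq
  exfalso
  haveI : FiniteDimensional K K⟮tb⟯ := adjoin.finiteDimensional hint
  haveI : Algebra.IsSeparable K K⟮tb⟯ :=
    (isSeparable_adjoin_simple_iff_isSeparable K Fb).mpr hsep
  have hfin : Module.finrank K K⟮tb⟯ = (minpoly K tb).natDegree := adjoin.finrank hint
  have hnd : ¬ p ∣ Module.finrank K K⟮tb⟯ := by
    rw [hfin]
    intro hdvd
    have := Nat.le_of_dvd hpos hdvd
    omega
  have hθ : (AdjoinSimple.gen K tb) ^ p + algebraMap K K⟮tb⟯ γ * AdjoinSimple.gen K tb =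
      algebraMap K K⟮tb⟯ β := by
    apply Subtype.ext
    push_cast
    rw [AdjoinSimple.coe_gen]
    exact htb
  obtain ⟨c, hc⟩ := s48c_as_root_of_trace p γ β (AdjoinSimple.gen K tb) hθ hnd
  exact hno c hc

end Fermat.Agent.Lib.S48
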