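/-
DS-1 (S48), wall [T9] core (helper9), part 1: the WILD chart approximation [KC-p] — pure algebra.

`R` a domain (the Gauss ring `O`), `B ⊆ R` a subring (the chart ring), `I, I' ⊆ R` additive
subgroups stable under `B` (the chart lattices of `E` and `-E`) with `1 ∈ I · I'` (invertibility),
`I · I' ⊆ B`, `I^p ⊆ h B`, `h I'^p ⊆ B` for a unit `h` of `R` (so `div h = p E`), `B ∩ π R = π B`,
`p = u π^e` with `u ∈ B^×`, and the image of `B` in `R / π R` closed under roots of monic trinomials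
`X^p + c₁ X - c₀`.  If `ξ ^ p ≡ h mod π^N` then `ξ` is approximated inside `I` modulo `π^n` for
every `n` with `n p + e ≤ N`.

(The tame analogue is `s18k_approx`; here `p` is the residue characteristic, there is no Newton
iteration, and the three regimes `n p <, =, > n + e` of the binomial expansion are handled through
the partition of unity of the invertible lattice.)
Mathlib only.
-/
import Mathlib

set_option autoImplicit false
set_option linter.unusedSectionVars false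

namespace Fermat.Agent.Lib.S48

/-- binomial expansion for a prime exponent, to second order. -/
theorem s48c_wbinom {R : Type*} [CommRing R] {p : ℕ} (hp : p.Prime) (a y : R) :
    ∃ w : R, (a + y) ^ p = a ^ p + y ^ p + (p : R) * a ^ (p - 1) * y + (p : R) * y ^ 2 * w := by
  obtain ⟨q, rfl⟩ : ∃ q, p = q + 2 := ⟨p - 2, by have := hp.two_le; omega⟩
  refine ⟨∑ m ∈ Finset.range q,
    a ^ (m + 1) * y ^ (q - 1 - m) * (((q + 2).choose (m + 1) / (q + 2) : ℕ) : R), ?_⟩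
  rw [add_pow, Finset.sum_range_succ, Finset.sum_range_succ, Finset.sum_range_succ']
  have hmid : ∑ m ∈ Finset.range q,
      a ^ (m + 1) * y ^ (q + 2 - (m + 1)) * (((q + 2).choose (m + 1) : ℕ) : R) =
      ((q + 2 : ℕ) : R) * y ^ 2 * ∑ m ∈ Finset.range q,
        a ^ (m + 1) * y ^ (q - 1 - m) * (((q + 2).choose (m + 1) / (q + 2) : ℕ) : R) := by
    rw [Finset.mul_sum]
    refine Finset.sum_congr rfl fun m hm => ?_
    rw [Finset.mem_range] at hm
    have h1 : (q + 2) ∣ (q + 2).choose (m + 1) :=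
      hp.dvd_choose_self (by omega) (by omega)
    obtain ⟨d, hd⟩ := h1
    have hd' : (q + 2).choose (m + 1) / (q + 2) = d := by
      rw [hd, Nat.mul_div_cancel_left _ (by omega)]
    rw [hd', hd]
    have : q + 2 - (m + 1) = (q - 1 - m) + 2 := by omega
    rw [this, pow_add]
    push_cast
    ring
  rw [hmid]
  have h2 : q + 2 - (q + 1) = 1 := by omega
  have h3 : q + 2 - (q + 2) = 0 := by omega
  have h4 : (q + 2).choose (q + 1) = q + 2 := by
    rw [show q + 1 = (q + 2) - 1 from by omega, Nat.choose_symm (by omega), Nat.choose_one_right]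
  rw [h2, h3, h4]
  simp only [Nat.choose_self, Nat.choose_zero_right, pow_zero, pow_one, Nat.cast_one, mul_one,
    one_mul, Nat.sub_zero]
  have h5 : q + 2 - 1 = q + 1 := by omega
  rw [h5]
  push_cast
  ring

variable {R : Type*} [CommRing R] [IsDomain R]

/-- purity, iterated. -/
theorem s48c_wpure_pow (B : Subring R) (π : R) (hπ0 : π ≠ 0)
    (hpureB : ∀ b ∈ B, π ∣ b → ∃ b' ∈ B, b = π * b') :
    ∀ k : ℕ, ∀ b ∈ B, π ^ k ∣ b → ∃ b' ∈ B, b = π ^ k * b' := by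
  intro k
  induction k with
  | zero => intro b hb _; exact ⟨b, hb, by rw [pow_zero, one_mul]⟩
  | succ k ih =>
    intro b hb hdvd
    obtain ⟨b₁, hb₁, e₁⟩ := hpureB b hb (Dvd.dvd.trans (dvd_pow_self π (Nat.succ_ne_zero k)) hdvd)
    have h2 : π ^ k ∣ b₁ := by
      rw [e₁, pow_succ'] at hdvd
      exact (mul_dvd_mul_iff_left hπ0).mp hdvd
    obtain ⟨b₂, hb₂, e₂⟩ := ih b₁ hb₁ h2
    exact ⟨b₂, hb₂, by rw [e₁, e₂, pow_succ']; ring⟩

/-- a partition of unity can be raised to a power. -/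
theorem s48c_wpartition (B : Subring R) (s : Finset ℕ) (ev : ℕ → R) (hev : ∀ j ∈ s, ev j ∈ B)
    (hsum : ∑ j ∈ s, ev j = 1) (k : ℕ) :
    ∃ q : ℕ → R, (∀ j ∈ s, q j ∈ B) ∧ ∑ j ∈ s, q j * ev j ^ k = 1 := by
  classical
  let v : s → B := fun i => ⟨ev i, hev i i.2⟩
  have h1 : Ideal.span (Set.range v) = ⊤ := by
    rw [Ideal.eq_top_iff_one]
    have : (1 : B) = ∑ i : s, v i := by
      apply Subtype.ext
      rw [Subring.coe_one, ← hsum, AddSubmonoidClass.coe_finsetSum, ← Finset.sum_coe_sort s ev]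
    rw [this]
    exact Ideal.sum_mem _ fun i _ => Ideal.subset_span ⟨i, rfl⟩
  have h2 := Ideal.span_pow_eq_top (Set.range v) h1 k
  rw [← Set.range_comp] at h2
  have h3 : (1 : B) ∈ Ideal.span (Set.range ((fun x => x ^ k) ∘ v)) := by rw [h2]; trivial
  obtain ⟨c, hc⟩ := Ideal.mem_span_range_iff_exists_fun.mp h3
  refine ⟨fun j => if hj : j ∈ s then (c ⟨j, hj⟩ : R) else 0, fun j hj => ?_, ?_⟩
  · simp only [hj, dif_pos]
    exact (c ⟨j, hj⟩).2
  · have h4 := congrArg (Subtype.val : B → R) hc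
    rw [Subring.coe_one, AddSubmonoidClass.coe_finsetSum] at h4
    rw [← h4, ← Finset.sum_coe_sort s]
    refine Finset.sum_congr rfl fun i _ => ?_
    simp only [i.2, dif_pos, Function.comp_apply, Subring.coe_mul, Subring.coe_pow]
    rfl

/-- **[KC-p], the wild chart approximation**, sharp form: to reach the level `n` one needs, for every
`k < n`, the precision `N ≥ min (k p) (k + e) + 1`. -/
theorem s48c_wapprox_sharp (B : Subring R) (I I' : AddSubgroup R) (π h h' : R) {p : ℕ} (hp : p.Prime)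
    (hπB : π ∈ B) (hπ0 : π ≠ 0)
    (hBI : ∀ b ∈ B, ∀ a ∈ I, b * a ∈ I)
    (hII' : ∀ a ∈ I, ∀ b ∈ I', a * b ∈ B)
    (hpureB : ∀ b ∈ B, π ∣ b → ∃ b' ∈ B, b = π * b')
    (hIC : ∀ x : R, ∀ c₁ ∈ B, ∀ c₀ ∈ B, π ∣ x ^ p + c₁ * x - c₀ → ∃ b' ∈ B, π ∣ x - b')
    (hinv : ∃ (s : Finset ℕ) (a b : ℕ → R), (∀ j ∈ s, a j ∈ I) ∧ (∀ j ∈ s, b j ∈ I') ∧
      ∑ j ∈ s, a j * b j = 1)
    (hpowI : ∀ a ∈ I, ∃ β ∈ B, a ^ p = h * β)
    (hpowI' : ∀ b ∈ I', h * b ^ p ∈ B)
    (hh' : h * h' = 1)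
    (e : ℕ) (he : 1 ≤ e) (u u' : R) (hu : u ∈ B) (hu' : u' ∈ B) (huu' : u * u' = 1)
    (hpu : (p : R) = u * π ^ e)
    (N : ℕ) (ξ : R) (hξN : π ^ N ∣ ξ ^ p - h) :
    ∀ n : ℕ, (∀ k < n, k * p + 1 ≤ N ∨ k + e + 1 ≤ N) → ∃ a ∈ I, π ^ n ∣ ξ - a := by
  classical
  obtain ⟨s, av, bv, hav, hbv, hsum⟩ := hinv
  obtain ⟨y₀, hy₀⟩ := hξN
  have hp2 := hp.two_le
  have hpp : ∀ x : R, x ^ (p - 1) * x = x ^ p := by
    intro x
    rw [← pow_succ]
    congr 1
    omega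
  intro n
  induction n with
  | zero => intro _; exact ⟨0, I.zero_mem, by rw [pow_zero]; exact one_dvd _⟩
  | succ n ih =>
    intro hN
    obtain ⟨k, hk⟩ : ∃ k, n * p = k := ⟨_, rfl⟩
    have hN2 : k + 1 ≤ N ∨ n + e + 1 ≤ N := by
      have := hN n (Nat.lt_succ_self n)
      rw [hk] at this
      exact this
    have hkn : n ≤ k := by
      rw [← hk]
      exact Nat.le_mul_of_pos_right n (by omega)
    have hN' : ∀ j < n, j * p + 1 ≤ N ∨ j + e + 1 ≤ N := fun j hj => hN j (by omega)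
    obtain ⟨a, ha, z, hz⟩ := ih hN'
    obtain ⟨β, hβB, hβ⟩ := hpowI a ha
    obtain ⟨w, hw⟩ := s48c_wbinom hp a (π ^ n * z)
    have hξ : a + π ^ n * z = ξ := by linear_combination -hz
    rw [hξ] at hw
    -- the key identity
    have key : h * (1 - β) = (π ^ n * z) ^ p + (p : R) * a ^ (p - 1) * (π ^ n * z) +
        (p : R) * (π ^ n * z) ^ 2 * w - π ^ N * y₀ := by
      linear_combination hw - hy₀ + hβ
    rw [hpu] at key
    -- it suffices to approximate `z` modulo `π`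
    suffices hsuff : ∃ a' ∈ I, π ∣ z - a' by
      obtain ⟨a', ha', y, hy⟩ := hsuff
      refine ⟨a + π ^ n * a', I.add_mem ha (hBI _ (B.pow_mem hπB n) _ ha'), y, ?_⟩
      rw [pow_succ]
      linear_combination hz + π ^ n * hy
    have h1β : (1 - β) ∈ B := B.sub_mem B.one_mem hβB
    have e0 : (π ^ n * z) ^ p = π ^ k * z ^ p := by rw [mul_pow, ← pow_mul, hk]
    have hk0 : n = 0 → k = 0 := by
      rintro rfl
      rw [← hk, Nat.zero_mul]
    clear hN' ih hN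
    by_cases hc : k ≤ n + e
    · ---------------- regimes I and II
      obtain ⟨r, hr⟩ : ∃ r, n + e = k + r := ⟨n + e - k, by omega⟩
      obtain ⟨s', hs'⟩ : ∃ s', N = k + (1 + s') := ⟨N - k - 1, by omega⟩
      obtain ⟨m', hm'⟩ : ∃ m', r + n = 1 + m' := by
        refine ⟨r + n - 1, ?_⟩
        rcases Nat.eq_zero_or_pos n with h0 | h0
        · have := hk0 h0
          omega
        · omega
      have E1 : π ^ e * π ^ n = π ^ k * π ^ r := by
        rw [← pow_add, ← pow_add]; congr 1; omega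
      have E2 : π ^ N = π ^ k * (π * π ^ s') := by
        rw [hs', pow_add, pow_add, pow_one]
      have E3 : π ^ r * π ^ n = π * π ^ m' := by
        rw [← pow_add, hm', pow_add, pow_one]
      set G : R := z ^ p + u * π ^ r * a ^ (p - 1) * z + u * (π * π ^ m') * z ^ 2 * w -
        π * π ^ s' * y₀ with hG
      have key2 : h * (1 - β) = π ^ k * G := by
        rw [key, hG, e0]
        linear_combination (u * a ^ (p - 1) * z + u * π ^ n * z ^ 2 * w) * E1 - y₀ * E2 +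
          u * π ^ k * z ^ 2 * w * E3
      obtain ⟨γ, hγB, hγ⟩ := s48c_wpure_pow B π hπ0 hpureB k (1 - β) h1β
        ⟨h' * G, by linear_combination h' * key2 - (1 - β) * hh'⟩
      have hG2 : h * γ = G := by
        have h3 : π ^ k * (h * γ) = π ^ k * G := by
          rw [← key2, hγ]; ring
        exact mul_left_cancel₀ (pow_ne_zero _ hπ0) h3
      -- the trinomials
      have htri : ∀ j ∈ s, ∃ c ∈ B, π ∣ bv j * z - c := by
        intro j hj
        refine hIC (bv j * z) (u * π ^ r * (bv j * a) ^ (p - 1))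
          (B.mul_mem (B.mul_mem hu (B.pow_mem hπB r))
            (B.pow_mem (by rw [mul_comm]; exact hII' a ha _ (hbv j hj)) _))
          (h * bv j ^ p * γ) (B.mul_mem (hpowI' _ (hbv j hj)) hγB) ?_
        refine ⟨bv j ^ p * (π ^ s' * y₀ - u * π ^ m' * z ^ 2 * w), ?_⟩
        have e1 : (bv j * a) ^ (p - 1) * (bv j * z) = bv j ^ p * (a ^ (p - 1) * z) := by
          rw [mul_pow, ← hpp (bv j)]; ring
        have e2 : (bv j * z) ^ p = bv j ^ p * z ^ p := mul_pow _ _ _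
        linear_combination e2 + u * π ^ r * e1 - bv j ^ p * hG2 - bv j ^ p * hG
      choose! c hcB hcdvd using htri
      refine ⟨∑ j ∈ s, c j * av j, I.sum_mem fun j hj => hBI _ (hcB j hj) _ (hav j hj), ?_⟩
      have hz' : z - ∑ j ∈ s, c j * av j = ∑ j ∈ s, av j * (bv j * z - c j) := by
        have : z = (∑ j ∈ s, av j * bv j) * z := by rw [hsum, one_mul]
        conv_lhs => rw [this]
        rw [Finset.sum_mul, ← Finset.sum_sub_distrib]
        exact Finset.sum_congr rfl fun j _ => by ring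
      rw [hz']
      exact Finset.dvd_sum fun j hj => Dvd.dvd.mul_left (hcdvd j hj) _
    · ---------------- regime III
      push Not at hc
      have hn1 : 1 ≤ n := by
        rcases Nat.eq_zero_or_pos n with h0 | h0
        · have := hk0 h0
          omega
        · exact h0
      obtain ⟨r', hr'⟩ : ∃ r', k = n + e + (1 + r') := ⟨k - (n + e) - 1, by omega⟩
      obtain ⟨s', hs'⟩ : ∃ s', N = n + e + (1 + s') := ⟨N - (n + e) - 1, by omega⟩
      obtain ⟨m', hm'⟩ : ∃ m', n = 1 + m' := ⟨n - 1, by omega⟩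
      have E1 : π ^ k = π ^ (n + e) * (π * π ^ r') := by
        rw [hr', pow_add, pow_add (a := π) 1 r', pow_one]
      have E2 : π ^ N = π ^ (n + e) * (π * π ^ s') := by
        rw [hs', pow_add, pow_add (a := π) 1 s', pow_one]
      have E3 : π ^ n = π * π ^ m' := by
        conv_lhs => rw [hm']
        rw [pow_add, pow_one]
      set G : R := π * π ^ r' * z ^ p + u * a ^ (p - 1) * z + u * (π * π ^ m') * z ^ 2 * w -
        π * π ^ s' * y₀ with hG
      have key2 : h * (1 - β) = π ^ (n + e) * G := by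
        rw [key, hG, e0]
        have E4 : π ^ (n + e) = π ^ n * π ^ e := pow_add _ _ _
        linear_combination z ^ p * E1 - y₀ * E2 + u * π ^ e * π ^ n * z ^ 2 * w * E3 -
          (u * a ^ (p - 1) * z + u * (π * π ^ m') * z ^ 2 * w) * E4
      obtain ⟨γ, hγB, hγ⟩ := s48c_wpure_pow B π hπ0 hpureB (n + e) (1 - β) h1β
        ⟨h' * G, by linear_combination h' * key2 - (1 - β) * hh'⟩
      have hG2 : h * γ = G := by
        have h3 : π ^ (n + e) * (h * γ) = π ^ (n + e) * G := by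
          rw [← key2, hγ]; ring
        exact mul_left_cancel₀ (pow_ne_zero _ hπ0) h3
      have hβ1 : π ∣ 1 - β := by
        rw [hγ]
        exact Dvd.dvd.mul_right (dvd_pow_self π (by omega)) _
      -- for each `j`: `e_j ^ p * (b_j z)` is congruent to an element of `B`
      choose! βa hβaB hβa using hpowI
      have hloc : ∀ j ∈ s, ∃ c ∈ B, π ∣ (av j * bv j) ^ p * (bv j * z) - c := by
        intro j hj
        have hbaB : bv j * a ∈ B := by rw [mul_comm]; exact hII' a ha _ (hbv j hj)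
        refine ⟨(bv j * a) * βa (av j) * (u' * (h * bv j ^ p * γ)),
          B.mul_mem (B.mul_mem hbaB (hβaB _ (hav j hj)))
            (B.mul_mem hu' (B.mul_mem (hpowI' _ (hbv j hj)) hγB)), ?_⟩
        obtain ⟨δ, hδ⟩ := hβ1
        -- `(b a)^p * βa_j = e_j^p * β`
        have e1 : (bv j * a) ^ p * βa (av j) = (av j * bv j) ^ p * β := by
          have h1 := hβa (av j) (hav j hj)
          rw [mul_pow, mul_pow, hβ, h1]; ring
        -- `(b a)^(p-1) * (b z) - u' * (h b^p γ) = u' b^p (u a^(p-1) z - h γ)`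
        have e2 : (bv j * a) ^ (p - 1) * (bv j * z) - u' * (h * bv j ^ p * γ) =
            π * (u' * bv j ^ p * (π ^ s' * y₀ - π ^ r' * z ^ p - u * π ^ m' * z ^ 2 * w)) := by
          have e3 : (bv j * a) ^ (p - 1) * (bv j * z) = bv j ^ p * (a ^ (p - 1) * z) := by
            rw [mul_pow, ← hpp (bv j)]; ring
          linear_combination e3 - u' * bv j ^ p * hG2 - u' * bv j ^ p * hG -
            bv j ^ p * a ^ (p - 1) * z * huu'
        refine ⟨(av j * bv j) ^ p * (bv j * z) * δ +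
          (bv j * a) * βa (av j) *
            (u' * bv j ^ p * (π ^ s' * y₀ - π ^ r' * z ^ p - u * π ^ m' * z ^ 2 * w)), ?_⟩
        have e5 : (bv j * a) ^ p = (bv j * a) * (bv j * a) ^ (p - 1) := by
          rw [← hpp (bv j * a)]; ring
        linear_combination -(bv j * z) * e1 + (av j * bv j) ^ p * (bv j * z) * hδ +
          βa (av j) * (bv j * z) * e5 + (bv j * a) * βa (av j) * e2
      choose! c hcB hcdvd using hloc
      obtain ⟨q, hqB, hq⟩ := s48c_wpartition B s (fun j => av j * bv j)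
        (fun j hj => hII' _ (hav j hj) _ (hbv j hj)) hsum (p + 1)
      refine ⟨∑ j ∈ s, (q j * c j) * av j,
        I.sum_mem fun j hj => hBI _ (B.mul_mem (hqB j hj) (hcB j hj)) _ (hav j hj), ?_⟩
      have hz' : z - ∑ j ∈ s, (q j * c j) * av j =
          ∑ j ∈ s, q j * av j * ((av j * bv j) ^ p * (bv j * z) - c j) := by
        have : z = (∑ j ∈ s, q j * (av j * bv j) ^ (p + 1)) * z := by rw [hq, one_mul]
        conv_lhs => rw [this]
        rw [Finset.sum_mul, ← Finset.sum_sub_distrib]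
        exact Finset.sum_congr rfl fun j _ => by ring
      rw [hz']
      exact Finset.dvd_sum fun j hj => Dvd.dvd.mul_left (hcdvd j hj) _

/-- **[KC-p] inside a field** (the shape of `s18k_approx`): `O ⊇ B` subrings of a field `𝓕`,
`I, I'` additive subgroups of `O`. -/
theorem s48c_wapprox_field_sharp {𝓕 : Type*} [Field 𝓕] (O B : Subring 𝓕) (hBO : B ≤ O) (π h : 𝓕)
    {p : ℕ} (hp : p.Prime) (I I' : AddSubgroup 𝓕)
    (hπB : π ∈ B) (hπ0 : π ≠ 0)
    (hIO : ∀ a ∈ I, a ∈ O) (hI'O : ∀ b ∈ I', b ∈ O)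
    (hBI : ∀ b ∈ B, ∀ a ∈ I, b * a ∈ I)
    (hII' : ∀ a ∈ I, ∀ b ∈ I', a * b ∈ B)
    (hpureB : ∀ b ∈ B, (∃ x ∈ O, b = π * x) → ∃ b' ∈ B, b = π * b')
    (hIC : ∀ x ∈ O, ∀ c₁ ∈ B, ∀ c₀ ∈ B, (∃ y ∈ O, x ^ p + c₁ * x - c₀ = π * y) →
      ∃ b' ∈ B, ∃ y ∈ O, x - b' = π * y)
    (hinv : ∃ (s : Finset ℕ) (a b : ℕ → 𝓕), (∀ j ∈ s, a j ∈ I) ∧ (∀ j ∈ s, b j ∈ I') ∧
      ∑ j ∈ s, a j * b j = 1)
    (hpowI : ∀ a ∈ I, ∃ β ∈ B, a ^ p = h * β)
    (hpowI' : ∀ b ∈ I', h * b ^ p ∈ B)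
    (hh : h ∈ O) (hhinv : h⁻¹ ∈ O) (hh0 : h ≠ 0)
    (e : ℕ) (he : 1 ≤ e) (u u' : 𝓕) (hu : u ∈ B) (hu' : u' ∈ B) (huu' : u * u' = 1)
    (hpu : (p : 𝓕) = u * π ^ e)
    (N : ℕ) (ξ : 𝓕) (hξ : ξ ∈ O) (hξN : ∃ y ∈ O, ξ ^ p - h = π ^ N * y) :
    ∀ n : ℕ, (∀ k < n, k * p + 1 ≤ N ∨ k + e + 1 ≤ N) →
      ∃ a ∈ I, ∃ y ∈ O, ξ - a = π ^ n * y := by
  classical
  have hπO : π ∈ O := hBO hπB
  -- transport to the domain `↥O`
  have hdvd : ∀ (x : O) (k : ℕ), (⟨π, hπO⟩ : O) ^ k ∣ x ↔ ∃ y ∈ O, (x : 𝓕) = π ^ k * y := by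
    intro x k
    constructor
    · rintro ⟨y, rfl⟩
      exact ⟨y, y.2, by simp⟩
    · rintro ⟨y, hy, e⟩
      exact ⟨⟨y, hy⟩, Subtype.ext (by simpa using e)⟩
  have hdvd1 : ∀ (x : O), (⟨π, hπO⟩ : O) ∣ x ↔ ∃ y ∈ O, (x : 𝓕) = π * y := by
    intro x
    have := hdvd x 1
    simpa using this
  obtain ⟨s, a, b, ha, hb, hsum⟩ := hinv
  intro n hn
  have key := s48c_wapprox_sharp (R := O) (B.comap O.subtype) (I.comap O.subtype.toAddMonoidHom)
    (I'.comap O.subtype.toAddMonoidHom) ⟨π, hπO⟩ ⟨h, hh⟩ ⟨h⁻¹, hhinv⟩ hp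
    (by simpa using hπB)
    (by intro h0; exact hπ0 (by simpa using congrArg Subtype.val h0))
    (by
      intro x hx y hy
      exact hBI _ hx _ hy)
    (by
      intro x hx y hy
      exact hII' _ hx _ hy)
    (by
      intro x hx hd
      obtain ⟨y, hy, e⟩ := (hdvd1 x).mp hd
      obtain ⟨b', hb', e'⟩ := hpureB _ hx ⟨y, hy, e⟩
      exact ⟨⟨b', hBO hb'⟩, hb', Subtype.ext (by simpa using e')⟩)
    (by
      intro x c₁ hc₁ c₀ hc₀ hd
      obtain ⟨y, hy, e⟩ := (hdvd1 _).mp hd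
      obtain ⟨b', hb', y', hy', e'⟩ := hIC x x.2 c₁ hc₁ c₀ hc₀ ⟨y, hy, by simpa using e⟩
      exact ⟨⟨b', hBO hb'⟩, hb', (hdvd1 _).mpr ⟨y', hy', by simpa using e'⟩⟩)
    ⟨s, fun j => if hj : j ∈ s then ⟨a j, hIO _ (ha j hj)⟩ else 0,
      fun j => if hj : j ∈ s then ⟨b j, hI'O _ (hb j hj)⟩ else 0,
      fun j hj => by simpa [hj] using ha j hj,
      fun j hj => by simpa [hj] using hb j hj,
      by
        apply Subtype.ext
        rw [Subring.coe_one, ← hsum, AddSubmonoidClass.coe_finsetSum]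
        refine Finset.sum_congr rfl fun j hj => ?_
        simp [hj]⟩
    (by
      intro x hx
      obtain ⟨β, hβ, e⟩ := hpowI _ hx
      exact ⟨⟨β, hBO hβ⟩, hβ, Subtype.ext (by simpa using e)⟩)
    (by
      intro x hx
      exact hpowI' _ hx)
    (Subtype.ext (by simpa using mul_inv_cancel₀ hh0))
    e he ⟨u, hBO hu⟩ ⟨u', hBO hu'⟩ hu hu' (Subtype.ext (by simpa using huu'))
    (Subtype.ext (by simpa using hpu))
    N ⟨ξ, hξ⟩
    (by
      obtain ⟨y, hy, e⟩ := hξN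
      exact (hdvd _ N).mpr ⟨y, hy, by simpa using e⟩)
    n hn
  obtain ⟨a', ha', hd⟩ := key
  obtain ⟨y, hy, e⟩ := (hdvd _ n).mp hd
  exact ⟨a', ha', y, hy, by simpa using e⟩

/-- the crude bound implies the sharp one. -/
theorem s48c_wbound {p e N n : ℕ} (hp1 : 1 ≤ p) (hn : n * p + e ≤ N) :
    ∀ k < n, k * p + 1 ≤ N ∨ k + e + 1 ≤ N := by
  intro k hk
  left
  have h1 : (k + 1) * p ≤ n * p := Nat.mul_le_mul_right p hk
  have h2 : (k + 1) * p = k * p + p := by ring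
  omega

/-- **[KC-p], the wild chart approximation** (crude bound `n p + e ≤ N`). -/
theorem s48c_wapprox {R : Type*} [CommRing R] [IsDomain R] (B : Subring R) (I I' : AddSubgroup R)
    (π h h' : R) {p : ℕ} (hp : p.Prime)
    (hπB : π ∈ B) (hπ0 : π ≠ 0)
    (hBI : ∀ b ∈ B, ∀ a ∈ I, b * a ∈ I)
    (hII' : ∀ a ∈ I, ∀ b ∈ I', a * b ∈ B)
    (hpureB : ∀ b ∈ B, π ∣ b → ∃ b' ∈ B, b = π * b')
    (hIC : ∀ x : R, ∀ c₁ ∈ B, ∀ c₀ ∈ B, π ∣ x ^ p + c₁ * x - c₀ → ∃ b' ∈ B, π ∣ x - b')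
    (hinv : ∃ (s : Finset ℕ) (a b : ℕ → R), (∀ j ∈ s, a j ∈ I) ∧ (∀ j ∈ s, b j ∈ I') ∧
      ∑ j ∈ s, a j * b j = 1)
    (hpowI : ∀ a ∈ I, ∃ β ∈ B, a ^ p = h * β)
    (hpowI' : ∀ b ∈ I', h * b ^ p ∈ B)
    (hh' : h * h' = 1)
    (e : ℕ) (he : 1 ≤ e) (u u' : R) (hu : u ∈ B) (hu' : u' ∈ B) (huu' : u * u' = 1)
    (hpu : (p : R) = u * π ^ e)
    (N : ℕ) (ξ : R) (hξN : π ^ N ∣ ξ ^ p - h) :
    ∀ n : ℕ, n * p + e ≤ N → ∃ a ∈ I, π ^ n ∣ ξ - a := fun n hn =>
  s48c_wapprox_sharp B I I' π h h' hp hπB hπ0 hBI hII' hpureB hIC hinv hpowI hpowI' hh' e he u u'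
    hu hu' huu' hpu N ξ hξN n (s48c_wbound hp.one_lt.le hn)

/-- **[KC-p] inside a field** (crude bound). -/
theorem s48c_wapprox_field {𝓕 : Type*} [Field 𝓕] (O B : Subring 𝓕) (hBO : B ≤ O) (π h : 𝓕)
    {p : ℕ} (hp : p.Prime) (I I' : AddSubgroup 𝓕)
    (hπB : π ∈ B) (hπ0 : π ≠ 0)
    (hIO : ∀ a ∈ I, a ∈ O) (hI'O : ∀ b ∈ I', b ∈ O)
    (hBI : ∀ b ∈ B, ∀ a ∈ I, b * a ∈ I)
    (hII' : ∀ a ∈ I, ∀ b ∈ I', a * b ∈ B)
    (hpureB : ∀ b ∈ B, (∃ x ∈ O, b = π * x) → ∃ b' ∈ B, b = π * b')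
    (hIC : ∀ x ∈ O, ∀ c₁ ∈ B, ∀ c₀ ∈ B, (∃ y ∈ O, x ^ p + c₁ * x - c₀ = π * y) →
      ∃ b' ∈ B, ∃ y ∈ O, x - b' = π * y)
    (hinv : ∃ (s : Finset ℕ) (a b : ℕ → 𝓕), (∀ j ∈ s, a j ∈ I) ∧ (∀ j ∈ s, b j ∈ I') ∧
      ∑ j ∈ s, a j * b j = 1)
    (hpowI : ∀ a ∈ I, ∃ β ∈ B, a ^ p = h * β)
    (hpowI' : ∀ b ∈ I', h * b ^ p ∈ B)
    (hh : h ∈ O) (hhinv : h⁻¹ ∈ O) (hh0 : h ≠ 0)
    (e : ℕ) (he : 1 ≤ e) (u u' : 𝓕) (hu : u ∈ B) (hu' : u' ∈ B) (huu' : u * u' = 1)
    (hpu : (p : 𝓕) = u * π ^ e)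
    (N : ℕ) (ξ : 𝓕) (hξ : ξ ∈ O) (hξN : ∃ y ∈ O, ξ ^ p - h = π ^ N * y) :
    ∀ n : ℕ, n * p + e ≤ N → ∃ a ∈ I, ∃ y ∈ O, ξ - a = π ^ n * y := fun n hn =>
  s48c_wapprox_field_sharp O B hBO π h hp I I' hπB hπ0 hIO hI'O hBI hII' hpureB hIC hinv hpowI
    hpowI' hh hhinv hh0 e he u u' hu hu' huu' hpu N ξ hξ hξN n (s48c_wbound hp.one_lt.le hn)

end Fermat.Agent.Lib.S48
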