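/-
DS-1 (S48), wall [T9] (helper1): **the wild step of the tower induction in the q-model, series form.**

`t = ιT`, `a = ιX₀`, `h = ιY` with `Y = (X₀ + λ T) ^ n = X₀ ^ n + λ ^ n cc` (identities of `A`-integral
series), `n` the residue characteristic, `n = u λ ^ (n - 1)`.  The layer datum (`s48a_layerData_of_wild`,
helper9's `s48c_as_indep`), the Artin–Schreier relation of the reduction (`s48a_series_as`) and the
separability are derived; [II] enters through `hno` (helper9's `s48c_wnoroot`), (W2) through `happ`,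
`happ'` (helper9's `s48c_wapp_baseChange`).
-/
import Fermat.Agent.Lib.S48.AWildQ
import Fermat.Agent.Lib.S48.AWildL
import Fermat.Agent.Lib.S48.WildAS
import Fermat.Agent.Lib.S48.WildKC

set_option autoImplicit false
set_option linter.unusedSectionVars false
set_option linter.style.haveILetI false

noncomputable section

namespace Fermat.Agent.Lib.S48

open ModularCurve HahnSeries AlgebraicCurve IntermediateField Polynomial Fermat.Agent.Lib.S37
  Fermat.Agent.Lib.FF Fermat.Agent.Lib.S18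

universe u

section Ser

variable {L : Type*} [Field L] {A : ValuationSubring L} {κ : Type*} [Field κ] (π : ↥A →+* κ)

theorem s48a_iota_C (a : ↥A) :
    coeffMap A.subtype (HahnSeries.C a : LaurentSeries ↥A) =
      algebraMap L (LaurentSeries L) (a : L) := by
  rw [HahnSeries.C_apply, coeffMap_single, algebraMap_laurentSeries_eq_single]
  rfl

theorem s48a_rho_C (a : ↥A) :
    coeffMap π (HahnSeries.C a : LaurentSeries ↥A) = HahnSeries.C (π a) := by
  rw [HahnSeries.C_apply, coeffMap_single, HahnSeries.C_apply]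

/-- the Artin–Schreier relation of the reduction, from the two presentations of `Y`. -/
theorem s48a_series_as {n : ℕ} (hn : n.Prime) (T X₀ Y cc : LaurentSeries ↥A)
    (lamA uA : ↥A) (hpu : ((n : ℕ) : ↥A) = uA * lamA ^ (n - 1)) (hlamπ : π lamA = 0)
    (hlam0 : lamA ≠ 0)
    (hrelS : Y = (X₀ + HahnSeries.C lamA * T) ^ n)
    (hcc : Y = X₀ ^ n + HahnSeries.C (lamA ^ n) * cc) :
    coeffMap π T ^ n + HahnSeries.C (π uA) * coeffMap π X₀ ^ (n - 1) * coeffMap π T =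
      coeffMap π cc := by
  obtain ⟨m, rfl⟩ : ∃ m, n = m + 1 := ⟨n - 1, by have := hn.pos; omega⟩
  rw [Nat.add_sub_cancel] at hpu ⊢
  obtain ⟨w, hw⟩ := s48c_wbinom hn X₀ (HahnSeries.C lamA * T)
  rw [Nat.add_sub_cancel] at hw
  have hpC : (((m + 1 : ℕ) : ℕ) : LaurentSeries ↥A) = HahnSeries.C uA * HahnSeries.C lamA ^ m := by
    rw [← map_pow, ← map_mul, ← hpu, map_natCast]
  have hC0 : (HahnSeries.C (lamA ^ (m + 1)) : LaurentSeries ↥A) ≠ 0 := by
    intro h0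
    have : (HahnSeries.C (lamA ^ (m + 1)) : LaurentSeries ↥A) = HahnSeries.C 0 := by
      rw [h0, map_zero]
    exact pow_ne_zero (m + 1) hlam0 (HahnSeries.C_injective this)
  have hkey : cc = T ^ (m + 1) + HahnSeries.C uA * X₀ ^ m * T +
      HahnSeries.C uA * HahnSeries.C lamA * T ^ 2 * w := by
    apply mul_left_cancel₀ hC0
    have h1 : HahnSeries.C (lamA ^ (m + 1)) * cc = Y - X₀ ^ (m + 1) := by rw [hcc]; ring
    rw [h1, hrelS, hw, hpC, map_pow]
    ring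
  rw [hkey, map_add, map_add, map_mul, map_mul, map_mul, map_mul, map_mul, map_pow, map_pow,
    map_pow, s48a_rho_C, s48a_rho_C, hlamπ, map_zero, mul_zero, zero_mul, zero_mul, add_zero]

end Ser

variable {L : Type*} [Field L] [CharZero L] [IsAlgClosed L] {A : ValuationSubring L}
  {κ : Type u} [Field κ] {π : ↥A →+* κ}
  {F₁ F₂ : IntermediateField L (LaurentSeries L)} {Fb₁ Fb₂ : IntermediateField κ (LaurentSeries κ)}
  [Algebra ↥F₁ ↥F₂] [IsScalarTower L ↥F₁ ↥F₂] [FiniteDimensional ↥F₁ ↥F₂]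
  [Algebra ↥Fb₁ ↥Fb₂] [IsScalarTower κ ↥Fb₁ ↥Fb₂]

set_option maxHeartbeats 1600000 in
/-- **the wild step (top level, q-model), series form**: `t = ιT`, `a = ιX₀`, `h = ιY`,
`Y = (X₀ + λ T) ^ n = X₀ ^ n + λ ^ n cc`; [II] enters through `hno`, (W2) through `happ`, `happ'`. -/
theorem s48a_q_wild_step_series
    (halg : ∀ a : ↥F₁, ((algebraMap ↥F₁ ↥F₂ a : ↥F₂) : LaurentSeries L) = (a : LaurentSeries L))
    (halgb : ∀ a : ↥Fb₁, ((algebraMap ↥Fb₁ ↥Fb₂ a : ↥Fb₂) : LaurentSeries κ) = (a : LaurentSeries κ))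
    (Q₁ : s48d_QPack A π F₁ Fb₁)
    {x₁ : ↥F₁} [FFGen L x₁] {x₂ : ↥F₂} [FFGen L x₂] {w₁ w₁' : ↥F₁} (hww : w₁ * w₁' = 1)
    (hP : s48g_ChartPack x₁ A π (s48d_qO Q₁) (s48d_qRed Q₁) w₁)
    (hP' : s48g_ChartPack x₁ A π (s48d_qO Q₁) (s48d_qRed Q₁) w₁')
    {n : ℕ} [hnF : Fact n.Prime] [CharP ↥Fb₁ n] (b : Module.Basis (Fin n) ↥F₁ ↥F₂) (t : ↥F₂)
    (hb : ∀ i : Fin n, b i = t ^ (i : ℕ)) (tb : ↥Fb₂)
    (T X₀ Y cc : LaurentSeries ↥A)
    (hT : (t : LaurentSeries L) = coeffMap A.subtype T)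
    (hTb : (tb : LaurentSeries κ) = coeffMap π T)
    (hX₀ : coeffMap A.subtype X₀ ∈ F₁) (hY : coeffMap A.subtype Y ∈ F₁)
    (lamA uA uinvA : ↥A) (huinv : uA * uinvA = 1)
    (hpu : ((n : ℕ) : ↥A) = uA * lamA ^ (n - 1)) (hlamπ : π lamA = 0) (hlam0 : lamA ≠ 0)
    (hrelS : Y = (X₀ + HahnSeries.C lamA * T) ^ n)
    (hcc : Y = X₀ ^ n + HahnSeries.C (lamA ^ n) * cc)
    (hY0 : coeffMap π Y ≠ 0)
    (hdiv : ∀ P : Place L ↥F₁, (n : ℤ) ∣ P.ord (⟨coeffMap A.subtype Y, hY⟩ : ↥F₁))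
    (hspan : ⊤ ≤ Submodule.span ↥Fb₁ (Set.range fun i : Fin n => tb ^ (i : ℕ)))
    (hno : ∀ c : ↥Fb₁, (c : LaurentSeries κ) ^ n +
      HahnSeries.C (π uA) * coeffMap π X₀ ^ (n - 1) * (c : LaurentSeries κ) ≠ coeffMap π cc)
    (happ : ∃ Aapp ∈ s18_latSet (s48d_qO Q₁) (s18_chart1 (L₀ := L) w₁)
        (s18_E (⟨coeffMap A.subtype Y, hY⟩ : ↥F₁) n),
      ∃ y ∈ s48d_qO Q₁, (⟨coeffMap A.subtype X₀, hX₀⟩ : ↥F₁) - Aapp =
        algebraMap L ↥F₁ ((lamA : ↥A) : L) * y)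
    (happ' : ∃ Aapp ∈ s18_latSet (s48d_qO Q₁) (s18_chart1 (L₀ := L) w₁')
        (s18_E (⟨coeffMap A.subtype Y, hY⟩ : ↥F₁) n),
      ∃ y ∈ s48d_qO Q₁, (⟨coeffMap A.subtype X₀, hX₀⟩ : ↥F₁) - Aapp =
        algebraMap L ↥F₁ ((lamA : ↥A) : L) * y) :
    ∃ Q₂ : s48d_QPack A π F₂ Fb₂,
      s48g_ChartPack x₂ A π (s48d_qO Q₂) (s48d_qRed Q₂) (algebraMap ↥F₁ ↥F₂ w₁) ∧
      s48g_ChartPack x₂ A π (s48d_qO Q₂) (s48d_qRed Q₂) (algebraMap ↥F₁ ↥F₂ w₁') := by
  classical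
  have hn : n.Prime := hnF.out
  set a : ↥F₁ := ⟨coeffMap A.subtype X₀, hX₀⟩ with ha
  set h : ↥F₁ := ⟨coeffMap A.subtype Y, hY⟩ with hh_def
  have haO : a ∈ s48d_qO Q₁ := s48d_q_iota_mem Q₁ X₀ hX₀
  have hhO : h ∈ s48d_qO Q₁ := s48d_q_iota_mem Q₁ Y hY
  set lam : L := ((lamA : ↥A) : L) with hlam
  have hlamL0 : lam ≠ 0 := fun h0 => hlam0 (Subtype.ext h0)
  have hnu : (n : L) = (uA : L) * lam ^ (n - 1) := by
    have := congrArg (fun x : ↥A => (x : L)) hpu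
    simpa using this
  have huu : (uA : L) * (uinvA : L) = 1 := by
    have := congrArg (fun x : ↥A => (x : L)) huinv
    simpa using this
  -- reductions
  have hredh : ((s48d_qRed Q₁ ⟨h, hhO⟩ : ↥Fb₁) : LaurentSeries κ) = coeffMap π Y :=
    s48d_qRedV_iota Q₁ Y hY
  have hreda : ((s48d_qRed Q₁ ⟨a, haO⟩ : ↥Fb₁) : LaurentSeries κ) = coeffMap π X₀ :=
    s48d_qRedV_iota Q₁ X₀ hX₀
  have hhred : s48d_qRed Q₁ ⟨h, hhO⟩ ≠ 0 := by
    intro h0
    apply hY0
    rw [← hredh, h0]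
    rfl
  -- `ρ (C λ) = 0`
  have hρlam : coeffMap π (HahnSeries.C lamA : LaurentSeries ↥A) = 0 := by
    rw [s48a_rho_C, hlamπ, map_zero]
  have hρY : coeffMap π Y = coeffMap π X₀ ^ n := by
    rw [hcc, map_add, map_mul, map_pow, map_pow, map_pow, hρlam, zero_pow hn.ne_zero, zero_mul,
      add_zero]
  have hρX₀ : coeffMap π X₀ ≠ 0 := by
    intro h0
    apply hY0
    rw [hρY, h0, zero_pow hn.ne_zero]
  have hπu : π uA ≠ 0 := by
    intro h0
    have := congrArg π huinv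
    rw [map_mul, h0, zero_mul, map_one] at this
    exact zero_ne_one this
  -- the series `cc` lies in `F₁`
  have hlamF₁ : (algebraMap L (LaurentSeries L) lam) ≠ 0 :=
    (_root_.map_ne_zero _).mpr hlamL0
  have hccrel : coeffMap A.subtype cc =
      (coeffMap A.subtype Y - coeffMap A.subtype X₀ ^ n) / (algebraMap L (LaurentSeries L) lam) ^ n := by
    rw [hcc, map_add, map_mul, map_pow, map_pow, map_pow, s48a_iota_C]
    field_simp
    simp only [hlam]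
    ring
  have hccF : coeffMap A.subtype cc ∈ F₁ := by
    rw [hccrel]
    exact F₁.div_mem (F₁.sub_mem hY (pow_mem hX₀ n)) (pow_mem (F₁.algebraMap_mem lam) n)
  have hccO : (⟨coeffMap A.subtype cc, hccF⟩ : ↥F₁) ∈ s48d_qO Q₁ := s48d_q_iota_mem Q₁ cc hccF
  -- `τ`
  set τ : ↥F₂ := algebraMap ↥F₁ ↥F₂ a + algebraMap L ↥F₂ lam * t with hτ
  have hτser : (τ : LaurentSeries L) = coeffMap A.subtype (X₀ + HahnSeries.C lamA * T) := by
    rw [hτ, map_add, map_mul, s48a_iota_C, ← hT]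
    show ((algebraMap ↥F₁ ↥F₂ a : ↥F₂) : LaurentSeries L) +
      ((algebraMap L ↥F₂ lam : ↥F₂) : LaurentSeries L) * (t : LaurentSeries L) = _
    rw [halg]
    rfl
  have hh : τ ^ n = algebraMap ↥F₁ ↥F₂ h := by
    apply Subtype.ext
    rw [SubmonoidClass.coe_pow, hτser, ← map_pow, ← hrelS, halg]
  -- elements of `Fb₁`
  have hρX₀mem : coeffMap π X₀ ∈ Fb₁ := by
    rw [← hreda]
    exact (s48d_qRed Q₁ ⟨a, haO⟩).2
  have hρccmem : coeffMap π cc ∈ Fb₁ := by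
    have := s48d_qRedV_iota Q₁ cc hccF
    rw [← this]
    exact s48d_qRedV_mem Q₁ _
  set γ : ↥Fb₁ := ⟨HahnSeries.C (π uA) * coeffMap π X₀ ^ (n - 1),
    Fb₁.mul_mem (by
      have : (HahnSeries.C (π uA) : LaurentSeries κ) = algebraMap κ (LaurentSeries κ) (π uA) := by
        rw [algebraMap_laurentSeries_eq_single, HahnSeries.C_apply]
      rw [this]
      exact Fb₁.algebraMap_mem _) (pow_mem hρX₀mem _)⟩ with hγdef
  set β : ↥Fb₁ := ⟨coeffMap π cc, hρccmem⟩ with hβdef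
  have hγ : γ ≠ 0 := by
    intro h0
    have := congrArg (fun z : ↥Fb₁ => (z : LaurentSeries κ)) h0
    simp only [hγdef, ZeroMemClass.coe_zero] at this
    rcases mul_eq_zero.mp this with h1 | h1
    · apply hπu
      have h2 : (HahnSeries.C (π uA) : LaurentSeries κ) = HahnSeries.C 0 := by rw [h1, map_zero]
      exact HahnSeries.C_injective h2
    · exact hρX₀ (pow_eq_zero_iff (by have := hn.two_le; omega) |>.mp h1)
  have htb : tb ^ n + algebraMap ↥Fb₁ ↥Fb₂ γ * tb = algebraMap ↥Fb₁ ↥Fb₂ β := by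
    apply Subtype.ext
    rw [AddMemClass.coe_add, MulMemClass.coe_mul, SubmonoidClass.coe_pow, halgb, halgb, hTb]
    exact s48a_series_as π hn T X₀ Y cc lamA uA hpu hlamπ hlam0 hrelS hcc
  -- [II] ⇒ `indep`
  have hindep : LinearIndependent ↥Fb₁ (fun i : Fin n => tb ^ (i : ℕ)) := by
    refine s48c_as_indep n γ β hγ tb htb fun c hc => hno c ?_
    have := congrArg (fun z : ↥Fb₁ => (z : LaurentSeries κ)) hc
    simpa [hγdef, hβdef] using this
  -- the layer datum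
  have hlamO : algebraMap L ↥F₁ lam ∈ s48d_qO Q₁ := by
    have : algebraMap L ↥F₁ lam = ⟨coeffMap A.subtype (HahnSeries.C lamA),
        by rw [s48a_iota_C]; exact F₁.algebraMap_mem _⟩ := by
      apply Subtype.ext
      show ((algebraMap L ↥F₁ lam : ↥F₁) : LaurentSeries L) =
        coeffMap A.subtype (HahnSeries.C lamA)
      rw [s48a_iota_C]
      rfl
    rw [this]
    exact s48d_q_iota_mem Q₁ _ _
  have huO : algebraMap L ↥F₁ (uA : L) ∈ s48d_qO Q₁ := by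
    have : algebraMap L ↥F₁ (uA : L) = ⟨coeffMap A.subtype (HahnSeries.C uA),
        by rw [s48a_iota_C]; exact F₁.algebraMap_mem _⟩ := by
      apply Subtype.ext
      show ((algebraMap L ↥F₁ (uA : L) : ↥F₁) : LaurentSeries L) =
        coeffMap A.subtype (HahnSeries.C uA)
      rw [s48a_iota_C]
      rfl
    rw [this]
    exact s48d_q_iota_mem Q₁ _ _
  have hlamF0 : algebraMap L ↥F₁ lam ≠ 0 := (_root_.map_ne_zero _).mpr hlamL0
  have hc0 : (a ^ n - h) / algebraMap L ↥F₁ lam ^ n ∈ s48d_qO Q₁ := by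
    have : (a ^ n - h) / algebraMap L ↥F₁ lam ^ n = - ⟨coeffMap A.subtype cc, hccF⟩ := by
      apply Subtype.ext
      rw [NegMemClass.coe_neg]
      show ((a ^ n - h : ↥F₁) : LaurentSeries L) / ((algebraMap L ↥F₁ lam ^ n : ↥F₁) : LaurentSeries L)
        = - coeffMap A.subtype cc
      rw [hccrel, AddSubgroupClass.coe_sub, SubmonoidClass.coe_pow, SubmonoidClass.coe_pow]
      show (coeffMap A.subtype X₀ ^ n - coeffMap A.subtype Y) /
        (algebraMap L (LaurentSeries L) lam) ^ n = _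
      rw [← neg_div, neg_sub]
    rw [this]
    exact neg_mem hccO
  have hnuF : (n : ↥F₁) = algebraMap L ↥F₁ (uA : L) * algebraMap L ↥F₁ lam ^ (n - 1) := by
    rw [← map_pow, ← map_mul, ← hnu, map_natCast]
  have hrelK : (t + algebraMap ↥F₁ ↥F₂ (a / algebraMap L ↥F₁ lam)) ^ n =
      algebraMap ↥F₁ ↥F₂ (h / algebraMap L ↥F₁ lam ^ n) := by
    have h1 : algebraMap ↥F₁ ↥F₂ (algebraMap L ↥F₁ lam) = algebraMap L ↥F₂ lam :=
      (IsScalarTower.algebraMap_apply L ↥F₁ ↥F₂ lam).symm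
    have h2 : algebraMap L ↥F₂ lam ≠ 0 := (_root_.map_ne_zero _).mpr hlamL0
    have h3 : t + algebraMap ↥F₁ ↥F₂ (a / algebraMap L ↥F₁ lam) = τ / algebraMap L ↥F₂ lam := by
      rw [hτ, map_div₀, h1]
      field_simp
      ring
    rw [h3, div_pow, hh, map_div₀, map_pow, h1]
  obtain ⟨f, hK⟩ := s48a_layerData_of_wild b t tb hn (s48d_q_inv_mem Q₁) hb
    (algebraMap L ↥F₁ lam) (algebraMap L ↥F₁ (uA : L)) a h hlamO hlamF0 huO hnuF haO hc0 hrelK
    (fun f hf => s48d_q_rootb halg halgb Q₁ T hT hTb hf) hindep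
  exact s48a_q_wild_step halg halgb Q₁ hww hP hP' hn T hT hTb hK hspan lam (uA : L) (uinvA : L)
    lamA.2 hlamL0 uA.2 uinvA.2 huu hnu τ a haO rfl h hh hhO hhred hdiv γ β hγ htb happ happ'

end Fermat.Agent.Lib.S48
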