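/-
[CHEB] Chebotarev density theorem, brick C4a: counting in a finite cyclic group.  If `n ^ k` divides
the order of the cyclic group `Q`, all but a proportion `≤ n / 2 ^ k` of the elements of `Q` have
order divisible by `n`.
-/
import Mathlib

set_option autoImplicit false
set_option linter.unusedSectionVars false

namespace Fermat.Agent.Lib.S48

/-- arithmetic: a prime `q ∣ n` with `q ^ k * e ∣ N` when `n ∤ e`, `e ∣ N`, `n ^ k ∣ N` -/
theorem s48c_exists_prime_pow_dvd {n e N k : ℕ} (hN : N ≠ 0) (hn : n ≠ 0) (he : e ∣ N)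
    (hk : n ^ k ∣ N) (hne : ¬ n ∣ e) : ∃ q : ℕ, q.Prime ∧ q ∣ n ∧ q ^ k ∣ N / e := by
  have he0 : e ≠ 0 := fun h => by rw [h, zero_dvd_iff] at he; exact hN he
  have h1 : ¬ n.factorization ≤ e.factorization := fun h =>
    hne ((Nat.factorization_le_iff_dvd hn he0).mp h)
  rw [Finsupp.le_def, not_forall] at h1
  obtain ⟨q, hq⟩ := h1
  rw [not_le] at hq
  have hqn : q ∈ n.primeFactors := by
    rw [← Nat.support_factorization, Finsupp.mem_support_iff]
    omega
  have hqp : q.Prime := Nat.prime_of_mem_primeFactors hqn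
  have hqd : q ∣ n := Nat.dvd_of_mem_primeFactors hqn
  refine ⟨q, hqp, hqd, ?_⟩
  have hNe : N / e ≠ 0 := by
    obtain ⟨c, rfl⟩ := he
    rw [Nat.mul_div_cancel_left _ (Nat.pos_of_ne_zero he0)]
    exact fun h => hN (by rw [h, mul_zero])
  rw [hqp.pow_dvd_iff_le_factorization hNe, Nat.factorization_div he]
  have h2 : (n ^ k).factorization q ≤ N.factorization q :=
    (Nat.factorization_le_iff_dvd (pow_ne_zero k hn) hN).mpr hk q
  rw [Nat.factorization_pow] at h2
  simp only [Finsupp.coe_smul, Pi.smul_apply, smul_eq_mul, Finsupp.coe_tsub, Pi.sub_apply] at h2 ⊢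
  rcases Nat.eq_zero_or_pos k with rfl | hkpos
  · exact Nat.zero_le _
  · obtain ⟨k', rfl⟩ : ∃ k', k = k' + 1 := ⟨k - 1, by omega⟩
    obtain ⟨a', ha'⟩ : ∃ a', n.factorization q = a' + 1 := ⟨n.factorization q - 1, by omega⟩
    rw [ha'] at h2 hq
    have h3 : (k' + 1) * (a' + 1) = k' * a' + k' + a' + 1 := by ring
    have h4 := Nat.zero_le (k' * a')
    omega

variable {Q : Type*} [CommGroup Q] [Finite Q] [IsCyclic Q]

/-- in a finite cyclic group, the elements killed by `e ∣ |Q|` are the `|Q|/e`-th powers -/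
theorem s48c_mem_range_pow {e : ℕ} (he : e ∣ Nat.card Q) {x : Q} (hx : x ^ e = 1) :
    x ∈ (powMonoidHom (Nat.card Q / e) : Q →* Q).range := by
  have hN : 0 < Nat.card Q := Nat.card_pos
  have he0 : 0 < e := Nat.pos_of_dvd_of_pos he hN
  have hle : (powMonoidHom (Nat.card Q / e) : Q →* Q).range ≤ (powMonoidHom e : Q →* Q).ker := by
    rintro _ ⟨y, rfl⟩
    rw [MonoidHom.mem_ker, powMonoidHom_apply, powMonoidHom_apply, ← pow_mul,
      Nat.div_mul_cancel he, pow_card_eq_one']
  have hcard : Nat.card (powMonoidHom e : Q →* Q).ker ≤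
      Nat.card (powMonoidHom (Nat.card Q / e) : Q →* Q).range := by
    rw [IsCyclic.card_powMonoidHom_ker, IsCyclic.card_powMonoidHom_range,
      Nat.gcd_eq_right he, Nat.gcd_eq_right (Nat.div_dvd_of_dvd he),
      Nat.div_div_self he hN.ne']
  have := Subgroup.eq_of_le_of_card_ge hle hcard
  rw [this]
  exact MonoidHom.mem_ker.mpr hx

theorem s48c_range_pow_le {d d' : ℕ} (h : d ∣ d') :
    (powMonoidHom d' : Q →* Q).range ≤ (powMonoidHom d : Q →* Q).range := by
  rintro _ ⟨y, rfl⟩
  obtain ⟨c, rfl⟩ := h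
  exact ⟨y ^ c, by simp [powMonoidHom_apply, ← pow_mul, mul_comm]⟩

open Classical in
/-- **counting lemma** -/
theorem s48c_card_order_dvd [Fintype Q] {n k : ℕ} (hn : n ≠ 0) (hk : n ^ k ∣ Nat.card Q) :
    (Nat.card Q : ℝ) * (1 - n / 2 ^ k) ≤
      ((Finset.univ.filter fun x : Q => n ∣ orderOf x).card : ℝ) := by
  set N := Nat.card Q with hNdef
  have hN : 0 < N := Nat.card_pos
  set bad := Finset.univ.filter fun x : Q => ¬ n ∣ orderOf x with hbad
  have hsplit : (Finset.univ.filter fun x : Q => n ∣ orderOf x).card + bad.card = N := by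
    rw [hbad, Finset.card_filter_add_card_filter_not, Finset.card_univ, hNdef,
      Nat.card_eq_fintype_card]
  set R : ℕ → Finset Q := fun q =>
    Finset.univ.filter fun x : Q => x ∈ (powMonoidHom (q ^ k) : Q →* Q).range with hR
  have hsub : bad ⊆ n.primeFactors.biUnion R := by
    intro x hx
    rw [hbad, Finset.mem_filter] at hx
    have hed : orderOf x ∣ N := orderOf_dvd_natCard x
    obtain ⟨q, hqp, hqn, hqk⟩ := s48c_exists_prime_pow_dvd hN.ne' hn hed hk hx.2
    rw [Finset.mem_biUnion]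
    refine ⟨q, Nat.mem_primeFactors.mpr ⟨hqp, hqn, hn⟩, ?_⟩
    rw [hR, Finset.mem_filter]
    exact ⟨Finset.mem_univ _, s48c_range_pow_le hqk (s48c_mem_range_pow hed (pow_orderOf_eq_one x))⟩
  have hRcard : ∀ q ∈ n.primeFactors, ((R q).card : ℝ) ≤ N / 2 ^ k := by
    intro q hq
    have hqp : q.Prime := Nat.prime_of_mem_primeFactors hq
    have hqd : q ^ k ∣ N := (pow_dvd_pow_of_dvd (Nat.dvd_of_mem_primeFactors hq) k).trans hk
    have h1 : (R q).card = N / q ^ k := by
      rw [hR]
      simp only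
      rw [← Fintype.card_subtype, ← Nat.card_eq_fintype_card]
      have := IsCyclic.card_powMonoidHom_range Q (q ^ k)
      rw [Nat.gcd_eq_right hqd] at this
      exact this
    rw [h1]
    refine (Nat.cast_div_le).trans ?_
    have h2 : (2 : ℝ) ^ k ≤ ((q ^ k : ℕ) : ℝ) := by
      push_cast
      exact pow_le_pow_left₀ (by norm_num) (by exact_mod_cast hqp.two_le) k
    exact div_le_div_of_nonneg_left (Nat.cast_nonneg _) (by positivity) h2
  have hpf : (n.primeFactors.card : ℝ) ≤ n := by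
    have : n.primeFactors ⊆ Finset.Ioc 0 n := fun q hq => by
      rw [Finset.mem_Ioc]
      exact ⟨(Nat.prime_of_mem_primeFactors hq).pos,
        Nat.le_of_dvd (Nat.pos_of_ne_zero hn) (Nat.dvd_of_mem_primeFactors hq)⟩
    have := Finset.card_le_card this
    rw [Nat.card_Ioc, Nat.sub_zero] at this
    exact_mod_cast this
  have hbadcard : (bad.card : ℝ) ≤ n * (N / 2 ^ k) := by
    calc (bad.card : ℝ) ≤ ((n.primeFactors.biUnion R).card : ℝ) := by
          exact_mod_cast Finset.card_le_card hsub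
      _ ≤ ((∑ q ∈ n.primeFactors, (R q).card : ℕ) : ℝ) := by
          exact_mod_cast Finset.card_biUnion_le
      _ = ∑ q ∈ n.primeFactors, ((R q).card : ℝ) := by push_cast; rfl
      _ ≤ ∑ _q ∈ n.primeFactors, ((N : ℝ) / 2 ^ k) := Finset.sum_le_sum hRcard
      _ = n.primeFactors.card * (N / 2 ^ k) := by rw [Finset.sum_const, nsmul_eq_mul]
      _ ≤ n * (N / 2 ^ k) := mul_le_mul_of_nonneg_right hpf (by positivity)
  have hsplit' : ((Finset.univ.filter fun x : Q => n ∣ orderOf x).card : ℝ) + bad.card = N := by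
    exact_mod_cast hsplit
  have : (N : ℝ) * (1 - n / 2 ^ k) = N - n * (N / 2 ^ k) := by ring
  rw [this]
  linarith

end Fermat.Agent.Lib.S48
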