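/-
DS-1 (S48), wall [T7] (helper7, prefix `s48d_q`): **the BASE of the tower induction in q-model form**: the q-model
package of `(F̄₀(M), F̄b₀(M)) = (modularFunctionFieldBar M, modularFunctionFieldFullC κ M)` from the landed S18/S37
library (`s37g_exists_presentation`, `s37r_mem_or_inv_mem`, `s18n_exists_lift_div`).

* `s48d_q_base_presentation` : every `f ≠ 0` of `F̄₀(M)` is `c · ιY₁/ιY₂`, `Y₁ Y₂` integral series of `F̄₀(M)` with
  non-zero reductions in `F̄b₀(M)`, `c = ϖⁿ` (so `c ∈ A`, or `c⁻¹ ∈ 𝔪_A`);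
* `s48d_q_base : s48d_QPack A (residue A) (modularFunctionFieldBar M) (modularFunctionFieldFullC κ M)`;
* `s48d_q_base_O`, `s48d_q_base_red` : its Gauss ring / reduction ARE the landed `s37r_OF A M hA` / `s37r_redF A M hA hℓM`
  (so the landed chart hypotheses of S37/S44 for `F̄₀(M)` are chart packages of the q-model);
* `s48d_q_base_presOn` : (Q3′) for any class `S` containing the integral series of `F̄₀(M)` reducing into `F̄b₀(M)`;
* `s48d_q_base_charts` : (`ℓ ≥ 5`) the two chart packages `s48g_ChartPack` of the q-model base for `w = j`, `w' = j⁻¹`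
  (landed `s44g_i_charts`, transported by `s48d_q_chartPack_congr`);
* `s48d_q_base_charts_of` : the same for any coordinate `w` with landed chart hypotheses for `(s37r_OF, s37r_redF)`.
-/
import Fermat.Agent.Lib.S37.GGen
import Fermat.Agent.Lib.S37.RChart
import Fermat.Agent.Lib.S18.NLift
import Fermat.Agent.Lib.S44.GInst
import Fermat.Agent.Lib.S48.DQKummer
import Fermat.Agent.Lib.S48.DQOn

set_option autoImplicit false
set_option linter.unusedSectionVars false
set_option linter.style.haveILetI false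

noncomputable section

namespace Fermat.Agent.Lib.S48

open ModularCurve AlgebraicCurve HahnSeries Polynomial
open Fermat.Agent.Lib.S18 Fermat.Agent.Lib.S28 Fermat.Agent.Lib.FF Fermat.Agent.Lib.S37

local notation "Qbar" => AlgebraicClosure ℚ

variable (M : ℕ) [NeZero M] {ℓ : ℕ} [Fact ℓ.Prime] (hℓM : ¬ ℓ ∣ M)
  (A : ValuationSubring Qbar) (hA : A.LiesOverPrime ℓ)

include hℓM hA in
set_option synthInstance.maxHeartbeats 400000 in
set_option maxHeartbeats 800000 in
/-- **presentation of the functions of `F̄₀(M)`** by integral series with non-zero reductions, up to a constant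
`c = ϖⁿ`. -/
theorem s48d_q_base_presentation (f : ↥(modularFunctionFieldBar M)) (hf : f ≠ 0) :
    ∃ (c : Qbar) (Y1 Y2 : LaurentSeries ↥A), c ≠ 0 ∧
      (c ∈ A ∨ ∃ hc : c⁻¹ ∈ A, IsLocalRing.residue ↥A ⟨c⁻¹, hc⟩ = 0) ∧
      coeffMap A.subtype Y1 ∈ modularFunctionFieldBar M ∧
      coeffMap A.subtype Y2 ∈ modularFunctionFieldBar M ∧
      coeffMap (IsLocalRing.residue ↥A) Y1 ∈ modularFunctionFieldFullC (IsLocalRing.ResidueField ↥A) M ∧
      coeffMap (IsLocalRing.residue ↥A) Y2 ∈ modularFunctionFieldFullC (IsLocalRing.ResidueField ↥A) M ∧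
      coeffMap (IsLocalRing.residue ↥A) Y1 ≠ 0 ∧ coeffMap (IsLocalRing.residue ↥A) Y2 ≠ 0 ∧
      coeffMap A.subtype Y2 * (f : LaurentSeries Qbar) =
        HahnSeries.C c * coeffMap A.subtype Y1 := by
  classical
  -- descend `f` to a number field
  obtain ⟨L₀, hfd, hL₀⟩ := s18q_exists_field M {f}
  obtain ⟨f0, hf0⟩ := hL₀ f (by simp)
  have := hfd
  have hdvr : IsDiscreteValuationRing ↥(s18q_A0 A L₀) := s18q_A0_dvr A L₀ hA
  obtain ⟨ϖ, hϖ⟩ := IsDiscreteValuationRing.exists_irreducible ↥(s18q_A0 A L₀)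
  have hπ : RingHom.ker ((IsLocalRing.residue A).comp (s18q_A0_hom A L₀)) =
      IsLocalRing.maximalIdeal ↥(s18q_A0 A L₀) :=
    s18q_ker_residue_A0 A L₀ (IsLocalRing.residue A) IsLocalRing.ker_residue
  set G : s18g_GaussData ↥L₀ (IsLocalRing.ResidueField A) :=
    s18g_GaussData.ofHom (s18q_A0 A L₀) ϖ hϖ
      ((IsLocalRing.residue A).comp (s18q_A0_hom A L₀)) hπ with hG
  have : CharP (IsLocalRing.ResidueField A) ℓ := s18x_charP_residueField A Fact.out hA
  have hT : s18g_HT (IsLocalRing.ResidueField A) M :=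
    s18t_indep_j ℓ M hℓM (IsLocalRing.ResidueField A)
  have hdeg : s18g_HDeg ↥L₀ M := fun n b hb hn =>
    s18g_exists_relation M (algebraMap ↥L₀ Qbar) hn b hb
  have hf0ne : (f0 : LaurentSeries ↥L₀) ≠ 0 := by
    intro h0
    apply hf
    rw [← hf0, show f0 = 0 from Subtype.ext h0, map_zero]
  obtain ⟨n, Y1, Y2, h1, h2, h1k, h2k, h1ne, h2ne, hrel⟩ :=
    s37g_exists_presentation G M hT hdeg (f0 : LaurentSeries ↥L₀) f0.2 hf0ne
  -- the integral series over `A`
  set YA1 : LaurentSeries A := coeffMap (s18q_A0_hom A L₀) Y1 with hYA1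
  set YA2 : LaurentSeries A := coeffMap (s18q_A0_hom A L₀) Y2 with hYA2
  have hsub : ∀ Y : LaurentSeries ↥G.A,
      coeffMap A.subtype (coeffMap (s18q_A0_hom A L₀) Y) =
        coeffMap (algebraMap ↥L₀ Qbar) (s18g_iota G Y) := by
    intro Y
    ext k
    simp only [coeffMap_coeff, s18g_iota]
    rfl
  have hres : ∀ Y : LaurentSeries ↥G.A,
      coeffMap (IsLocalRing.residue A) (coeffMap (s18q_A0_hom A L₀) Y) = s18g_rho G Y := by
    intro Y
    ext k
    simp only [coeffMap_coeff, s18g_rho]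
    rfl
  -- the two functions over `ℚ̄`
  set y1 := s18q_incl M L₀ ⟨s18g_iota G Y1, h1⟩ with hy1
  set y2 := s18q_incl M L₀ ⟨s18g_iota G Y2, h2⟩ with hy2
  have hy1coe : (y1 : LaurentSeries Qbar) = coeffMap A.subtype YA1 := by
    rw [hy1, s18q_incl_coe, hYA1, hsub]
  have hy2coe : (y2 : LaurentSeries Qbar) = coeffMap A.subtype YA2 := by
    rw [hy2, s18q_incl_coe, hYA2, hsub]
  -- the relation over `L₀`, then over `ℚ̄`
  have hrel0 : (⟨s18g_iota G Y2, h2⟩ : ↥(laurentBaseChange ↥L₀ (modularFunctionFieldFull M))) * f0 =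
      (algebraMap ↥L₀ ↥(laurentBaseChange ↥L₀ (modularFunctionFieldFull M))
        ((ϖ : ↥(s18q_A0 A L₀)) : ↥L₀)) ^ n * ⟨s18g_iota G Y1, h1⟩ := by
    apply Subtype.ext
    rw [MulMemClass.coe_mul, MulMemClass.coe_mul, s18g_coe_zpow, s18g_coe_algebraMap]
    exact hrel
  set ϖQ : Qbar := (((ϖ : ↥(s18q_A0 A L₀)) : ↥L₀) : Qbar) with hϖQ
  have hrelQ : y2 * f = (algebraMap Qbar
      ↥(laurentBaseChange Qbar (modularFunctionFieldFull M)) ϖQ) ^ n * y1 := by
    have h := congrArg (s18q_incl M L₀) hrel0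
    rw [map_mul, map_mul, map_zpow₀, s18q_incl_algebraMap, hf0] at h
    exact h
  have hϖQ0 : ϖQ ≠ 0 := by
    intro h0
    apply hϖ.ne_zero
    apply Subtype.ext
    apply Subtype.ext
    exact h0
  have hϖA : ϖQ ∈ A := (ϖ : ↥(s18q_A0 A L₀)).2
  have hϖres : IsLocalRing.residue ↥A ⟨ϖQ, hϖA⟩ = 0 := by
    have hmem : ϖ ∈ RingHom.ker ((IsLocalRing.residue A).comp (s18q_A0_hom A L₀)) := by
      rw [hπ]
      exact hϖ.not_isUnit
    exact hmem
  refine ⟨ϖQ ^ n, YA1, YA2, zpow_ne_zero n hϖQ0, ?_, hy1coe ▸ y1.2, hy2coe ▸ y2.2, ?_, ?_, ?_, ?_, ?_⟩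
  · -- `ϖⁿ ∈ A` or its inverse is a non-unit of `A`
    rcases le_or_gt 0 n with hn | hn
    · left
      obtain ⟨k, rfl⟩ := Int.eq_ofNat_of_zero_le hn
      rw [zpow_natCast]
      exact pow_mem hϖA k
    · right
      obtain ⟨k, hk⟩ : ∃ k : ℕ, -n = (k + 1 : ℕ) := by
        obtain ⟨k, hk⟩ := Int.eq_ofNat_of_zero_le (by omega : 0 ≤ -n - 1)
        exact ⟨k, by push_cast; omega⟩
      have hinv : (ϖQ ^ n)⁻¹ = ϖQ ^ (k + 1) := by
        rw [← zpow_neg, hk, zpow_natCast]
      refine ⟨by rw [hinv]; exact pow_mem hϖA _, ?_⟩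
      have : (⟨(ϖQ ^ n)⁻¹, by rw [hinv]; exact pow_mem hϖA _⟩ : ↥A) = ⟨ϖQ, hϖA⟩ ^ (k + 1) :=
        Subtype.ext hinv
      rw [this, map_pow, hϖres, zero_pow (Nat.succ_ne_zero k)]
  · rw [hYA1, hres]; exact h1k
  · rw [hYA2, hres]; exact h2k
  · rw [hYA1, hres]; exact h1ne
  · rw [hYA2, hres]; exact h2ne
  · have h := congrArg Subtype.val hrelQ
    rw [MulMemClass.coe_mul, MulMemClass.coe_mul, s18g_coe_zpow, s18g_coe_algebraMap, hy1coe,
      hy2coe] at h
    rw [h, map_zpow₀]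

theorem s48d_q_coeffMap_C {R S : Type*} [CommRing R] [CommRing S] (φ : R →+* S) (a : R) :
    coeffMap φ (HahnSeries.C a : LaurentSeries R) = HahnSeries.C (φ a) := by
  rw [HahnSeries.C_apply, coeffMap_single, HahnSeries.C_apply]

/-- constants of `ℚ̄` are functions of `F̄₀(M)`. -/
theorem s48d_q_base_C_mem (c : Qbar) :
    (HahnSeries.C c : LaurentSeries Qbar) ∈ modularFunctionFieldBar M := by
  have : (HahnSeries.C c : LaurentSeries Qbar) = algebraMap Qbar (LaurentSeries Qbar) c := by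
    rw [algebraMap_laurentSeries_eq_single]; rfl
  rw [this]
  exact (modularFunctionFieldBar M).algebraMap_mem c

/-- constants of `κ` are functions of `F̄b₀(M)`. -/
theorem s48d_q_base_Cb_mem (κ : Type*) [Field κ] (c : κ) :
    (HahnSeries.C c : LaurentSeries κ) ∈ modularFunctionFieldFullC κ M := by
  have : (HahnSeries.C c : LaurentSeries κ) = algebraMap κ (LaurentSeries κ) c := by
    rw [algebraMap_laurentSeries_eq_single]; rfl
  rw [this]
  exact (modularFunctionFieldFullC κ M).algebraMap_mem c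

include hℓM hA in
set_option synthInstance.maxHeartbeats 400000 in
set_option maxHeartbeats 800000 in
/-- (Q3) for the base. -/
theorem s48d_q_base_pres (f : ↥(modularFunctionFieldBar M))
    (hO : (f : LaurentSeries Qbar) ∈ s37r_O A (IsLocalRing.residue ↥A)) :
    ∃ Y₁ Y₂ : LaurentSeries ↥A,
      coeffMap A.subtype Y₁ ∈ modularFunctionFieldBar M ∧
      coeffMap A.subtype Y₂ ∈ modularFunctionFieldBar M ∧
      coeffMap (IsLocalRing.residue ↥A) Y₁ ∈ modularFunctionFieldFullC (IsLocalRing.ResidueField ↥A) M ∧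
      coeffMap (IsLocalRing.residue ↥A) Y₂ ∈ modularFunctionFieldFullC (IsLocalRing.ResidueField ↥A) M ∧
      coeffMap (IsLocalRing.residue ↥A) Y₂ ≠ 0 ∧
      coeffMap A.subtype Y₂ * (f : LaurentSeries Qbar) = coeffMap A.subtype Y₁ := by
  classical
  rcases eq_or_ne f 0 with rfl | hf
  · refine ⟨0, 1, ?_, ?_, ?_, ?_, ?_, ?_⟩
    · rw [map_zero]; exact zero_mem _
    · rw [map_one]; exact one_mem _
    · rw [map_zero]; exact zero_mem _
    · rw [map_one]; exact one_mem _
    · rw [map_one]; exact one_ne_zero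
    · rw [map_zero, ZeroMemClass.coe_zero, mul_zero]
  obtain ⟨c, Y1, Y2, hc0, hcA, h1, h2, h1k, h2k, h1ne, h2ne, hrel⟩ :=
    s48d_q_base_presentation M hℓM A hA f hf
  rcases hcA with hcA | ⟨hci, hcres⟩
  · refine ⟨HahnSeries.C (⟨c, hcA⟩ : ↥A) * Y1, Y2, ?_, h2, ?_, h2k, h2ne, ?_⟩
    · rw [map_mul, s48d_q_coeffMap_C]
      exact mul_mem (s48d_q_base_C_mem M _) h1
    · rw [map_mul, s48d_q_coeffMap_C]
      exact mul_mem (s48d_q_base_Cb_mem M _ _) h1k
    · rw [hrel, map_mul, s48d_q_coeffMap_C]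
      rfl
  · -- impossible: `f` would not be Gauss-integral
    exfalso
    obtain ⟨P, Qs, hQ, hPQ⟩ := hO
    have hCc : (HahnSeries.C c : LaurentSeries Qbar) * HahnSeries.C c⁻¹ = 1 := by
      rw [← map_mul, mul_inv_cancel₀ hc0, map_one]
    have h3 : HahnSeries.C c * coeffMap A.subtype Y1 * coeffMap A.subtype Qs =
        coeffMap A.subtype Y2 * coeffMap A.subtype P := by
      rw [← hrel, ← hPQ]; ring
    have e1 : coeffMap A.subtype (Qs * Y1) =
        coeffMap A.subtype (HahnSeries.C (⟨c⁻¹, hci⟩ : ↥A) * (P * Y2)) := by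
      rw [map_mul, map_mul, map_mul, s48d_q_coeffMap_C]
      show _ = HahnSeries.C c⁻¹ * (coeffMap A.subtype P * coeffMap A.subtype Y2)
      calc coeffMap A.subtype Qs * coeffMap A.subtype Y1
          = (HahnSeries.C c * HahnSeries.C c⁻¹) *
              (coeffMap A.subtype Qs * coeffMap A.subtype Y1) := by rw [hCc, one_mul]
        _ = HahnSeries.C c⁻¹ *
              (HahnSeries.C c * coeffMap A.subtype Y1 * coeffMap A.subtype Qs) := by ring
        _ = HahnSeries.C c⁻¹ * (coeffMap A.subtype P * coeffMap A.subtype Y2) := by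
            rw [h3]; ring
    have e2 : Qs * Y1 = HahnSeries.C (⟨c⁻¹, hci⟩ : ↥A) * (P * Y2) := s37r_iota_injective A e1
    have e3 := congrArg (coeffMap (IsLocalRing.residue ↥A)) e2
    rw [map_mul, map_mul, s48d_q_coeffMap_C, hcres, map_zero, zero_mul] at e3
    exact mul_ne_zero hQ h1ne e3

include hℓM hA in
set_option synthInstance.maxHeartbeats 400000 in
set_option maxHeartbeats 800000 in
/-- (Q2) for the base. -/
theorem s48d_q_base_surj (g : ↥(modularFunctionFieldFullC (IsLocalRing.ResidueField ↥A) M)) :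
    ∃ (f : ↥(modularFunctionFieldBar M))
      (hf : (f : LaurentSeries Qbar) ∈ s37r_O A (IsLocalRing.residue ↥A)),
      s37r_red A (IsLocalRing.residue ↥A) ⟨(f : LaurentSeries Qbar), hf⟩ =
        (g : LaurentSeries (IsLocalRing.ResidueField ↥A)) := by
  classical
  obtain ⟨P, Qs, hP, hQ, hPk, hQk, hg⟩ :=
    s18n_exists_lift_div (A := A) (L := Qbar) (N := M) IsLocalRing.residue_surjective g.2
  rcases eq_or_ne (coeffMap (IsLocalRing.residue ↥A) Qs) 0 with hQ0 | hQ0
  · -- `g = 0`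
    refine ⟨0, (s37r_O A _).zero_mem, ?_⟩
    rw [hg, hQ0, div_zero]
    exact map_zero (s37r_red A _)
  · have hQne : (⟨coeffMap A.subtype Qs, hQ⟩ : ↥(modularFunctionFieldBar M)) ≠ 0 := by
      intro h0
      apply hQ0
      have h0' : coeffMap A.subtype Qs = 0 := congrArg Subtype.val h0
      have : Qs = 0 := s37r_iota_injective A (by rw [h0', map_zero])
      rw [this, map_zero]
    have hrel : coeffMap A.subtype Qs *
        ((⟨coeffMap A.subtype P, hP⟩ / ⟨coeffMap A.subtype Qs, hQ⟩ :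
          ↥(modularFunctionFieldBar M)) : LaurentSeries Qbar) = coeffMap A.subtype P := by
      have : (⟨coeffMap A.subtype Qs, hQ⟩ : ↥(modularFunctionFieldBar M)) *
          (⟨coeffMap A.subtype P, hP⟩ / ⟨coeffMap A.subtype Qs, hQ⟩) =
          ⟨coeffMap A.subtype P, hP⟩ := mul_div_cancel₀ _ hQne
      exact congrArg Subtype.val this
    have hO : ((⟨coeffMap A.subtype P, hP⟩ / ⟨coeffMap A.subtype Qs, hQ⟩ :
        ↥(modularFunctionFieldBar M)) : LaurentSeries Qbar) ∈
        s37r_O A (IsLocalRing.residue ↥A) := ⟨P, Qs, hQ0, hrel⟩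
    refine ⟨_, hO, ?_⟩
    rw [s37r_red_eq A _ ⟨_, hO⟩ P Qs hQ0 hrel, hg]

include hℓM hA in
set_option synthInstance.maxHeartbeats 400000 in
set_option maxHeartbeats 800000 in
/-- (Q4) for the base. -/
theorem s48d_q_base_scale (f : ↥(modularFunctionFieldBar M)) (hf : f ≠ 0) :
    ∃ c : Qbar, c ≠ 0 ∧
      ∃ h : ((algebraMap Qbar ↥(modularFunctionFieldBar M) c * f : ↥(modularFunctionFieldBar M)) :
          LaurentSeries Qbar) ∈ s37r_O A (IsLocalRing.residue ↥A),
        s37r_red A (IsLocalRing.residue ↥A) ⟨_, h⟩ ≠ 0 := by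
  classical
  obtain ⟨c, Y1, Y2, hc0, -, h1, h2, h1k, h2k, h1ne, h2ne, hrel⟩ :=
    s48d_q_base_presentation M hℓM A hA f hf
  refine ⟨c⁻¹, inv_ne_zero hc0, ?_⟩
  have e : ((algebraMap Qbar ↥(modularFunctionFieldBar M) c⁻¹ : ↥(modularFunctionFieldBar M)) :
      LaurentSeries Qbar) = HahnSeries.C c⁻¹ := by
    show algebraMap Qbar (LaurentSeries Qbar) c⁻¹ = _
    rw [algebraMap_laurentSeries_eq_single]; rfl
  have hCc : (HahnSeries.C c⁻¹ : LaurentSeries Qbar) * HahnSeries.C c = 1 := by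
    rw [← map_mul, inv_mul_cancel₀ hc0, map_one]
  have hrel' : coeffMap A.subtype Y2 *
      ((algebraMap Qbar ↥(modularFunctionFieldBar M) c⁻¹ * f : ↥(modularFunctionFieldBar M)) :
        LaurentSeries Qbar) = coeffMap A.subtype Y1 := by
    rw [MulMemClass.coe_mul, e]
    calc coeffMap A.subtype Y2 * (HahnSeries.C c⁻¹ * (f : LaurentSeries Qbar))
        = HahnSeries.C c⁻¹ * (coeffMap A.subtype Y2 * (f : LaurentSeries Qbar)) := by ring
      _ = (HahnSeries.C c⁻¹ * HahnSeries.C c) * coeffMap A.subtype Y1 := by rw [hrel]; ring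
      _ = coeffMap A.subtype Y1 := by rw [hCc, one_mul]
  have hO : ((algebraMap Qbar ↥(modularFunctionFieldBar M) c⁻¹ * f :
      ↥(modularFunctionFieldBar M)) : LaurentSeries Qbar) ∈ s37r_O A (IsLocalRing.residue ↥A) :=
    ⟨Y1, Y2, h2ne, hrel'⟩
  refine ⟨hO, ?_⟩
  rw [s37r_red_eq A _ ⟨_, hO⟩ Y1 Y2 h2ne hrel']
  exact div_ne_zero h1ne h2ne

include hℓM hA in
/-- **the q-model package of the base** `(F̄₀(M), F̄b₀(M))`. -/
theorem s48d_q_base :
    s48d_QPack A (IsLocalRing.residue ↥A) (modularFunctionFieldBar M)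
      (modularFunctionFieldFullC (IsLocalRing.ResidueField ↥A) M) :=
  ⟨s37r_mem_or_inv_mem A M hA, s48d_q_base_pres M hℓM A hA, s48d_q_base_surj M hℓM A hA,
    s48d_q_base_scale M hℓM A hA⟩

include hℓM hA in
/-- the q-model Gauss ring of the base is the landed `s37r_OF`. -/
theorem s48d_q_base_O : s37r_OF A M hA = s48d_qO (s48d_q_base M hℓM A hA) := by
  ext y
  exact Iff.rfl

include hℓM hA in
/-- the q-model reduction of the base is the landed `s37r_redF`. -/
theorem s48d_q_base_red (y : ↥(modularFunctionFieldBar M)) (hy : y ∈ s37r_OF A M hA)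
    (hy' : y ∈ s48d_qO (s48d_q_base M hℓM A hA)) :
    s37r_redF A M hA hℓM ⟨y, hy⟩ = s48d_qRed (s48d_q_base M hℓM A hA) ⟨y, hy'⟩ := rfl

include hℓM hA in
/-- **(Q3′) for the base** and any class `S` containing the integral series of `F̄₀(M)` reducing into `F̄b₀(M)`. -/
theorem s48d_q_base_presOn (S : LaurentSeries ↥A → Prop)
    (hS : ∀ Y : LaurentSeries ↥A, coeffMap A.subtype Y ∈ modularFunctionFieldBar M →
      coeffMap (IsLocalRing.residue ↥A) Y ∈ modularFunctionFieldFullC (IsLocalRing.ResidueField ↥A) M →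
        S Y) :
    s48d_QPresOn A (IsLocalRing.residue ↥A) (modularFunctionFieldBar M)
      (modularFunctionFieldFullC (IsLocalRing.ResidueField ↥A) M) S := by
  intro f hO
  obtain ⟨Y₁, Y₂, h1, h2, h1k, h2k, h2ne, hrel⟩ := s48d_q_base_pres M hℓM A hA f hO
  exact ⟨Y₁, Y₂, hS Y₁ h1 h1k, hS Y₂ h2 h2k, h1, h2, h1k, h2k, h2ne, hrel⟩

include hℓM hA in
set_option synthInstance.maxHeartbeats 400000 in
/-- transport of a landed chart package of `(s37r_OF, s37r_redF)` to the q-model base. -/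
theorem s48d_q_base_charts_of
    (w : ↥(modularFunctionFieldBar M))
    (hP : haveI : FFGen Qbar (ffd_jBar M) := s18r_ffGen M
      s48g_ChartPack (ffd_jBar M) A (IsLocalRing.residue ↥A) (s37r_OF A M hA)
        (s37r_redF A M hA hℓM) w) :
    haveI : FFGen Qbar (ffd_jBar M) := s18r_ffGen M
    s48g_ChartPack (ffd_jBar M) A (IsLocalRing.residue ↥A) (s48d_qO (s48d_q_base M hℓM A hA))
      (s48d_qRed (s48d_q_base M hℓM A hA)) w := by
  haveI : FFGen Qbar (ffd_jBar M) := s18r_ffGen M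
  exact s48d_q_chartPack_congr (s48d_q_base_O M hℓM A hA)
    (fun y hy hy' => s48d_q_base_red M hℓM A hA y hy hy') hP

include hℓM hA in
set_option synthInstance.maxHeartbeats 400000 in
/-- **the two chart packages of the q-model base** (`ℓ ≥ 5`) for `w = j`, `w' = j⁻¹`. -/
theorem s48d_q_base_charts (h5 : 5 ≤ ℓ) :
    haveI : FFGen Qbar (ffd_jBar M) := s18r_ffGen M
    s48g_ChartPack (ffd_jBar M) A (IsLocalRing.residue ↥A) (s48d_qO (s48d_q_base M hℓM A hA))
      (s48d_qRed (s48d_q_base M hℓM A hA)) (s18g_jF (K := Qbar) M) ∧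
    s48g_ChartPack (ffd_jBar M) A (IsLocalRing.residue ↥A) (s48d_qO (s48d_q_base M hℓM A hA))
      (s48d_qRed (s48d_q_base M hℓM A hA)) (s18g_jF (K := Qbar) M)⁻¹ := by
  haveI : FFGen Qbar (ffd_jBar M) := s18r_ffGen M
  obtain ⟨D₁, i1, i2, i3, i4, i5, i6, PsiD₁, D₂, j1, j2, j3, j4, j5, j6, PsiD₂, h₁, h₂⟩ :=
    Fermat.Agent.Lib.S44.s44g_i_charts A M hA hℓM h5
  exact ⟨s48d_q_base_charts_of M hℓM A hA _ ⟨D₁, i1, i2, i3, i4, i5, i6, PsiD₁, h₁⟩,
    s48d_q_base_charts_of M hℓM A hA _ ⟨D₂, j1, j2, j3, j4, j5, j6, PsiD₂, h₂⟩⟩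

end Fermat.Agent.Lib.S48
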