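/-
DS-1 (S48), (DESC) assembly, part 1 (owner: helper5): the contract `s48k_EigenSupportH` of
`KIfaceH.lean` from

* `s48desc_KappaCoreH` [(KAP) + (DC) + (LAM) + (EQ) for `Γ_H`]: an injective additive map
  `κ₀ : J_H(ℚ̄)[ℓ] → Hom(Γ_H, 𝔽_ℓ)` whose image contains `H_par = s48h_Hpar`, intertwining the
  classical `T_p` (`s48k_TpJ`) with helper3's `s48h_TpDatum … .heckeHom` and the diamonds
  `s48k_diamondJ d` with `s48h_diamondDatum … .heckeHom`;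
* helper3's `s48h_DSCoreH` ([T6]).

Mirror of the landed `Lib/S29/EigenCore.lean`.
-/
import Mathlib
import Fermat.Agent.Lib.S48.HDS
import Fermat.Agent.Lib.S48.KIfaceH
import Fermat.Agent.Lib.S29.EigenAsm

set_option autoImplicit false
set_option linter.style.haveILetI false

open ModularCurve AlgebraicCurve CongruenceSubgroup TensorProduct
open scoped MatrixGroups

namespace Fermat.Agent.Lib.S48

open Fermat.Agent.Lib.S29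

local notation "𝓞" => integralClosure ℤ ℂ

/-- **[KappaCoreH]** = (KAP) + (DC) + (LAM) + (EQ) for `Γ_H`: the Kummer map on `J_H(ℚ̄)[ℓ]`. -/
def s48desc_KappaCoreH : Prop :=
  ∀ (M N₁ ℓ₀ : ℕ) [NeZero M] (H : Subgroup (ZMod M)ˣ), s48k_Level M N₁ ℓ₀ H →
  ∀ (ℓ : ℕ) [Fact ℓ.Prime],
    ∃ κ0 : s48k_JHl M H ℓ →+ (Additive (s48h_GammaH M H) →+ ZMod ℓ),
      Function.Injective κ0 ∧
      (∀ χ ∈ s48h_Hpar (ZMod ℓ) (s48h_GammaH M H) (ZMod ℓ), ∃ x, κ0 x = χ) ∧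
      (∀ (p : ℕ) [NeZero p] [Fact p.Prime] (pu : (ZMod M)ˣ) (hpM : ¬ p ∣ M), ¬ p ∣ M * ℓ →
        ((pu : (ZMod M)ˣ) : ZMod M) = (p : ZMod M) →
        ∀ (σp : SL(2, ℤ)) (hσp : σp ∈ Gamma0 M)
          (hσp11 : ((σp 1 1 : ℤ) : ZMod M) = (p : ZMod M)) (x : s48k_JHl M H ℓ),
          κ0 (s48k_torsionEnd M H ℓ (s48k_TpJ M H p pu) x) =
            (s48h_TpDatum H hpM σp hσp hσp11).heckeHom (ZMod ℓ) (κ0 x)) ∧
      (∀ (d : (ZMod M)ˣ) (σ : SL(2, ℤ)) (hσ : σ ∈ Gamma0 M),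
        ((σ 1 1 : ℤ) : ZMod M) = ((d : (ZMod M)ˣ) : ZMod M) → ∀ x : s48k_JHl M H ℓ,
          κ0 (s48k_torsionEnd M H ℓ (s48k_diamondJ M H d) x) =
            (s48h_diamondDatum H σ hσ).heckeHom (ZMod ℓ) (κ0 x))

/-- Every unit mod `M` is the lower right entry of an element of `Γ₀(M)`. -/
theorem s48desc_exists_sigma (M : ℕ) [NeZero M] (d : (ZMod M)ˣ) :
    ∃ σ : SL(2, ℤ), σ ∈ Gamma0 M ∧ ((σ 1 1 : ℤ) : ZMod M) = ((d : (ZMod M)ˣ) : ZMod M) := by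
  obtain ⟨σ, h1, -, h3⟩ := s48h_exists_sigma M 1 (Nat.coprime_one_left M) d
  refine ⟨σ, ?_, h3⟩
  rw [Gamma0_mem, ZMod.intCast_zmod_eq_zero_iff_dvd]
  exact dvd_trans (Dvd.intro _ rfl) h1

/-- helper3's `s48h_DSCoreH` for a `CuspForm` satisfying `s48i_ModEigen`, with an ARBITRARY
`𝔽_ℓ`-algebra structure on `k`. -/
theorem s48desc_DSCoreH (M : ℕ) [NeZero M] (ψ : DirichletCharacter ℂ M)
    (g : CuspForm (Gamma1 M) 2) (ℓ : ℕ) [Fact ℓ.Prime] (k : Type) [Field k] [Algebra (ZMod ℓ) k]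
    (φ : 𝓞 →+* k) (α c : ℕ → 𝓞) (ψ' : ZMod M → 𝓞) (h : s48i_ModEigen M ψ g φ α c ψ')
    (H : Subgroup (ZMod M)ˣ) (hH : ∀ u ∈ H, ψ (u : ZMod M) = 1) :
    ∃ v : k ⊗[ZMod ℓ] (s48h_Hpar (ZMod ℓ) (s48h_GammaH M H) (ZMod ℓ)), v ≠ 0 ∧
      (∀ (p : ℕ) [Fact p.Prime] (hpM : ¬ p ∣ M) (σp : SL(2, ℤ)) (hσp : σp ∈ Gamma0 M)
        (hσp11 : ((σp 1 1 : ℤ) : ZMod M) = (p : ZMod M)),
        ((s48h_TpDatum H hpM σp hσp hσp11).heckeHpar (ZMod ℓ)).baseChange k v = φ (α p) • v) ∧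
      (∀ (σ : SL(2, ℤ)) (hσ : σ ∈ Gamma0 M),
        ((s48h_diamondDatum H σ hσ).heckeHpar (ZMod ℓ)).baseChange k v
          = φ (ψ' ((σ 1 1 : ℤ) : ZMod M)) • v) := by
  obtain ⟨hneb, hψ', hc, hne, hcong⟩ := h
  have hg : s48h_Neben M 2 ψ ⇑g := s48h_neben_of_good (s48h_good_of_cuspForm g) hneb
  refine s48h_DSCoreH M ψ H hH ⇑g hg (s48h_zeroCusps_of_cuspForm g) ℓ k φ c
    (fun n => (hc n).symm) hne ψ' hψ' α (fun p hp hpM n => ?_)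
  rw [← hcong p hp hpM n, mul_comm n p]
  congr 2
  split_ifs
  · rw [mul_assoc]
  · rw [mul_zero, mul_zero]

/-- **`s48k_EigenSupportH` from `s48desc_KappaCoreH`** (and helper3's `s48h_DSCoreH`). -/
theorem s48desc_eigenSupportH (hK : s48desc_KappaCoreH) : s48k_EigenSupportH := by
  intro M N₁ ℓ₀ _ H hL ψ hψH g ℓ _ k _ _ φ α c ψ' hME
  classical
  obtain ⟨κ0, hinj, hsurj, hT, hD⟩ := hK M N₁ ℓ₀ H hL ℓ
  obtain ⟨w, hw, hwT, hwD⟩ := s48desc_DSCoreH M ψ g ℓ k φ α c ψ' hME H hψH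
  -- the index set: good primes (with the unit `pu`), and units `d`
  let I₁ : Type := {q : ℕ × (ZMod M)ˣ // q.1.Prime ∧ ¬ q.1 ∣ M * ℓ ∧
    ((q.2 : (ZMod M)ˣ) : ZMod M) = (q.1 : ZMod M)}
  have hpM : ∀ i : I₁, ¬ i.1.1 ∣ M := fun i h => i.2.2.1 (Dvd.dvd.mul_right h ℓ)
  have hσex : ∀ i : I₁, ∃ σp : SL(2, ℤ), σp ∈ Gamma0 M ∧
      ((σp 1 1 : ℤ) : ZMod M) = (i.1.1 : ZMod M) := fun i =>
    @s48h_exists_sigma_p M i.1.1 ⟨i.2.1⟩ (hpM i)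
  choose σc hσc hσc11 using hσex
  have hσdex : ∀ d : (ZMod M)ˣ, ∃ σ : SL(2, ℤ), σ ∈ Gamma0 M ∧
      ((σ 1 1 : ℤ) : ZMod M) = ((d : (ZMod M)ˣ) : ZMod M) := fun d => s48desc_exists_sigma M d
  choose σd hσd hσd11 using hσdex
  let κ : s48k_JHl M H ℓ →ₗ[ZMod ℓ] (Additive (s48h_GammaH M H) →+ ZMod ℓ) :=
    AddMonoidHom.toZModLinearMap ℓ κ0
  have hκ : Function.Injective κ := hinj
  let TJ : I₁ ⊕ (ZMod M)ˣ → Module.End (ZMod ℓ) (s48k_JHl M H ℓ) := fun i =>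
    Sum.elim (fun i : I₁ => haveI : NeZero i.1.1 := ⟨i.2.1.ne_zero⟩
        s48k_torsionEnd M H ℓ (s48k_TpJ M H i.1.1 i.1.2))
      (fun d => s48k_torsionEnd M H ℓ (s48k_diamondJ M H d)) i
  let TM : I₁ ⊕ (ZMod M)ˣ → Module.End (ZMod ℓ) (Additive (s48h_GammaH M H) →+ ZMod ℓ) := fun i =>
    Sum.elim (fun i : I₁ => haveI : Fact i.1.1.Prime := ⟨i.2.1⟩
        (s48h_TpDatum H (hpM i) (σc i) (hσc i) (hσc11 i)).heckeLin (ZMod ℓ))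
      (fun d => (s48h_diamondDatum H (σd d) (hσd d)).heckeLin (ZMod ℓ)) i
  let TH : I₁ ⊕ (ZMod M)ˣ →
      Module.End (ZMod ℓ) (s48h_Hpar (ZMod ℓ) (s48h_GammaH M H) (ZMod ℓ)) := fun i =>
    Sum.elim (fun i : I₁ => haveI : Fact i.1.1.Prime := ⟨i.2.1⟩
        (s48h_TpDatum H (hpM i) (σc i) (hσc i) (hσc11 i)).heckeHpar (ZMod ℓ))
      (fun d => (s48h_diamondDatum H (σd d) (hσd d)).heckeHpar (ZMod ℓ)) i
  let cc : I₁ ⊕ (ZMod M)ˣ → k := fun i =>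
    Sum.elim (fun i : I₁ => φ (α i.1.1)) (fun d => φ (ψ' ((d : (ZMod M)ˣ) : ZMod M))) i
  obtain ⟨v, hv, hveig⟩ := s29a_eigen_of_kappa (F := ZMod ℓ) (k := k) κ hκ
    (s48h_Hpar (ZMod ℓ) (s48h_GammaH M H) (ZMod ℓ)) (fun χ hχ => hsurj χ hχ)
    TJ TM TH
    (fun i χ => by rcases i with i | d <;> rfl)
    (fun i x => by
      rcases i with i | d
      · haveI : NeZero i.1.1 := ⟨i.2.1.ne_zero⟩
        haveI : Fact i.1.1.Prime := ⟨i.2.1⟩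
        exact hT i.1.1 i.1.2 (hpM i) i.2.2.1 i.2.2.2 (σc i) (hσc i) (hσc11 i) x
      · exact hD d (σd d) (hσd d) (hσd11 d) x)
    w hw cc
    (fun i => by
      rcases i with i | d
      · haveI : Fact i.1.1.Prime := ⟨i.2.1⟩
        exact hwT i.1.1 (hpM i) (σc i) (hσc i) (hσc11 i)
      · have := hwD (σd d) (hσd d)
        rw [hσd11 d] at this
        exact this)
  refine ⟨v, hv, ?_, ?_⟩
  · intro p _ pu hp hpMℓ hpu
    exact hveig (Sum.inl ⟨(p, pu), hp, hpMℓ, hpu⟩)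
  · intro d
    exact hveig (Sum.inr d)

end Fermat.Agent.Lib.S48
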