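/-
DS-1 (S48), (DESC) assembly, part 2 (owner: helper5): the generic [DC] facts of the landed
`Lib/S29/DC*.lean` packaged for an ARBITRARY `ℚ`-model `F₀ ⊆ ℚ((q))` (in the application
`F₀ = s48k_FHQ M H`, `K0 = ℚ̄`, `K1 = ℂ`):

* `s48desc_ct F₀ x0 x1 p : Pic⁰(E0)[p] →+ Pic⁰(E1)[p]`, the base-change map on `p`-torsion, injective,
  and BIJECTIVE as soon as `Pic⁰(E1)[p]` is finite (`s48desc_ct_bijective`);
* `s48desc_hc` : if `div f = p • D` on `E0` then `c [D] = [D']` with `div (j f) = p • D'` on `E1`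
  (the input `hc` of the equivariance theorem (EQ), cf. `s29a_hc`);
* `s48desc_kappa0` : for an injective `κ : Pic⁰(E1)[p] →+ A` into a FINITE group, `κ₀ = κ ∘ ct` is
  injective with the same image.
-/
import Fermat.Agent.Lib.S29.DCInj
import Fermat.Agent.Lib.S29.DCSurjC

set_option autoImplicit false
set_option linter.unusedSectionVars false

noncomputable section

namespace Fermat.Agent.Lib.S48

open AlgebraicCurve ModularCurve Fermat.Agent.Lib.FF Fermat.Agent.Lib.S18 Fermat.Agent.Lib.S37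
  Fermat.Agent.Lib.S29 IntermediateField

variable {K0 K1 : Type*} [Field K0] [Field K1] [Algebra ℚ K0] [Algebra ℚ K1] [Algebra K0 K1]
variable (F₀ : IntermediateField ℚ (LaurentSeries ℚ))
variable [IsAlgClosed K0] [CharZero K0] (x0 : ↥(laurentBaseChange K0 F₀)) [FFGen K0 x0]
  [IsAlgClosed K1] [CharZero K1] (x1 : ↥(laurentBaseChange K1 F₀)) [FFGen K1 x1]

/-- The base-change map restricted to the `p`-torsion. -/
def s48desc_ct (p : ℕ) : Pic0.torsion K0 ↥(laurentBaseChange K0 F₀) p →+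
    Pic0.torsion K1 ↥(laurentBaseChange K1 F₀) p :=
  ((s29c_c (K1 := K1) F₀ x0 x1).comp
    (Pic0.torsion K0 ↥(laurentBaseChange K0 F₀) p).subtype).codRestrict _ (fun x => by
      rw [Pic0.mem_torsion]
      show (p : ℤ) • (s29c_c (K1 := K1) F₀ x0 x1) (x : Pic0 K0 ↥(laurentBaseChange K0 F₀)) = 0
      rw [← map_zsmul, Pic0.mem_torsion.mp x.2, map_zero])

theorem s48desc_ct_coe (p : ℕ) (x : Pic0.torsion K0 ↥(laurentBaseChange K0 F₀) p) :
    ((s48desc_ct (K1 := K1) F₀ x0 x1 p x : Pic0.torsion K1 ↥(laurentBaseChange K1 F₀) p) :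
      Pic0 K1 ↥(laurentBaseChange K1 F₀)) =
      s29c_c (K1 := K1) F₀ x0 x1 (x : Pic0 K0 ↥(laurentBaseChange K0 F₀)) := rfl

theorem s48desc_ct_injective (p : ℕ) : Function.Injective (s48desc_ct (K1 := K1) F₀ x0 x1 p) := by
  intro x y hxy
  have h2 := congrArg Subtype.val hxy
  rw [s48desc_ct_coe, s48desc_ct_coe] at h2
  exact Subtype.ext (s29c_c_injective (K1 := K1) F₀ x0 x1 h2)

theorem s48desc_ct_surjective (hx : s18q_map (algebraMap K0 K1) F₀ x0 = x1) (p : ℕ)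
    (hfin : Finite (Pic0.torsion K1 ↥(laurentBaseChange K1 F₀) p)) :
    Function.Surjective (s48desc_ct (K1 := K1) F₀ x0 x1 p) := by
  intro y
  obtain ⟨x, hx'⟩ := s29cs_surj_torsion' (K1 := K1) F₀ x0 x1 hx p hfin
    (y : Pic0 K1 ↥(laurentBaseChange K1 F₀)) y.2
  have hxt : x ∈ Pic0.torsion K0 ↥(laurentBaseChange K0 F₀) p := by
    rw [Pic0.mem_torsion]
    apply s29c_c_injective (K1 := K1) F₀ x0 x1
    rw [map_zsmul, hx', map_zero]
    exact Pic0.mem_torsion.mp y.2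
  exact ⟨⟨x, hxt⟩, Subtype.ext hx'⟩

theorem s48desc_ct_bijective (hx : s18q_map (algebraMap K0 K1) F₀ x0 = x1) (p : ℕ)
    (hfin : Finite (Pic0.torsion K1 ↥(laurentBaseChange K1 F₀) p)) :
    Function.Bijective (s48desc_ct (K1 := K1) F₀ x0 x1 p) :=
  ⟨s48desc_ct_injective F₀ x0 x1 p, s48desc_ct_surjective F₀ x0 x1 hx p hfin⟩

/-- The hypothesis `hc` of the equivariance theorem (EQ) for the base-change map. -/
theorem s48desc_hc (p : ℕ)
    (D : Divisor.degZero (K := K0) (F := ↥(laurentBaseChange K0 F₀)))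
    (f : ↥(laurentBaseChange K0 F₀)) (hf : f ≠ 0)
    (hD : ∀ v : Place K0 ↥(laurentBaseChange K0 F₀),
      v.ord f = (p : ℤ) * (D : Divisor K0 ↥(laurentBaseChange K0 F₀)) v) :
    ∃ D' : Divisor.degZero (K := K1) (F := ↥(laurentBaseChange K1 F₀)),
      s29c_c (K1 := K1) F₀ x0 x1 (Pic0.mk D) = Pic0.mk D' ∧
        ∀ w : Place K1 ↥(laurentBaseChange K1 F₀),
          w.ord (s18q_map (algebraMap K0 K1) F₀ f) =
            (p : ℤ) * (D' : Divisor K1 ↥(laurentBaseChange K1 F₀)) w := by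
  refine ⟨s29c_degZeroMap (K1 := K1) F₀ x0 x1 D, s29c_c_mk _ _ _ D, fun w => ?_⟩
  have hD2 : ∀ v : Place K0 ↥(laurentBaseChange K0 F₀),
      ((p : ℤ) • (D : Divisor K0 ↥(laurentBaseChange K0 F₀))) v = v.ord f := by
    intro v
    rw [Finsupp.smul_apply, smul_eq_mul, hD v]
  have h1 := s29c_divMap_principal (K1 := K1) F₀ x0 hf hD2 w
  rw [s29c_coe_degZeroMap, ← h1, map_zsmul, Finsupp.smul_apply, smul_eq_mul]

/-- For an injective `κ` on `Pic⁰(E1)[p]` with values in a finite group, `κ₀ = κ ∘ ct` is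
injective and has the same image. -/
theorem s48desc_kappa0 (hx : s18q_map (algebraMap K0 K1) F₀ x0 = x1) (p : ℕ)
    {A : Type*} [AddCommGroup A] [Finite A]
    (κ : Pic0.torsion K1 ↥(laurentBaseChange K1 F₀) p →+ A) (hκ : Function.Injective κ) :
    Function.Injective (κ.comp (s48desc_ct (K1 := K1) F₀ x0 x1 p)) ∧
      ∀ y, ∃ x, (κ.comp (s48desc_ct (K1 := K1) F₀ x0 x1 p)) x = κ y := by
  have hfin : Finite (Pic0.torsion K1 ↥(laurentBaseChange K1 F₀) p) := Finite.of_injective κ hκ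
  refine ⟨hκ.comp (s48desc_ct_injective F₀ x0 x1 p), fun y => ?_⟩
  obtain ⟨x, rfl⟩ := s48desc_ct_surjective F₀ x0 x1 hx p hfin y
  exact ⟨x, rfl⟩

end Fermat.Agent.Lib.S48
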