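/-
S48 / DS-1, (LAM) for a general subgroup (helper3): the `Γ`-generic port of the landed
`Lib/S29/LamFun.lean` (helper6) — the functions behind `λ : H_p → Pic⁰[p]`.

`Γ ≤ SL(2,ℤ)` with `s48h_GrpHyp N Γ` (`Γ(N) ≤ Γ`, `-1 ∈ Γ`, `T ∈ Γ`).  For
`χ ∈ s48h_Hpar (ZMod p) Γ (ZMod p)` (parabolic homomorphisms `Γ → 𝔽_p` vanishing on finite-order elements):

* `s48h_lfChiC χ : Γ →* ℂˣ`, `γ ↦ ζ_p ^ χ(γ)`, a parabolic character of exponent `p`;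
* `E_χ = s48h_lfEchi χ`, `E_1 = s48h_lfEone Γ` : the weight-`4` Eisenstein series of `HKEis.lean`;
* `ga = s48h_lfGa χ = E_χ · E_1² / Δ`, `gb = s48h_lfGb Γ = E_1³ / Δ` : `χ`-functions (`s48h_IsChiFun`);
* `A = s48h_lfA hG hχ = ga ^ p`, `B = s48h_lfB hG p = gb ^ p ∈ ffm_R N`, `Γ`-invariant;
* `s48h_lfRoot χ = ga · gb ^ (p - 1)` with `root ∘ γ = ζ_p ^ χ(γ) · root`.
-/
import Fermat.Agent.Lib.S29.LamFun
import Fermat.Agent.Lib.S48.HKEis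
import Fermat.Agent.Lib.S48.HKOrd
import Fermat.Agent.Lib.S48.HHom

set_option autoImplicit false
set_option linter.unusedSectionVars false

namespace Fermat.Agent.Lib.S48

open UpperHalfPlane hiding I
open Filter Matrix.SpecialLinearGroup Function CongruenceSubgroup ModularGroup ModularForm
open Fermat.Agent.Lib.FF Fermat.Agent.Lib.RR ModularCurve.Period Fermat.Agent.Lib.S29
open scoped MatrixGroups Manifold Topology Real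

noncomputable section

variable {N p : ℕ} [NeZero N] [NeZero p] {Γ : Subgroup SL(2, ℤ)}

/-! ### The character `ζ_p ^ χ` -/


/-- The complex character `γ ↦ ζ_p ^ χ(γ)` attached to `χ : Γ → 𝔽_p`. -/
def s48h_lfChiC (χ : Additive Γ →+ ZMod p) : Γ →* ℂˣ where
  toFun γ := s29lf_zetaU p ^ (χ (Additive.ofMul γ)).val
  map_one' := by
    rw [ofMul_one, map_zero, ZMod.val_zero, pow_zero]
  map_mul' γ δ := by
    apply Units.ext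
    rw [ofMul_mul, map_add, Units.val_mul, Units.val_pow_eq_pow_val, Units.val_pow_eq_pow_val,
      Units.val_pow_eq_pow_val, s29lf_zetaU_coe, s29q_zetaP_pow_val_add]

theorem s48h_lfChiC_coe (χ : Additive Γ →+ ZMod p) (γ : Γ) :
    ((s48h_lfChiC χ γ : ℂˣ) : ℂ) = s29q_zetaP p ^ (χ (Additive.ofMul γ)).val := by
  show ((s29lf_zetaU p ^ (χ (Additive.ofMul γ)).val : ℂˣ) : ℂ) = _
  rw [Units.val_pow_eq_pow_val, s29lf_zetaU_coe]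

theorem s48h_lfChiC_eq_one {χ : Additive Γ →+ ZMod p} {γ : Γ}
    (h : χ (Additive.ofMul γ) = 0) : s48h_lfChiC χ γ = 1 := by
  show s29lf_zetaU p ^ (χ (Additive.ofMul γ)).val = 1
  rw [h, ZMod.val_zero, pow_zero]

theorem s48h_lfChiC_pow (χ : Additive Γ →+ ZMod p) (γ : Γ) :
    s48h_lfChiC χ γ ^ p = 1 := by
  apply Units.ext
  rw [Units.val_pow_eq_pow_val, s48h_lfChiC_coe, ← pow_mul, mul_comm, pow_mul, s29q_zetaP_pow_self,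
    one_pow, Units.val_one]

/-- For `χ ∈ H_p` the character `ζ_p ^ χ` is a parabolic character of exponent `p`. -/
theorem s48h_lfIsParChar
    {χ : Additive Γ →+ ZMod p} (hχ : χ ∈ s48h_Hpar (ZMod p) Γ (ZMod p)) :
    s48h_IsParChar Γ (s48h_lfChiC χ) p where
  pow_eq_one γ := s48h_lfChiC_pow χ γ
  neg_one γ h := by
    apply s48h_lfChiC_eq_one
    apply (s48h_mem_Hpar_iff.mp hχ).1 γ
    rw [h, Matrix.SpecialLinearGroup.coe_neg, Matrix.SpecialLinearGroup.coe_one,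
      Matrix.trace_neg, Matrix.trace_one]
    simp
  parabolic γ σ n h := by
    apply s48h_lfChiC_eq_one
    apply (s48h_mem_Hpar_iff.mp hχ).1 γ
    rw [h, s29lf_trace_conj_T_zpow]
    norm_num

/-- For `χ ∈ H_p` the character `ζ_p ^ χ` is trivial on the elements of finite order. -/
theorem s48h_lfChiC_finOrd
    {χ : Additive Γ →+ ZMod p} (hχ : χ ∈ s48h_Hpar (ZMod p) Γ (ZMod p))
    (γ : Γ) (hγ : IsOfFinOrder γ) : s48h_lfChiC χ γ = 1 :=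
  s48h_lfChiC_eq_one ((s48h_mem_Hpar_iff.mp hχ).2 γ hγ)

/-! ### The functions `E_χ`, `E_1`, `ga`, `gb` -/

/-- `E_χ`: the weight-`4` Eisenstein series on `Γ` with character `ζ_p ^ χ`. -/
def s48h_lfEchi (χ : Additive Γ →+ ZMod p) : ℍ → ℂ := s48h_EG Γ (s48h_lfChiC χ) 4

variable (Γ) in
/-- `E_1`: the weight-`4` Eisenstein series on `Γ` with trivial character. -/
def s48h_lfEone : ℍ → ℂ := s48h_EG Γ (1 : Γ →* ℂˣ) 4

/-- `ga = E_χ · E_1² / Δ` (weight `0`, character `ζ_p ^ χ`). -/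
def s48h_lfGa (χ : Additive Γ →+ ZMod p) : ℍ → ℂ :=
  fun z => s48h_lfEchi χ z * s48h_lfEone Γ z ^ 2 / Dl z

variable (Γ) in
/-- `gb = E_1³ / Δ` (weight `0`, trivial character). -/
def s48h_lfGb : ℍ → ℂ := fun z => s48h_lfEone Γ z ^ 3 / Dl z

theorem s48h_lfEchi_mdiff
    {χ : Additive Γ →+ ZMod p} (hχ : χ ∈ s48h_Hpar (ZMod p) Γ (ZMod p)) :
    MDiff (s48h_lfEchi χ) :=
  s48h_EG_mdifferentiable (s48h_lfIsParChar hχ) s29lf_hp (by norm_num)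

variable (Γ) in
theorem s48h_lfEone_mdiff : MDiff (s48h_lfEone Γ) :=
  s48h_EG_mdifferentiable (s48h_isParChar_one Γ 1) one_pos (by norm_num)

theorem s48h_lfGa_mdiff
    {χ : Additive Γ →+ ZMod p} (hχ : χ ∈ s48h_Hpar (ZMod p) Γ (ZMod p)) :
    MDiff (s48h_lfGa χ) :=
  s29lf_mdiff_div_Dl ((s48h_lfEchi_mdiff hχ).mul ((s48h_lfEone_mdiff Γ).pow 2))

variable (Γ) in
theorem s48h_lfGb_mdiff : MDiff (s48h_lfGb Γ) :=
  s29lf_mdiff_div_Dl ((s48h_lfEone_mdiff Γ).pow 3)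

/-- `ga (γ z) = ζ_p ^ χ(γ) · ga z` for `γ ∈ Γ₀(N)`. -/
theorem s48h_lfGa_smul (hG : s48h_GrpHyp N Γ)
    {χ : Additive Γ →+ ZMod p} (hχ : χ ∈ s48h_Hpar (ZMod p) Γ (ZMod p)) (γ : Γ)
    (z : ℍ) : s48h_lfGa χ ((γ : SL(2, ℤ)) • z) = ((s48h_lfChiC χ γ : ℂˣ) : ℂ) * s48h_lfGa χ z := by
  have h1 := s48h_EG_smul hG (s48h_lfIsParChar hχ) 4 γ z
  have h2 := s48h_EG_smul hG (s48h_isParChar_one Γ 1) 4 γ z
  have h3 := s29lf_Dl_smul (γ : SL(2, ℤ)) z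
  have hd : denom ((γ : SL(2, ℤ)) : GL (Fin 2) ℝ) z ≠ 0 := denom_ne_zero _ z
  have hD := Dl_ne_zero z
  rw [MonoidHom.one_apply, Units.val_one, one_mul] at h2
  change s48h_lfEchi χ ((γ : SL(2, ℤ)) • z) = ((s48h_lfChiC χ γ : ℂˣ) : ℂ) *
    denom ((γ : SL(2, ℤ)) : GL (Fin 2) ℝ) z ^ (4 : ℤ) * s48h_lfEchi χ z at h1
  change s48h_lfEone Γ ((γ : SL(2, ℤ)) • z) =
    denom ((γ : SL(2, ℤ)) : GL (Fin 2) ℝ) z ^ (4 : ℤ) * s48h_lfEone Γ z at h2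
  unfold s48h_lfGa
  rw [h1, h2, h3]
  exact s29lf_aux1 _ _ _ _ _ hd hD

/-- `gb (γ z) = gb z` for `γ ∈ Γ₀(N)`. -/
theorem s48h_lfGb_smul (hG : s48h_GrpHyp N Γ) (γ : Γ) (z : ℍ) :
    s48h_lfGb Γ ((γ : SL(2, ℤ)) • z) = s48h_lfGb Γ z := by
  have h2 := s48h_EG_smul hG (s48h_isParChar_one Γ 1) 4 γ z
  have h3 := s29lf_Dl_smul (γ : SL(2, ℤ)) z
  have hd : denom ((γ : SL(2, ℤ)) : GL (Fin 2) ℝ) z ≠ 0 := denom_ne_zero _ z
  have hD := Dl_ne_zero z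
  rw [MonoidHom.one_apply, Units.val_one, one_mul] at h2
  change s48h_lfEone Γ ((γ : SL(2, ℤ)) • z) =
    denom ((γ : SL(2, ℤ)) : GL (Fin 2) ℝ) z ^ (4 : ℤ) * s48h_lfEone Γ z at h2
  unfold s48h_lfGb
  rw [h2, h3]
  exact s29lf_aux2 _ _ _ hd hD

/-! ### Translates and growth -/

/-- The translate of `ga` by an arbitrary `σ ∈ SL₂(ℤ)`. -/
theorem s48h_lfGa_translate (χ : Additive Γ →+ ZMod p) (σ : SL(2, ℤ)) (z : ℍ) :
    s48h_lfGa χ (σ • z) =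
      (s48h_lfEchi χ ∣[(4 : ℤ)] σ) z * (s48h_lfEone Γ ∣[(4 : ℤ)] σ) z ^ 2 * (Dl z)⁻¹ := by
  unfold s48h_lfGa
  rw [s29lf_apply_smul_eq_slash (s48h_lfEchi χ) 4 σ z, s29lf_apply_smul_eq_slash (s48h_lfEone Γ) 4 σ z,
    s29lf_Dl_smul σ z]
  exact s29lf_aux3 _ _ _ _ (denom_ne_zero _ z) (Dl_ne_zero z)

/-- The translate of `gb` by an arbitrary `σ ∈ SL₂(ℤ)`. -/
theorem s48h_lfGb_translate (σ : SL(2, ℤ)) (z : ℍ) :
    s48h_lfGb Γ (σ • z) = (s48h_lfEone Γ ∣[(4 : ℤ)] σ) z ^ 3 * (Dl z)⁻¹ := by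
  unfold s48h_lfGb
  rw [s29lf_apply_smul_eq_slash (s48h_lfEone Γ) 4 σ z, s29lf_Dl_smul σ z]
  exact s29lf_aux4 _ _ _ (denom_ne_zero _ z) (Dl_ne_zero z)

/-- All `SL₂(ℤ)`-translates of `ga` have moderate growth. -/
theorem s48h_lfGa_growth (hG : s48h_GrpHyp N Γ)
    {χ : Additive Γ →+ ZMod p} (hχ : χ ∈ s48h_Hpar (ZMod p) Γ (ZMod p))
    (σ : SL(2, ℤ)) : ffm_ModerateGrowth (fun z : ℍ => s48h_lfGa χ (σ • z)) := by
  have h1 : IsBoundedAtImInfty (s48h_lfEchi χ ∣[(4 : ℤ)] σ) :=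
    s48h_EG_slash_isBoundedAtImInfty hG (s48h_lfIsParChar hχ) s29lf_hp (by norm_num) σ
  have h2 : IsBoundedAtImInfty (s48h_lfEone Γ ∣[(4 : ℤ)] σ) :=
    s48h_EG_slash_isBoundedAtImInfty hG (s48h_isParChar_one Γ 1) one_pos (by norm_num) σ
  have h3 := ((s29lf_moderateGrowth_of_bdd h1).mul
    (s29lf_moderateGrowth_pow (s29lf_moderateGrowth_of_bdd h2) 2)).mul s29lf_moderateGrowth_inv_Dl
  have : (fun z : ℍ => s48h_lfGa χ (σ • z)) =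
      (s48h_lfEchi χ ∣[(4 : ℤ)] σ) * (s48h_lfEone Γ ∣[(4 : ℤ)] σ) ^ 2 * fun z : ℍ => (Dl z)⁻¹ := by
    funext z
    rw [s48h_lfGa_translate]
    rfl
  rw [this]
  exact h3

/-- All `SL₂(ℤ)`-translates of `gb` have moderate growth. -/
theorem s48h_lfGb_growth (hG : s48h_GrpHyp N Γ) (σ : SL(2, ℤ)) :
    ffm_ModerateGrowth (fun z : ℍ => s48h_lfGb Γ (σ • z)) := by
  have h2 : IsBoundedAtImInfty (s48h_lfEone Γ ∣[(4 : ℤ)] σ) :=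
    s48h_EG_slash_isBoundedAtImInfty hG (s48h_isParChar_one Γ 1) one_pos (by norm_num) σ
  have h3 := (s29lf_moderateGrowth_pow (s29lf_moderateGrowth_of_bdd h2) 3).mul
    s29lf_moderateGrowth_inv_Dl
  have : (fun z : ℍ => s48h_lfGb Γ (σ • z)) =
      (s48h_lfEone Γ ∣[(4 : ℤ)] σ) ^ 3 * fun z : ℍ => (Dl z)⁻¹ := by
    funext z
    rw [s48h_lfGb_translate]
    rfl
  rw [this]
  exact h3

/-! ### `ga`, `gb` are `χ`-functions -/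

theorem s48h_lfEchi_ne_zero (hG : s48h_GrpHyp N Γ)
    {χ : Additive Γ →+ ZMod p} (hχ : χ ∈ s48h_Hpar (ZMod p) Γ (ZMod p)) :
    ∃ z, s48h_lfEchi χ z ≠ 0 :=
  s48h_EG_ne_zero hG (s48h_lfIsParChar hχ) s29lf_hp (by norm_num) ⟨2, by norm_num⟩

theorem s48h_lfEone_ne_zero (hG : s48h_GrpHyp N Γ) : ∃ z, s48h_lfEone Γ z ≠ 0 :=
  s48h_EG_ne_zero hG (s48h_isParChar_one Γ 1) one_pos (by norm_num) ⟨2, by norm_num⟩

theorem s48h_lfGa_ne_zero (hG : s48h_GrpHyp N Γ)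
    {χ : Additive Γ →+ ZMod p} (hχ : χ ∈ s48h_Hpar (ZMod p) Γ (ZMod p)) :
    ∃ z, s48h_lfGa χ z ≠ 0 := by
  have h1 : s48h_lfEchi χ * s48h_lfEone Γ ^ 2 ≠ 0 := by
    intro h0
    rcases (UpperHalfPlane.mul_eq_zero_iff (s48h_lfEchi_mdiff hχ)
      ((s48h_lfEone_mdiff Γ).pow 2)).mp h0 with h | h
    · exact s29lf_fun_ne_zero (s48h_lfEchi_ne_zero hG hχ) h
    · obtain ⟨z1, hz1⟩ := s48h_lfEone_ne_zero hG
      have h2 := congrFun h z1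
      rw [Pi.pow_apply, Pi.zero_apply] at h2
      exact hz1 (pow_eq_zero_iff two_ne_zero |>.mp h2)
  obtain ⟨z, hz⟩ := s29lf_ne_zero_of_fun h1
  exact ⟨z, div_ne_zero hz (Dl_ne_zero z)⟩

theorem s48h_lfGb_ne_zero (hG : s48h_GrpHyp N Γ) : ∃ z, s48h_lfGb Γ z ≠ 0 := by
  obtain ⟨z, hz⟩ := s48h_lfEone_ne_zero hG
  exact ⟨z, div_ne_zero (pow_ne_zero 3 hz) (Dl_ne_zero z)⟩

/-- `ga` is a `χ`-function. -/
theorem s48h_lfGa_isChiFun (hG : s48h_GrpHyp N Γ)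
    {χ : Additive Γ →+ ZMod p} (hχ : χ ∈ s48h_Hpar (ZMod p) Γ (ZMod p)) :
    s48h_IsChiFun N Γ (s48h_lfGa χ) where
  mdiff := s48h_lfGa_mdiff hχ
  ne_zero := s48h_lfGa_ne_zero hG hχ
  inv_finOrd γ hγ z := by
    rw [s48h_lfGa_smul hG hχ, s48h_lfChiC_finOrd hχ γ hγ, Units.val_one, one_mul]
  inv_par σ k hk z := by
    have h1 := s48h_lfGa_smul hG hχ ⟨σ⁻¹ * T ^ k * σ, hk⟩ z
    have h2 : s48h_lfChiC χ ⟨σ⁻¹ * T ^ k * σ, hk⟩ = 1 :=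
      (s48h_lfIsParChar hχ).parabolic ⟨σ⁻¹ * T ^ k * σ, hk⟩ σ⁻¹ (k : ℤ) (by
        rw [inv_inv, zpow_natCast])
    rw [h2, Units.val_one, one_mul] at h1
    exact h1
  growth σ := s48h_lfGa_growth hG hχ σ

/-- `gb` is a `χ`-function. -/
theorem s48h_lfGb_isChiFun (hG : s48h_GrpHyp N Γ) : s48h_IsChiFun N Γ (s48h_lfGb Γ) where
  mdiff := s48h_lfGb_mdiff Γ
  ne_zero := s48h_lfGb_ne_zero hG
  inv_finOrd γ _ z := s48h_lfGb_smul hG γ z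
  inv_par σ k hk z := s48h_lfGb_smul hG ⟨σ⁻¹ * T ^ k * σ, hk⟩ z
  growth σ := s48h_lfGb_growth hG σ

/-! ### The elements `A = ga ^ p`, `B = gb ^ p` of `ffm_R N` -/

theorem s48h_lfIsWH_ga_pow (hG : s48h_GrpHyp N Γ)
    {χ : Additive Γ →+ ZMod p} (hχ : χ ∈ s48h_Hpar (ZMod p) Γ (ZMod p)) :
    ffm_IsWH N (fun z => s48h_lfGa χ z ^ p) where
  mdiff := (s48h_lfGa_mdiff hχ).pow p
  inv γ hγ z := by
    have h1 := s48h_lfGa_smul hG hχ ⟨γ, hG.le hγ⟩ z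
    show s48h_lfGa χ (γ • z) ^ p = s48h_lfGa χ z ^ p
    rw [h1, mul_pow, ← Units.val_pow_eq_pow_val, s48h_lfChiC_pow, Units.val_one, one_mul]
  growth σ := s29lf_moderateGrowth_pow (s48h_lfGa_growth hG hχ σ) p

variable (p) in
theorem s48h_lfIsWH_gb_pow (hG : s48h_GrpHyp N Γ) : ffm_IsWH N (fun z => s48h_lfGb Γ z ^ p) where
  mdiff := (s48h_lfGb_mdiff Γ).pow p
  inv γ hγ z := by
    have h1 := s48h_lfGb_smul hG ⟨γ, hG.le hγ⟩ z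
    show s48h_lfGb Γ (γ • z) ^ p = s48h_lfGb Γ z ^ p
    rw [h1]
  growth σ := s29lf_moderateGrowth_pow (s48h_lfGb_growth hG σ) p

/-- `A = ga ^ p ∈ ffm_R N`. -/
def s48h_lfA (hG : s48h_GrpHyp N Γ)
    {χ : Additive Γ →+ ZMod p} (hχ : χ ∈ s48h_Hpar (ZMod p) Γ (ZMod p)) : ffm_R N :=
  ffm_mk (fun z => s48h_lfGa χ z ^ p) (s48h_lfIsWH_ga_pow hG hχ)

variable (p) in
/-- `B = gb ^ p ∈ ffm_R N`. -/
def s48h_lfB (hG : s48h_GrpHyp N Γ) : ffm_R N :=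
  ffm_mk (fun z => s48h_lfGb Γ z ^ p) (s48h_lfIsWH_gb_pow p hG)

@[simp] theorem s48h_lfA_apply (hG : s48h_GrpHyp N Γ) {χ : Additive Γ →+ ZMod p}
    (hχ : χ ∈ s48h_Hpar (ZMod p) Γ (ZMod p)) (z : ℍ) : (s48h_lfA hG hχ : ℍ → ℂ) z = s48h_lfGa χ z ^ p := rfl

@[simp] theorem s48h_lfB_apply (hG : s48h_GrpHyp N Γ) (z : ℍ) :
    (s48h_lfB p hG : ℍ → ℂ) z = s48h_lfGb Γ z ^ p := rfl

theorem s48h_lfA_ne_zero (hG : s48h_GrpHyp N Γ)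
    {χ : Additive Γ →+ ZMod p} (hχ : χ ∈ s48h_Hpar (ZMod p) Γ (ZMod p)) :
    s48h_lfA hG hχ ≠ 0 := by
  intro h0
  obtain ⟨z, hz⟩ := s48h_lfGa_ne_zero hG hχ
  have h1 := congrFun (congrArg Subtype.val h0) z
  exact pow_ne_zero p hz h1

variable (p) in
theorem s48h_lfB_ne_zero (hG : s48h_GrpHyp N Γ) : s48h_lfB p hG ≠ 0 := by
  intro h0
  obtain ⟨z, hz⟩ := s48h_lfGb_ne_zero hG
  have h1 := congrFun (congrArg Subtype.val h0) z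
  exact pow_ne_zero p hz h1

/-- `A` is `Γ`-invariant. -/
theorem s48h_lfA_smul (hG : s48h_GrpHyp N Γ)
    {χ : Additive Γ →+ ZMod p} (hχ : χ ∈ s48h_Hpar (ZMod p) Γ (ZMod p))
    (γ : SL(2, ℤ)) (hγ : γ ∈ Γ) : γ • s48h_lfA hG hχ = s48h_lfA hG hχ := by
  ext z
  rw [ffm_smul_apply, s48h_lfA_apply hG, s48h_lfA_apply hG]
  have h1 := s48h_lfGa_smul hG hχ ⟨γ⁻¹, inv_mem hγ⟩ z
  rw [h1, mul_pow, ← Units.val_pow_eq_pow_val, s48h_lfChiC_pow, Units.val_one, one_mul]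

variable (p) in
/-- `B` is `Γ`-invariant. -/
theorem s48h_lfB_smul (hG : s48h_GrpHyp N Γ) (γ : SL(2, ℤ)) (hγ : γ ∈ Γ) :
    γ • s48h_lfB p hG = s48h_lfB p hG := by
  ext z
  rw [ffm_smul_apply, s48h_lfB_apply hG, s48h_lfB_apply hG]
  have h1 := s48h_lfGb_smul hG ⟨γ⁻¹, inv_mem hγ⟩ z
  rw [h1]

/-- `A / B` is a `Γ`-invariant element of `ffm_E N`. -/
theorem s48h_lfDiv_smul (hG : s48h_GrpHyp N Γ)
    {χ : Additive Γ →+ ZMod p} (hχ : χ ∈ s48h_Hpar (ZMod p) Γ (ZMod p))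
    (γ : SL(2, ℤ)) (hγ : γ ∈ Γ) :
    γ • (algebraMap (ffm_R N) (ffm_E N) (s48h_lfA hG hχ) /
        algebraMap (ffm_R N) (ffm_E N) (s48h_lfB p hG)) =
      algebraMap (ffm_R N) (ffm_E N) (s48h_lfA hG hχ) /
        algebraMap (ffm_R N) (ffm_E N) (s48h_lfB p hG) := by
  rw [smul_div₀', ffm_smul_algebraMap, ffm_smul_algebraMap, s48h_lfA_smul hG hχ γ hγ,
    s48h_lfB_smul p hG γ hγ]

/-- The relation `A · gb ^ p = B · ga ^ p` (hypothesis `hrel` of `LamOrd.lean`). -/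
theorem s48h_lfRel (hG : s48h_GrpHyp N Γ)
    {χ : Additive Γ →+ ZMod p} (hχ : χ ∈ s48h_Hpar (ZMod p) Γ (ZMod p)) (z : ℍ) :
    (s48h_lfA hG hχ : ℍ → ℂ) z * s48h_lfGb Γ z ^ p = (s48h_lfB p hG : ℍ → ℂ) z * s48h_lfGa χ z ^ p := by
  rw [s48h_lfA_apply hG, s48h_lfB_apply hG, mul_comm]

/-! ### The `p`-th root -/

/-- `ga · gb ^ (p - 1)`: a holomorphic `p`-th root of `A · B ^ (p - 1)`. -/
def s48h_lfRoot (χ : Additive Γ →+ ZMod p) : ℍ → ℂ :=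
  fun z => s48h_lfGa χ z * s48h_lfGb Γ z ^ (p - 1)

theorem s48h_lfRoot_mdiff
    {χ : Additive Γ →+ ZMod p} (hχ : χ ∈ s48h_Hpar (ZMod p) Γ (ZMod p)) :
    MDiff (s48h_lfRoot χ) :=
  (s48h_lfGa_mdiff hχ).mul ((s48h_lfGb_mdiff Γ).pow (p - 1))

theorem s48h_lfRoot_pow (hG : s48h_GrpHyp N Γ)
    {χ : Additive Γ →+ ZMod p} (hχ : χ ∈ s48h_Hpar (ZMod p) Γ (ZMod p))
    (z : ℍ) : s48h_lfRoot χ z ^ p =
      (s48h_lfA hG hχ : ℍ → ℂ) z * (s48h_lfB p hG : ℍ → ℂ) z ^ (p - 1) := by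
  rw [s48h_lfA_apply hG, s48h_lfB_apply hG, s48h_lfRoot, mul_pow, ← pow_mul, ← pow_mul, mul_comm (p - 1) p]

/-- `root (γ z) = ζ_p ^ χ(γ) · root z` for `γ ∈ Γ₀(N)`. -/
theorem s48h_lfRoot_smul (hG : s48h_GrpHyp N Γ)
    {χ : Additive Γ →+ ZMod p} (hχ : χ ∈ s48h_Hpar (ZMod p) Γ (ZMod p))
    (γ : Γ) (z : ℍ) :
    s48h_lfRoot χ ((γ : SL(2, ℤ)) • z) =
      s29q_zetaP p ^ (χ (Additive.ofMul γ)).val * s48h_lfRoot χ z := by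
  unfold s48h_lfRoot
  rw [s48h_lfGa_smul hG hχ, s48h_lfGb_smul hG, s48h_lfChiC_coe, mul_assoc]

end

end Fermat.Agent.Lib.S48
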