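/-
S48 / DS-1, (LAM) for a general subgroup (helper3): glue of `HKFun` (the Eisenstein `χ`-data for `Γ`)
with `HKLam` (Lemma Λ): **every `χ ∈ s48h_Hpar 𝔽_p Γ 𝔽_p` is `κ_Γ` of a `p`-torsion class**, for ANY
bridge `(K, F, φ)` with `s48h_BridgeHyp K N Γ p φ` and `s48h_PlacesHyp K N Γ φ`.
(`Γ`-generic port of `Lib/S29/LamGlue.lean`.)
-/
import Fermat.Agent.Lib.S48.HKLam
import Fermat.Agent.Lib.S48.HKFun

set_option autoImplicit false
set_option linter.unusedSectionVars false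

namespace Fermat.Agent.Lib.S48

open UpperHalfPlane hiding I
open AlgebraicCurve IntermediateField Matrix.SpecialLinearGroup CongruenceSubgroup ModularGroup
open Fermat.Agent.Lib.FF Fermat.Agent.Lib.S29
open scoped MatrixGroups

noncomputable section

variable {N p : ℕ} [NeZero N] [NeZero p] {Γ : Subgroup SL(2, ℤ)}

/-- The `χ`-data of `HKLam` from the Eisenstein functions of `HKFun`. -/
theorem s48h_chiData (hG : s48h_GrpHyp N Γ) {χ : Additive Γ →+ ZMod p}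
    (hχ : χ ∈ s48h_Hpar (ZMod p) Γ (ZMod p)) :
    s48h_ChiData N Γ p χ (s48h_lfGa χ) (s48h_lfGb Γ) (s48h_lfA hG hχ) (s48h_lfB p hG) where
  chi_a := s48h_lfGa_isChiFun hG hχ
  chi_b := s48h_lfGb_isChiFun hG
  law_a γ z := by
    rw [s48h_lfGa_smul hG hχ γ z, s48h_lfChiC_coe]
    rfl
  law_b γ z := s48h_lfGb_smul hG γ z
  coe_A z := s48h_lfA_apply hG hχ z
  coe_B z := s48h_lfB_apply hG z

/-- **Lemma Λ, final form**: `κ_Γ` hits every element of `s48h_Hpar 𝔽_p Γ 𝔽_p`. -/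
theorem s48h_lambda_Hpar {K F : Type*} [Field K] [Field F] [Algebra K F] [CharZero K]
    [IsAlgClosed K] (x : F) [FFGen K x] {φ : F →+* ffm_E N} (hG : s48h_GrpHyp N Γ)
    (hB : s48h_BridgeHyp K N Γ p φ) (hpl : s48h_PlacesHyp K N Γ φ)
    (χ : Additive Γ →+ ZMod p) (hχ : χ ∈ s48h_Hpar (ZMod p) Γ (ZMod p)) :
    ∃ y : Pic0.torsion K F p, s48h_kappaG hG.le hB y = χ :=
  s48h_lambda x hG.le hB hpl (s48h_chiData hG hχ)

end

end Fermat.Agent.Lib.S48
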