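/-
DS-1 (S48), (DESC) assembly, part 3 (owner: helper5): the contract `s48desc_KappaCoreH` from

* the MODEL DATA over `ℂ` (`s48desc_ModelC`: the bridge `φ_H : F_{H,ℂ} → ffm_E M`, helper3's
  `s48h_BridgeHyp` / `s48h_GrpHyp` / `s48h_PlacesHyp` for `Γ_H`, generators `x0`, `x1` with `FFGen`)
  — to be supplied by [T5] (helper4 `KField`/`KDeg`) and [T5-PL] (helper9 `PlGen*`);
* the equivariance clauses (EQ) for `κ₀ = κ_{Γ_H} ∘ c_t` (helper3 `HKEq`), as hypotheses.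

`κ₀ = s48h_kappaG ∘ s48desc_ct` is injective (`s48h_kappaG_injective` + `s29c_c_injective`) and hits
`s48h_Hpar` (`s48h_lambda_Hpar` + surjectivity of `c_t` on the finite `ℓ`-torsion).
Mirror of the landed `Lib/S29/KappaAsm.lean` / `KappaFinal.lean`.
-/
import Fermat.Agent.Lib.S48.DescAsm
import Fermat.Agent.Lib.S48.DescDC
import Fermat.Agent.Lib.S48.HKGlue
import Fermat.Agent.Lib.S29.KappaFinal

set_option autoImplicit false
set_option linter.unusedSectionVars false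
set_option linter.style.haveILetI false

noncomputable section

namespace Fermat.Agent.Lib.S48

open UpperHalfPlane hiding I
open AlgebraicCurve ModularCurve IntermediateField CongruenceSubgroup
open Fermat.Agent.Lib.FF Fermat.Agent.Lib.S18 Fermat.Agent.Lib.S29
open scoped MatrixGroups Manifold

local notation "Qbar" => AlgebraicClosure ℚ

attribute [local instance] s29a_algebraC

/-- **The model data over `ℂ`** needed by the Kummer map of `Γ_H` at the prime `ℓ`. -/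
structure s48desc_ModelC (M : ℕ) [NeZero M] (H : Subgroup (ZMod M)ˣ) (ℓ : ℕ) where
  /-- the bridge `F_{H,ℂ} → ffm_E M`. -/
  φ : ↥(laurentBaseChange ℂ (s48k_FHQ M H)) →+* ffm_E M
  /-- a separating generator over `ℚ̄` … -/
  x0 : ↥(s48k_FH M H)
  /-- … and over `ℂ`. -/
  x1 : ↥(laurentBaseChange ℂ (s48k_FHQ M H))
  gen0 : FFGen Qbar x0
  gen1 : FFGen ℂ x1
  hx : s18q_map (algebraMap Qbar ℂ) (s48k_FHQ M H) x0 = x1
  grp : s48h_GrpHyp M (s48h_GammaH M H)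
  bridge : s48h_BridgeHyp ℂ M (s48h_GammaH M H) ℓ φ
  places : s48h_PlacesHyp ℂ M (s48h_GammaH M H) φ

variable {M : ℕ} [NeZero M] {H : Subgroup (ZMod M)ˣ} {ℓ : ℕ} [Fact ℓ.Prime]

/-- The base change `J_H(ℚ̄)[ℓ] → Pic⁰(F_{H,ℂ})[ℓ]`. -/
def s48desc_ctH (D : s48desc_ModelC M H ℓ) :
    s48k_JHl M H ℓ →+ Pic0.torsion ℂ ↥(laurentBaseChange ℂ (s48k_FHQ M H)) ℓ :=
  haveI := D.gen0
  haveI := D.gen1
  s48desc_ct (K0 := Qbar) (K1 := ℂ) (s48k_FHQ M H) D.x0 D.x1 ℓ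

/-- **`κ₀ = κ_{Γ_H} ∘ c_t`** on `J_H(ℚ̄)[ℓ]`. -/
def s48desc_kappaH (D : s48desc_ModelC M H ℓ) :
    s48k_JHl M H ℓ →+ (Additive (s48h_GammaH M H) →+ ZMod ℓ) :=
  haveI : NeZero ℓ := ⟨(Fact.out : ℓ.Prime).ne_zero⟩
  (s48h_kappaG D.grp.le D.bridge).comp (s48desc_ctH D)

theorem s48desc_kappaH_apply (D : s48desc_ModelC M H ℓ) (x : s48k_JHl M H ℓ) :
    s48desc_kappaH D x =
      (haveI : NeZero ℓ := ⟨(Fact.out : ℓ.Prime).ne_zero⟩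
       s48h_kappaG D.grp.le D.bridge (s48desc_ctH D x)) := rfl

theorem s48desc_kappaH_injective (D : s48desc_ModelC M H ℓ) :
    Function.Injective (s48desc_kappaH D) := by
  haveI : NeZero ℓ := ⟨(Fact.out : ℓ.Prime).ne_zero⟩
  haveI := D.gen0
  haveI := D.gen1
  exact (s48h_kappaG_injective D.grp.le D.bridge).comp
    (s48desc_ct_injective (K0 := Qbar) (K1 := ℂ) (s48k_FHQ M H) D.x0 D.x1 ℓ)

theorem s48desc_kappaH_surj (D : s48desc_ModelC M H ℓ)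
    (χ : Additive (s48h_GammaH M H) →+ ZMod ℓ)
    (hχ : χ ∈ s48h_Hpar (ZMod ℓ) (s48h_GammaH M H) (ZMod ℓ)) :
    ∃ x, s48desc_kappaH D x = χ := by
  haveI : NeZero ℓ := ⟨(Fact.out : ℓ.Prime).ne_zero⟩
  haveI := D.gen0
  haveI := D.gen1
  obtain ⟨y, hy⟩ := s48h_lambda_Hpar (K := ℂ) D.x1 D.grp D.bridge D.places χ hχ
  have hfin : Finite (Pic0.torsion ℂ ↥(laurentBaseChange ℂ (s48k_FHQ M H)) ℓ) :=
    s48h_finite_torsionG D.grp.le D.bridge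
  obtain ⟨x, rfl⟩ := s48desc_ct_surjective (K0 := Qbar) (K1 := ℂ) (s48k_FHQ M H) D.x0 D.x1
    D.hx ℓ hfin y
  exact ⟨x, hy⟩

/-- **Function-level characterisation of `κ₀`** (the interface for (EQ)): for `x = [D₀] ∈ J_H(ℚ̄)[ℓ]`,
`div f = ℓ • D₀` (`f ∈ F_H` over `ℚ̄`), any holomorphic data `φ_H (j f) = a / b` with `b` invariant under
`Γ_H` and any holomorphic `ℓ`-th root `A` of `a * b ^ (ℓ - 1)` with `A ∘ γ = ζ_ℓ ^ e · A`:
`κ₀ x γ = e`. -/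
theorem s48desc_kappaH_eq_of_fun (D : s48desc_ModelC M H ℓ) (x : s48k_JHl M H ℓ)
    (D₀ : Divisor.degZero (K := Qbar) (F := ↥(s48k_FH M H)))
    (hDx : Pic0.mk D₀ = (x : s48k_JH M H)) (f : ↥(s48k_FH M H)) (hf : f ≠ 0)
    (hD : ∀ v : Place Qbar ↥(s48k_FH M H),
      v.ord f = (ℓ : ℤ) * (D₀ : Divisor Qbar ↥(s48k_FH M H)) v)
    {a b A : ℍ → ℂ} (ha : MDiff a) (hb : MDiff b) (hA : MDiff A) (hb0 : ∃ τ, b τ ≠ 0)
    (hab : s29m_inclE M (D.φ (s18q_map (algebraMap Qbar ℂ) (s48k_FHQ M H) f)) * s29m_ofFun b hb =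
      s29m_ofFun a ha)
    (hbinv : ∀ γ : SL(2, ℤ), γ ∈ s48h_GammaH M H → ∀ z : ℍ, b (γ • z) = b z)
    (hAp : ∀ τ, A τ ^ ℓ = a τ * b τ ^ (ℓ - 1)) (γ : s48h_GammaH M H) (e : ZMod ℓ)
    (hAγ : ∀ τ, A ((γ : SL(2, ℤ)) • τ) =
      Complex.exp (2 * Real.pi * Complex.I / ℓ) ^ e.val * A τ) :
    s48desc_kappaH D x (Additive.ofMul γ) = e := by
  haveI : NeZero ℓ := ⟨(Fact.out : ℓ.Prime).ne_zero⟩
  haveI := D.gen0
  haveI := D.gen1
  obtain ⟨D', hcD', hord⟩ := s48desc_hc (K0 := Qbar) (K1 := ℂ) (s48k_FHQ M H) D.x0 D.x1 ℓ D₀ f hf hD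
  have hDx' : Pic0.mk D' =
      ((s48desc_ctH D x : Pic0.torsion ℂ ↥(laurentBaseChange ℂ (s48k_FHQ M H)) ℓ) :
        Pic0 ℂ ↥(laurentBaseChange ℂ (s48k_FHQ M H))) := by
    rw [← hcD', hDx]
    rfl
  rw [s48desc_kappaH_apply]
  exact s48h_kappaG_eq_of_fun D.grp.le D.bridge (s48desc_ctH D x) D' hDx'
    (s18q_map (algebraMap Qbar ℂ) (s48k_FHQ M H) f) ((map_ne_zero _).mpr hf) hord ha hb hA hb0 hab
    hbinv hAp γ e hAγ

/-- **`s48desc_KappaCoreH`** from the model data and the equivariance clauses (EQ). -/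
theorem s48desc_kappaCoreH_of
    (hmodel : ∀ (M N₁ ℓ₀ : ℕ) [NeZero M] (H : Subgroup (ZMod M)ˣ), s48k_Level M N₁ ℓ₀ H →
      ∀ (ℓ : ℕ) [Fact ℓ.Prime], ∃ D : s48desc_ModelC M H ℓ,
        (∀ (p : ℕ) [NeZero p] [Fact p.Prime] (pu : (ZMod M)ˣ) (hpM : ¬ p ∣ M), ¬ p ∣ M * ℓ →
          ((pu : (ZMod M)ˣ) : ZMod M) = (p : ZMod M) →
          ∀ (σp : SL(2, ℤ)) (hσp : σp ∈ Gamma0 M)
            (hσp11 : ((σp 1 1 : ℤ) : ZMod M) = (p : ZMod M)) (x : s48k_JHl M H ℓ),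
            s48desc_kappaH D (s48k_torsionEnd M H ℓ (s48k_TpJ M H p pu) x) =
              (s48h_TpDatum H hpM σp hσp hσp11).heckeHom (ZMod ℓ) (s48desc_kappaH D x)) ∧
        (∀ (d : (ZMod M)ˣ) (σ : SL(2, ℤ)) (hσ : σ ∈ Gamma0 M),
          ((σ 1 1 : ℤ) : ZMod M) = ((d : (ZMod M)ˣ) : ZMod M) → ∀ x : s48k_JHl M H ℓ,
            s48desc_kappaH D (s48k_torsionEnd M H ℓ (s48k_diamondJ M H d) x) =
              (s48h_diamondDatum H σ hσ).heckeHom (ZMod ℓ) (s48desc_kappaH D x))) :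
    s48desc_KappaCoreH := by
  intro M N₁ ℓ₀ _ H hL ℓ _
  obtain ⟨D, hT, hD⟩ := hmodel M N₁ ℓ₀ H hL ℓ
  exact ⟨s48desc_kappaH D, s48desc_kappaH_injective D, s48desc_kappaH_surj D, hT, hD⟩

/-- **`s48k_EigenSupportH`** from the model data and (EQ). -/
theorem s48desc_eigenSupportH_of
    (hmodel : ∀ (M N₁ ℓ₀ : ℕ) [NeZero M] (H : Subgroup (ZMod M)ˣ), s48k_Level M N₁ ℓ₀ H →
      ∀ (ℓ : ℕ) [Fact ℓ.Prime], ∃ D : s48desc_ModelC M H ℓ,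
        (∀ (p : ℕ) [NeZero p] [Fact p.Prime] (pu : (ZMod M)ˣ) (hpM : ¬ p ∣ M), ¬ p ∣ M * ℓ →
          ((pu : (ZMod M)ˣ) : ZMod M) = (p : ZMod M) →
          ∀ (σp : SL(2, ℤ)) (hσp : σp ∈ Gamma0 M)
            (hσp11 : ((σp 1 1 : ℤ) : ZMod M) = (p : ZMod M)) (x : s48k_JHl M H ℓ),
            s48desc_kappaH D (s48k_torsionEnd M H ℓ (s48k_TpJ M H p pu) x) =
              (s48h_TpDatum H hpM σp hσp hσp11).heckeHom (ZMod ℓ) (s48desc_kappaH D x)) ∧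
        (∀ (d : (ZMod M)ˣ) (σ : SL(2, ℤ)) (hσ : σ ∈ Gamma0 M),
          ((σ 1 1 : ℤ) : ZMod M) = ((d : (ZMod M)ˣ) : ZMod M) → ∀ x : s48k_JHl M H ℓ,
            s48desc_kappaH D (s48k_torsionEnd M H ℓ (s48k_diamondJ M H d) x) =
              (s48h_diamondDatum H σ hσ).heckeHom (ZMod ℓ) (s48desc_kappaH D x))) :
    s48k_EigenSupportH :=
  s48desc_eigenSupportH (s48desc_kappaCoreH_of hmodel)

end Fermat.Agent.Lib.S48
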