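/-
DS-1 (S48), wall [T5-PL] (helper9), part 1: the Γ-generic, model-abstract FIBRE ENGINE.

Port of the landed `Lib/S29/BXSqueeze.lean` from `(s29bp_FK K N, s29bp_phi ι N, Γ₀(N))` to an
arbitrary bridge: `K` algebraically closed with `ι : K →+* ℂ`, a function field `F / K`, a ring
homomorphism `φ : F →+* ffm_E N` and a subgroup `Γ ≤ SL₂(ℤ)` of finite index fixing `φ F`.
For a local model `s29bx_IsModel N w g e₀ (φ t)` (landed `BXModel`) and the degree hypotheses
`s48c_GDegHyp`, every place `v` of `F` above `t = 0` is realised by a coset `q ∈ SL₂(ℤ) ⧸ Γ`, with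
`ord_w (q.out • φ f) = m * v.ord f`, and the ramification is EXACT: `m * k = e₀`, `k` the size of
the `⟨g⟩`-orbit of `q` (norm trick + counting squeeze).
-/
import Fermat.Agent.Lib.S29.BXModel
import Fermat.Agent.Lib.FF.NormTrickPlace
import Fermat.Agent.Lib.FF.FFBasicIface
import Fermat.Agent.Lib.FF.Squeeze
import Fermat.Agent.Lib.FF.Fibres

set_option autoImplicit false
set_option linter.unusedSectionVars false
set_option linter.style.haveILetI false

namespace Fermat.Agent.Lib.S48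

open UpperHalfPlane hiding I
open AlgebraicCurve IntermediateField Matrix.SpecialLinearGroup CongruenceSubgroup ModularGroup
open Fermat.Agent.Lib.FF Fermat.Agent.Lib.S29
open scoped MatrixGroups
open WithZero

noncomputable section

variable {K F : Type*} [Field K] [Field F] [Algebra K F] (ι : K →+* ℂ) (N : ℕ)
  (Γ : Subgroup SL(2, ℤ)) (φ : F →+* ffm_E N)

/-- The embedding `σ_q = (q.out • ·) ∘ φ` attached to the coset `q ∈ SL₂(ℤ) ⧸ Γ`. -/
def s48c_gsigma (q : SL(2, ℤ) ⧸ Γ) : F →+* ffm_E N :=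
  (MulSemiringAction.toRingHom SL(2, ℤ) (ffm_E N) q.out).comp φ

@[simp] theorem s48c_gsigma_apply (q : SL(2, ℤ) ⧸ Γ) (f : F) :
    s48c_gsigma N Γ φ q f = q.out • φ f := rfl

/-- The bridge hypotheses: `φ` is `ι`-semilinear on constants and `φ F` is fixed by `Γ`. -/
structure s48c_GBridge : Prop where
  const : ∀ c : K, φ (algebraMap K F c) = algebraMap ℂ (ffm_E N) (ι c)
  inv : ∀ γ ∈ Γ, ∀ f : F, γ • φ f = φ f

/-- The degree package consumed by the engine: `j` is a separating coordinate of degree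
`[SL₂(ℤ) : Γ]`, it is sent to the modular invariant, and the embeddings `σ_q` are pairwise
distinct. -/
structure s48c_GDegHyp (K : Type*) {F : Type*} [Field K] [Field F] [Algebra K F] (N : ℕ)
    (Γ : Subgroup SL(2, ℤ)) (φ : F →+* ffm_E N) (j : F) : Prop where
  gen : FFGen K j
  finrank : Module.finrank K⟮j⟯ F = Γ.index
  inj : Function.Injective (s48c_gsigma N Γ φ)
  phi_j : φ j = algebraMap (ffm_R N) (ffm_E N) (ffc_J N)

variable {ι N Γ φ}

/-- `σ_{γ • q} f = γ • σ_q f`. -/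
theorem s48c_gsigma_smul (hB : s48c_GBridge ι N Γ φ) (γ : SL(2, ℤ)) (q : SL(2, ℤ) ⧸ Γ) (f : F) :
    s48c_gsigma N Γ φ (γ • q) f = γ • s48c_gsigma N Γ φ q f := by
  simp only [s48c_gsigma_apply]
  have hq : γ • q = ((γ * q.out : SL(2, ℤ)) : SL(2, ℤ) ⧸ Γ) := by
    conv_lhs => rw [← QuotientGroup.out_eq' q]
    rfl
  obtain ⟨h, hh⟩ := QuotientGroup.mk_out_eq_mul Γ (γ * q.out)
  rw [hq, hh, mul_smul, mul_smul, hB.inv _ h.2]

/-- If `γ • q = q` then `σ_q f` is `γ`-invariant. -/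
theorem s48c_gsmul_sigma_of_fixed (hB : s48c_GBridge ι N Γ φ) {γ : SL(2, ℤ)} {q : SL(2, ℤ) ⧸ Γ}
    (hq : γ • q = q) (f : F) : γ • s48c_gsigma N Γ φ q f = s48c_gsigma N Γ φ q f := by
  rw [← s48c_gsigma_smul hB, hq]

/-- `γ • q = q` in terms of representatives. -/
theorem s48c_gsmul_eq_iff {γ : SL(2, ℤ)} {q : SL(2, ℤ) ⧸ Γ} :
    γ • q = q ↔ q.out⁻¹ * γ * q.out ∈ Γ := by
  have h0 : γ • q = ((γ * q.out : SL(2, ℤ)) : SL(2, ℤ) ⧸ Γ) := by
    conv_lhs => rw [← QuotientGroup.out_eq' q]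
    rfl
  rw [h0]
  conv_lhs => rhs; rw [← QuotientGroup.out_eq' q]
  rw [eq_comm, QuotientGroup.eq, ← mul_assoc]

/-- `g ^ k` fixes `q`, where `k` is the size of the orbit of `q` under `⟨g⟩`; moreover `k` divides
every exponent `k'` with `g ^ k' • q = q`. -/
theorem s48c_gpow_card_orbit {X : Type*} [MulAction SL(2, ℤ) X] (g : SL(2, ℤ)) (q : X)
    [Finite (MulAction.orbit (Subgroup.zpowers (MulAction.toPerm g : Equiv.Perm X)) q)] :
    g ^ Nat.card (MulAction.orbit (Subgroup.zpowers (MulAction.toPerm g : Equiv.Perm X)) q) • q = q ∧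
    ∀ k' : ℕ, g ^ k' • q = q →
      Nat.card (MulAction.orbit (Subgroup.zpowers (MulAction.toPerm g : Equiv.Perm X)) q) ∣ k' := by
  classical
  have := Fintype.ofFinite
    (MulAction.orbit (Subgroup.zpowers (MulAction.toPerm g : Equiv.Perm X)) q)
  rw [Nat.card_eq_fintype_card, ← MulAction.minimalPeriod_eq_card]
  have h2 : ∀ n : ℕ, (MulAction.toPerm g : Equiv.Perm X) ^ n = MulAction.toPerm (g ^ n) := by
    intro n
    ext x
    rw [Equiv.Perm.coe_pow]
    exact congrFun (smul_iterate g n) x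
  constructor
  · have h := Function.isPeriodicPt_minimalPeriod
      ((MulAction.toPerm g : Equiv.Perm X) • ·) q
    rw [Function.IsPeriodicPt, Function.IsFixedPt, smul_iterate] at h
    rw [h2] at h
    exact h
  · intro k' hk'
    apply Function.IsPeriodicPt.minimalPeriod_dvd
    rw [Function.IsPeriodicPt, Function.IsFixedPt, smul_iterate, h2]
    exact hk'

/-- **The Γ-generic fibre engine with exact ramification.** -/
theorem s48c_gfibre [NeZero N] [IsAlgClosed K] [Γ.FiniteIndex] (hB : s48c_GBridge ι N Γ φ)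
    (hinj : Function.Injective (s48c_gsigma N Γ φ))
    (t : F) [FFGen K t] (hrank : Module.finrank K⟮t⟯ F = Γ.index)
    {w : Valuation (ffm_E N) ℤᵐ⁰} {g : SL(2, ℤ)} {e₀ : ℕ}
    (hM : s29bx_IsModel N w g e₀ (φ t))
    (v : Place K F) (hv : 0 < v.ord t) :
    ∃ (q : SL(2, ℤ) ⧸ Γ) (m k : ℕ), 0 < m ∧ m * k = e₀ ∧ g ^ k • q = q ∧
      (∀ k' : ℕ, g ^ k' • q = q → k ∣ k') ∧
      ∀ f : F, f ≠ 0 → ffi_ord w (s48c_gsigma N Γ φ q f) = (m : ℤ) * v.ord f := by
  classical
  haveI : CharZero K := (RingHom.charZero_iff ι.injective).mpr inferInstance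
  haveI : Finite (SL(2, ℤ) ⧸ Γ) := Subgroup.finite_quotient_of_finiteIndex
  letI : Fintype (SL(2, ℤ) ⧸ Γ) := Fintype.ofFinite _
  have hcard : Fintype.card (SL(2, ℤ) ⧸ Γ) = Γ.index := by
    rw [Subgroup.index, Nat.card_eq_fintype_card]
  set δ : Equiv.Perm (SL(2, ℤ) ⧸ Γ) := MulAction.toPerm g with hδdef
  set ν : SL(2, ℤ) ⧸ Γ → F → ℤ := fun q f => ffi_ord w (s48c_gsigma N Γ φ q f) with hν
  have ht_inv : ∀ q : SL(2, ℤ) ⧸ Γ, s48c_gsigma N Γ φ q t = φ t := fun q => by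
    rw [s48c_gsigma_apply, hM.t_inv]
  have hconst : ∀ (q : SL(2, ℤ) ⧸ Γ) (c : K), s48c_gsigma N Γ φ q (algebraMap K F c)
      = algebraMap ℂ (ffm_E N) (ι c) := fun q c => by
    rw [s48c_gsigma_apply, hB.const, smul_algebraMap]
  -- the hypotheses of the squeeze
  have hδ : ∀ q, ν (δ q) = ν q := by
    intro q
    funext f
    show ffi_ord w (s48c_gsigma N Γ φ (g • q) f) = ffi_ord w (s48c_gsigma N Γ φ q f)
    rw [s48c_gsigma_smul hB, ffi_ord, ffi_ord, hM.w_smul]
  have hub : ∀ q, ν q t ≤ e₀ := by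
    intro q
    show ffi_ord w (s48c_gsigma N Γ φ q t) ≤ e₀
    rw [ht_inv]
    exact hM.t_ub
  have hdiv : ∀ q f, f ≠ 0 →
      (e₀ : ℤ) ∣ (Nat.card (MulAction.orbit (Subgroup.zpowers δ) q) : ℤ) * ν q f := by
    intro q f hf
    have hfix := (s48c_gpow_card_orbit g q).1
    have hx : s48c_gsigma N Γ φ q f ≠ 0 := (map_ne_zero _).mpr hf
    exact hM.t3 _ hx _ (s48c_gsmul_sigma_of_fixed hB hfix f)
  have hNT := ffn_ifaceNormTrick (K := K) (F := F) t
  have hsurj : ∀ v : Place K F, 0 < v.ord t →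
      ∃ q, ∃ m : ℤ, 0 < m ∧ ∀ f, f ≠ 0 → ν q f = m * v.ord f := by
    intro v hv
    refine hNT (ffm_E N) (SL(2, ℤ) ⧸ Γ) (s48c_gsigma N Γ φ) w hinj
      (by rw [hcard, hrank]) ?_ ?_ ?_ ?_ v hv
    · intro x y
      rw [ht_inv, ht_inv]
    · intro x y c
      rw [hconst, hconst]
    · intro x c hc
      rw [hconst]
      exact hM.w_const _ ((map_ne_zero ι).mpr hc)
    · intro x
      rw [ht_inv]
      exact hM.t_lt
  -- the fundamental identity
  obtain ⟨P, hP, hsum⟩ := ff_fibreSum K t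
  rw [hrank, ← hcard] at hsum
  have hsq := ffs_card_places t δ ν e₀ P (fun v hv => (hP v).mp hv) hsum hδ hub hdiv
    (fun v hv => hsurj v ((hP v).mp hv))
  -- exactness
  obtain ⟨q, m, hm, hq⟩ := hsurj v hv
  have hk := hsq.2 v ((hP v).mpr hv) q ⟨m, hm, hq⟩
  set k : ℕ := Nat.card (MulAction.orbit (Subgroup.zpowers δ) q) with hkdef
  have ht0 : t ≠ 0 := by
    rintro rfl
    rw [Place.ord_zero] at hv
    exact lt_irrefl _ hv
  have h1 : m * (k : ℤ) ≤ e₀ := by
    have := hub q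
    rw [hq t ht0, hk] at this
    exact this
  obtain ⟨π, hπ0, hπ⟩ := ffs_exists_ord_eq_one v
  have h2 : (e₀ : ℤ) ≤ (k : ℤ) * m := by
    have hd := hdiv q π hπ0
    rw [hq π hπ0, hπ, mul_one] at hd
    have hkpos : 0 < k := by
      have : 0 < v.ord t := hv
      rw [hk] at this
      exact_mod_cast this
    exact Int.le_of_dvd (by positivity) hd
  have h3 : m * (k : ℤ) = e₀ := le_antisymm h1 (by rw [mul_comm]; exact h2)
  refine ⟨q, m.toNat, k, ?_, ?_, ?_, ?_, ?_⟩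
  · omega
  · have hm' : ((m.toNat : ℕ) : ℤ) = m := Int.toNat_of_nonneg hm.le
    have : ((m.toNat * k : ℕ) : ℤ) = (e₀ : ℤ) := by
      push_cast
      rw [hm', h3]
    exact_mod_cast this
  · exact (s48c_gpow_card_orbit g q).1
  · exact (s48c_gpow_card_orbit g q).2
  · intro f hf
    have hm' : ((m.toNat : ℕ) : ℤ) = m := Int.toNat_of_nonneg hm.le
    rw [hm']
    exact hq f hf

end

end Fermat.Agent.Lib.S48
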