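/-
DS-1 (S48), wall [T5-PL] (helper9), part 2: EVERY place of `F` comes from a point of `ℍ ∪ {∞}` and
a translate `σ ∈ SL₂(ℤ)`, with exact ramification index — the Γ-generic, model-abstract port of the
landed `Lib/S29/BXMain.lean` (`s29bx_places`) and of `s29l_placesHyp` (σ-form).

* `s48c_gplaces_q`: coset form (`q ∈ SL₂(ℤ) ⧸ Γ`);
* `s48c_gplaces`: σ-form, = `s29l_PlacesHyp` with `Gamma0 N` replaced by `Γ`, with minimality of `k`;
* `s48c_gplaces_free`: if `Γ` has no elliptic elements (`σ⁻¹ S σ ∉ Γ`, `σ⁻¹ (S T) σ ∉ Γ`) every place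
  is either unramified over a point of `ℍ` or lies over the cusp `∞`.
-/
import Fermat.Agent.Lib.S48.PlGen

set_option autoImplicit false
set_option linter.unusedSectionVars false
set_option linter.style.haveILetI false

namespace Fermat.Agent.Lib.S48

open UpperHalfPlane hiding I
open AlgebraicCurve IntermediateField Matrix.SpecialLinearGroup CongruenceSubgroup ModularGroup
open Fermat.Agent.Lib.FF Fermat.Agent.Lib.S29
open Fermat.Agent.Lib.RR (E4 E6)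
open scoped MatrixGroups
open WithZero

noncomputable section

variable {K F : Type*} [Field K] [Field F] [Algebra K F] {ι : K →+* ℂ} {N : ℕ}
  {Γ : Subgroup SL(2, ℤ)} {φ : F →+* ffm_E N}

/-- the image of `j - c` under the bridge -/
theorem s48c_gphi_j_sub (hB : s48c_GBridge ι N Γ φ) {j : F}
    (hj : φ j = algebraMap (ffm_R N) (ffm_E N) (ffc_J N)) (c : K) :
    φ (j - algebraMap K F c) = s29bx_jSub N (ι c) := by
  rw [map_sub, hj, hB.const, s29bx_jSub, map_sub,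
    ← IsScalarTower.algebraMap_apply ℂ (ffm_R N) (ffm_E N)]

/-- the image of `j⁻¹` under the bridge -/
theorem s48c_gphi_j_inv {j : F} (hj : φ j = algebraMap (ffm_R N) (ffm_E N) (ffc_J N)) :
    φ j⁻¹ = (algebraMap (ffm_R N) (ffm_E N) (ffc_J N))⁻¹ := by
  rw [map_inv₀, hj]

variable [NeZero N] [IsAlgClosed K] [Γ.FiniteIndex]

/-- **[T5-PL], coset form**: every place of `F` is realised by a point of `ℍ ∪ {∞}` and a coset,
with exact ramification: at a generic point `m = 1`; at `i`, `ρ`, `∞` one has `m * k = 2, 3, N`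
where `k` is the exact order of `g` (`g = S, ST, T`) at the coset `q`. -/
theorem s48c_gplaces_q (hB : s48c_GBridge ι N Γ φ) {j : F} (hdeg : s48c_GDegHyp K N Γ φ j)
    (v : Place K F) :
    (∃ (τ : ℍ) (q : SL(2, ℤ) ⧸ Γ), E4 τ ≠ 0 ∧ E6 τ ≠ 0 ∧ ∀ f : F, f ≠ 0 →
        ffi_ord (ffm_ordAt N τ) (q.out • φ f) = v.ord f) ∨
    (∃ (q : SL(2, ℤ) ⧸ Γ) (m k : ℕ), m * k = 2 ∧ (S : SL(2, ℤ)) ^ k • q = q ∧
      (∀ k' : ℕ, (S : SL(2, ℤ)) ^ k' • q = q → k ∣ k') ∧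
      ∀ f : F, f ≠ 0 →
        ffi_ord (ffm_ordAt N UpperHalfPlane.I) (q.out • φ f) = (m : ℤ) * v.ord f) ∨
    (∃ (q : SL(2, ℤ) ⧸ Γ) (m k : ℕ), m * k = 3 ∧ (S * T : SL(2, ℤ)) ^ k • q = q ∧
      (∀ k' : ℕ, (S * T : SL(2, ℤ)) ^ k' • q = q → k ∣ k') ∧
      ∀ f : F, f ≠ 0 →
        ffi_ord (ffm_ordAt N RR.Ramanujan.rho) (q.out • φ f) = (m : ℤ) * v.ord f) ∨
    (∃ (q : SL(2, ℤ) ⧸ Γ) (m k : ℕ), m * k = N ∧ (T : SL(2, ℤ)) ^ k • q = q ∧
      (∀ k' : ℕ, (T : SL(2, ℤ)) ^ k' • q = q → k ∣ k') ∧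
      ∀ f : F, f ≠ 0 →
        ffi_ord (ffm_ordInf N) (q.out • φ f) = (m : ℤ) * v.ord f) := by
  haveI : CharZero K := (RingHom.charZero_iff ι.injective).mpr inferInstance
  haveI := hdeg.gen
  have hrank_sub : ∀ c : K, Module.finrank K⟮j - algebraMap K F c⟯ F = Γ.index := fun c => by
    rw [ffi_finrank_sub_const, hdeg.finrank]
  have hrank_inv : Module.finrank K⟮j⁻¹⟯ F = Γ.index := by
    rw [ffi_finrank_inv, hdeg.finrank]
  rcases ff_centre K j v with ⟨c, hc⟩ | hinf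
  · by_cases hc0 : c = 0
    · -- the point `ρ`
      subst hc0
      right; right; left
      have hM : s29bx_IsModel N (ffm_ordAt N RR.Ramanujan.rho) (S * T) 3
          (φ (j - algebraMap K F 0)) := by
        rw [s48c_gphi_j_sub hB hdeg.phi_j, map_zero]
        exact s29bx_model_rho
      obtain ⟨q, m, k, -, hmk, hgk, hmin, hq⟩ :=
        s48c_gfibre hB hdeg.inj _ (hrank_sub 0) hM v hc
      exact ⟨q, m, k, hmk, hgk, hmin, hq⟩
    by_cases hc1 : c = 1728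
    · -- the point `i`
      subst hc1
      right; left
      have hM : s29bx_IsModel N (ffm_ordAt N UpperHalfPlane.I) S 2
          (φ (j - algebraMap K F 1728)) := by
        rw [s48c_gphi_j_sub hB hdeg.phi_j, map_ofNat]
        exact s29bx_model_I
      obtain ⟨q, m, k, -, hmk, hgk, hmin, hq⟩ :=
        s48c_gfibre hB hdeg.inj _ (hrank_sub 1728) hM v hc
      exact ⟨q, m, k, hmk, hgk, hmin, hq⟩
    · -- a generic point
      left
      obtain ⟨τ₀, hτ⟩ := ffj_surjective (ι c)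
      have h4 : E4 τ₀ ≠ 0 := by
        rw [Ne, ← ffj_eq_zero_iff, hτ, map_eq_zero]
        exact hc0
      have h6 : E6 τ₀ ≠ 0 := by
        rw [Ne, ← ffj_eq_1728_iff, hτ]
        intro h
        apply hc1
        apply ι.injective
        rw [h, map_ofNat]
      have hM : s29bx_IsModel N (ffm_ordAt N τ₀) 1 1 (φ (j - algebraMap K F c)) := by
        rw [s48c_gphi_j_sub hB hdeg.phi_j, ← hτ]
        exact s29bx_model_generic τ₀ h4 h6
      obtain ⟨q, m, k, -, hmk, -, -, hq⟩ := s48c_gfibre hB hdeg.inj _ (hrank_sub c) hM v hc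
      refine ⟨τ₀, q, h4, h6, fun f hf => ?_⟩
      have hm1 : m = 1 := Nat.eq_one_of_mul_eq_one_right hmk
      have := hq f hf
      rw [hm1, Nat.cast_one, one_mul] at this
      exact this
  · -- the cusp `∞`
    right; right; right
    have hM : s29bx_IsModel N (ffm_ordInf N) T N (φ j⁻¹) := by
      rw [s48c_gphi_j_inv hdeg.phi_j]
      exact s29bx_model_inf
    have hv : 0 < v.ord j⁻¹ := by
      rw [v.ord_inv]
      omega
    obtain ⟨q, m, k, -, hmk, hgk, hmin, hq⟩ := s48c_gfibre hB hdeg.inj _ hrank_inv hM v hv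
    exact ⟨q, m, k, hmk, hgk, hmin, hq⟩

/-- conjugation and powers -/
theorem s48c_gconj_pow (σ g : SL(2, ℤ)) (k : ℕ) : σ⁻¹ * g ^ k * σ = (σ⁻¹ * g * σ) ^ k := by
  induction k with
  | zero => simp
  | succ n ih => rw [pow_succ, pow_succ, ← ih]; group

/-- **[T5-PL], σ-form** (= `s29l_PlacesHyp` with `Gamma0 N` replaced by `Γ`, plus minimality of
`k`). -/
theorem s48c_gplaces (hB : s48c_GBridge ι N Γ φ) {j : F} (hdeg : s48c_GDegHyp K N Γ φ j)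
    (v : Place K F) :
    (∃ (τ : ℍ) (σ : SL(2, ℤ)), ∀ f : F, f ≠ 0 →
        ffi_ord (ffm_ordAt N τ) (σ • φ f) = v.ord f)
    ∨ (∃ (σ : SL(2, ℤ)) (m k : ℕ), m * k = 2 ∧ σ⁻¹ * S ^ k * σ ∈ Γ ∧
        (∀ k' : ℕ, σ⁻¹ * S ^ k' * σ ∈ Γ → k ∣ k') ∧ ∀ f : F, f ≠ 0 →
        ffi_ord (ffm_ordAt N UpperHalfPlane.I) (σ • φ f) = (m : ℤ) * v.ord f)
    ∨ (∃ (σ : SL(2, ℤ)) (m k : ℕ), m * k = 3 ∧ σ⁻¹ * (S * T) ^ k * σ ∈ Γ ∧
        (∀ k' : ℕ, σ⁻¹ * (S * T) ^ k' * σ ∈ Γ → k ∣ k') ∧ ∀ f : F, f ≠ 0 →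
        ffi_ord (ffm_ordAt N RR.Ramanujan.rho) (σ • φ f) = (m : ℤ) * v.ord f)
    ∨ (∃ (σ : SL(2, ℤ)) (m k : ℕ), m * k = N ∧ σ⁻¹ * T ^ k * σ ∈ Γ ∧
        (∀ k' : ℕ, σ⁻¹ * T ^ k' * σ ∈ Γ → k ∣ k') ∧ ∀ f : F, f ≠ 0 →
        ffi_ord (ffm_ordInf N) (σ • φ f) = (m : ℤ) * v.ord f) := by
  rcases s48c_gplaces_q hB hdeg v with ⟨τ, q, -, -, hv⟩ | ⟨q, m, k, hmk, hq, hmin, hv⟩ |
    ⟨q, m, k, hmk, hq, hmin, hv⟩ | ⟨q, m, k, hmk, hq, hmin, hv⟩
  · exact Or.inl ⟨τ, q.out, hv⟩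
  · exact Or.inr (Or.inl ⟨q.out, m, k, hmk, s48c_gsmul_eq_iff.mp hq,
      fun k' hk' => hmin k' (s48c_gsmul_eq_iff.mpr hk'), hv⟩)
  · exact Or.inr (Or.inr (Or.inl ⟨q.out, m, k, hmk, s48c_gsmul_eq_iff.mp hq,
      fun k' hk' => hmin k' (s48c_gsmul_eq_iff.mpr hk'), hv⟩))
  · exact Or.inr (Or.inr (Or.inr ⟨q.out, m, k, hmk, s48c_gsmul_eq_iff.mp hq,
      fun k' hk' => hmin k' (s48c_gsmul_eq_iff.mpr hk'), hv⟩))

/-- **[T5-PL] for `Γ` without elliptic elements**: every place of `F` is either unramified over a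
point of `ℍ`, or lies over the cusp `∞` with exact ramification (`m * k = N`, `k` the width of the
cusp `σ ∞` in `Γ`). -/
theorem s48c_gplaces_free (hB : s48c_GBridge ι N Γ φ) {j : F} (hdeg : s48c_GDegHyp K N Γ φ j)
    (hS : ∀ σ : SL(2, ℤ), σ⁻¹ * S * σ ∉ Γ) (hST : ∀ σ : SL(2, ℤ), σ⁻¹ * (S * T) * σ ∉ Γ)
    (v : Place K F) :
    (∃ (τ : ℍ) (σ : SL(2, ℤ)), ∀ f : F, f ≠ 0 →
        ffi_ord (ffm_ordAt N τ) (σ • φ f) = v.ord f)
    ∨ (∃ (σ : SL(2, ℤ)) (m k : ℕ), m * k = N ∧ σ⁻¹ * T ^ k * σ ∈ Γ ∧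
        (∀ k' : ℕ, σ⁻¹ * T ^ k' * σ ∈ Γ → k ∣ k') ∧ ∀ f : F, f ≠ 0 →
        ffi_ord (ffm_ordInf N) (σ • φ f) = (m : ℤ) * v.ord f) := by
  rcases s48c_gplaces hB hdeg v with ⟨τ, σ, hv⟩ | ⟨σ, m, k, hmk, hσ, -, hv⟩ |
    ⟨σ, m, k, hmk, hσ, -, hv⟩ | h
  · exact Or.inl ⟨τ, σ, hv⟩
  · left
    refine ⟨UpperHalfPlane.I, σ, fun f hf => ?_⟩
    have hk : k ≠ 1 := by
      rintro rfl
      rw [pow_one] at hσ
      exact hS σ hσ
    have hk2 : k ∣ 2 := Dvd.intro_left m hmk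
    have hk' : k = 2 := by
      rcases (Nat.dvd_prime Nat.prime_two).mp hk2 with h | h
      · exact absurd h hk
      · exact h
    subst hk'
    have hm : m = 1 := by omega
    rw [hv f hf, hm, Nat.cast_one, one_mul]
  · left
    refine ⟨RR.Ramanujan.rho, σ, fun f hf => ?_⟩
    have hk : k ≠ 1 := by
      rintro rfl
      rw [pow_one] at hσ
      exact hST σ hσ
    have hk3 : k ∣ 3 := Dvd.intro_left m hmk
    have hk' : k = 3 := by
      rcases (Nat.dvd_prime Nat.prime_three).mp hk3 with h | h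
      · exact absurd h hk
      · exact h
    subst hk'
    have hm : m = 1 := by omega
    rw [hv f hf, hm, Nat.cast_one, one_mul]
  · exact Or.inr h

end

end Fermat.Agent.Lib.S48
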