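/-
DS-1 (S48), (DESC) assembly, part 4 (owner: helper5): the model data `s48desc_ModelC` from
helper9's [T5-PL] hypothesis shapes (`s48c_GBridge`, `s48c_GDegHyp`) and [INV].

* `s48desc_grpHyp` : `s48h_GrpHyp M Γ_H` when `-1 ∈ H`;
* `s48desc_placesHyp_of_gplaces` : helper9's `s48c_gplaces` ⇒ helper3's `s48h_PlacesHyp`;
* `s48desc_bridgeHyp` : `s48h_BridgeHyp` from `s48c_GBridge` + `FFGen` + [INV] (the `ord` and `const`
  fields are the landed generic `s29m_bridge_ord`, `s29m_bridge_const`);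
* `s48desc_modelC_of` : the structure.
-/
import Fermat.Agent.Lib.S48.DescKappa
import Fermat.Agent.Lib.S48.PlGenMain

set_option autoImplicit false
set_option linter.unusedSectionVars false
set_option linter.style.haveILetI false

noncomputable section

namespace Fermat.Agent.Lib.S48

open UpperHalfPlane hiding I
open AlgebraicCurve ModularCurve IntermediateField CongruenceSubgroup ModularGroup
open Fermat.Agent.Lib.FF Fermat.Agent.Lib.S18 Fermat.Agent.Lib.S29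
open scoped MatrixGroups Manifold

local notation "Qbar" => AlgebraicClosure ℚ

attribute [local instance] s29a_algebraC

/-- `Γ(M) ≤ Γ_H`, `-1 ∈ Γ_H` (as `-1 ∈ H`), `T ∈ Γ_H`. -/
theorem s48desc_grpHyp (M : ℕ) [NeZero M] (H : Subgroup (ZMod M)ˣ) (hneg : (-1 : (ZMod M)ˣ) ∈ H) :
    s48h_GrpHyp M (s48h_GammaH M H) where
  le := fun γ hγ => s48h_Gamma1_le_GammaH (N := M) (H := H) (by
    rw [Gamma_mem] at hγ
    rw [Gamma1_mem]
    exact ⟨hγ.1, hγ.2.2.2, hγ.2.2.1⟩)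
  neg := by
    refine ⟨?_, -1, hneg, ?_⟩
    · rw [Gamma0_mem]; simp
    · simp
  T_mem := s48h_Gamma1_le_GammaH (N := M) (H := H) (by
    rw [Gamma1_mem]; simp [ModularGroup.T])

section Generic

variable {K F : Type*} [Field K] [Field F] [Algebra K F] {ι : K →+* ℂ} {N : ℕ}
  {Γ : Subgroup SL(2, ℤ)} {φ : F →+* ffm_E N}

/-- helper9's classification of places gives helper3's `s48h_PlacesHyp`. -/
theorem s48desc_placesHyp_of_gplaces [NeZero N] [IsAlgClosed K] [Γ.FiniteIndex]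
    (hB : s48c_GBridge ι N Γ φ) {j : F} (hdeg : s48c_GDegHyp K N Γ φ j) :
    s48h_PlacesHyp K N Γ φ := by
  intro v
  rcases s48c_gplaces hB hdeg v with h | ⟨σ, m, k, hmk, hσ, -, hv⟩ |
    ⟨σ, m, k, hmk, hσ, -, hv⟩ | ⟨σ, m, k, hmk, hσ, -, hv⟩
  · exact Or.inl h
  · exact Or.inr (Or.inl ⟨σ, m, k, hmk, hσ, hv⟩)
  · exact Or.inr (Or.inr (Or.inl ⟨σ, m, k, hmk, hσ, hv⟩))
  · exact Or.inr (Or.inr (Or.inr ⟨σ, m, k, hmk, hσ, hv⟩))

/-- helper3's `s48h_BridgeHyp` from helper9's `s48c_GBridge`, a function-field generator and [INV]. -/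
theorem s48desc_bridgeHyp [CharZero K] [IsAlgClosed K] (p : ℕ) (x : F) [FFGen K x]
    (hB : s48c_GBridge ι N Γ φ)
    (hfixed : ∀ y : ffm_E N, (∀ γ : SL(2, ℤ), γ ∈ Γ → γ • y = y) → ∃ h : F, φ h = y) :
    s48h_BridgeHyp K N Γ p φ where
  inv h γ hγ := hB.inv γ hγ h
  fixed := hfixed
  ord h hh D hD τ := s29m_bridge_ord φ (fun c => ⟨ι c, hB.const c⟩) p h hh D hD τ
  const h _ hord := s29m_bridge_const x φ (fun c => ⟨ι c, hB.const c⟩) h hord

end Generic

/-- **The model data** from the [T5]/[T5-PL] deliverables over `ℂ`: the bridge `φ_H`, a coordinate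
`j0 ∈ F_H` with `FFGen` over `ℚ̄` whose base change `j1` has the degree package over `ℂ`, and [INV]. -/
def s48desc_modelC_of (M : ℕ) [NeZero M] (H : Subgroup (ZMod M)ˣ) (ℓ : ℕ)
    (hneg : (-1 : (ZMod M)ˣ) ∈ H)
    (φ : ↥(laurentBaseChange ℂ (s48k_FHQ M H)) →+* ffm_E M)
    (j0 : ↥(s48k_FH M H)) (hj0 : FFGen Qbar j0)
    (hB : s48c_GBridge (RingHom.id ℂ) M (s48h_GammaH M H) φ)
    (hdeg : s48c_GDegHyp ℂ M (s48h_GammaH M H) φ
      (s18q_map (algebraMap Qbar ℂ) (s48k_FHQ M H) j0))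
    (hfixed : ∀ y : ffm_E M, (∀ γ : SL(2, ℤ), γ ∈ s48h_GammaH M H → γ • y = y) →
      ∃ h : ↥(laurentBaseChange ℂ (s48k_FHQ M H)), φ h = y) :
    s48desc_ModelC M H ℓ :=
  haveI := hdeg.gen
  { φ := φ
    x0 := j0
    x1 := s18q_map (algebraMap Qbar ℂ) (s48k_FHQ M H) j0
    gen0 := hj0
    gen1 := hdeg.gen
    hx := rfl
    grp := s48desc_grpHyp M H hneg
    bridge := s48desc_bridgeHyp ℓ (s18q_map (algebraMap Qbar ℂ) (s48k_FHQ M H) j0) hB hfixed
    places := s48desc_placesHyp_of_gplaces hB hdeg }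

end Fermat.Agent.Lib.S48
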