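/-
S48 (Deligne–Serre), wall [T8] (helper8): the TWISTED norm congruence.

On the Kummer layer `F_H` the norm of `β y` along `α` is, in the `t`-coordinate (`q = t^p`),
`g(t^p) = y₁(t^{p²}) · ∏_{b<p} y₂(ζ^b t)` with `y₁ = y` and `y₂ = ⟨p⟩⁻¹ y` (two DIFFERENT series).
If `y₁, y₂` have coefficients in a valuation subring `A` with residue map `π : A →+* κ` (`κ` perfect of
characteristic `p`), then so has `g`, and `ḡ = (Fr⁻¹ ȳ₁)^p · Fr ȳ₂`.  (Two-series version of `s37e_norm_reduction`.)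
-/
import Fermat.Agent.Lib.S37.ENorm

set_option autoImplicit false

namespace Fermat.Agent.Lib.S48

open ModularCurve HahnSeries Fermat.Agent.Lib.S28 Fermat.Agent.Lib.S37

noncomputable section

variable {L : Type*} [Field L] (A : ValuationSubring L)

/-- **Twisted norm congruence.** -/
theorem s48e_norm_reduction_two {κ : Type*} [Field κ] (ℓ : ℕ) [hℓ : Fact ℓ.Prime] [CharP κ ℓ]
    [PerfectRing κ ℓ] (π : ↥A →+* κ) (ζ : Lˣ) (hζ : IsPrimitiveRoot (ζ : L) ℓ)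
    (Y₁ Y₂ : LaurentSeries ↥A) (g : LaurentSeries L)
    (hW : qExpand L ℓ g = qExpand L (ℓ * ℓ) (coeffMap A.subtype Y₁) *
      s37e_prodTw ℓ ζ (coeffMap A.subtype Y₂)) :
    ∃ G : LaurentSeries ↥A, coeffMap A.subtype G = g ∧
      coeffMap π G =
        (coeffMap ((frobeniusEquiv κ ℓ).symm : κ →+* κ) (coeffMap π Y₁)) ^ ℓ *
          coeffMap (frobenius κ ℓ) (coeffMap π Y₂) := by
  have hℓ0 : 0 < ℓ := hℓ.out.pos
  have hζℓ : ζ ^ ℓ = 1 := by
    apply Units.ext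
    rw [Units.val_pow_eq_pow_val, hζ.pow_eq_one, Units.val_one]
  set ζA : (↥A)ˣ := s37e_unitOfRoot A hℓ0 ζ hζℓ with hζA
  have hζA' : IsPrimitiveRoot ((ζA : ↥A)) ℓ := by
    refine IsPrimitiveRoot.of_map_of_injective (f := A.subtype) ?_ A.subtype_injective
    exact hζ
  have hζAℓ : ζA ^ ℓ = 1 := by
    apply Units.ext
    rw [Units.val_pow_eq_pow_val, hζA'.pow_eq_one, Units.val_one]
  obtain ⟨Z, hZ⟩ := s37e_exists_qExpand_eq_prodTw ℓ ζA hζA' Y₂
  refine ⟨qExpand ↥A ℓ Y₁ * Z, ?_, ?_⟩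
  · apply qExpand_injective (R := L) ℓ
    rw [hW, ← coeffMap_qExpand, map_mul, hZ, map_mul, coeffMap_qExpand,
      coeffMap_qExpand, qExpand_qExpand, s37e_coeffMap_prodTw', s37e_map_unitOfRoot]
  · rw [map_mul, coeffMap_qExpand,
      s37e_coeffMap_normFactor ℓ ζA π (s37e_map_zeta ℓ ζA hζAℓ π) Y₂ Z hZ, s37e_qExpand_eq_pow ℓ]

end

end Fermat.Agent.Lib.S48
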