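/-
S48 (Deligne–Serre), wall [T8] (helper8): GENERIC Eichler–Shimura engine, part 2: the relation on divisors of
Gauss units (step (I1) of the S37 E-chain, with a twist).

`α β : F →ₐ[L] F'` integral, `T := α_* β^*` (`Divisor.correspondence β α`).  Inputs: a place reduction `r`, the norm
formula along `α`, the TWISTED norm product formula
`(Nm_α (β y))(q^p) = y(q^{p²}) · ∏_{i<p} (d y)(ζ^i q)` for a map `d : F → F` (the diamond `⟨p⟩⁻¹` on the layer), and a
semilinear automorphism `δ` of `Fb` which is the reduction of `d` on integral elements.  Output, for the divisor `D` of a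
Gauss unit: `r_*(T D) = (Ψ δ) • r_* D + p • Ψ⁻¹ • r_* D`, `Ψ` the coefficientwise Frobenius of `Fb`.
-/
import Fermat.Agent.Lib.S48.EGenDefs
import Fermat.Agent.Lib.S48.ENormTw
import Fermat.Prelude.Def_AlgebraicCurve_Correspondence

set_option autoImplicit false
set_option linter.style.haveILetI false

namespace Fermat.Agent.Lib.S48

open ModularCurve HahnSeries AlgebraicCurve IntermediateField Fermat.Agent.Lib.S28
  Fermat.Agent.Lib.S37

noncomputable section

variable {L : Type*} [Field L] {F F' : IntermediateField L (LaurentSeries L)}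

/-- The norm along `α : F → F'`. -/
def s48e_normAlong (α : ↥F →ₐ[L] ↥F') (x : ↥F') : ↥F :=
  letI := algebraAlong α
  Algebra.norm ↥F x

set_option maxHeartbeats 1600000 in
/-- `α_* β^* (div f) = div (Nm_α (β f))`. -/
theorem s48e_corr_principal (α β : ↥F →ₐ[L] ↥F') (hα : α.toRingHom.IsIntegral)
    (hβ : β.toRingHom.IsIntegral) [HasPrincipalDivisors L ↥F']
    (hfin : FiniteAlong L α) (hN : NormFormulaAlong L α hfin)
    (f : ↥F) (hf : f ≠ 0) (D : Divisor L ↥F) (hD : ∀ P, D P = P.ord f) (P : Place L ↥F) :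
    Divisor.correspondence β α hβ hα D P = P.ord (s48e_normAlong α (β f)) := by
  have hβf : β f ≠ 0 := by
    intro h
    apply hf
    exact β.toRingHom.injective (by rw [AlgHom.toRingHom_eq_coe, RingHom.coe_coe, h, map_zero])
  have hpull : ∀ w : Place L ↥F', Divisor.pullbackAlong β hβ D w = w.ord (β f) := by
    intro w
    letI := algebraAlong β
    haveI := isScalarTower_along β
    haveI := isIntegral_along β hβ
    exact Divisor.pullback_apply_eq_ord hD w
  show Divisor.pushforwardAlong α hα (Divisor.pullbackAlong β hβ D) P = _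
  letI := algebraAlong α
  haveI := isScalarTower_along α
  haveI := isIntegral_along α hα
  haveI : Module.Finite ↥F ↥F' := hfin
  exact hN (β f) hβf _ hpull P

section Principal

variable (A : ValuationSubring L) {κ : Type*} [Field κ] (π : ↥A →+* κ)
  {p : ℕ} [hp : Fact p.Prime] [CharP κ p] [PerfectRing κ p]
  {Fb : IntermediateField κ (LaurentSeries κ)} (hst : s48e_CoeffStable Fb)

/-- The Frobenius semilinear automorphism `Ψ` of `Fb`. -/
def s48e_psi (p : ℕ) [Fact p.Prime] [CharP κ p] [PerfectRing κ p] : SemilinearAut κ ↥Fb :=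
  s48e_coeffAut hst (frobeniusEquiv κ p)

theorem s48e_coe_psi_smul (z : ↥Fb) :
    ((s48e_psi hst p • z : ↥Fb) : LaurentSeries κ) =
      coeffMap (frobenius κ p) (z : LaurentSeries κ) := by
  rw [s48e_psi, s48e_coe_coeffAut_smul]
  exact coeffMap_congr (RingHom.ext fun a => by simp) _

theorem s48e_coe_psi_inv_smul (z : ↥Fb) :
    (((s48e_psi hst p)⁻¹ • z : ↥Fb) : LaurentSeries κ) =
      coeffMap ((frobeniusEquiv κ p).symm : κ →+* κ) (z : LaurentSeries κ) := by
  rw [s48e_psi, s48e_coe_coeffAut_inv_smul]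

set_option maxHeartbeats 1600000 in
/-- **(I1), twisted**: the Eichler–Shimura relation on the divisor of a Gauss unit. -/
theorem s48e_es_principal (r : Place L ↥F → Place κ ↥Fb) (hr : s48e_IsPlaceRed A π F Fb r)
    (α β : ↥F →ₐ[L] ↥F') (hα : α.toRingHom.IsIntegral) (hβ : β.toRingHom.IsIntegral)
    [HasPrincipalDivisors L ↥F']
    (hfin : FiniteAlong L α) (hN : NormFormulaAlong L α hfin)
    (ζ : Lˣ) (hζ : IsPrimitiveRoot (ζ : L) p)
    (d : ↥F → ↥F) (δ : SemilinearAut κ ↥Fb)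
    (hW : ∀ y : ↥F,
      qExpand L p ((s48e_normAlong α (β y) : ↥F) : LaurentSeries L) =
        qExpand L (p * p) (y : LaurentSeries L) * s37e_prodTw p ζ ((d y : ↥F) : LaurentSeries L))
    (Y : LaurentSeries ↥A) (hY : coeffMap A.subtype Y ∈ F) (hYk : coeffMap π Y ∈ Fb)
    (hY0 : coeffMap π Y ≠ 0)
    (hdY : ∃ Y' : LaurentSeries ↥A,
      coeffMap A.subtype Y' = ((d ⟨coeffMap A.subtype Y, hY⟩ : ↥F) : LaurentSeries L) ∧
      coeffMap π Y' = ((δ • (⟨coeffMap π Y, hYk⟩ : ↥Fb) : ↥Fb) : LaurentSeries κ))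
    (D : Divisor L ↥F) (hD : ∀ P, D P = P.ord (⟨coeffMap A.subtype Y, hY⟩ : ↥F)) :
    s48e_redDiv r (Divisor.correspondence β α hβ hα D) =
      (s48e_psi hst p * δ) • s48e_redDiv r D + p • ((s48e_psi hst p)⁻¹ • s48e_redDiv r D) := by
  classical
  set f : ↥F := ⟨coeffMap A.subtype Y, hY⟩ with hfdef
  have hf : f ≠ 0 := by
    intro h
    apply hY0
    have h1 : coeffMap A.subtype Y = 0 := congrArg Subtype.val h
    have h2 : Y = 0 := s37e_coeffMap_subtype_injective A (by rw [h1, map_zero])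
    rw [h2, map_zero]
  set g := s48e_normAlong α (β f) with hgdef
  obtain ⟨Y', hY'1, hY'2⟩ := hdY
  obtain ⟨G, hG1, hG2⟩ := s48e_norm_reduction_two A p π ζ hζ Y Y' (g : LaurentSeries L)
    (by rw [hY'1]; exact hW f)
  have hGmem : coeffMap A.subtype G ∈ F := by
    rw [hG1]; exact g.2
  set z : ↥Fb := ⟨coeffMap π Y, hYk⟩ with hzdef
  have hz : z ≠ 0 := fun h => hY0 (congrArg Subtype.val h)
  set Ψ := s48e_psi hst p with hΨ
  have hGz : coeffMap π G = (((Ψ⁻¹ • z) ^ p * ((Ψ * δ) • z) : ↥Fb) : LaurentSeries κ) := by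
    rw [hG2, hY'2]
    push_cast
    rw [mul_smul, s48e_coe_psi_smul, s48e_coe_psi_inv_smul]
  have hGk : coeffMap π G ∈ Fb := by
    rw [hGz]; exact Subtype.property _
  have hG0 : coeffMap π G ≠ 0 := by
    rw [hGz]
    intro h
    have h1 : ((Ψ⁻¹ • z) ^ p * ((Ψ * δ) • z) : ↥Fb) = 0 := Subtype.ext h
    rcases mul_eq_zero.mp h1 with h2 | h2
    · have h3 := pow_eq_zero_iff (hp.out.ne_zero) |>.mp h2
      apply hz
      have := congrArg (Ψ • ·) h3
      simpa using this
    · apply hz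
      have := congrArg ((Ψ * δ)⁻¹ • ·) h2
      simpa using this
  -- the Hecke image is the divisor of `g`
  have hE : ∀ P, Divisor.correspondence β α hβ hα D P =
      P.ord (⟨coeffMap A.subtype G, hGmem⟩ : ↥F) := by
    intro P
    rw [s48e_corr_principal α β hα hβ hfin hN f hf D hD P]
    congr 1
    exact Subtype.ext hG1.symm
  set X : Divisor κ ↥Fb := s48e_redDiv r D with hX
  have c1 : ∀ Q, s48e_redDiv r (Divisor.correspondence β α hβ hα D) Q =
      Q.ord (⟨coeffMap π G, hGk⟩ : ↥Fb) :=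
    fun Q => hr.2 G hGmem hGk hG0 (Divisor.correspondence β α hβ hα D) hE Q
  have c2 : ∀ Q', X Q' = Q'.ord z := fun Q' => hr.2 Y hY hYk hY0 D hD Q'
  have hGz' : (⟨coeffMap π G, hGk⟩ : ↥Fb) = (Ψ⁻¹ • z) ^ p * ((Ψ * δ) • z) := Subtype.ext hGz
  refine Finsupp.ext fun Q => ?_
  have e1 : Q.ord ((Ψ⁻¹ • z) ^ p * ((Ψ * δ) • z)) =
      p * (Ψ • Q).ord z + ((Ψ * δ)⁻¹ • Q).ord z :=
    s48e_ord_es p Ψ (Ψ * δ) Q hz hz
  have e3 : ((Ψ * δ) • X) Q = X ((Ψ * δ)⁻¹ • Q) := SemilinearAut.divisor_smul_apply (Ψ * δ) X Q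
  have e4 : (Ψ⁻¹ • X) Q = X (Ψ • Q) := by
    have := SemilinearAut.divisor_smul_apply Ψ⁻¹ X Q
    rwa [inv_inv] at this
  have e5 : (p • (Ψ⁻¹ • X)) Q = p * (Ψ⁻¹ • X) Q := by
    rw [← nsmul_eq_mul]
    exact Finsupp.smul_apply p (Ψ⁻¹ • X) Q
  have e2 : ((Ψ * δ) • X + p • (Ψ⁻¹ • X)) Q = ((Ψ * δ) • X) Q + (p • (Ψ⁻¹ • X)) Q :=
    Finsupp.add_apply _ _ _
  rw [c1 Q, hGz', e1, e2, e3, e5, e4, c2, c2]
  ring

end Principal

end

end Fermat.Agent.Lib.S48
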