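/-
S48 (Deligne–Serre), wall [T8] (helper8): GENERIC Eichler–Shimura engine, part 3: the relation for ALL divisors and on
`Pic⁰` (steps (I2), (I3) of the S37 E-chain, with a twist):

  `r_* (α_* β^* D) = (Ψ δ) • r_* D + p • Ψ⁻¹ • r_* D`,

from the relation on divisors of Gauss units (`s48e_es_principal`), the generation of principal divisors by integral ones,
weak Riemann and the bounded-homomorphism lemma `s37e_eq_of_bounded`.
-/
import Fermat.Agent.Lib.S48.EGenFun
import Fermat.Agent.Lib.S48.EGenOn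
import Fermat.Agent.Lib.S37.EDiv

set_option autoImplicit false
set_option linter.style.haveILetI false
set_option linter.unusedSectionVars false

namespace Fermat.Agent.Lib.S48

open ModularCurve HahnSeries AlgebraicCurve IntermediateField Fermat.Agent.Lib.S28
  Fermat.Agent.Lib.S37

noncomputable section

variable {L : Type*} [Field L] {F F' : IntermediateField L (LaurentSeries L)}

/-! ### The correspondence is effective of degree `[F' : β F]` -/

section Main

set_option maxHeartbeats 800000 in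
theorem s48e_corr_single_nonneg (α β : ↥F →ₐ[L] ↥F') (hα : α.toRingHom.IsIntegral)
    (hβ : β.toRingHom.IsIntegral) [HasPrincipalDivisors L ↥F'] (P Q : Place L ↥F) :
    0 ≤ Divisor.correspondence β α hβ hα (Finsupp.single P 1) Q := by
  classical
  show 0 ≤ Divisor.pushforwardAlong α hα (Divisor.pullbackAlong β hβ (Finsupp.single P 1)) Q
  rw [Divisor.pullbackAlong_single, map_sum, Finsupp.finsetSum_apply]
  refine Finset.sum_nonneg fun W _ => ?_
  rw [Divisor.pushforwardAlong_single, Finsupp.single_apply]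
  split_ifs
  · positivity
  · exact le_rfl

set_option maxHeartbeats 800000 in
theorem s48e_total_corr_single (α β : ↥F →ₐ[L] ↥F') (hα : α.toRingHom.IsIntegral)
    (hβ : β.toRingHom.IsIntegral) [HasPrincipalDivisors L ↥F']
    (hFI : FundamentalIdentityAlong L β hβ) (hdeg : ∀ P : Place L ↥F, P.deg = 1)
    (P : Place L ↥F) :
    s37e_total (Divisor.correspondence β α hβ hα (Finsupp.single P 1)) =
      (finrankAlong L β : ℤ) := by
  rw [← s37e_degree_eq_total hdeg]
  rw [Divisor.degree_correspondence _ _ _ _ hFI, Divisor.degree_single, hdeg, Nat.cast_one,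
    mul_one, mul_one]

end Main

/-! ### The Eichler–Shimura relation on all divisors -/

section ES

variable (A : ValuationSubring L) {κ : Type*} [Field κ] (π : ↥A →+* κ)
  {p : ℕ} [hp : Fact p.Prime] [CharP κ p] [PerfectRing κ p]
  {Fb : IntermediateField κ (LaurentSeries κ)} (hst : s48e_CoeffStable Fb)

/-- The correspondence `Ψδ + p Ψ⁻¹` ("twisted Frobenius plus Verschiebung") on divisors of `Fb`. -/
def s48e_frobVer (p : ℕ) [Fact p.Prime] [CharP κ p] [PerfectRing κ p] (δ : SemilinearAut κ ↥Fb) :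
    Divisor κ ↥Fb →+ Divisor κ ↥Fb :=
  DistribSMul.toAddMonoidHom (Divisor κ ↥Fb) (s48e_psi hst p * δ) +
    p • DistribSMul.toAddMonoidHom (Divisor κ ↥Fb) (s48e_psi hst p)⁻¹

theorem s48e_frobVer_apply (δ : SemilinearAut κ ↥Fb) (E : Divisor κ ↥Fb) :
    s48e_frobVer hst p δ E = (s48e_psi hst p * δ) • E + p • ((s48e_psi hst p)⁻¹ • E) :=
  rfl

theorem s48e_frobVer_single (δ : SemilinearAut κ ↥Fb) (Q : Place κ ↥Fb) :
    s48e_frobVer hst p δ (Finsupp.single Q 1) =
      Finsupp.single ((s48e_psi hst p * δ) • Q) (1 : ℤ) +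
        p • Finsupp.single ((s48e_psi hst p)⁻¹ • Q) (1 : ℤ) := by
  rw [s48e_frobVer_apply, SemilinearAut.smul_single, SemilinearAut.smul_single]

set_option maxHeartbeats 1600000 in
/-- The two correspondences agree on principal divisors. -/
theorem s48e_es_agree (r : Place L ↥F → Place κ ↥Fb) (hr : s48e_IsPlaceRed A π F Fb r)
    (α β : ↥F →ₐ[L] ↥F') (hα : α.toRingHom.IsIntegral) (hβ : β.toRingHom.IsIntegral)
    [HasPrincipalDivisors L ↥F']
    (hfin : FiniteAlong L α) (hN : NormFormulaAlong L α hfin)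
    (ζ : Lˣ) (hζ : IsPrimitiveRoot (ζ : L) p)
    (d : ↥F → ↥F) (δ : SemilinearAut κ ↥Fb)
    (S : LaurentSeries ↥A → Prop) (hgenS : s48e_PrinGenOn A π F Fb S)
    (hd : ∀ (Y : LaurentSeries ↥A) (hY : coeffMap A.subtype Y ∈ F) (hYk : coeffMap π Y ∈ Fb),
      S Y → ∃ Y' : LaurentSeries ↥A,
        coeffMap A.subtype Y' = ((d ⟨coeffMap A.subtype Y, hY⟩ : ↥F) : LaurentSeries L) ∧
        coeffMap π Y' = ((δ • (⟨coeffMap π Y, hYk⟩ : ↥Fb) : ↥Fb) : LaurentSeries κ))
    (hW : ∀ y : ↥F,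
      qExpand L p ((s48e_normAlong α (β y) : ↥F) : LaurentSeries L) =
        qExpand L (p * p) (y : LaurentSeries L) * s37e_prodTw p ζ ((d y : ↥F) : LaurentSeries L))
    (D : Divisor L ↥F) (hD : D ∈ Divisor.principal (K := L) (F := ↥F)) :
    s48e_redDiv r (Divisor.correspondence β α hβ hα D) = s48e_frobVer hst p δ (s48e_redDiv r D) := by
  have hD' := hgenS hD
  clear hD
  induction hD' using AddSubgroup.closure_induction with
  | mem E hE =>
    obtain ⟨Y, hY, hSY, hYk, hY0, hE⟩ := hE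
    rw [s48e_frobVer_apply]
    exact s48e_es_principal A π hst r hr α β hα hβ hfin hN ζ hζ d δ hW Y hY hYk hY0
      (hd Y hY hYk hSY) E hE
  | zero => rw [map_zero, map_zero, map_zero]
  | add E E' _ _ hE hE' => rw [map_add, map_add, hE, hE', map_add, map_add]
  | neg E _ hE => rw [map_neg, map_neg, hE, map_neg, map_neg]

set_option maxHeartbeats 1600000 in
/-- **(I2), twisted**: the Eichler–Shimura relation `r_* ∘ T = (Ψδ + p Ψ⁻¹) ∘ r_*` on ALL divisors. -/
theorem s48e_es_div (r : Place L ↥F → Place κ ↥Fb) (hr : s48e_IsPlaceRed A π F Fb r)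
    (α β : ↥F →ₐ[L] ↥F') (hα : α.toRingHom.IsIntegral) (hβ : β.toRingHom.IsIntegral)
    [HasPrincipalDivisors L ↥F'] [HasPrincipalDivisors L ↥F]
    (hfin : FiniteAlong L α) (hN : NormFormulaAlong L α hfin)
    (ζ : Lˣ) (hζ : IsPrimitiveRoot (ζ : L) p)
    (d : ↥F → ↥F) (δ : SemilinearAut κ ↥Fb)
    (S : LaurentSeries ↥A → Prop) (hgenS : s48e_PrinGenOn A π F Fb S)
    (hd : ∀ (Y : LaurentSeries ↥A) (hY : coeffMap A.subtype Y ∈ F) (hYk : coeffMap π Y ∈ Fb),
      S Y → ∃ Y' : LaurentSeries ↥A,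
        coeffMap A.subtype Y' = ((d ⟨coeffMap A.subtype Y, hY⟩ : ↥F) : LaurentSeries L) ∧
        coeffMap π Y' = ((δ • (⟨coeffMap π Y, hYk⟩ : ↥Fb) : ↥Fb) : LaurentSeries κ))
    (hW : ∀ y : ↥F,
      qExpand L p ((s48e_normAlong α (β y) : ↥F) : LaurentSeries L) =
        qExpand L (p * p) (y : LaurentSeries L) * s37e_prodTw p ζ ((d y : ↥F) : LaurentSeries L))
    (hFI : FundamentalIdentityAlong L β hβ) (hrank : finrankAlong L β = p + 1)
    (hdeg : ∀ P : Place L ↥F, P.deg = 1)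
    (hRI : ∃ γ : ℕ, ∀ D : Divisor L ↥F, (γ : ℤ) ≤ Divisor.degree D →
        ∃ f : ↥F, f ≠ 0 ∧ ∀ P : Place L ↥F, 0 ≤ D P + P.ord f)
    (h3 : ∃ P₁ P₂ P₃, r P₁ ≠ r P₂ ∧ r P₁ ≠ r P₃ ∧ r P₂ ≠ r P₃)
    (D : Divisor L ↥F) :
    s48e_redDiv r (Divisor.correspondence β α hβ hα D) =
      (s48e_psi hst p * δ) • s48e_redDiv r D + p • ((s48e_psi hst p)⁻¹ • s48e_redDiv r D) := by
  classical
  obtain ⟨P₁, P₂, P₃, h12, h13, h23⟩ := h3
  haveI : Nonempty (Place L ↥F) := ⟨P₁⟩
  set Λ₁ : Divisor L ↥F →+ Divisor κ ↥Fb :=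
    (s48e_redDiv r).comp (Divisor.correspondence β α hβ hα) with hΛ₁def
  set Λ₂ : Divisor L ↥F →+ Divisor κ ↥Fb :=
    (s48e_frobVer hst p δ).comp (s48e_redDiv r) with hΛ₂def
  have hΛ₁ : ∀ E, Λ₁ E = s48e_redDiv r (Divisor.correspondence β α hβ hα E) := fun _ => rfl
  have hΛ₂ : ∀ E, Λ₂ E = s48e_frobVer hst p δ (s48e_redDiv r E) := fun _ => rfl
  have hΛ₂s : ∀ P, Λ₂ (Finsupp.single P 1) =
      Finsupp.single ((s48e_psi hst p * δ) • r P) (1 : ℤ) +
        p • Finsupp.single ((s48e_psi hst p)⁻¹ • r P) (1 : ℤ) := by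
    intro P
    rw [hΛ₂, s48e_redDiv_single, s48e_frobVer_single]
  have key : Λ₁ = Λ₂ := by
    refine s37e_eq_of_bounded (Divisor.principal (K := L) (F := ↥F))
      Divisor.degree ?_ s37e_degree_principal (s37e_riemann_convert hRI) Λ₁ Λ₂ ?_ ?_ ?_
      ((p : ℤ) + 1) ?_ ?_ ?_
    · intro P
      rw [Divisor.degree_single, hdeg, Nat.cast_one, mul_one]
    · intro E hE
      rw [hΛ₁, hΛ₂]
      exact s48e_es_agree A π hst r hr α β hα hβ hfin hN ζ hζ d δ S hgenS hd hW E hE
    · intro P Q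
      rw [hΛ₁]
      exact s37e_mapDomain_nonneg r _ (s48e_corr_single_nonneg α β hα hβ P) Q
    · intro P Q
      rw [hΛ₂s]
      exact s37e_single_add_nsmul_nonneg _ _ _ _
    · intro P
      have h1 : s37e_total (Λ₁ (Finsupp.single P 1)) =
          s37e_total (Divisor.correspondence β α hβ hα (Finsupp.single P 1)) :=
        s37e_total_mapDomain r _
      rw [h1, s48e_total_corr_single α β hα hβ hFI hdeg, hrank]
      push_cast
      ring
    · intro P
      rw [hΛ₂s]
      exact s37e_total_single_add_nsmul _ _ _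
    · intro Q
      obtain ⟨P, hP1, hP2⟩ := s37e_exists_avoid r P₁ P₂ P₃ h12 h13 h23
        ((s48e_psi hst p * δ)⁻¹ • Q) (s48e_psi hst p • Q)
      refine ⟨P, ?_⟩
      rw [hΛ₂s]
      refine s37e_single_add_nsmul_eq_zero (fun h => hP1 ?_) (fun h => hP2 ?_) p
      · rw [← h, inv_smul_smul]
      · rw [← h, smul_inv_smul]
  have := DFunLike.congr_fun key D
  rw [hΛ₁, hΛ₂, s48e_frobVer_apply] at this
  exact this

end ES

end

end Fermat.Agent.Lib.S48
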