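/-
S48 (Deligne–Serre), wall [T8] (helper8): GENERIC Eichler–Shimura engine, part 4: the relation on `Pic⁰`,

  `red (T z) = (Ψ δ) • red z + p • Ψ⁻¹ • red z`,      `T = Pic0.correspondence β α` (`= α_* β^*`),

and the formal consequence `red (S² y − T' S y + p • E y) = 0` for operators `S` (Frobenius lift), `E` (diamond),
`T' = E ∘ T` with `red ∘ S = Ψ • red`, `red ∘ E = δ⁻¹ • red`, `Ψ δ = δ Ψ`.
-/
import Fermat.Agent.Lib.S48.EGenDiv
import Fermat.Agent.Lib.S37.EPic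

set_option autoImplicit false
set_option linter.style.haveILetI false
set_option linter.unusedSectionVars false

namespace Fermat.Agent.Lib.S48

open ModularCurve HahnSeries AlgebraicCurve IntermediateField Fermat.Agent.Lib.S28
  Fermat.Agent.Lib.S37

noncomputable section

variable {L : Type*} [Field L] {F F' : IntermediateField L (LaurentSeries L)}
variable (A : ValuationSubring L) {κ : Type*} [Field κ] (π : ↥A →+* κ)
  {p : ℕ} [hp : Fact p.Prime] [CharP κ p] [PerfectRing κ p]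
  {Fb : IntermediateField κ (LaurentSeries κ)} (hst : s48e_CoeffStable Fb)

set_option maxHeartbeats 1600000 in
/-- **(I3), twisted**: the Eichler–Shimura relation on `Pic⁰`, general form. -/
theorem s48e_es_pic0 (r : Place L ↥F → Place κ ↥Fb) (hr : s48e_IsPlaceRed A π F Fb r)
    (hgen : s48e_PrinGen A π F Fb)
    (α β : ↥F →ₐ[L] ↥F') (hα : α.toRingHom.IsIntegral) (hβ : β.toRingHom.IsIntegral)
    [HasPrincipalDivisors L ↥F'] [HasPrincipalDivisors L ↥F]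
    (hfin : FiniteAlong L α) (hN : NormFormulaAlong L α hfin)
    (ζ : Lˣ) (hζ : IsPrimitiveRoot (ζ : L) p)
    (d : ↥F → ↥F) (δ : SemilinearAut κ ↥Fb)
    (S : LaurentSeries ↥A → Prop) (hgenS : s48e_PrinGenOn A π F Fb S)
    (hd : ∀ (Y : LaurentSeries ↥A) (hY : coeffMap A.subtype Y ∈ F) (hYk : coeffMap π Y ∈ Fb),
      S Y → ∃ Y' : LaurentSeries ↥A,
        coeffMap A.subtype Y' = ((d ⟨coeffMap A.subtype Y, hY⟩ : ↥F) : LaurentSeries L) ∧
        coeffMap π Y' = ((δ • (⟨coeffMap π Y, hYk⟩ : ↥Fb) : ↥Fb) : LaurentSeries κ))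
    (hW : ∀ y : ↥F,
      qExpand L p ((s48e_normAlong α (β y) : ↥F) : LaurentSeries L) =
        qExpand L (p * p) (y : LaurentSeries L) * s37e_prodTw p ζ ((d y : ↥F) : LaurentSeries L))
    (hFI : FundamentalIdentityAlong L β hβ) (hrank : finrankAlong L β = p + 1)
    (hdeg : ∀ P : Place L ↥F, P.deg = 1)
    (hRI : ∃ γ : ℕ, ∀ D : Divisor L ↥F, (γ : ℤ) ≤ Divisor.degree D →
        ∃ f : ↥F, f ≠ 0 ∧ ∀ P : Place L ↥F, 0 ≤ D P + P.ord f)
    (h3 : ∃ P₁ P₂ P₃, r P₁ ≠ r P₂ ∧ r P₁ ≠ r P₃ ∧ r P₂ ≠ r P₃)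
    (z : Pic0 L ↥F) :
    s48e_redPic0 r hr hgen (Pic0.correspondence β α hβ hα hFI hfin hN z) =
      (s48e_psi hst p * δ) • s48e_redPic0 r hr hgen z +
        p • ((s48e_psi hst p)⁻¹ • s48e_redPic0 r hr hgen z) := by
  obtain ⟨D, rfl⟩ := Pic0.mk_surjective z
  rw [Pic0.correspondence_mk, s48e_redPic0_mk, s48e_redPic0_mk]
  rw [SemilinearAut.pic0_smul_mk, SemilinearAut.pic0_smul_mk]
  rw [← s37e_pic0_mk_nsmul, ← Pic0.mk_add]
  refine congrArg Pic0.mk (Subtype.ext ?_)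
  rw [AddSubgroup.coe_add, AddSubgroup.coe_nsmul, SemilinearAut.coe_degZeroSMulHom,
    SemilinearAut.coe_degZeroSMulHom, s48e_coe_redDegZero, s48e_coe_redDegZero,
    Pic0.coe_degZeroCorrespondence]
  exact s48e_es_div A π hst r hr α β hα hβ hfin hN ζ hζ d δ S hgenS hd hW hFI hrank hdeg hRI h3
    (D : Divisor L ↥F)

/-- The formal computation `Ψ² − δ⁻¹(Ψδ + p Ψ⁻¹)Ψ + p δ⁻¹ = 0`:
if `red ∘ S = Ψ • red`, `red ∘ E = ε • red`, `red ∘ T = Ψ ε⁻¹ • red + p • Ψ⁻¹ • red` and `Ψ`, `ε` commute, then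
`red (S (S y) − E (T (S y)) + p • E y) = 0`.  (`S` = a Frobenius lift, `E` = the diamond `⟨p⟩`, `T = α_* β^*`,
so `E ∘ T` is the classical `T_p`.) -/
theorem s48e_r3_algebra {G X Y : Type*} [Group G] [AddCommGroup X] [AddCommGroup Y]
    [DistribMulAction G Y] (red : X →+ Y) (S T E : X → X) (Ψ ε : G) (n : ℕ)
    (hcomm : Ψ * ε = ε * Ψ)
    (hS : ∀ x, red (S x) = Ψ • red x) (hE : ∀ x, red (E x) = ε • red x)
    (hT : ∀ x, red (T x) = (Ψ * ε⁻¹) • red x + n • (Ψ⁻¹ • red x)) (y : X) :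
    red (S (S y) - E (T (S y)) + (n : ℤ) • E y) = 0 := by
  rw [map_add, map_sub, map_zsmul, hS, hS, hE, hT, hS, hE, inv_smul_smul, natCast_zsmul,
    smul_add, smul_smul, smul_smul, smul_smul]
  have h1 : ε * (Ψ * ε⁻¹) * Ψ = Ψ * Ψ := by
    rw [← mul_assoc, ← hcomm, mul_assoc Ψ ε, mul_inv_cancel, mul_one]
  have h2 : ε • n • red y = n • ε • red y := smul_comm ε n (red y)
  rw [h1, h2]
  abel

end

end Fermat.Agent.Lib.S48
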