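/-
S48 (Deligne–Serre), wall [T8] (helper8): GENERIC Eichler–Shimura engine, part 5: the "Hecke inputs" for finite
embeddings of function fields over an algebraically closed field of characteristic zero (generic form of
`Lib/S37/HInputs`), and the packaged relation on `Pic⁰` for function fields `F, F' ⊆ K((q))` of `FFGen` type.

`K` algebraically closed of characteristic zero, `F` (resp. `F'`) a finite extension of `K(x)` (resp. `K(x')`),
`φ : F →ₐ[K] F'` finite: then `φ` is integral, the fundamental identity and the norm formula hold along `φ`,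
`F`, `F'` have principal divisors, all places have degree one, and weak Riemann holds.
-/
import Fermat.Agent.Lib.S48.EGenPic
import Fermat.Agent.Lib.S37.HNorm
import Fermat.Agent.Lib.S37.IRiemann

set_option autoImplicit false
set_option linter.style.haveILetI false
set_option linter.unusedSectionVars false

noncomputable section

open IsDedekindDomain AlgebraicCurve ModularCurve HahnSeries IntermediateField
open Fermat.Agent.Lib.FF Fermat.Agent.Lib.S37 Fermat.Agent.Lib.S28

namespace Fermat.Agent.Lib.S48

section General

variable {K F F' : Type*} [Field K] [Field F] [Field F'] [Algebra K F] [Algebra K F']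
  [CharZero K] [IsAlgClosed K]

/-- a finite extension of `K(x)` has principal divisors. -/
theorem s48e_hasPrincipalDivisors (x : F) [FFGen K x] : HasPrincipalDivisors K F :=
  ⟨fun f hf => s37i_exists_divisor (K := K) x f hf⟩

/-- a finite `K`-embedding is integral -/
theorem s48e_isIntegral_of_finiteAlong (φ : F →ₐ[K] F') (hfin : FiniteAlong K φ) :
    φ.toRingHom.IsIntegral := by
  letI := algebraAlong φ
  haveI : Module.Finite F F' := hfin
  exact (Algebra.IsIntegral.of_finite F F').isIntegral

/-- the fundamental identity along a finite `K`-embedding -/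
theorem s48e_fundamentalIdentityAlong (x : F) [FFGen K x] (x' : F') [FFGen K x']
    [HasPrincipalDivisors K F'] (φ : F →ₐ[K] F')
    (hfin : FiniteAlong K φ) (hφ : φ.toRingHom.IsIntegral) : FundamentalIdentityAlong K φ hφ := by
  letI := algebraAlong φ
  haveI := isScalarTower_along φ
  haveI := isIntegral_along φ hφ
  haveI : Module.Finite F F' := hfin
  haveI : CharZero F := charZero_of_injective_algebraMap (algebraMap K F).injective
  haveI : SumRamificationInertia K F F' :=
    s37h_sumRamificationInertia (fun v => ff_residue_surjective K x v)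
      (fun w => ff_deg_eq_one K x' w)
  show FundamentalIdentity K F F'
  infer_instance

/-- the norm formula along a finite `K`-embedding -/
theorem s48e_normFormulaAlong (x : F) [FFGen K x] (x' : F') [FFGen K x']
    [HasPrincipalDivisors K F'] (φ : F →ₐ[K] F')
    (hfin : FiniteAlong K φ) : NormFormulaAlong K φ hfin := by
  letI := algebraAlong φ
  haveI := isScalarTower_along φ
  haveI : Module.Finite F F' := hfin
  haveI : CharZero F := charZero_of_injective_algebraMap (algebraMap K F).injective
  show Divisor.PushforwardNormFormula K F F'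
  exact s37h_pushforwardNormFormula (fun v => ff_residue_surjective K x v)
    (fun w => ff_deg_eq_one K x' w)

end General

/-! ### The packaged relation -/

section Packaged

variable {L : Type*} [Field L] [CharZero L] [IsAlgClosed L]
  {F F' : IntermediateField L (LaurentSeries L)}
variable (A : ValuationSubring L) {κ : Type*} [Field κ] (π : ↥A →+* κ)
  {p : ℕ} [hp : Fact p.Prime] [CharP κ p] [PerfectRing κ p]
  {Fb : IntermediateField κ (LaurentSeries κ)} (hst : s48e_CoeffStable Fb)

set_option maxHeartbeats 1600000 in
/-- **The twisted Eichler–Shimura relation on `Pic⁰`, packaged**: `F`, `F'` finite over `L(x)`, `L(x')`; `α`, `β` finite,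
`[F' : β F] = p + 1`; a place reduction `r` with three distinct values; the twisted norm product formula.
All "Hecke inputs" are derived. -/
theorem s48e_es_pic0_ff (x : ↥F) [FFGen L x] (x' : ↥F') [FFGen L x']
    (r : Place L ↥F → Place κ ↥Fb) (hr : s48e_IsPlaceRed A π F Fb r)
    (hgen : s48e_PrinGen A π F Fb)
    (α β : ↥F →ₐ[L] ↥F') (hfinα : FiniteAlong L α) (hfinβ : FiniteAlong L β)
    (hrank : finrankAlong L β = p + 1)
    (ζ : Lˣ) (hζ : IsPrimitiveRoot (ζ : L) p)
    (d : ↥F → ↥F) (δ : SemilinearAut κ ↥Fb)
    (S : LaurentSeries ↥A → Prop) (hgenS : s48e_PrinGenOn A π F Fb S)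
    (hd : ∀ (Y : LaurentSeries ↥A) (hY : coeffMap A.subtype Y ∈ F) (hYk : coeffMap π Y ∈ Fb),
      S Y → ∃ Y' : LaurentSeries ↥A,
        coeffMap A.subtype Y' = ((d ⟨coeffMap A.subtype Y, hY⟩ : ↥F) : LaurentSeries L) ∧
        coeffMap π Y' = ((δ • (⟨coeffMap π Y, hYk⟩ : ↥Fb) : ↥Fb) : LaurentSeries κ))
    (hW : ∀ y : ↥F,
      qExpand L p ((s48e_normAlong α (β y) : ↥F) : LaurentSeries L) =
        qExpand L (p * p) (y : LaurentSeries L) * s37e_prodTw p ζ ((d y : ↥F) : LaurentSeries L))
    (h3 : ∃ P₁ P₂ P₃, r P₁ ≠ r P₂ ∧ r P₁ ≠ r P₃ ∧ r P₂ ≠ r P₃) :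
    ∃ (hα : α.toRingHom.IsIntegral) (hβ : β.toRingHom.IsIntegral)
      (_ : HasPrincipalDivisors L ↥F') (_ : HasPrincipalDivisors L ↥F)
      (hFI : FundamentalIdentityAlong L β hβ) (hN : NormFormulaAlong L α hfinα),
      ∀ z : Pic0 L ↥F,
        s48e_redPic0 r hr hgen (Pic0.correspondence β α hβ hα hFI hfinα hN z) =
          (s48e_psi hst p * δ) • s48e_redPic0 r hr hgen z +
            p • ((s48e_psi hst p)⁻¹ • s48e_redPic0 r hr hgen z) := by
  have hα := s48e_isIntegral_of_finiteAlong α hfinα
  have hβ := s48e_isIntegral_of_finiteAlong β hfinβ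
  haveI hP' : HasPrincipalDivisors L ↥F' := s48e_hasPrincipalDivisors x'
  haveI hP : HasPrincipalDivisors L ↥F := s48e_hasPrincipalDivisors x
  have hFI := s48e_fundamentalIdentityAlong x x' β hfinβ hβ
  have hN := s48e_normFormulaAlong x x' α hfinα
  refine ⟨hα, hβ, hP', hP, hFI, hN, fun z => ?_⟩
  exact s48e_es_pic0 A π hst r hr hgen α β hα hβ hfinα hN ζ hζ d δ S hgenS hd hW hFI hrank
    (fun P => ff_deg_eq_one L x P) (s37i_riemann (K := L) x) h3 z

end Packaged

end Fermat.Agent.Lib.S48
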