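/-
S48 (Deligne–Serre), wall [T8] (helper8): GENERIC Eichler–Shimura engine, part 6: UNIQUENESS of the place reduction and
its EQUIVARIANCE (generic form of the S37 package [U] of helper9).

* `s48e_unique` : two place reductions `F → Fb` coincide as soon as one of them is not constant
  (`F` finite over `L(x)`, `L` algebraically closed of characteristic zero).
* `s48e_RedCompat Sg Ps` : the semilinear automorphisms `Sg` of `F` and `Ps` of `Fb` are compatible with reduction
  (an integral series `Y` is transported to an integral series with `Sg • y` over `L` and `Ps • ȳ` over `κ`).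
  Examples: the coefficientwise action of the decomposition group and of its image in `Aut κ`; a diamond automorphism
  of the Kummer layer and its reduction.
* `s48e_equivariant`, `s48e_redPic0_equivariant` : then `r (Sg • P) = Ps • r P` and `red (Sg • z) = Ps • red z`.
-/
import Fermat.Agent.Lib.S48.EGenInputs
import Fermat.Agent.Lib.S48.EGenOn
import Fermat.Agent.Lib.S37.UUnique

set_option autoImplicit false
set_option linter.style.haveILetI false
set_option linter.unusedSectionVars false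

noncomputable section

open AlgebraicCurve ModularCurve HahnSeries IntermediateField
open Fermat.Agent.Lib.FF Fermat.Agent.Lib.S37 Fermat.Agent.Lib.S28

namespace Fermat.Agent.Lib.S48

section Unique

variable {L : Type*} [Field L] {A : ValuationSubring L} {κ : Type*} [Field κ] {π : ↥A →+* κ}
  {F : IntermediateField L (LaurentSeries L)} {Fb : IntermediateField κ (LaurentSeries κ)}

/-- Two place reductions agree on principal divisors. -/
theorem s48e_mapDomain_eq_of_principal {r r' : Place L ↥F → Place κ ↥Fb}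
    (hr : s48e_IsPlaceRed A π F Fb r) (hr' : s48e_IsPlaceRed A π F Fb r')
    (hgen : s48e_PrinGen A π F Fb) {D : Divisor L ↥F}
    (hD : D ∈ Divisor.principal (K := L) (F := ↥F)) :
    Finsupp.mapDomain r D = Finsupp.mapDomain r' D := by
  have hD' := hgen hD
  clear hD
  induction hD' using AddSubgroup.closure_induction with
  | mem E hE =>
    obtain ⟨y, hy, hyk, hne, hDy⟩ := hE
    ext Q
    rw [hr.2 y hy hyk hne E hDy Q, hr'.2 y hy hyk hne E hDy Q]
  | zero => rw [Finsupp.mapDomain_zero, Finsupp.mapDomain_zero]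
  | add E E' _ _ hE hE' => rw [Finsupp.mapDomain_add, Finsupp.mapDomain_add, hE, hE']
  | neg E _ hE =>
    rw [← Finsupp.mapDomain.addMonoidHom_apply, ← Finsupp.mapDomain.addMonoidHom_apply, map_neg,
      map_neg, Finsupp.mapDomain.addMonoidHom_apply, Finsupp.mapDomain.addMonoidHom_apply, hE]

/-- **The bounded-homomorphism lemma** for a finite extension of `L(x)`. -/
theorem s48e_boundedConst_ff [CharZero L] [IsAlgClosed L] {F₀ : Type*} [Field F₀] [Algebra L F₀]
    (x : F₀) [FFGen L x] (Y : Type*) :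
    s37u_BoundedConst (Divisor.principal (K := L) (F := F₀)) Y := by
  rintro δ hδ ⟨C, hC⟩ P P'
  haveI : HasPrincipalDivisors L F₀ := s48e_hasPrincipalDivisors x
  obtain ⟨γ, hγ⟩ := s37i_riemann_effective (K := L) x
  refine s37e_bounded_const _ Divisor.degree (fun P => ?_) s37e_degree_principal
    ⟨γ, fun D hD => ?_⟩ δ hδ C hC P P'
  · rw [Divisor.degree_single, ff_deg_eq_one L x, Nat.cast_one, mul_one]
  · obtain ⟨E, hE, hDE⟩ := hγ D hD
    exact ⟨E, fun P => hE P, hDE⟩

/-- **Uniqueness of the place reduction.** -/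
theorem s48e_unique [CharZero L] [IsAlgClosed L] (x : ↥F) [FFGen L x]
    {r₁ r₂ : Place L ↥F → Place κ ↥Fb}
    (hr₁ : s48e_IsPlaceRed A π F Fb r₁) (hr₂ : s48e_IsPlaceRed A π F Fb r₂)
    (hgen : s48e_PrinGen A π F Fb) (hnc : ∃ P Q, r₁ P ≠ r₁ Q) : r₁ = r₂ := by
  rcases s37u_eq_or_const_of_bounded (s48e_boundedConst_ff x (Place κ ↥Fb))
    (fun D hD => s48e_mapDomain_eq_of_principal hr₁ hr₂ hgen hD) with h | hconst
  · exact h
  · obtain ⟨P, Q, hPQ⟩ := hnc
    exact absurd (hconst P Q) hPQ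

end Unique

section Twist

variable {L : Type*} [Field L] (A : ValuationSubring L) {κ : Type*} [Field κ] (π : ↥A →+* κ)
  (F : IntermediateField L (LaurentSeries L)) (Fb : IntermediateField κ (LaurentSeries κ))

/-- compatibility of a pair of semilinear automorphisms with reduction. -/
def s48e_RedCompat (Sg : SemilinearAut L ↥F) (Ps : SemilinearAut κ ↥Fb) : Prop :=
  ∀ (Y : LaurentSeries ↥A) (hY : coeffMap A.subtype Y ∈ F) (hYk : coeffMap π Y ∈ Fb),
    ∃ Y' : LaurentSeries ↥A,
      coeffMap A.subtype Y' = ((Sg • (⟨coeffMap A.subtype Y, hY⟩ : ↥F) : ↥F) : LaurentSeries L) ∧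
      coeffMap π Y' = ((Ps • (⟨coeffMap π Y, hYk⟩ : ↥Fb) : ↥Fb) : LaurentSeries κ)

variable {A π F Fb}

/-- the twisted place map `r^g`. -/
def s48e_twist (Sg : SemilinearAut L ↥F) (Ps : SemilinearAut κ ↥Fb)
    (r : Place L ↥F → Place κ ↥Fb) : Place L ↥F → Place κ ↥Fb :=
  fun P => Ps⁻¹ • r (Sg • P)

theorem s48e_mapDomain_twist (Sg : SemilinearAut L ↥F) (Ps : SemilinearAut κ ↥Fb)
    (r : Place L ↥F → Place κ ↥Fb) (D : Divisor L ↥F) :
    Finsupp.mapDomain (s48e_twist Sg Ps r) D = Ps⁻¹ • Finsupp.mapDomain r (Sg • D) := by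
  rw [SemilinearAut.divisor_smul_def, SemilinearAut.divisor_smul_def, ← Finsupp.mapDomain_comp,
    ← Finsupp.mapDomain_comp]
  rfl

/-- **The twist of a place reduction is a place reduction.** -/
theorem s48e_twist_isPlaceRed {Sg : SemilinearAut L ↥F} {Ps : SemilinearAut κ ↥Fb}
    (hc : s48e_RedCompat A π F Fb Sg Ps) {r : Place L ↥F → Place κ ↥Fb}
    (hr : s48e_IsPlaceRed A π F Fb r) : s48e_IsPlaceRed A π F Fb (s48e_twist Sg Ps r) := by
  refine ⟨fun P => ?_, ?_⟩
  · show (Ps⁻¹ • r (Sg • P)).deg = P.deg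
    rw [SemilinearAut.deg_smul, hr.1, SemilinearAut.deg_smul]
  · intro Y hY hYk hne D hD Q
    obtain ⟨Y', hY'1, hY'2⟩ := hc Y hY hYk
    have hY' : coeffMap A.subtype Y' ∈ F := by rw [hY'1]; exact Subtype.property _
    have hYk' : coeffMap π Y' ∈ Fb := by rw [hY'2]; exact Subtype.property _
    have hfun : Sg • (⟨coeffMap A.subtype Y, hY⟩ : ↥F) = ⟨coeffMap A.subtype Y', hY'⟩ :=
      Subtype.ext hY'1.symm
    have hred : Ps • (⟨coeffMap π Y, hYk⟩ : ↥Fb) = ⟨coeffMap π Y', hYk'⟩ :=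
      Subtype.ext hY'2.symm
    have hne' : coeffMap π Y' ≠ 0 := by
      intro h0
      apply hne
      have h1 : Ps • (⟨coeffMap π Y, hYk⟩ : ↥Fb) = 0 := by
        rw [hred]; exact Subtype.ext h0
      have h2 := congrArg (Ps⁻¹ • ·) h1
      simp only [inv_smul_smul, smul_zero] at h2
      exact congrArg Subtype.val h2
    have hD' : ∀ P, (Sg • D) P = P.ord (⟨coeffMap A.subtype Y', hY'⟩ : ↥F) := by
      intro P
      rw [SemilinearAut.divisor_smul_apply, hD, ← hfun]
      have h := SemilinearAut.ord_smul Sg (Sg⁻¹ • P) (⟨coeffMap A.subtype Y, hY⟩ : ↥F)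
      rw [smul_inv_smul] at h
      exact h.symm
    rw [s48e_mapDomain_twist, SemilinearAut.divisor_smul_apply, inv_inv,
      hr.2 Y' hY' hYk' hne' _ hD' (Ps • Q), ← hred, SemilinearAut.ord_smul]

/-- **Equivariance, place level**: a unique place reduction is equivariant. -/
theorem s48e_equivariant {Sg : SemilinearAut L ↥F} {Ps : SemilinearAut κ ↥Fb}
    (hc : s48e_RedCompat A π F Fb Sg Ps) {r : Place L ↥F → Place κ ↥Fb}
    (huniq : ∀ r' : Place L ↥F → Place κ ↥Fb, s48e_IsPlaceRed A π F Fb r' → r' = r)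
    (hr : s48e_IsPlaceRed A π F Fb r) (P : Place L ↥F) : r (Sg • P) = Ps • r P := by
  have h := congrFun (huniq _ (s48e_twist_isPlaceRed hc hr)) P
  rw [← h, s48e_twist, smul_inv_smul]

theorem s48e_mapDomain_equivariant {Sg : SemilinearAut L ↥F} {Ps : SemilinearAut κ ↥Fb}
    (hc : s48e_RedCompat A π F Fb Sg Ps) {r : Place L ↥F → Place κ ↥Fb}
    (huniq : ∀ r' : Place L ↥F → Place κ ↥Fb, s48e_IsPlaceRed A π F Fb r' → r' = r)
    (hr : s48e_IsPlaceRed A π F Fb r) (D : Divisor L ↥F) :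
    Finsupp.mapDomain r (Sg • D) = Ps • Finsupp.mapDomain r D := by
  rw [SemilinearAut.divisor_smul_def, SemilinearAut.divisor_smul_def, ← Finsupp.mapDomain_comp,
    ← Finsupp.mapDomain_comp]
  congr 1
  funext P
  exact s48e_equivariant hc huniq hr P

/-- **Equivariance, `Pic⁰` level**. -/
theorem s48e_redPic0_equivariant {Sg : SemilinearAut L ↥F} {Ps : SemilinearAut κ ↥Fb}
    (hc : s48e_RedCompat A π F Fb Sg Ps) {r : Place L ↥F → Place κ ↥Fb}
    (huniq : ∀ r' : Place L ↥F → Place κ ↥Fb, s48e_IsPlaceRed A π F Fb r' → r' = r)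
    (hr : s48e_IsPlaceRed A π F Fb r) (hgen : s48e_PrinGen A π F Fb) (z : Pic0 L ↥F) :
    s48e_redPic0 r hr hgen (Sg • z) = Ps • s48e_redPic0 r hr hgen z := by
  obtain ⟨D, rfl⟩ := Pic0.mk_surjective z
  rw [SemilinearAut.pic0_smul_mk, s48e_redPic0_mk, s48e_redPic0_mk, SemilinearAut.pic0_smul_mk]
  congr 1
  apply Subtype.ext
  rw [s48e_coe_redDegZero, SemilinearAut.coe_degZeroSMulHom, SemilinearAut.coe_degZeroSMulHom,
    s48e_coe_redDegZero]
  exact s48e_mapDomain_equivariant hc huniq hr D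

end Twist

/-! ### The same, relative to a class `S` of good integral series -/

section On

variable {L : Type*} [Field L] {A : ValuationSubring L} {κ : Type*} [Field κ] {π : ↥A →+* κ}
  {F : IntermediateField L (LaurentSeries L)} {Fb : IntermediateField κ (LaurentSeries κ)}
  {S : LaurentSeries ↥A → Prop}

/-- Two place reductions (on `S`) agree on principal divisors. -/
theorem s48e_mapDomain_eq_of_principal_on {r r' : Place L ↥F → Place κ ↥Fb}
    (hr : s48e_IsPlaceRedOn A π F Fb S r) (hr' : s48e_IsPlaceRedOn A π F Fb S r')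
    (hgen : s48e_PrinGenOn A π F Fb S) {D : Divisor L ↥F}
    (hD : D ∈ Divisor.principal (K := L) (F := ↥F)) :
    Finsupp.mapDomain r D = Finsupp.mapDomain r' D := by
  have hD' := hgen hD
  clear hD
  induction hD' using AddSubgroup.closure_induction with
  | mem E hE =>
    obtain ⟨y, hy, hS, hyk, hne, hDy⟩ := hE
    ext Q
    rw [hr.2 y hy hyk hS hne E hDy Q, hr'.2 y hy hyk hS hne E hDy Q]
  | zero => rw [Finsupp.mapDomain_zero, Finsupp.mapDomain_zero]
  | add E E' _ _ hE hE' => rw [Finsupp.mapDomain_add, Finsupp.mapDomain_add, hE, hE']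
  | neg E _ hE =>
    rw [← Finsupp.mapDomain.addMonoidHom_apply, ← Finsupp.mapDomain.addMonoidHom_apply, map_neg,
      map_neg, Finsupp.mapDomain.addMonoidHom_apply, Finsupp.mapDomain.addMonoidHom_apply, hE]

/-- **Uniqueness of the place reduction (on `S`).** -/
theorem s48e_unique_on [CharZero L] [IsAlgClosed L] (x : ↥F) [FFGen L x]
    {r₁ r₂ : Place L ↥F → Place κ ↥Fb}
    (hr₁ : s48e_IsPlaceRedOn A π F Fb S r₁) (hr₂ : s48e_IsPlaceRedOn A π F Fb S r₂)
    (hgen : s48e_PrinGenOn A π F Fb S) (hnc : ∃ P Q, r₁ P ≠ r₁ Q) : r₁ = r₂ := by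
  rcases s37u_eq_or_const_of_bounded (s48e_boundedConst_ff x (Place κ ↥Fb))
    (fun D hD => s48e_mapDomain_eq_of_principal_on hr₁ hr₂ hgen hD) with h | hconst
  · exact h
  · obtain ⟨P, Q, hPQ⟩ := hnc
    exact absurd (hconst P Q) hPQ

/-- **The twist of a place reduction (on `S`) is a place reduction (on `S`).** -/
theorem s48e_twist_isPlaceRedOn {Sg : SemilinearAut L ↥F} {Ps : SemilinearAut κ ↥Fb}
    (hc : s48e_RedCompatOn A π F Fb S Sg Ps) {r : Place L ↥F → Place κ ↥Fb}
    (hr : s48e_IsPlaceRedOn A π F Fb S r) :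
    s48e_IsPlaceRedOn A π F Fb S (s48e_twist Sg Ps r) := by
  refine ⟨fun P => ?_, ?_⟩
  · show (Ps⁻¹ • r (Sg • P)).deg = P.deg
    rw [SemilinearAut.deg_smul, hr.1, SemilinearAut.deg_smul]
  · intro Y hY hYk hSY hne D hD Q
    obtain ⟨Y', hSY', hY'1, hY'2⟩ := hc Y hY hYk hSY
    have hY' : coeffMap A.subtype Y' ∈ F := by rw [hY'1]; exact Subtype.property _
    have hYk' : coeffMap π Y' ∈ Fb := by rw [hY'2]; exact Subtype.property _
    have hfun : Sg • (⟨coeffMap A.subtype Y, hY⟩ : ↥F) = ⟨coeffMap A.subtype Y', hY'⟩ :=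
      Subtype.ext hY'1.symm
    have hred : Ps • (⟨coeffMap π Y, hYk⟩ : ↥Fb) = ⟨coeffMap π Y', hYk'⟩ :=
      Subtype.ext hY'2.symm
    have hne' : coeffMap π Y' ≠ 0 := by
      intro h0
      apply hne
      have h1 : Ps • (⟨coeffMap π Y, hYk⟩ : ↥Fb) = 0 := by
        rw [hred]; exact Subtype.ext h0
      have h2 := congrArg (Ps⁻¹ • ·) h1
      simp only [inv_smul_smul, smul_zero] at h2
      exact congrArg Subtype.val h2
    have hD' : ∀ P, (Sg • D) P = P.ord (⟨coeffMap A.subtype Y', hY'⟩ : ↥F) := by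
      intro P
      rw [SemilinearAut.divisor_smul_apply, hD, ← hfun]
      have h := SemilinearAut.ord_smul Sg (Sg⁻¹ • P) (⟨coeffMap A.subtype Y, hY⟩ : ↥F)
      rw [smul_inv_smul] at h
      exact h.symm
    rw [s48e_mapDomain_twist, SemilinearAut.divisor_smul_apply, inv_inv,
      hr.2 Y' hY' hYk' hSY' hne' _ hD' (Ps • Q), ← hred, SemilinearAut.ord_smul]

/-- **Equivariance, place level (on `S`)**. -/
theorem s48e_equivariant_on {Sg : SemilinearAut L ↥F} {Ps : SemilinearAut κ ↥Fb}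
    (hc : s48e_RedCompatOn A π F Fb S Sg Ps) {r : Place L ↥F → Place κ ↥Fb}
    (huniq : ∀ r' : Place L ↥F → Place κ ↥Fb, s48e_IsPlaceRedOn A π F Fb S r' → r' = r)
    (hr : s48e_IsPlaceRedOn A π F Fb S r) (P : Place L ↥F) : r (Sg • P) = Ps • r P := by
  have h := congrFun (huniq _ (s48e_twist_isPlaceRedOn hc hr)) P
  rw [← h, s48e_twist, smul_inv_smul]

theorem s48e_mapDomain_equivariant_on {Sg : SemilinearAut L ↥F} {Ps : SemilinearAut κ ↥Fb}
    (hc : s48e_RedCompatOn A π F Fb S Sg Ps) {r : Place L ↥F → Place κ ↥Fb}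
    (huniq : ∀ r' : Place L ↥F → Place κ ↥Fb, s48e_IsPlaceRedOn A π F Fb S r' → r' = r)
    (hr : s48e_IsPlaceRedOn A π F Fb S r) (D : Divisor L ↥F) :
    Finsupp.mapDomain r (Sg • D) = Ps • Finsupp.mapDomain r D := by
  rw [SemilinearAut.divisor_smul_def, SemilinearAut.divisor_smul_def, ← Finsupp.mapDomain_comp,
    ← Finsupp.mapDomain_comp]
  congr 1
  funext P
  exact s48e_equivariant_on hc huniq hr P

/-- **Equivariance, `Pic⁰` level (on `S`)**. -/
theorem s48e_redPic0_equivariant_on {Sg : SemilinearAut L ↥F} {Ps : SemilinearAut κ ↥Fb}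
    (hc : s48e_RedCompatOn A π F Fb S Sg Ps) {r : Place L ↥F → Place κ ↥Fb}
    (huniq : ∀ r' : Place L ↥F → Place κ ↥Fb, s48e_IsPlaceRedOn A π F Fb S r' → r' = r)
    (hr : s48e_IsPlaceRed A π F Fb r) (hgen : s48e_PrinGen A π F Fb) (z : Pic0 L ↥F) :
    s48e_redPic0 r hr hgen (Sg • z) = Ps • s48e_redPic0 r hr hgen z := by
  obtain ⟨D, rfl⟩ := Pic0.mk_surjective z
  rw [SemilinearAut.pic0_smul_mk, s48e_redPic0_mk, s48e_redPic0_mk, SemilinearAut.pic0_smul_mk]
  congr 1
  apply Subtype.ext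
  rw [s48e_coe_redDegZero, SemilinearAut.coe_degZeroSMulHom, SemilinearAut.coe_degZeroSMulHom,
    s48e_coe_redDegZero]
  exact s48e_mapDomain_equivariant_on hc huniq hr.on D

end On

end Fermat.Agent.Lib.S48
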