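/-
S48 (Deligne–Serre), wall [T8] (helper8): GENERIC Eichler–Shimura engine, part 7: the GALOIS ACTION.

`F ⊆ L((q))` coefficient-stable; the Galois group `L ≃ₐ[K] L` acts on `F` coefficientwise (`s48e_galAut`), hence on
`Pic⁰ F`.  For `g` in the decomposition group of `A` inducing `ḡ` on `κ` (`π ∘ g = ḡ ∘ π` on `A`) the pair (`g` on `F`,
`ḡ` on `Fb`) is compatible with reduction, so that a UNIQUE place reduction satisfies `red (g • z) = Ψ(ḡ) • red z`; in
particular `red` is invariant under inertia and intertwines a Frobenius element at `p` with the Frobenius `ψ` of the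
special fibre.  (Generic form of the S37 package [U], `UGalois`/`UFinal` of helper9.  The residue field is an abstract
`π : A →+* κ` killing the maximal ideal, to keep instance search away from `IsLocalRing.ResidueField`.)
-/
import Fermat.Agent.Lib.S48.EGenEquiv
import Fermat.Prelude.Def_EllipticCurve_FrobeniusTrace
import Fermat.Prelude.Def_FLTPrelim_Ramification

set_option autoImplicit false
set_option linter.style.haveILetI false
set_option linter.unusedSectionVars false

noncomputable section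

open AlgebraicCurve ModularCurve HahnSeries IntermediateField

namespace Fermat.Agent.Lib.S48

section Gal

variable {K L : Type*} [Field K] [Field L] [Algebra K L] (A : ValuationSubring L)
  (g : A.decompositionSubgroup K)

/-- the action of an element of the decomposition group on `A`, as a ring homomorphism. -/
def s48e_actA : ↥A →+* ↥A := MulSemiringAction.toRingHom (A.decompositionSubgroup K) A g

theorem s48e_coe_actA (a : ↥A) :
    ((s48e_actA A g a : ↥A) : L) = (g : L ≃ₐ[K] L) (a : L) := rfl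

theorem s48e_coeffMap_subtype_actA (Y : LaurentSeries ↥A) :
    coeffMap A.subtype (coeffMap (s48e_actA A g) Y) =
      coeffMap ((((g : L ≃ₐ[K] L) : L ≃ₐ[K] L) : L ≃+* L) : L →+* L) (coeffMap A.subtype Y) := by
  rw [coeffMap_coeffMap, coeffMap_coeffMap]
  exact coeffMap_congr (RingHom.ext fun a => rfl) Y

theorem s48e_coeffMap_pi_actA {κ : Type*} [Field κ] (π : ↥A →+* κ) (gbar : κ ≃+* κ)
    (hg : ∀ a : ↥A, π (s48e_actA A g a) = gbar (π a)) (Y : LaurentSeries ↥A) :
    coeffMap π (coeffMap (s48e_actA A g) Y) =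
      coeffMap ((gbar : κ ≃+* κ) : κ →+* κ) (coeffMap π Y) := by
  rw [coeffMap_coeffMap, coeffMap_coeffMap]
  exact coeffMap_congr (RingHom.ext fun a => hg a) Y

/-- an inertia element acts trivially modulo the maximal ideal. -/
theorem s48e_pi_actA_of_inertia {κ : Type*} [Field κ] (π : ↥A →+* κ)
    (hπ : ∀ a : ↥A, IsLocalRing.residue ↥A a = 0 → π a = 0)
    (hg : g ∈ A.inertiaSubgroup K) (a : ↥A) : π (s48e_actA A g a) = π a := by
  have h1 : (MulSemiringAction.toRingAut (A.decompositionSubgroup K)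
      (IsLocalRing.ResidueField ↥A) g) = 1 := MonoidHom.mem_ker.mp hg
  have h2 : IsLocalRing.residue ↥A (s48e_actA A g a) = IsLocalRing.residue ↥A a := by
    have := congrArg (fun e => e (IsLocalRing.residue ↥A a)) h1
    exact this
  have h3 := hπ (s48e_actA A g a - a) (by rw [map_sub, h2, sub_self])
  rw [map_sub, sub_eq_zero] at h3
  exact h3

/-- a Frobenius element acts as `x ↦ x ^ p` modulo the maximal ideal. -/
theorem s48e_pi_actA_of_frobenius {κ : Type*} [Field κ] (π : ↥A →+* κ)
    (hπ : ∀ a : ↥A, IsLocalRing.residue ↥A a = 0 → π a = 0) (p : ℕ)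
    (hg : ∀ x : IsLocalRing.ResidueField ↥A, g • x = x ^ p) (a : ↥A) :
    π (s48e_actA A g a) = π a ^ p := by
  have h2 : IsLocalRing.residue ↥A (s48e_actA A g a) = IsLocalRing.residue ↥A a ^ p :=
    hg (IsLocalRing.residue ↥A a)
  have h3 := hπ (s48e_actA A g a - a ^ p) (by rw [map_sub, map_pow, h2, sub_self])
  rw [map_sub, sub_eq_zero, map_pow] at h3
  exact h3

end Gal

section GalAut

variable (K : Type*) {L : Type*} [Field K] [Field L] [Algebra K L]
  {F : IntermediateField L (LaurentSeries L)} (hF : s48e_CoeffStable F)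

/-- the coefficientwise Galois action on a coefficient-stable `F ⊆ L((q))`. -/
def s48e_galAut : (L ≃ₐ[K] L) →* SemilinearAut L ↥F where
  toFun σ := s48e_coeffAut hF (σ : L ≃+* L)
  map_one' := by
    rw [show (((1 : L ≃ₐ[K] L) : L ≃+* L)) = 1 from rfl, map_one]
  map_mul' σ τ := by
    rw [show (((σ * τ : L ≃ₐ[K] L) : L ≃+* L)) = (σ : L ≃+* L) * (τ : L ≃+* L) from rfl, map_mul]

theorem s48e_coe_galAut_smul (σ : L ≃ₐ[K] L) (x : ↥F) :
    ((s48e_galAut K hF σ • x : ↥F) : LaurentSeries L)
      = coeffMap (((σ : L ≃+* L)) : L →+* L) (x : LaurentSeries L) :=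
  rfl

end GalAut

section Compat

variable {K L : Type*} [Field K] [Field L] [Algebra K L] (A : ValuationSubring L)
  {κ : Type*} [Field κ] (π : ↥A →+* κ)
  {F : IntermediateField L (LaurentSeries L)} (hF : s48e_CoeffStable F)
  {Fb : IntermediateField κ (LaurentSeries κ)} (hFb : s48e_CoeffStable Fb)
  (g : A.decompositionSubgroup K)

/-- the Galois action of the decomposition group is compatible with reduction. -/
theorem s48e_redCompat_gal (gbar : κ ≃+* κ) (hg : ∀ a : ↥A, π (s48e_actA A g a) = gbar (π a)) :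
    s48e_RedCompat A π F Fb (s48e_galAut K hF (g : L ≃ₐ[K] L)) (s48e_coeffAut hFb gbar) := by
  intro Y hY hYk
  refine ⟨coeffMap (s48e_actA A g) Y, ?_, ?_⟩
  · rw [s48e_coeffMap_subtype_actA, s48e_coe_galAut_smul]
  · rw [s48e_coeffMap_pi_actA A g π gbar hg, s48e_coe_coeffAut_smul]

variable {r : Place L ↥F → Place κ ↥Fb}
  (huniq : ∀ r' : Place L ↥F → Place κ ↥Fb, s48e_IsPlaceRed A π F Fb r' → r' = r)
  (hr : s48e_IsPlaceRed A π F Fb r) (hgen : s48e_PrinGen A π F Fb)

include huniq in
/-- **(U2)**: the reduction intertwines `g` in the decomposition group with `Ψ(ḡ)`. -/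
theorem s48e_red_decomposition (gbar : κ ≃+* κ)
    (hg : ∀ a : ↥A, π (s48e_actA A g a) = gbar (π a)) (z : Pic0 L ↥F) :
    s48e_redPic0 r hr hgen (s48e_galAut K hF (g : L ≃ₐ[K] L) • z) =
      s48e_coeffAut hFb gbar • s48e_redPic0 r hr hgen z :=
  s48e_redPic0_equivariant (s48e_redCompat_gal A π hF hFb g gbar hg) huniq hr hgen z

include huniq hFb in
/-- **(R1)**: the reduction is invariant under inertia. -/
theorem s48e_red_inertia (hπ : ∀ a : ↥A, IsLocalRing.residue ↥A a = 0 → π a = 0)
    (τ : L ≃ₐ[K] L) (hτ : τ ∈ A.inertiaSubgroupIn K) (z : Pic0 L ↥F) :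
    s48e_redPic0 r hr hgen (s48e_galAut K hF τ • z) = s48e_redPic0 r hr hgen z := by
  obtain ⟨g, hg, rfl⟩ := hτ
  have h := s48e_red_decomposition A π hF hFb g huniq hr hgen 1
    (fun a => s48e_pi_actA_of_inertia A g π hπ hg a) z
  rw [map_one, one_smul] at h
  exact h

include huniq in
/-- **(U2), Frobenius**: the reduction intertwines a Frobenius element at `p` with the Frobenius
`ψ` of the special fibre. -/
theorem s48e_red_frobenius (hπ : ∀ a : ↥A, IsLocalRing.residue ↥A a = 0 → π a = 0)
    (p : ℕ) [Fact p.Prime] [CharP κ p] [PerfectRing κ p]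
    (σ : L ≃ₐ[K] L) (hσ : A.IsFrobeniusAt σ p) (z : Pic0 L ↥F) :
    s48e_redPic0 r hr hgen (s48e_galAut K hF σ • z) =
      s48e_psi hFb p • s48e_redPic0 r hr hgen z := by
  obtain ⟨hσ', hfrob⟩ := hσ
  exact s48e_red_decomposition A π hF hFb ⟨σ, hσ'⟩ huniq hr hgen (frobeniusEquiv κ p)
    (fun a => by
      rw [frobeniusEquiv_apply, frobenius_def]
      exact s48e_pi_actA_of_frobenius A ⟨σ, hσ'⟩ π hπ p hfrob a) z

end Compat

end Fermat.Agent.Lib.S48
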