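/-
S48 (Deligne–Serre), wall [T8] (helper8): GENERIC Eichler–Shimura engine, QUOTIENT form, part 1: definitions and the
twisted norm congruence for quotients.

A diamond automorphism `dd` of the Kummer layer `F_H` does NOT map integral `q`-series to integral `q`-series (it
moves the cusp `∞`); it only preserves the Gauss VALUATION RING `O ⊆ F` (the functions which are quotients `Y₁/Y₂` of
integral series with `ρ Y₂ ≠ 0`) and is compatible with its reduction.  So the engine is restated with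

* `s48e_IsPlaceRedQ r` : STRONG conservation of number — for every `y ∈ F` which is a quotient `ι Y₁ / ι Y₂` of integral
  series (not necessarily in `F`) with `ρ Y₂ ≠ 0` and `ρ Y₁ / ρ Y₂ = yb ∈ Fb`, `yb ≠ 0`: `r_* (div y) = div yb`
  (this is the conservation statement of the two-chart assembly `s37r_conservation`, for ALL Gauss units);
* `s48e_RedCompatQ Sg Ps` : for every integral series `Y` of `F` with reduction in `Fb`, `Sg • ι Y` is a quotient
  `ι Z₁ / ι Z₂` with `ρ Z₂ ≠ 0` and `ρ Z₁ / ρ Z₂ = Ps • ρ Y` (i.e. `Sg` preserves the Gauss ring and induces `Ps`).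

No class of good series is needed any more.
-/
import Fermat.Agent.Lib.S48.EGenDefs
import Fermat.Agent.Lib.S48.ENormTw

set_option autoImplicit false

namespace Fermat.Agent.Lib.S48

open ModularCurve HahnSeries AlgebraicCurve IntermediateField Fermat.Agent.Lib.S28
  Fermat.Agent.Lib.S37

noncomputable section

section Defs

variable {L : Type*} [Field L] (A : ValuationSubring L) {κ : Type*} [Field κ] (π : ↥A →+* κ)
  (F : IntermediateField L (LaurentSeries L)) (Fb : IntermediateField κ (LaurentSeries κ))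

/-- a place reduction with STRONG conservation of number (for all Gauss units, presented as quotients). -/
def s48e_IsPlaceRedQ (r : Place L ↥F → Place κ ↥Fb) : Prop :=
  (∀ P, (r P).deg = P.deg) ∧
    ∀ (y : ↥F) (yb : ↥Fb) (Y₁ Y₂ : LaurentSeries ↥A), coeffMap π Y₂ ≠ 0 →
      coeffMap A.subtype Y₂ * (y : LaurentSeries L) = coeffMap A.subtype Y₁ →
      coeffMap π Y₁ = coeffMap π Y₂ * (yb : LaurentSeries κ) → yb ≠ 0 →
        ∀ D : Divisor L ↥F, (∀ P, D P = P.ord y) → ∀ Q, Finsupp.mapDomain r D Q = Q.ord yb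

/-- compatibility of a pair of semilinear automorphisms with the Gauss ring and its reduction. -/
def s48e_RedCompatQ (Sg : SemilinearAut L ↥F) (Ps : SemilinearAut κ ↥Fb) : Prop :=
  ∀ (Y : LaurentSeries ↥A) (hY : coeffMap A.subtype Y ∈ F) (hYk : coeffMap π Y ∈ Fb),
    ∃ Z₁ Z₂ : LaurentSeries ↥A, coeffMap π Z₂ ≠ 0 ∧
      coeffMap A.subtype Z₂ * ((Sg • (⟨coeffMap A.subtype Y, hY⟩ : ↥F) : ↥F) : LaurentSeries L) =
        coeffMap A.subtype Z₁ ∧
      coeffMap π Z₁ =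
        coeffMap π Z₂ * ((Ps • (⟨coeffMap π Y, hYk⟩ : ↥Fb) : ↥Fb) : LaurentSeries κ)

variable {A π F Fb}

/-- strong conservation implies the conservation for integral series. -/
theorem s48e_IsPlaceRedQ.isPlaceRed {r : Place L ↥F → Place κ ↥Fb}
    (hr : s48e_IsPlaceRedQ A π F Fb r) : s48e_IsPlaceRed A π F Fb r := by
  refine ⟨hr.1, fun y hy hyk hne D hD Q => ?_⟩
  refine hr.2 ⟨coeffMap A.subtype y, hy⟩ ⟨coeffMap π y, hyk⟩ y 1 ?_ ?_ ?_ ?_ D hD Q
  · rw [map_one]; exact one_ne_zero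
  · rw [map_one, one_mul]
  · rw [map_one, one_mul]
  · exact fun h => hne (congrArg Subtype.val h)

end Defs

section Norm

variable {L : Type*} [Field L] (A : ValuationSubring L)

theorem s48e_prodTw_mul {R : Type*} [CommRing R] (ℓ : ℕ) (ζ : Rˣ) (a b : LaurentSeries R) :
    s37e_prodTw ℓ ζ (a * b) = s37e_prodTw ℓ ζ a * s37e_prodTw ℓ ζ b := by
  unfold s37e_prodTw
  rw [← Finset.prod_mul_distrib]
  exact Finset.prod_congr rfl fun i _ => map_mul _ _ _

/-- **Twisted norm congruence, quotient form**: if `g(t^ℓ) = y(t^{ℓ²}) · ∏_{b<ℓ} d(ζ^b t)` with `y = ι Y` integral and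
`d = ι Z₁ / ι Z₂` a quotient of integral series, then `g = ι G₁ / ι G₂` with
`ρ G₁ = (Fr⁻¹ ρY)^ℓ · Fr (ρ Z₁)` and `ρ G₂ = Fr (ρ Z₂)`. -/
theorem s48e_norm_reduction_quot {κ : Type*} [Field κ] (ℓ : ℕ) [hℓ : Fact ℓ.Prime] [CharP κ ℓ]
    [PerfectRing κ ℓ] (π : ↥A →+* κ) (ζ : Lˣ) (hζ : IsPrimitiveRoot (ζ : L) ℓ)
    (Y Z₁ Z₂ : LaurentSeries ↥A) (g d : LaurentSeries L)
    (hd : coeffMap A.subtype Z₂ * d = coeffMap A.subtype Z₁)
    (hW : qExpand L ℓ g = qExpand L (ℓ * ℓ) (coeffMap A.subtype Y) * s37e_prodTw ℓ ζ d) :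
    ∃ G₁ G₂ : LaurentSeries ↥A, coeffMap A.subtype G₂ * g = coeffMap A.subtype G₁ ∧
      coeffMap π G₁ =
        (coeffMap ((frobeniusEquiv κ ℓ).symm : κ →+* κ) (coeffMap π Y)) ^ ℓ *
          coeffMap (frobenius κ ℓ) (coeffMap π Z₁) ∧
      coeffMap π G₂ = coeffMap (frobenius κ ℓ) (coeffMap π Z₂) := by
  have hℓ0 : 0 < ℓ := hℓ.out.pos
  have hζℓ : ζ ^ ℓ = 1 := by
    apply Units.ext
    rw [Units.val_pow_eq_pow_val, hζ.pow_eq_one, Units.val_one]
  set ζA : (↥A)ˣ := s37e_unitOfRoot A hℓ0 ζ hζℓ with hζA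
  have hζA' : IsPrimitiveRoot ((ζA : ↥A)) ℓ := by
    refine IsPrimitiveRoot.of_map_of_injective (f := A.subtype) ?_ A.subtype_injective
    exact hζ
  have hζAℓ : ζA ^ ℓ = 1 := by
    apply Units.ext
    rw [Units.val_pow_eq_pow_val, hζA'.pow_eq_one, Units.val_one]
  obtain ⟨V₁, hV₁⟩ := s37e_exists_qExpand_eq_prodTw ℓ ζA hζA' Z₁
  obtain ⟨V₂, hV₂⟩ := s37e_exists_qExpand_eq_prodTw ℓ ζA hζA' Z₂
  refine ⟨qExpand ↥A ℓ Y * V₁, V₂, ?_, ?_, ?_⟩
  · apply qExpand_injective (R := L) ℓ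
    have e1 : qExpand L ℓ (coeffMap A.subtype V₁) = s37e_prodTw ℓ ζ (coeffMap A.subtype Z₁) := by
      rw [← coeffMap_qExpand, hV₁, s37e_coeffMap_prodTw', s37e_map_unitOfRoot]
    have e2 : qExpand L ℓ (coeffMap A.subtype V₂) = s37e_prodTw ℓ ζ (coeffMap A.subtype Z₂) := by
      rw [← coeffMap_qExpand, hV₂, s37e_coeffMap_prodTw', s37e_map_unitOfRoot]
    rw [map_mul, hW, e2, map_mul (coeffMap A.subtype), map_mul, e1, coeffMap_qExpand,
      qExpand_qExpand, ← hd, s48e_prodTw_mul]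
    ring
  · rw [map_mul, coeffMap_qExpand,
      s37e_coeffMap_normFactor ℓ ζA π (s37e_map_zeta ℓ ζA hζAℓ π) Z₁ V₁ hV₁, s37e_qExpand_eq_pow ℓ]
  · exact s37e_coeffMap_normFactor ℓ ζA π (s37e_map_zeta ℓ ζA hζAℓ π) Z₂ V₂ hV₂

end Norm

end

end Fermat.Agent.Lib.S48
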