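/-
S48 (Deligne–Serre), wall [T8] (helper8): GENERIC Eichler–Shimura engine, QUOTIENT form, part 2: the relation on the
divisor of an integral Gauss unit, when the diamond `d` only preserves the Gauss ring (`d (ι Y) = ι Z₁ / ι Z₂`), from
STRONG conservation of number (`s48e_IsPlaceRedQ`); then the relation on all divisors and on `Pic⁰` from the relation
on principal divisors (`hagree`).
-/
import Fermat.Agent.Lib.S48.EGenQDefs
import Fermat.Agent.Lib.S48.EGenInputs

set_option autoImplicit false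
set_option linter.style.haveILetI false
set_option linter.unusedSectionVars false

namespace Fermat.Agent.Lib.S48

open ModularCurve HahnSeries AlgebraicCurve IntermediateField Fermat.Agent.Lib.S28
  Fermat.Agent.Lib.S37 Fermat.Agent.Lib.FF

noncomputable section

variable {L : Type*} [Field L] {F F' : IntermediateField L (LaurentSeries L)}

theorem s48e_coeffMap_eq_zero {R S : Type*} [CommRing R] [CommRing S] (f : R →+* S)
    (hf : Function.Injective f) {x : LaurentSeries R} (h : coeffMap f x = 0) : x = 0 := by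
  ext n
  have := congrArg (fun s => s.coeff n) h
  simp only [coeffMap_coeff, HahnSeries.coeff_zero] at this
  rw [HahnSeries.coeff_zero]
  exact hf (by rw [this, map_zero])

section Principal

variable (A : ValuationSubring L) {κ : Type*} [Field κ] (π : ↥A →+* κ)
  {p : ℕ} [hp : Fact p.Prime] [CharP κ p] [PerfectRing κ p]
  {Fb : IntermediateField κ (LaurentSeries κ)} (hst : s48e_CoeffStable Fb)

set_option maxHeartbeats 1600000 in
/-- **(I1), twisted, quotient form**: the Eichler–Shimura relation on the divisor of an integral Gauss unit. -/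
theorem s48e_es_principal_Q (r : Place L ↥F → Place κ ↥Fb) (hr : s48e_IsPlaceRedQ A π F Fb r)
    (α β : ↥F →ₐ[L] ↥F') (hα : α.toRingHom.IsIntegral) (hβ : β.toRingHom.IsIntegral)
    [HasPrincipalDivisors L ↥F']
    (hfin : FiniteAlong L α) (hN : NormFormulaAlong L α hfin)
    (ζ : Lˣ) (hζ : IsPrimitiveRoot (ζ : L) p)
    (d : ↥F → ↥F) (δ : SemilinearAut κ ↥Fb)
    (hW : ∀ y : ↥F,
      qExpand L p ((s48e_normAlong α (β y) : ↥F) : LaurentSeries L) =
        qExpand L (p * p) (y : LaurentSeries L) * s37e_prodTw p ζ ((d y : ↥F) : LaurentSeries L))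
    (Y : LaurentSeries ↥A) (hY : coeffMap A.subtype Y ∈ F) (hYk : coeffMap π Y ∈ Fb)
    (hY0 : coeffMap π Y ≠ 0)
    (hdY : ∃ Z₁ Z₂ : LaurentSeries ↥A, coeffMap π Z₂ ≠ 0 ∧
      coeffMap A.subtype Z₂ * ((d ⟨coeffMap A.subtype Y, hY⟩ : ↥F) : LaurentSeries L) =
        coeffMap A.subtype Z₁ ∧
      coeffMap π Z₁ =
        coeffMap π Z₂ * ((δ • (⟨coeffMap π Y, hYk⟩ : ↥Fb) : ↥Fb) : LaurentSeries κ))
    (D : Divisor L ↥F) (hD : ∀ P, D P = P.ord (⟨coeffMap A.subtype Y, hY⟩ : ↥F)) :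
    s48e_redDiv r (Divisor.correspondence β α hβ hα D) =
      (s48e_psi hst p * δ) • s48e_redDiv r D + p • ((s48e_psi hst p)⁻¹ • s48e_redDiv r D) := by
  classical
  have hrw := hr.isPlaceRed
  set f : ↥F := ⟨coeffMap A.subtype Y, hY⟩ with hfdef
  have hf : f ≠ 0 := by
    intro h
    apply hY0
    have h1 : coeffMap A.subtype Y = 0 := congrArg Subtype.val h
    have h2 : Y = 0 := s37e_coeffMap_subtype_injective A (by rw [h1, map_zero])
    rw [h2, map_zero]
  set g := s48e_normAlong α (β f) with hgdef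
  obtain ⟨Z₁, Z₂, hZ2ne, hZrel, hZred⟩ := hdY
  obtain ⟨G₁, G₂, hG, hG1, hG2⟩ := s48e_norm_reduction_quot A p π ζ hζ Y Z₁ Z₂
    (g : LaurentSeries L) ((d f : ↥F) : LaurentSeries L) hZrel (hW f)
  set z : ↥Fb := ⟨coeffMap π Y, hYk⟩ with hzdef
  have hz : z ≠ 0 := fun h => hY0 (congrArg Subtype.val h)
  set Ψ := s48e_psi hst p with hΨ
  set gb : ↥Fb := (Ψ⁻¹ • z) ^ p * ((Ψ * δ) • z) with hgb
  have hgb0 : gb ≠ 0 := by
    intro h1
    rcases mul_eq_zero.mp h1 with h2 | h2
    · have h3 := pow_eq_zero_iff (hp.out.ne_zero) |>.mp h2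
      apply hz
      have := congrArg (Ψ • ·) h3
      simpa using this
    · apply hz
      have := congrArg ((Ψ * δ)⁻¹ • ·) h2
      simpa using this
  have hG2ne : coeffMap π G₂ ≠ 0 := by
    rw [hG2]
    intro h0
    exact hZ2ne (s48e_coeffMap_eq_zero (frobenius κ p) (frobenius_inj κ p) h0)
  have hGrel : coeffMap π G₁ = coeffMap π G₂ * (gb : LaurentSeries κ) := by
    rw [hG1, hG2, hZred, map_mul, hgb]
    push_cast
    rw [mul_smul, s48e_coe_psi_smul, s48e_coe_psi_inv_smul]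
    ring
  -- the Hecke image is the divisor of `g`
  have hE : ∀ P, Divisor.correspondence β α hβ hα D P = P.ord g := fun P =>
    s48e_corr_principal α β hα hβ hfin hN f hf D hD P
  set X : Divisor κ ↥Fb := s48e_redDiv r D with hX
  have c1 : ∀ Q, s48e_redDiv r (Divisor.correspondence β α hβ hα D) Q = Q.ord gb :=
    fun Q => hr.2 g gb G₁ G₂ hG2ne hG hGrel hgb0 (Divisor.correspondence β α hβ hα D) hE Q
  have c2 : ∀ Q', X Q' = Q'.ord z := fun Q' => hrw.2 Y hY hYk hY0 D hD Q'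
  refine Finsupp.ext fun Q => ?_
  have e1 : Q.ord ((Ψ⁻¹ • z) ^ p * ((Ψ * δ) • z)) =
      p * (Ψ • Q).ord z + ((Ψ * δ)⁻¹ • Q).ord z :=
    s48e_ord_es p Ψ (Ψ * δ) Q hz hz
  have e3 : ((Ψ * δ) • X) Q = X ((Ψ * δ)⁻¹ • Q) := SemilinearAut.divisor_smul_apply (Ψ * δ) X Q
  have e4 : (Ψ⁻¹ • X) Q = X (Ψ • Q) := by
    have := SemilinearAut.divisor_smul_apply Ψ⁻¹ X Q
    rwa [inv_inv] at this
  have e5 : (p • (Ψ⁻¹ • X)) Q = p * (Ψ⁻¹ • X) Q := by
    rw [← nsmul_eq_mul]
    exact Finsupp.smul_apply p (Ψ⁻¹ • X) Q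
  have e2 : ((Ψ * δ) • X + p • (Ψ⁻¹ • X)) Q = ((Ψ * δ) • X) Q + (p • (Ψ⁻¹ • X)) Q :=
    Finsupp.add_apply _ _ _
  rw [c1 Q, hgb, e1, e2, e3, e5, e4, c2, c2]
  ring

set_option maxHeartbeats 1600000 in
/-- The two correspondences agree on principal divisors (quotient form). -/
theorem s48e_es_agree_Q (r : Place L ↥F → Place κ ↥Fb) (hr : s48e_IsPlaceRedQ A π F Fb r)
    (hgen : s48e_PrinGen A π F Fb)
    (α β : ↥F →ₐ[L] ↥F') (hα : α.toRingHom.IsIntegral) (hβ : β.toRingHom.IsIntegral)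
    [HasPrincipalDivisors L ↥F']
    (hfin : FiniteAlong L α) (hN : NormFormulaAlong L α hfin)
    (ζ : Lˣ) (hζ : IsPrimitiveRoot (ζ : L) p)
    (dd : SemilinearAut L ↥F) (δ : SemilinearAut κ ↥Fb)
    (hc : s48e_RedCompatQ A π F Fb dd δ)
    (hW : ∀ y : ↥F,
      qExpand L p ((s48e_normAlong α (β y) : ↥F) : LaurentSeries L) =
        qExpand L (p * p) (y : LaurentSeries L) *
          s37e_prodTw p ζ ((dd • y : ↥F) : LaurentSeries L))
    (D : Divisor L ↥F) (hD : D ∈ Divisor.principal (K := L) (F := ↥F)) :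
    s48e_redDiv r (Divisor.correspondence β α hβ hα D) = s48e_frobVer hst p δ (s48e_redDiv r D) := by
  have hD' := hgen hD
  clear hD
  induction hD' using AddSubgroup.closure_induction with
  | mem E hE =>
    obtain ⟨Y, hY, hYk, hY0, hE⟩ := hE
    rw [s48e_frobVer_apply]
    exact s48e_es_principal_Q A π hst r hr α β hα hβ hfin hN ζ hζ (fun y => dd • y) δ hW Y hY hYk
      hY0 (hc Y hY hYk) E hE
  | zero => rw [map_zero, map_zero, map_zero]
  | add E E' _ _ hE hE' => rw [map_add, map_add, hE, hE', map_add, map_add]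
  | neg E _ hE => rw [map_neg, map_neg, hE, map_neg, map_neg]

end Principal

end

end Fermat.Agent.Lib.S48
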