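/-
S48 (Deligne–Serre), wall [T8] (helper8): GENERIC Eichler–Shimura engine, QUOTIENT form, part 3: from the relation on
principal divisors (`hagree`) to all divisors and to `Pic⁰`; the packaged relation on `Pic⁰` in quotient form.
-/
import Fermat.Agent.Lib.S48.EGenQFun

set_option autoImplicit false
set_option linter.style.haveILetI false
set_option linter.unusedSectionVars false

namespace Fermat.Agent.Lib.S48

open ModularCurve HahnSeries AlgebraicCurve IntermediateField Fermat.Agent.Lib.S28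
  Fermat.Agent.Lib.S37 Fermat.Agent.Lib.FF

noncomputable section

variable {L : Type*} [Field L] {F F' : IntermediateField L (LaurentSeries L)}

section ES

variable (A : ValuationSubring L) {κ : Type*} [Field κ] (π : ↥A →+* κ)
  {p : ℕ} [hp : Fact p.Prime] [CharP κ p] [PerfectRing κ p]
  {Fb : IntermediateField κ (LaurentSeries κ)} (hst : s48e_CoeffStable Fb)

set_option maxHeartbeats 1600000 in
/-- **(I2), abstract**: the Eichler–Shimura relation `r_* ∘ T = (Ψδ + p Ψ⁻¹) ∘ r_*` on ALL divisors, from the relation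
on principal divisors. -/
theorem s48e_es_div_of_agree (r : Place L ↥F → Place κ ↥Fb)
    (α β : ↥F →ₐ[L] ↥F') (hα : α.toRingHom.IsIntegral) (hβ : β.toRingHom.IsIntegral)
    [HasPrincipalDivisors L ↥F'] [HasPrincipalDivisors L ↥F]
    (δ : SemilinearAut κ ↥Fb)
    (hagree : ∀ E : Divisor L ↥F, E ∈ Divisor.principal (K := L) (F := ↥F) →
      s48e_redDiv r (Divisor.correspondence β α hβ hα E) =
        s48e_frobVer hst p δ (s48e_redDiv r E))
    (hFI : FundamentalIdentityAlong L β hβ) (hrank : finrankAlong L β = p + 1)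
    (hdeg : ∀ P : Place L ↥F, P.deg = 1)
    (hRI : ∃ γ : ℕ, ∀ D : Divisor L ↥F, (γ : ℤ) ≤ Divisor.degree D →
        ∃ f : ↥F, f ≠ 0 ∧ ∀ P : Place L ↥F, 0 ≤ D P + P.ord f)
    (h3 : ∃ P₁ P₂ P₃, r P₁ ≠ r P₂ ∧ r P₁ ≠ r P₃ ∧ r P₂ ≠ r P₃)
    (D : Divisor L ↥F) :
    s48e_redDiv r (Divisor.correspondence β α hβ hα D) =
      (s48e_psi hst p * δ) • s48e_redDiv r D + p • ((s48e_psi hst p)⁻¹ • s48e_redDiv r D) := by
  classical
  obtain ⟨P₁, P₂, P₃, h12, h13, h23⟩ := h3
  haveI : Nonempty (Place L ↥F) := ⟨P₁⟩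
  set Λ₁ : Divisor L ↥F →+ Divisor κ ↥Fb :=
    (s48e_redDiv r).comp (Divisor.correspondence β α hβ hα) with hΛ₁def
  set Λ₂ : Divisor L ↥F →+ Divisor κ ↥Fb :=
    (s48e_frobVer hst p δ).comp (s48e_redDiv r) with hΛ₂def
  have hΛ₁ : ∀ E, Λ₁ E = s48e_redDiv r (Divisor.correspondence β α hβ hα E) := fun _ => rfl
  have hΛ₂ : ∀ E, Λ₂ E = s48e_frobVer hst p δ (s48e_redDiv r E) := fun _ => rfl
  have hΛ₂s : ∀ P, Λ₂ (Finsupp.single P 1) =
      Finsupp.single ((s48e_psi hst p * δ) • r P) (1 : ℤ) +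
        p • Finsupp.single ((s48e_psi hst p)⁻¹ • r P) (1 : ℤ) := by
    intro P
    rw [hΛ₂, s48e_redDiv_single, s48e_frobVer_single]
  have key : Λ₁ = Λ₂ := by
    refine s37e_eq_of_bounded (Divisor.principal (K := L) (F := ↥F))
      Divisor.degree ?_ s37e_degree_principal (s37e_riemann_convert hRI) Λ₁ Λ₂ ?_ ?_ ?_
      ((p : ℤ) + 1) ?_ ?_ ?_
    · intro P
      rw [Divisor.degree_single, hdeg, Nat.cast_one, mul_one]
    · intro E hE
      rw [hΛ₁, hΛ₂]
      exact hagree E hE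
    · intro P Q
      rw [hΛ₁]
      exact s37e_mapDomain_nonneg r _ (s48e_corr_single_nonneg α β hα hβ P) Q
    · intro P Q
      rw [hΛ₂s]
      exact s37e_single_add_nsmul_nonneg _ _ _ _
    · intro P
      have h1 : s37e_total (Λ₁ (Finsupp.single P 1)) =
          s37e_total (Divisor.correspondence β α hβ hα (Finsupp.single P 1)) :=
        s37e_total_mapDomain r _
      rw [h1, s48e_total_corr_single α β hα hβ hFI hdeg, hrank]
      push_cast
      ring
    · intro P
      rw [hΛ₂s]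
      exact s37e_total_single_add_nsmul _ _ _
    · intro Q
      obtain ⟨P, hP1, hP2⟩ := s37e_exists_avoid r P₁ P₂ P₃ h12 h13 h23
        ((s48e_psi hst p * δ)⁻¹ • Q) (s48e_psi hst p • Q)
      refine ⟨P, ?_⟩
      rw [hΛ₂s]
      refine s37e_single_add_nsmul_eq_zero (fun h => hP1 ?_) (fun h => hP2 ?_) p
      · rw [← h, inv_smul_smul]
      · rw [← h, smul_inv_smul]
  have := DFunLike.congr_fun key D
  rw [hΛ₁, hΛ₂, s48e_frobVer_apply] at this
  exact this

set_option maxHeartbeats 1600000 in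
/-- **(I3), abstract**: the Eichler–Shimura relation on `Pic⁰` from the relation on principal divisors. -/
theorem s48e_es_pic0_of_agree (r : Place L ↥F → Place κ ↥Fb) (hr : s48e_IsPlaceRed A π F Fb r)
    (hgen : s48e_PrinGen A π F Fb)
    (α β : ↥F →ₐ[L] ↥F') (hα : α.toRingHom.IsIntegral) (hβ : β.toRingHom.IsIntegral)
    [HasPrincipalDivisors L ↥F'] [HasPrincipalDivisors L ↥F]
    (hfin : FiniteAlong L α) (hN : NormFormulaAlong L α hfin)
    (δ : SemilinearAut κ ↥Fb)
    (hagree : ∀ E : Divisor L ↥F, E ∈ Divisor.principal (K := L) (F := ↥F) →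
      s48e_redDiv r (Divisor.correspondence β α hβ hα E) =
        s48e_frobVer hst p δ (s48e_redDiv r E))
    (hFI : FundamentalIdentityAlong L β hβ) (hrank : finrankAlong L β = p + 1)
    (hdeg : ∀ P : Place L ↥F, P.deg = 1)
    (hRI : ∃ γ : ℕ, ∀ D : Divisor L ↥F, (γ : ℤ) ≤ Divisor.degree D →
        ∃ f : ↥F, f ≠ 0 ∧ ∀ P : Place L ↥F, 0 ≤ D P + P.ord f)
    (h3 : ∃ P₁ P₂ P₃, r P₁ ≠ r P₂ ∧ r P₁ ≠ r P₃ ∧ r P₂ ≠ r P₃)
    (z : Pic0 L ↥F) :
    s48e_redPic0 r hr hgen (Pic0.correspondence β α hβ hα hFI hfin hN z) =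
      (s48e_psi hst p * δ) • s48e_redPic0 r hr hgen z +
        p • ((s48e_psi hst p)⁻¹ • s48e_redPic0 r hr hgen z) := by
  obtain ⟨D, rfl⟩ := Pic0.mk_surjective z
  rw [Pic0.correspondence_mk, s48e_redPic0_mk, s48e_redPic0_mk]
  rw [SemilinearAut.pic0_smul_mk, SemilinearAut.pic0_smul_mk]
  rw [← s37e_pic0_mk_nsmul, ← Pic0.mk_add]
  refine congrArg Pic0.mk (Subtype.ext ?_)
  rw [AddSubgroup.coe_add, AddSubgroup.coe_nsmul, SemilinearAut.coe_degZeroSMulHom,
    SemilinearAut.coe_degZeroSMulHom, s48e_coe_redDegZero, s48e_coe_redDegZero,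
    Pic0.coe_degZeroCorrespondence]
  exact s48e_es_div_of_agree hst r α β hα hβ δ hagree hFI hrank hdeg hRI h3
    (D : Divisor L ↥F)

end ES

section Packaged

variable [CharZero L] [IsAlgClosed L]
variable (A : ValuationSubring L) {κ : Type*} [Field κ] (π : ↥A →+* κ)
  {p : ℕ} [hp : Fact p.Prime] [CharP κ p] [PerfectRing κ p]
  {Fb : IntermediateField κ (LaurentSeries κ)} (hst : s48e_CoeffStable Fb)

set_option maxHeartbeats 1600000 in
/-- **The twisted Eichler–Shimura relation on `Pic⁰`, packaged, quotient form**: `F`, `F'` finite over `L(x)`, `L(x')`;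
`α`, `β` finite, `[F' : β F] = p + 1`; a place reduction `r` with STRONG conservation and three distinct values; a
diamond `dd` preserving the Gauss ring with reduction `δ`; the twisted norm product formula. -/
theorem s48e_es_pic0_ff_Q (x : ↥F) [FFGen L x] (x' : ↥F') [FFGen L x']
    (r : Place L ↥F → Place κ ↥Fb) (hr : s48e_IsPlaceRedQ A π F Fb r)
    (hgen : s48e_PrinGen A π F Fb)
    (α β : ↥F →ₐ[L] ↥F') (hfinα : FiniteAlong L α) (hfinβ : FiniteAlong L β)
    (hrank : finrankAlong L β = p + 1)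
    (ζ : Lˣ) (hζ : IsPrimitiveRoot (ζ : L) p)
    (dd : SemilinearAut L ↥F) (δ : SemilinearAut κ ↥Fb)
    (hc : s48e_RedCompatQ A π F Fb dd δ)
    (hW : ∀ y : ↥F,
      qExpand L p ((s48e_normAlong α (β y) : ↥F) : LaurentSeries L) =
        qExpand L (p * p) (y : LaurentSeries L) *
          s37e_prodTw p ζ ((dd • y : ↥F) : LaurentSeries L))
    (h3 : ∃ P₁ P₂ P₃, r P₁ ≠ r P₂ ∧ r P₁ ≠ r P₃ ∧ r P₂ ≠ r P₃) :
    ∃ (hα : α.toRingHom.IsIntegral) (hβ : β.toRingHom.IsIntegral)
      (_ : HasPrincipalDivisors L ↥F') (_ : HasPrincipalDivisors L ↥F)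
      (hFI : FundamentalIdentityAlong L β hβ) (hN : NormFormulaAlong L α hfinα),
      ∀ z : Pic0 L ↥F,
        s48e_redPic0 r hr.isPlaceRed hgen (Pic0.correspondence β α hβ hα hFI hfinα hN z) =
          (s48e_psi hst p * δ) • s48e_redPic0 r hr.isPlaceRed hgen z +
            p • ((s48e_psi hst p)⁻¹ • s48e_redPic0 r hr.isPlaceRed hgen z) := by
  have hα := s48e_isIntegral_of_finiteAlong α hfinα
  have hβ := s48e_isIntegral_of_finiteAlong β hfinβ
  haveI hP' : HasPrincipalDivisors L ↥F' := s48e_hasPrincipalDivisors x'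
  haveI hP : HasPrincipalDivisors L ↥F := s48e_hasPrincipalDivisors x
  have hFI := s48e_fundamentalIdentityAlong x x' β hfinβ hβ
  have hN := s48e_normFormulaAlong x x' α hfinα
  refine ⟨hα, hβ, hP', hP, hFI, hN, fun z => ?_⟩
  exact s48e_es_pic0_of_agree A π hst r hr.isPlaceRed hgen α β hα hβ hfinα hN δ
    (fun E hE => s48e_es_agree_Q A π hst r hr hgen α β hα hβ hfinα hN ζ hζ dd δ hc hW E hE)
    hFI hrank (fun P => ff_deg_eq_one L x P) (s37i_riemann (K := L) x) h3 z

end Packaged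

end

end Fermat.Agent.Lib.S48
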