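/-
S48 (Deligne–Serre), wall [T8] (helper8): GENERIC Eichler–Shimura engine, QUOTIENT form, part 4: EQUIVARIANCE of the
(unique) place reduction under a pair `(Sg, Ps)` compatible with the Gauss ring (`s48e_RedCompatQ`), from STRONG
conservation of number.
-/
import Fermat.Agent.Lib.S48.EGenQDefs
import Fermat.Agent.Lib.S48.EGenEquiv

set_option autoImplicit false
set_option linter.style.haveILetI false
set_option linter.unusedSectionVars false

noncomputable section

open AlgebraicCurve ModularCurve HahnSeries IntermediateField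
open Fermat.Agent.Lib.FF Fermat.Agent.Lib.S37 Fermat.Agent.Lib.S28

namespace Fermat.Agent.Lib.S48

variable {L : Type*} [Field L] {A : ValuationSubring L} {κ : Type*} [Field κ] {π : ↥A →+* κ}
  {F : IntermediateField L (LaurentSeries L)} {Fb : IntermediateField κ (LaurentSeries κ)}

/-- **The twist of a strong place reduction by a Gauss-compatible pair is a place reduction.** -/
theorem s48e_twist_isPlaceRed_Q {Sg : SemilinearAut L ↥F} {Ps : SemilinearAut κ ↥Fb}
    (hc : s48e_RedCompatQ A π F Fb Sg Ps) {r : Place L ↥F → Place κ ↥Fb}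
    (hr : s48e_IsPlaceRedQ A π F Fb r) : s48e_IsPlaceRed A π F Fb (s48e_twist Sg Ps r) := by
  refine ⟨fun P => ?_, ?_⟩
  · show (Ps⁻¹ • r (Sg • P)).deg = P.deg
    rw [SemilinearAut.deg_smul, hr.1, SemilinearAut.deg_smul]
  · intro Y hY hYk hne D hD Q
    obtain ⟨Z₁, Z₂, hZ2, hZrel, hZred⟩ := hc Y hY hYk
    have hne' : Ps • (⟨coeffMap π Y, hYk⟩ : ↥Fb) ≠ 0 := by
      intro h1
      apply hne
      have h2 := congrArg (Ps⁻¹ • ·) h1
      simp only [inv_smul_smul, smul_zero] at h2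
      exact congrArg Subtype.val h2
    have hD' : ∀ P, (Sg • D) P = P.ord (Sg • (⟨coeffMap A.subtype Y, hY⟩ : ↥F)) := by
      intro P
      rw [SemilinearAut.divisor_smul_apply, hD]
      have h := SemilinearAut.ord_smul Sg (Sg⁻¹ • P) (⟨coeffMap A.subtype Y, hY⟩ : ↥F)
      rw [smul_inv_smul] at h
      exact h.symm
    rw [s48e_mapDomain_twist, SemilinearAut.divisor_smul_apply, inv_inv,
      hr.2 _ _ Z₁ Z₂ hZ2 hZrel hZred hne' _ hD' (Ps • Q), SemilinearAut.ord_smul]

/-- **Equivariance, place level (quotient form)**. -/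
theorem s48e_equivariant_Q {Sg : SemilinearAut L ↥F} {Ps : SemilinearAut κ ↥Fb}
    (hc : s48e_RedCompatQ A π F Fb Sg Ps) {r : Place L ↥F → Place κ ↥Fb}
    (huniq : ∀ r' : Place L ↥F → Place κ ↥Fb, s48e_IsPlaceRed A π F Fb r' → r' = r)
    (hr : s48e_IsPlaceRedQ A π F Fb r) (P : Place L ↥F) : r (Sg • P) = Ps • r P := by
  have h := congrFun (huniq _ (s48e_twist_isPlaceRed_Q hc hr)) P
  rw [← h, s48e_twist, smul_inv_smul]

theorem s48e_mapDomain_equivariant_Q {Sg : SemilinearAut L ↥F} {Ps : SemilinearAut κ ↥Fb}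
    (hc : s48e_RedCompatQ A π F Fb Sg Ps) {r : Place L ↥F → Place κ ↥Fb}
    (huniq : ∀ r' : Place L ↥F → Place κ ↥Fb, s48e_IsPlaceRed A π F Fb r' → r' = r)
    (hr : s48e_IsPlaceRedQ A π F Fb r) (D : Divisor L ↥F) :
    Finsupp.mapDomain r (Sg • D) = Ps • Finsupp.mapDomain r D := by
  rw [SemilinearAut.divisor_smul_def, SemilinearAut.divisor_smul_def, ← Finsupp.mapDomain_comp,
    ← Finsupp.mapDomain_comp]
  congr 1
  funext P
  exact s48e_equivariant_Q hc huniq hr P

/-- **Equivariance, `Pic⁰` level (quotient form)**. -/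
theorem s48e_redPic0_equivariant_Q {Sg : SemilinearAut L ↥F} {Ps : SemilinearAut κ ↥Fb}
    (hc : s48e_RedCompatQ A π F Fb Sg Ps) {r : Place L ↥F → Place κ ↥Fb}
    (huniq : ∀ r' : Place L ↥F → Place κ ↥Fb, s48e_IsPlaceRed A π F Fb r' → r' = r)
    (hrQ : s48e_IsPlaceRedQ A π F Fb r)
    (hr : s48e_IsPlaceRed A π F Fb r) (hgen : s48e_PrinGen A π F Fb) (z : Pic0 L ↥F) :
    s48e_redPic0 r hr hgen (Sg • z) = Ps • s48e_redPic0 r hr hgen z := by
  obtain ⟨D, rfl⟩ := Pic0.mk_surjective z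
  rw [SemilinearAut.pic0_smul_mk, s48e_redPic0_mk, s48e_redPic0_mk, SemilinearAut.pic0_smul_mk]
  congr 1
  apply Subtype.ext
  rw [s48e_coe_redDegZero, SemilinearAut.coe_degZeroSMulHom, SemilinearAut.coe_degZeroSMulHom,
    s48e_coe_redDegZero]
  exact s48e_mapDomain_equivariant_Q hc huniq hrQ D

end Fermat.Agent.Lib.S48
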