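/-
S48 (Deligne–Serre), wall [T8] (helper8): GENERIC Eichler–Shimura engine, QUOTIENT form, part 5: the TOP.

Same statements as `EGenTop.s48e_redAt_gen`, `s48e_redAt_gen'`, with the class `S` of good integral series replaced by
* `hrQ : s48e_IsPlaceRedQ r`     (STRONG conservation of number: for all Gauss units, presented as quotients), and
* `hc  : s48e_RedCompatQ dd δ`   (the diamond preserves the Gauss RING and induces `δ` on the reductions).
-/
import Fermat.Agent.Lib.S48.EGenTop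
import Fermat.Agent.Lib.S48.EGenQDiv
import Fermat.Agent.Lib.S48.EGenQEquiv

set_option autoImplicit false
set_option linter.style.haveILetI false
set_option linter.unusedSectionVars false

noncomputable section

open AlgebraicCurve ModularCurve HahnSeries IntermediateField
open Fermat.Agent.Lib.FF Fermat.Agent.Lib.S37 Fermat.Agent.Lib.S28

namespace Fermat.Agent.Lib.S48

section Top

variable {K L : Type*} [Field K] [Field L] [Algebra K L] [CharZero L] [IsAlgClosed L]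
  {F F' : IntermediateField L (LaurentSeries L)}
variable (A : ValuationSubring L) {κ : Type*} [Field κ] (π : ↥A →+* κ)
  {p : ℕ} [hp : Fact p.Prime] [CharP κ p] [PerfectRing κ p]
  {Fb : IntermediateField κ (LaurentSeries κ)} (hFb : s48e_CoeffStable Fb)
  (hF : s48e_CoeffStable F)

include hFb in
set_option maxHeartbeats 1600000 in
/-- **(R3) generic, quotient form**: `Frob² − ⟨p⟩ T_p^* Frob + p ⟨p⟩ = 0` after reduction. -/
theorem s48e_redAt_genQ (hπ : ∀ a : ↥A, IsLocalRing.residue ↥A a = 0 → π a = 0)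
    (x : ↥F) [FFGen L x] (x' : ↥F') [FFGen L x']
    (r : Place L ↥F → Place κ ↥Fb) (hr : s48e_IsPlaceRed A π F Fb r)
    (hrQ : s48e_IsPlaceRedQ A π F Fb r)
    (hgen : s48e_PrinGen A π F Fb)
    (α β : ↥F →ₐ[L] ↥F') (hfinα : FiniteAlong L α) (hfinβ : FiniteAlong L β)
    (hrank : finrankAlong L β = p + 1)
    (ζ : Lˣ) (hζ : IsPrimitiveRoot (ζ : L) p)
    (dd : SemilinearAut L ↥F) (δ : SemilinearAut κ ↥Fb)
    (hc : s48e_RedCompatQ A π F Fb dd δ)
    (hW : ∀ y : ↥F,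
      qExpand L p ((s48e_normAlong α (β y) : ↥F) : LaurentSeries L) =
        qExpand L (p * p) (y : LaurentSeries L) *
          s37e_prodTw p ζ ((dd • y : ↥F) : LaurentSeries L))
    (h3 : ∃ P₁ P₂ P₃, r P₁ ≠ r P₂ ∧ r P₁ ≠ r P₃ ∧ r P₂ ≠ r P₃)
    (hα : α.toRingHom.IsIntegral) (hβ : β.toRingHom.IsIntegral)
    [HasPrincipalDivisors L ↥F'] [HasPrincipalDivisors L ↥F]
    (hFI : FundamentalIdentityAlong L β hβ) (hN : NormFormulaAlong L α hfinα)
    (σ : L ≃ₐ[K] L) (hσ : A.IsFrobeniusAt σ p)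
    (hσd : s48e_galAut K hF σ * dd = dd * s48e_galAut K hF σ)
    (z : Pic0 L ↥F) :
    s48e_redPic0 r hr hgen
      (s48e_galAut K hF σ • s48e_galAut K hF σ • z
        - dd⁻¹ • Pic0.correspondence β α hβ hα hFI hfinα hN (s48e_galAut K hF σ • z)
        + (p : ℤ) • dd⁻¹ • z) = 0 := by
  have huniq := s48e_unique_of_three A π x hr hgen h3
  obtain ⟨hα', hβ', hP', hP, hFI', hN', hT⟩ :=
    s48e_es_pic0_ff_Q A π hFb x x' r hrQ hgen α β hfinα hfinβ hrank ζ hζ dd δ hc hW h3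
  -- the operators
  have hS : ∀ w : Pic0 L ↥F, s48e_redPic0 r hr hgen (s48e_galAut K hF σ • w) =
      s48e_psi hFb p • s48e_redPic0 r hr hgen w :=
    fun w => s48e_red_frobenius A π hF hFb huniq hr hgen hπ p σ hσ w
  have hD : ∀ w : Pic0 L ↥F, s48e_redPic0 r hr hgen (dd • w) = δ • s48e_redPic0 r hr hgen w :=
    fun w => s48e_redPic0_equivariant_Q hc huniq hrQ hr hgen w
  have hE : ∀ w : Pic0 L ↥F, s48e_redPic0 r hr hgen (dd⁻¹ • w) =
      δ⁻¹ • s48e_redPic0 r hr hgen w := by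
    intro w
    have h := hD (dd⁻¹ • w)
    rw [smul_inv_smul] at h
    rw [h, inv_smul_smul]
  have hSE : ∀ w : Pic0 L ↥F, s48e_galAut K hF σ • dd⁻¹ • w = dd⁻¹ • s48e_galAut K hF σ • w := by
    intro w
    have h : s48e_galAut K hF σ * dd⁻¹ = dd⁻¹ * s48e_galAut K hF σ := by
      rw [eq_inv_mul_iff_mul_eq, ← mul_assoc, ← hσd, mul_assoc, mul_inv_cancel, mul_one]
    rw [smul_smul, smul_smul, h]
  have hT' : ∀ w : Pic0 L ↥F,
      s48e_redPic0 r hr hgen (Pic0.correspondence β α hβ hα hFI hfinα hN w) =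
        (s48e_psi hFb p * δ⁻¹⁻¹) • s48e_redPic0 r hr hgen w +
          p • ((s48e_psi hFb p)⁻¹ • s48e_redPic0 r hr hgen w) := by
    intro w
    rw [inv_inv]
    exact hT w
  exact s48e_r3_algebra' (G := SemilinearAut κ ↥Fb) (X := Pic0 L ↥F) (Y := Pic0 κ ↥Fb)
    (s48e_redPic0 r hr hgen) (fun w => s48e_galAut K hF σ • w)
    (fun w => Pic0.correspondence β α hβ hα hFI hfinα hN w) (fun w => dd⁻¹ • w)
    (s48e_psi hFb p) δ⁻¹ p (fun w => ⟨dd • w, inv_smul_smul dd w⟩) hSE hS hE hT' z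

include hFb in
set_option maxHeartbeats 1600000 in
/-- **(R3) generic, quotient form, second order of the operators**: `Frob² − T_p^* ⟨p⟩ Frob + p ⟨p⟩ = 0` after
reduction (the order of `KIfaceH.s48k_TpJ = heckeFF ∘ diamondJ`). -/
theorem s48e_redAt_genQ' (hπ : ∀ a : ↥A, IsLocalRing.residue ↥A a = 0 → π a = 0)
    (x : ↥F) [FFGen L x] (x' : ↥F') [FFGen L x']
    (r : Place L ↥F → Place κ ↥Fb) (hr : s48e_IsPlaceRed A π F Fb r)
    (hrQ : s48e_IsPlaceRedQ A π F Fb r)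
    (hgen : s48e_PrinGen A π F Fb)
    (α β : ↥F →ₐ[L] ↥F') (hfinα : FiniteAlong L α) (hfinβ : FiniteAlong L β)
    (hrank : finrankAlong L β = p + 1)
    (ζ : Lˣ) (hζ : IsPrimitiveRoot (ζ : L) p)
    (dd : SemilinearAut L ↥F) (δ : SemilinearAut κ ↥Fb)
    (hc : s48e_RedCompatQ A π F Fb dd δ)
    (hW : ∀ y : ↥F,
      qExpand L p ((s48e_normAlong α (β y) : ↥F) : LaurentSeries L) =
        qExpand L (p * p) (y : LaurentSeries L) *
          s37e_prodTw p ζ ((dd • y : ↥F) : LaurentSeries L))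
    (h3 : ∃ P₁ P₂ P₃, r P₁ ≠ r P₂ ∧ r P₁ ≠ r P₃ ∧ r P₂ ≠ r P₃)
    (hα : α.toRingHom.IsIntegral) (hβ : β.toRingHom.IsIntegral)
    [HasPrincipalDivisors L ↥F'] [HasPrincipalDivisors L ↥F]
    (hFI : FundamentalIdentityAlong L β hβ) (hN : NormFormulaAlong L α hfinα)
    (σ : L ≃ₐ[K] L) (hσ : A.IsFrobeniusAt σ p)
    (hσd : s48e_galAut K hF σ * dd = dd * s48e_galAut K hF σ)
    (z : Pic0 L ↥F) :
    s48e_redPic0 r hr hgen
      (s48e_galAut K hF σ • s48e_galAut K hF σ • z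
        - Pic0.correspondence β α hβ hα hFI hfinα hN (dd⁻¹ • s48e_galAut K hF σ • z)
        + (p : ℤ) • dd⁻¹ • z) = 0 := by
  have huniq := s48e_unique_of_three A π x hr hgen h3
  obtain ⟨hα', hβ', hP', hP, hFI', hN', hT⟩ :=
    s48e_es_pic0_ff_Q A π hFb x x' r hrQ hgen α β hfinα hfinβ hrank ζ hζ dd δ hc hW h3
  -- the operators
  have hS : ∀ w : Pic0 L ↥F, s48e_redPic0 r hr hgen (s48e_galAut K hF σ • w) =
      s48e_psi hFb p • s48e_redPic0 r hr hgen w :=
    fun w => s48e_red_frobenius A π hF hFb huniq hr hgen hπ p σ hσ w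
  have hD : ∀ w : Pic0 L ↥F, s48e_redPic0 r hr hgen (dd • w) = δ • s48e_redPic0 r hr hgen w :=
    fun w => s48e_redPic0_equivariant_Q hc huniq hrQ hr hgen w
  have hE : ∀ w : Pic0 L ↥F, s48e_redPic0 r hr hgen (dd⁻¹ • w) =
      δ⁻¹ • s48e_redPic0 r hr hgen w := by
    intro w
    have h := hD (dd⁻¹ • w)
    rw [smul_inv_smul] at h
    rw [h, inv_smul_smul]
  have hSE : ∀ w : Pic0 L ↥F, s48e_galAut K hF σ • dd⁻¹ • w = dd⁻¹ • s48e_galAut K hF σ • w := by
    intro w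
    have h : s48e_galAut K hF σ * dd⁻¹ = dd⁻¹ * s48e_galAut K hF σ := by
      rw [eq_inv_mul_iff_mul_eq, ← mul_assoc, ← hσd, mul_assoc, mul_inv_cancel, mul_one]
    rw [smul_smul, smul_smul, h]
  have hT' : ∀ w : Pic0 L ↥F,
      s48e_redPic0 r hr hgen (Pic0.correspondence β α hβ hα hFI hfinα hN w) =
        (s48e_psi hFb p * δ⁻¹⁻¹) • s48e_redPic0 r hr hgen w +
          p • ((s48e_psi hFb p)⁻¹ • s48e_redPic0 r hr hgen w) := by
    intro w
    rw [inv_inv]
    exact hT w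
  exact s48e_r3_algebra'' (G := SemilinearAut κ ↥Fb) (X := Pic0 L ↥F) (Y := Pic0 κ ↥Fb)
    (s48e_redPic0 r hr hgen) (fun w => s48e_galAut K hF σ • w)
    (fun w => Pic0.correspondence β α hβ hα hFI hfinα hN w) (fun w => dd⁻¹ • w)
    (s48e_psi hFb p) δ⁻¹ p hSE hS hE hT' z

end Top

end Fermat.Agent.Lib.S48
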