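/-
S48 (Deligne–Serre), wall [T8] (helper8): GENERIC Eichler–Shimura engine, part 8: the TOP of the generic engine.

`s48e_r3_algebra'` : the abstract algebra with the commutation `S ∘ E = E ∘ S` UPSTAIRS (the diamond automorphism is
defined over the ground field) instead of `Ψ ε = ε Ψ` downstairs.

`s48e_redAt_gen`   : for `F, F' ⊆ L((q))` (finite over `L(x)`, `L(x')`, `F` coefficient-stable), `Fb ⊆ κ((q))`
coefficient-stable, a place reduction `r : Place F → Place Fb` with three distinct values, finite `α β : F → F'` with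
`[F' : βF] = p + 1`, a diamond `dd` of `F` with reduction `δ` on a class `S` of good integral series generating the principal divisors
(`s48e_RedCompatOn`, `s48e_PrinGenOn`, see `EGenOn`), the twisted norm formula [W]

  `Nm_α (β y) (q^p) = y (q^{p²}) · ∏_{ζ^p = 1} (dd y)(ζ q)`

and a Frobenius element `σ` at `A ∣ p` commuting with `dd`:

  `red (σ σ z − dd⁻¹ (α_* β^* (σ z)) + p • dd⁻¹ z) = 0`   on `Pic⁰ F`,

and `red` is invariant under inertia (`s48e_redAt_inertia`).  (For the Kummer layer `F_H` of `Γ₀(M)` and `dd = ⟨p⟩⁻¹`,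
`dd⁻¹ ∘ α_* β^* = ⟨p⟩ T_p^* = T_p` (classical) and `dd⁻¹ = ⟨p⟩`: this is `Frob² − T_p Frob + p⟨p⟩ = 0`.)
-/
import Fermat.Agent.Lib.S48.EGenGal

set_option autoImplicit false
set_option linter.style.haveILetI false
set_option linter.unusedSectionVars false

noncomputable section

open AlgebraicCurve ModularCurve HahnSeries IntermediateField
open Fermat.Agent.Lib.FF Fermat.Agent.Lib.S37 Fermat.Agent.Lib.S28

namespace Fermat.Agent.Lib.S48

/-- **the algebra of (R3), commutation upstairs**: if `red ∘ S = Ψ • red`, `red ∘ E = ε • red`,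
`red ∘ T = Ψ ε⁻¹ • red + n • Ψ⁻¹ • red`, `E` is surjective and commutes with `S`, then
`red (S (S y) − E (T (S y)) + n • E y) = 0`. -/
theorem s48e_r3_algebra' {G X Y : Type*} [Group G] [AddCommGroup X] [AddCommGroup Y]
    [DistribMulAction G Y] (red : X →+ Y) (S T E : X → X) (Ψ ε : G) (n : ℕ)
    (hEsurj : Function.Surjective E) (hSE : ∀ x, S (E x) = E (S x))
    (hS : ∀ x, red (S x) = Ψ • red x) (hE : ∀ x, red (E x) = ε • red x)
    (hT : ∀ x, red (T x) = (Ψ * ε⁻¹) • red x + n • (Ψ⁻¹ • red x)) (y : X) :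
    red (S (S y) - E (T (S y)) + (n : ℤ) • E y) = 0 := by
  obtain ⟨x, hx⟩ := hEsurj (S y)
  -- `Ψ ε r_x = ε Ψ r_x`
  have h1 : Ψ • ε • red x = ε • Ψ • red x := by
    rw [← hE, ← hS, hSE, hE, hS]
  -- `red (S y) = ε r_x`
  have h2 : red (S y) = ε • red x := by rw [← hx, hE]
  have h3 : red (S (S y)) = ε • Ψ • red x := by rw [hS, h2, h1]
  have h4 : red (E (T (S y))) = ε • Ψ • red x + n • ε • red y := by
    rw [hE, hT, h2, smul_add, mul_smul, inv_smul_smul, ← h2, hS, inv_smul_smul,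
      smul_comm ε n (red y)]
  rw [map_add, map_sub, map_zsmul, h3, h4, hE, natCast_zsmul]
  abel

/-- **the algebra of (R3), second order of the operators**: the same with `T (E (S y))` (only the commutation
`S ∘ E = E ∘ S` upstairs is used). -/
theorem s48e_r3_algebra'' {G X Y : Type*} [Group G] [AddCommGroup X] [AddCommGroup Y]
    [DistribMulAction G Y] (red : X →+ Y) (S T E : X → X) (Ψ ε : G) (n : ℕ)
    (hSE : ∀ x, S (E x) = E (S x))
    (hS : ∀ x, red (S x) = Ψ • red x) (hE : ∀ x, red (E x) = ε • red x)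
    (hT : ∀ x, red (T x) = (Ψ * ε⁻¹) • red x + n • (Ψ⁻¹ • red x)) (y : X) :
    red (S (S y) - T (E (S y)) + (n : ℤ) • E y) = 0 := by
  -- `Ψ ε r = ε Ψ r`
  have h1 : Ψ • ε • red y = ε • Ψ • red y := by
    rw [← hE, ← hS, hSE, hE, hS]
  have h4 : red (T (E (S y))) = Ψ • Ψ • red y + n • ε • red y := by
    rw [hT, hE, hS, mul_smul, inv_smul_smul, ← h1, inv_smul_smul]
  rw [map_add, map_sub, map_zsmul, hS, hS, h4, hE, natCast_zsmul]
  abel

section Top

variable {K L : Type*} [Field K] [Field L] [Algebra K L] [CharZero L] [IsAlgClosed L]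
  {F F' : IntermediateField L (LaurentSeries L)}
variable (A : ValuationSubring L) {κ : Type*} [Field κ] (π : ↥A →+* κ)
  {p : ℕ} [hp : Fact p.Prime] [CharP κ p] [PerfectRing κ p]
  {Fb : IntermediateField κ (LaurentSeries κ)} (hFb : s48e_CoeffStable Fb)
  (hF : s48e_CoeffStable F)

/-- uniqueness from three distinct values. -/
theorem s48e_unique_of_three (x : ↥F) [FFGen L x]
    {r : Place L ↥F → Place κ ↥Fb} (hr : s48e_IsPlaceRed A π F Fb r)
    (hgen : s48e_PrinGen A π F Fb)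
    (h3 : ∃ P₁ P₂ P₃, r P₁ ≠ r P₂ ∧ r P₁ ≠ r P₃ ∧ r P₂ ≠ r P₃)
    (r' : Place L ↥F → Place κ ↥Fb) (hr' : s48e_IsPlaceRed A π F Fb r') : r' = r := by
  obtain ⟨P₁, P₂, -, h12, -, -⟩ := h3
  exact (s48e_unique x hr hr' hgen ⟨P₁, P₂, h12⟩).symm

include hFb in
/-- **(R1) generic**: the reduction on `Pic⁰` is invariant under inertia. -/
theorem s48e_redAt_inertia (hπ : ∀ a : ↥A, IsLocalRing.residue ↥A a = 0 → π a = 0)
    (x : ↥F) [FFGen L x]
    {r : Place L ↥F → Place κ ↥Fb} (hr : s48e_IsPlaceRed A π F Fb r)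
    (hgen : s48e_PrinGen A π F Fb)
    (h3 : ∃ P₁ P₂ P₃, r P₁ ≠ r P₂ ∧ r P₁ ≠ r P₃ ∧ r P₂ ≠ r P₃)
    (τ : L ≃ₐ[K] L) (hτ : τ ∈ A.inertiaSubgroupIn K) (z : Pic0 L ↥F) :
    s48e_redPic0 r hr hgen (s48e_galAut K hF τ • z) = s48e_redPic0 r hr hgen z :=
  s48e_red_inertia A π hF hFb (s48e_unique_of_three A π x hr hgen h3) hr hgen hπ τ hτ z

include hFb in
set_option maxHeartbeats 1600000 in
/-- **(R3) generic: the twisted Eichler–Shimura relation** `Frob² − ⟨p⟩ T_p^* Frob + p ⟨p⟩ = 0` after reduction. -/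
theorem s48e_redAt_gen (hπ : ∀ a : ↥A, IsLocalRing.residue ↥A a = 0 → π a = 0)
    (x : ↥F) [FFGen L x] (x' : ↥F') [FFGen L x']
    (r : Place L ↥F → Place κ ↥Fb) (hr : s48e_IsPlaceRed A π F Fb r)
    (hgen : s48e_PrinGen A π F Fb)
    (α β : ↥F →ₐ[L] ↥F') (hfinα : FiniteAlong L α) (hfinβ : FiniteAlong L β)
    (hrank : finrankAlong L β = p + 1)
    (ζ : Lˣ) (hζ : IsPrimitiveRoot (ζ : L) p)
    (dd : SemilinearAut L ↥F) (δ : SemilinearAut κ ↥Fb)
    (S : LaurentSeries ↥A → Prop) (hgenS : s48e_PrinGenOn A π F Fb S)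
    (hc : s48e_RedCompatOn A π F Fb S dd δ)
    (hW : ∀ y : ↥F,
      qExpand L p ((s48e_normAlong α (β y) : ↥F) : LaurentSeries L) =
        qExpand L (p * p) (y : LaurentSeries L) *
          s37e_prodTw p ζ ((dd • y : ↥F) : LaurentSeries L))
    (h3 : ∃ P₁ P₂ P₃, r P₁ ≠ r P₂ ∧ r P₁ ≠ r P₃ ∧ r P₂ ≠ r P₃)
    (hα : α.toRingHom.IsIntegral) (hβ : β.toRingHom.IsIntegral)
    [HasPrincipalDivisors L ↥F'] [HasPrincipalDivisors L ↥F]
    (hFI : FundamentalIdentityAlong L β hβ) (hN : NormFormulaAlong L α hfinα)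
    (σ : L ≃ₐ[K] L) (hσ : A.IsFrobeniusAt σ p)
    (hσd : s48e_galAut K hF σ * dd = dd * s48e_galAut K hF σ)
    (z : Pic0 L ↥F) :
    s48e_redPic0 r hr hgen
      (s48e_galAut K hF σ • s48e_galAut K hF σ • z
        - dd⁻¹ • Pic0.correspondence β α hβ hα hFI hfinα hN (s48e_galAut K hF σ • z)
        + (p : ℤ) • dd⁻¹ • z) = 0 := by
  have huniq := s48e_unique_of_three A π x hr hgen h3
  obtain ⟨hα', hβ', hP', hP, hFI', hN', hT⟩ :=
    s48e_es_pic0_ff A π hFb x x' r hr hgen α β hfinα hfinβ hrank ζ hζ (fun y => dd • y) δ S hgenS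
      (fun Y hY hYk hSY => by
        obtain ⟨Y', -, h1, h2⟩ := hc Y hY hYk hSY
        exact ⟨Y', h1, h2⟩) hW h3
  have huniqS : ∀ r' : Place L ↥F → Place κ ↥Fb, s48e_IsPlaceRedOn A π F Fb S r' → r' = r := by
    intro r' hr'
    obtain ⟨P₁, P₂, -, h12, -, -⟩ := h3
    exact (s48e_unique_on x hr.on hr' hgenS ⟨P₁, P₂, h12⟩).symm
  -- the operators
  have hS : ∀ w : Pic0 L ↥F, s48e_redPic0 r hr hgen (s48e_galAut K hF σ • w) =
      s48e_psi hFb p • s48e_redPic0 r hr hgen w :=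
    fun w => s48e_red_frobenius A π hF hFb huniq hr hgen hπ p σ hσ w
  have hD : ∀ w : Pic0 L ↥F, s48e_redPic0 r hr hgen (dd • w) = δ • s48e_redPic0 r hr hgen w :=
    fun w => s48e_redPic0_equivariant_on hc huniqS hr hgen w
  have hE : ∀ w : Pic0 L ↥F, s48e_redPic0 r hr hgen (dd⁻¹ • w) =
      δ⁻¹ • s48e_redPic0 r hr hgen w := by
    intro w
    have h := hD (dd⁻¹ • w)
    rw [smul_inv_smul] at h
    rw [h, inv_smul_smul]
  have hSE : ∀ w : Pic0 L ↥F, s48e_galAut K hF σ • dd⁻¹ • w = dd⁻¹ • s48e_galAut K hF σ • w := by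
    intro w
    have h : s48e_galAut K hF σ * dd⁻¹ = dd⁻¹ * s48e_galAut K hF σ := by
      rw [eq_inv_mul_iff_mul_eq, ← mul_assoc, ← hσd, mul_assoc, mul_inv_cancel, mul_one]
    rw [smul_smul, smul_smul, h]
  have hT' : ∀ w : Pic0 L ↥F,
      s48e_redPic0 r hr hgen (Pic0.correspondence β α hβ hα hFI hfinα hN w) =
        (s48e_psi hFb p * δ⁻¹⁻¹) • s48e_redPic0 r hr hgen w +
          p • ((s48e_psi hFb p)⁻¹ • s48e_redPic0 r hr hgen w) := by
    intro w
    rw [inv_inv]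
    exact hT w
  exact s48e_r3_algebra' (G := SemilinearAut κ ↥Fb) (X := Pic0 L ↥F) (Y := Pic0 κ ↥Fb)
    (s48e_redPic0 r hr hgen) (fun w => s48e_galAut K hF σ • w)
    (fun w => Pic0.correspondence β α hβ hα hFI hfinα hN w) (fun w => dd⁻¹ • w)
    (s48e_psi hFb p) δ⁻¹ p (fun w => ⟨dd • w, inv_smul_smul dd w⟩) hSE hS hE hT' z

include hFb in
set_option maxHeartbeats 1600000 in
/-- **(R3) generic, second form**: `Frob² − T_p^* ⟨p⟩ Frob + p ⟨p⟩ = 0` after reduction (the order of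
`KIfaceH.s48k_TpJ = heckeFF ∘ diamondJ`). -/
theorem s48e_redAt_gen' (hπ : ∀ a : ↥A, IsLocalRing.residue ↥A a = 0 → π a = 0)
    (x : ↥F) [FFGen L x] (x' : ↥F') [FFGen L x']
    (r : Place L ↥F → Place κ ↥Fb) (hr : s48e_IsPlaceRed A π F Fb r)
    (hgen : s48e_PrinGen A π F Fb)
    (α β : ↥F →ₐ[L] ↥F') (hfinα : FiniteAlong L α) (hfinβ : FiniteAlong L β)
    (hrank : finrankAlong L β = p + 1)
    (ζ : Lˣ) (hζ : IsPrimitiveRoot (ζ : L) p)
    (dd : SemilinearAut L ↥F) (δ : SemilinearAut κ ↥Fb)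
    (S : LaurentSeries ↥A → Prop) (hgenS : s48e_PrinGenOn A π F Fb S)
    (hc : s48e_RedCompatOn A π F Fb S dd δ)
    (hW : ∀ y : ↥F,
      qExpand L p ((s48e_normAlong α (β y) : ↥F) : LaurentSeries L) =
        qExpand L (p * p) (y : LaurentSeries L) *
          s37e_prodTw p ζ ((dd • y : ↥F) : LaurentSeries L))
    (h3 : ∃ P₁ P₂ P₃, r P₁ ≠ r P₂ ∧ r P₁ ≠ r P₃ ∧ r P₂ ≠ r P₃)
    (hα : α.toRingHom.IsIntegral) (hβ : β.toRingHom.IsIntegral)
    [HasPrincipalDivisors L ↥F'] [HasPrincipalDivisors L ↥F]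
    (hFI : FundamentalIdentityAlong L β hβ) (hN : NormFormulaAlong L α hfinα)
    (σ : L ≃ₐ[K] L) (hσ : A.IsFrobeniusAt σ p)
    (hσd : s48e_galAut K hF σ * dd = dd * s48e_galAut K hF σ)
    (z : Pic0 L ↥F) :
    s48e_redPic0 r hr hgen
      (s48e_galAut K hF σ • s48e_galAut K hF σ • z
        - Pic0.correspondence β α hβ hα hFI hfinα hN (dd⁻¹ • s48e_galAut K hF σ • z)
        + (p : ℤ) • dd⁻¹ • z) = 0 := by
  have huniq := s48e_unique_of_three A π x hr hgen h3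
  obtain ⟨hα', hβ', hP', hP, hFI', hN', hT⟩ :=
    s48e_es_pic0_ff A π hFb x x' r hr hgen α β hfinα hfinβ hrank ζ hζ (fun y => dd • y) δ S hgenS
      (fun Y hY hYk hSY => by
        obtain ⟨Y', -, h1, h2⟩ := hc Y hY hYk hSY
        exact ⟨Y', h1, h2⟩) hW h3
  have huniqS : ∀ r' : Place L ↥F → Place κ ↥Fb, s48e_IsPlaceRedOn A π F Fb S r' → r' = r := by
    intro r' hr'
    obtain ⟨P₁, P₂, -, h12, -, -⟩ := h3
    exact (s48e_unique_on x hr.on hr' hgenS ⟨P₁, P₂, h12⟩).symm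
  -- the operators
  have hS : ∀ w : Pic0 L ↥F, s48e_redPic0 r hr hgen (s48e_galAut K hF σ • w) =
      s48e_psi hFb p • s48e_redPic0 r hr hgen w :=
    fun w => s48e_red_frobenius A π hF hFb huniq hr hgen hπ p σ hσ w
  have hD : ∀ w : Pic0 L ↥F, s48e_redPic0 r hr hgen (dd • w) = δ • s48e_redPic0 r hr hgen w :=
    fun w => s48e_redPic0_equivariant_on hc huniqS hr hgen w
  have hE : ∀ w : Pic0 L ↥F, s48e_redPic0 r hr hgen (dd⁻¹ • w) =
      δ⁻¹ • s48e_redPic0 r hr hgen w := by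
    intro w
    have h := hD (dd⁻¹ • w)
    rw [smul_inv_smul] at h
    rw [h, inv_smul_smul]
  have hSE : ∀ w : Pic0 L ↥F, s48e_galAut K hF σ • dd⁻¹ • w = dd⁻¹ • s48e_galAut K hF σ • w := by
    intro w
    have h : s48e_galAut K hF σ * dd⁻¹ = dd⁻¹ * s48e_galAut K hF σ := by
      rw [eq_inv_mul_iff_mul_eq, ← mul_assoc, ← hσd, mul_assoc, mul_inv_cancel, mul_one]
    rw [smul_smul, smul_smul, h]
  have hT' : ∀ w : Pic0 L ↥F,
      s48e_redPic0 r hr hgen (Pic0.correspondence β α hβ hα hFI hfinα hN w) =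
        (s48e_psi hFb p * δ⁻¹⁻¹) • s48e_redPic0 r hr hgen w +
          p • ((s48e_psi hFb p)⁻¹ • s48e_redPic0 r hr hgen w) := by
    intro w
    rw [inv_inv]
    exact hT w
  exact s48e_r3_algebra'' (G := SemilinearAut κ ↥Fb) (X := Pic0 L ↥F) (Y := Pic0 κ ↥Fb)
    (s48e_redPic0 r hr hgen) (fun w => s48e_galAut K hF σ • w)
    (fun w => Pic0.correspondence β α hβ hα hFI hfinα hN w) (fun w => dd⁻¹ • w)
    (s48e_psi hFb p) δ⁻¹ p hSE hS hE hT' z

end Top

end Fermat.Agent.Lib.S48
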