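/-
S48 (Deligne–Serre), wall [T8] (helper8): Galois-side generalities for function fields of the form
`laurentBaseChange L F₀`, `F₀ ⊆ ℚ((q))` ARBITRARY (generic port of `Lib/S29/GSStab`):

* `s48e_coeffStable_lbc`      : `laurentBaseChange L F₀` is coefficient-stable;
* `s48e_arithmeticGalois_eq`  : the Prelude's `arithmeticGalois F₀ σ` is the coefficientwise `s48e_galAut`;
* `s48e_exists_level_elt`     : every element of `laurentBaseChange ℚ̄ F₀` is fixed by `Gal(ℚ̄/L)`, `L` a number field;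
* `s48e_exists_level_place/_divisor/_pic0` : OPEN STABILISERS of places, divisors and points of `Pic⁰`
  (only `HasPrincipalDivisors` is used).
-/
import Fermat.Agent.Lib.S48.EGenTop
import Fermat.Prelude.Def_ModularCurve_ArithmeticGalois
import Fermat.Agent.Lib.FF.FFBasicPlace

set_option autoImplicit false
set_option linter.style.haveILetI false
set_option linter.unusedSectionVars false

noncomputable section

open AlgebraicCurve ModularCurve HahnSeries IntermediateField Fermat.Agent.Lib.FF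

namespace Fermat.Agent.Lib.S48

section Stable

variable {L : Type*} [Field L] [Algebra ℚ L] (F₀ : IntermediateField ℚ (LaurentSeries ℚ))

/-- `laurentBaseChange L F₀` is stable under the coefficientwise action of `Aut L`. -/
theorem s48e_coeffStable_lbc : s48e_CoeffStable (laurentBaseChange L F₀) := by
  intro φ x hx
  have h := coeffMap_mem_laurentBaseChange (F₀ := F₀)
    (AlgEquiv.ofRingEquiv (R := ℚ) (f := φ) (fun q => RingHom.map_rat_algebraMap (φ : L →+* L) q)) hx
  exact h

/-- the Prelude's arithmetic Galois action is the coefficientwise one. -/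
theorem s48e_arithmeticGalois_eq (σ : L ≃ₐ[ℚ] L) :
    arithmeticGalois F₀ σ = s48e_galAut ℚ (s48e_coeffStable_lbc F₀) σ :=
  Subtype.ext (Prod.ext (RingEquiv.ext fun _ => Subtype.ext rfl) rfl)

theorem s48e_galois_smul_pic0 (σ : L ≃ₐ[ℚ] L) (x : Pic0 L ↥(laurentBaseChange L F₀)) :
    σ • x = s48e_galAut ℚ (s48e_coeffStable_lbc F₀) σ • x := by
  rw [galois_smul_pic0_def, s48e_arithmeticGalois_eq]

end Stable

section Level

local notation "Qbar" => AlgebraicClosure ℚ

variable {F₀ : IntermediateField ℚ (LaurentSeries ℚ)}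

/-- every element of `laurentBaseChange ℚ̄ F₀` is defined over a number field. -/
theorem s48e_exists_level_elt {y : LaurentSeries Qbar} (hy : y ∈ laurentBaseChange Qbar F₀) :
    ∃ L : IntermediateField ℚ Qbar, FiniteDimensional ℚ ↥L ∧
      ∀ σ : Qbar ≃ₐ[ℚ] Qbar, (∀ a ∈ L, σ a = a) → coeffMap (σ : Qbar →+* Qbar) y = y := by
  rw [mem_laurentBaseChange_iff] at hy
  induction hy using Subfield.closure_induction with
  | mem y hy =>
      rcases hy with ⟨a, rfl⟩ | ⟨z, hz, rfl⟩
      · have hQ : Algebra.IsAlgebraic ℚ Qbar := by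
          have h : @Algebra.IsAlgebraic ℚ Qbar _ _ (AlgebraicClosure.instAlgebra ℚ) :=
            AlgebraicClosure.isAlgebraic ℚ
          convert h
          exact Subsingleton.elim _ _
        have ha : IsIntegral ℚ a := (hQ.isAlgebraic a).isIntegral
        refine ⟨ℚ⟮a⟯, IntermediateField.adjoin.finiteDimensional ha, fun σ hσ => ?_⟩
        rw [coeffMap_algebraMap]
        congr 1
        exact hσ a (IntermediateField.mem_adjoin_simple_self ℚ a)
      · exact ⟨⊥, inferInstance, fun σ _ => coeffMap_coeffEmb σ z⟩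
  | one => exact ⟨⊥, inferInstance, fun σ _ => map_one _⟩
  | add x y _ _ hx hy =>
      obtain ⟨L₁, h₁, hx⟩ := hx
      obtain ⟨L₂, h₂, hy⟩ := hy
      refine ⟨L₁ ⊔ L₂, IntermediateField.finiteDimensional_sup L₁ L₂, fun σ hσ => ?_⟩
      rw [map_add, hx σ (fun a ha => hσ a (le_sup_left (a := L₁) (b := L₂) ha)),
        hy σ (fun a ha => hσ a (le_sup_right (a := L₁) (b := L₂) ha))]
  | neg x _ hx =>
      obtain ⟨L₁, h₁, hx⟩ := hx
      exact ⟨L₁, h₁, fun σ hσ => by rw [map_neg, hx σ hσ]⟩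
  | inv x _ hx =>
      obtain ⟨L₁, h₁, hx⟩ := hx
      exact ⟨L₁, h₁, fun σ hσ => by rw [map_inv₀, hx σ hσ]⟩
  | mul x y _ _ hx hy =>
      obtain ⟨L₁, h₁, hx⟩ := hx
      obtain ⟨L₂, h₂, hy⟩ := hy
      refine ⟨L₁ ⊔ L₂, IntermediateField.finiteDimensional_sup L₁ L₂, fun σ hσ => ?_⟩
      rw [map_mul, hx σ (fun a ha => hσ a (le_sup_left (a := L₁) (b := L₂) ha)),
        hy σ (fun a ha => hσ a (le_sup_right (a := L₁) (b := L₂) ha))]

variable (F₀)

/-- finitely many elements of the function field are fixed above a number field. -/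
theorem s48e_exists_level_finset (T : Finset ↥(laurentBaseChange Qbar F₀)) :
    ∃ L : IntermediateField ℚ Qbar, FiniteDimensional ℚ ↥L ∧
      ∀ σ : Qbar ≃ₐ[ℚ] Qbar, (∀ a ∈ L, σ a = a) → ∀ f ∈ T, arithmeticGalois F₀ σ • f = f := by
  classical
  induction T using Finset.induction_on with
  | empty => exact ⟨⊥, inferInstance, fun σ _ f hf => absurd hf (Finset.notMem_empty f)⟩
  | insert f T _ ih =>
    obtain ⟨L₁, h₁, hT⟩ := ih
    obtain ⟨L₂, h₂, hf⟩ := s48e_exists_level_elt f.2
    refine ⟨L₁ ⊔ L₂, IntermediateField.finiteDimensional_sup L₁ L₂, fun σ hσ g hg => ?_⟩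
    rcases Finset.mem_insert.mp hg with rfl | hg
    · apply Subtype.ext
      rw [coe_arithmeticGalois_smul]
      exact hf σ (fun a ha => hσ a (le_sup_right (a := L₁) (b := L₂) ha))
    · exact hT σ (fun a ha => hσ a (le_sup_left (a := L₁) (b := L₂) ha)) g hg

variable [HasPrincipalDivisors Qbar ↥(laurentBaseChange Qbar F₀)]

/-- **open stabilisers of places.** -/
theorem s48e_exists_level_place (P : Place Qbar ↥(laurentBaseChange Qbar F₀)) :
    ∃ L : IntermediateField ℚ Qbar, FiniteDimensional ℚ ↥L ∧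
      ∀ σ : Qbar ≃ₐ[ℚ] Qbar, (∀ a ∈ L, σ a = a) → arithmeticGalois F₀ σ • P = P := by
  classical
  obtain ⟨u, hu0, hu⟩ := ff_exists_ord_eq_one P
  obtain ⟨D, hD, -⟩ := HasPrincipalDivisors.exists_divisor (K := Qbar) u hu0
  have hsel : ∀ P' : Place Qbar ↥(laurentBaseChange Qbar F₀),
      ∃ f : ↥(laurentBaseChange Qbar F₀), P' ≠ P →
        f ∈ P.toValuationSubring ∧ f ∉ P'.toValuationSubring := by
    intro P'
    by_cases hPP' : P' = P
    · exact ⟨0, fun h => absurd hPP' h⟩
    · by_contra hcon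
      push Not at hcon
      apply hPP'
      refine (ff_place_eq_of_le fun f hf => ?_).symm
      by_contra hf'
      obtain ⟨-, h2⟩ := hcon f
      exact hf' (h2 hf)
  choose fsel hfsel using hsel
  obtain ⟨L, hfin, hL⟩ := s48e_exists_level_finset F₀ (insert u (D.support.image fsel))
  refine ⟨L, hfin, fun σ hσ => ?_⟩
  set S := arithmeticGalois F₀ σ with hS
  have hSu : S • u = u := hL σ hσ u (Finset.mem_insert_self _ _)
  have hordu : (S • P).ord u = 1 := by
    have h := SemilinearAut.ord_smul S P u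
    rw [hSu] at h
    rw [h, hu]
  have hmem : S • P ∈ D.support := by
    rw [Finsupp.mem_support_iff, hD, hordu]
    exact one_ne_zero
  by_contra hne
  obtain ⟨h1, h2⟩ := hfsel (S • P) hne
  have hSf : S • fsel (S • P) = fsel (S • P) :=
    hL σ hσ _ (Finset.mem_insert_of_mem (Finset.mem_image_of_mem fsel hmem))
  apply h2
  rw [SemilinearAut.smul_toValuationSubring, ← hSf]
  exact ValuationSubring.smul_mem_pointwise_smul S _ _ h1

/-- **open stabilisers of divisors.** -/
theorem s48e_exists_level_divisor (D : Divisor Qbar ↥(laurentBaseChange Qbar F₀)) :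
    ∃ L : IntermediateField ℚ Qbar, FiniteDimensional ℚ ↥L ∧
      ∀ σ : Qbar ≃ₐ[ℚ] Qbar, (∀ a ∈ L, σ a = a) → arithmeticGalois F₀ σ • D = D := by
  classical
  have hT : ∀ T : Finset (Place Qbar ↥(laurentBaseChange Qbar F₀)),
      ∃ L : IntermediateField ℚ Qbar, FiniteDimensional ℚ ↥L ∧
        ∀ σ : Qbar ≃ₐ[ℚ] Qbar, (∀ a ∈ L, σ a = a) → ∀ P ∈ T, arithmeticGalois F₀ σ • P = P := by
    intro T
    induction T using Finset.induction_on with
    | empty => exact ⟨⊥, inferInstance, fun σ _ P hP => absurd hP (Finset.notMem_empty P)⟩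
    | insert P T _ ih =>
      obtain ⟨L₁, h₁, hT⟩ := ih
      obtain ⟨L₂, h₂, hP⟩ := s48e_exists_level_place F₀ P
      refine ⟨L₁ ⊔ L₂, IntermediateField.finiteDimensional_sup L₁ L₂, fun σ hσ Q hQ => ?_⟩
      rcases Finset.mem_insert.mp hQ with rfl | hQ
      · exact hP σ (fun a ha => hσ a (le_sup_right (a := L₁) (b := L₂) ha))
      · exact hT σ (fun a ha => hσ a (le_sup_left (a := L₁) (b := L₂) ha)) Q hQ
  obtain ⟨L, hfd, hL⟩ := hT D.support
  refine ⟨L, hfd, fun σ hσ => ?_⟩
  rw [SemilinearAut.divisor_smul_def]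
  have h1 : Finsupp.mapDomain (fun P => arithmeticGalois F₀ σ • P) D = Finsupp.mapDomain id D :=
    Finsupp.mapDomain_congr fun P hP => hL σ hσ P hP
  rw [h1, Finsupp.mapDomain_id]

/-- **open stabilisers of points of `Pic⁰`.** -/
theorem s48e_exists_level_pic0 (x : Pic0 Qbar ↥(laurentBaseChange Qbar F₀)) :
    ∃ L : IntermediateField ℚ Qbar, FiniteDimensional ℚ ↥L ∧
      ∀ σ : Qbar ≃ₐ[ℚ] Qbar, (∀ a ∈ L, σ a = a) → σ • x = x := by
  obtain ⟨D, rfl⟩ := Pic0.mk_surjective x
  obtain ⟨L, hfd, hL⟩ :=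
    s48e_exists_level_divisor F₀ (D : Divisor Qbar ↥(laurentBaseChange Qbar F₀))
  refine ⟨L, hfd, fun σ hσ => ?_⟩
  rw [galois_smul_pic0_def, SemilinearAut.pic0_smul_mk]
  congr 1
  apply Subtype.ext
  rw [SemilinearAut.coe_degZeroSMulHom]
  exact hL σ hσ

end Level

end Fermat.Agent.Lib.S48
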