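/-
S48 (Deligne–Serre), wall [T8] (helper8): `KIfaceH.s48k_S37IntH`, part 3, QUOTIENT form: **`frobQuad`** for helper4's model
`s48k_FH M H` from the quotient form of the generic Eichler–Shimura engine (`EGenQTop`).  Input (c) of `EIntH3` is
replaced by

 (c′) STRONG conservation of number `s48e_IsPlaceRedQ r` (all Gauss units; = the conservation of the two-chart assembly)
      and `s48e_RedCompatQ ⟨p⟩⁻¹ δ` (the diamond preserves the Gauss RING of `F_H` and induces `δ` on the residue field).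
-/
import Fermat.Agent.Lib.S48.EIntH3
import Fermat.Agent.Lib.S48.EGenQTop

set_option autoImplicit false
set_option linter.style.haveILetI false
set_option linter.unusedSectionVars false

noncomputable section

open AlgebraicCurve ModularCurve HahnSeries IntermediateField
open Fermat.Agent.Lib.FF Fermat.Agent.Lib.S37 Fermat.Agent.Lib.S28

namespace Fermat.Agent.Lib.S48

local notation "Qbar" => AlgebraicClosure ℚ

set_option maxHeartbeats 1600000 in
/-- **`frobQuad`**, quotient form: `Frob² − T_p Frob + p ⟨p⟩ = 0` on `J_H[ℓ]`. -/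
theorem s48e_frobQuad_ofQ (M : ℕ) (H : Subgroup (ZMod M)ˣ) (ℓ : ℕ)
    (A : ValuationSubring Qbar) {κ : Type*} [Field κ] (π : ↥A →+* κ)
    (hπ : ∀ a : ↥A, IsLocalRing.residue ↥A a = 0 → π a = 0)
    {Fb : IntermediateField κ (LaurentSeries κ)} (hFb : s48e_CoeffStable Fb)
    (x : ↥(s48k_FH M H)) [FFGen Qbar x]
    (r : Place Qbar ↥(s48k_FH M H) → Place κ ↥Fb)
    (hr : s48e_IsPlaceRed A π (s48k_FH M H) Fb r) (hgen : s48e_PrinGen A π (s48k_FH M H) Fb)
    (hrQ : s48e_IsPlaceRedQ A π (s48k_FH M H) Fb r)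
    (h3 : ∃ P₁ P₂ P₃, r P₁ ≠ r P₂ ∧ r P₁ ≠ r P₃ ∧ r P₂ ≠ r P₃)
    (hinj : ∀ z : s48k_JH M H, (ℓ : ℤ) • z = 0 → s48e_redPic0 r hr hgen z = 0 → z = 0)
    (p : ℕ) [NeZero p] [Fact p.Prime] [CharP κ p] [PerfectRing κ p] (pu : (ZMod M)ˣ)
    (x' : ↥(laurentBaseChange Qbar (s48k_FHQp M H p))) [FFGen Qbar x']
    (hfinα : FiniteAlong Qbar (s48k_heckeAlphaH M H p))
    (hfinβ : FiniteAlong Qbar (s48k_heckeBetaH M H p))
    (hrank : finrankAlong Qbar (s48k_heckeBetaH M H p) = p + 1)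
    (hdia : ∃ e, s48k_IsDiamondAut M H pu e)
    (δ : SemilinearAut κ ↥Fb)
    (hc : s48e_RedCompatQ A π (s48k_FH M H) Fb
      (SemilinearAut.ofAlgAut (s48k_diamondAut M H pu⁻¹)) δ)
    (ζ : Qbarˣ) (hζ : IsPrimitiveRoot (ζ : Qbar) p)
    (hW : ∀ y : ↥(s48k_FH M H),
      qExpand Qbar p ((s48e_normAlong (s48k_heckeAlphaH M H p) (s48k_heckeBetaH M H p y) :
          ↥(s48k_FH M H)) : LaurentSeries Qbar) =
        qExpand Qbar (p * p) (y : LaurentSeries Qbar) *
          s37e_prodTw p ζ ((s48k_diamondAut M H pu⁻¹ y : ↥(s48k_FH M H)) : LaurentSeries Qbar))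
    (σ : s48k_G) (hσ : A.IsFrobeniusAt σ p) (z : s48k_JH M H)
    (hz : (ℓ : ℤ) • z = 0) :
    σ • σ • z - s48k_TpJ M H p pu (σ • z) + (p : ℤ) • s48k_diamondJ M H pu z = 0 := by
  have hin := s48e_heckeInputsH_of M H x p x' hfinα hfinβ
  haveI := hin.snd.snd.fst
  haveI hP : HasPrincipalDivisors Qbar ↥(s48k_FH M H) := s48e_hasPrincipalDivisors x
  have e1 : s48k_heckeFF M H p =
      Pic0.correspondence (s48k_heckeBetaH M H p) (s48k_heckeAlphaH M H p) hin.snd.fst hin.fst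
        hin.snd.snd.snd.snd.1 hin.snd.snd.snd.fst hin.snd.snd.snd.snd.2 := by
    unfold s48k_heckeFF
    exact dif_pos hin
  set w := σ • σ • z - s48k_TpJ M H p pu (σ • z) + (p : ℤ) • s48k_diamondJ M H pu z with hw
  -- `w` is `ℓ`-torsion
  have h1 : (ℓ : ℤ) • w = 0 := by
    rw [hw, zsmul_add, zsmul_sub, s48e_zsmul_gal, s48e_zsmul_gal, hz, s48e_gal_smul_zero,
      s48e_gal_smul_zero, ← map_zsmul, s48e_zsmul_gal, hz, s48e_gal_smul_zero, map_zero,
      smul_comm (ℓ : ℤ) (p : ℤ), ← map_zsmul, hz, map_zero, smul_zero, sub_zero, add_zero]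
  -- `red w = 0`
  have h2 : s48e_redPic0 r hr hgen w = 0 := by
    have hF := s48e_coeffStable_lbc (L := Qbar) (s48k_FHQ M H)
    have hσd : s48e_galAut ℚ hF σ * SemilinearAut.ofAlgAut (s48k_diamondAut M H pu⁻¹) =
        SemilinearAut.ofAlgAut (s48k_diamondAut M H pu⁻¹) * s48e_galAut ℚ hF σ := by
      rw [← s48e_arithmeticGalois_eq]
      exact s48e_diamondAut_comm_mul M H pu⁻¹ σ
    have key := s48e_redAt_genQ' (K := ℚ) A π hFb hF hπ x x' r hr hrQ hgen
      (s48k_heckeAlphaH M H p) (s48k_heckeBetaH M H p) hfinα hfinβ hrank ζ hζ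
      (SemilinearAut.ofAlgAut (s48k_diamondAut M H pu⁻¹)) δ hc hW h3 hin.fst hin.snd.fst
      hin.snd.snd.snd.snd.1 hin.snd.snd.snd.snd.2 σ hσ hσd z
    rw [s48e_ofAlgAut_diamondAut_inv M H hdia] at key
    have e2 : s48k_TpJ M H p pu (σ • z) =
        Pic0.correspondence (s48k_heckeBetaH M H p) (s48k_heckeAlphaH M H p) hin.snd.fst hin.fst
          hin.snd.snd.snd.snd.1 hin.snd.snd.snd.fst hin.snd.snd.snd.snd.2
          (SemilinearAut.ofAlgAut (s48k_diamondAut M H pu) • s48e_galAut ℚ hF σ • z) := by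
      show s48k_heckeFF M H p (s48k_diamondJ M H pu (σ • z)) = _
      rw [e1, s48k_diamondJ_apply, s48e_galois_smul_pic0]
    rw [hw, e2, s48k_diamondJ_apply, s48e_galois_smul_pic0 _ σ (σ • z),
      s48e_galois_smul_pic0 _ σ z]
    exact key
  exact hinj w h1 h2

end Fermat.Agent.Lib.S48
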