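/-
S48 (Deligne–Serre), wall [T8] (helper8): **`KIfaceH.s48k_S37IntH` from three explicit input packages, QUOTIENT form**:

* `s48e_ModelInputs` ([T5]) and `s48e_TwistedW` ([W]) as in `EIntTop`;
* `s48e_RedInputsQ` ([T7]): at every `A ∣ p ∤ Mℓ` a place reduction of `F_H` onto a coefficient-stable `Fb ⊆ κ_A((q))`
  with STRONG conservation of number (`s48e_IsPlaceRedQ`: for all Gauss units `y = ι Y₁ / ι Y₂`), `PrinGen`, three values,
  injectivity on `ℓ`-torsion, and for the diamond `⟨p⟩⁻¹` an automorphism `δ` of `Fb` with `s48e_RedCompatQ`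
  (the diamond preserves the Gauss ring and induces `δ`).  No class of good series.
-/
import Fermat.Agent.Lib.S48.EIntH3Q
import Fermat.Agent.Lib.S48.EIntTop

set_option autoImplicit false
set_option linter.style.haveILetI false
set_option linter.unusedSectionVars false
set_option synthInstance.maxHeartbeats 400000

noncomputable section

open AlgebraicCurve ModularCurve HahnSeries IntermediateField
open Fermat.Agent.Lib.FF Fermat.Agent.Lib.S37 Fermat.Agent.Lib.S28 Fermat.Agent.Lib.S18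

namespace Fermat.Agent.Lib.S48

local notation "Qbar" => AlgebraicClosure ℚ

/-- **[T7] inputs, quotient form**: the reduction package of the layer at every `A ∣ p ∤ M ℓ`. -/
def s48e_RedInputsQ : Prop :=
  ∀ (M N₁ ℓ₀ : ℕ) [NeZero M] (H : Subgroup (ZMod M)ˣ), s48k_Level M N₁ ℓ₀ H →
    ∀ (ℓ p : ℕ), p.Prime → ¬ p ∣ M * ℓ →
      ∀ A : ValuationSubring Qbar, A.LiesOverPrime p →
        ∃ (Fb : IntermediateField (IsLocalRing.ResidueField ↥A)
            (LaurentSeries (IsLocalRing.ResidueField ↥A)))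
          (_ : s48e_CoeffStable Fb)
          (r : Place Qbar ↥(s48k_FH M H) → Place (IsLocalRing.ResidueField ↥A) ↥Fb)
          (hrQ : s48e_IsPlaceRedQ A (IsLocalRing.residue ↥A) (s48k_FH M H) Fb r)
          (hgen : s48e_PrinGen A (IsLocalRing.residue ↥A) (s48k_FH M H) Fb),
          (∃ P₁ P₂ P₃, r P₁ ≠ r P₂ ∧ r P₁ ≠ r P₃ ∧ r P₂ ≠ r P₃) ∧
          (∀ z : s48k_JH M H, (ℓ : ℤ) • z = 0 →
            s48e_redPic0 r hrQ.isPlaceRed hgen z = 0 → z = 0) ∧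
          ∀ pu : (ZMod M)ˣ, ((pu : (ZMod M)ˣ) : ZMod M) = (p : ZMod M) →
            ∃ δ : SemilinearAut (IsLocalRing.ResidueField ↥A) ↥Fb,
              s48e_RedCompatQ A (IsLocalRing.residue ↥A) (s48k_FH M H) Fb
                (SemilinearAut.ofAlgAut (s48k_diamondAut M H pu⁻¹)) δ

set_option maxHeartbeats 1600000 in
/-- **`s48k_S37IntH`** from the three input packages (quotient form). -/
theorem s48e_S37IntH_ofQ (hmodel : s48e_ModelInputs) (hW : s48e_TwistedW)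
    (hred : s48e_RedInputsQ) : s48k_S37IntH where
  commD := fun M _ _ _ H _ d σ x => s48e_commD M H d σ x
  commT := by
    intro M N₁ ℓ₀ _ H hL p _ pu hp hpM hpu σ x
    obtain ⟨⟨x₀, hx₀⟩, -, -⟩ := hmodel M N₁ ℓ₀ H hL
    haveI := hx₀
    exact s48e_commT M H p
      (fun v => by rw [ff_deg_eq_one Qbar x₀ v]; exact one_ne_zero) pu σ x
  frobQuad := by
    intro M N₁ ℓ₀ _ H hL ℓ p _ pu hp hpMℓ hpu A hA σ hσ z hz
    have hpM : ¬ p ∣ M := fun h => hpMℓ (Dvd.dvd.mul_right h ℓ)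
    obtain ⟨⟨x₀, hx₀⟩, hdia, hp'⟩ := hmodel M N₁ ℓ₀ H hL
    obtain ⟨⟨x', hx'⟩, hfinα, hfinβ, hrank⟩ := hp' p hp hpM
    obtain ⟨Fb, hFb, r, hrQ, hgen, h3, hinj, hS⟩ := hred M N₁ ℓ₀ H hL ℓ p hp hpMℓ A hA
    obtain ⟨δ, hc⟩ := hS pu hpu
    haveI := hx₀
    haveI := hx'
    haveI : Fact p.Prime := ⟨hp⟩
    haveI := s18n_charP_residueField A hp hA
    haveI : IsAlgClosed (IsLocalRing.ResidueField ↥A) := s18n_isAlgClosed_residueField A
    haveI : PerfectRing (IsLocalRing.ResidueField ↥A) p := inferInstance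
    obtain ⟨ζ, hζ⟩ : ∃ ζ : Qbarˣ, IsPrimitiveRoot (ζ : Qbar) p := by
      haveI : NeZero ((p : ℕ) : Qbar) := ⟨Nat.cast_ne_zero.mpr (NeZero.ne p)⟩
      obtain ⟨ζ0, hζ0⟩ := HasEnoughRootsOfUnity.exists_primitiveRoot Qbar p
      exact ⟨(hζ0.isUnit (NeZero.ne p)).unit, by rw [IsUnit.unit_spec]; exact hζ0⟩
    exact s48e_frobQuad_ofQ M H ℓ A (IsLocalRing.residue ↥A) (fun _ h => h) hFb x₀ r
      hrQ.isPlaceRed hgen hrQ h3 hinj p pu x' hfinα hfinβ hrank (hdia pu) δ hc ζ hζ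
      (hW M N₁ ℓ₀ H hL p pu hp hpM hpu ζ hζ) σ hσ z hz
  unram := by
    intro M N₁ ℓ₀ _ H hL ℓ p hp hpMℓ A hA σ hσ z hz
    obtain ⟨⟨x₀, hx₀⟩, -, -⟩ := hmodel M N₁ ℓ₀ H hL
    obtain ⟨Fb, hFb, r, hrQ, hgen, h3, hinj, -⟩ := hred M N₁ ℓ₀ H hL ℓ p hp hpMℓ A hA
    haveI := hx₀
    exact s48e_unram_of M H ℓ A (IsLocalRing.residue ↥A) (fun _ h => h) hFb x₀ r hrQ.isPlaceRed
      hgen h3 hinj σ hσ z hz
  openStab := by
    intro M N₁ ℓ₀ _ H hL x
    obtain ⟨⟨x₀, hx₀⟩, -, -⟩ := hmodel M N₁ ℓ₀ H hL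
    haveI := hx₀
    haveI : HasPrincipalDivisors Qbar ↥(s48k_FH M H) := s48e_hasPrincipalDivisors x₀
    exact s48e_openStab M H x

end Fermat.Agent.Lib.S48
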