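/-
S48 (Deligne–Serre), Stage A brick (D4-a) (helper8): LANDAU'S ARGUMENT.

* `s48e_landau_arith` : if `N = z + ∑ i, N / c i` with `c i ∣ N`, `1 ≤ c i ≤ B`, `0 < z`, then `N ≤ z * B ^ B`.
* `s48e_card_le_of_centralizers` : a finite group all of whose non-central elements have a centraliser of order
  `≤ B` has order `≤ |Z(G)| * B ^ B`.
-/
import Mathlib

set_option autoImplicit false

namespace Fermat.Agent.Lib.S48

open Finset

/-- the arithmetic core of Landau's argument. -/
theorem s48e_landau_arith {ι : Type*} [Fintype ι] (c : ι → ℕ) (B N z : ℕ) (hz : 0 < z)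
    (hc1 : ∀ i, 0 < c i) (hcB : ∀ i, c i ≤ B) (hdvd : ∀ i, c i ∣ N)
    (hN : N = z + ∑ i, N / c i) : N ≤ z * B ^ B := by
  classical
  have hNpos : 0 < N := by omega
  -- the number of terms is `< B` (or there is no term)
  have hcard : Fintype.card ι ≤ B := by
    by_contra hlt
    rw [not_le] at hlt
    have h1 : ∀ i, N ≤ B * (N / c i) := by
      intro i
      calc N = c i * (N / c i) := (Nat.mul_div_cancel' (hdvd i)).symm
        _ ≤ B * (N / c i) := Nat.mul_le_mul_right _ (hcB i)
    have h2 : Fintype.card ι * N ≤ B * ∑ i, N / c i := by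
      rw [Finset.mul_sum]
      calc Fintype.card ι * N = ∑ _i : ι, N := by
            rw [Finset.sum_const, Finset.card_univ, smul_eq_mul]
        _ ≤ ∑ i, B * (N / c i) := Finset.sum_le_sum (fun i _ => h1 i)
    have h3 : B * ∑ i, N / c i < B * N ∨ B = 0 := by
      rcases Nat.eq_zero_or_pos B with h | h
      · exact Or.inr h
      · left
        apply Nat.mul_lt_mul_of_pos_left _ h
        omega
    rcases h3 with h3 | h3
    · have : Fintype.card ι * N < B * N := lt_of_le_of_lt h2 h3
      have := Nat.lt_of_mul_lt_mul_right this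
      omega
    · subst h3
      have : Fintype.card ι * N ≤ 0 := by simpa using h2
      have h4 : 0 < Fintype.card ι := by omega
      have : 0 < Fintype.card ι * N := Nat.mul_pos h4 hNpos
      omega
  set D : ℕ := ∏ i, c i with hD
  have hDpos : 0 < D := Finset.prod_pos (fun i _ => hc1 i)
  have hcD : ∀ i, c i ∣ D := fun i => Finset.dvd_prod_of_mem c (Finset.mem_univ i)
  have hDB : D ≤ B ^ B := by
    calc D ≤ ∏ _i : ι, B := Finset.prod_le_prod' (fun i _ => hcB i)
      _ = B ^ Fintype.card ι := by rw [Finset.prod_const, Finset.card_univ]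
      _ ≤ B ^ B := by
        rcases Nat.eq_zero_or_pos B with h | h
        · subst h
          have : Fintype.card ι = 0 := by omega
          rw [this]
        · exact Nat.pow_le_pow_right h hcard
  set S : ℕ := ∑ i, D / c i with hS
  have hkey : N * D = z * D + N * S := by
    have h1 : ∀ i, (N / c i) * D = N * (D / c i) := by
      intro i
      obtain ⟨a, ha⟩ := hdvd i
      obtain ⟨b, hb⟩ := hcD i
      rw [ha, hb, Nat.mul_div_cancel_left _ (hc1 i), Nat.mul_div_cancel_left _ (hc1 i)]
      ring
    calc N * D = (z + ∑ i, N / c i) * D := by rw [← hN]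
      _ = z * D + ∑ i, (N / c i) * D := by rw [add_mul, Finset.sum_mul]
      _ = z * D + ∑ i, N * (D / c i) := by rw [Finset.sum_congr rfl (fun i _ => h1 i)]
      _ = z * D + N * S := by rw [hS, Finset.mul_sum]
  have hSD : S < D := by
    by_contra hle
    rw [not_lt] at hle
    have : N * D ≤ N * S := Nat.mul_le_mul_left _ hle
    have hzD : 0 < z * D := Nat.mul_pos hz hDpos
    omega
  have h5 : N * (D - S) = z * D := by
    have : N * (D - S) = N * D - N * S := Nat.mul_sub N D S
    omega
  have h6 : 1 ≤ D - S := by omega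
  calc N = N * 1 := (mul_one N).symm
    _ ≤ N * (D - S) := Nat.mul_le_mul_left _ h6
    _ = z * D := h5
    _ ≤ z * B ^ B := Nat.mul_le_mul_left _ hDB

open MulAction in
/-- orbit–stabiliser for conjugation. -/
theorem s48e_card_conj_mul_card_centralizer (G : Type*) [Group G] [Finite G] (g : G) :
    Nat.card {x : G // IsConj g x} * Nat.card (Subgroup.centralizer ({g} : Set G)) = Nat.card G := by
  classical
  cases nonempty_fintype G
  have h := MulAction.card_orbit_mul_card_stabilizer_eq_card_group (ConjAct G) g
  have h1 : Fintype.card (orbit (ConjAct G) g) = Nat.card {x : G // IsConj g x} := by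
    rw [← Nat.card_eq_fintype_card]
    apply Nat.card_congr
    refine Equiv.subtypeEquivRight (fun x => ?_)
    rw [ConjAct.mem_orbit_conjAct]
    exact isConj_comm
  have hmem : ∀ x : G, x ∈ Subgroup.centralizer ({g} : Set G) ↔
      ConjAct.toConjAct x ∈ stabilizer (ConjAct G) g := by
    intro x
    rw [Subgroup.centralizer_eq_comap_stabilizer]
    rfl
  have h2 : Fintype.card (stabilizer (ConjAct G) g) = Nat.card (Subgroup.centralizer ({g} : Set G)) := by
    rw [← Nat.card_eq_fintype_card]
    symm
    apply Nat.card_congr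
    refine ⟨fun x => ⟨ConjAct.toConjAct x.1, (hmem _).1 x.2⟩,
      fun y => ⟨ConjAct.ofConjAct y.1, (hmem _).2 (by simp)⟩, ?_, ?_⟩
    · intro x; simp
    · intro y; simp
  rw [← h1, ← h2, h, ← Nat.card_eq_fintype_card]
  exact Nat.card_congr ConjAct.ofConjAct.toEquiv

/-- **Landau**: a finite group whose non-central elements have small centralisers is small. -/
theorem s48e_card_le_of_centralizers (G : Type*) [Group G] [Finite G] (B : ℕ)
    (hB : ∀ g : G, g ∉ Subgroup.center G → Nat.card (Subgroup.centralizer ({g} : Set G)) ≤ B) :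
    Nat.card G ≤ Nat.card (Subgroup.center G) * B ^ B := by
  classical
  cases nonempty_fintype G
  have hce := Group.card_center_add_sum_card_noncenter_eq_card G
  set N := Nat.card G with hN
  have hNpos : 0 < N := Nat.card_pos
  -- facts about each noncentral class
  have key : ∀ x ∈ (ConjClasses.noncenter G).toFinset, ∃ c : ℕ, 0 < c ∧ c ≤ B ∧ c ∣ N ∧
      N / c = x.carrier.toFinset.card := by
    intro x hx
    rw [Set.mem_toFinset, ConjClasses.mem_noncenter] at hx
    obtain ⟨g, rfl⟩ := ConjClasses.exists_rep x
    have hg : g ∉ Subgroup.center G := by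
      intro hgc
      obtain ⟨a, ha, b, hb, hab⟩ := hx
      rw [ConjClasses.mem_carrier_iff_mk_eq, ConjClasses.mk_eq_mk_iff_isConj] at ha hb
      apply hab
      have h1 : ∀ y : G, IsConj y g → y = g := by
        intro y hy
        obtain ⟨u, hu⟩ := isConj_iff.1 hy.symm
        rw [← hu, (Subgroup.mem_center_iff.1 hgc u), mul_inv_cancel_right]
      rw [h1 a ha, h1 b hb]
    have hmul := s48e_card_conj_mul_card_centralizer G g
    have hcar : (ConjClasses.mk g).carrier.toFinset.card = Nat.card {y : G // IsConj g y} := by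
      rw [Set.toFinset_card, ← Nat.card_eq_fintype_card]
      apply Nat.card_congr
      refine Equiv.subtypeEquivRight (fun y => ?_)
      rw [ConjClasses.mem_carrier_iff_mk_eq, ConjClasses.mk_eq_mk_iff_isConj]
      exact isConj_comm
    refine ⟨Nat.card (Subgroup.centralizer ({g} : Set G)), Nat.card_pos, hB g hg, ⟨_, by rw [mul_comm]; exact hmul.symm⟩, ?_⟩
    rw [hcar, hN, ← hmul]
    exact Nat.mul_div_cancel _ Nat.card_pos
  choose! c hc using key
  have := s48e_landau_arith (ι := {x // x ∈ (ConjClasses.noncenter G).toFinset}) (fun i => c i.1) B N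
    (Nat.card (Subgroup.center G)) Nat.card_pos (fun i => (hc i.1 i.2).1) (fun i => (hc i.1 i.2).2.1)
    (fun i => (hc i.1 i.2).2.2.1) (by
      rw [Finset.sum_coe_sort (ConjClasses.noncenter G).toFinset (fun x => N / c x)]
      rw [Finset.sum_congr rfl (fun x hx => (hc x hx).2.2.2)]
      rw [hN, Nat.card_eq_fintype_card, Nat.card_eq_fintype_card]
      exact hce.symm)
  exact this

end Fermat.Agent.Lib.S48
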