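/-
S48 (Deligne–Serre), Stage A brick (D4-a) (helper8): elementary facts on `2 × 2` matrices over a field.

* `s48e_mat2_comm_nonscalar` : the commutant of a non-scalar matrix `g` is `F + F g`.
* `s48e_mat2_comm_of_comm_nonscalar` : that commutant is commutative.
* `s48e_mat2_eq_or_eq_of_comm` : an element of the commutant of `g` with the same trace and determinant as `g` is
  `g` or `tr g - g`, if the discriminant of `g` is non-zero.
* `s48e_mat2_disc_ne_zero` : over a finite field of characteristic `ℓ ≠ 2`, a non-scalar matrix of order prime to `ℓ`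
  has non-zero discriminant.
* `s48e_mat2_sq_zero`, `s48e_mat2_sq_zero_of_pow`, `s48e_mat2_NhN`, `s48e_mat2_eq_smul_of_mul_zero` : facts on
  nilpotent matrices used in the transvection case.
-/
import Mathlib

set_option autoImplicit false

namespace Fermat.Agent.Lib.S48

open Matrix


variable {F : Type*} [Field F]

/-- entrywise description of commutation of `2 × 2` matrices. -/
theorem s48e_mat2_comm_iff (x g : Matrix (Fin 2) (Fin 2) F) :
    x * g = g * x ↔ (x 0 1 * g 1 0 = g 0 1 * x 1 0 ∧ g 0 1 * (x 0 0 - x 1 1) = x 0 1 * (g 0 0 - g 1 1) ∧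
      x 1 0 * (g 0 0 - g 1 1) = g 1 0 * (x 0 0 - x 1 1)) := by
  constructor
  · intro h
    have h00 := congrFun (congrFun h 0) 0
    have h01 := congrFun (congrFun h 0) 1
    have h10 := congrFun (congrFun h 1) 0
    simp only [Matrix.mul_apply, Fin.sum_univ_two] at h00 h01 h10
    refine ⟨?_, ?_, ?_⟩
    · linear_combination h00
    · linear_combination h01
    · linear_combination h10
  · rintro ⟨h1, h2, h3⟩
    ext i j
    fin_cases i <;> fin_cases j <;> simp only [Matrix.mul_apply, Fin.sum_univ_two, Fin.zero_eta, Fin.mk_one]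
    · linear_combination h1
    · linear_combination h2
    · linear_combination h3
    · linear_combination -h1

/-- a matrix commuting with a non-scalar `2 × 2` matrix `g` is of the form `μ + λ g`. -/
theorem s48e_mat2_comm_nonscalar (g x : Matrix (Fin 2) (Fin 2) F)
    (hg : ∀ a : F, g ≠ a • (1 : Matrix (Fin 2) (Fin 2) F)) (hx : x * g = g * x) :
    ∃ μ lam : F, x = μ • (1 : Matrix (Fin 2) (Fin 2) F) + lam • g := by
  obtain ⟨h1, h2, h3⟩ := (s48e_mat2_comm_iff x g).1 hx
  have hns : g 0 1 ≠ 0 ∨ g 1 0 ≠ 0 ∨ g 0 0 - g 1 1 ≠ 0 := by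
    by_contra hcon
    push Not at hcon
    obtain ⟨c1, c2, c3⟩ := hcon
    apply hg (g 0 0)
    ext i j
    fin_cases i <;> fin_cases j <;> simp [c1, c2]
    linear_combination -c3
  have hfin : ∀ lam : F, x 0 1 = lam * g 0 1 → x 1 0 = lam * g 1 0 → x 0 0 - x 1 1 = lam * (g 0 0 - g 1 1) →
      x = (x 0 0 - lam * g 0 0) • (1 : Matrix (Fin 2) (Fin 2) F) + lam • g := by
    intro lam e1 e2 e3
    ext i j
    fin_cases i <;> fin_cases j <;> simp
    · exact e1
    · exact e2
    · linear_combination -e3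
  rcases hns with h | h | h
  · refine ⟨_, x 0 1 / g 0 1, hfin _ ?_ ?_ ?_⟩
    · field_simp
    · field_simp; linear_combination -h1
    · field_simp; linear_combination h2
  · refine ⟨_, x 1 0 / g 1 0, hfin _ ?_ ?_ ?_⟩
    · field_simp; linear_combination h1
    · field_simp
    · field_simp; linear_combination -h3
  · refine ⟨_, (x 0 0 - x 1 1) / (g 0 0 - g 1 1), hfin _ ?_ ?_ ?_⟩
    · field_simp; linear_combination -h2
    · field_simp; linear_combination h3
    · field_simp




/-- two matrices commuting with a non-scalar `2 × 2` matrix commute. -/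
theorem s48e_mat2_comm_of_comm_nonscalar (g x y : Matrix (Fin 2) (Fin 2) F)
    (hg : ∀ a : F, g ≠ a • (1 : Matrix (Fin 2) (Fin 2) F)) (hx : x * g = g * x) (hy : y * g = g * y) :
    x * y = y * x := by
  obtain ⟨μ, lam, rfl⟩ := s48e_mat2_comm_nonscalar g x hg hx
  obtain ⟨μ', lam', rfl⟩ := s48e_mat2_comm_nonscalar g y hg hy
  simp only [add_mul, mul_add, smul_mul_assoc, mul_smul_comm, one_mul, mul_one, smul_add, smul_smul]
  module

/-- Cayley–Hamilton for `2 × 2` matrices. -/
theorem s48e_mat2_cayley_hamilton {R : Type*} [CommRing R] (g : Matrix (Fin 2) (Fin 2) R) :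
    g * g = g.trace • g - g.det • (1 : Matrix (Fin 2) (Fin 2) R) := by
  ext i j
  fin_cases i <;> fin_cases j <;>
    simp [Matrix.mul_apply, Fin.sum_univ_two, Matrix.trace_fin_two, Matrix.det_fin_two] <;> ring

theorem s48e_mat2_trace_affine {R : Type*} [CommRing R] (g : Matrix (Fin 2) (Fin 2) R) (μ lam : R) :
    (μ • (1 : Matrix (Fin 2) (Fin 2) R) + lam • g).trace = 2 * μ + lam * g.trace := by
  simp [Matrix.trace_fin_two]; ring

theorem s48e_mat2_det_affine {R : Type*} [CommRing R] (g : Matrix (Fin 2) (Fin 2) R) (μ lam : R) :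
    (μ • (1 : Matrix (Fin 2) (Fin 2) R) + lam • g).det = μ ^ 2 + μ * lam * g.trace + lam ^ 2 * g.det := by
  simp [Matrix.trace_fin_two, Matrix.det_fin_two]; ring

/-- if `x` commutes with `g`, has the same trace and determinant, and the discriminant of `g` is non-zero
(characteristic `≠ 2`), then `x = g` or `x = tr g - g`. -/
theorem s48e_mat2_eq_or_eq_of_comm (h2 : (2 : F) ≠ 0) (g x : Matrix (Fin 2) (Fin 2) F)
    (hdisc : g.trace ^ 2 - 4 * g.det ≠ 0) (hx : x * g = g * x) (htr : x.trace = g.trace)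
    (hdet : x.det = g.det) :
    x = g ∨ x = g.trace • (1 : Matrix (Fin 2) (Fin 2) F) - g := by
  have hg : ∀ a : F, g ≠ a • (1 : Matrix (Fin 2) (Fin 2) F) := by
    intro a ha
    apply hdisc
    rw [ha, Matrix.trace_fin_two, Matrix.det_fin_two]
    simp; ring
  obtain ⟨μ, lam, rfl⟩ := s48e_mat2_comm_nonscalar g x hg hx
  rw [s48e_mat2_trace_affine] at htr
  rw [s48e_mat2_det_affine] at hdet
  have hlam : (1 - lam ^ 2) * (g.trace ^ 2 - 4 * g.det) = 0 := by
    linear_combination (-(2 * μ + lam * g.trace) - g.trace) * htr + 4 * hdet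
  rcases mul_eq_zero.1 hlam with h | h
  · have h' : (1 - lam) * (1 + lam) = 0 := by linear_combination h
    rcases mul_eq_zero.1 h' with h1 | h1
    · have hl : lam = 1 := by linear_combination -h1
      subst hl
      have hμ : μ = 0 := by
        have : 2 * μ = 0 := by linear_combination htr
        rcases mul_eq_zero.1 this with h3 | h3
        · exact absurd h3 h2
        · exact h3
      left
      rw [hμ]; simp
    · have hl : lam = -1 := by linear_combination h1
      subst hl
      have hμ : μ = g.trace := by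
        have : 2 * (μ - g.trace) = 0 := by linear_combination htr
        rcases mul_eq_zero.1 this with h3 | h3
        · exact absurd h3 h2
        · linear_combination h3
      right
      rw [hμ]; simp [sub_eq_add_neg]
  · exact absurd h hdisc



/-- `2 ≠ 0` in a ring of odd prime characteristic. -/
theorem s48e_two_ne_zero {F : Type*} [Field F] (ℓ : ℕ) [Fact ℓ.Prime] [CharP F ℓ] (hℓ2 : ℓ ≠ 2) :
    (2 : F) ≠ 0 := by
  have hℓ : ℓ.Prime := Fact.out
  intro h
  have : ((2 : ℕ) : F) = 0 := by exact_mod_cast h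
  rw [CharP.cast_eq_zero_iff F ℓ] at this
  exact hℓ2 ((Nat.prime_dvd_prime_iff_eq hℓ Nat.prime_two).1 this)

/-- over a finite field of characteristic `ℓ ≠ 2`, a non-scalar `2 × 2` matrix of order prime to `ℓ` has non-zero
discriminant. -/
theorem s48e_mat2_disc_ne_zero {F : Type*} [Field F] [Fintype F] (ℓ : ℕ) [Fact ℓ.Prime] [CharP F ℓ]
    (hℓ2 : ℓ ≠ 2)
    (g : Matrix (Fin 2) (Fin 2) F) (k : ℕ) (hk : g ^ k = 1) (hcop : Nat.Coprime ℓ k)
    (hg : ∀ a : F, g ≠ a • (1 : Matrix (Fin 2) (Fin 2) F)) :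
    g.trace ^ 2 - 4 * g.det ≠ 0 := by
  intro hdisc
  have hℓ : ℓ.Prime := Fact.out
  have h2 : (2 : F) ≠ 0 := s48e_two_ne_zero ℓ hℓ2
  set a : F := g.trace / 2 with ha
  have hta : g.trace = 2 * a := by rw [ha]; field_simp
  have hda : g.det = a ^ 2 := by
    have : 4 * g.det = 4 * a ^ 2 := by
      rw [show (4 : F) * a ^ 2 = (2 * a) ^ 2 by ring, ← hta]; linear_combination -hdisc
    have h4 : (4 : F) ≠ 0 := by
      have : (4 : F) = 2 * 2 := by norm_num
      rw [this]; exact mul_ne_zero h2 h2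
    exact mul_left_cancel₀ h4 this
  set N : Matrix (Fin 2) (Fin 2) F := g - a • 1 with hN
  have hNN : N * N = 0 := by
    rw [hN, sub_mul, mul_sub, mul_sub, s48e_mat2_cayley_hamilton g, hta, hda]
    simp only [smul_mul_assoc, mul_smul_comm, one_mul, mul_one]
    module
  have hgN : g = a • 1 + N := by rw [hN]; abel
  have hcomm : Commute (a • (1 : Matrix (Fin 2) (Fin 2) F)) N := by
    rw [commute_iff_eq]
    simp only [smul_mul_assoc, mul_smul_comm, one_mul, mul_one]
  obtain ⟨n, -, hq⟩ := FiniteField.card F ℓ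
  have hq2 : 2 ≤ ℓ ^ (n : ℕ) := by
    calc 2 ≤ ℓ := hℓ.two_le
      _ = ℓ ^ 1 := (pow_one ℓ).symm
      _ ≤ ℓ ^ (n : ℕ) := Nat.pow_le_pow_right hℓ.pos n.pos
  have hNℓ : N ^ (ℓ ^ (n : ℕ)) = 0 := pow_eq_zero_of_le hq2 (by rw [pow_two, hNN])
  have hgℓ : g ^ (ℓ ^ (n : ℕ)) = a • 1 := by
    rw [hgN, add_pow_char_pow_of_commute ℓ (n : ℕ) hcomm, hNℓ, add_zero, smul_pow, one_pow, ← hq,
      FiniteField.pow_card]
  have hcop' : Nat.Coprime (ℓ ^ (n : ℕ)) k := Nat.Coprime.pow_left _ hcop
  -- `g` is a power of `g ^ q`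
  have hk1 : k ≠ 0 := by
    intro h0
    rw [h0, Nat.coprime_zero_right] at hcop
    exact hℓ.one_lt.ne' hcop
  rcases Nat.lt_or_ge 1 k with hk2 | hk2
  · obtain ⟨j, -, hj⟩ := Nat.exists_mul_mod_eq_one_of_coprime hcop' hk2
    have hdiv := Nat.div_add_mod (ℓ ^ (n : ℕ) * j) k
    rw [hj] at hdiv
    have : g = (g ^ (ℓ ^ (n : ℕ))) ^ j := by
      rw [← pow_mul, ← hdiv, pow_add, pow_mul, hk, one_pow, one_mul, pow_one]
    rw [hgℓ, smul_pow, one_pow] at this
    exact hg _ this
  · have : k = 1 := by omega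
    rw [this, pow_one] at hk
    apply hg 1
    rw [hk, one_smul]

/-- a `2 × 2` matrix of square zero has trace and determinant zero. -/
theorem s48e_mat2_sq_zero (N : Matrix (Fin 2) (Fin 2) F) (hNN : N * N = 0) :
    N.trace = 0 ∧ N.det = 0 := by
  have hdet : N.det = 0 := by
    have : (N * N).det = 0 := by rw [hNN, Matrix.det_zero]
    rw [Matrix.det_mul] at this
    exact mul_self_eq_zero.1 this
  refine ⟨?_, hdet⟩
  have hCH := s48e_mat2_cayley_hamilton N
  rw [hNN, hdet, zero_smul, sub_zero] at hCH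
  by_contra ht
  have : N = 0 := by
    have := congrArg (fun M => (N.trace)⁻¹ • M) hCH
    simp only [smul_zero, smul_smul, inv_mul_cancel₀ ht, one_smul] at this
    exact this.symm
  apply ht
  rw [this, Matrix.trace_zero]

/-- a nilpotent `2 × 2` matrix has square zero. -/
theorem s48e_mat2_sq_zero_of_pow (N : Matrix (Fin 2) (Fin 2) F) (k : ℕ) (hk : N ^ k = 0) :
    N * N = 0 := by
  have hdet : N.det = 0 := by
    have : (N ^ k).det = 0 := by rw [hk, Matrix.det_zero]
    rw [Matrix.det_pow] at this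
    exact pow_eq_zero_iff (n := k) (by
      intro h0; rw [h0, pow_zero] at hk; exact one_ne_zero hk) |>.1 this
  have hCH := s48e_mat2_cayley_hamilton N
  rw [hdet, zero_smul, sub_zero] at hCH
  have hpow : ∀ j : ℕ, N ^ (j + 1) = N.trace ^ j • N := by
    intro j
    induction j with
    | zero => simp
    | succ j ih => rw [pow_succ, ih, smul_mul_assoc, hCH, smul_smul, pow_succ]
  rcases k with _ | k
  · rw [pow_zero] at hk; exact absurd hk one_ne_zero
  · rw [hpow k] at hk
    rcases smul_eq_zero.1 hk with h | h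
    · have ht : N.trace = 0 := by
        rcases k with _ | k
        · rw [pow_zero] at h; exact absurd h one_ne_zero
        · exact pow_eq_zero_iff (Nat.succ_ne_zero k) |>.1 h
      rw [hCH, ht, zero_smul]
    · rw [h, mul_zero]

/-- `N h N = tr(h N) N` for a `2 × 2` matrix `N` of determinant zero. -/
theorem s48e_mat2_NhN {R : Type*} [CommRing R] (N h : Matrix (Fin 2) (Fin 2) R) (hdet : N.det = 0) :
    N * h * N = (h * N).trace • N := by
  rw [Matrix.det_fin_two] at hdet
  ext i j
  fin_cases i <;> fin_cases j <;>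
    simp [Matrix.mul_apply, Fin.sum_univ_two, Matrix.trace_fin_two]
  · linear_combination (-(h 1 1)) * hdet
  · linear_combination (h 0 1) * hdet
  · linear_combination (h 1 0) * hdet
  · linear_combination (-(h 0 0)) * hdet


/-- if `N ≠ 0`, `N² = 0` and `N M = M N = 0` then `M` is a multiple of `N`. -/
theorem s48e_mat2_eq_smul_of_mul_zero (N M : Matrix (Fin 2) (Fin 2) F) (hN : N ≠ 0) (hNN : N * N = 0)
    (hNM : N * M = 0) (hMN : M * N = 0) : ∃ c : F, M = c • N := by
  have hns : ∀ a : F, N ≠ a • (1 : Matrix (Fin 2) (Fin 2) F) := by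
    intro a ha
    rw [ha] at hNN
    simp only [smul_mul_assoc, mul_smul_comm, one_mul, smul_smul] at hNN
    have h00 := congrFun (congrFun hNN 0) 0
    simp at h00
    apply hN
    rw [ha, h00, zero_smul]
  obtain ⟨μ, lam, rfl⟩ := s48e_mat2_comm_nonscalar N M hns (by rw [hMN, hNM])
  rw [mul_add, mul_smul_comm, mul_smul_comm, mul_one, hNN, smul_zero, add_zero] at hNM
  rcases smul_eq_zero.1 hNM with h | h
  · exact ⟨lam, by rw [h, zero_smul, zero_add]⟩
  · exact absurd h hN

end Fermat.Agent.Lib.S48
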