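/-
S48 (Deligne–Serre), Stage A brick (D4-a) (helper8): DS Prop. 7.2 in the case of order prime to `ℓ`.

`ρ : Γ →* M₂(F)` (`F` a finite field of characteristic `ℓ`) an injective representation of a finite group of order prime to `ℓ ≠ 2`, `P` a set of at most `M`
pairs (trace, determinant) such that at most `|Γ| / 120` elements of `Γ` have (trace, determinant) outside `P`.
Then `|Γ| ≤ (10 M) ^ (10 M + 1)` (`s48e_card_le_of_prime_to`).
-/
import Fermat.Agent.Lib.S48.EMat2
import Fermat.Agent.Lib.S48.ESparse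
set_option autoImplicit false
namespace Fermat.Agent.Lib.S48
open Matrix

section
variable {F : Type*} [Field F] {Γ : Type*} [Group Γ] (ρ : Γ →* Matrix (Fin 2) (Fin 2) F)

/-- an element with scalar image under an injective representation is central. -/
theorem s48e_central_of_scalar (hρ : Function.Injective ρ) (x : Γ) (a : F)
    (hx : ρ x = a • (1 : Matrix (Fin 2) (Fin 2) (F))) : x ∈ Subgroup.center Γ := by
  rw [Subgroup.mem_center_iff]
  intro y
  apply hρ
  rw [map_mul, map_mul, hx]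
  simp only [smul_mul_assoc, mul_smul_comm, one_mul, mul_one]

theorem s48e_mem_centralizer_iff (g x : Γ) :
    x ∈ Subgroup.centralizer ({g} : Set Γ) ↔ g * x = x * g := by
  rw [Subgroup.mem_centralizer_iff]
  constructor
  · intro h; exact h g rfl
  · intro h y hy
    rw [Set.mem_singleton_iff] at hy
    rw [hy]; exact h

/-- the centraliser of a non-central element is commutative. -/
theorem s48e_centralizer_comm (hρ : Function.Injective ρ) (g : Γ) (hg : g ∉ Subgroup.center Γ)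
    (x : Γ) (hx : x ∈ Subgroup.centralizer ({g} : Set Γ)) (y : Γ)
    (hy : y ∈ Subgroup.centralizer ({g} : Set Γ)) : x * y = y * x := by
  rw [s48e_mem_centralizer_iff] at hx hy
  apply hρ
  rw [map_mul, map_mul]
  apply s48e_mat2_comm_of_comm_nonscalar (ρ g)
  · intro a ha
    exact hg (s48e_central_of_scalar ρ hρ g a ha)
  · rw [← map_mul, ← map_mul, hx]
  · rw [← map_mul, ← map_mul, hy]

variable [Fintype F] {ℓ : ℕ} [Fact ℓ.Prime] [CharP F ℓ]

/-- discriminant of a non-scalar element, order prime to `ℓ`. -/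
theorem s48e_disc_ne_zero [Finite Γ] (hℓ2 : ℓ ≠ 2) (hcop : ¬ ℓ ∣ Nat.card Γ) (x : Γ)
    (hx : ∀ a : F, ρ x ≠ a • (1 : Matrix (Fin 2) (Fin 2) (F))) :
    (ρ x).trace ^ 2 - 4 * (ρ x).det ≠ 0 := by
  have hℓ : ℓ.Prime := Fact.out
  apply s48e_mat2_disc_ne_zero ℓ hℓ2 (ρ x) (Nat.card Γ) _ _ hx
  · rw [← map_pow, pow_card_eq_one', map_one]
  · exact (Nat.Prime.coprime_iff_not_dvd hℓ).2 hcop

/-- in a commuting family, at most two elements have a given trace and determinant. -/
theorem s48e_fiber_ncard_le_two [Finite Γ] (hρ : Function.Injective ρ) (hℓ2 : ℓ ≠ 2)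
    (hcop : ¬ ℓ ∣ Nat.card Γ) (C : Set Γ) (hC : ∀ x ∈ C, ∀ y ∈ C, x * y = y * x) (t d : F) :
    {x : Γ | x ∈ C ∧ (ρ x).trace = t ∧ (ρ x).det = d}.ncard ≤ 2 := by
  have hℓ : ℓ.Prime := Fact.out
  have h2 : (2 : F) ≠ 0 := s48e_two_ne_zero ℓ hℓ2
  set S : Set Γ := {x : Γ | x ∈ C ∧ (ρ x).trace = t ∧ (ρ x).det = d} with hS
  suffices h : ∃ A B : Matrix (Fin 2) (Fin 2) (F), ρ '' S ⊆ {A, B} by
    obtain ⟨A, B, hAB⟩ := h
    rw [← Set.ncard_image_of_injective S hρ]
    calc (ρ '' S).ncard ≤ ({A, B} : Set (Matrix (Fin 2) (Fin 2) (F))).ncard :=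
          Set.ncard_le_ncard hAB (Set.toFinite _)
      _ ≤ 2 := by
          have := Set.ncard_insert_le A ({B} : Set (Matrix (Fin 2) (Fin 2) (F)))
          rw [Set.ncard_singleton] at this
          exact this
  rcases Set.eq_empty_or_nonempty S with hemp | ⟨x₀, hx₀⟩
  · exact ⟨0, 0, by rw [hemp, Set.image_empty]; exact Set.empty_subset _⟩
  obtain ⟨hx₀C, hx₀t, hx₀d⟩ := hx₀
  by_cases hsc : ∃ a : F, ρ x₀ = a • (1 : Matrix (Fin 2) (Fin 2) (F))
  · obtain ⟨a, ha⟩ := hsc
    refine ⟨ρ x₀, ρ x₀, ?_⟩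
    rintro _ ⟨x, ⟨hxC, hxt, hxd⟩, rfl⟩
    rw [Set.mem_insert_iff]; left
    have hta : t = 2 * a := by
      rw [← hx₀t, ha, Matrix.trace_fin_two]; simp; ring
    have hda : d = a ^ 2 := by
      rw [← hx₀d, ha, Matrix.det_fin_two]; simp; ring
    by_cases hxs : ∃ b : F, ρ x = b • (1 : Matrix (Fin 2) (Fin 2) (F))
    · obtain ⟨b, hb⟩ := hxs
      have : 2 * b = 2 * a := by
        rw [← hta, ← hxt, hb, Matrix.trace_fin_two]; simp; ring
      rw [hb, ha, mul_left_cancel₀ h2 this]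
    · push Not at hxs
      have := s48e_disc_ne_zero ρ hℓ2 hcop x hxs
      rw [hxt, hxd, hta, hda] at this
      exact absurd (by ring) this
  · push Not at hsc
    have hdisc := s48e_disc_ne_zero ρ hℓ2 hcop x₀ hsc
    refine ⟨ρ x₀, (ρ x₀).trace • (1 : Matrix (Fin 2) (Fin 2) (F)) - ρ x₀, ?_⟩
    rintro _ ⟨x, ⟨hxC, hxt, hxd⟩, rfl⟩
    have := s48e_mat2_eq_or_eq_of_comm h2 (ρ x₀) (ρ x) hdisc
      (by rw [← map_mul, ← map_mul, hC x hxC x₀ hx₀C]) (by rw [hxt, hx₀t]) (by rw [hxd, hx₀d])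
    rcases this with h | h
    · rw [h]; exact Set.mem_insert _ _
    · rw [h]; exact Set.mem_insert_of_mem _ rfl

/-- in a commuting family, at most `2 |P|` elements have (trace, determinant) in `P`. -/
theorem s48e_inter_ncard_le [Finite Γ] (hρ : Function.Injective ρ) (hℓ2 : ℓ ≠ 2)
    (hcop : ¬ ℓ ∣ Nat.card Γ) (C : Set Γ) (hC : ∀ x ∈ C, ∀ y ∈ C, x * y = y * x)
    (P : Finset (F × F)) :
    {x : Γ | x ∈ C ∧ ((ρ x).trace, (ρ x).det) ∈ P}.ncard ≤ 2 * P.card := by
  classical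
  set S : Set Γ := {x : Γ | x ∈ C ∧ ((ρ x).trace, (ρ x).det) ∈ P} with hS
  have hfin : S.Finite := Set.toFinite S
  rw [Set.ncard_eq_toFinset_card S hfin]
  apply Finset.card_le_mul_card_image_of_maps_to (f := fun x => ((ρ x).trace, (ρ x).det))
  · intro x hx
    rw [Set.Finite.mem_toFinset] at hx
    exact hx.2
  · intro b hb
    refine le_trans ?_ (s48e_fiber_ncard_le_two ρ hρ hℓ2 hcop C hC b.1 b.2)
    rw [← Set.ncard_coe_finset]
    apply Set.ncard_le_ncard _ (Set.toFinite _)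
    intro x hx
    rw [Finset.mem_coe, Finset.mem_filter, Set.Finite.mem_toFinset] at hx
    refine ⟨hx.1.1, ?_, ?_⟩
    · rw [← hx.2]
    · rw [← hx.2]

/-- **DS Prop. 7.2, case of order prime to `ℓ`.** -/
theorem s48e_card_le_of_prime_to [Finite Γ] (hρ : Function.Injective ρ) (hℓ2 : ℓ ≠ 2)
    (hcop : ¬ ℓ ∣ Nat.card Γ) (P : Finset (F × F)) (M : ℕ) (hP : P.card ≤ M)
    (hη : 120 * {x : Γ | ((ρ x).trace, (ρ x).det) ∉ P}.ncard ≤ Nat.card Γ) :
    Nat.card Γ ≤ (10 * M) ^ (10 * M + 1) := by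
  set H : Set Γ := {x : Γ | ((ρ x).trace, (ρ x).det) ∈ P} with hH
  have hHc : Hᶜ = {x : Γ | ((ρ x).trace, (ρ x).det) ∉ P} := by
    ext x; simp [hH]
  by_cases hnc : ∃ g : Γ, g ∉ Subgroup.center Γ
  · have := s48e_card_le_of_sparse Γ H (2 * M) ?_ (by rw [hHc]; exact hη)
      (fun g hg => s48e_centralizer_comm ρ hρ g hg) ?_ ?_ hnc
    · rw [show 5 * (2 * M) = 10 * M by ring] at this
      exact this
    · -- conjugation invariance
      intro g x hg
      rw [hH, Set.mem_ofPred_eq] at hg ⊢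
      have h1 : (ρ (x * g * x⁻¹)).trace = (ρ g).trace := by
        rw [map_mul, map_mul, Matrix.trace_mul_comm, ← mul_assoc, ← map_mul, inv_mul_cancel, map_one,
          one_mul]
      have h2 : (ρ (x * g * x⁻¹)).det = (ρ g).det := by
        rw [map_mul, map_mul, Matrix.det_mul, Matrix.det_mul, mul_comm, ← mul_assoc, ← Matrix.det_mul,
          ← map_mul, inv_mul_cancel, map_one, Matrix.det_one, one_mul]
      rw [h1, h2]; exact hg
    · -- at most two conjugates in the centraliser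
      intro g hg
      refine le_trans ?_ (s48e_fiber_ncard_le_two ρ hρ hℓ2 hcop
        (Subgroup.centralizer ({g} : Set Γ)) (fun x hx y hy => s48e_centralizer_comm ρ hρ g hg x hx y hy)
        (ρ g).trace (ρ g).det)
      apply Set.ncard_le_ncard _ (Set.toFinite _)
      rintro x ⟨hx, hc⟩
      obtain ⟨u, hu⟩ := isConj_iff.1 hc
      refine ⟨hx, ?_, ?_⟩
      · rw [← hu, map_mul, map_mul, Matrix.trace_mul_comm, ← mul_assoc, ← map_mul, inv_mul_cancel,
          map_one, one_mul]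
      · rw [← hu, map_mul, map_mul, Matrix.det_mul, Matrix.det_mul, mul_comm, ← mul_assoc,
          ← Matrix.det_mul, ← map_mul, inv_mul_cancel, map_one, Matrix.det_one, one_mul]
    · intro g hg
      refine le_trans (s48e_inter_ncard_le ρ hρ hℓ2 hcop (Subgroup.centralizer ({g} : Set Γ))
        (fun x hx y hy => s48e_centralizer_comm ρ hρ g hg x hx y hy) P) ?_
      omega
  · -- commutative case
    push Not at hnc
    have hH2 : H.ncard ≤ 2 * M := by
      have := s48e_inter_ncard_le ρ hρ hℓ2 hcop Set.univ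
        (fun x _ y _ => (Subgroup.mem_center_iff.1 (hnc y) x)) P
      have hHeq : H = {x : Γ | x ∈ Set.univ ∧ ((ρ x).trace, (ρ x).det) ∈ P} := by
        ext x; simp [hH]
      rw [← hHeq] at this
      omega
    have hsum : H.ncard + (Hᶜ).ncard = Nat.card Γ := Set.ncard_add_ncard_compl H
    rw [hHc] at hsum
    have h3 : Nat.card Γ ≤ 3 * M := by omega
    rcases Nat.eq_zero_or_pos M with h0 | hpos
    · subst h0
      have : 0 < Nat.card Γ := Nat.card_pos
      omega
    · calc Nat.card Γ ≤ 3 * M := h3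
        _ ≤ 10 * M := by omega
        _ ≤ (10 * M) ^ (10 * M + 1) := Nat.le_self_pow (by omega) _

end
end Fermat.Agent.Lib.S48
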