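/-
S48 (Deligne–Serre), Stage A brick (D4-a) (helper8): DS Prop. 7.2 in the case `ℓ ∣ |Γ|` (transvection case).

`ρ : Γ →* M₂(F)` (`F` a field of characteristic `ℓ`) an injective semisimple representation of a finite group of order divisible by `ℓ`, `P` a set of at
most `M` pairs (trace, determinant) such that at most `|Γ| / 120` elements of `Γ` have (trace, determinant) outside `P`.
Then `59 ℓ ≤ 120 M` (`s48e_prime_le_of_dvd`).
-/
import Fermat.Agent.Lib.S48.EMat2
set_option autoImplicit false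
namespace Fermat.Agent.Lib.S48
open Matrix

section
variable {F : Type*} [Field F] {Γ : Type*} [Group Γ] (ρ : Γ →* Matrix (Fin 2) (Fin 2) F)

/-- the stabiliser of the line `im N`, as the set of `h` with `ρ h * N ∈ F N`. -/
def s48e_lineStab (N : Matrix (Fin 2) (Fin 2) F) (hN : N ≠ 0) : Subgroup Γ where
  carrier := {h : Γ | ∃ c : F, ρ h * N = c • N}
  one_mem' := ⟨1, by rw [map_one, one_mul, one_smul]⟩
  mul_mem' := by
    rintro h h' ⟨c, hc⟩ ⟨c', hc'⟩
    refine ⟨c' * c, ?_⟩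
    rw [map_mul, mul_assoc, hc', mul_smul_comm, hc, smul_smul]
  inv_mem' := by
    rintro h ⟨c, hc⟩
    have hc0 : c ≠ 0 := by
      rintro rfl
      rw [zero_smul] at hc
      apply hN
      have : ρ h⁻¹ * (ρ h * N) = N := by
        rw [← mul_assoc, ← map_mul, inv_mul_cancel, map_one, one_mul]
      rw [← this, hc, mul_zero]
    refine ⟨c⁻¹, ?_⟩
    have : ρ h⁻¹ * (ρ h * N) = N := by
      rw [← mul_assoc, ← map_mul, inv_mul_cancel, map_one, one_mul]
    rw [hc, mul_smul_comm] at this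
    calc ρ h⁻¹ * N = c⁻¹ • (c • (ρ h⁻¹ * N)) := by rw [smul_smul, inv_mul_cancel₀ hc0, one_smul]
      _ = c⁻¹ • N := by rw [this]

theorem s48e_mem_lineStab (N : Matrix (Fin 2) (Fin 2) F) (hN : N ≠ 0) (h : Γ) :
    h ∈ s48e_lineStab ρ N hN ↔ ∃ c : F, ρ h * N = c • N := Iff.rfl

/-- outside the line stabiliser, `tr (ρ h N) ≠ 0`. -/
theorem s48e_trace_ne_zero_of_not_mem (N : Matrix (Fin 2) (Fin 2) F) (hN : N ≠ 0)
    (hNN : N * N = 0) (h : Γ) (hh : h ∉ s48e_lineStab ρ N hN) : (ρ h * N).trace ≠ 0 := by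
  intro htr
  apply hh
  rw [s48e_mem_lineStab]
  have hdet := (s48e_mat2_sq_zero N hNN).2
  have h1 := s48e_mat2_NhN N (ρ h) hdet
  rw [htr, zero_smul] at h1
  exact s48e_mat2_eq_smul_of_mul_zero N (ρ h * N) hN hNN (by rw [← mul_assoc, h1])
    (by rw [mul_assoc, hNN, mul_zero])

/-- semisimplicity forces the line stabiliser to be a proper subgroup. -/
theorem s48e_lineStab_ne_top (N : Matrix (Fin 2) (Fin 2) F) (hN : N ≠ 0)
    (hNN : N * N = 0) (u : Γ) (hu : ρ u = 1 + N)
    (hss : ∀ v : Fin 2 → F, v ≠ 0 → (∀ x : Γ, ∃ c : F, (ρ x) *ᵥ v = c • v) →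
      ∃ w : Fin 2 → F, v 0 * w 1 - v 1 * w 0 ≠ 0 ∧ ∀ x : Γ, ∃ c : F, (ρ x) *ᵥ w = c • w) :
    s48e_lineStab ρ N hN ≠ ⊤ := by
  intro htop
  have hall : ∀ x : Γ, ∃ c : F, ρ x * N = c • N := by
    intro x
    have : x ∈ s48e_lineStab ρ N hN := by rw [htop]; exact Subgroup.mem_top x
    exact this
  -- a non-zero column of `N`
  have hcol : ∃ j : Fin 2, (fun i => N i j) ≠ 0 := by
    by_contra hcon
    push Not at hcon
    apply hN
    ext i j
    exact congrFun (hcon j) i
  obtain ⟨j, hj⟩ := hcol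
  set v : Fin 2 → F := fun i => N i j with hv
  have hvcol : ∀ A : Matrix (Fin 2) (Fin 2) F, A *ᵥ v = fun i => (A * N) i j := by
    intro A
    ext i
    simp [Matrix.mulVec, dotProduct, Matrix.mul_apply, hv]
  obtain ⟨w, hdet, hw⟩ := hss v hj (by
    intro x
    obtain ⟨c, hc⟩ := hall x
    refine ⟨c, ?_⟩
    rw [hvcol, hc]
    ext i
    simp [hv])
  have hNv : N *ᵥ v = 0 := by
    rw [hvcol, hNN]; rfl
  obtain ⟨c, hc⟩ := hw u
  rw [hu, Matrix.add_mulVec, Matrix.one_mulVec] at hc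
  have hNw : N *ᵥ w = (c - 1) • w := by
    rw [sub_smul, one_smul, ← hc]; abel
  have hw0 : w ≠ 0 := by
    rintro rfl
    apply hdet; simp
  have hc1 : c - 1 = 0 := by
    have h2 : N *ᵥ (N *ᵥ w) = 0 := by rw [Matrix.mulVec_mulVec, hNN, Matrix.zero_mulVec]
    rw [hNw, Matrix.mulVec_smul, hNw, smul_smul] at h2
    rcases smul_eq_zero.1 h2 with h3 | h3
    · exact mul_self_eq_zero.1 h3
    · exact absurd h3 hw0
  rw [hc1, zero_smul] at hNw
  apply hN
  have e1 : ∀ i : Fin 2, N i 0 * v 0 + N i 1 * v 1 = 0 := by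
    intro i
    have := congrFun hNv i
    simpa [Matrix.mulVec, dotProduct, Fin.sum_univ_two] using this
  have e2 : ∀ i : Fin 2, N i 0 * w 0 + N i 1 * w 1 = 0 := by
    intro i
    have := congrFun hNw i
    simpa [Matrix.mulVec, dotProduct, Fin.sum_univ_two] using this
  have f0 : ∀ i : Fin 2, N i 0 = 0 := by
    intro i
    have : N i 0 * (v 0 * w 1 - v 1 * w 0) = 0 := by
      linear_combination (w 1) * e1 i - (v 1) * e2 i
    rcases mul_eq_zero.1 this with h | h
    · exact h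
    · exact absurd h hdet
  have f1 : ∀ i : Fin 2, N i 1 = 0 := by
    intro i
    have : N i 1 * (v 0 * w 1 - v 1 * w 0) = 0 := by
      linear_combination (-(w 0)) * e1 i + (v 0) * e2 i
    rcases mul_eq_zero.1 this with h | h
    · exact h
    · exact absurd h hdet
  ext i k
  fin_cases k
  · exact f0 i
  · exact f1 i

/-- **DS Prop. 7.2, case `ℓ ∣ |Γ|`**: then `ℓ` is bounded in terms of `M`. -/
theorem s48e_prime_le_of_dvd {ℓ : ℕ} [Fact ℓ.Prime] [CharP F ℓ] [Finite Γ] (hρ : Function.Injective ρ) (hdvd : ℓ ∣ Nat.card Γ)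
    (hss : ∀ v : Fin 2 → F, v ≠ 0 → (∀ x : Γ, ∃ c : F, (ρ x) *ᵥ v = c • v) →
      ∃ w : Fin 2 → F, v 0 * w 1 - v 1 * w 0 ≠ 0 ∧ ∀ x : Γ, ∃ c : F, (ρ x) *ᵥ w = c • w)
    (P : Finset (F × F)) (M : ℕ) (hP : P.card ≤ M)
    (hη : 120 * {x : Γ | ((ρ x).trace, (ρ x).det) ∉ P}.ncard ≤ Nat.card Γ) :
    59 * ℓ ≤ 120 * M := by
  classical
  have hℓ : ℓ.Prime := Fact.out
  obtain ⟨u, hou⟩ := exists_prime_orderOf_dvd_card' ℓ hdvd
  set N : Matrix (Fin 2) (Fin 2) F := ρ u - 1 with hNdef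
  have hu : ρ u = 1 + N := by rw [hNdef]; abel
  have hNℓ : N ^ ℓ = 0 := by
    have hul : u ^ ℓ = 1 := hou ▸ pow_orderOf_eq_one u
    rw [hNdef, sub_pow_char_of_commute _ (Commute.one_right _), one_pow, ← map_pow, hul, map_one,
      sub_self]
  have hNN : N * N = 0 := s48e_mat2_sq_zero_of_pow N ℓ hNℓ
  have hN : N ≠ 0 := by
    intro h0
    rw [h0, add_zero] at hu
    have : u = 1 := hρ (by rw [hu, map_one])
    rw [this, orderOf_one] at hou
    exact hℓ.one_lt.ne' hou.symm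
  have hpow : ∀ a : ℕ, ρ (u ^ a) = 1 + (a : F) • N := by
    intro a
    induction a with
    | zero => simp
    | succ a ih =>
      rw [pow_succ, map_mul, ih, hu]
      simp only [add_mul, mul_add, one_mul, mul_one, smul_mul_assoc, hNN, smul_zero, add_zero,
        Nat.cast_succ, add_smul, one_smul]
      abel
  set Γ₀ : Subgroup Γ := s48e_lineStab ρ N hN with hΓ₀
  have huΓ₀ : u ∈ Γ₀ := by
    rw [hΓ₀, s48e_mem_lineStab]
    exact ⟨1, by rw [hu, add_mul, one_mul, hNN, add_zero, one_smul]⟩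
  have hne : Γ₀ ≠ ⊤ := s48e_lineStab_ne_top ρ N hN hNN u hu hss
  have hidx : 2 * Nat.card Γ₀ ≤ Nat.card Γ := by
    have h1 := Subgroup.card_mul_index Γ₀
    have h2 : Γ₀.index ≠ 1 := fun h => hne (Subgroup.index_eq_one.1 h)
    have h3 : Γ₀.index ≠ 0 := Subgroup.index_ne_zero_of_finite
    have h4 : 2 ≤ Γ₀.index := by omega
    calc 2 * Nat.card Γ₀ = Nat.card Γ₀ * 2 := mul_comm _ _
      _ ≤ Nat.card Γ₀ * Γ₀.index := Nat.mul_le_mul_left _ h4
      _ = Nat.card Γ := h1
  cases nonempty_fintype Γ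
  set K : Finset Γ := Finset.univ.filter (fun h => h ∉ Γ₀) with hK
  set Hf : Finset Γ := Finset.univ.filter (fun x => ((ρ x).trace, (ρ x).det) ∈ P) with hHf
  set κ : ℕ := (K.filter (fun h => h ∈ Hf)).card with hκ
  -- fibres over `h`
  have hrow : ∀ h ∈ K, ((Finset.range ℓ).filter (fun a => h * u ^ a ∈ Hf)).card ≤ M := by
    intro h hh
    rw [hK, Finset.mem_filter] at hh
    have htr := s48e_trace_ne_zero_of_not_mem ρ N hN hNN h hh.2
    refine le_trans ?_ hP
    apply Finset.card_le_card_of_injOn (fun a => ((ρ (h * u ^ a)).trace, (ρ (h * u ^ a)).det))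
    · intro a ha
      rw [Finset.coe_filter, Set.mem_ofPred_eq, hHf, Finset.mem_filter] at ha
      exact ha.2.2
    · intro a ha b hb hab
      rw [Finset.coe_filter, Set.mem_ofPred_eq, Finset.mem_range] at ha hb
      have h1 : (ρ (h * u ^ a)).trace = (ρ (h * u ^ b)).trace := congrArg Prod.fst hab
      rw [map_mul, map_mul, hpow, hpow, mul_add, mul_add, mul_one, mul_smul_comm, mul_smul_comm,
        Matrix.trace_add, Matrix.trace_add, Matrix.trace_smul, Matrix.trace_smul, smul_eq_mul,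
        smul_eq_mul] at h1
      have h2 : ((a : F) - (b : F)) * (ρ h * N).trace = 0 := by linear_combination h1
      rcases mul_eq_zero.1 h2 with h3 | h3
      · have h4 : (a : F) = (b : F) := by linear_combination h3
        rw [CharP.natCast_eq_natCast F ℓ] at h4
        have h5 := Nat.ModEq.eq_of_lt_of_lt h4 ha.1 hb.1
        exact h5
      · exact absurd h3 htr
  -- fibres over `a`
  have hcol : ∀ a ∈ Finset.range ℓ, (K.filter (fun h => h * u ^ a ∈ Hf)).card = κ := by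
    intro a _
    have hua : u ^ a ∈ Γ₀ := Subgroup.pow_mem _ huΓ₀ a
    rw [hκ]
    apply Finset.card_bij (fun h _ => h * u ^ a)
    · intro h hh
      rw [Finset.mem_filter, hK, Finset.mem_filter] at hh ⊢
      refine ⟨⟨Finset.mem_univ _, ?_⟩, hh.2⟩
      rw [Subgroup.mul_mem_cancel_right _ hua]
      exact hh.1.2
    · intro h _ h' _ heq
      exact mul_right_cancel heq
    · intro h' hh'
      rw [Finset.mem_filter, hK, Finset.mem_filter] at hh'
      refine ⟨h' * (u ^ a)⁻¹, ?_, by rw [inv_mul_cancel_right]⟩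
      rw [Finset.mem_filter, hK, Finset.mem_filter, inv_mul_cancel_right]
      refine ⟨⟨Finset.mem_univ _, ?_⟩, hh'.2⟩
      rw [Subgroup.mul_mem_cancel_right _ (Subgroup.inv_mem _ hua)]
      exact hh'.1.2
  -- double counting
  have hdc : ℓ * κ ≤ M * Nat.card Γ := by
    have h1 := Finset.sum_card_bipartiteAbove_eq_sum_card_bipartiteBelow (s := Finset.range ℓ) (t := K)
      (fun a h => h * u ^ a ∈ Hf)
    unfold Finset.bipartiteAbove Finset.bipartiteBelow at h1
    rw [Finset.sum_congr rfl hcol, Finset.sum_const, Finset.card_range, smul_eq_mul] at h1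
    rw [h1]
    calc ∑ h ∈ K, ((Finset.range ℓ).filter (fun a => h * u ^ a ∈ Hf)).card ≤ ∑ _h ∈ K, M :=
          Finset.sum_le_sum hrow
      _ = K.card * M := by rw [Finset.sum_const, smul_eq_mul]
      _ ≤ Nat.card Γ * M := by
          apply Nat.mul_le_mul_right
          rw [Nat.card_eq_fintype_card]
          exact Finset.card_le_univ K
      _ = M * Nat.card Γ := mul_comm _ _
  -- `|Hf| ≤ |Γ₀| + κ`
  have hHf_le : Hf.card ≤ Nat.card Γ₀ + κ := by
    have h1 : Hf.card = (Hf.filter (fun x => x ∈ Γ₀)).card + (Hf.filter (fun x => ¬ x ∈ Γ₀)).card :=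
      (Finset.card_filter_add_card_filter_not (s := Hf) (fun x => x ∈ Γ₀)).symm
    have h2 : (Hf.filter (fun x => x ∈ Γ₀)).card ≤ Nat.card Γ₀ := by
      rw [Nat.card_eq_fintype_card, Fintype.card_subtype]
      apply Finset.card_le_card
      intro x hx
      rw [Finset.mem_filter] at hx ⊢
      exact ⟨Finset.mem_univ _, hx.2⟩
    have h3 : (Hf.filter (fun x => ¬ x ∈ Γ₀)).card = κ := by
      rw [hκ]
      congr 1
      ext x
      simp only [Finset.mem_filter, hK, Finset.mem_univ, true_and]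
      tauto
    omega
  -- complement
  have hcompl : Hf.card + {x : Γ | ((ρ x).trace, (ρ x).det) ∉ P}.ncard = Nat.card Γ := by
    have h1 := Set.ncard_add_ncard_compl (Hf : Set Γ)
    rw [Set.ncard_coe_finset] at h1
    rw [← h1]
    congr 2
    ext x
    simp [hHf]
  -- arithmetic
  have hGpos : 0 < Nat.card Γ := Nat.card_pos
  set n := Nat.card Γ
  set e := {x : Γ | ((ρ x).trace, (ρ x).det) ∉ P}.ncard
  set g0 := Nat.card Γ₀
  have k1 : 120 * ℓ * n ≤ 120 * ℓ * g0 + 120 * (ℓ * κ) + ℓ * (120 * e) := by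
    have : n ≤ g0 + κ + e := by omega
    nlinarith
  have k2 : 120 * ℓ * g0 ≤ 60 * ℓ * n := by nlinarith
  have k3 : ℓ * (120 * e) ≤ ℓ * n := Nat.mul_le_mul_left _ hη
  have k4 : n * (59 * ℓ) ≤ n * (120 * M) := by nlinarith
  exact Nat.le_of_mul_le_mul_left k4 hGpos

end
end Fermat.Agent.Lib.S48
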