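/-
S48 (Deligne–Serre), Stage A brick (D4-a) (helper8): **DS Prop. 7.2** (with `η = 1/120`).

Let `ℓ ≠ 2` be a prime, `Γ` a finite group, `ρ : Γ →* M₂(𝔽_ℓ)` an injective semisimple representation, `P` a set of at
most `M` pairs (trace, determinant) such that at most `|Γ| / 120` elements of `Γ` have (trace, determinant) outside `P`.
Then `|Γ| ≤ (10 M) ^ (10 M + 1)`; the bound does not depend on `ℓ`.

* `s48e_prop72_field` : the statement over a finite field `F` of characteristic `ℓ` with `|F| ≤ ℓ ^ d`: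
  `|Γ| ≤ (10 M) ^ (10 M + 4 d + 1)`.
* `s48e_prop72` : the statement for an injective `ρ : Γ →* Matrix (Fin 2) (Fin 2) (ZMod ℓ)`.
* `s48e_prop72_subgroup` : the statement for a subgroup `G` of `GL (Fin 2) (ZMod ℓ)`.
-/
import Fermat.Agent.Lib.S48.ETorus
import Fermat.Agent.Lib.S48.ETransv

set_option autoImplicit false

namespace Fermat.Agent.Lib.S48

open Matrix

theorem s48e_card_matrix_field (F : Type*) [Finite F] :
    Nat.card (Matrix (Fin 2) (Fin 2) F) = Nat.card F ^ 4 := by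
  have : Nat.card (Matrix (Fin 2) (Fin 2) F) = Nat.card (Fin 2 → Fin 2 → F) := rfl
  rw [this, Nat.card_fun, Nat.card_fun]
  simp
  ring

theorem s48e_card_matrix (ℓ : ℕ) [NeZero ℓ] : Nat.card (Matrix (Fin 2) (Fin 2) (ZMod ℓ)) = ℓ ^ 4 := by
  rw [s48e_card_matrix_field, Nat.card_zmod]

/-- **Deligne–Serre, Prop. 7.2** (`η = 1/120`) over a finite field `F` of characteristic `ℓ ≠ 2` with at most `ℓ ^ d`
elements: the bound depends only on `M` and `d`. -/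
theorem s48e_prop72_field {F : Type*} [Field F] [Fintype F] (ℓ : ℕ) [Fact ℓ.Prime] [CharP F ℓ]
    (hℓ2 : ℓ ≠ 2) {Γ : Type*} [Group Γ] [Finite Γ]
    (ρ : Γ →* Matrix (Fin 2) (Fin 2) F) (hρ : Function.Injective ρ)
    (hss : ∀ v : Fin 2 → F, v ≠ 0 → (∀ x : Γ, ∃ c : F, (ρ x) *ᵥ v = c • v) →
      ∃ w : Fin 2 → F, v 0 * w 1 - v 1 * w 0 ≠ 0 ∧ ∀ x : Γ, ∃ c : F, (ρ x) *ᵥ w = c • w)
    (P : Finset (F × F)) (M : ℕ) (hP : P.card ≤ M)
    (hη : 120 * {x : Γ | ((ρ x).trace, (ρ x).det) ∉ P}.ncard ≤ Nat.card Γ)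
    (d : ℕ) (hF : Nat.card F ≤ ℓ ^ d) :
    Nat.card Γ ≤ (10 * M) ^ (10 * M + 4 * d + 1) := by
  have hℓ : ℓ.Prime := Fact.out
  by_cases hdvd : ℓ ∣ Nat.card Γ
  · have h1 := s48e_prime_le_of_dvd ρ hρ hdvd hss P M hP hη
    have h2 : ℓ ≤ 10 * M := by omega
    have hM : 1 ≤ M := by
      have := hℓ.two_le
      omega
    calc Nat.card Γ ≤ Nat.card (Matrix (Fin 2) (Fin 2) F) :=
          Nat.card_le_card_of_injective ρ hρ
      _ = Nat.card F ^ 4 := s48e_card_matrix_field F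
      _ ≤ (ℓ ^ d) ^ 4 := Nat.pow_le_pow_left hF 4
      _ = ℓ ^ (4 * d) := by rw [← pow_mul, mul_comm]
      _ ≤ (10 * M) ^ (4 * d) := Nat.pow_le_pow_left h2 _
      _ ≤ (10 * M) ^ (10 * M + 4 * d + 1) := Nat.pow_le_pow_right (by omega) (by omega)
  · have h1 := s48e_card_le_of_prime_to ρ hρ hℓ2 hdvd P M hP hη
    rcases Nat.eq_zero_or_pos M with h0 | hpos
    · subst h0
      have : 0 < Nat.card Γ := Nat.card_pos
      simp at h1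
      omega
    · exact le_trans h1 (Nat.pow_le_pow_right (by omega) (by omega))

/-- **Deligne–Serre, Prop. 7.2** (`η = 1/120`). -/
theorem s48e_prop72 (ℓ : ℕ) [Fact ℓ.Prime] (hℓ2 : ℓ ≠ 2) {Γ : Type*} [Group Γ] [Finite Γ]
    (ρ : Γ →* Matrix (Fin 2) (Fin 2) (ZMod ℓ)) (hρ : Function.Injective ρ)
    (hss : ∀ v : Fin 2 → ZMod ℓ, v ≠ 0 → (∀ x : Γ, ∃ c : ZMod ℓ, (ρ x) *ᵥ v = c • v) →
      ∃ w : Fin 2 → ZMod ℓ, v 0 * w 1 - v 1 * w 0 ≠ 0 ∧ ∀ x : Γ, ∃ c : ZMod ℓ, (ρ x) *ᵥ w = c • w)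
    (P : Finset (ZMod ℓ × ZMod ℓ)) (M : ℕ) (hP : P.card ≤ M)
    (hη : 120 * {x : Γ | ((ρ x).trace, (ρ x).det) ∉ P}.ncard ≤ Nat.card Γ) :
    Nat.card Γ ≤ (10 * M) ^ (10 * M + 1) := by
  have hℓ : ℓ.Prime := Fact.out
  by_cases hdvd : ℓ ∣ Nat.card Γ
  · have h1 := s48e_prime_le_of_dvd ρ hρ hdvd hss P M hP hη
    have h2 : ℓ ≤ 3 * M := by omega
    have hM : 1 ≤ M := by
      have := hℓ.two_le
      omega
    have : NeZero ℓ := ⟨hℓ.ne_zero⟩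
    calc Nat.card Γ ≤ Nat.card (Matrix (Fin 2) (Fin 2) (ZMod ℓ)) :=
          Nat.card_le_card_of_injective ρ hρ
      _ = ℓ ^ 4 := s48e_card_matrix ℓ
      _ ≤ (10 * M) ^ 4 := Nat.pow_le_pow_left (by omega) 4
      _ ≤ (10 * M) ^ (10 * M + 1) := Nat.pow_le_pow_right (by omega) (by omega)
  · exact s48e_card_le_of_prime_to ρ hρ hℓ2 hdvd P M hP hη

/-- **Deligne–Serre, Prop. 7.2** (`η = 1/120`), for a subgroup of `GL₂(𝔽_ℓ)`. -/
theorem s48e_prop72_subgroup (ℓ : ℕ) [Fact ℓ.Prime] (hℓ2 : ℓ ≠ 2)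
    (G : Subgroup (GL (Fin 2) (ZMod ℓ)))
    (hss : ∀ v : Fin 2 → ZMod ℓ, v ≠ 0 →
      (∀ x ∈ G, ∃ c : ZMod ℓ, (x : Matrix (Fin 2) (Fin 2) (ZMod ℓ)) *ᵥ v = c • v) →
      ∃ w : Fin 2 → ZMod ℓ, v 0 * w 1 - v 1 * w 0 ≠ 0 ∧
        ∀ x ∈ G, ∃ c : ZMod ℓ, (x : Matrix (Fin 2) (Fin 2) (ZMod ℓ)) *ᵥ w = c • w)
    (P : Finset (ZMod ℓ × ZMod ℓ)) (M : ℕ) (hP : P.card ≤ M)
    (hη : 120 * {x : GL (Fin 2) (ZMod ℓ) | x ∈ G ∧
      ((x : Matrix (Fin 2) (Fin 2) (ZMod ℓ)).trace, (x : Matrix (Fin 2) (Fin 2) (ZMod ℓ)).det) ∉ P}.ncard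
        ≤ Nat.card G) :
    Nat.card G ≤ (10 * M) ^ (10 * M + 1) := by
  set ρ : G →* Matrix (Fin 2) (Fin 2) (ZMod ℓ) :=
    (Units.coeHom (Matrix (Fin 2) (Fin 2) (ZMod ℓ))).comp G.subtype with hρdef
  have hρ : Function.Injective ρ := by
    intro x y hxy
    apply Subtype.ext
    apply Units.ext
    exact hxy
  have hρx : ∀ x : G, ρ x = ((x : GL (Fin 2) (ZMod ℓ)) : Matrix (Fin 2) (Fin 2) (ZMod ℓ)) := fun _ => rfl
  apply s48e_prop72 ℓ hℓ2 ρ hρ _ P M hP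
  · have himg : {x : GL (Fin 2) (ZMod ℓ) | x ∈ G ∧
        ((x : Matrix (Fin 2) (Fin 2) (ZMod ℓ)).trace, (x : Matrix (Fin 2) (Fin 2) (ZMod ℓ)).det) ∉ P}
        = Subtype.val '' {x : G | ((ρ x).trace, (ρ x).det) ∉ P} := by
      ext x
      constructor
      · rintro ⟨hx, hxP⟩
        exact ⟨⟨x, hx⟩, hxP, rfl⟩
      · rintro ⟨y, hy, rfl⟩
        exact ⟨y.2, hy⟩
    rw [himg, Set.ncard_image_of_injective _ Subtype.val_injective] at hη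
    exact hη
  · intro v hv hst
    obtain ⟨w, hdet, hw⟩ := hss v hv (fun x hx => hst ⟨x, hx⟩)
    exact ⟨w, hdet, fun x => hw x.1 x.2⟩

end Fermat.Agent.Lib.S48
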