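/-
S48 (Deligne–Serre), Stage A brick (D4-a) (helper8): SEMISIMPLIFICATION of a two-dimensional representation.

Every `ρ : Γ →* M₂(F)` (`Γ` a group, `F` a field) has a "semisimplification" `ρ'` with the same traces and determinants,
`ker ρ ≤ ker ρ'`, and every `ρ'`-stable line has a `ρ'`-stable complement (the form of semisimplicity used in
`s48e_prop72`).  If `ρ` has a stable line with eigen-character `c`, then `ρ' = diag (c, det ρ / c)`; otherwise `ρ' = ρ`.
-/
import Mathlib

set_option autoImplicit false

namespace Fermat.Agent.Lib.S48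

open Matrix

/-- an eigenvalue of a `2 × 2` matrix is a root of its characteristic polynomial. -/
theorem s48e_eigen_charpoly {F : Type*} [Field F] (A : Matrix (Fin 2) (Fin 2) F) (v : Fin 2 → F)
    (hv : v ≠ 0) (c : F) (h : A *ᵥ v = c • v) : c ^ 2 - A.trace * c + A.det = 0 := by
  have h1 : (A - c • (1 : Matrix (Fin 2) (Fin 2) F)).det = 0 := by
    rw [← Matrix.exists_mulVec_eq_zero_iff]
    refine ⟨v, hv, ?_⟩
    rw [Matrix.sub_mulVec, h, Matrix.smul_mulVec, Matrix.one_mulVec, sub_self]
  rw [Matrix.det_fin_two] at h1
  simp at h1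
  rw [Matrix.trace_fin_two, Matrix.det_fin_two]
  linear_combination h1

theorem s48e_exists_semisimple {F : Type*} [Field F] {Γ : Type*} [Group Γ]
    (ρ : Γ →* Matrix (Fin 2) (Fin 2) F) :
    ∃ ρ' : Γ →* Matrix (Fin 2) (Fin 2) F,
      (∀ x, (ρ' x).trace = (ρ x).trace ∧ (ρ' x).det = (ρ x).det) ∧
      (∀ x, ρ x = 1 → ρ' x = 1) ∧
      (∀ v : Fin 2 → F, v ≠ 0 → (∀ x : Γ, ∃ c : F, (ρ' x) *ᵥ v = c • v) →
        ∃ w : Fin 2 → F, v 0 * w 1 - v 1 * w 0 ≠ 0 ∧ ∀ x : Γ, ∃ c : F, (ρ' x) *ᵥ w = c • w) := by
  by_cases hred : ∃ v : Fin 2 → F, v ≠ 0 ∧ ∀ x : Γ, ∃ c : F, (ρ x) *ᵥ v = c • v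
  · obtain ⟨v, hv, hst⟩ := hred
    choose c hc using hst
    have hcmul : ∀ x y, c (x * y) = c x * c y := by
      intro x y
      have h1 : (c (x * y)) • v = (c x * c y) • v := by
        rw [← hc, map_mul, ← Matrix.mulVec_mulVec, hc y, Matrix.mulVec_smul, hc x, smul_smul, mul_comm]
      by_contra hne
      apply hv
      have : (c (x * y) - c x * c y) • v = 0 := by rw [sub_smul, h1, sub_self]
      rcases smul_eq_zero.1 this with h | h
      · exact absurd (sub_eq_zero.1 h) hne
      · exact h
    have hc1 : c 1 = 1 := by
      have h1 : (c 1) • v = (1 : F) • v := by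
        rw [← hc, map_one, Matrix.one_mulVec, one_smul]
      by_contra hne
      apply hv
      have : (c 1 - 1) • v = 0 := by rw [sub_smul, h1, sub_self]
      rcases smul_eq_zero.1 this with h | h
      · exact absurd (sub_eq_zero.1 h) hne
      · exact h
    have hc0 : ∀ x, c x ≠ 0 := by
      intro x h0
      have : c x * c x⁻¹ = 1 := by rw [← hcmul, mul_inv_cancel, hc1]
      rw [h0, zero_mul] at this
      exact zero_ne_one this
    have hdmul : ∀ x y, (ρ (x * y)).det = (ρ x).det * (ρ y).det := by
      intro x y; rw [map_mul, Matrix.det_mul]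
    set d : Γ → (Fin 2 → F) := fun x => ![c x, (ρ x).det / c x] with hd
    have hdm : ∀ x y, d (x * y) = d x * d y := by
      intro x y
      ext i
      fin_cases i
      · simp [hd, hcmul]
      · have := hc0 x
        have := hc0 y
        simp [hd, hcmul]
        field_simp
    have hd1 : d 1 = 1 := by
      ext i
      fin_cases i
      · simp [hd, hc1]
      · simp [hd, hc1]
    refine ⟨{ toFun := fun x => Matrix.diagonal (d x)
              map_one' := by rw [hd1, Matrix.diagonal_one']
              map_mul' := by
                intro x y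
                rw [hdm, Matrix.diagonal_mul_diagonal]
                rfl
            }, ?_, ?_, ?_⟩
    · intro x
      have hch := s48e_eigen_charpoly (ρ x) v hv (c x) (hc x)
      constructor
      · show (Matrix.diagonal (d x)).trace = _
        rw [Matrix.trace_fin_two]
        simp [hd]
        field_simp [hc0 x]
        linear_combination hch
      · show (Matrix.diagonal (d x)).det = _
        rw [Matrix.det_fin_two]
        simp [hd]
        field_simp [hc0 x]
    · intro x hx
      show Matrix.diagonal (d x) = 1
      have hcx : c x = 1 := by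
        have h1 : (c x) • v = (1 : F) • v := by
          rw [← hc, hx, Matrix.one_mulVec, one_smul]
        by_contra hne
        apply hv
        have : (c x - 1) • v = 0 := by rw [sub_smul, h1, sub_self]
        rcases smul_eq_zero.1 this with h | h
        · exact absurd (sub_eq_zero.1 h) hne
        · exact h
      have : d x = 1 := by
        ext i
        fin_cases i
        · simp [hd, hcx]
        · simp [hd, hcx, hx]
      rw [this, Matrix.diagonal_one']
    · intro v' hv' _
      by_cases h1 : v' 1 = 0
      · have h0 : v' 0 ≠ 0 := by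
          intro h0
          apply hv'
          ext i
          fin_cases i
          · exact h0
          · exact h1
        refine ⟨![0, 1], by simpa using h0, fun x => ⟨d x 1, ?_⟩⟩
        show Matrix.diagonal (d x) *ᵥ ![0, 1] = _
        ext i
        fin_cases i <;> simp [Matrix.mulVec_diagonal]
      · refine ⟨![1, 0], by simpa using h1, fun x => ⟨d x 0, ?_⟩⟩
        show Matrix.diagonal (d x) *ᵥ ![1, 0] = _
        ext i
        fin_cases i <;> simp [Matrix.mulVec_diagonal]
  · refine ⟨ρ, fun x => ⟨rfl, rfl⟩, fun x hx => hx, ?_⟩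
    intro v hv hst
    exact absurd ⟨v, hv, hst⟩ hred

end Fermat.Agent.Lib.S48
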