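/-
S48 (Deligne–Serre), Stage A brick (D4-a) (helper8): DS Prop. 7.2 for non-injective representations and for the
semisimplification of an arbitrary two-dimensional representation over a finite field.

* `s48e_prop72_range_field`, `s48e_prop72_range` : `ρ` semisimple, not necessarily injective ⇒ `|im ρ|` is bounded.
* `s48e_prop72_semisimplification_field`, `s48e_prop72_semisimplification` : any `ρ` ⇒ its semisimplification `ρ'`
  (same traces and determinants, `ker ρ ≤ ker ρ'`) has bounded image.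
-/
import Fermat.Agent.Lib.S48.EProp72
import Fermat.Agent.Lib.S48.ESemisimple

set_option autoImplicit false

namespace Fermat.Agent.Lib.S48

open Matrix

universe u

/-- passage to the quotient by the kernel: an injective representation with the same image, the same semisimplicity
property and the same proportion of elements with (trace, determinant) outside `P`. -/
theorem s48e_quotient_transfer {F : Type*} [Field F] {Γ : Type u} [Group Γ] [Finite Γ]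
    (ρ : Γ →* Matrix (Fin 2) (Fin 2) F)
    (hss : ∀ v : Fin 2 → F, v ≠ 0 → (∀ x : Γ, ∃ c : F, (ρ x) *ᵥ v = c • v) →
      ∃ w : Fin 2 → F, v 0 * w 1 - v 1 * w 0 ≠ 0 ∧ ∀ x : Γ, ∃ c : F, (ρ x) *ᵥ w = c • w)
    (P : Finset (F × F))
    (hη : 120 * {x : Γ | ((ρ x).trace, (ρ x).det) ∉ P}.ncard ≤ Nat.card Γ) :
    ∃ (Q : Type u) (_ : Group Q) (_ : Finite Q) (ρb : Q →* Matrix (Fin 2) (Fin 2) F),
      Function.Injective ρb ∧ (Set.range ρ).ncard = Nat.card Q ∧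
      (∀ v : Fin 2 → F, v ≠ 0 → (∀ x : Q, ∃ c : F, (ρb x) *ᵥ v = c • v) →
        ∃ w : Fin 2 → F, v 0 * w 1 - v 1 * w 0 ≠ 0 ∧ ∀ x : Q, ∃ c : F, (ρb x) *ᵥ w = c • w) ∧
      120 * {x : Q | ((ρb x).trace, (ρb x).det) ∉ P}.ncard ≤ Nat.card Q := by
  set K : Subgroup Γ := ρ.ker with hK
  set ρb : Γ ⧸ K →* Matrix (Fin 2) (Fin 2) F := QuotientGroup.lift K ρ le_rfl with hρb
  have hmk : ∀ x : Γ, ρb (QuotientGroup.mk x) = ρ x := fun x => QuotientGroup.lift_mk' K (φ := ρ) le_rfl x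
  have hinj : Function.Injective ρb := by
    intro a b
    refine Quotient.inductionOn₂' a b (fun a b h => ?_)
    have h' : ρ a = ρ b := h
    apply QuotientGroup.eq.2
    rw [hK, MonoidHom.mem_ker, map_mul, ← h', ← map_mul, inv_mul_cancel, map_one]
  have hrange : Set.range ρ = ρb '' Set.univ := by
    ext A
    constructor
    · rintro ⟨x, rfl⟩
      exact ⟨QuotientGroup.mk x, Set.mem_univ _, hmk x⟩
    · rintro ⟨q, -, rfl⟩
      induction q using QuotientGroup.induction_on with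
      | H x => exact ⟨x, (hmk x).symm⟩
  refine ⟨Γ ⧸ K, inferInstance, inferInstance, ρb, hinj, ?_, ?_, ?_⟩
  · rw [hrange, Set.ncard_image_of_injective _ hinj, Set.ncard_univ]
  · intro v hv hst
    obtain ⟨w, hdet, hw⟩ := hss v hv (fun x => by
      obtain ⟨c, hc⟩ := hst (QuotientGroup.mk x)
      exact ⟨c, by rw [← hmk, hc]⟩)
    refine ⟨w, hdet, fun q => ?_⟩
    induction q using QuotientGroup.induction_on with
    | H x =>
      obtain ⟨c, hc⟩ := hw x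
      exact ⟨c, by rw [hmk, hc]⟩
  · set t : Set (Γ ⧸ K) := {q | ((ρb q).trace, (ρb q).det) ∉ P} with ht
    have hpre : (QuotientGroup.mk ⁻¹' t : Set Γ) = {x : Γ | ((ρ x).trace, (ρ x).det) ∉ P} := by
      ext x
      simp only [Set.mem_preimage, ht, Set.mem_ofPred_eq, hmk]
    have h1 := QuotientGroup.card_preimage_mk K t
    rw [hpre, Nat.card_coe_set_eq, Nat.card_coe_set_eq] at h1
    have h2 := Subgroup.card_eq_card_quotient_mul_card_subgroup K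
    rw [h1, h2] at hη
    have hKpos : 0 < Nat.card K := Nat.card_pos
    have : Nat.card K * (120 * t.ncard) ≤ Nat.card K * Nat.card (Γ ⧸ K) := by
      calc Nat.card K * (120 * t.ncard) = 120 * (Nat.card K * t.ncard) := by ring
        _ ≤ Nat.card (Γ ⧸ K) * Nat.card K := hη
        _ = Nat.card K * Nat.card (Γ ⧸ K) := mul_comm _ _
    exact Nat.le_of_mul_le_mul_left this hKpos

/-- **Deligne–Serre, Prop. 7.2** over a finite field, for a not necessarily injective semisimple `ρ`. -/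
theorem s48e_prop72_range_field {F : Type*} [Field F] [Fintype F] (ℓ : ℕ) [Fact ℓ.Prime] [CharP F ℓ]
    (hℓ2 : ℓ ≠ 2) {Γ : Type*} [Group Γ] [Finite Γ] (ρ : Γ →* Matrix (Fin 2) (Fin 2) F)
    (hss : ∀ v : Fin 2 → F, v ≠ 0 → (∀ x : Γ, ∃ c : F, (ρ x) *ᵥ v = c • v) →
      ∃ w : Fin 2 → F, v 0 * w 1 - v 1 * w 0 ≠ 0 ∧ ∀ x : Γ, ∃ c : F, (ρ x) *ᵥ w = c • w)
    (P : Finset (F × F)) (M : ℕ) (hP : P.card ≤ M)
    (hη : 120 * {x : Γ | ((ρ x).trace, (ρ x).det) ∉ P}.ncard ≤ Nat.card Γ)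
    (d : ℕ) (hF : Nat.card F ≤ ℓ ^ d) :
    (Set.range ρ).ncard ≤ (10 * M) ^ (10 * M + 4 * d + 1) := by
  obtain ⟨Q, _, _, ρb, hinj, hcard, hss', hη'⟩ := s48e_quotient_transfer ρ hss P hη
  rw [hcard]
  exact s48e_prop72_field ℓ hℓ2 ρb hinj hss' P M hP hη' d hF

/-- **Deligne–Serre, Prop. 7.2** for a not necessarily injective semisimple `ρ`: the image is bounded. -/
theorem s48e_prop72_range (ℓ : ℕ) [Fact ℓ.Prime] (hℓ2 : ℓ ≠ 2) {Γ : Type*} [Group Γ] [Finite Γ]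
    (ρ : Γ →* Matrix (Fin 2) (Fin 2) (ZMod ℓ))
    (hss : ∀ v : Fin 2 → ZMod ℓ, v ≠ 0 → (∀ x : Γ, ∃ c : ZMod ℓ, (ρ x) *ᵥ v = c • v) →
      ∃ w : Fin 2 → ZMod ℓ, v 0 * w 1 - v 1 * w 0 ≠ 0 ∧ ∀ x : Γ, ∃ c : ZMod ℓ, (ρ x) *ᵥ w = c • w)
    (P : Finset (ZMod ℓ × ZMod ℓ)) (M : ℕ) (hP : P.card ≤ M)
    (hη : 120 * {x : Γ | ((ρ x).trace, (ρ x).det) ∉ P}.ncard ≤ Nat.card Γ) :
    (Set.range ρ).ncard ≤ (10 * M) ^ (10 * M + 1) := by
  obtain ⟨Q, _, _, ρb, hinj, hcard, hss', hη'⟩ := s48e_quotient_transfer ρ hss P hη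
  rw [hcard]
  exact s48e_prop72 ℓ hℓ2 ρb hinj hss' P M hP hη'

/-- **Deligne–Serre, Prop. 7.2 applied to the semisimplification** of an arbitrary `ρ : Γ →* M₂(F)`, `F` a finite field
of characteristic `ℓ ≠ 2` with at most `ℓ ^ d` elements. -/
theorem s48e_prop72_semisimplification_field {F : Type*} [Field F] [Fintype F] (ℓ : ℕ) [Fact ℓ.Prime]
    [CharP F ℓ] (hℓ2 : ℓ ≠ 2) {Γ : Type*} [Group Γ] [Finite Γ] (ρ : Γ →* Matrix (Fin 2) (Fin 2) F)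
    (P : Finset (F × F)) (M : ℕ) (hP : P.card ≤ M)
    (hη : 120 * {x : Γ | ((ρ x).trace, (ρ x).det) ∉ P}.ncard ≤ Nat.card Γ)
    (d : ℕ) (hF : Nat.card F ≤ ℓ ^ d) :
    ∃ ρ' : Γ →* Matrix (Fin 2) (Fin 2) F,
      (∀ x, (ρ' x).trace = (ρ x).trace ∧ (ρ' x).det = (ρ x).det) ∧
      (∀ x, ρ x = 1 → ρ' x = 1) ∧
      (∀ v : Fin 2 → F, v ≠ 0 → (∀ x : Γ, ∃ c : F, (ρ' x) *ᵥ v = c • v) →
        ∃ w : Fin 2 → F, v 0 * w 1 - v 1 * w 0 ≠ 0 ∧ ∀ x : Γ, ∃ c : F, (ρ' x) *ᵥ w = c • w) ∧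
      (Set.range ρ').ncard ≤ (10 * M) ^ (10 * M + 4 * d + 1) := by
  obtain ⟨ρ', h1, h2, h3⟩ := s48e_exists_semisimple ρ
  refine ⟨ρ', h1, h2, h3, s48e_prop72_range_field ℓ hℓ2 ρ' h3 P M hP ?_ d hF⟩
  have : {x : Γ | ((ρ' x).trace, (ρ' x).det) ∉ P} = {x : Γ | ((ρ x).trace, (ρ x).det) ∉ P} := by
    ext x
    simp only [Set.mem_ofPred_eq, (h1 x).1, (h1 x).2]
  rw [this]; exact hη

/-- **Deligne–Serre, Prop. 7.2 applied to the semisimplification** of an arbitrary `ρ : Γ →* M₂(𝔽_ℓ)`: there is a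
`ρ'` with the same traces and determinants, `ker ρ ≤ ker ρ'`, semisimple, whose image has at most
`(10 M) ^ (10 M + 1)` elements. -/
theorem s48e_prop72_semisimplification (ℓ : ℕ) [Fact ℓ.Prime] (hℓ2 : ℓ ≠ 2) {Γ : Type*} [Group Γ]
    [Finite Γ] (ρ : Γ →* Matrix (Fin 2) (Fin 2) (ZMod ℓ))
    (P : Finset (ZMod ℓ × ZMod ℓ)) (M : ℕ) (hP : P.card ≤ M)
    (hη : 120 * {x : Γ | ((ρ x).trace, (ρ x).det) ∉ P}.ncard ≤ Nat.card Γ) :
    ∃ ρ' : Γ →* Matrix (Fin 2) (Fin 2) (ZMod ℓ),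
      (∀ x, (ρ' x).trace = (ρ x).trace ∧ (ρ' x).det = (ρ x).det) ∧
      (∀ x, ρ x = 1 → ρ' x = 1) ∧
      (∀ v : Fin 2 → ZMod ℓ, v ≠ 0 → (∀ x : Γ, ∃ c : ZMod ℓ, (ρ' x) *ᵥ v = c • v) →
        ∃ w : Fin 2 → ZMod ℓ, v 0 * w 1 - v 1 * w 0 ≠ 0 ∧ ∀ x : Γ, ∃ c : ZMod ℓ, (ρ' x) *ᵥ w = c • w) ∧
      (Set.range ρ').ncard ≤ (10 * M) ^ (10 * M + 1) := by
  obtain ⟨ρ', h1, h2, h3⟩ := s48e_exists_semisimple ρ
  refine ⟨ρ', h1, h2, h3, s48e_prop72_range ℓ hℓ2 ρ' h3 P M hP ?_⟩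
  have : {x : Γ | ((ρ' x).trace, (ρ' x).det) ∉ P} = {x : Γ | ((ρ x).trace, (ρ x).det) ∉ P} := by
    ext x
    simp only [Set.mem_ofPred_eq, (h1 x).1, (h1 x).2]
  rw [this]; exact hη

end Fermat.Agent.Lib.S48
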