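/-
S48 (Deligne–Serre), Stage A brick (D4-a) (helper8): the abstract counting lemma behind DS Prop. 7.2
(case of order prime to the characteristic).

`G` a finite group, `H ⊆ G` a conjugation-invariant subset whose complement has at most `|G|/120` elements.
Assume that for every non-central `g` the centraliser `C(g)` is commutative, contains at most two conjugates
of `g`, and meets `H` in at most `m` elements.  Then every such centraliser has at most `120 m / 29` elements
(`s48e_centralizer_card_le`), hence (Landau) `|G| ≤ (5 m) ^ (5 m + 1)` if `G` is not commutative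
(`s48e_card_le_of_sparse`).
-/
import Fermat.Agent.Lib.S48.ELandau

set_option autoImplicit false

namespace Fermat.Agent.Lib.S48

open Finset

theorem s48e_centralizer_card_le (G : Type*) [Group G] [Finite G] (H : Set G) (m : ℕ)
    (hHconj : ∀ g x : G, g ∈ H → x * g * x⁻¹ ∈ H)
    (hη : 120 * (Hᶜ).ncard ≤ Nat.card G)
    (hCA : ∀ g : G, g ∉ Subgroup.center G → ∀ x ∈ Subgroup.centralizer ({g} : Set G),
      ∀ y ∈ Subgroup.centralizer ({g} : Set G), x * y = y * x)
    (hN2 : ∀ g : G, g ∉ Subgroup.center G →
      {x : G | x ∈ Subgroup.centralizer ({g} : Set G) ∧ IsConj g x}.ncard ≤ 2)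
    (hm : ∀ g : G, g ∉ Subgroup.center G →
      {x : G | x ∈ Subgroup.centralizer ({g} : Set G) ∧ x ∈ H}.ncard ≤ m)
    (g : G) (hg : g ∉ Subgroup.center G) :
    29 * Nat.card (Subgroup.centralizer ({g} : Set G)) ≤ 120 * m := by
  classical
  cases nonempty_fintype G
  set T : Subgroup G := Subgroup.centralizer ({g} : Set G) with hT
  set Z : Subgroup G := Subgroup.center G with hZ
  have hZT : Z ≤ T := Subgroup.center_le_centralizer _
  have hgT : g ∈ T := by
    rw [hT, Subgroup.mem_centralizer_iff]
    intro y hy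
    rw [Set.mem_singleton_iff] at hy
    rw [hy]
  have memT : ∀ x : G, x ∈ T ↔ g * x = x * g := by
    intro x
    rw [hT, Subgroup.mem_centralizer_iff]
    constructor
    · intro h; exact h g rfl
    · intro h y hy
      rw [Set.mem_singleton_iff] at hy
      rw [hy]; exact h
  have memC : ∀ t x : G, x ∈ Subgroup.centralizer ({t} : Set G) ↔ t * x = x * t := by
    intro t x
    rw [Subgroup.mem_centralizer_iff]
    constructor
    · intro h; exact h t rfl
    · intro h y hy
      rw [Set.mem_singleton_iff] at hy
      rw [hy]; exact h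
  -- the finsets
  set A : Finset G := univ.filter (fun t => t ∈ T ∧ t ∉ Z) with hA
  set S : Finset G := univ.filter (fun s => ∃ t ∈ A, IsConj t s) with hS
  -- (i) the centraliser of an element of `A` is `T`
  have hi : ∀ t ∈ A, Subgroup.centralizer ({t} : Set G) = T := by
    intro t ht
    rw [hA, mem_filter] at ht
    obtain ⟨-, htT, htZ⟩ := ht
    ext x
    constructor
    · intro hx
      rw [memT]
      have hgt : g ∈ Subgroup.centralizer ({t} : Set G) := by
        rw [memC]; exact (memT t).1 htT |>.symm
      exact hCA t htZ g hgt x hx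
    · intro hx
      rw [memC]
      exact hCA g hg t htT x hx
  -- (ii) class sizes
  have hii : ∀ t ∈ A, (univ.filter (fun s => IsConj t s)).card * Nat.card T = Nat.card G := by
    intro t ht
    have := s48e_card_conj_mul_card_centralizer G t
    rw [hi t ht] at this
    rw [← this, Nat.card_eq_fintype_card (α := {x : G // IsConj t x}), Fintype.card_subtype]
  -- (iii) `2 |Z| ≤ |T|`
  have hiii : 2 * Nat.card Z ≤ Nat.card T := by
    have hdvd : Nat.card Z ∣ Nat.card T := Subgroup.card_dvd_of_le hZT
    have hne : Nat.card Z ≠ Nat.card T := by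
      intro heq
      have : Z = T := Subgroup.eq_of_le_of_card_ge hZT (le_of_eq heq.symm)
      apply hg
      rw [this]; exact hgT
    obtain ⟨k, hk⟩ := hdvd
    have hTpos : 0 < Nat.card T := Nat.card_pos
    rcases k with _ | _ | k
    · omega
    · omega
    · rw [hk]; nlinarith
  -- (iv) `|A| + |Z| = |T|`
  have hiv : A.card + Nat.card Z = Nat.card T := by
    rw [Nat.card_eq_fintype_card, Nat.card_eq_fintype_card, Fintype.card_subtype, Fintype.card_subtype]
    rw [hA, ← Finset.card_union_of_disjoint]
    · congr 1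
      ext x
      simp only [mem_union, mem_filter, mem_univ, true_and]
      constructor
      · rintro (⟨h1, -⟩ | h2)
        · exact h1
        · exact hZT h2
      · intro h
        by_cases hx : x ∈ Z
        · exact Or.inr hx
        · exact Or.inl ⟨h, hx⟩
    · rw [Finset.disjoint_left]
      intro x hx hx'
      simp only [mem_filter, mem_univ, true_and] at hx hx'
      exact hx.2 hx'
  -- (v) double counting
  have hv : ∀ A' : Finset G, ∑ t ∈ A', (univ.filter (fun s => IsConj t s)).card
      = ∑ s : G, (A'.filter (fun t => IsConj t s)).card := by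
    intro A'
    exact Finset.sum_card_bipartiteAbove_eq_sum_card_bipartiteBelow (fun t s => IsConj t s)
  -- (vi)
  have hvi : ∀ s ∈ S, (A.filter (fun t => IsConj t s)).card ≤ 2 := by
    intro s hs
    rw [hS, mem_filter] at hs
    obtain ⟨-, t₀, ht₀, hc⟩ := hs
    have ht₀' := ht₀
    rw [hA, mem_filter] at ht₀'
    refine le_trans ?_ (hN2 t₀ ht₀'.2.2)
    rw [← Set.ncard_coe_finset]
    apply Set.ncard_le_ncard _ (Set.toFinite _)
    intro x hx
    rw [Finset.mem_coe, mem_filter] at hx
    have hxA := hx.1
    rw [hA, mem_filter] at hxA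
    refine ⟨?_, hc.trans hx.2.symm⟩
    rw [hi t₀ ht₀]; exact hxA.2.1
  have hvi0 : ∀ s : G, s ∉ S → (A.filter (fun t => IsConj t s)).card = 0 := by
    intro s hs
    rw [Finset.card_eq_zero, Finset.filter_eq_empty_iff]
    intro t ht hc
    apply hs
    rw [hS, mem_filter]
    exact ⟨mem_univ _, t, ht, hc⟩
  -- first inequality: `|A| * |G| ≤ 2 * |S| * |T|`
  have h1 : A.card * Nat.card G ≤ 2 * S.card * Nat.card T := by
    have e1 : A.card * Nat.card G = (∑ t ∈ A, (univ.filter (fun s => IsConj t s)).card) * Nat.card T := by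
      rw [Finset.sum_mul, Finset.sum_congr rfl hii, Finset.sum_const, smul_eq_mul]
    rw [e1, hv A]
    apply Nat.mul_le_mul_right
    rw [← Finset.sum_subset (Finset.subset_univ S) (fun s _ hs => hvi0 s hs)]
    calc ∑ s ∈ S, (A.filter (fun t => IsConj t s)).card ≤ ∑ _s ∈ S, 2 := Finset.sum_le_sum hvi
      _ = 2 * S.card := by rw [Finset.sum_const, smul_eq_mul, mul_comm]
  -- second inequality: `|S ∩ H| * |T| ≤ m * |G|`
  set AH : Finset G := A.filter (fun t => t ∈ H) with hAH
  set SH : Finset G := S.filter (fun s => s ∈ H) with hSH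
  have hAHm : AH.card ≤ m := by
    refine le_trans ?_ (hm g hg)
    rw [← Set.ncard_coe_finset]
    apply Set.ncard_le_ncard _ (Set.toFinite _)
    intro x hx
    rw [Finset.mem_coe, hAH, mem_filter, hA, mem_filter] at hx
    exact ⟨hx.1.2.1, hx.2⟩
  have h2 : SH.card * Nat.card T ≤ m * Nat.card G := by
    have e1 : AH.card * Nat.card G
        = (∑ t ∈ AH, (univ.filter (fun s => IsConj t s)).card) * Nat.card T := by
      rw [Finset.sum_mul, Finset.sum_congr rfl (fun t ht => hii t (Finset.mem_of_mem_filter t ht)),
        Finset.sum_const, smul_eq_mul]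
    calc SH.card * Nat.card T
        ≤ (∑ s : G, (AH.filter (fun t => IsConj t s)).card) * Nat.card T := by
          apply Nat.mul_le_mul_right
          rw [Finset.card_eq_sum_ones]
          calc ∑ _s ∈ SH, 1 ≤ ∑ s ∈ SH, (AH.filter (fun t => IsConj t s)).card := by
                apply Finset.sum_le_sum
                intro s hs
                rw [hSH, mem_filter, hS, mem_filter] at hs
                obtain ⟨⟨-, t, ht, hc⟩, hsH⟩ := hs
                apply Finset.card_pos.2
                refine ⟨t, ?_⟩
                rw [mem_filter, hAH, mem_filter]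
                refine ⟨⟨ht, ?_⟩, hc⟩
                obtain ⟨u, hu⟩ := isConj_iff.1 hc.symm
                rw [← hu]
                exact hHconj s u hsH
            _ ≤ ∑ s : G, (AH.filter (fun t => IsConj t s)).card :=
                Finset.sum_le_sum_of_subset (Finset.subset_univ _)
      _ = AH.card * Nat.card G := by rw [e1, hv AH]
      _ ≤ m * Nat.card G := Nat.mul_le_mul_right _ hAHm
  -- third: `|S| ≤ |S ∩ H| + |Hᶜ|`
  have h3 : S.card ≤ SH.card + (Hᶜ).ncard := by
    have : S.card = SH.card + (S.filter (fun s => ¬ s ∈ H)).card := by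
      rw [hSH, Finset.card_filter_add_card_filter_not]  
    rw [this]
    apply Nat.add_le_add_left
    rw [← Set.ncard_coe_finset]
    apply Set.ncard_le_ncard _ (Set.toFinite _)
    intro x hx
    rw [Finset.mem_coe, mem_filter] at hx
    exact hx.2
  -- arithmetic
  have hTpos : 0 < Nat.card T := Nat.card_pos
  have hGpos : 0 < Nat.card G := Nat.card_pos
  set n := Nat.card G
  set τ := Nat.card T
  set z := Nat.card Z
  set a := A.card
  set σ := S.card
  set σH := SH.card
  set e := (Hᶜ).ncard
  have k1 : τ ≤ 2 * a := by omega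
  have k2 : τ * n ≤ τ * (4 * σ) := by nlinarith
  have k3 : n ≤ 4 * σ := Nat.le_of_mul_le_mul_left k2 hTpos
  have k4 : 29 * n ≤ 120 * σH := by omega
  have k5 : n * (29 * τ) ≤ n * (120 * m) := by nlinarith
  exact Nat.le_of_mul_le_mul_left k5 hGpos

/-- the abstract form of DS Prop. 7.2 in the case of order prime to the characteristic. -/
theorem s48e_card_le_of_sparse (G : Type*) [Group G] [Finite G] (H : Set G) (m : ℕ)
    (hHconj : ∀ g x : G, g ∈ H → x * g * x⁻¹ ∈ H)
    (hη : 120 * (Hᶜ).ncard ≤ Nat.card G)
    (hCA : ∀ g : G, g ∉ Subgroup.center G → ∀ x ∈ Subgroup.centralizer ({g} : Set G),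
      ∀ y ∈ Subgroup.centralizer ({g} : Set G), x * y = y * x)
    (hN2 : ∀ g : G, g ∉ Subgroup.center G →
      {x : G | x ∈ Subgroup.centralizer ({g} : Set G) ∧ IsConj g x}.ncard ≤ 2)
    (hm : ∀ g : G, g ∉ Subgroup.center G →
      {x : G | x ∈ Subgroup.centralizer ({g} : Set G) ∧ x ∈ H}.ncard ≤ m)
    (hnc : ∃ g : G, g ∉ Subgroup.center G) :
    Nat.card G ≤ (5 * m) ^ (5 * m + 1) := by
  have hB : ∀ g : G, g ∉ Subgroup.center G →
      Nat.card (Subgroup.centralizer ({g} : Set G)) ≤ 5 * m := by
    intro g hg
    have := s48e_centralizer_card_le G H m hHconj hη hCA hN2 hm g hg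
    omega
  have hL := s48e_card_le_of_centralizers G (5 * m) hB
  obtain ⟨g₀, hg₀⟩ := hnc
  have hZ : Nat.card (Subgroup.center G) ≤ 5 * m :=
    le_trans (Subgroup.card_le_of_le (Subgroup.center_le_centralizer _)) (hB g₀ hg₀)
  calc Nat.card G ≤ Nat.card (Subgroup.center G) * (5 * m) ^ (5 * m) := hL
    _ ≤ (5 * m) * (5 * m) ^ (5 * m) := Nat.mul_le_mul_right _ hZ
    _ = (5 * m) ^ (5 * m + 1) := by rw [pow_succ, mul_comm]

end Fermat.Agent.Lib.S48
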