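/-
DS-1 (S48), wall [T9] core (helper9), part 2: **Theorem X₀^{(p)}** — the wild ("m = p") version of
S18's Theorem X₀ (`s18x_zero`), in the language of `Lib/S18/Defs`/`Lat`.

`A₀ ⊆ L₀` a Noetherian valuation ring, `O` the Gauss ring of the function field `𝓕 / L₀`, `ϖ ∈ A₀` a
non-unit of `O`, `p = u ϖ^e` the residue characteristic (`u ∈ A₀^×`, `e ≥ 1`).  If `h ∈ O^×` has all
its orders divisible by `p` and is a `p`-th power in the `ϖ`-adic completion of `O`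
(`∀ N, ∃ ξ ∈ O, ξ^p ≡ h mod ϖ^N`), then — given the invertibility [I] of the chart lattices of
`E = div(h)/p`, the closedness [S] of the chart rings mod `ϖ` under roots of monic trinomials
`X^p + c₁ X - c₀`, and the Čech finiteness [H] — there is `x ≠ 0` in `O` with
`ord_Q h ≤ p · ord_Q x` at every place `Q` (hence `h = c · x^p` by the endgame `s18x_endgame`).

No uniqueness of approximate roots is needed (`p` is not a unit): both charts approximate the SAME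
`ξ`, and the abstract core `s18a_core_fg` does the rest.
-/
import Fermat.Agent.Lib.S18.XZero
import Fermat.Agent.Lib.S48.WildKC

set_option autoImplicit false
set_option linter.unusedSectionVars false

noncomputable section

namespace Fermat.Agent.Lib.S48

open AlgebraicCurve Fermat.Agent.Lib.FF Fermat.Agent.Lib.S18

variable {L₀ 𝓕 : Type*} [Field L₀] [Field 𝓕] [Algebra L₀ 𝓕]

/-- **Wild chart-wise approximation** (the analogue of `s18x_chart_approx`), sharp bound. -/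
theorem s48c_wchart_approx_sharp (A₀ : ValuationSubring L₀) (O : ValuationSubring 𝓕)
    (hAO : ∀ a : A₀, algebraMap L₀ 𝓕 (a : L₀) ∈ O)
    (ϖ : A₀) (hϖ0 : (ϖ : L₀) ≠ 0)
    (S : Set (Place L₀ 𝓕)) (h : 𝓕) {p : ℕ} (hp : p.Prime)
    (e : ℕ) (he : 1 ≤ e) (u : A₀) (hu : ((u : L₀))⁻¹ ∈ A₀) (hu0 : (u : L₀) ≠ 0)
    (hpu : (p : L₀) = (u : L₀) * (ϖ : L₀) ^ e)
    (hhO : h ∈ O) (hhinv : h⁻¹ ∈ O) (hh0 : h ≠ 0)
    (hdiv : ∀ Q : Place L₀ 𝓕, (p : ℤ) ∣ Q.ord h)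
    (hIC : ∀ x ∈ O, ∀ c₁ ∈ s18_ring O S, ∀ c₀ ∈ s18_ring O S,
      (∃ y ∈ O, x ^ p + c₁ * x - c₀ = algebraMap L₀ 𝓕 (ϖ : L₀) * y) →
        ∃ b' ∈ s18_ring O S, ∃ y ∈ O, x - b' = algebraMap L₀ 𝓕 (ϖ : L₀) * y)
    (hinv : ∃ (s : Finset ℕ) (a b : ℕ → 𝓕), (∀ j ∈ s, a j ∈ s18_latSet O S (s18_E h p)) ∧
      (∀ j ∈ s, b j ∈ s18_latSet O S (fun Q => -s18_E h p Q)) ∧ ∑ j ∈ s, a j * b j = 1)
    (N : ℕ) (ξ : 𝓕) (hξ : ξ ∈ O)
    (hξN : ∃ y ∈ O, ξ ^ p - h = algebraMap L₀ 𝓕 (ϖ : L₀) ^ N * y) :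
    ∀ n : ℕ, (∀ k < n, k * p + 1 ≤ N ∨ k + e + 1 ≤ N) →
      ∃ a ∈ s18_latSet O S (s18_E h p),
        ∃ y ∈ O, ξ - a = algebraMap L₀ 𝓕 (ϖ : L₀) ^ n * y := by
  set π : 𝓕 := algebraMap L₀ 𝓕 (ϖ : L₀) with hπdef
  have hπ0 : π ≠ 0 := by rw [hπdef]; simpa using hϖ0
  have hp0 : p ≠ 0 := hp.ne_zero
  have hE : ∀ Q : Place L₀ 𝓕, (p : ℤ) * s18_E h p Q = Q.ord h := s18_E_mul h p hdiv
  have hconst : ∀ a : A₀, algebraMap L₀ 𝓕 (a : L₀) ∈ s18_ring O S := fun a =>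
    ⟨hAO a, fun Q _ => Q.algebraMap_mem' _⟩
  have key := s48c_wapprox_field_sharp (𝓕 := 𝓕) O.toSubring (s18_ring O S) (s18_ring_le O S) π h hp
    (s18_latAdd O S (s18_E h p)) (s18_latAdd O S (fun Q => -s18_E h p Q))
    (hconst ϖ) hπ0 (fun a ha => ha.1) (fun b hb => hb.1)
    (by
      -- B · I ⊆ I
      intro b hb a ha
      have hb' : b ∈ s18_latSet O S (fun _ => 0) := by
        rw [← s18_ringSet_eq_latSet_zero]; exact hb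
      have := s18_latSet_mul O S _ _ hb' ha
      simp only [zero_add] at this
      exact this)
    (by
      -- I · I' ⊆ B
      intro a ha b hb
      have := s18_latSet_mul O S _ _ ha hb
      simp only [add_neg_cancel] at this
      show a * b ∈ s18_ringSet O S
      rw [s18_ringSet_eq_latSet_zero]
      exact this)
    (by
      -- purity of B
      intro b hb ⟨x, hx, hbx⟩
      have hb' : b ∈ s18_latSet O S (fun _ => 0) := by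
        rw [← s18_ringSet_eq_latSet_zero]; exact hb
      have hx' := s18_lat_pure O S (fun _ => 0) (ϖ : L₀) hϖ0 hb' hx hbx
      rw [← s18_ringSet_eq_latSet_zero] at hx'
      exact ⟨x, hx', hbx⟩)
    hIC hinv
    (by
      -- a ∈ I ⇒ a^p = h * b, b ∈ B
      intro a ha
      refine ⟨h⁻¹ * a ^ p, ?_, by rw [← mul_assoc, mul_inv_cancel₀ hh0, one_mul]⟩
      refine ⟨O.mul_mem _ _ hhinv (O.pow_mem ha.1 p), fun Q hQ => ?_⟩
      by_cases ha0 : a = 0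
      · rw [ha0, zero_pow hp0, mul_zero]; exact Q.toValuationSubring.zero_mem
      have hne : h⁻¹ * a ^ p ≠ 0 := mul_ne_zero (inv_ne_zero hh0) (pow_ne_zero _ ha0)
      rw [ff_mem_iff_ord_nonneg Q hne, Q.ord_mul (inv_ne_zero hh0) (pow_ne_zero _ ha0),
        Q.ord_inv, ← zpow_natCast, Q.ord_zpow, ← hE Q]
      have h' := (ha.2 Q hQ).resolve_left ha0
      have hm' : (0 : ℤ) ≤ (p : ℤ) := Int.natCast_nonneg p
      nlinarith [mul_le_mul_of_nonneg_left h' hm'])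
    (by
      -- a ∈ I' ⇒ h * a^p ∈ B
      intro a ha
      refine ⟨O.mul_mem _ _ hhO (O.pow_mem ha.1 p), fun Q hQ => ?_⟩
      by_cases ha0 : a = 0
      · rw [ha0, zero_pow hp0, mul_zero]; exact Q.toValuationSubring.zero_mem
      have hne : h * a ^ p ≠ 0 := mul_ne_zero hh0 (pow_ne_zero _ ha0)
      rw [ff_mem_iff_ord_nonneg Q hne, Q.ord_mul hh0 (pow_ne_zero _ ha0),
        ← zpow_natCast, Q.ord_zpow, ← hE Q]
      have h' := (ha.2 Q hQ).resolve_left ha0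
      have hm' : (0 : ℤ) ≤ (p : ℤ) := Int.natCast_nonneg p
      nlinarith [mul_le_mul_of_nonneg_left h' hm'])
    hhO hhinv hh0 e he (algebraMap L₀ 𝓕 (u : L₀)) (algebraMap L₀ 𝓕 ((u : L₀))⁻¹)
    (hconst u) (hconst ⟨_, hu⟩)
    (by rw [← map_mul, mul_inv_cancel₀ hu0, map_one])
    (by rw [hπdef, ← map_pow, ← map_mul, ← hpu, map_natCast])
    N ξ hξ hξN
  exact key

/-- **Wild chart-wise approximation** (crude bound `n p + e ≤ N`). -/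
theorem s48c_wchart_approx (A₀ : ValuationSubring L₀) (O : ValuationSubring 𝓕)
    (hAO : ∀ a : A₀, algebraMap L₀ 𝓕 (a : L₀) ∈ O)
    (ϖ : A₀) (hϖ0 : (ϖ : L₀) ≠ 0)
    (S : Set (Place L₀ 𝓕)) (h : 𝓕) {p : ℕ} (hp : p.Prime)
    (e : ℕ) (he : 1 ≤ e) (u : A₀) (hu : ((u : L₀))⁻¹ ∈ A₀) (hu0 : (u : L₀) ≠ 0)
    (hpu : (p : L₀) = (u : L₀) * (ϖ : L₀) ^ e)
    (hhO : h ∈ O) (hhinv : h⁻¹ ∈ O) (hh0 : h ≠ 0)
    (hdiv : ∀ Q : Place L₀ 𝓕, (p : ℤ) ∣ Q.ord h)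
    (hIC : ∀ x ∈ O, ∀ c₁ ∈ s18_ring O S, ∀ c₀ ∈ s18_ring O S,
      (∃ y ∈ O, x ^ p + c₁ * x - c₀ = algebraMap L₀ 𝓕 (ϖ : L₀) * y) →
        ∃ b' ∈ s18_ring O S, ∃ y ∈ O, x - b' = algebraMap L₀ 𝓕 (ϖ : L₀) * y)
    (hinv : ∃ (s : Finset ℕ) (a b : ℕ → 𝓕), (∀ j ∈ s, a j ∈ s18_latSet O S (s18_E h p)) ∧
      (∀ j ∈ s, b j ∈ s18_latSet O S (fun Q => -s18_E h p Q)) ∧ ∑ j ∈ s, a j * b j = 1)
    (N : ℕ) (ξ : 𝓕) (hξ : ξ ∈ O)
    (hξN : ∃ y ∈ O, ξ ^ p - h = algebraMap L₀ 𝓕 (ϖ : L₀) ^ N * y) :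
    ∀ n : ℕ, n * p + e ≤ N → ∃ a ∈ s18_latSet O S (s18_E h p),
      ∃ y ∈ O, ξ - a = algebraMap L₀ 𝓕 (ϖ : L₀) ^ n * y := fun n hn =>
  s48c_wchart_approx_sharp A₀ O hAO ϖ hϖ0 S h hp e he u hu hu0 hpu hhO hhinv hh0 hdiv hIC hinv
    N ξ hξ hξN n (s48c_wbound hp.one_lt.le hn)

/-- **Theorem X₀^{(p)}** (wild Čech core), modulo [I] (`hinv1`, `hinv2`), [S] (`hIC1`, `hIC2`) and
[H] (`hH`).  There is a nonzero `x ∈ O` with `p · ord_Q x ≥ ord_Q h` at every place `Q`. -/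
theorem s48c_wzero (A₀ : ValuationSubring L₀) [IsNoetherianRing A₀]
    (O : ValuationSubring 𝓕) (hAO : ∀ a : A₀, algebraMap L₀ 𝓕 (a : L₀) ∈ O)
    (ϖ : A₀) (hϖ0 : (ϖ : L₀) ≠ 0)
    (hϖ : ¬ ∃ y ∈ O, (1 : 𝓕) = algebraMap L₀ 𝓕 (ϖ : L₀) * y)
    (t h : 𝓕) {p : ℕ} (hp : p.Prime)
    (e : ℕ) (he : 1 ≤ e) (u : A₀) (hu : ((u : L₀))⁻¹ ∈ A₀) (hu0 : (u : L₀) ≠ 0)
    (hpu : (p : L₀) = (u : L₀) * (ϖ : L₀) ^ e)
    (hhO : h ∈ O) (hhinv : h⁻¹ ∈ O) (hh0 : h ≠ 0)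
    (hdiv : ∀ Q : Place L₀ 𝓕, (p : ℤ) ∣ Q.ord h)
    (hxi : ∀ N : ℕ, ∃ ξ ∈ O, ∃ y ∈ O, ξ ^ p - h = algebraMap L₀ 𝓕 (ϖ : L₀) ^ N * y)
    (hIC1 : ∀ x ∈ O, ∀ c₁ ∈ s18_ring O (s18_chart1 (L₀ := L₀) t),
      ∀ c₀ ∈ s18_ring O (s18_chart1 (L₀ := L₀) t),
      (∃ y ∈ O, x ^ p + c₁ * x - c₀ = algebraMap L₀ 𝓕 (ϖ : L₀) * y) →
        ∃ b' ∈ s18_ring O (s18_chart1 (L₀ := L₀) t),
          ∃ y ∈ O, x - b' = algebraMap L₀ 𝓕 (ϖ : L₀) * y)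
    (hIC2 : ∀ x ∈ O, ∀ c₁ ∈ s18_ring O (s18_chart2 (L₀ := L₀) t),
      ∀ c₀ ∈ s18_ring O (s18_chart2 (L₀ := L₀) t),
      (∃ y ∈ O, x ^ p + c₁ * x - c₀ = algebraMap L₀ 𝓕 (ϖ : L₀) * y) →
        ∃ b' ∈ s18_ring O (s18_chart2 (L₀ := L₀) t),
          ∃ y ∈ O, x - b' = algebraMap L₀ 𝓕 (ϖ : L₀) * y)
    (hinv1 : ∃ (s : Finset ℕ) (a b : ℕ → 𝓕),
      (∀ j ∈ s, a j ∈ s18_latSet O (s18_chart1 (L₀ := L₀) t) (s18_E h p)) ∧
      (∀ j ∈ s, b j ∈ s18_latSet O (s18_chart1 (L₀ := L₀) t) (fun Q => -s18_E h p Q)) ∧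
      ∑ j ∈ s, a j * b j = 1)
    (hinv2 : ∃ (s : Finset ℕ) (a b : ℕ → 𝓕),
      (∀ j ∈ s, a j ∈ s18_latSet O (s18_chart2 (L₀ := L₀) t) (s18_E h p)) ∧
      (∀ j ∈ s, b j ∈ s18_latSet O (s18_chart2 (L₀ := L₀) t) (fun Q => -s18_E h p Q)) ∧
      ∑ j ∈ s, a j * b j = 1)
    (hH : ∃ G : Submodule A₀ 𝓕, G.FG ∧
      s18_lat A₀ O hAO (s18_chart12 t) (s18_E h p) ≤
        G ⊔ (s18_lat A₀ O hAO (s18_chart1 t) (s18_E h p) ⊔
          s18_lat A₀ O hAO (s18_chart2 t) (s18_E h p))) :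
    ∃ x : 𝓕, x ≠ 0 ∧ x ∈ O ∧ ∀ Q : Place L₀ 𝓕, Q.ord h ≤ (p : ℤ) * Q.ord x := by
  set π : 𝓕 := algebraMap L₀ 𝓕 (ϖ : L₀) with hπdef
  set E := s18_E (L₀ := L₀) h p with hEdef
  have hπO : π ∈ O := hAO ϖ
  obtain ⟨G, hG, hcover⟩ := hH
  have hsmul : ∀ (n : ℕ) (c : 𝓕), (ϖ ^ n) • c = π ^ n * c := by
    intro n c
    rw [Algebra.smul_def, hπdef, ← map_pow]; rfl
  have hsmul1 : ∀ c : 𝓕, ϖ • c = π * c := by
    intro c
    rw [Algebra.smul_def]; rfl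
  have h12_1 : s18_lat A₀ O hAO (s18_chart1 t) E ≤ s18_lat A₀ O hAO (s18_chart12 t) E :=
    s18_lat_mono A₀ O hAO Set.inter_subset_left E
  have h12_2 : s18_lat A₀ O hAO (s18_chart2 t) E ≤ s18_lat A₀ O hAO (s18_chart12 t) E :=
    s18_lat_mono A₀ O hAO Set.inter_subset_right E
  obtain ⟨x, hx, hx0⟩ := s18a_core_fg ϖ (s18_lat A₀ O hAO (s18_chart1 t) E)
    (s18_lat A₀ O hAO (s18_chart2 t) E) (s18_lat A₀ O hAO (s18_chart12 t) E) G h12_1 hG hcover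
    (by
      intro n
      -- approximate a common `ξ` to order `n + 1` on both charts
      obtain ⟨ξ, hξO, hξN⟩ := hxi ((n + 1) * p + e)
      obtain ⟨a₁, ha₁, y₁, hy₁, e₁⟩ := s48c_wchart_approx A₀ O hAO ϖ hϖ0 (s18_chart1 t) h hp e he
        u hu hu0 hpu hhO hhinv hh0 hdiv hIC1 hinv1 _ ξ hξO hξN (n + 1) le_rfl
      obtain ⟨a₂, ha₂, y₂, hy₂, e₂⟩ := s48c_wchart_approx A₀ O hAO ϖ hϖ0 (s18_chart2 t) h hp e he
        u hu hu0 hpu hhO hhinv hh0 hdiv hIC2 hinv2 _ ξ hξO hξN (n + 1) le_rfl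
      refine ⟨a₁, ha₁, a₂, ha₂, ?_, ?_⟩
      · -- `a₁` is a unit mod `ϖ`
        rintro ⟨y, hy, hay⟩
        rw [hsmul1] at hay
        obtain ⟨y₀, hy₀, e₀⟩ := hξN
        apply hϖ
        -- ξ = π (y + π^n y₁); h = ξ^p - π^N y₀ = π (...)
        have hξπ : ξ = π * (y + π ^ n * y₁) := by
          have : ξ = a₁ + π ^ (n + 1) * y₁ := by rw [← e₁]; ring
          rw [this, hay, pow_succ]; ring
        obtain ⟨q, hq⟩ : ∃ q, p = q + 1 := ⟨p - 1, by have := hp.one_lt; omega⟩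
        obtain ⟨N', hN'⟩ : ∃ N', (n + 1) * p + e = N' + 1 := ⟨(n + 1) * p + e - 1, by omega⟩
        refine ⟨h⁻¹ * ((y + π ^ n * y₁) * ξ ^ q - π ^ N' * y₀), ?_, ?_⟩
        · refine O.mul_mem _ _ hhinv (O.sub_mem (O.mul_mem _ _ (O.add_mem _ _ hy.1
            (O.mul_mem _ _ (O.pow_mem hπO n) hy₁)) (O.pow_mem hξO q))
            (O.mul_mem _ _ (O.pow_mem hπO N') hy₀))
        · have h1 : h = ξ ^ p - π ^ ((n + 1) * p + e) * y₀ := by rw [← e₀]; ring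
          have h2 : h = π * ((y + π ^ n * y₁) * ξ ^ q - π ^ N' * y₀) := by
            rw [h1, hN']
            have hξq : ξ ^ p = ξ ^ q * ξ := by rw [hq, pow_succ]
            rw [hξq]
            linear_combination ξ ^ q * hξπ
          rw [← mul_assoc, mul_comm π, mul_assoc, ← h2, inv_mul_cancel₀ hh0]
      · -- `a₁ - a₂ ∈ ϖ^n • M₁₂`
        have hdiff : a₁ - a₂ = π ^ n * (π * (y₂ - y₁)) := by
          have h1 : a₁ = ξ - π ^ (n + 1) * y₁ := by rw [← e₁]; ring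
          have h2 : a₂ = ξ - π ^ (n + 1) * y₂ := by rw [← e₂]; ring
          rw [h1, h2, pow_succ]; ring
        refine ⟨π * (y₂ - y₁), ?_, by rw [hsmul]; exact hdiff⟩
        have hmem : a₁ - a₂ ∈ s18_lat A₀ O hAO (s18_chart12 t) E :=
          Submodule.sub_mem _ (h12_1 ha₁) (h12_2 ha₂)
        have hpow : (ϖ : L₀) ^ n ≠ 0 := pow_ne_zero _ hϖ0
        exact s18_lat_pure O (s18_chart12 t) E ((ϖ : L₀) ^ n) hpow hmem
          (O.mul_mem _ _ hπO (O.sub_mem hy₂ hy₁)) (by rw [hdiff, map_pow]))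
  refine ⟨x, hx0, hx.1.1, fun Q => ?_⟩
  rw [← s18_E_mul h p hdiv Q]
  refine mul_le_mul_of_nonneg_left ?_ (Int.natCast_nonneg p)
  have hQ : Q ∈ s18_chart1 t ∪ s18_chart2 t := by
    rw [s18_chart1_union_chart2]; trivial
  rcases hQ with hQ | hQ
  · exact (hx.1.2 Q hQ).resolve_left hx0
  · exact (hx.2.2 Q hQ).resolve_left hx0

end Fermat.Agent.Lib.S48
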