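/-
DS-1 (S48), wall [T9] core (helper9), part 3: the WILD geometric inputs `s48c_WGeoInputs` (the
analogue of `s18_GeoInputs` for `m = p` = residue characteristic), Theorem X₀^{(p)} from them, and
their derivation for a Gauss datum from EXACTLY the hypotheses of the landed `s18f_geoInputs_gauss`
(`Lib/S18/FGeoB`), with `hroot` replaced by its honest form `hIC` (closedness under roots of monic
trinomials `X^p + c₁ X - c₀`).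
-/
import Fermat.Agent.Lib.S18.FGeoB
import Fermat.Agent.Lib.S48.WildZero

set_option autoImplicit false
set_option linter.unusedSectionVars false
set_option linter.style.haveILetI false

noncomputable section

namespace Fermat.Agent.Lib.S48

open AlgebraicCurve IsDedekindDomain Fermat.Agent.Lib.FF Fermat.Agent.Lib.S18 Polynomial

section Abstract

variable {L₀ 𝓕 : Type*} [Field L₀] [Field 𝓕] [Algebra L₀ 𝓕]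

/-- [S] in its honest form: the chart ring of the chart `S` is, modulo `ϖ`, closed in `O / ϖ`
under roots of monic trinomials `X^p + c₁ X - c₀`. -/
def s48c_WClosed (O : ValuationSubring 𝓕) (S : Set (Place L₀ 𝓕)) (π : 𝓕) (p : ℕ) : Prop :=
  ∀ x ∈ O, ∀ c₁ ∈ s18_ring O S, ∀ c₀ ∈ s18_ring O S,
    (∃ y ∈ O, x ^ p + c₁ * x - c₀ = π * y) →
      ∃ b' ∈ s18_ring O S, ∃ y ∈ O, x - b' = π * y

/-- **The wild geometric inputs** for the base function `t` and the prime `p`: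
* ([S]) both chart rings are closed mod `ϖ` under roots of monic trinomials `X^p + c₁X - c₀`;
* ([I]) for every `h ≠ 0` the lattices of `E = div(h)/p` on both charts are invertible;
* ([H]) the overlap lattice is covered by a finitely generated module and the chart lattices. -/
def s48c_WGeoInputs (A₀ : ValuationSubring L₀) (O : ValuationSubring 𝓕)
    (hAO : ∀ a : A₀, algebraMap L₀ 𝓕 (a : L₀) ∈ O) (ϖ : A₀) (t : 𝓕) (p : ℕ) : Prop :=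
  s48c_WClosed O (s18_chart1 (L₀ := L₀) t) (algebraMap L₀ 𝓕 (ϖ : L₀)) p ∧
  s48c_WClosed O (s18_chart2 (L₀ := L₀) t) (algebraMap L₀ 𝓕 (ϖ : L₀)) p ∧
  ∀ h : 𝓕, h ≠ 0 →
    (∃ (s : Finset ℕ) (a b : ℕ → 𝓕),
      (∀ j ∈ s, a j ∈ s18_latSet O (s18_chart1 (L₀ := L₀) t) (s18_E h p)) ∧
      (∀ j ∈ s, b j ∈ s18_latSet O (s18_chart1 (L₀ := L₀) t) (fun Q => -s18_E h p Q)) ∧
      ∑ j ∈ s, a j * b j = 1) ∧
    (∃ (s : Finset ℕ) (a b : ℕ → 𝓕),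
      (∀ j ∈ s, a j ∈ s18_latSet O (s18_chart2 (L₀ := L₀) t) (s18_E h p)) ∧
      (∀ j ∈ s, b j ∈ s18_latSet O (s18_chart2 (L₀ := L₀) t) (fun Q => -s18_E h p Q)) ∧
      ∑ j ∈ s, a j * b j = 1) ∧
    (∃ G : Submodule A₀ 𝓕, G.FG ∧
      s18_lat A₀ O hAO (s18_chart12 t) (s18_E h p) ≤
        G ⊔ (s18_lat A₀ O hAO (s18_chart1 t) (s18_E h p) ⊔
          s18_lat A₀ O hAO (s18_chart2 t) (s18_E h p)))

/-- **Theorem X₀^{(p)} from the wild geometric inputs.** -/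
theorem s48c_wzero_of_geo (A₀ : ValuationSubring L₀) [IsNoetherianRing A₀]
    (O : ValuationSubring 𝓕) (hAO : ∀ a : A₀, algebraMap L₀ 𝓕 (a : L₀) ∈ O)
    (ϖ : A₀) (hϖ0 : (ϖ : L₀) ≠ 0)
    (hϖ : ¬ ∃ y ∈ O, (1 : 𝓕) = algebraMap L₀ 𝓕 (ϖ : L₀) * y)
    (t : 𝓕) {p : ℕ} (hp : p.Prime)
    (e : ℕ) (he : 1 ≤ e) (u : A₀) (hu : ((u : L₀))⁻¹ ∈ A₀) (hu0 : (u : L₀) ≠ 0)
    (hpu : (p : L₀) = (u : L₀) * (ϖ : L₀) ^ e)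
    (hgeo : s48c_WGeoInputs A₀ O hAO ϖ t p) (h : 𝓕)
    (hhO : h ∈ O) (hhinv : h⁻¹ ∈ O) (hh0 : h ≠ 0)
    (hdiv : ∀ Q : Place L₀ 𝓕, (p : ℤ) ∣ Q.ord h)
    (hxi : ∀ N : ℕ, ∃ ξ ∈ O, ∃ y ∈ O, ξ ^ p - h = algebraMap L₀ 𝓕 (ϖ : L₀) ^ N * y) :
    ∃ x : 𝓕, x ≠ 0 ∧ x ∈ O ∧ ∀ Q : Place L₀ 𝓕, Q.ord h ≤ (p : ℤ) * Q.ord x := by
  obtain ⟨hIC1, hIC2, hrest⟩ := hgeo
  obtain ⟨hinv1, hinv2, hH⟩ := hrest h hh0
  exact s48c_wzero A₀ O hAO ϖ hϖ0 hϖ t h hp e he u hu hu0 hpu hhO hhinv hh0 hdiv hxi hIC1 hIC2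
    hinv1 hinv2 hH

variable [CharZero L₀]

/-- **The wild geometric inputs** from the abstract outputs of [B], [S], [I], [H], [F]
(the analogue of `s18f_geoInputs`). -/
theorem s48c_wgeoInputs (A₀ : ValuationSubring L₀) (O : ValuationSubring 𝓕)
    (hAO : ∀ a : A₀, algebraMap L₀ 𝓕 (a : L₀) ∈ O) (ϖ : A₀) (hϖ0 : (ϖ : L₀) ≠ 0)
    (t : 𝓕) [FFGen L₀ t] (ht0 : t ≠ 0) (htO : t ∈ O) (htinvO : t⁻¹ ∈ O) (p : ℕ)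
    (U : ∀ u : 𝓕, u ∈ O → u ≠ 0 → ∃ (k : ℕ) (v : 𝓕), v ∈ O ∧ v⁻¹ ∈ O ∧
      u = algebraMap L₀ 𝓕 (ϖ : L₀) ^ k * v)
    -- chart 1
    [IsNoetherianRing (s18_ring O (s18_chart1 (L₀ := L₀) t))]
    {D₁ : Type*} [CommRing D₁] [IsDedekindDomain D₁]
    (ψ₁ : s18_ring O (s18_chart1 (L₀ := L₀) t) →+* D₁) (hψ₁ : Function.Surjective ψ₁)
    (hker₁ : RingHom.ker ψ₁ =
      Ideal.span {s18i_const O (s18_chart1 (L₀ := L₀) t) (ϖ : L₀) (hAO ϖ)})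
    (hIC₁ : s48c_WClosed O (s18_chart1 (L₀ := L₀) t) (algebraMap L₀ 𝓕 (ϖ : L₀)) p)
    -- chart 2
    [IsNoetherianRing (s18_ring O (s18_chart2 (L₀ := L₀) t))]
    {D₂ : Type*} [CommRing D₂] [IsDedekindDomain D₂]
    (ψ₂ : s18_ring O (s18_chart2 (L₀ := L₀) t) →+* D₂) (hψ₂ : Function.Surjective ψ₂)
    (hker₂ : RingHom.ker ψ₂ =
      Ideal.span {s18i_const O (s18_chart2 (L₀ := L₀) t) (ϖ : L₀) (hAO ϖ)})
    (hIC₂ : s48c_WClosed O (s18_chart2 (L₀ := L₀) t) (algebraMap L₀ 𝓕 (ϖ : L₀)) p)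
    -- [B2] on chart 1
    (hB2 : ∀ M : Submodule A₀ 𝓕, (∀ y ∈ M, y ∈ s18_ring O (s18_chart1 (L₀ := L₀) t)) →
      (∀ y ∈ M, t * y ∈ M) →
      ∃ Y : Finset 𝓕, (∀ y ∈ Y, y ∈ M) ∧ M ≤ s18a_posSpan A₀ (s18h_unit t ht0) (Y : Set 𝓕)) :
    s48c_WGeoInputs A₀ O hAO ϖ t p := by
  refine ⟨hIC₁, hIC₂, fun h hh0 => ?_⟩
  have hO := s18f_hO_of_U O (ϖ : L₀) U
  haveI : FFGen L₀ t⁻¹ := s18f_ffGen_inv t
  refine ⟨?_, ?_, ?_⟩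
  · exact s18f_hinv_chart1_of_dedekind t O (ϖ : L₀) hϖ0 (hAO ϖ) U hh0 p ψ₁ hψ₁ hker₁
  · haveI : IsNoetherianRing (s18_ring O (s18_chart1 (L₀ := L₀) t⁻¹)) :=
      ‹IsNoetherianRing (s18_ring O (s18_chart2 (L₀ := L₀) t))›
    exact s18f_hinv_chart1_of_dedekind t⁻¹ O (ϖ : L₀) hϖ0 (hAO ϖ) U hh0 p ψ₂ hψ₂ hker₂
  · exact s18f_hH A₀ O hAO t ht0 htO htinvO (ϖ : L₀) hϖ0 hO hB2 hh0 p

end Abstract

section Gauss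

variable {K : Type*} [Field K] [CharZero K] {κ : Type*} [Field κ] (G : s18g_GaussData K κ)
  [IsDiscreteValuationRing G.A]
  (𝓕 : IntermediateField K (LaurentSeries K)) (h𝓕 : ∀ f ∈ 𝓕, f ∈ s18g_Frac G)

/-- **`s48c_WGeoInputs` for the Gauss datum**: the inputs are those of `s18f_geoInputs_gauss`
((α) on both charts and the [S]-contract on both charts), with `hroot` replaced by `hIC`. -/
theorem s48c_wgeoInputs_gauss (t : 𝓕) [FFGen K t] (ht0 : t ≠ 0)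
    (htV : t ∈ s18g_V G 𝓕 h𝓕) (htinvV : t⁻¹ ∈ s18g_V G 𝓕 h𝓕)
    (hα₁ : ∀ y ∈ s18g_V G 𝓕 h𝓕, ∃ s : G.A[X], s.map G.π ≠ 0 ∧
      (s18b_ev G 𝓕 t).IsIntegralElem (s18b_ev G 𝓕 t s * y))
    (hα₂ : ∀ y ∈ s18g_V G 𝓕 h𝓕, ∃ s : G.A[X], s.map G.π ≠ 0 ∧
      (s18b_ev G 𝓕 t⁻¹).IsIntegralElem (s18b_ev G 𝓕 t⁻¹ s * y))
    (p : ℕ)
    -- chart 1
    {D₁ : Type*} [CommRing D₁] [IsDedekindDomain D₁]
    (ψ₁ : s18_ring (s18g_V G 𝓕 h𝓕) (s18_chart1 (L₀ := K) t) →+* D₁)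
    (hψ₁ : Function.Surjective ψ₁)
    (hker₁ : RingHom.ker ψ₁ = Ideal.span {s18i_const (s18g_V G 𝓕 h𝓕) (s18_chart1 (L₀ := K) t)
      ((G.ϖ : G.A) : K) (s18f_const_mem_V G 𝓕 h𝓕 G.ϖ)})
    (hIC₁ : s48c_WClosed (s18g_V G 𝓕 h𝓕) (s18_chart1 (L₀ := K) t)
      (algebraMap K 𝓕 ((G.ϖ : G.A) : K)) p)
    -- chart 2
    {D₂ : Type*} [CommRing D₂] [IsDedekindDomain D₂]
    (ψ₂ : s18_ring (s18g_V G 𝓕 h𝓕) (s18_chart2 (L₀ := K) t) →+* D₂)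
    (hψ₂ : Function.Surjective ψ₂)
    (hker₂ : RingHom.ker ψ₂ = Ideal.span {s18i_const (s18g_V G 𝓕 h𝓕) (s18_chart2 (L₀ := K) t)
      ((G.ϖ : G.A) : K) (s18f_const_mem_V G 𝓕 h𝓕 G.ϖ)})
    (hIC₂ : s48c_WClosed (s18g_V G 𝓕 h𝓕) (s18_chart2 (L₀ := K) t)
      (algebraMap K 𝓕 ((G.ϖ : G.A) : K)) p) :
    s48c_WGeoInputs G.A (s18g_V G 𝓕 h𝓕) (s18f_const_mem_V G 𝓕 h𝓕) G.ϖ t p := by
  haveI : FFGen K t⁻¹ := s18f_ffGen_inv t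
  haveI : IsNoetherianRing (s18_ring (L₀ := K) (s18g_V G 𝓕 h𝓕) (s18_chart1 t)) :=
    s18b_isNoetherianRing_ring G 𝓕 t h𝓕 htV hα₁
  haveI : IsNoetherianRing (s18_ring (L₀ := K) (s18g_V G 𝓕 h𝓕) (s18_chart2 t)) :=
    s18b_isNoetherianRing_ring G 𝓕 t⁻¹ h𝓕 htinvV hα₂
  exact s48c_wgeoInputs G.A (s18g_V G 𝓕 h𝓕) (s18f_const_mem_V G 𝓕 h𝓕) G.ϖ
    (s18g_unifK_ne_zero G) t ht0 htV htinvV p
    (s18f_U_gauss G 𝓕 h𝓕) ψ₁ hψ₁ hker₁ hIC₁ ψ₂ hψ₂ hker₂ hIC₂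
    (s18f_hB2_of_poly G.A (s18g_V G 𝓕 h𝓕) t ht0
      (fun M hM hMB => s18b_fg_of_le_ring G 𝓕 t h𝓕 htV hα₁ M hM hMB))

end Gauss

end Fermat.Agent.Lib.S48
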