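/-
DS-1 (S48), wall [T9] core (helper9), part 5: the honest [S] input `s48c_WClosed` (closedness of the
reduced chart ring under roots of monic trinomials `X^p + c₁ X - c₀`) from the S18 chart contract
`hint`/`hmain` ("the reduction of the chart ring is the integral closure of `P` in the residue
function field"), exactly as `s18f_hroot_of_main` (`Lib/S18/FChartS`) produces `hroot`.
The content is the landed `s33k_hclosed_of_main` (`Lib/S33/KumPLevel`).
-/
import Fermat.Agent.Lib.S33.KumPLevel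
import Fermat.Agent.Lib.S48.WildGauss

set_option autoImplicit false
set_option linter.unusedSectionVars false

noncomputable section

namespace Fermat.Agent.Lib.S48

open AlgebraicCurve Fermat.Agent.Lib.FF Fermat.Agent.Lib.S18 Fermat.Agent.Lib.S33

variable {L₀ 𝓕 : Type*} [Field L₀] [Field 𝓕] [Algebra L₀ 𝓕]
  (O : ValuationSubring 𝓕) (S : Set (Place L₀ 𝓕)) (π : L₀)
  (hπO : algebraMap L₀ 𝓕 π ∈ O)
  {Fb : Type*} [Field Fb] (red : O →+* Fb)
  (hker : ∀ x : O, red x = 0 → ∃ y ∈ O, (x : 𝓕) = algebraMap L₀ 𝓕 π * y)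
  (hkerπ : red ⟨algebraMap L₀ 𝓕 π, hπO⟩ = 0)
  {P : Type*} [CommRing P] [Algebra P Fb]
  (hint : ∀ b : 𝓕, ∀ hb : b ∈ s18_ring O S, IsIntegral P (red ⟨b, hb.1⟩))
  (hmain : ∀ z : Fb, IsIntegral P z → ∃ (b : 𝓕) (hb : b ∈ s18_ring O S), red ⟨b, hb.1⟩ = z)

include hker hkerπ hint hmain in
/-- **`s48c_WClosed` from the S18 chart contract** (`hint`/`hmain`). -/
theorem s48c_wclosed_of_main (p : ℕ) (hp2 : 2 ≤ p) :
    s48c_WClosed O S (algebraMap L₀ 𝓕 π) p := fun x hx c₁ hc₁ c₀ hc₀ h =>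
  s33k_hclosed_of_main O S π hπO red hker hkerπ hint hmain p hp2 c₁ hc₁ x hx c₀ hc₀ h

end Fermat.Agent.Lib.S48
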