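/-
DS-1 (S48), wall [T7] (helper6), brick (P-fin/W): **the WILD geometric inputs `s48c_WGeoInputs`**
(helper9, `WildGauss.lean`) from the finite-level chart contract `s48g_FinChart` on both charts
`w`, `w⁻¹` — the analogue of `s48g_geoInputs_of_finChart` for `m = p` = residue characteristic.
The closedness `s48c_WClosed` (roots of monic trinomials mod `ϖ`) follows from `D` integrally
closed with fraction field `Fb` by helper9's `s48c_wclosed_of_main`.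
-/
import Fermat.Agent.Lib.S48.GFinQ
import Fermat.Agent.Lib.S48.WildClosed

set_option autoImplicit false
set_option linter.unusedSectionVars false
set_option linter.style.haveILetI false

noncomputable section

namespace Fermat.Agent.Lib.S48

open AlgebraicCurve IsDedekindDomain Fermat.Agent.Lib.FF Fermat.Agent.Lib.S18 Polynomial

universe u

section Chart

variable {K F : Type*} [Field K] [Field F] [Algebra K F]
  {A₀ : ValuationSubring K} {ϖ : ↥A₀} {O : ValuationSubring F} {w : F}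
  {Fb : Type*} [Field Fb] {red : ↥O →+* Fb} {D : Type*} [CommRing D] [Algebra D Fb]
  {ψ : ↥(s18_ring O (s18_chart1 (L₀ := K) w)) →+* D}

/-- the chart ring is closed mod `ϖ` under roots of monic trinomials. -/
theorem s48g_fin_wclosed (h : s48g_FinChart A₀ ϖ O w red ψ)
    [IsDomain D] [IsIntegrallyClosed D] [IsFractionRing D Fb] (p : ℕ) (hp2 : 2 ≤ p) :
    s48c_WClosed O (s18_chart1 (L₀ := K) w) (algebraMap K F (ϖ : K)) p := by
  refine s48c_wclosed_of_main O (s18_chart1 (L₀ := K) w) (ϖ : K) (h.const_mem ϖ) red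
    (fun x hx => (h.ker x).mp hx) (s48g_fin_red_unif h) (P := D) ?_ ?_ p hp2
  · intro b hb
    rw [← h.psi_eq ⟨b, hb⟩]
    exact isIntegral_algebraMap
  · intro z hz
    obtain ⟨d, hd⟩ := (IsIntegrallyClosed.isIntegral_iff (R := D) (K := Fb)).mp hz
    obtain ⟨b', rfl⟩ := h.psi_surj d
    exact ⟨(b' : F), b'.2, by rw [← hd, h.psi_eq b']⟩

end Chart

section Main

variable {K F : Type*} [Field K] [Field F] [Algebra K F]
  [CharZero K] {A₀ : ValuationSubring K} [IsDiscreteValuationRing ↥A₀] {ϖ : ↥A₀}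
  {O : ValuationSubring F} {w : F} [FFGen K w]
  {Fb₁ : Type*} [Field Fb₁] {red₁ : ↥O →+* Fb₁} {D₁ : Type*} [CommRing D₁] [Algebra D₁ Fb₁]
  [IsDedekindDomain D₁] [IsFractionRing D₁ Fb₁]
  {ψ₁ : ↥(s18_ring O (s18_chart1 (L₀ := K) w)) →+* D₁}
  {Fb₂ : Type*} [Field Fb₂] {red₂ : ↥O →+* Fb₂} {D₂ : Type*} [CommRing D₂] [Algebra D₂ Fb₂]
  [IsDedekindDomain D₂] [IsFractionRing D₂ Fb₂]
  {ψ₂ : ↥(s18_ring O (s18_chart1 (L₀ := K) w⁻¹)) →+* D₂}

/-- **the wild geometric inputs from the finite-level contract on both charts.** -/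
theorem s48g_wgeoInputs_of_finChart (h₁ : s48g_FinChart A₀ ϖ O w red₁ ψ₁)
    (h₂ : s48g_FinChart A₀ ϖ O w⁻¹ red₂ ψ₂) (hw0 : w ≠ 0) (p : ℕ) (hp2 : 2 ≤ p) :
    s48c_WGeoInputs A₀ O h₁.const_mem ϖ w p := by
  haveI : FFGen K w⁻¹ := s18f_ffGen_inv w
  haveI n1 : IsNoetherianRing ↥(s18_ring O (s18_chart1 (L₀ := K) w)) :=
    s48g_fin_isNoetherianRing h₁
  haveI n2 : IsNoetherianRing ↥(s18_ring O (s18_chart2 (L₀ := K) w)) :=
    s48g_fin_isNoetherianRing h₂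
  exact s48c_wgeoInputs A₀ O h₁.const_mem ϖ h₁.unif_ne_zero w hw0 h₁.w_mem h₂.w_mem p h₁.U
    ψ₁ h₁.psi_surj (s48g_fin_hker h₁) (s48g_fin_wclosed h₁ p hp2)
    ψ₂ h₂.psi_surj (s48g_fin_hker h₂) (s48g_fin_wclosed h₂ p hp2)
    (s18f_hB2_of_poly A₀ O w hw0 (fun M hM hMB => s48g_fin_fg h₁ M hM hMB))

end Main

/-- packages for `w` and `w⁻¹` give the wild geometric inputs. -/
theorem s48g_wgeoInputs_of_finPack {K F : Type*} [Field K] [Field F] [Algebra K F] [CharZero K]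
    {Fb₁ Fb₂ : Type u} [Field Fb₁] [Field Fb₂]
    {A₀ : ValuationSubring K} [IsDiscreteValuationRing ↥A₀] {ϖ : ↥A₀} {O : ValuationSubring F}
    {red₁ : ↥O →+* Fb₁} {red₂ : ↥O →+* Fb₂} {w : F} [FFGen K w] (hw0 : w ≠ 0)
    (hAO : ∀ a : ↥A₀, algebraMap K F (a : K) ∈ O)
    (hP : s48g_FinPack A₀ ϖ O red₁ w) (hP' : s48g_FinPack A₀ ϖ O red₂ w⁻¹)
    (p : ℕ) (hp2 : 2 ≤ p) :
    s48c_WGeoInputs A₀ O hAO ϖ w p := by
  obtain ⟨D₁, i1, i2, i3, i4, ψ₁, h₁⟩ := hP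
  obtain ⟨D₂, j1, j2, j3, j4, ψ₂, h₂⟩ := hP'
  exact s48g_wgeoInputs_of_finChart h₁ h₂ hw0 p hp2

/-- **the wild geometric inputs from the packages** (the `hgeo` body of helper9's
`s48c_wkummerTrivial_baseChange`). -/
theorem s48g_wgeoInputs_of_finPack2 {K : Type} [Field K] [CharZero K] {κ : Type} [Field κ]
    (G : s18g_GaussData K κ) [IsDiscreteValuationRing G.A]
    (𝓕 : IntermediateField K (LaurentSeries K)) (h𝓕 : ∀ f ∈ 𝓕, f ∈ s18g_Frac G)
    (w : ↥𝓕) [FFGen K w] (hw0 : w ≠ 0) (hP : s48g_FinPack2 G 𝓕 h𝓕 w)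
    (p : ℕ) (hp2 : 2 ≤ p) :
    s48c_WGeoInputs G.A (s18g_V G 𝓕 h𝓕) (s18f_const_mem_V G 𝓕 h𝓕) G.ϖ w p := by
  obtain ⟨Fb, iF, red, h1, h2⟩ := hP
  exact s48g_wgeoInputs_of_finPack hw0 (s18f_const_mem_V G 𝓕 h𝓕) h1 h2 p hp2

end Fermat.Agent.Lib.S48
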