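/-
DS-1 (S48), wall [T9] (helper9), part 19: **the finite-level step of the tower induction for a WILD
layer** (the wild sibling of helper6's `s48g_finPack_kummer_of_O` / `s48g_finPack2_kummer`).

* `s48c_finPack_wild_of_O` : abstract form, given Gauss ring `O` of the layer restricting to `O₀`;
  `f` any monic polynomial over `O₀` of degree `n` with root `t` whose reduction is irreducible and
  separable; étale data on both charts from `s48c_fin_wild_etale` (`WildFinEt`);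
* `s48c_finPack2_wild`     : the concrete `q`-expansion model (`s18g_V G 𝓕ᵢ`), irreducibility and
  separability of the reduced polynomial imported from the top level through a ring homomorphism
  `i : 𝓕₁ → Ft` compatible with the Gauss rings — same interface as `s48g_finPack2_step`;
* `s48c_wild_poly`         : the monic polynomial `((a + λX)^n - h)/λ^n` over `O₀` (helper1's
  `s48a_wpoly`, lifted), for the caller's `f`.
-/
import Fermat.Agent.Lib.S48.WildFinEt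
import Fermat.Agent.Lib.S48.AWildL

set_option autoImplicit false
set_option linter.unusedSectionVars false
set_option linter.style.haveILetI false

noncomputable section

namespace Fermat.Agent.Lib.S48

open AlgebraicCurve IsDedekindDomain Fermat.Agent.Lib.FF Fermat.Agent.Lib.S18 Polynomial

universe u

section Abs

variable {K F₀ F : Type*} [Field K] [Field F₀] [Field F] [Algebra K F₀] [Algebra K F]
  [Algebra F₀ F] [IsScalarTower K F₀ F] [FiniteDimensional F₀ F] [CharZero F₀]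
  {Fb₀ : Type u} [Field Fb₀]
  {O₀ : ValuationSubring F₀} {red₀ : ↥O₀ →+* Fb₀} {n : ℕ}
  {A₀ : ValuationSubring K} {ϖ : ↥A₀} {w₀ w₀' : F₀}

set_option maxHeartbeats 800000 in
/-- **the finite-level step for a given Gauss ring**, wild Kummer layer `τ ^ n = h`,
`τ = a + lam * t`, `n = u' lam^(n-1)` the residue characteristic. -/
theorem s48c_finPack_wild_of_O [CharZero K] [IsDiscreteValuationRing ↥A₀]
    [FFGen K w₀] [FFGen K w₀']
    (hP : s48g_FinPack A₀ ϖ O₀ red₀ w₀) (hP' : s48g_FinPack A₀ ϖ O₀ red₀ w₀')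
    (hϖ : Irreducible ϖ) (hn : n.Prime)
    (b : Module.Basis (Fin n) F₀ F) (t : F) (f : (↥O₀)[X])
    (basis : ∀ i : Fin n, b i = t ^ (i : ℕ))
    (monic : f.Monic) (natDegree : f.natDegree = n) (root : s48g_ev O₀ t f = 0)
    (hirr : Irreducible (f.map red₀)) (hsep : (f.map red₀).Separable)
    (O : ValuationSubring F) (hO : ∀ c : F₀, algebraMap F₀ F c ∈ O ↔ c ∈ O₀)
    (lam u' u'' : ↥A₀) (hlam0 : lam ≠ 0) (hlamnu : ¬ IsUnit lam) (huu : u' * u'' = 1)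
    (hnu : (n : K) = (u' : K) * (lam : K) ^ (n - 1))
    (τ : F) (a : F₀) (haO : a ∈ O₀)
    (hτ : τ = algebraMap F₀ F a + algebraMap K F (lam : K) * t)
    (h : F₀) (hh : τ ^ n = algebraMap F₀ F h) (hhO : h ∈ O₀)
    (hhred : red₀ ⟨h, hhO⟩ ≠ 0)
    (hdiv : ∀ P : Place K F₀, (n : ℤ) ∣ P.ord h) :
    ∃ (Fb : Type u) (_ : Field Fb) (red : ↥O →+* Fb),
      s48g_FinPack A₀ ϖ O red (algebraMap F₀ F w₀) ∧
        s48g_FinPack A₀ ϖ O red (algebraMap F₀ F w₀') := by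
  haveI : Fact (Irreducible (f.map red₀)) := ⟨hirr⟩
  have hinv₀ : ∀ y : ↥O₀, red₀ y ≠ 0 → ((y : F₀))⁻¹ ∈ O₀ := by
    obtain ⟨D₀, i1, i2, i3, i4, ψ₀, h₀⟩ := hP
    exact fun y hy => s48g_fin_inv_mem h₀ y hy
  have hK : s48g_LayerData O₀ red₀ b t f (AdjoinRoot.root (f.map red₀)) :=
    s48g_layerData_of_irreducible b t f hinv₀ basis monic natDegree root
  obtain rfl : O = s48g_O hK := s48a_O_unique hK O hO
  have hE : ∃ (ι : Type) (J : Finset ι) (bs : ι → Module.Basis (Fin n) F₀ F) (s : ι → F)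
      (fR : ι → (↥(s48g_B₀ K O₀ w₀))[X]) (sd : ι → Fin n → F) (η : ι → F)
      (d e : ι → ↥(s48g_B₀ K O₀ w₀)),
      s48g_Etale (s48g_B₀ K O₀ w₀)
        (s18_ring (s48g_O hK) (s18_chart1 (L₀ := K) (algebraMap F₀ F w₀))) J bs s fR sd η d e := by
    obtain ⟨D₀, i1, i2, i3, i4, ψ₀, h₀⟩ := hP
    exact ⟨ℕ, s48c_fin_wild_etale hK h₀ hϖ hn lam u' u'' hlam0 hlamnu huu hnu τ a haO hτ h hh hhO
      hhred hdiv⟩
  have hE' : ∃ (ι : Type) (J : Finset ι) (bs : ι → Module.Basis (Fin n) F₀ F) (s : ι → F)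
      (fR : ι → (↥(s48g_B₀ K O₀ w₀'))[X]) (sd : ι → Fin n → F) (η : ι → F)
      (d e : ι → ↥(s48g_B₀ K O₀ w₀')),
      s48g_Etale (s48g_B₀ K O₀ w₀')
        (s18_ring (s48g_O hK) (s18_chart1 (L₀ := K) (algebraMap F₀ F w₀'))) J bs s fR sd η d e := by
    obtain ⟨D₀, i1, i2, i3, i4, ψ₀, h₀⟩ := hP'
    exact ⟨ℕ, s48c_fin_wild_etale hK h₀ hϖ hn lam u' u'' hlam0 hlamnu huu hnu τ a haO hτ h hh hhO
      hhred hdiv⟩
  exact s48g_finPack_step_of_O (K := K) hP hP' b t f basis monic natDegree root hirr hsep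
    (s48g_O hK) hO hE hE'

/-- the monic polynomial `((a + lam X)^n - h)/lam^n` with coefficients in `O₀`. -/
theorem s48c_wild_poly {F₀ F : Type*} [Field F₀] [Field F] [Algebra F₀ F]
    (O₀ : ValuationSubring F₀) {n : ℕ} (hn : n.Prime) (t : F)
    (lam u' a h : F₀) (hlam : lam ∈ O₀) (hlam0 : lam ≠ 0) (hu' : u' ∈ O₀)
    (hnu : (n : F₀) = u' * lam ^ (n - 1)) (ha : a ∈ O₀)
    (hc0 : (a ^ n - h) / lam ^ n ∈ O₀)
    (hrel : (t + algebraMap F₀ F (a / lam)) ^ n = algebraMap F₀ F (h / lam ^ n)) :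
    ∃ f : (↥O₀)[X], f.Monic ∧ f.natDegree = n ∧ s48g_ev O₀ t f = 0 ∧
      f.map O₀.subtype = s48a_wpoly a lam h n := by
  classical
  set g : F₀[X] := s48a_wpoly a lam h n with hg
  have hcoeff : ∀ k, g.coeff k ∈ O₀.toSubring :=
    s48a_wpoly_coeff_mem O₀.toSubring hn hlam hlam0 hu' hnu ha hc0
  have hsub : (↑g.coeffs : Set F₀) ⊆ O₀.toSubring := by
    intro x hx
    obtain ⟨k, -, rfl⟩ := mem_coeffs_iff.mp (Finset.mem_coe.mp hx)
    exact hcoeff k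
  set f₀ : (↥O₀.toSubring)[X] := toSubring g O₀.toSubring hsub with hf₀
  set f : (↥O₀)[X] := f₀.map (s48a_ofSubring O₀) with hf
  have hmonic₀ : f₀.Monic := (monic_toSubring g O₀.toSubring hsub).mpr
    (s48a_wpoly_monic a lam h hn.pos)
  have hmonic : f.Monic := hmonic₀.map _
  have hdeg : f.natDegree = n := by
    rw [hf, hmonic₀.natDegree_map, hf₀, natDegree_toSubring]
    exact s48a_wpoly_natDegree a lam h n
  have hmap : f.map O₀.subtype = g := by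
    rw [hf, Polynomial.map_map]
    have hcomp : (O₀.subtype).comp (s48a_ofSubring O₀) = O₀.toSubring.subtype :=
      RingHom.ext fun x => rfl
    rw [hcomp, hf₀, map_toSubring]
  have hev : s48g_ev O₀ t f = aeval t g := by
    rw [s48g_ev, coe_eval₂RingHom, hf, eval₂_map]
    have hcomp : ((algebraMap F₀ F).comp O₀.subtype).comp (s48a_ofSubring O₀) =
        (algebraMap F₀ F).comp O₀.toSubring.subtype := RingHom.ext fun x => rfl
    rw [hcomp, aeval_def, ← eval₂_map, hf₀, map_toSubring]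
  have hroot : s48g_ev O₀ t f = 0 := by
    rw [hev, hg, s48a_wpoly_aeval, hrel, sub_self]
  exact ⟨f, hmonic, hdeg, hroot, hmap⟩

end Abs

section Conc

variable {K : Type} [Field K] [CharZero K] {κ : Type} [Field κ] (G : s18g_GaussData K κ)
  (𝓕₁ 𝓕₂ : IntermediateField K (LaurentSeries K))
  (h𝓕₁ : ∀ f ∈ 𝓕₁, f ∈ s18g_Frac G) (h𝓕₂ : ∀ f ∈ 𝓕₂, f ∈ s18g_Frac G)
  [Algebra ↥𝓕₁ ↥𝓕₂] [IsScalarTower K ↥𝓕₁ ↥𝓕₂] [FiniteDimensional ↥𝓕₁ ↥𝓕₂]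
  (halg : ∀ y : ↥𝓕₁, ((algebraMap ↥𝓕₁ ↥𝓕₂ y : ↥𝓕₂) : LaurentSeries K) = (y : LaurentSeries K))

include halg in
set_option maxHeartbeats 800000 in
/-- **propagation of the finite-level packages through a WILD layer** (`q`-expansion model). -/
theorem s48c_finPack2_wild [IsDiscreteValuationRing G.A] (w₁ : ↥𝓕₁) [FFGen K w₁]
    (hP : s48g_FinPack2 G 𝓕₁ h𝓕₁ w₁) (hϖ : Irreducible G.ϖ)
    {n : ℕ} (hn : n.Prime) (b : Module.Basis (Fin n) ↥𝓕₁ ↥𝓕₂) (t : ↥𝓕₂)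
    (basis : ∀ i : Fin n, b i = t ^ (i : ℕ))
    (f : (↥(s18g_V G 𝓕₁ h𝓕₁))[X]) (monic : f.Monic) (natDegree : f.natDegree = n)
    (root : s48g_ev (s18g_V G 𝓕₁ h𝓕₁) t f = 0)
    {Ft : Type*} [Field Ft] {Fbt : Type*} [Field Fbt] (Ot : ValuationSubring Ft)
    (redt : ↥Ot →+* Fbt) (i : ↥𝓕₁ →+* Ft) (hi : ∀ y ∈ s18g_V G 𝓕₁ h𝓕₁, i y ∈ Ot)
    (hϖt : redt ⟨i (algebraMap K ↥𝓕₁ ((G.ϖ : G.A) : K)),
      hi _ (s18f_const_mem_V G 𝓕₁ h𝓕₁ G.ϖ)⟩ = 0)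
    (ft : (↥Ot)[X])
    (hft : ∀ k : ℕ, ((ft.coeff k : ↥Ot) : Ft) = i ((f.coeff k : ↥(s18g_V G 𝓕₁ h𝓕₁)) : ↥𝓕₁))
    (hirr : Irreducible (ft.map redt)) (hsep : (ft.map redt).Separable)
    (lam u' u'' : ↥G.A) (hlam0 : lam ≠ 0) (hlamnu : ¬ IsUnit lam) (huu : u' * u'' = 1)
    (hnu : (n : K) = (u' : K) * (lam : K) ^ (n - 1))
    (τ : ↥𝓕₂) (a : ↥𝓕₁) (haV : a ∈ s18g_V G 𝓕₁ h𝓕₁)
    (hτ : τ = algebraMap ↥𝓕₁ ↥𝓕₂ a + algebraMap K ↥𝓕₂ (lam : K) * t)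
    (h : ↥𝓕₁) (hh : τ ^ n = algebraMap ↥𝓕₁ ↥𝓕₂ h) (hhV : h ∈ s18g_V G 𝓕₁ h𝓕₁)
    (hhinvV : h⁻¹ ∈ s18g_V G 𝓕₁ h𝓕₁) (hhne : h ≠ 0)
    (hdiv : ∀ P : Place K ↥𝓕₁, (n : ℤ) ∣ P.ord h) :
    s48g_FinPack2 G 𝓕₂ h𝓕₂ (algebraMap ↥𝓕₁ ↥𝓕₂ w₁) := by
  obtain ⟨Fb₁, iF, red₁, hP1, hP2⟩ := hP
  haveI : CharZero ↥𝓕₁ := charZero_of_injective_algebraMap (algebraMap K ↥𝓕₁).injective
  haveI : FFGen K w₁⁻¹ := s18f_ffGen_inv w₁
  obtain ⟨hsurj, hker, hh0⟩ : Function.Surjective red₁ ∧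
      (∀ y : ↥(s18g_V G 𝓕₁ h𝓕₁), red₁ y = 0 ↔
        ∃ z ∈ s18g_V G 𝓕₁ h𝓕₁, (y : ↥𝓕₁) = algebraMap K ↥𝓕₁ ((G.ϖ : G.A) : K) * z) ∧
      red₁ ⟨h, hhV⟩ ≠ 0 := by
    obtain ⟨D, i1, i2, i3, i4, ψ, hc⟩ := hP1
    refine ⟨hc.red_surj, hc.ker, ?_⟩
    intro h0
    have h1 : (⟨h, hhV⟩ : ↥(s18g_V G 𝓕₁ h𝓕₁)) * ⟨h⁻¹, hhinvV⟩ = 1 :=
      Subtype.ext (mul_inv_cancel₀ hhne)
    have h2 := congrArg red₁ h1
    rw [map_mul, h0, zero_mul, map_one] at h2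
    exact zero_ne_one h2
  have hkert : ∀ y : ↥(s18g_V G 𝓕₁ h𝓕₁), red₁ y = 0 → redt ⟨i (y : ↥𝓕₁), hi _ y.2⟩ = 0 := by
    intro y hy
    obtain ⟨z, hz, e⟩ := (hker y).mp hy
    have h1 : (⟨i (y : ↥𝓕₁), hi _ y.2⟩ : ↥Ot) =
        ⟨i (algebraMap K ↥𝓕₁ ((G.ϖ : G.A) : K)), hi _ (s18f_const_mem_V G 𝓕₁ h𝓕₁ G.ϖ)⟩ *
          ⟨i z, hi z hz⟩ := by
      apply Subtype.ext
      show i (y : ↥𝓕₁) = i _ * i z
      rw [e, map_mul]
    rw [h1, map_mul, hϖt, zero_mul]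
  obtain ⟨ε, hε⟩ := s48g_exists_residue_embedding (s18g_V G 𝓕₁ h𝓕₁) red₁ hsurj Ot redt i hi hkert
  have hmap : (f.map red₁).map ε = ft.map redt := by
    ext k
    rw [coeff_map, coeff_map, coeff_map, hε]
    congr 1
    exact Subtype.ext (hft k).symm
  have hirr₁ : Irreducible (f.map red₁) :=
    s48g_irreducible_of_embedding ε _ (monic.map red₁) (hmap ▸ hirr)
  have hsep₁ : (f.map red₁).Separable := by
    have : ((f.map red₁).map ε).Separable := hmap ▸ hsep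
    exact (Polynomial.separable_map ε).mp this
  obtain ⟨Fb, iFb, red, h1, h2⟩ := s48c_finPack_wild_of_O (K := K) hP1 hP2 hϖ hn b t f basis monic
    natDegree root hirr₁ hsep₁ (s18g_V G 𝓕₂ h𝓕₂)
    (s48g_gauss_restrict G 𝓕₁ 𝓕₂ h𝓕₁ h𝓕₂ halg) lam u' u'' hlam0 hlamnu huu hnu τ a haV hτ h hh hhV
    hh0 hdiv
  refine ⟨Fb, iFb, red, h1, ?_⟩
  rw [← map_inv₀]
  exact h2

end Conc

end Fermat.Agent.Lib.S48
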