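/-
DS-1 (S48), wall [T9] (helper9), part 10 = (W2) of the wild step: **the chart approximant**.

Finite level (S18 vocabulary): `A₀` with uniformiser `ϖ`, `λ = v ϖ^n₀` (`v ∈ A₀^×`, `n₀ ≥ 1`),
`p = u λ^(p-1)`; `h` a Gauss unit with `p ∣ div h`, `h = a^p + λ^p c` with `a, c ∈ O`.
Then the chart lattice `I = s18_latSet O S (div h / p)` contains `Aapp` with
`a - Aapp ∈ λ O` (`s48c_wapp_chart`) — the regime-I part of [KC-p] (`s48c_wchart_approx_sharp` with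
`N = n₀ p`, `n = n₀`).
-/
import Fermat.Agent.Lib.S48.WildGauss

set_option autoImplicit false
set_option linter.unusedSectionVars false
set_option linter.style.haveILetI false

noncomputable section

namespace Fermat.Agent.Lib.S48

open AlgebraicCurve Fermat.Agent.Lib.FF Fermat.Agent.Lib.S18

variable {L₀ 𝓕 : Type*} [Field L₀] [Field 𝓕] [Algebra L₀ 𝓕]

/-- **(W2), finite level: the chart approximant.** -/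
theorem s48c_wapp_chart (A₀ : ValuationSubring L₀) (O : ValuationSubring 𝓕)
    (hAO : ∀ a : A₀, algebraMap L₀ 𝓕 (a : L₀) ∈ O)
    (ϖ : A₀) (hϖ0 : (ϖ : L₀) ≠ 0)
    (S : Set (Place L₀ 𝓕)) {p : ℕ} (hp : p.Prime)
    (lam u v : A₀) (hu : ((u : L₀))⁻¹ ∈ A₀) (hu0 : (u : L₀) ≠ 0)
    (hv : ((v : L₀))⁻¹ ∈ A₀) (hv0 : (v : L₀) ≠ 0)
    (n₀ : ℕ) (hn₀ : 1 ≤ n₀)
    (hpu : (p : L₀) = (u : L₀) * (lam : L₀) ^ (p - 1))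
    (hlam : (lam : L₀) = (v : L₀) * (ϖ : L₀) ^ n₀)
    (h a c : 𝓕) (hhO : h ∈ O) (hhinv : h⁻¹ ∈ O) (hh0 : h ≠ 0)
    (hdiv : ∀ Q : Place L₀ 𝓕, (p : ℤ) ∣ Q.ord h) (haO : a ∈ O) (hcO : c ∈ O)
    (hrel : h = a ^ p + algebraMap L₀ 𝓕 (lam : L₀) ^ p * c)
    (hIC : s48c_WClosed O S (algebraMap L₀ 𝓕 (ϖ : L₀)) p)
    (hinv : ∃ (s : Finset ℕ) (a b : ℕ → 𝓕), (∀ j ∈ s, a j ∈ s18_latSet O S (s18_E h p)) ∧
      (∀ j ∈ s, b j ∈ s18_latSet O S (fun Q => -s18_E h p Q)) ∧ ∑ j ∈ s, a j * b j = 1) :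
    ∃ Aapp ∈ s18_latSet O S (s18_E h p),
      ∃ y ∈ O, a - Aapp = algebraMap L₀ 𝓕 (lam : L₀) * y := by
  have hp2 := hp.two_le
  -- `p = u₁ ϖ^e`
  have hu₁mem : (u : L₀) * (v : L₀) ^ (p - 1) ∈ A₀ := A₀.mul_mem _ _ u.2 (A₀.pow_mem v.2 _)
  have hu₁inv : (((⟨(u : L₀) * (v : L₀) ^ (p - 1), hu₁mem⟩ : A₀) : L₀))⁻¹ ∈ A₀ := by
    show ((u : L₀) * (v : L₀) ^ (p - 1))⁻¹ ∈ A₀
    rw [mul_inv, ← inv_pow]
    exact A₀.mul_mem _ _ hu (A₀.pow_mem hv _)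
  have hu₁0 : (((⟨(u : L₀) * (v : L₀) ^ (p - 1), hu₁mem⟩ : A₀) : L₀)) ≠ 0 :=
    mul_ne_zero hu0 (pow_ne_zero _ hv0)
  have hpu₁ : (p : L₀) = (((⟨(u : L₀) * (v : L₀) ^ (p - 1), hu₁mem⟩ : A₀) : L₀)) *
      (ϖ : L₀) ^ (n₀ * (p - 1)) := by
    show (p : L₀) = (u : L₀) * (v : L₀) ^ (p - 1) * (ϖ : L₀) ^ (n₀ * (p - 1))
    rw [hpu, hlam, mul_pow, ← pow_mul]
    ring
  have he : 1 ≤ n₀ * (p - 1) := Nat.one_le_iff_ne_zero.mpr (Nat.mul_ne_zero (by omega) (by omega))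
  -- `a^p ≡ h mod ϖ^(n₀ p)`
  have hξN : ∃ y ∈ O, a ^ p - h = algebraMap L₀ 𝓕 (ϖ : L₀) ^ (n₀ * p) * y := by
    refine ⟨-(algebraMap L₀ 𝓕 ((v : L₀) ^ p) * c),
      O.neg_mem _ (O.mul_mem _ _ (hAO ⟨_, A₀.pow_mem v.2 p⟩) hcO), ?_⟩
    rw [hrel, hlam, map_mul, map_pow, map_pow, mul_pow, ← pow_mul]
    ring
  obtain ⟨Aapp, hAapp, y, hy, hay⟩ := s48c_wchart_approx_sharp A₀ O hAO ϖ hϖ0 S h hp
    (n₀ * (p - 1)) he ⟨_, hu₁mem⟩ hu₁inv hu₁0 hpu₁ hhO hhinv hh0 hdiv hIC hinv (n₀ * p) a haO hξN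
    n₀ (by
      intro k hk
      left
      have h1 : (k + 1) * p ≤ n₀ * p := Nat.mul_le_mul_right p hk
      have h2 : (k + 1) * p = k * p + p := by ring
      omega)
  refine ⟨Aapp, hAapp, algebraMap L₀ 𝓕 ((v : L₀))⁻¹ * y,
    O.mul_mem _ _ (hAO ⟨_, hv⟩) hy, ?_⟩
  rw [hay, hlam, map_mul, map_pow, ← mul_assoc, mul_comm (algebraMap L₀ 𝓕 (v : L₀) * _),
    ← mul_assoc, ← map_mul, inv_mul_cancel₀ hv0, map_one, one_mul]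

end Fermat.Agent.Lib.S48
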