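/-
DS-1 (S48), wall [T9] core (helper9), part 4: the WILD Newton iteration — pure algebra, Mathlib only
(plus the binomial lemma of `WildKC`).

`R` a commutative ring, `p` a prime with `p = u λ^(p-1)` in `R` (e.g. `λ = 1 - ζ_p`), `π ∣ λ`.
If `ξ₀^p ≡ τ' mod λ^p π` and `u ξ₀^(p-1)` is a unit modulo `π`, then `τ'` has approximate `p`-th
roots to every order: `∀ N, ∃ ξ ≡ ξ₀ mod λ π, ξ^p ≡ τ' mod λ^p π^N` (`s48c_wnewton`).
In Artin–Schreier form (`s48c_wnewton_of_root`): `τ' = a^p + λ^p c`, `u a^(p-1)` a unit mod `π`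
and `b` a root mod `π` of the trinomial `X^p + u a^(p-1) X - c` ⇒ the same conclusion with
`ξ₀ = a + λ b`.  Field form `s48c_whxi_of_root`: the hypothesis `hxi` of `s48c_wzero`.
-/
import Fermat.Agent.Lib.S48.WildKC

set_option autoImplicit false
set_option linter.unusedSectionVars false

namespace Fermat.Agent.Lib.S48

/-- one Newton step. -/
theorem s48c_wnewton_step {R : Type*} [CommRing R] {p : ℕ} (hp : p.Prime)
    (u lam π v τ' : R) (hpu : (p : R) = u * lam ^ (p - 1))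
    (ξ : R) (hv : π ∣ u * ξ ^ (p - 1) * v - 1) (N : ℕ) (hN : 1 ≤ N)
    (h : lam ^ p * π ^ N ∣ ξ ^ p - τ') :
    ∃ ξ' : R, lam * π ∣ ξ' - ξ ∧ lam ^ p * π ^ (N + 1) ∣ ξ' ^ p - τ' := by
  obtain ⟨q, rfl⟩ : ∃ q, p = q + 2 := ⟨p - 2, by have := hp.two_le; omega⟩
  obtain ⟨M, rfl⟩ : ∃ M, N = M + 1 := ⟨N - 1, by omega⟩
  obtain ⟨y, hy⟩ := h
  obtain ⟨d, hd⟩ := hv
  obtain ⟨w, hw⟩ := s48c_wbinom hp ξ (lam * π ^ (M + 1) * (-(y * v)))
  have hq : q + 2 - 1 = q + 1 := by omega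
  rw [hq] at hpu hd hw
  refine ⟨ξ + lam * π ^ (M + 1) * (-(y * v)), ⟨π ^ M * (-(y * v)), by ring⟩, ?_⟩
  refine ⟨-(y * d) + π ^ (q * M + q + M) * (-(y * v)) ^ (q + 2)
    + u * lam * π ^ M * (-(y * v)) ^ 2 * w, ?_⟩
  have e1 : ξ ^ (q + 2) = τ' + lam ^ (q + 2) * π ^ (M + 1) * y := by rw [← hy]; ring
  have e2 : u * ξ ^ (q + 1) * v = 1 + π * d := by rw [← hd]; ring
  have e3 : (π ^ (M + 1)) ^ (q + 2) = π ^ (M + 1 + 1) * π ^ (q * M + q + M) := by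
    rw [← pow_mul, ← pow_add]; congr 1; ring
  rw [hw, hpu, e1]
  have : lam ^ (q + 2) * π ^ (M + 1 + 1) *
      (-(y * d) + π ^ (q * M + q + M) * (-(y * v)) ^ (q + 2) +
        u * lam * π ^ M * (-(y * v)) ^ 2 * w)
      = lam ^ (q + 2) * π ^ (M + 1) * (-(y * (π * d)))
        + lam ^ (q + 2) * (π ^ (M + 1 + 1) * π ^ (q * M + q + M)) * (-(y * v)) ^ (q + 2)
        + u * lam ^ (q + 1) * (lam * π ^ (M + 1)) ^ 2 * (-(y * v)) ^ 2 * w := by ring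
  rw [this, ← e3]
  have e4 : π * d = u * ξ ^ (q + 1) * v - 1 := by rw [e2]; ring
  rw [e4]
  ring

/-- **The wild Newton iteration.** -/
theorem s48c_wnewton {R : Type*} [CommRing R] {p : ℕ} (hp : p.Prime)
    (u lam π ξ₀ v τ' : R) (hpu : (p : R) = u * lam ^ (p - 1))
    (hv : π ∣ u * ξ₀ ^ (p - 1) * v - 1)
    (h0 : lam ^ p * π ∣ ξ₀ ^ p - τ') :
    ∀ N : ℕ, ∃ ξ : R, lam * π ∣ ξ - ξ₀ ∧ lam ^ p * π ^ N ∣ ξ ^ p - τ' := by
  intro N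
  induction N with
  | zero =>
    exact ⟨ξ₀, by simp, by rw [pow_zero, mul_one]; exact dvd_trans (Dvd.intro _ rfl) h0⟩
  | succ N ih =>
    rcases Nat.eq_zero_or_pos N with rfl | hN
    · exact ⟨ξ₀, by simp, by simpa using h0⟩
    obtain ⟨ξ, hξ, hξN⟩ := ih
    have hπξ : π ∣ ξ - ξ₀ := dvd_trans (Dvd.intro_left _ rfl) hξ
    have hv' : π ∣ u * ξ ^ (p - 1) * v - 1 := by
      have h1 : π ∣ ξ ^ (p - 1) - ξ₀ ^ (p - 1) :=
        dvd_trans hπξ (sub_dvd_pow_sub_pow ξ ξ₀ (p - 1))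
      have h2 : u * ξ ^ (p - 1) * v - 1 =
          (u * ξ₀ ^ (p - 1) * v - 1) + u * v * (ξ ^ (p - 1) - ξ₀ ^ (p - 1)) := by ring
      rw [h2]
      exact dvd_add hv (Dvd.dvd.mul_left h1 _)
    obtain ⟨ξ', hξ', hξ'N⟩ := s48c_wnewton_step hp u lam π v τ' hpu ξ hv' N hN hξN
    refine ⟨ξ', ?_, hξ'N⟩
    have : ξ' - ξ₀ = (ξ' - ξ) + (ξ - ξ₀) := by ring
    rw [this]
    exact dvd_add hξ' hξ

/-- **Wild Newton, Artin–Schreier form.** -/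
theorem s48c_wnewton_of_root {R : Type*} [CommRing R] {p : ℕ} (hp : p.Prime)
    (u lam π a b c v τ' : R) (hpu : (p : R) = u * lam ^ (p - 1))
    (hlam : π ∣ lam) (hc : τ' - a ^ p = lam ^ p * c)
    (hv : π ∣ u * a ^ (p - 1) * v - 1)
    (hroot : π ∣ b ^ p + u * a ^ (p - 1) * b - c) :
    ∀ N : ℕ, ∃ ξ : R, lam ∣ ξ - a ∧ lam ^ p * π ^ N ∣ ξ ^ p - τ' := by
  intro N
  have hv0 : π ∣ u * (a + lam * b) ^ (p - 1) * v - 1 := by
    have h1 : π ∣ (a + lam * b) ^ (p - 1) - a ^ (p - 1) := by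
      refine dvd_trans ?_ (sub_dvd_pow_sub_pow (a + lam * b) a (p - 1))
      have : a + lam * b - a = lam * b := by ring
      rw [this]
      exact Dvd.dvd.mul_right hlam b
    have h2 : u * (a + lam * b) ^ (p - 1) * v - 1 =
        (u * a ^ (p - 1) * v - 1) + u * v * ((a + lam * b) ^ (p - 1) - a ^ (p - 1)) := by ring
    rw [h2]
    exact dvd_add hv (Dvd.dvd.mul_left h1 _)
  have h0 : lam ^ p * π ∣ (a + lam * b) ^ p - τ' := by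
    obtain ⟨q, rfl⟩ : ∃ q, p = q + 2 := ⟨p - 2, by have := hp.two_le; omega⟩
    obtain ⟨w, hw⟩ := s48c_wbinom hp a (lam * b)
    obtain ⟨y, hy⟩ := hroot
    obtain ⟨l, hl⟩ := hlam
    have hq : q + 2 - 1 = q + 1 := by omega
    rw [hq] at hpu hw hy
    refine ⟨y + u * l * b ^ 2 * w, ?_⟩
    have e1 : τ' = a ^ (q + 2) + lam ^ (q + 2) * c := by rw [← hc]; ring
    have e2 : c = b ^ (q + 2) + u * a ^ (q + 1) * b - π * y := by rw [← hy]; ring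
    rw [hw, hpu, e1, e2]
    have : lam ^ (q + 2) * π * (y + u * l * b ^ 2 * w) =
        lam ^ (q + 2) * π * y + u * lam ^ (q + 1) * (π * l) * lam * b ^ 2 * w := by ring
    rw [this, ← hl]
    ring
  obtain ⟨ξ, hξ, hξN⟩ := s48c_wnewton hp u lam π (a + lam * b) v τ' hpu hv0 h0 N
  refine ⟨ξ, ?_, hξN⟩
  have : ξ - a = (ξ - (a + lam * b)) + lam * b := by ring
  rw [this]
  exact dvd_add (dvd_trans (Dvd.intro _ rfl) hξ) (Dvd.intro _ rfl)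

/-- **`hxi` from an Artin–Schreier root**, in the membership language of `s48c_wzero`:
`O` a subring of a field (the Gauss ring), `π, λ, u, a, b, c, τ' ∈ O`, `p = u λ^(p-1)`, `π ∣ λ`,
`τ' = a^p + λ^p c`, `u` and `a` units of `O`, `b` a root mod `π` of `X^p + u a^(p-1) X - c`. -/
theorem s48c_whxi_of_root {𝓕 : Type*} [Field 𝓕] (O : Subring 𝓕) {p : ℕ} (hp : p.Prime)
    (u lam π a b c τ' : 𝓕) (huO : u ∈ O) (hlamπ : ∃ l ∈ O, lam = π * l) (hπO : π ∈ O)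
    (haO : a ∈ O) (hbO : b ∈ O) (hcO : c ∈ O)
    (huinv : u⁻¹ ∈ O) (hainv : a⁻¹ ∈ O) (hu0 : u ≠ 0) (ha0 : a ≠ 0)
    (hpu : (p : 𝓕) = u * lam ^ (p - 1)) (hc : τ' - a ^ p = lam ^ p * c)
    (hroot : ∃ y ∈ O, b ^ p + u * a ^ (p - 1) * b - c = π * y) :
    ∀ N : ℕ, ∃ ξ ∈ O, (∃ y ∈ O, ξ - a = lam * y) ∧ ∃ y ∈ O, ξ ^ p - τ' = lam ^ p * π ^ N * y := by
  intro N
  obtain ⟨l, hl, hlam⟩ := hlamπ
  obtain ⟨y, hy, hroot⟩ := hroot
  have hlamO : lam ∈ O := by rw [hlam]; exact O.mul_mem hπO hl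
  have hτO : τ' ∈ O := by
    have : τ' = a ^ p + lam ^ p * c := by rw [← hc]; ring
    rw [this]
    exact O.add_mem (O.pow_mem haO p) (O.mul_mem (O.pow_mem hlamO p) hcO)
  have key := s48c_wnewton_of_root (R := O) hp ⟨u, huO⟩ ⟨lam, hlamO⟩ ⟨π, hπO⟩ ⟨a, haO⟩ ⟨b, hbO⟩
    ⟨c, hcO⟩ (⟨u⁻¹, huinv⟩ * ⟨a⁻¹, hainv⟩ ^ (p - 1)) ⟨τ', hτO⟩
    (by apply Subtype.ext; push_cast; exact hpu)
    ⟨⟨l, hl⟩, Subtype.ext hlam⟩
    (by apply Subtype.ext; push_cast; exact hc)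
    (by
      refine ⟨0, ?_⟩
      apply Subtype.ext
      push_cast
      rw [mul_zero, inv_pow]
      have : a ^ (p - 1) ≠ 0 := pow_ne_zero _ ha0
      field_simp
      ring)
    ⟨⟨y, hy⟩, by apply Subtype.ext; push_cast; exact hroot⟩ N
  obtain ⟨ξ, ⟨y1, hy1⟩, ⟨y2, hy2⟩⟩ := key
  refine ⟨ξ.1, ξ.2, ⟨y1.1, y1.2, ?_⟩, ⟨y2.1, y2.2, ?_⟩⟩
  · have := congrArg Subtype.val hy1
    push_cast at this
    exact this
  · have := congrArg Subtype.val hy2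
    push_cast at this
    exact this

end Fermat.Agent.Lib.S48
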