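/-
DS-1 (S48), wall [T9] core (helper9), part 7: **the wild Kummer-triviality theorem** ("`h ∈ F`,
`p ∣ div h`, `h` a `p`-th power modulo `λ^p 𝔪` (`p = u λ^(p-1)`) ⇒ `h = c · w^p`"), `p` = residue
characteristic.

* `s48c_wkummer_core`  : abstract one-level core (`s48c_wzero_of_geo` + the landed endgame
  `s18x_endgame`): the wild geometric inputs at a Noetherian level, approximate `p`-th roots of
  `h` to every order, restriction of places surjective + order-preserving, constants of `F`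
  ⇒ `ι h = c · w^p`;
* `s48c_wkummer_gauss` : the same for a Gauss datum `G`, series language: `Y = X₀^p + λ^p Z`
  with `ρ Z = 0`, `ρ Y ≠ 0` (the approximate roots come from the wild Newton iteration
  `s48c_wnewton`).
-/
import Fermat.Agent.Lib.S18.XGeo
import Fermat.Agent.Lib.S48.WildGauss
import Fermat.Agent.Lib.S48.WildNewton

set_option autoImplicit false
set_option linter.unusedSectionVars false
set_option linter.style.haveILetI false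

noncomputable section

namespace Fermat.Agent.Lib.S48

open AlgebraicCurve ModularCurve HahnSeries Fermat.Agent.Lib.FF Fermat.Agent.Lib.S18

section Abstract

variable {L₀ 𝓕₀ K F : Type*} [Field L₀] [Field 𝓕₀] [Algebra L₀ 𝓕₀] [Field K] [Field F]
  [Algebra K F]

/-- **Abstract one-level core of the wild Kummer-triviality theorem.** -/
theorem s48c_wkummer_core (A₀ : ValuationSubring L₀) [IsNoetherianRing A₀]
    (O : ValuationSubring 𝓕₀) (hAO : ∀ a : A₀, algebraMap L₀ 𝓕₀ (a : L₀) ∈ O)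
    (ϖ : A₀) (hϖ0 : (ϖ : L₀) ≠ 0)
    (hϖ : ¬ ∃ y ∈ O, (1 : 𝓕₀) = algebraMap L₀ 𝓕₀ (ϖ : L₀) * y)
    (t : 𝓕₀) {p : ℕ} (hp : p.Prime)
    (e : ℕ) (he : 1 ≤ e) (u : A₀) (hu : ((u : L₀))⁻¹ ∈ A₀) (hu0 : (u : L₀) ≠ 0)
    (hpu : (p : L₀) = (u : L₀) * (ϖ : L₀) ^ e)
    (hgeo : s48c_WGeoInputs A₀ O hAO ϖ t p)
    (ι : 𝓕₀ →+* F) (restrict : Place K F → Place L₀ 𝓕₀)
    (hsurj : Function.Surjective restrict)
    (hord : ∀ (P : Place K F) (f : 𝓕₀), P.ord (ι f) = (restrict P).ord f)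
    (hconst : ∀ g : F, (∀ P : Place K F, P.ord g ≤ 0) → ∃ c : K, g = algebraMap K F c)
    (h : 𝓕₀) (hhO : h ∈ O) (hhinv : h⁻¹ ∈ O) (hh0 : h ≠ 0)
    (hdivP : ∀ P : Place K F, (p : ℤ) ∣ P.ord (ι h))
    (hxi : ∀ N : ℕ, ∃ ξ ∈ O, ∃ y ∈ O, ξ ^ p - h = algebraMap L₀ 𝓕₀ (ϖ : L₀) ^ N * y) :
    ∃ (c : K) (w : F), ι h = algebraMap K F c * w ^ p := by
  have hdiv := s18x_dvd_of_restrict ι restrict hsurj hord h p hdivP
  obtain ⟨x, hx0, -, hx⟩ := s48c_wzero_of_geo A₀ O hAO ϖ hϖ0 hϖ t hp e he u hu hu0 hpu hgeo h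
    hhO hhinv hh0 hdiv hxi
  obtain ⟨c, hc⟩ := s18x_endgame ι restrict hord hconst h x p hx0 hh0 hx
  exact ⟨c, ι x, hc⟩

end Abstract

section Gauss

variable {K₀ : Type*} [Field K₀] [CharZero K₀] {κ : Type*} [Field κ] (G : s18g_GaussData K₀ κ)
  (𝓕₀ : IntermediateField K₀ (LaurentSeries K₀)) (hFrac : ∀ f ∈ 𝓕₀, f ∈ s18g_Frac G)
  {K F : Type*} [Field K] [Field F] [Algebra K F]

/-- `ι (C a) = C a` lies in every intermediate field. -/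
theorem s48c_iota_C_mem (a : G.A) : s18g_iota G (HahnSeries.C a) ∈ 𝓕₀ := by
  rw [s18g_iota_C]
  have : (HahnSeries.C ((a : G.A) : K₀) : LaurentSeries K₀) =
      algebraMap K₀ (LaurentSeries K₀) (a : K₀) := by
    rw [algebraMap_laurentSeries_eq_single]
    rfl
  rw [this]
  exact 𝓕₀.algebraMap_mem _

/-- **The wild Kummer-triviality theorem at a Gauss level**, series language. -/
theorem s48c_wkummer_gauss [IsNoetherianRing G.A]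
    (ι : ↥𝓕₀ →+* F) (restrict : Place K F → Place K₀ ↥𝓕₀)
    (hsurj : Function.Surjective restrict)
    (hord : ∀ (P : Place K F) (f : ↥𝓕₀), P.ord (ι f) = (restrict P).ord f)
    (hconst : ∀ g : F, (∀ P : Place K F, P.ord g ≤ 0) → ∃ c : K, g = algebraMap K F c)
    {p : ℕ} (hp : p.Prime)
    (e : ℕ) (he : 1 ≤ e) (u₁ : G.A) (hu₁ : ((u₁ : K₀))⁻¹ ∈ G.A) (hu₁0 : (u₁ : K₀) ≠ 0)
    (hpu₁ : (p : K₀) = (u₁ : K₀) * ((G.ϖ : G.A) : K₀) ^ e)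
    (lam u uinv : G.A) (huinv : u * uinv = 1)
    (hpu : (p : G.A) = u * lam ^ (p - 1)) (hlam : G.ϖ ∣ lam)
    (t : ↥𝓕₀)
    (hgeo : s48c_WGeoInputs G.A (s18g_V G 𝓕₀ hFrac) (s18f_const_mem_V G 𝓕₀ hFrac) G.ϖ t p)
    (Y X₀ Z : LaurentSeries G.A) (hY : s18g_iota G Y ∈ 𝓕₀) (hX : s18g_iota G X₀ ∈ 𝓕₀)
    (hrel : Y = X₀ ^ p + HahnSeries.C (lam ^ p) * Z)
    (hZ : s18g_rho G Z = 0) (hY0 : s18g_rho G Y ≠ 0)
    (hdivP : ∀ P : Place K F, (p : ℤ) ∣ P.ord (ι ⟨s18g_iota G Y, hY⟩)) :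
    ∃ (c : K) (w : F), ι ⟨s18g_iota G Y, hY⟩ = algebraMap K F c * w ^ p := by
  classical
  set V := s18g_V G 𝓕₀ hFrac with hV
  have hp1 : p - 1 + 1 = p := by have := hp.two_le; omega
  -- `λ ≠ 0`
  have hp0 : (p : G.A) ≠ 0 := by
    intro h0
    have h1 : ((p : G.A) : K₀) = 0 := by rw [h0]; rfl
    rw [show ((p : G.A) : K₀) = (p : K₀) from rfl] at h1
    exact hp.ne_zero (by exact_mod_cast h1)
  have hlam0 : lam ≠ 0 := by
    rintro rfl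
    apply hp0
    rw [hpu, zero_pow (by have := hp.two_le; omega), mul_zero]
  have hClam0 : (HahnSeries.C (((lam ^ p : G.A) : G.A) : K₀) : LaurentSeries K₀) ≠ 0 := by
    apply HahnSeries.C_ne_zero
    intro h0
    exact pow_ne_zero p hlam0 (Subtype.ext h0)
  -- `Z` lies in `𝓕₀`
  have hιrel : s18g_iota G Y = s18g_iota G X₀ ^ p + s18g_iota G (HahnSeries.C (lam ^ p)) *
      s18g_iota G Z := by
    rw [hrel, map_add, map_pow, map_mul]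
  have hZmem : s18g_iota G Z ∈ 𝓕₀ := by
    have h1 : s18g_iota G Z = (s18g_iota G (HahnSeries.C (lam ^ p)))⁻¹ *
        (s18g_iota G Y - s18g_iota G X₀ ^ p) := by
      rw [hιrel, add_sub_cancel_left, ← mul_assoc, inv_mul_cancel₀, one_mul]
      rw [s18g_iota_C]
      exact hClam0
    rw [h1]
    exact 𝓕₀.mul_mem (𝓕₀.inv_mem (s48c_iota_C_mem G 𝓕₀ _))
      (𝓕₀.sub_mem hY (𝓕₀.pow_mem hX p))
  -- the elements of `V`
  set hV' : ↥V := ⟨⟨s18g_iota G Y, hY⟩, s18g_iota_mem_V G 𝓕₀ hFrac Y hY⟩ with hhV'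
  set ξ₀ : ↥V := ⟨⟨s18g_iota G X₀, hX⟩, s18g_iota_mem_V G 𝓕₀ hFrac X₀ hX⟩ with hξ₀
  set z : ↥V := ⟨⟨s18g_iota G Z, hZmem⟩, s18g_iota_mem_V G 𝓕₀ hFrac Z hZmem⟩ with hz
  have hredh : s18g_redV G 𝓕₀ hFrac hV' = s18g_rho G Y := s18g_redV_iota G 𝓕₀ hFrac Y hY
  have hredξ : s18g_redV G 𝓕₀ hFrac ξ₀ = s18g_rho G X₀ := s18g_redV_iota G 𝓕₀ hFrac X₀ hX
  have hredz : s18g_redV G 𝓕₀ hFrac z = 0 := by
    rw [hz, s18g_redV_iota G 𝓕₀ hFrac Z hZmem, hZ]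
  have hrelV : hV' = ξ₀ ^ p + s18g_constV G 𝓕₀ hFrac lam ^ p * z := by
    apply Subtype.ext
    apply Subtype.ext
    show s18g_iota G Y = _
    rw [hιrel, s18g_iota_C]
    simp only [hξ₀, hz, MulMemClass.coe_mul, AddMemClass.coe_add, SubmonoidClass.coe_pow]
    congr 2
    show _ = ((algebraMap K₀ ↥𝓕₀ ((lam : G.A) : K₀) : ↥𝓕₀) : LaurentSeries K₀) ^ p
    rw [s18g_coe_algebraMap, ← map_pow]
  -- `ρ λ = 0`
  have hπlam : G.π lam = 0 := (G.π_eq_zero_iff lam).mpr hlam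
  have hρY : s18g_rho G Y = s18g_rho G X₀ ^ p := by
    rw [hrel, map_add, map_pow, map_mul, hZ, mul_zero, add_zero]
  have hρX0 : s18g_rho G X₀ ≠ 0 := by
    intro h0
    apply hY0
    rw [hρY, h0, zero_pow hp.ne_zero]
  -- units of `V`
  have hξunit : IsUnit ξ₀ := (s18g_isUnit_V_iff G 𝓕₀ hFrac ξ₀).mpr (by rw [hredξ]; exact hρX0)
  have hhunit : IsUnit hV' := (s18g_isUnit_V_iff G 𝓕₀ hFrac hV').mpr (by rw [hredh]; exact hY0)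
  obtain ⟨ξinv, hξinv⟩ := hξunit.exists_right_inv
  obtain ⟨hinvV, hhinvV⟩ := hhunit.exists_right_inv
  -- `z = ϖ g`
  obtain ⟨g, hg⟩ := (s18g_redV_eq_zero_iff G 𝓕₀ hFrac z).mp hredz
  -- Newton
  have hpuV : ((p : ℕ) : ↥V) = s18g_constV G 𝓕₀ hFrac u * s18g_constV G 𝓕₀ hFrac lam ^ (p - 1) := by
    rw [← map_pow, ← map_mul, ← hpu, map_natCast]
  have hnewton := s48c_wnewton (R := ↥V) hp (s18g_constV G 𝓕₀ hFrac u)
    (s18g_constV G 𝓕₀ hFrac lam) (s18g_unifV G 𝓕₀ hFrac) ξ₀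
    (s18g_constV G 𝓕₀ hFrac uinv * ξinv ^ (p - 1)) hV' hpuV
    (by
      have h1 : s18g_constV G 𝓕₀ hFrac u * ξ₀ ^ (p - 1) *
          (s18g_constV G 𝓕₀ hFrac uinv * ξinv ^ (p - 1)) = 1 := by
        have h2 : s18g_constV G 𝓕₀ hFrac u * s18g_constV G 𝓕₀ hFrac uinv = 1 := by
          rw [← map_mul, huinv, map_one]
        calc _ = (s18g_constV G 𝓕₀ hFrac u * s18g_constV G 𝓕₀ hFrac uinv) *
              (ξ₀ * ξinv) ^ (p - 1) := by ring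
          _ = 1 := by rw [h2, hξinv, one_pow, one_mul]
      rw [h1, sub_self]
      exact dvd_zero _)
    (by
      refine ⟨-g, ?_⟩
      rw [hrelV, hg]
      ring)
  have hxi : ∀ N : ℕ, ∃ ξ ∈ V, ∃ y ∈ V, ξ ^ p - (hV' : ↥𝓕₀) =
      algebraMap K₀ ↥𝓕₀ ((G.ϖ : G.A) : K₀) ^ N * y := by
    intro N
    obtain ⟨ξ, -, ⟨y, hy⟩⟩ := hnewton N
    refine ⟨(ξ : ↥𝓕₀), ξ.2, ((s18g_constV G 𝓕₀ hFrac lam ^ p * y : ↥V) : ↥𝓕₀),
      (s18g_constV G 𝓕₀ hFrac lam ^ p * y : ↥V).2, ?_⟩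
    have := congrArg (fun v : ↥V => (v : ↥𝓕₀)) hy
    rw [show ((ξ ^ p - hV' : ↥V) : ↥𝓕₀) = (ξ : ↥𝓕₀) ^ p - (hV' : ↥𝓕₀) from rfl] at this
    rw [this]
    show ((s18g_constV G 𝓕₀ hFrac lam ^ p : ↥V) : ↥𝓕₀) *
      ((s18g_unifV G 𝓕₀ hFrac ^ N : ↥V) : ↥𝓕₀) * (y : ↥𝓕₀) =
      algebraMap K₀ ↥𝓕₀ ((G.ϖ : G.A) : K₀) ^ N *
        (((s18g_constV G 𝓕₀ hFrac lam ^ p : ↥V) : ↥𝓕₀) * (y : ↥𝓕₀))
    have hun : ((s18g_unifV G 𝓕₀ hFrac ^ N : ↥V) : ↥𝓕₀) =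
        algebraMap K₀ ↥𝓕₀ ((G.ϖ : G.A) : K₀) ^ N := rfl
    rw [hun]
    ring
  have hh0 : (hV' : ↥𝓕₀) ≠ 0 := by
    intro h0
    have : hV' = 0 := Subtype.ext h0
    rw [this] at hhunit
    exact not_isUnit_zero hhunit
  have hhinv : ((hV' : ↥𝓕₀))⁻¹ ∈ V := by
    have h1 : (hV' : ↥𝓕₀) * (hinvV : ↥𝓕₀) = 1 := congrArg Subtype.val hhinvV
    rw [inv_eq_of_mul_eq_one_right h1]
    exact hinvV.2
  exact s48c_wkummer_core G.A V (s18f_const_mem_V G 𝓕₀ hFrac) G.ϖ (s18g_unifK_ne_zero G)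
    (s18f_unif_not_unit G 𝓕₀ hFrac) t hp e he u₁ hu₁ hu₁0 hpu₁ hgeo ι restrict hsurj hord hconst
    (hV' : ↥𝓕₀) hV'.2 hhinv hh0 hdivP hxi

end Gauss

end Fermat.Agent.Lib.S48
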