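/-
DS-1 (S48), wall [T9] core (helper9), part 8: **the wild Kummer-triviality theorem for a base-changed
`ℚ`-model** `F = laurentBaseChange ℚ̄ F₀` from the wild geometric inputs at a COFINAL family of finite
levels (`L_min ≤ L₀`), port of helper7's `s48d_kummerTrivial_baseChange` to `m = p` = residue
characteristic.

`s48c_WKummerTrivial A F p`: for integral series `Y, X₀, Z` with `ιY, ιX₀ ∈ F`,
`Y = X₀^p + λ^p Z`, `ρZ = 0`, `ρY ≠ 0` (`p = u λ^(p-1)`, `u ∈ A^×`, `λ ∈ 𝔪_A`): if `p ∣ ord_P (ιY)`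
for all places `P` then `ιY = c · w^p`.
-/
import Fermat.Agent.Lib.S48.WildTop
import Fermat.Agent.Lib.S18.QPlace
import Fermat.Agent.Lib.S18.QDvr

set_option autoImplicit false
set_option linter.unusedSectionVars false
set_option linter.style.haveILetI false

noncomputable section

namespace Fermat.Agent.Lib.S48

open AlgebraicCurve ModularCurve HahnSeries Fermat.Agent.Lib.FF Fermat.Agent.Lib.S18

/-- **Wild Kummer triviality** for a function field `F ⊆ K((q))` and a valuation ring `A` of `K` of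
residue characteristic `p`. -/
def s48c_WKummerTrivial {K : Type*} [Field K] (A : ValuationSubring K)
    (F : IntermediateField K (LaurentSeries K)) (p : ℕ) : Prop :=
  ∀ (lam u uinv : ↥A) (Y X₀ Z : LaurentSeries ↥A)
    (hY : coeffMap A.subtype Y ∈ F) (_ : coeffMap A.subtype X₀ ∈ F),
    u * uinv = 1 → ((p : ℕ) : ↥A) = u * lam ^ (p - 1) → lam ∈ IsLocalRing.maximalIdeal ↥A →
    Y = X₀ ^ p + HahnSeries.C (lam ^ p) * Z →
    coeffMap (IsLocalRing.residue ↥A) Z = 0 →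
    coeffMap (IsLocalRing.residue ↥A) Y ≠ 0 →
    (∀ P : Place K ↥F, (p : ℤ) ∣ P.ord (⟨coeffMap A.subtype Y, hY⟩ : ↥F)) →
    ∃ (c : K) (w : ↥F), (⟨coeffMap A.subtype Y, hY⟩ : ↥F) = algebraMap K ↥F c * w ^ p

section Res

variable {K₀ K : Type*} [Field K₀] [Field K] (φ : K₀ →+* K) (A : ValuationSubring K)

/-- residues vanish simultaneously along `A ∩ K₀ → A`. -/
theorem s48c_residue_comapHom (a : ↥(A.comap φ)) :
    IsLocalRing.residue ↥A (s18q_comapHom φ A a) = 0 ↔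
      IsLocalRing.residue ↥(A.comap φ) a = 0 := by
  rw [IsLocalRing.residue_eq_zero_iff, IsLocalRing.residue_eq_zero_iff]
  exact s18q_comapHom_mem_maximalIdeal φ A a

end Res

local notation "Qbar" => AlgebraicClosure ℚ

set_option synthInstance.maxHeartbeats 400000 in
set_option maxHeartbeats 1600000 in
/-- **Wild Kummer triviality for a base-changed `ℚ`-model**, from the wild geometric inputs at all
finite levels containing `L_min`. -/
theorem s48c_wkummerTrivial_baseChange (F₀ : IntermediateField ℚ (LaurentSeries ℚ))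
    (A : ValuationSubring Qbar) {p : ℕ} [Fact p.Prime] (hA : A.LiesOverPrime p)
    (hconst : ∀ g : ↥(laurentBaseChange Qbar F₀),
      (∀ P : Place Qbar ↥(laurentBaseChange Qbar F₀), P.ord g ≤ 0) →
        ∃ c : Qbar, g = algebraMap Qbar ↥(laurentBaseChange Qbar F₀) c)
    (Lmin : IntermediateField ℚ Qbar) [FiniteDimensional ℚ Lmin]
    (hgeo : ∀ (L₀ : IntermediateField ℚ Qbar) (_ : FiniteDimensional ℚ L₀), Lmin ≤ L₀ →
      ∀ [IsDiscreteValuationRing ↥(A.comap (algebraMap ↥L₀ Qbar))]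
      (ϖ : ↥(A.comap (algebraMap ↥L₀ Qbar))) (hϖ : Irreducible ϖ),
      ∃ (hFrac : ∀ f ∈ laurentBaseChange ↥L₀ F₀,
          f ∈ s18g_Frac (s18g_GaussData.ofResidue (A.comap (algebraMap ↥L₀ Qbar)) ϖ hϖ))
        (t : ↥(laurentBaseChange ↥L₀ F₀)),
        s48c_WGeoInputs (s18g_GaussData.ofResidue (A.comap (algebraMap ↥L₀ Qbar)) ϖ hϖ).A
          (s18g_V (s18g_GaussData.ofResidue (A.comap (algebraMap ↥L₀ Qbar)) ϖ hϖ)
            (laurentBaseChange ↥L₀ F₀) hFrac)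
          (s18f_const_mem_V (s18g_GaussData.ofResidue (A.comap (algebraMap ↥L₀ Qbar)) ϖ hϖ)
            (laurentBaseChange ↥L₀ F₀) hFrac)
          (s18g_GaussData.ofResidue (A.comap (algebraMap ↥L₀ Qbar)) ϖ hϖ).ϖ t p) :
    s48c_WKummerTrivial A (laurentBaseChange Qbar F₀) p := by
  classical
  have hp : p.Prime := Fact.out
  intro lam u uinv Y X₀ Z hY hX huinv hpu hlam hrel hZ hY0 hdivP
  haveI := s18q_isAlgebraic_bar
  -- the level
  obtain ⟨L₁, hfd₁, hs⟩ := s18q_exists_field_gen (K := Qbar) (F₀ := F₀)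
    {⟨coeffMap A.subtype Y, hY⟩, ⟨coeffMap A.subtype X₀, hX⟩,
      algebraMap Qbar ↥(laurentBaseChange Qbar F₀) ((lam : ↥A) : Qbar),
      algebraMap Qbar ↥(laurentBaseChange Qbar F₀) ((u : ↥A) : Qbar),
      algebraMap Qbar ↥(laurentBaseChange Qbar F₀) ((uinv : ↥A) : Qbar)}
  haveI := hfd₁
  set L₀ : IntermediateField ℚ Qbar := L₁ ⊔ Lmin with hL₀
  haveI hfd : FiniteDimensional ℚ ↥L₀ := IntermediateField.finiteDimensional_sup L₁ Lmin
  have hup : ∀ x : ↥(laurentBaseChange Qbar F₀),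
      x ∈ Set.range (s18q_map (algebraMap ↥L₁ Qbar) F₀) →
      x ∈ Set.range (s18q_map (algebraMap ↥L₀ Qbar) F₀) := by
    intro x hx
    rw [← s18q_defOver_range] at hx ⊢
    exact s18q_defOver_mono le_sup_left hx
  set φ : ↥L₀ →+* Qbar := algebraMap ↥L₀ Qbar with hφ
  obtain ⟨x1, hx1⟩ := hup _ (hs ⟨coeffMap A.subtype Y, hY⟩ (by simp))
  obtain ⟨x2, hx2⟩ := hup _ (hs ⟨coeffMap A.subtype X₀, hX⟩ (by simp))
  obtain ⟨xl, hxl⟩ := hup _ (hs (algebraMap Qbar _ ((lam : ↥A) : Qbar)) (by simp))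
  obtain ⟨xu, hxu⟩ := hup _ (hs (algebraMap Qbar _ ((u : ↥A) : Qbar)) (by simp))
  obtain ⟨xv, hxv⟩ := hup _ (hs (algebraMap Qbar _ ((uinv : ↥A) : Qbar)) (by simp))
  -- constants of the level
  have hconstcoef : ∀ (x : ↥(laurentBaseChange ↥L₀ F₀)) (a : Qbar),
      s18q_map φ F₀ x = algebraMap Qbar _ a → φ ((x : LaurentSeries ↥L₀).coeff 0) = a := by
    intro x a hx
    have h1 := congrArg (fun z : ↥(laurentBaseChange Qbar F₀) =>
      (z : LaurentSeries Qbar).coeff 0) hx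
    simp only [s18q_map_coe, coeffMap_coeff] at h1
    rw [h1]
    show (algebraMap Qbar (LaurentSeries Qbar) a).coeff 0 = a
    rw [algebraMap_laurentSeries_eq_single, HahnSeries.coeff_single_same]
  -- DVR and uniformiser
  haveI hdvr : IsDiscreteValuationRing ↥(A.comap (algebraMap ↥L₀ Qbar)) := s18q_A0_dvr A L₀ hA
  obtain ⟨ϖ, hϖ⟩ := IsDiscreteValuationRing.exists_irreducible ↥(A.comap (algebraMap ↥L₀ Qbar))
  obtain ⟨hFrac, t, hgeoG⟩ := hgeo L₀ hfd le_sup_right ϖ hϖ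
  set G := s18g_GaussData.ofResidue (A.comap (algebraMap ↥L₀ Qbar)) ϖ hϖ with hG
  let ψ : ↥G.A →+* ↥A := s18q_comapHom φ A
  have hψcoe : ∀ a : ↥G.A, ((ψ a : ↥A) : Qbar) = φ ((a : ↥G.A) : ↥L₀) := fun a => rfl
  have hψinj : Function.Injective ψ := s18q_comapHom_injective φ A
  have hψres : ∀ a : ↥G.A, IsLocalRing.residue ↥A (ψ a) = 0 ↔ G.π a = 0 := fun a =>
    s48c_residue_comapHom φ A a
  have hψmax0 : ∀ a : ↥(A.comap (algebraMap ↥L₀ Qbar)),
      s18q_comapHom φ A a ∈ IsLocalRing.maximalIdeal ↥A → ϖ ∣ a := by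
    intro a ha
    have h1 : a ∈ IsLocalRing.maximalIdeal ↥(A.comap (algebraMap ↥L₀ Qbar)) :=
      (s18q_comapHom_mem_maximalIdeal φ A a).mp ha
    rw [hϖ.maximalIdeal_eq, Ideal.mem_span_singleton] at h1
    exact h1
  have hψmax : ∀ a : ↥G.A, ψ a ∈ IsLocalRing.maximalIdeal ↥A → G.ϖ ∣ a := fun a ha =>
    hψmax0 a ha
  have hexc : ∀ (x : ↥(laurentBaseChange ↥L₀ F₀)) (a : ↥A),
      s18q_map φ F₀ x = algebraMap Qbar _ ((a : ↥A) : Qbar) → ∃ l : ↥G.A, ψ l = a := by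
    intro x a hx
    have h := hconstcoef x _ hx
    have hm : (x : LaurentSeries ↥L₀).coeff 0 ∈ A.comap φ := by
      rw [ValuationSubring.mem_comap, h]; exact a.2
    exact ⟨⟨(x : LaurentSeries ↥L₀).coeff 0, hm⟩, Subtype.ext h⟩
  obtain ⟨lamG, hlamG⟩ := hexc xl lam hxl
  obtain ⟨uG, huG⟩ := hexc xu u hxu
  obtain ⟨vG, hvG⟩ := hexc xv uinv hxv
  have huinv' : uG * vG = 1 := by
    apply hψinj
    rw [map_mul, huG, hvG, huinv, map_one]
  have hpu' : ((p : ℕ) : ↥G.A) = uG * lamG ^ (p - 1) := by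
    apply hψinj
    rw [map_natCast, map_mul, map_pow, huG, hlamG, hpu]
  have hϖlam : G.ϖ ∣ lamG := hψmax lamG (by rw [hlamG]; exact hlam)
  -- `p = u₁ ϖ^e`
  have hpL : ((p : ℕ) : ↥L₀) ≠ 0 := by exact_mod_cast hp.ne_zero
  have hp0 : ((p : ℕ) : ↥(A.comap (algebraMap ↥L₀ Qbar))) ≠ 0 := by
    intro h0
    apply hpL
    have := congrArg Subtype.val h0
    exact this
  obtain ⟨e, u₁, hpe⟩ := IsDiscreteValuationRing.eq_unit_mul_pow_irreducible hp0 hϖ
  have he : 1 ≤ e := by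
    rcases Nat.eq_zero_or_pos e with rfl | hpos
    · exfalso
      rw [pow_zero, mul_one] at hpe
      have hunit : IsUnit ((p : ℕ) : ↥(A.comap (algebraMap ↥L₀ Qbar))) := hpe ▸ u₁.isUnit
      have hunitA : IsUnit (s18q_comapHom φ A ((p : ℕ) : ↥(A.comap (algebraMap ↥L₀ Qbar)))) :=
        hunit.map _
      rw [map_natCast] at hunitA
      have hnon : ((p : ℕ) : Qbar) ∈ A.nonunits := hA
      rw [ValuationSubring.mem_nonunits_iff_exists_mem_maximalIdeal] at hnon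
      obtain ⟨hmem, hmax⟩ := hnon
      rw [IsLocalRing.mem_maximalIdeal, mem_nonunits_iff] at hmax
      apply hmax
      have : (⟨((p : ℕ) : Qbar), hmem⟩ : ↥A) = ((p : ℕ) : ↥A) := Subtype.ext (by simp)
      rw [this]
      exact hunitA
    · exact hpos
  have hu₁inv : (((u₁ : ↥(A.comap (algebraMap ↥L₀ Qbar))) : ↥L₀))⁻¹ ∈
      A.comap (algebraMap ↥L₀ Qbar) := by
    have h1 : ((u₁ : ↥(A.comap (algebraMap ↥L₀ Qbar))) : ↥L₀) *
        (((u₁⁻¹ : (↥(A.comap (algebraMap ↥L₀ Qbar)))ˣ) :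
          ↥(A.comap (algebraMap ↥L₀ Qbar))) : ↥L₀) = 1 := by
      have := congrArg Subtype.val u₁.mul_inv
      exact this
    rw [inv_eq_of_mul_eq_one_right h1]
    exact ((u₁⁻¹ : (↥(A.comap (algebraMap ↥L₀ Qbar)))ˣ) : ↥(A.comap (algebraMap ↥L₀ Qbar))).2
  have hu₁0 : ((u₁ : ↥(A.comap (algebraMap ↥L₀ Qbar))) : ↥L₀) ≠ 0 := by
    intro h0
    have : (u₁ : ↥(A.comap (algebraMap ↥L₀ Qbar))) = 0 := Subtype.ext h0
    exact u₁.ne_zero this
  have hpu₁ : ((p : ℕ) : ↥L₀) = ((u₁ : ↥(A.comap (algebraMap ↥L₀ Qbar))) : ↥L₀) *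
      ((G.ϖ : G.A) : ↥L₀) ^ e := by
    have := congrArg Subtype.val hpe
    exact this
  -- the series at the level
  have hexs : ∀ (x' : LaurentSeries ↥L₀) (W : LaurentSeries ↥A),
      coeffMap φ x' = coeffMap A.subtype W →
      ∃ y : LaurentSeries ↥G.A, s18g_iota G y = x' ∧ ∀ n, ψ (y.coeff n) = W.coeff n := by
    intro x' W hx'
    have hc : ∀ n, φ (x'.coeff n) = ((W.coeff n : ↥A) : Qbar) := by
      intro n
      have h1 := congrArg (fun s : LaurentSeries Qbar => s.coeff n) hx'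
      simpa using h1
    have hm : ∀ n, x'.coeff n ∈ G.A := by
      intro n
      show x'.coeff n ∈ A.comap φ
      rw [ValuationSubring.mem_comap, hc n]
      exact (W.coeff n).2
    obtain ⟨y, hy⟩ := s18g_exists_iota_eq G x' hm
    refine ⟨y, hy, fun n => ?_⟩
    apply Subtype.ext
    rw [hψcoe, ← hc n, ← hy]
    rfl
  have hcY : coeffMap φ (x1 : LaurentSeries ↥L₀) = coeffMap A.subtype Y :=
    congrArg Subtype.val hx1
  have hcX : coeffMap φ (x2 : LaurentSeries ↥L₀) = coeffMap A.subtype X₀ :=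
    congrArg Subtype.val hx2
  obtain ⟨y1, hy1, hy1c⟩ := hexs _ Y hcY
  obtain ⟨y2, hy2, hy2c⟩ := hexs _ X₀ hcX
  have hy1' : s18g_iota G y1 ∈ laurentBaseChange ↥L₀ F₀ := by rw [hy1]; exact x1.2
  have hy2' : s18g_iota G y2 ∈ laurentBaseChange ↥L₀ F₀ := by rw [hy2]; exact x2.2
  have hxy1 : (⟨s18g_iota G y1, hy1'⟩ : ↥(laurentBaseChange ↥L₀ F₀)) = x1 := Subtype.ext hy1
  -- `λ ≠ 0`
  have hlam0 : lamG ≠ 0 := by
    rintro h0
    apply hp0
    have : ((p : ℕ) : ↥G.A) = 0 := by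
      rw [hpu', h0, zero_pow (by have := hp.two_le; omega), mul_zero]
    exact this
  have hℓ0 : ((lamG : ↥G.A) : ↥L₀) ≠ 0 := fun h0 => hlam0 (Subtype.ext h0)
  have hC0 : (HahnSeries.C (((lamG : ↥G.A) : ↥L₀) ^ p) : LaurentSeries ↥L₀) ≠ 0 :=
    HahnSeries.C_ne_zero (pow_ne_zero p hℓ0)
  -- the third series
  set Z' : LaurentSeries ↥L₀ := (HahnSeries.C (((lamG : ↥G.A) : ↥L₀) ^ p))⁻¹ *
    ((x1 : LaurentSeries ↥L₀) - (x2 : LaurentSeries ↥L₀) ^ p) with hZ'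
  have hφlam : φ ((lamG : ↥G.A) : ↥L₀) = ((lam : ↥A) : Qbar) := by
    rw [← hψcoe, hlamG]
  have hCmap : coeffMap φ (HahnSeries.C (((lamG : ↥G.A) : ↥L₀) ^ p)) =
      coeffMap A.subtype (HahnSeries.C (lam ^ p)) := by
    rw [HahnSeries.C_apply, HahnSeries.C_apply, coeffMap_single, coeffMap_single, map_pow,
      hφlam]
    rfl
  have hcZ : coeffMap φ Z' = coeffMap A.subtype Z := by
    have hne : coeffMap A.subtype (HahnSeries.C (lam ^ p)) ≠ 0 := by
      rw [← hCmap]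
      exact (map_ne_zero (coeffMap φ)).mpr hC0
    rw [hZ', map_mul, map_inv₀, map_sub, map_pow (coeffMap φ), hcY, hcX, hCmap, hrel, map_add,
      map_pow (coeffMap A.subtype), map_mul, add_sub_cancel_left, ← mul_assoc,
      inv_mul_cancel₀ hne, one_mul]
  obtain ⟨z0, hz0, hz0c⟩ := hexs Z' Z hcZ
  -- the relation at the level
  have hrel₀ : y1 = y2 ^ p + HahnSeries.C (lamG ^ p) * z0 := by
    apply s18g_iota_injective G
    rw [map_add, map_pow, map_mul, s18g_iota_C, hy1, hy2, hz0, hZ']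
    have : (((lamG ^ p : ↥G.A) : ↥G.A) : ↥L₀) = ((lamG : ↥G.A) : ↥L₀) ^ p := rfl
    rw [this, ← mul_assoc, mul_inv_cancel₀ hC0, one_mul]
    ring
  -- reductions
  have hZ₀ : s18g_rho G z0 = 0 := by
    ext n
    rw [s18g_rho_coeff, HahnSeries.coeff_zero, ← hψres, hz0c n]
    have h1 := congrArg (fun s : LaurentSeries (IsLocalRing.ResidueField ↥A) => s.coeff n) hZ
    simpa using h1
  have hY0₀ : s18g_rho G y1 ≠ 0 := by
    intro h0
    apply hY0
    ext n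
    rw [coeffMap_coeff, HahnSeries.coeff_zero, ← hy1c n, hψres]
    have h1 := congrArg (fun s : LaurentSeries (IsLocalRing.ResidueField ↥G.A) => s.coeff n) h0
    exact h1
  -- restriction of places
  haveI := s18q_isAlgebraic_over L₀
  have hdivP' : ∀ P : Place Qbar ↥(laurentBaseChange Qbar F₀),
      (p : ℤ) ∣ P.ord (s18q_map φ F₀ ⟨s18g_iota G y1, hy1'⟩) := by
    intro P
    rw [hxy1, hx1]
    exact hdivP P
  haveI hnoeth : IsNoetherianRing ↥G.A :=
    (inferInstance : IsNoetherianRing ↥(A.comap (algebraMap ↥L₀ Qbar)))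
  obtain ⟨c, w, hcw⟩ := s48c_wkummer_gauss G (laurentBaseChange ↥L₀ F₀) hFrac (s18q_map φ F₀)
    (s18q_restrictGen ↥L₀ F₀) (s18q_restrictGen_surjective ↥L₀ F₀)
    (fun P f => s18q_ord_restrictGen ↥L₀ F₀ P f) hconst hp e he
    (u₁ : ↥(A.comap (algebraMap ↥L₀ Qbar))) hu₁inv hu₁0 hpu₁
    lamG uG vG huinv' hpu' hϖlam t hgeoG y1 y2 z0 hy1' hy2' hrel₀ hZ₀ hY0₀ hdivP'
  refine ⟨c, w, ?_⟩
  rw [← hcw, hxy1, hx1]

end Fermat.Agent.Lib.S48
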