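/-
DS-1 (S48), wall [T9] (helper9), part 11 = (W2) of the wild step at the TOP level: **the chart
approximant for a base-changed `ℚ`-model** `F = laurentBaseChange ℚ̄ F₀`.

`O` any valuation subring of `F` containing the images of the finite-level Gauss rings (e.g.
helper7's `s48d_qO`, by the landed `s37r_mem_O_of_level`), `w ∈ F` the chart coordinate, and at every
finite level `L₀ ⊇ L_min` a descended coordinate `t ↦ w` with [S] `s48c_WClosed` and [I] `hinv` on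
`chart1 t`.  For integral series `Y = X₀^p + λ^p Z` of `F` (`p = u λ^(p-1)`, `ρY ≠ 0`,
`p ∣ div ιY`) the chart lattice of `div(ιY)/p` contains `Aapp` with `ιX₀ - Aapp ∈ λ O`
(`s48c_wapp_baseChange`).  For the second chart apply it to `w⁻¹`.
-/
import Fermat.Agent.Lib.S48.WildApp
import Fermat.Agent.Lib.S48.WildLevel

set_option autoImplicit false
set_option linter.unusedSectionVars false
set_option linter.style.haveILetI false

noncomputable section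

namespace Fermat.Agent.Lib.S48

open AlgebraicCurve ModularCurve HahnSeries Fermat.Agent.Lib.FF Fermat.Agent.Lib.S18

local notation "Qbar" => AlgebraicClosure ℚ

set_option synthInstance.maxHeartbeats 400000 in
set_option maxHeartbeats 1600000 in
/-- **(W2), top level: the chart approximant for a base-changed `ℚ`-model.** -/
theorem s48c_wapp_baseChange (F₀ : IntermediateField ℚ (LaurentSeries ℚ))
    (A : ValuationSubring Qbar) {p : ℕ} [Fact p.Prime] (hA : A.LiesOverPrime p)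
    (O : ValuationSubring ↥(laurentBaseChange Qbar F₀))
    (Lmin : IntermediateField ℚ Qbar) [FiniteDimensional ℚ Lmin]
    (w : ↥(laurentBaseChange Qbar F₀))
    (hlev : ∀ (L₀ : IntermediateField ℚ Qbar) (_ : FiniteDimensional ℚ L₀), Lmin ≤ L₀ →
      ∀ [IsDiscreteValuationRing ↥(A.comap (algebraMap ↥L₀ Qbar))]
      (ϖ : ↥(A.comap (algebraMap ↥L₀ Qbar))) (hϖ : Irreducible ϖ),
      ∃ (hFrac : ∀ f ∈ laurentBaseChange ↥L₀ F₀,
          f ∈ s18g_Frac (s18g_GaussData.ofResidue (A.comap (algebraMap ↥L₀ Qbar)) ϖ hϖ))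
        (t : ↥(laurentBaseChange ↥L₀ F₀)),
        s18q_map (algebraMap ↥L₀ Qbar) F₀ t = w ∧
        (∀ x ∈ s18g_V (s18g_GaussData.ofResidue (A.comap (algebraMap ↥L₀ Qbar)) ϖ hϖ)
            (laurentBaseChange ↥L₀ F₀) hFrac, s18q_map (algebraMap ↥L₀ Qbar) F₀ x ∈ O) ∧
        s48c_WClosed (s18g_V (s18g_GaussData.ofResidue (A.comap (algebraMap ↥L₀ Qbar)) ϖ hϖ)
            (laurentBaseChange ↥L₀ F₀) hFrac) (s18_chart1 (L₀ := ↥L₀) t)
          (algebraMap ↥L₀ ↥(laurentBaseChange ↥L₀ F₀)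
            (((s18g_GaussData.ofResidue (A.comap (algebraMap ↥L₀ Qbar)) ϖ hϖ).ϖ :
              (s18g_GaussData.ofResidue (A.comap (algebraMap ↥L₀ Qbar)) ϖ hϖ).A) : ↥L₀)) p ∧
        ∀ h : ↥(laurentBaseChange ↥L₀ F₀), h ≠ 0 →
          ∃ (s : Finset ℕ) (a b : ℕ → ↥(laurentBaseChange ↥L₀ F₀)),
            (∀ j ∈ s, a j ∈ s18_latSet
              (s18g_V (s18g_GaussData.ofResidue (A.comap (algebraMap ↥L₀ Qbar)) ϖ hϖ)
                (laurentBaseChange ↥L₀ F₀) hFrac) (s18_chart1 (L₀ := ↥L₀) t) (s18_E h p)) ∧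
            (∀ j ∈ s, b j ∈ s18_latSet
              (s18g_V (s18g_GaussData.ofResidue (A.comap (algebraMap ↥L₀ Qbar)) ϖ hϖ)
                (laurentBaseChange ↥L₀ F₀) hFrac) (s18_chart1 (L₀ := ↥L₀) t)
                  (fun Q => -s18_E h p Q)) ∧
            ∑ j ∈ s, a j * b j = 1)
    (lam u uinv : ↥A) (Y X₀ Z : LaurentSeries ↥A)
    (hY : coeffMap A.subtype Y ∈ laurentBaseChange Qbar F₀)
    (hX : coeffMap A.subtype X₀ ∈ laurentBaseChange Qbar F₀)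
    (huinv : u * uinv = 1) (hpu : ((p : ℕ) : ↥A) = u * lam ^ (p - 1))
    (hlam : lam ∈ IsLocalRing.maximalIdeal ↥A)
    (hrel : Y = X₀ ^ p + HahnSeries.C (lam ^ p) * Z)
    (hY0 : coeffMap (IsLocalRing.residue ↥A) Y ≠ 0)
    (hdivP : ∀ P : Place Qbar ↥(laurentBaseChange Qbar F₀),
      (p : ℤ) ∣ P.ord (⟨coeffMap A.subtype Y, hY⟩ : ↥(laurentBaseChange Qbar F₀))) :
    ∃ Aapp ∈ s18_latSet O (s18_chart1 (L₀ := Qbar) w)
        (s18_E (⟨coeffMap A.subtype Y, hY⟩ : ↥(laurentBaseChange Qbar F₀)) p),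
      ∃ y ∈ O, (⟨coeffMap A.subtype X₀, hX⟩ : ↥(laurentBaseChange Qbar F₀)) - Aapp =
        algebraMap Qbar ↥(laurentBaseChange Qbar F₀) ((lam : ↥A) : Qbar) * y := by
  classical
  have hp : p.Prime := Fact.out
  haveI := s18q_isAlgebraic_bar
  -- the level
  obtain ⟨L₁, hfd₁, hs⟩ := s18q_exists_field_gen (K := Qbar) (F₀ := F₀)
    {⟨coeffMap A.subtype Y, hY⟩, ⟨coeffMap A.subtype X₀, hX⟩,
      algebraMap Qbar ↥(laurentBaseChange Qbar F₀) ((lam : ↥A) : Qbar),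
      algebraMap Qbar ↥(laurentBaseChange Qbar F₀) ((u : ↥A) : Qbar),
      algebraMap Qbar ↥(laurentBaseChange Qbar F₀) ((uinv : ↥A) : Qbar)}
  haveI := hfd₁
  set L₀ : IntermediateField ℚ Qbar := L₁ ⊔ Lmin with hL₀
  haveI hfd : FiniteDimensional ℚ ↥L₀ := IntermediateField.finiteDimensional_sup L₁ Lmin
  have hup : ∀ x : ↥(laurentBaseChange Qbar F₀),
      x ∈ Set.range (s18q_map (algebraMap ↥L₁ Qbar) F₀) →
      x ∈ Set.range (s18q_map (algebraMap ↥L₀ Qbar) F₀) := by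
    intro x hx
    rw [← s18q_defOver_range] at hx ⊢
    exact s18q_defOver_mono le_sup_left hx
  set φ : ↥L₀ →+* Qbar := algebraMap ↥L₀ Qbar with hφ
  obtain ⟨x1, hx1⟩ := hup _ (hs ⟨coeffMap A.subtype Y, hY⟩ (by simp))
  obtain ⟨x2, hx2⟩ := hup _ (hs ⟨coeffMap A.subtype X₀, hX⟩ (by simp))
  obtain ⟨xl, hxl⟩ := hup _ (hs (algebraMap Qbar _ ((lam : ↥A) : Qbar)) (by simp))
  obtain ⟨xu, hxu⟩ := hup _ (hs (algebraMap Qbar _ ((u : ↥A) : Qbar)) (by simp))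
  obtain ⟨xv, hxv⟩ := hup _ (hs (algebraMap Qbar _ ((uinv : ↥A) : Qbar)) (by simp))
  -- constants of the level
  have hconstcoef : ∀ (x : ↥(laurentBaseChange ↥L₀ F₀)) (a : Qbar),
      s18q_map φ F₀ x = algebraMap Qbar _ a → φ ((x : LaurentSeries ↥L₀).coeff 0) = a := by
    intro x a hx
    have h1 := congrArg (fun z : ↥(laurentBaseChange Qbar F₀) =>
      (z : LaurentSeries Qbar).coeff 0) hx
    simp only [s18q_map_coe, coeffMap_coeff] at h1
    rw [h1]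
    show (algebraMap Qbar (LaurentSeries Qbar) a).coeff 0 = a
    rw [algebraMap_laurentSeries_eq_single, HahnSeries.coeff_single_same]
  -- DVR and uniformiser
  haveI hdvr : IsDiscreteValuationRing ↥(A.comap (algebraMap ↥L₀ Qbar)) := s18q_A0_dvr A L₀ hA
  obtain ⟨ϖ, hϖ⟩ := IsDiscreteValuationRing.exists_irreducible ↥(A.comap (algebraMap ↥L₀ Qbar))
  obtain ⟨hFrac, t, htw, hVO, hIC, hinvE⟩ := hlev L₀ hfd le_sup_right ϖ hϖ
  set G := s18g_GaussData.ofResidue (A.comap (algebraMap ↥L₀ Qbar)) ϖ hϖ with hG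
  let ψ : ↥G.A →+* ↥A := s18q_comapHom φ A
  have hψcoe : ∀ a : ↥G.A, ((ψ a : ↥A) : Qbar) = φ ((a : ↥G.A) : ↥L₀) := fun a => rfl
  have hψinj : Function.Injective ψ := s18q_comapHom_injective φ A
  have hψres : ∀ a : ↥G.A, IsLocalRing.residue ↥A (ψ a) = 0 ↔ G.π a = 0 := fun a =>
    s48c_residue_comapHom φ A a
  have hψmax0 : ∀ a : ↥(A.comap (algebraMap ↥L₀ Qbar)),
      s18q_comapHom φ A a ∈ IsLocalRing.maximalIdeal ↥A → ϖ ∣ a := by
    intro a ha
    have h1 : a ∈ IsLocalRing.maximalIdeal ↥(A.comap (algebraMap ↥L₀ Qbar)) :=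
      (s18q_comapHom_mem_maximalIdeal φ A a).mp ha
    rw [hϖ.maximalIdeal_eq, Ideal.mem_span_singleton] at h1
    exact h1
  have hψmax : ∀ a : ↥G.A, ψ a ∈ IsLocalRing.maximalIdeal ↥A → G.ϖ ∣ a := fun a ha =>
    hψmax0 a ha
  have hexc : ∀ (x : ↥(laurentBaseChange ↥L₀ F₀)) (a : ↥A),
      s18q_map φ F₀ x = algebraMap Qbar _ ((a : ↥A) : Qbar) → ∃ l : ↥G.A, ψ l = a := by
    intro x a hx
    have h := hconstcoef x _ hx
    have hm : (x : LaurentSeries ↥L₀).coeff 0 ∈ A.comap φ := by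
      rw [ValuationSubring.mem_comap, h]; exact a.2
    exact ⟨⟨(x : LaurentSeries ↥L₀).coeff 0, hm⟩, Subtype.ext h⟩
  obtain ⟨lamG, hlamG⟩ := hexc xl lam hxl
  obtain ⟨uG, huG⟩ := hexc xu u hxu
  obtain ⟨vG, hvG⟩ := hexc xv uinv hxv
  have huinv' : uG * vG = 1 := by
    apply hψinj
    rw [map_mul, huG, hvG, huinv, map_one]
  have hpu' : ((p : ℕ) : ↥G.A) = uG * lamG ^ (p - 1) := by
    apply hψinj
    rw [map_natCast, map_mul, map_pow, huG, hlamG, hpu]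
  have hϖlam : G.ϖ ∣ lamG := hψmax lamG (by rw [hlamG]; exact hlam)
  -- `p = u₁ ϖ^e`
  have hpL : ((p : ℕ) : ↥L₀) ≠ 0 := by exact_mod_cast hp.ne_zero
  have hp0 : ((p : ℕ) : ↥(A.comap (algebraMap ↥L₀ Qbar))) ≠ 0 := by
    intro h0
    apply hpL
    have := congrArg Subtype.val h0
    exact this
  obtain ⟨e, u₁, hpe⟩ := IsDiscreteValuationRing.eq_unit_mul_pow_irreducible hp0 hϖ
  have he : 1 ≤ e := by
    rcases Nat.eq_zero_or_pos e with rfl | hpos
    · exfalso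
      rw [pow_zero, mul_one] at hpe
      have hunit : IsUnit ((p : ℕ) : ↥(A.comap (algebraMap ↥L₀ Qbar))) := hpe ▸ u₁.isUnit
      have hunitA : IsUnit (s18q_comapHom φ A ((p : ℕ) : ↥(A.comap (algebraMap ↥L₀ Qbar)))) :=
        hunit.map _
      rw [map_natCast] at hunitA
      have hnon : ((p : ℕ) : Qbar) ∈ A.nonunits := hA
      rw [ValuationSubring.mem_nonunits_iff_exists_mem_maximalIdeal] at hnon
      obtain ⟨hmem, hmax⟩ := hnon
      rw [IsLocalRing.mem_maximalIdeal, mem_nonunits_iff] at hmax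
      apply hmax
      have : (⟨((p : ℕ) : Qbar), hmem⟩ : ↥A) = ((p : ℕ) : ↥A) := Subtype.ext (by simp)
      rw [this]
      exact hunitA
    · exact hpos
  have hu₁inv : (((u₁ : ↥(A.comap (algebraMap ↥L₀ Qbar))) : ↥L₀))⁻¹ ∈
      A.comap (algebraMap ↥L₀ Qbar) := by
    have h1 : ((u₁ : ↥(A.comap (algebraMap ↥L₀ Qbar))) : ↥L₀) *
        (((u₁⁻¹ : (↥(A.comap (algebraMap ↥L₀ Qbar)))ˣ) :
          ↥(A.comap (algebraMap ↥L₀ Qbar))) : ↥L₀) = 1 := by
      have := congrArg Subtype.val u₁.mul_inv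
      exact this
    rw [inv_eq_of_mul_eq_one_right h1]
    exact ((u₁⁻¹ : (↥(A.comap (algebraMap ↥L₀ Qbar)))ˣ) : ↥(A.comap (algebraMap ↥L₀ Qbar))).2
  have hu₁0 : ((u₁ : ↥(A.comap (algebraMap ↥L₀ Qbar))) : ↥L₀) ≠ 0 := by
    intro h0
    have : (u₁ : ↥(A.comap (algebraMap ↥L₀ Qbar))) = 0 := Subtype.ext h0
    exact u₁.ne_zero this
  have hpu₁ : ((p : ℕ) : ↥L₀) = ((u₁ : ↥(A.comap (algebraMap ↥L₀ Qbar))) : ↥L₀) *
      ((G.ϖ : G.A) : ↥L₀) ^ e := by
    have := congrArg Subtype.val hpe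
    exact this
  -- the series at the level
  have hexs : ∀ (x' : LaurentSeries ↥L₀) (W : LaurentSeries ↥A),
      coeffMap φ x' = coeffMap A.subtype W →
      ∃ y : LaurentSeries ↥G.A, s18g_iota G y = x' ∧ ∀ n, ψ (y.coeff n) = W.coeff n := by
    intro x' W hx'
    have hc : ∀ n, φ (x'.coeff n) = ((W.coeff n : ↥A) : Qbar) := by
      intro n
      have h1 := congrArg (fun s : LaurentSeries Qbar => s.coeff n) hx'
      simpa using h1
    have hm : ∀ n, x'.coeff n ∈ G.A := by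
      intro n
      show x'.coeff n ∈ A.comap φ
      rw [ValuationSubring.mem_comap, hc n]
      exact (W.coeff n).2
    obtain ⟨y, hy⟩ := s18g_exists_iota_eq G x' hm
    refine ⟨y, hy, fun n => ?_⟩
    apply Subtype.ext
    rw [hψcoe, ← hc n, ← hy]
    rfl
  have hcY : coeffMap φ (x1 : LaurentSeries ↥L₀) = coeffMap A.subtype Y :=
    congrArg Subtype.val hx1
  have hcX : coeffMap φ (x2 : LaurentSeries ↥L₀) = coeffMap A.subtype X₀ :=
    congrArg Subtype.val hx2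
  obtain ⟨y1, hy1, hy1c⟩ := hexs _ Y hcY
  obtain ⟨y2, hy2, hy2c⟩ := hexs _ X₀ hcX
  have hy1' : s18g_iota G y1 ∈ laurentBaseChange ↥L₀ F₀ := by rw [hy1]; exact x1.2
  have hy2' : s18g_iota G y2 ∈ laurentBaseChange ↥L₀ F₀ := by rw [hy2]; exact x2.2
  have hxy1 : (⟨s18g_iota G y1, hy1'⟩ : ↥(laurentBaseChange ↥L₀ F₀)) = x1 := Subtype.ext hy1
  -- `λ ≠ 0`
  have hlam0 : lamG ≠ 0 := by
    rintro h0
    apply hp0
    have : ((p : ℕ) : ↥G.A) = 0 := by
      rw [hpu', h0, zero_pow (by have := hp.two_le; omega), mul_zero]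
    exact this
  have hℓ0 : ((lamG : ↥G.A) : ↥L₀) ≠ 0 := fun h0 => hlam0 (Subtype.ext h0)
  have hC0 : (HahnSeries.C (((lamG : ↥G.A) : ↥L₀) ^ p) : LaurentSeries ↥L₀) ≠ 0 :=
    HahnSeries.C_ne_zero (pow_ne_zero p hℓ0)
  -- the third series
  set Z' : LaurentSeries ↥L₀ := (HahnSeries.C (((lamG : ↥G.A) : ↥L₀) ^ p))⁻¹ *
    ((x1 : LaurentSeries ↥L₀) - (x2 : LaurentSeries ↥L₀) ^ p) with hZ'
  have hφlam : φ ((lamG : ↥G.A) : ↥L₀) = ((lam : ↥A) : Qbar) := by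
    rw [← hψcoe, hlamG]
  have hCmap : coeffMap φ (HahnSeries.C (((lamG : ↥G.A) : ↥L₀) ^ p)) =
      coeffMap A.subtype (HahnSeries.C (lam ^ p)) := by
    rw [HahnSeries.C_apply, HahnSeries.C_apply, coeffMap_single, coeffMap_single, map_pow,
      hφlam]
    rfl
  have hcZ : coeffMap φ Z' = coeffMap A.subtype Z := by
    have hne : coeffMap A.subtype (HahnSeries.C (lam ^ p)) ≠ 0 := by
      rw [← hCmap]
      exact (map_ne_zero (coeffMap φ)).mpr hC0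
    rw [hZ', map_mul, map_inv₀, map_sub, map_pow (coeffMap φ), hcY, hcX, hCmap, hrel, map_add,
      map_pow (coeffMap A.subtype), map_mul, add_sub_cancel_left, ← mul_assoc,
      inv_mul_cancel₀ hne, one_mul]
  obtain ⟨z0, hz0, hz0c⟩ := hexs Z' Z hcZ
  -- the relation at the level
  have hrel₀ : y1 = y2 ^ p + HahnSeries.C (lamG ^ p) * z0 := by
    apply s18g_iota_injective G
    rw [map_add, map_pow, map_mul, s18g_iota_C, hy1, hy2, hz0, hZ']
    have : (((lamG ^ p : ↥G.A) : ↥G.A) : ↥L₀) = ((lamG : ↥G.A) : ↥L₀) ^ p := rfl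
    rw [this, ← mul_assoc, mul_inv_cancel₀ hC0, one_mul]
    ring
  -- reductions
  have hY0₀ : s18g_rho G y1 ≠ 0 := by
    intro h0
    apply hY0
    ext n
    rw [coeffMap_coeff, HahnSeries.coeff_zero, ← hy1c n, hψres]
    have h1 := congrArg (fun s : LaurentSeries (IsLocalRing.ResidueField ↥G.A) => s.coeff n) h0
    exact h1
  -- `λ = v ϖ^n₀`
  have hlam0' : @Ne ↥(A.comap (algebraMap ↥L₀ Qbar)) lamG 0 := hlam0
  obtain ⟨n₀, v, hlamv⟩ := IsDiscreteValuationRing.eq_unit_mul_pow_irreducible hlam0' hϖ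
  have hn₀ : 1 ≤ n₀ := by
    rcases Nat.eq_zero_or_pos n₀ with rfl | hpos
    · exfalso
      rw [pow_zero, mul_one] at hlamv
      have hd0 : @Dvd.dvd ↥(A.comap (algebraMap ↥L₀ Qbar)) _ ϖ lamG := hϖlam
      obtain ⟨d, hd⟩ := hd0
      have hunit : IsUnit (ϖ * d) := by
        have h1 : (ϖ * d : ↥(A.comap (algebraMap ↥L₀ Qbar))) = (v : ↥(A.comap (algebraMap ↥L₀ Qbar))) := by
          rw [← hlamv]
          exact hd.symm
        rw [h1]
        exact v.isUnit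
      exact hϖ.not_isUnit (isUnit_of_mul_isUnit_left hunit)
    · exact hpos
  have hvinv : (((v : ↥(A.comap (algebraMap ↥L₀ Qbar))) : ↥L₀))⁻¹ ∈
      A.comap (algebraMap ↥L₀ Qbar) := by
    have h1 : ((v : ↥(A.comap (algebraMap ↥L₀ Qbar))) : ↥L₀) *
        (((v⁻¹ : (↥(A.comap (algebraMap ↥L₀ Qbar)))ˣ) :
          ↥(A.comap (algebraMap ↥L₀ Qbar))) : ↥L₀) = 1 := by
      have := congrArg Subtype.val v.mul_inv
      exact this
    rw [inv_eq_of_mul_eq_one_right h1]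
    exact ((v⁻¹ : (↥(A.comap (algebraMap ↥L₀ Qbar)))ˣ) : ↥(A.comap (algebraMap ↥L₀ Qbar))).2
  have hv0 : ((v : ↥(A.comap (algebraMap ↥L₀ Qbar))) : ↥L₀) ≠ 0 := by
    intro h0
    have : (v : ↥(A.comap (algebraMap ↥L₀ Qbar))) = 0 := Subtype.ext h0
    exact v.ne_zero this
  have hlamv' : ((lamG : ↥G.A) : ↥L₀) = ((v : ↥(A.comap (algebraMap ↥L₀ Qbar))) : ↥L₀) *
      ((G.ϖ : G.A) : ↥L₀) ^ n₀ := by
    have := congrArg Subtype.val hlamv
    exact this
  -- units `u`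
  have huG0 : ((uG : ↥G.A) : ↥L₀) ≠ 0 := by
    intro h0
    have h1 : uG = 0 := Subtype.ext h0
    rw [h1, zero_mul] at huinv'
    exact zero_ne_one huinv'
  have huGinv : (((uG : ↥G.A) : ↥L₀))⁻¹ ∈ G.A := by
    have h1 : ((uG : ↥G.A) : ↥L₀) * ((vG : ↥G.A) : ↥L₀) = 1 := congrArg Subtype.val huinv'
    rw [inv_eq_of_mul_eq_one_right h1]
    exact vG.2
  have hpuL : ((p : ℕ) : ↥L₀) = ((uG : ↥G.A) : ↥L₀) * ((lamG : ↥G.A) : ↥L₀) ^ (p - 1) := by
    have := congrArg Subtype.val hpu'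
    exact this
  -- the elements of the Gauss ring
  set V := s18g_V G (laurentBaseChange ↥L₀ F₀) hFrac with hV
  have hz0' : s18g_iota G z0 ∈ laurentBaseChange ↥L₀ F₀ := by
    rw [hz0, hZ']
    refine (laurentBaseChange ↥L₀ F₀).mul_mem ((laurentBaseChange ↥L₀ F₀).inv_mem ?_)
      ((laurentBaseChange ↥L₀ F₀).sub_mem x1.2 ((laurentBaseChange ↥L₀ F₀).pow_mem x2.2 p))
    have : (HahnSeries.C (((lamG : ↥G.A) : ↥L₀) ^ p) : LaurentSeries ↥L₀) =
        algebraMap ↥L₀ (LaurentSeries ↥L₀) (((lamG : ↥G.A) : ↥L₀) ^ p) := by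
      rw [algebraMap_laurentSeries_eq_single]
      rfl
    rw [this]
    exact (laurentBaseChange ↥L₀ F₀).algebraMap_mem _
  set hh : ↥(laurentBaseChange ↥L₀ F₀) := ⟨s18g_iota G y1, hy1'⟩ with hhdef
  set aa : ↥(laurentBaseChange ↥L₀ F₀) := ⟨s18g_iota G y2, hy2'⟩ with haadef
  set cc : ↥(laurentBaseChange ↥L₀ F₀) := ⟨s18g_iota G z0, hz0'⟩ with hccdef
  have hhV : hh ∈ V := s18g_iota_mem_V G _ hFrac y1 hy1'
  have haV : aa ∈ V := s18g_iota_mem_V G _ hFrac y2 hy2'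
  have hcV : cc ∈ V := s18g_iota_mem_V G _ hFrac z0 hz0'
  have hhunit : IsUnit (⟨hh, hhV⟩ : ↥V) :=
    (s18g_isUnit_V_iff G _ hFrac ⟨hh, hhV⟩).mpr (by
      rw [show s18g_redV G _ hFrac ⟨hh, hhV⟩ = s18g_rho G y1 from s18g_redV_iota G _ hFrac y1 hy1']
      exact hY0₀)
  obtain ⟨hinvV, hhinvV⟩ := hhunit.exists_right_inv
  have hh0 : hh ≠ 0 := by
    intro h0
    have : (⟨hh, hhV⟩ : ↥V) = 0 := Subtype.ext h0
    rw [this] at hhunit
    exact not_isUnit_zero hhunit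
  have hhinv : hh⁻¹ ∈ V := by
    have h1 : hh * (hinvV : ↥(laurentBaseChange ↥L₀ F₀)) = 1 := congrArg Subtype.val hhinvV
    rw [inv_eq_of_mul_eq_one_right h1]
    exact hinvV.2
  have hrelF : hh = aa ^ p + algebraMap ↥L₀ ↥(laurentBaseChange ↥L₀ F₀)
      ((lamG : ↥G.A) : ↥L₀) ^ p * cc := by
    apply Subtype.ext
    show s18g_iota G y1 = _
    rw [hrel₀, map_add, map_pow, map_mul, s18g_iota_C]
    simp only [haadef, hccdef, MulMemClass.coe_mul, AddMemClass.coe_add, SubmonoidClass.coe_pow]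
    congr 2
    show _ = ((algebraMap ↥L₀ ↥(laurentBaseChange ↥L₀ F₀) ((lamG : ↥G.A) : ↥L₀) :
      ↥(laurentBaseChange ↥L₀ F₀)) : LaurentSeries ↥L₀) ^ p
    rw [s18g_coe_algebraMap, ← map_pow]
  -- restriction of places
  haveI := s18q_isAlgebraic_over L₀
  have hxh : s18q_map φ F₀ hh = ⟨coeffMap A.subtype Y, hY⟩ := by
    rw [show hh = x1 from hxy1, hx1]
  have hxa : s18q_map φ F₀ aa = ⟨coeffMap A.subtype X₀, hX⟩ := by
    rw [show aa = x2 from Subtype.ext hy2, hx2]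
  have hdiv0 : ∀ Q : Place ↥L₀ ↥(laurentBaseChange ↥L₀ F₀), (p : ℤ) ∣ Q.ord hh := by
    apply s18x_dvd_of_restrict (s18q_map φ F₀) (s18q_restrictGen ↥L₀ F₀)
      (s18q_restrictGen_surjective ↥L₀ F₀) (fun P f => s18q_ord_restrictGen ↥L₀ F₀ P f)
    intro P
    rw [hxh]
    exact hdivP P
  -- the finite-level approximant
  obtain ⟨x, hxI, y, hyV, hxy⟩ := s48c_wapp_chart G.A V (s18f_const_mem_V G _ hFrac) G.ϖ
    (s18g_unifK_ne_zero G) (s18_chart1 (L₀ := ↥L₀) t) hp lamG uG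
    (v : ↥(A.comap (algebraMap ↥L₀ Qbar))) huGinv huG0 hvinv hv0 n₀ hn₀ hpuL hlamv'
    hh aa cc hhV hhinv hh0 hdiv0 haV hcV hrelF hIC (hinvE hh hh0)
  -- transfer to the top
  refine ⟨s18q_map φ F₀ x, ⟨hVO x hxI.1, ?_⟩, s18q_map φ F₀ y, hVO y hyV, ?_⟩
  · intro P hP
    have hPt : s18q_restrictGen ↥L₀ F₀ P ∈ s18_chart1 (L₀ := ↥L₀) t := by
      show t ∈ (s18q_restrictGen ↥L₀ F₀ P).toValuationSubring
      rw [s18q_mem_restrictGen, htw]
      exact hP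
    rcases hxI.2 _ hPt with h0 | hle
    · left
      rw [h0, map_zero]
    · right
      rw [s18q_ord_restrictGen ↥L₀ F₀ P x]
      have : s18_E (⟨coeffMap A.subtype Y, hY⟩ : ↥(laurentBaseChange Qbar F₀)) p P =
          s18_E hh p (s18q_restrictGen ↥L₀ F₀ P) := by
        rw [s18_E, s18_E, ← hxh, s18q_ord_restrictGen ↥L₀ F₀ P hh]
      rw [this]
      exact hle
  · rw [← hxa, ← map_sub, hxy, map_mul, s18q_map_algebraMap, hφlam]

end Fermat.Agent.Lib.S48
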