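/-
DS-1 (S48), wall [T9] (helper9), part 13: **the [II] adapter in the q-model language** (helper7's
`s48d_QPack`, `s48d_qO`, `s48d_qRed`, file `DQDefs`; residue map `π = IsLocalRing.residue A`).

* `s48c_q_wkummer`  : wild Kummer triviality `s48c_WKummerTrivial A F p` for Gauss-integral
  FUNCTIONS (quotients of integral series): `y = x₀^p + λ^p z`, `red z = 0`, `red y ≠ 0`,
  `p ∣ div y` ⇒ `y = c · w^p`;
* `s48c_q_wnoroot`  : **[II]**: if `h = a^p + λ^p z` (`a, z, h` Gauss-integral, `red h ≠ 0`,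
  `p ∣ div h`) is not of the form `c · w^p` in `F`, the Artin–Schreier trinomial
  `X^p + γ X - β`, `γ = red (u a^(p-1))`, `β = red ((h - a^p)/λ^p)`, has no root in `Fb`;
* `s48c_q_windep`   : hence (`s48c_as_indep`) the powers `1, tb, …, tb^(p-1)` of a root `tb` are
  linearly independent over `Fb` — the field `indep` of `s48g_LayerData` for a wild layer
  (`t = (τ - a)/λ`, `tb = ρ t`, `htb` as in helper1's `s48a_chartPack_wild`).
-/
import Fermat.Agent.Lib.S48.WildII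
import Fermat.Agent.Lib.S48.DQDefs

set_option autoImplicit false
set_option linter.unusedSectionVars false
set_option linter.style.haveILetI false

noncomputable section

namespace Fermat.Agent.Lib.S48

open AlgebraicCurve ModularCurve HahnSeries Fermat.Agent.Lib.FF Fermat.Agent.Lib.S37

variable {K : Type*} [Field K] {A : ValuationSubring K}
  {F : IntermediateField K (LaurentSeries K)}
  {Fb : IntermediateField (IsLocalRing.ResidueField ↥A)
    (LaurentSeries (IsLocalRing.ResidueField ↥A))}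

/-- the constant series of `a ∈ A` is the constant `a` of `K((q))`. -/
theorem s48c_q_iota_C (a : ↥A) :
    coeffMap A.subtype (HahnSeries.C a) = algebraMap K (LaurentSeries K) (a : K) := by
  rw [HahnSeries.C_apply, coeffMap_single, algebraMap_laurentSeries_eq_single]
  rfl

/-- constants of `A` are Gauss-integral. -/
theorem s48c_q_const_mem (Q : s48d_QPack A (IsLocalRing.residue ↥A) F Fb) (a : ↥A) :
    algebraMap K ↥F (a : K) ∈ s48d_qO Q := by
  show ((algebraMap K ↥F (a : K) : ↥F) : LaurentSeries K) ∈ s37r_O A (IsLocalRing.residue ↥A)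
  have : ((algebraMap K ↥F (a : K) : ↥F) : LaurentSeries K) =
      coeffMap A.subtype (HahnSeries.C a) := by
    rw [s48c_q_iota_C]
    rfl
  rw [this]
  exact s37r_iota_mem_O A _ _

/-- the reduction of a constant. -/
theorem s48c_q_redV_const (Q : s48d_QPack A (IsLocalRing.residue ↥A) F Fb) (a : ↥A) :
    s48d_qRedV Q ⟨algebraMap K ↥F (a : K), s48c_q_const_mem Q a⟩ =
      HahnSeries.C (IsLocalRing.residue ↥A a) := by
  rw [s48d_qRedV_eq Q _ (HahnSeries.C a) 1 (by rw [map_one]; exact one_ne_zero)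
    (by
      rw [map_one, one_mul, s48c_q_iota_C]
      rfl)]
  rw [map_one, div_one, HahnSeries.C_apply, coeffMap_single, HahnSeries.C_apply]

/-- constants of the maximal ideal reduce to `0`. -/
theorem s48c_q_red_const_zero (Q : s48d_QPack A (IsLocalRing.residue ↥A) F Fb) (a : ↥A)
    (ha : a ∈ IsLocalRing.maximalIdeal ↥A) :
    s48d_qRed Q ⟨algebraMap K ↥F (a : K), s48c_q_const_mem Q a⟩ = 0 := by
  apply Subtype.ext
  rw [s48d_coe_qRed, s48c_q_redV_const, (IsLocalRing.residue_eq_zero_iff _).mpr ha, map_zero]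
  rfl

/-- **wild Kummer triviality for Gauss-integral functions.** -/
theorem s48c_q_wkummer (Q : s48d_QPack A (IsLocalRing.residue ↥A) F Fb) {p : ℕ} (hp : p.Prime)
    (hW : s48c_WKummerTrivial A F p) (lam u uinv : ↥A) (huinv : u * uinv = 1)
    (hpu : ((p : ℕ) : ↥A) = u * lam ^ (p - 1)) (hlam : lam ∈ IsLocalRing.maximalIdeal ↥A)
    (y x₀ z : ↥F) (hyO : y ∈ s48d_qO Q) (hxO : x₀ ∈ s48d_qO Q) (hzO : z ∈ s48d_qO Q)
    (hrel : y = x₀ ^ p + algebraMap K ↥F ((lam : ↥A) : K) ^ p * z)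
    (hz : s48d_qRed Q ⟨z, hzO⟩ = 0) (hy : s48d_qRed Q ⟨y, hyO⟩ ≠ 0)
    (hdivP : ∀ P : Place K ↥F, (p : ℤ) ∣ P.ord y) :
    ∃ (c : K) (w : ↥F), y = algebraMap K ↥F c * w ^ p := by
  classical
  obtain ⟨Y₁, Y₂, hY1, hY2, -, -, hY2ne, hYrel⟩ := Q.pres y hyO
  obtain ⟨X₁, X₂, hX1, hX2, -, -, hX2ne, hXrel⟩ := Q.pres x₀ hxO
  obtain ⟨Z₁, Z₂, hZ1, hZ2, -, -, hZ2ne, hZrel⟩ := Q.pres z hzO
  -- reductions
  have hZ1z : coeffMap (IsLocalRing.residue ↥A) Z₁ = 0 := by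
    have h := s48d_qRedV_eq Q ⟨z, hzO⟩ Z₁ Z₂ hZ2ne hZrel
    have h0 : s48d_qRedV Q ⟨z, hzO⟩ = 0 := by
      rw [← s48d_coe_qRed, hz]
      rfl
    rw [h0] at h
    rcases div_eq_zero_iff.mp h.symm with h1 | h1
    · exact h1
    · exact absurd h1 hZ2ne
  have hY1ne : coeffMap (IsLocalRing.residue ↥A) Y₁ ≠ 0 := by
    intro h0
    apply hy
    apply Subtype.ext
    rw [s48d_coe_qRed, s48d_qRedV_eq Q ⟨y, hyO⟩ Y₁ Y₂ hY2ne hYrel, h0, zero_div]
    rfl
  have hy0 : y ≠ 0 := by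
    rintro rfl
    apply hy
    have : (⟨0, hyO⟩ : ↥(s48d_qO Q)) = 0 := rfl
    rw [this, map_zero]
  obtain ⟨q, rfl⟩ : ∃ q, p = q + 1 := ⟨p - 1, by have := hp.pos; omega⟩
  obtain ⟨D, hD⟩ : ∃ D : LaurentSeries ↥A, D = Y₂ * X₂ * Z₂ := ⟨_, rfl⟩
  obtain ⟨Y', hY'⟩ : ∃ Y' : LaurentSeries ↥A, Y' = Y₁ * Y₂ ^ q * (X₂ * Z₂) ^ (q + 1) := ⟨_, rfl⟩
  obtain ⟨X', hX'⟩ : ∃ X' : LaurentSeries ↥A, X' = X₁ * Y₂ * Z₂ := ⟨_, rfl⟩
  obtain ⟨Z', hZ'⟩ : ∃ Z' : LaurentSeries ↥A, Z' = Z₁ * Z₂ ^ q * (Y₂ * X₂) ^ (q + 1) := ⟨_, rfl⟩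
  have hιY' : coeffMap A.subtype Y' = (y : LaurentSeries K) * (coeffMap A.subtype D) ^ (q + 1) := by
    rw [hY', hD, map_mul, map_mul, map_pow, map_pow, map_mul, map_mul, map_mul, ← hYrel]
    ring
  have hιX' : coeffMap A.subtype X' = (x₀ : LaurentSeries K) * coeffMap A.subtype D := by
    rw [hX', hD, map_mul, map_mul, map_mul, map_mul, ← hXrel]
    ring
  have hιZ' : coeffMap A.subtype Z' = (z : LaurentSeries K) * (coeffMap A.subtype D) ^ (q + 1) := by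
    rw [hZ', hD, map_mul, map_mul, map_pow, map_pow, map_mul, map_mul, map_mul, ← hZrel]
    ring
  have hDF : coeffMap A.subtype D ∈ F := by
    rw [hD, map_mul, map_mul]
    exact F.mul_mem (F.mul_mem hY2 hX2) hZ2
  have hY'F : coeffMap A.subtype Y' ∈ F := by
    rw [hιY']
    exact F.mul_mem y.2 (pow_mem hDF _)
  have hX'F : coeffMap A.subtype X' ∈ F := by
    rw [hιX']
    exact F.mul_mem x₀.2 hDF
  -- the relation for the integral series
  have hrelV : (y : LaurentSeries K) = (x₀ : LaurentSeries K) ^ (q + 1) +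
      algebraMap K (LaurentSeries K) ((lam : ↥A) : K) ^ (q + 1) * (z : LaurentSeries K) :=
    congrArg Subtype.val hrel
  have hrel' : Y' = X' ^ (q + 1) + HahnSeries.C (lam ^ (q + 1)) * Z' := by
    apply s37r_iota_injective A
    rw [map_add, map_pow, map_mul, hιY', hιX', hιZ', s48c_q_iota_C, hrelV,
      show ((lam ^ (q + 1) : ↥A) : K) = ((lam : ↥A) : K) ^ (q + 1) from rfl, map_pow]
    ring
  -- reductions of the integral series
  have hρD : coeffMap (IsLocalRing.residue ↥A) D ≠ 0 := by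
    rw [hD, map_mul, map_mul]
    exact mul_ne_zero (mul_ne_zero hY2ne hX2ne) hZ2ne
  have hρZ' : coeffMap (IsLocalRing.residue ↥A) Z' = 0 := by
    rw [hZ', map_mul, map_mul, hZ1z, zero_mul, zero_mul]
  have hρY' : coeffMap (IsLocalRing.residue ↥A) Y' ≠ 0 := by
    rw [hY', map_mul, map_mul, map_pow, map_pow, map_mul]
    exact mul_ne_zero (mul_ne_zero hY1ne (pow_ne_zero _ hY2ne))
      (pow_ne_zero _ (mul_ne_zero hX2ne hZ2ne))
  -- the divisor
  set d : ↥F := ⟨coeffMap A.subtype D, hDF⟩ with hd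
  have hd0 : d ≠ 0 := by
    intro h0
    apply hρD
    have h0' : coeffMap A.subtype D = 0 := congrArg Subtype.val h0
    have : D = 0 := s37r_iota_injective A (by rw [h0', map_zero])
    rw [this, map_zero]
  have hYd : (⟨coeffMap A.subtype Y', hY'F⟩ : ↥F) = y * d ^ (q + 1) := Subtype.ext hιY'
  have hdivP' : ∀ P : Place K ↥F,
      ((q + 1 : ℕ) : ℤ) ∣ P.ord (⟨coeffMap A.subtype Y', hY'F⟩ : ↥F) := by
    intro P
    rw [hYd, P.ord_mul hy0 (pow_ne_zero _ hd0), s48d_ord_pow]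
    exact dvd_add (hdivP P) (dvd_mul_right _ _)
  obtain ⟨c, w, hcw⟩ := hW lam u uinv Y' X' Z' hY'F hX'F huinv hpu hlam hrel' hρZ' hρY' hdivP'
  refine ⟨c, w / d, ?_⟩
  rw [hYd] at hcw
  rw [div_pow, ← mul_div_assoc, ← hcw, mul_div_assoc, div_self (pow_ne_zero _ hd0), mul_one]

/-- **[II] in the q-model: no Artin–Schreier root in `Fb`.** -/
theorem s48c_q_wnoroot (Q : s48d_QPack A (IsLocalRing.residue ↥A) F Fb) {p : ℕ} (hp : p.Prime)
    (hW : s48c_WKummerTrivial A F p) (lam u uinv : ↥A) (huinv : u * uinv = 1)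
    (hpu : ((p : ℕ) : ↥A) = u * lam ^ (p - 1)) (hlam : lam ∈ IsLocalRing.maximalIdeal ↥A)
    (hlam0 : lam ≠ 0)
    (a h : ↥F) (haO : a ∈ s48d_qO Q) (hhO : h ∈ s48d_qO Q)
    (hzO : (h - a ^ p) / algebraMap K ↥F ((lam : ↥A) : K) ^ p ∈ s48d_qO Q)
    (hgO : algebraMap K ↥F ((u : ↥A) : K) * a ^ (p - 1) ∈ s48d_qO Q)
    (hhred : s48d_qRed Q ⟨h, hhO⟩ ≠ 0)
    (hdivP : ∀ P : Place K ↥F, (p : ℤ) ∣ P.ord h)
    (hnot : ¬ ∃ (c : K) (w : ↥F), h = algebraMap K ↥F c * w ^ p)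
    (c : ↥Fb) :
    c ^ p + s48d_qRed Q ⟨_, hgO⟩ * c ≠ s48d_qRed Q ⟨_, hzO⟩ := by
  intro hroot
  apply hnot
  obtain ⟨bq, hbq⟩ := s48d_qRed_surjective Q c
  set aQ : ↥(s48d_qO Q) := ⟨a, haO⟩ with haQ
  set lamQ : ↥(s48d_qO Q) := ⟨algebraMap K ↥F ((lam : ↥A) : K), s48c_q_const_mem Q lam⟩ with hlamQ
  set uQ : ↥(s48d_qO Q) := ⟨algebraMap K ↥F ((u : ↥A) : K), s48c_q_const_mem Q u⟩ with huQ
  set zQ : ↥(s48d_qO Q) := ⟨_, hzO⟩ with hzQ
  set gQ : ↥(s48d_qO Q) := ⟨_, hgO⟩ with hgQ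
  have hgQ' : gQ = uQ * aQ ^ (p - 1) := Subtype.ext rfl
  obtain ⟨w, hw⟩ := s48c_wbinom hp aQ (lamQ * bq)
  set ZQ : ↥(s48d_qO Q) := zQ - bq ^ p - uQ * aQ ^ (p - 1) * bq - uQ * lamQ * bq ^ 2 * w with hZQ
  have hlamF0 : algebraMap K ↥F ((lam : ↥A) : K) ≠ 0 := by
    rw [Ne, map_eq_zero]
    exact fun h0 => hlam0 (Subtype.ext h0)
  have hpQ : ((p : ℕ) : ↥(s48d_qO Q)) = uQ * lamQ ^ (p - 1) := by
    apply Subtype.ext
    show ((p : ℕ) : ↥F) =
      algebraMap K ↥F ((u : ↥A) : K) * algebraMap K ↥F ((lam : ↥A) : K) ^ (p - 1)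
    rw [← map_pow, ← map_mul, ← map_natCast (algebraMap K ↥F)]
    congr 1
    exact congrArg Subtype.val hpu
  have hlamred : s48d_qRed Q lamQ = 0 := s48c_q_red_const_zero Q lam hlam
  refine s48c_q_wkummer Q hp hW lam u uinv huinv hpu hlam h ((aQ + lamQ * bq : ↥(s48d_qO Q)) : ↥F)
    (ZQ : ↥F) hhO (aQ + lamQ * bq).2 ZQ.2 ?_ ?_ hhred hdivP
  · -- the relation
    have hwF := congrArg (fun x : ↥(s48d_qO Q) => (x : ↥F)) hw
    have hzF : algebraMap K ↥F ((lam : ↥A) : K) ^ p * (zQ : ↥F) = h - a ^ p := by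
      show algebraMap K ↥F ((lam : ↥A) : K) ^ p *
        ((h - a ^ p) / algebraMap K ↥F ((lam : ↥A) : K) ^ p) = h - a ^ p
      rw [mul_div_cancel₀ _ (pow_ne_zero p hlamF0)]
    obtain ⟨q, rfl⟩ : ∃ q, p = q + 2 := ⟨p - 2, by have := hp.two_le; omega⟩
    have hq : q + 2 - 1 = q + 1 := by omega
    rw [hq] at hpQ hw hwF hZQ
    rw [hpQ] at hwF
    push_cast at hwF
    rw [hZQ]
    push_cast
    rw [hwF]
    have e1 : ((lamQ : ↥(s48d_qO Q)) : ↥F) = algebraMap K ↥F ((lam : ↥A) : K) := rfl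
    have e2 : ((aQ : ↥(s48d_qO Q)) : ↥F) = a := rfl
    rw [e1] at *
    rw [e2]
    have hzF' : algebraMap K ↥F ((lam : ↥A) : K) ^ (q + 2) * (zQ : ↥F) = h - a ^ (q + 2) := hzF
    linear_combination (-1 : ↥F) * hzF'
  · -- the reduction of `ZQ`
    have : (⟨(ZQ : ↥F), ZQ.2⟩ : ↥(s48d_qO Q)) = ZQ := rfl
    have hg' : s48d_qRed Q gQ = s48d_qRed Q uQ * s48d_qRed Q aQ ^ (p - 1) := by
      rw [hgQ', map_mul, map_pow]
    rw [this, hZQ]
    simp only [map_sub, map_mul, map_pow]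
    rw [hlamred, hbq, ← hroot, hg']
    ring

/-- **the `indep` field of the wild layer datum.** -/
theorem s48c_q_windep (Q : s48d_QPack A (IsLocalRing.residue ↥A) F Fb) {p : ℕ} [Fact p.Prime]
    (hW : s48c_WKummerTrivial A F p) (lam u uinv : ↥A) (huinv : u * uinv = 1)
    (hpu : ((p : ℕ) : ↥A) = u * lam ^ (p - 1)) (hlam : lam ∈ IsLocalRing.maximalIdeal ↥A)
    (hlam0 : lam ≠ 0)
    (a h : ↥F) (haO : a ∈ s48d_qO Q) (hhO : h ∈ s48d_qO Q)
    (hzO : (h - a ^ p) / algebraMap K ↥F ((lam : ↥A) : K) ^ p ∈ s48d_qO Q)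
    (hgO : algebraMap K ↥F ((u : ↥A) : K) * a ^ (p - 1) ∈ s48d_qO Q)
    (hhred : s48d_qRed Q ⟨h, hhO⟩ ≠ 0)
    (hdivP : ∀ P : Place K ↥F, (p : ℤ) ∣ P.ord h)
    (hnot : ¬ ∃ (c : K) (w : ↥F), h = algebraMap K ↥F c * w ^ p)
    {Fb' : Type*} [Field Fb'] [Algebra ↥Fb Fb'] (tb : Fb')
    (htb : tb ^ p + algebraMap ↥Fb Fb' (s48d_qRed Q ⟨_, hgO⟩) * tb =
      algebraMap ↥Fb Fb' (s48d_qRed Q ⟨_, hzO⟩)) :
    LinearIndependent ↥Fb (fun i : Fin p => tb ^ (i : ℕ)) := by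
  have hp : p.Prime := Fact.out
  have hlamF0 : algebraMap K ↥F ((lam : ↥A) : K) ≠ 0 := by
    rw [Ne, map_eq_zero]
    exact fun h0 => hlam0 (Subtype.ext h0)
  have hlamred : s48d_qRed Q ⟨_, s48c_q_const_mem Q lam⟩ = 0 := s48c_q_red_const_zero Q lam hlam
  -- the residue characteristic
  haveI : CharP ↥Fb p := by
    rw [CharP.charP_iff_prime_eq_zero hp]
    have h1 : ((p : ℕ) : ↥(s48d_qO Q)) =
        ⟨_, s48c_q_const_mem Q u⟩ * ⟨_, s48c_q_const_mem Q lam⟩ ^ (p - 1) := by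
      apply Subtype.ext
      show ((p : ℕ) : ↥F) =
        algebraMap K ↥F ((u : ↥A) : K) * algebraMap K ↥F ((lam : ↥A) : K) ^ (p - 1)
      rw [← map_pow, ← map_mul, ← map_natCast (algebraMap K ↥F)]
      congr 1
      exact congrArg Subtype.val hpu
    have h2 := congrArg (s48d_qRed Q) h1
    rw [map_natCast, map_mul, map_pow, hlamred,
      zero_pow (by have := hp.two_le; omega), mul_zero] at h2
    exact h2
  -- `γ ≠ 0`
  have hγ : s48d_qRed Q ⟨_, hgO⟩ ≠ 0 := by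
    have e : (⟨_, hgO⟩ : ↥(s48d_qO Q)) =
        ⟨_, s48c_q_const_mem Q u⟩ * (⟨a, haO⟩ : ↥(s48d_qO Q)) ^ (p - 1) := Subtype.ext rfl
    rw [e, map_mul, map_pow]
    refine mul_ne_zero ?_ (pow_ne_zero _ ?_)
    · intro h0
      have e1 : (⟨_, s48c_q_const_mem Q u⟩ : ↥(s48d_qO Q)) * ⟨_, s48c_q_const_mem Q uinv⟩ = 1 := by
        apply Subtype.ext
        show algebraMap K ↥F ((u : ↥A) : K) * algebraMap K ↥F ((uinv : ↥A) : K) = 1
        rw [← map_mul, ← MulMemClass.coe_mul, huinv, OneMemClass.coe_one, map_one]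
      have := congrArg (s48d_qRed Q) e1
      rw [map_mul, h0, zero_mul, map_one] at this
      exact zero_ne_one this
    · intro h0
      apply hhred
      have e2 : (⟨h, hhO⟩ : ↥(s48d_qO Q)) = (⟨a, haO⟩ : ↥(s48d_qO Q)) ^ p +
          ⟨_, s48c_q_const_mem Q lam⟩ ^ p * ⟨_, hzO⟩ := by
        apply Subtype.ext
        show h = a ^ p + algebraMap K ↥F ((lam : ↥A) : K) ^ p *
          ((h - a ^ p) / algebraMap K ↥F ((lam : ↥A) : K) ^ p)
        rw [mul_div_cancel₀ _ (pow_ne_zero p hlamF0)]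
        ring
      rw [e2, map_add, map_pow, map_mul, map_pow, h0, hlamred, zero_pow hp.ne_zero, zero_mul,
        add_zero]
  exact s48c_as_indep p _ _ hγ tb htb
    (fun c => s48c_q_wnoroot Q hp hW lam u uinv huinv hpu hlam hlam0 a h haO hhO hzO hgO hhred
      hdivP hnot c)

end Fermat.Agent.Lib.S48
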