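/-
DS-1 (S48), wall [T9] (helper9), part 12 = (W2) in helper1's `s48a_WApp` shape: **`λ`-adic `p`-th root
closedness of a chart ring** (lattice-free regime I of [KC-p]).

* `s48c_wroot_approx` (Mathlib only): `R` a domain, `B ⊆ R` a `π`-pure subring closed mod `π` under
  `p`-th roots, `p = u π^e`; `ξ^p ≡ c₀ mod π^N`, `c₀ ∈ B` ⇒ `ξ ≡ b mod π^n`, `b ∈ B`, as long as all
  steps `k < n` are in regime I (`k p + 1 ≤ k + e`) with precision `k p + 1 ≤ N`;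
* `s48c_wroot_chart` (S18 vocabulary, finite level): `λ = v ϖ^n₀`, `p = u λ^(p-1)`:
  `y ∈ O`, `c₀ ∈ s18_ring O S`, `y^p - c₀ ∈ λ^p O` ⇒ `∃ b' ∈ s18_ring O S, y - b' ∈ λ O`.
-/
import Fermat.Agent.Lib.S48.WildGauss

set_option autoImplicit false
set_option linter.unusedSectionVars false
set_option linter.style.haveILetI false

noncomputable section

namespace Fermat.Agent.Lib.S48

open AlgebraicCurve Fermat.Agent.Lib.FF Fermat.Agent.Lib.S18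

/-- **lattice-free regime I of [KC-p].** -/
theorem s48c_wroot_approx {R : Type*} [CommRing R] [IsDomain R] (B : Subring R) (π : R) {p : ℕ}
    (hp : p.Prime) (hπB : π ∈ B) (hπ0 : π ≠ 0)
    (hpureB : ∀ b ∈ B, π ∣ b → ∃ b' ∈ B, b = π * b')
    (hroot : ∀ x : R, ∀ c ∈ B, π ∣ x ^ p - c → ∃ b' ∈ B, π ∣ x - b')
    (e : ℕ) (u : R) (hpu : (p : R) = u * π ^ e)
    (c₀ : R) (hc₀ : c₀ ∈ B) (N : ℕ) (ξ : R) (hξN : π ^ N ∣ ξ ^ p - c₀) :
    ∀ n : ℕ, (∀ k < n, k * p + 1 ≤ N ∧ k * p + 1 ≤ k + e) → ∃ b ∈ B, π ^ n ∣ ξ - b := by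
  obtain ⟨y₀, hy₀⟩ := hξN
  intro n
  induction n with
  | zero => intro _; exact ⟨0, B.zero_mem, by rw [pow_zero]; exact one_dvd _⟩
  | succ n ih =>
    intro hN
    obtain ⟨b, hb, z, hz⟩ := ih fun k hk => hN k (by omega)
    obtain ⟨hN1, hN2⟩ := hN n (Nat.lt_succ_self n)
    obtain ⟨k, hk⟩ : ∃ k, n * p = k := ⟨_, rfl⟩
    rw [hk] at hN1 hN2
    obtain ⟨r, hr⟩ : ∃ r, n + e = k + 1 + r := ⟨n + e - (k + 1), by omega⟩
    obtain ⟨s, hs⟩ : ∃ s, N = k + 1 + s := ⟨N - (k + 1), by omega⟩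
    obtain ⟨w, hw⟩ := s48c_wbinom hp b (π ^ n * z)
    have hξ : b + π ^ n * z = ξ := by linear_combination -hz
    rw [hξ] at hw
    have e0 : (π ^ n * z) ^ p = π ^ k * z ^ p := by rw [mul_pow, ← pow_mul, hk]
    have E1 : π ^ e * π ^ n = π ^ k * (π * π ^ r) := by
      rw [← pow_add, ← pow_succ', ← pow_add]; congr 1; omega
    have E2 : π ^ N = π ^ k * (π * π ^ s) := by
      rw [hs, ← pow_succ', ← pow_add]; congr 1; omega
    set G : R := z ^ p + π * (u * π ^ r * b ^ (p - 1) * z + u * π ^ r * π ^ n * z ^ 2 * w -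
      π ^ s * y₀) with hG
    have key : c₀ - b ^ p = π ^ k * G := by
      rw [hG]
      rw [hpu] at hw
      linear_combination hw - hy₀ + e0 + (u * b ^ (p - 1) * z + u * π ^ n * z ^ 2 * w) * E1 -
        y₀ * E2
    obtain ⟨γ, hγB, hγ⟩ := s48c_wpure_pow B π hπ0 hpureB k (c₀ - b ^ p)
      (B.sub_mem hc₀ (B.pow_mem hb p)) ⟨G, key⟩
    have hG2 : γ = G := by
      have h3 : π ^ k * γ = π ^ k * G := by rw [← key, hγ]
      exact mul_left_cancel₀ (pow_ne_zero _ hπ0) h3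
    obtain ⟨b'', hb'', d, hd⟩ := hroot z γ hγB
      ⟨-(u * π ^ r * b ^ (p - 1) * z + u * π ^ r * π ^ n * z ^ 2 * w - π ^ s * y₀), by
        rw [hG2, hG]; ring⟩
    refine ⟨b + π ^ n * b'', B.add_mem hb (B.mul_mem (B.pow_mem hπB n) hb''), d, ?_⟩
    rw [pow_succ]
    linear_combination hz + π ^ n * hd

variable {L₀ 𝓕 : Type*} [Field L₀] [Field 𝓕] [Algebra L₀ 𝓕]

/-- **(W2) in `WApp` shape, finite level.** -/
theorem s48c_wroot_chart (A₀ : ValuationSubring L₀) (O : ValuationSubring 𝓕)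
    (hAO : ∀ a : A₀, algebraMap L₀ 𝓕 (a : L₀) ∈ O)
    (ϖ : A₀) (hϖ0 : (ϖ : L₀) ≠ 0)
    (S : Set (Place L₀ 𝓕)) {p : ℕ} (hp : p.Prime)
    (lam u v : A₀) (hv : ((v : L₀))⁻¹ ∈ A₀) (hv0 : (v : L₀) ≠ 0)
    (n₀ : ℕ) (hn₀ : 1 ≤ n₀)
    (hpu : (p : L₀) = (u : L₀) * (lam : L₀) ^ (p - 1))
    (hlam : (lam : L₀) = (v : L₀) * (ϖ : L₀) ^ n₀)
    (hIC : s48c_WClosed O S (algebraMap L₀ 𝓕 (ϖ : L₀)) p)
    (y c₀ : 𝓕) (hy : y ∈ O) (hc₀ : c₀ ∈ s18_ring O S)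
    (hyc : ∃ z ∈ O, y ^ p - c₀ = algebraMap L₀ 𝓕 (lam : L₀) ^ p * z) :
    ∃ b' ∈ s18_ring O S, ∃ z ∈ O, y - b' = algebraMap L₀ 𝓕 (lam : L₀) * z := by
  classical
  have hp2 := hp.two_le
  set π : 𝓕 := algebraMap L₀ 𝓕 (ϖ : L₀) with hπdef
  have hπ0 : π ≠ 0 := by rw [hπdef]; simpa using hϖ0
  have hπO : π ∈ O := hAO ϖ
  have hBO : s18_ring O S ≤ O.toSubring := s18_ring_le O S
  have hconst : ∀ a : A₀, algebraMap L₀ 𝓕 (a : L₀) ∈ s18_ring O S := fun a =>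
    ⟨hAO a, fun Q _ => Q.algebraMap_mem' _⟩
  -- divisibility in `↥O`
  have hdvd : ∀ (x : O) (k : ℕ), (⟨π, hπO⟩ : O) ^ k ∣ x ↔ ∃ y ∈ O, (x : 𝓕) = π ^ k * y := by
    intro x k
    constructor
    · rintro ⟨y, rfl⟩
      exact ⟨y, y.2, by simp⟩
    · rintro ⟨y, hy, e⟩
      exact ⟨⟨y, hy⟩, Subtype.ext (by simpa using e)⟩
  have hdvd1 : ∀ (x : O), (⟨π, hπO⟩ : O) ∣ x ↔ ∃ y ∈ O, (x : 𝓕) = π * y := by
    intro x
    have := hdvd x 1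
    simpa using this
  obtain ⟨z, hz, hyz⟩ := hyc
  have hvp : algebraMap L₀ 𝓕 ((v : L₀) ^ p) ∈ O := hAO ⟨_, A₀.pow_mem v.2 p⟩
  have hu₁mem : (u : L₀) * (v : L₀) ^ (p - 1) ∈ A₀ := A₀.mul_mem _ _ u.2 (A₀.pow_mem v.2 _)
  have key := s48c_wroot_approx (R := O) ((s18_ring O S).comap O.subtype) ⟨π, hπO⟩ hp
    (by simpa using hconst ϖ)
    (by intro h0; exact hπ0 (by simpa using congrArg Subtype.val h0))
    (by
      intro x hx hd
      obtain ⟨y', hy', e'⟩ := (hdvd1 x).mp hd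
      have hb' : (x : 𝓕) ∈ s18_latSet O S (fun _ => 0) := by
        rw [← s18_ringSet_eq_latSet_zero]; exact hx
      have hx' := s18_lat_pure O S (fun _ => 0) (ϖ : L₀) hϖ0 hb' hy' e'
      rw [← s18_ringSet_eq_latSet_zero] at hx'
      exact ⟨⟨y', hy'⟩, hx', Subtype.ext (by simpa using e')⟩)
    (by
      intro x c hc hd
      obtain ⟨y', hy', e'⟩ := (hdvd1 _).mp hd
      obtain ⟨b', hb', y'', hy'', e''⟩ := hIC x x.2 0 (s18_ring O S).zero_mem c hc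
        ⟨y', hy', by
          have : ((x ^ p - c : O) : 𝓕) = (x : 𝓕) ^ p - (c : 𝓕) := by simp
          rw [zero_mul, add_zero, ← this, e']⟩
      exact ⟨⟨b', hBO hb'⟩, hb', (hdvd1 _).mpr ⟨y'', hy'', by simpa using e''⟩⟩)
    (n₀ * (p - 1)) ⟨algebraMap L₀ 𝓕 ((u : L₀) * (v : L₀) ^ (p - 1)), hAO ⟨_, hu₁mem⟩⟩
    (by
      apply Subtype.ext
      push_cast
      have h1 : (p : L₀) = (u : L₀) * (v : L₀) ^ (p - 1) * (ϖ : L₀) ^ (n₀ * (p - 1)) := by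
        rw [hpu, hlam, mul_pow, ← pow_mul]; ring
      have h2 := congrArg (algebraMap L₀ 𝓕) h1
      rw [map_natCast, map_mul, map_pow (algebraMap L₀ 𝓕) (ϖ : L₀)] at h2
      rw [h2]
      simp [hπdef])
    ⟨c₀, hBO hc₀⟩ hc₀ (n₀ * p) ⟨y, hy⟩
    ((hdvd _ (n₀ * p)).mpr ⟨algebraMap L₀ 𝓕 ((v : L₀) ^ p) * z, O.mul_mem _ _ hvp hz, by
      have h1 : algebraMap L₀ 𝓕 (lam : L₀) ^ p =
          π ^ (n₀ * p) * algebraMap L₀ 𝓕 ((v : L₀) ^ p) := by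
        rw [hπdef, hlam, map_mul, map_pow, map_pow, mul_pow, ← pow_mul]
        ring
      show y ^ p - c₀ = π ^ (n₀ * p) * (algebraMap L₀ 𝓕 ((v : L₀) ^ p) * z)
      rw [hyz, h1]
      ring⟩)
    n₀ (by
      intro k hk
      have h1 : (k + 1) * p ≤ n₀ * p := Nat.mul_le_mul_right p hk
      have h2 : (k + 1) * p = k * p + p := by ring
      have h3 : (k + 1) * (p - 1) ≤ n₀ * (p - 1) := Nat.mul_le_mul_right (p - 1) hk
      have h4 : (k + 1) * (p - 1) = k * (p - 1) + (p - 1) := by ring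
      have h5 : k * p = k * (p - 1) + k := by
        obtain ⟨q, rfl⟩ : ∃ q, p = q + 1 := ⟨p - 1, by omega⟩
        simp only [Nat.add_sub_cancel]; ring
      constructor <;> omega)
  obtain ⟨b, hb, hd⟩ := key
  obtain ⟨z', hz', e'⟩ := (hdvd _ n₀).mp hd
  refine ⟨b, hb, algebraMap L₀ 𝓕 ((v : L₀))⁻¹ * z', O.mul_mem _ _ (hAO ⟨_, hv⟩) hz', ?_⟩
  have e'' : y - (b : 𝓕) = π ^ n₀ * z' := by simpa using e'
  rw [e'', hπdef, hlam, map_mul, map_pow, ← mul_assoc,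
    mul_comm (algebraMap L₀ 𝓕 (v : L₀) * _), ← mul_assoc, ← map_mul, inv_mul_cancel₀ hv0, map_one,
    one_mul]

end Fermat.Agent.Lib.S48
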