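/-
DS-1 (S48), wall [T9] (helper9), part 13 = **(W2) at the TOP level in helper1's `s48a_WApp` shape**:
for `F = laurentBaseChange ℚ̄ F₀`, `O` a valuation subring of `F` in which the non-units of `A` stay
non-units and which contains the images of the finite-level Gauss rings, `w` the chart coordinate,
`λ ∈ 𝔪_A` with `p = u λ^(p-1)`:

  `∀ y ∈ O, ∀ c₀ ∈ s18_ring O (chart1 w), (y^p - c₀)/λ^p ∈ O → ∃ b' ∈ s18_ring O (chart1 w), (y - b')/λ ∈ O`

(`s48c_wapp_top`), from [S] `s48c_WClosed` on `chart1 t` at all finite levels `L₀ ⊇ L_min`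
(`t ↦ w`).  Proof: descend `y, c₀, λ, u` to a number field, `λ = v ϖ^n₀` there, `n₀` regime-I steps
(`s48c_wroot_chart`), push `b'` up.
-/
import Fermat.Agent.Lib.S48.WildRoot
import Fermat.Agent.Lib.S48.WildLevel

set_option autoImplicit false
set_option linter.unusedSectionVars false
set_option linter.style.haveILetI false

noncomputable section

namespace Fermat.Agent.Lib.S48

open AlgebraicCurve ModularCurve HahnSeries Fermat.Agent.Lib.FF Fermat.Agent.Lib.S18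

local notation "Qbar" => AlgebraicClosure ℚ

set_option synthInstance.maxHeartbeats 400000 in
set_option maxHeartbeats 1600000 in
/-- **(W2), top level, `WApp` shape.** -/
theorem s48c_wapp_top (F₀ : IntermediateField ℚ (LaurentSeries ℚ))
    (A : ValuationSubring Qbar) {p : ℕ} [Fact p.Prime] (hA : A.LiesOverPrime p)
    (O : ValuationSubring ↥(laurentBaseChange Qbar F₀))
    (hOm : ∀ a : ↥A, a ∈ IsLocalRing.maximalIdeal ↥A → ∀ y ∈ O,
      algebraMap Qbar ↥(laurentBaseChange Qbar F₀) ((a : ↥A) : Qbar) * y ≠ 1)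
    (Lmin : IntermediateField ℚ Qbar) [FiniteDimensional ℚ Lmin]
    (w : ↥(laurentBaseChange Qbar F₀))
    (hlev : ∀ (L₀ : IntermediateField ℚ Qbar) (_ : FiniteDimensional ℚ L₀), Lmin ≤ L₀ →
      ∀ [IsDiscreteValuationRing ↥(A.comap (algebraMap ↥L₀ Qbar))]
      (ϖ : ↥(A.comap (algebraMap ↥L₀ Qbar))) (hϖ : Irreducible ϖ),
      ∃ (hFrac : ∀ f ∈ laurentBaseChange ↥L₀ F₀,
          f ∈ s18g_Frac (s18g_GaussData.ofResidue (A.comap (algebraMap ↥L₀ Qbar)) ϖ hϖ))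
        (t : ↥(laurentBaseChange ↥L₀ F₀)),
        s18q_map (algebraMap ↥L₀ Qbar) F₀ t = w ∧
        (∀ x ∈ s18g_V (s18g_GaussData.ofResidue (A.comap (algebraMap ↥L₀ Qbar)) ϖ hϖ)
            (laurentBaseChange ↥L₀ F₀) hFrac, s18q_map (algebraMap ↥L₀ Qbar) F₀ x ∈ O) ∧
        s48c_WClosed (s18g_V (s18g_GaussData.ofResidue (A.comap (algebraMap ↥L₀ Qbar)) ϖ hϖ)
            (laurentBaseChange ↥L₀ F₀) hFrac) (s18_chart1 (L₀ := ↥L₀) t)
          (algebraMap ↥L₀ ↥(laurentBaseChange ↥L₀ F₀)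
            (((s18g_GaussData.ofResidue (A.comap (algebraMap ↥L₀ Qbar)) ϖ hϖ).ϖ :
              (s18g_GaussData.ofResidue (A.comap (algebraMap ↥L₀ Qbar)) ϖ hϖ).A) : ↥L₀)) p)
    (lam u uinv : ↥A)
    (huinv : u * uinv = 1) (hpu : ((p : ℕ) : ↥A) = u * lam ^ (p - 1))
    (hlam : lam ∈ IsLocalRing.maximalIdeal ↥A) :
    ∀ y ∈ O, ∀ c₀ ∈ s18_ring O (s18_chart1 (L₀ := Qbar) w),
      (y ^ p - c₀) / algebraMap Qbar ↥(laurentBaseChange Qbar F₀) ((lam : ↥A) : Qbar) ^ p ∈ O →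
      ∃ b' ∈ s18_ring O (s18_chart1 (L₀ := Qbar) w),
        (y - b') / algebraMap Qbar ↥(laurentBaseChange Qbar F₀) ((lam : ↥A) : Qbar) ∈ O := by
  classical
  have hp : p.Prime := Fact.out
  haveI := s18q_isAlgebraic_bar
  intro yy hyy c₀ hc₀ hq
  -- the level
  obtain ⟨L₁, hfd₁, hs⟩ := s18q_exists_field_gen (K := Qbar) (F₀ := F₀)
    {yy, c₀,
      algebraMap Qbar ↥(laurentBaseChange Qbar F₀) ((lam : ↥A) : Qbar),
      algebraMap Qbar ↥(laurentBaseChange Qbar F₀) ((u : ↥A) : Qbar),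
      algebraMap Qbar ↥(laurentBaseChange Qbar F₀) ((uinv : ↥A) : Qbar)}
  haveI := hfd₁
  set L₀ : IntermediateField ℚ Qbar := L₁ ⊔ Lmin with hL₀
  haveI hfd : FiniteDimensional ℚ ↥L₀ := IntermediateField.finiteDimensional_sup L₁ Lmin
  have hup : ∀ x : ↥(laurentBaseChange Qbar F₀),
      x ∈ Set.range (s18q_map (algebraMap ↥L₁ Qbar) F₀) →
      x ∈ Set.range (s18q_map (algebraMap ↥L₀ Qbar) F₀) := by
    intro x hx
    rw [← s18q_defOver_range] at hx ⊢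
    exact s18q_defOver_mono le_sup_left hx
  set φ : ↥L₀ →+* Qbar := algebraMap ↥L₀ Qbar with hφ
  obtain ⟨x1, hx1⟩ := hup _ (hs yy (by simp))
  obtain ⟨x2, hx2⟩ := hup _ (hs c₀ (by simp))
  obtain ⟨xl, hxl⟩ := hup _ (hs (algebraMap Qbar _ ((lam : ↥A) : Qbar)) (by simp))
  obtain ⟨xu, hxu⟩ := hup _ (hs (algebraMap Qbar _ ((u : ↥A) : Qbar)) (by simp))
  obtain ⟨xv, hxv⟩ := hup _ (hs (algebraMap Qbar _ ((uinv : ↥A) : Qbar)) (by simp))
  -- constants of the level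
  have hconstcoef : ∀ (x : ↥(laurentBaseChange ↥L₀ F₀)) (a : Qbar),
      s18q_map φ F₀ x = algebraMap Qbar _ a → φ ((x : LaurentSeries ↥L₀).coeff 0) = a := by
    intro x a hx
    have h1 := congrArg (fun z : ↥(laurentBaseChange Qbar F₀) =>
      (z : LaurentSeries Qbar).coeff 0) hx
    simp only [s18q_map_coe, coeffMap_coeff] at h1
    rw [h1]
    show (algebraMap Qbar (LaurentSeries Qbar) a).coeff 0 = a
    rw [algebraMap_laurentSeries_eq_single, HahnSeries.coeff_single_same]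
  -- DVR and uniformiser
  haveI hdvr : IsDiscreteValuationRing ↥(A.comap (algebraMap ↥L₀ Qbar)) := s18q_A0_dvr A L₀ hA
  obtain ⟨ϖ, hϖ⟩ := IsDiscreteValuationRing.exists_irreducible ↥(A.comap (algebraMap ↥L₀ Qbar))
  obtain ⟨hFrac, t, htw, hVO, hIC⟩ := hlev L₀ hfd le_sup_right ϖ hϖ
  set G := s18g_GaussData.ofResidue (A.comap (algebraMap ↥L₀ Qbar)) ϖ hϖ with hG
  let ψ : ↥G.A →+* ↥A := s18q_comapHom φ A
  have hψcoe : ∀ a : ↥G.A, ((ψ a : ↥A) : Qbar) = φ ((a : ↥G.A) : ↥L₀) := fun a => rfl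
  have hψinj : Function.Injective ψ := s18q_comapHom_injective φ A
  have hψres : ∀ a : ↥G.A, IsLocalRing.residue ↥A (ψ a) = 0 ↔ G.π a = 0 := fun a =>
    s48c_residue_comapHom φ A a
  have hψmax0 : ∀ a : ↥(A.comap (algebraMap ↥L₀ Qbar)),
      s18q_comapHom φ A a ∈ IsLocalRing.maximalIdeal ↥A → ϖ ∣ a := by
    intro a ha
    have h1 : a ∈ IsLocalRing.maximalIdeal ↥(A.comap (algebraMap ↥L₀ Qbar)) :=
      (s18q_comapHom_mem_maximalIdeal φ A a).mp ha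
    rw [hϖ.maximalIdeal_eq, Ideal.mem_span_singleton] at h1
    exact h1
  have hψmax : ∀ a : ↥G.A, ψ a ∈ IsLocalRing.maximalIdeal ↥A → G.ϖ ∣ a := fun a ha =>
    hψmax0 a ha
  have hexc : ∀ (x : ↥(laurentBaseChange ↥L₀ F₀)) (a : ↥A),
      s18q_map φ F₀ x = algebraMap Qbar _ ((a : ↥A) : Qbar) → ∃ l : ↥G.A, ψ l = a := by
    intro x a hx
    have h := hconstcoef x _ hx
    have hm : (x : LaurentSeries ↥L₀).coeff 0 ∈ A.comap φ := by
      rw [ValuationSubring.mem_comap, h]; exact a.2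
    exact ⟨⟨(x : LaurentSeries ↥L₀).coeff 0, hm⟩, Subtype.ext h⟩
  obtain ⟨lamG, hlamG⟩ := hexc xl lam hxl
  obtain ⟨uG, huG⟩ := hexc xu u hxu
  obtain ⟨vG, hvG⟩ := hexc xv uinv hxv
  have huinv' : uG * vG = 1 := by
    apply hψinj
    rw [map_mul, huG, hvG, huinv, map_one]
  have hpu' : ((p : ℕ) : ↥G.A) = uG * lamG ^ (p - 1) := by
    apply hψinj
    rw [map_natCast, map_mul, map_pow, huG, hlamG, hpu]
  have hϖlam : G.ϖ ∣ lamG := hψmax lamG (by rw [hlamG]; exact hlam)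
  have hpL : ((p : ℕ) : ↥L₀) ≠ 0 := by exact_mod_cast hp.ne_zero
  have hp0 : ((p : ℕ) : ↥(A.comap (algebraMap ↥L₀ Qbar))) ≠ 0 := by
    intro h0
    apply hpL
    have := congrArg Subtype.val h0
    exact this
  have hlam0 : lamG ≠ 0 := by
    rintro h0
    apply hp0
    have : ((p : ℕ) : ↥G.A) = 0 := by
      rw [hpu', h0, zero_pow (by have := hp.two_le; omega), mul_zero]
    exact this
  have hℓ0 : ((lamG : ↥G.A) : ↥L₀) ≠ 0 := fun h0 => hlam0 (Subtype.ext h0)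
  have hφlam : φ ((lamG : ↥G.A) : ↥L₀) = ((lam : ↥A) : Qbar) := by
    rw [← hψcoe, hlamG]
  -- `λ = v ϖ^n₀`
  have hlam0' : @Ne ↥(A.comap (algebraMap ↥L₀ Qbar)) lamG 0 := hlam0
  obtain ⟨n₀, v, hlamv⟩ := IsDiscreteValuationRing.eq_unit_mul_pow_irreducible hlam0' hϖ
  have hn₀ : 1 ≤ n₀ := by
    rcases Nat.eq_zero_or_pos n₀ with rfl | hpos
    · exfalso
      rw [pow_zero, mul_one] at hlamv
      have hd0 : @Dvd.dvd ↥(A.comap (algebraMap ↥L₀ Qbar)) _ ϖ lamG := hϖlam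
      obtain ⟨d, hd⟩ := hd0
      have hunit : IsUnit (ϖ * d) := by
        have h1 : (ϖ * d : ↥(A.comap (algebraMap ↥L₀ Qbar))) = (v : ↥(A.comap (algebraMap ↥L₀ Qbar))) := by
          rw [← hlamv]
          exact hd.symm
        rw [h1]
        exact v.isUnit
      exact hϖ.not_isUnit (isUnit_of_mul_isUnit_left hunit)
    · exact hpos
  have hvinv : (((v : ↥(A.comap (algebraMap ↥L₀ Qbar))) : ↥L₀))⁻¹ ∈
      A.comap (algebraMap ↥L₀ Qbar) := by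
    have h1 : ((v : ↥(A.comap (algebraMap ↥L₀ Qbar))) : ↥L₀) *
        (((v⁻¹ : (↥(A.comap (algebraMap ↥L₀ Qbar)))ˣ) :
          ↥(A.comap (algebraMap ↥L₀ Qbar))) : ↥L₀) = 1 := by
      have := congrArg Subtype.val v.mul_inv
      exact this
    rw [inv_eq_of_mul_eq_one_right h1]
    exact ((v⁻¹ : (↥(A.comap (algebraMap ↥L₀ Qbar)))ˣ) : ↥(A.comap (algebraMap ↥L₀ Qbar))).2
  have hv0 : ((v : ↥(A.comap (algebraMap ↥L₀ Qbar))) : ↥L₀) ≠ 0 := by
    intro h0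
    have : (v : ↥(A.comap (algebraMap ↥L₀ Qbar))) = 0 := Subtype.ext h0
    exact v.ne_zero this
  have hlamv' : ((lamG : ↥G.A) : ↥L₀) = ((v : ↥(A.comap (algebraMap ↥L₀ Qbar))) : ↥L₀) *
      ((G.ϖ : G.A) : ↥L₀) ^ n₀ := by
    have := congrArg Subtype.val hlamv
    exact this
  -- units `u`
  have huG0 : ((uG : ↥G.A) : ↥L₀) ≠ 0 := by
    intro h0
    have h1 : uG = 0 := Subtype.ext h0
    rw [h1, zero_mul] at huinv'
    exact zero_ne_one huinv'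
  have huGinv : (((uG : ↥G.A) : ↥L₀))⁻¹ ∈ G.A := by
    have h1 : ((uG : ↥G.A) : ↥L₀) * ((vG : ↥G.A) : ↥L₀) = 1 := congrArg Subtype.val huinv'
    rw [inv_eq_of_mul_eq_one_right h1]
    exact vG.2
  have hpuL : ((p : ℕ) : ↥L₀) = ((uG : ↥G.A) : ↥L₀) * ((lamG : ↥G.A) : ↥L₀) ^ (p - 1) := by
    have := congrArg Subtype.val hpu'
    exact this
  set V := s18g_V G (laurentBaseChange ↥L₀ F₀) hFrac with hV
  haveI := s18q_isAlgebraic_over L₀
  -- `ϖ` stays a non-unit in `O`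
  have hϖm : ψ G.ϖ ∈ IsLocalRing.maximalIdeal ↥A := by
    have h1 : (ϖ : ↥(A.comap (algebraMap ↥L₀ Qbar))) ∈
        IsLocalRing.maximalIdeal ↥(A.comap (algebraMap ↥L₀ Qbar)) := by
      rw [hϖ.maximalIdeal_eq]
      exact Ideal.subset_span rfl
    exact (s18q_comapHom_mem_maximalIdeal φ A ϖ).mpr h1
  -- `O ∩ 𝓕(L₀) = V`
  have hOV : ∀ x : ↥(laurentBaseChange ↥L₀ F₀), s18q_map φ F₀ x ∈ O → x ∈ V := by
    intro x hxO
    by_contra hxV
    have hx0 : x ≠ 0 := by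
      rintro rfl
      exact hxV V.zero_mem
    have hxinv : x⁻¹ ∈ V := (V.mem_or_inv_mem x).resolve_left hxV
    have hnu : ¬ IsUnit (⟨x⁻¹, hxinv⟩ : ↥V) := by
      intro hu
      obtain ⟨g, hg⟩ := hu.exists_right_inv
      have h1 : x⁻¹ * (g : ↥(laurentBaseChange ↥L₀ F₀)) = 1 := congrArg Subtype.val hg
      have h2 : (g : ↥(laurentBaseChange ↥L₀ F₀)) = x := by
        have := eq_inv_of_mul_eq_one_right h1
        rw [this, inv_inv]
      exact hxV (h2 ▸ g.2)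
    obtain ⟨g, hg⟩ := s18g_unifV_dvd_of_not_isUnit G _ hFrac _ hnu
    have h1 : x⁻¹ = algebraMap ↥L₀ ↥(laurentBaseChange ↥L₀ F₀) ((G.ϖ : G.A) : ↥L₀) *
        (g : ↥(laurentBaseChange ↥L₀ F₀)) := congrArg Subtype.val hg
    have h2 : algebraMap ↥L₀ ↥(laurentBaseChange ↥L₀ F₀) ((G.ϖ : G.A) : ↥L₀) *
        (x * (g : ↥(laurentBaseChange ↥L₀ F₀))) = 1 := by
      rw [mul_left_comm, ← h1, mul_inv_cancel₀ hx0]
    have h3 := congrArg (s18q_map φ F₀) h2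
    rw [map_mul, map_mul, map_one, s18q_map_algebraMap] at h3
    exact hOm (ψ G.ϖ) hϖm _ (O.mul_mem _ _ hxO (hVO _ g.2)) h3
  -- charts
  have hchart : ∀ P : Place Qbar ↥(laurentBaseChange Qbar F₀),
      P ∈ s18_chart1 (L₀ := Qbar) w ↔
        s18q_restrictGen ↥L₀ F₀ P ∈ s18_chart1 (L₀ := ↥L₀) t := by
    intro P
    show w ∈ P.toValuationSubring ↔ t ∈ (s18q_restrictGen ↥L₀ F₀ P).toValuationSubring
    rw [s18q_mem_restrictGen, htw]
  have hx1V : x1 ∈ V := hOV x1 (by rw [hx1]; exact hyy)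
  have hx2B : x2 ∈ s18_ring V (s18_chart1 (L₀ := ↥L₀) t) := by
    refine ⟨hOV x2 (by rw [hx2]; exact hc₀.1), fun Q hQ => ?_⟩
    obtain ⟨P, rfl⟩ := s18q_restrictGen_surjective ↥L₀ (K := Qbar) F₀ Q
    rw [s18q_mem_restrictGen, hx2]
    exact hc₀.2 P ((hchart P).mpr hQ)
  -- the quotient at the level
  set lamF : ↥(laurentBaseChange ↥L₀ F₀) :=
    algebraMap ↥L₀ ↥(laurentBaseChange ↥L₀ F₀) ((lamG : ↥G.A) : ↥L₀) with hlamF
  have hlamF0 : lamF ≠ 0 := by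
    rw [hlamF, Ne, map_eq_zero]
    exact hℓ0
  have hlamFmap : s18q_map φ F₀ lamF =
      algebraMap Qbar ↥(laurentBaseChange Qbar F₀) ((lam : ↥A) : Qbar) := by
    rw [hlamF, s18q_map_algebraMap, hφlam]
  have hzV : (x1 ^ p - x2) / lamF ^ p ∈ V := by
    apply hOV
    rw [map_div₀, map_sub, map_pow, map_pow, hx1, hx2, hlamFmap]
    exact hq
  obtain ⟨b₀, hb₀, z', hz', hbz⟩ := s48c_wroot_chart G.A V (s18f_const_mem_V G _ hFrac) G.ϖ
    (s18g_unifK_ne_zero G) (s18_chart1 (L₀ := ↥L₀) t) hp lamG uG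
    (v : ↥(A.comap (algebraMap ↥L₀ Qbar))) hvinv hv0 n₀ hn₀ hpuL hlamv' hIC x1 x2 hx1V hx2B
    ⟨(x1 ^ p - x2) / lamF ^ p, hzV, by
      rw [mul_div_cancel₀ _ (pow_ne_zero p hlamF0)]⟩
  -- push up
  have hlamne : algebraMap Qbar ↥(laurentBaseChange Qbar F₀) ((lam : ↥A) : Qbar) ≠ 0 := by
    rw [← hlamFmap, Ne, map_eq_zero]
    exact hlamF0
  refine ⟨s18q_map φ F₀ b₀, ⟨hVO _ hb₀.1, fun P hP => ?_⟩, ?_⟩
  · have := hb₀.2 _ ((hchart P).mp hP)
    rw [s18q_mem_restrictGen] at this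
    exact this
  · have h1 : yy - s18q_map φ F₀ b₀ =
        algebraMap Qbar ↥(laurentBaseChange Qbar F₀) ((lam : ↥A) : Qbar) * s18q_map φ F₀ z' := by
      rw [← hx1, ← map_sub, hbz, map_mul, hlamFmap]
    rw [h1, mul_div_cancel_left₀ _ hlamne]
    exact hVO _ hz'

end Fermat.Agent.Lib.S48
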