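/-
DS-1 (S48), wall [T9] (helper9), part 15: **the wild inputs from the finite-level packages**
(helper6's `s48g_FinPack2`, helper7's `s48d_FinLevels`, q-model `s48d_QPack`).

* `s48c_wkummerTrivial_of_finLevels` : `s48d_FinLevels F₀ A Lmin` + constants ⇒
  `s48c_WKummerTrivial A (laurentBaseChange ℚ̄ F₀) p` (wild Theorem X; the `hW` of `s48c_q_windep`);
* `s48c_FinLevelsAt F₀ A Lmin w`     : the packages at all number fields `L₀ ⊇ Lmin` for a coordinate
  `t` of level `L₀` mapping to the FIXED top-level coordinate `w`;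
* `s48c_finLevels_of_at`             : it implies `s48d_FinLevels`;
* `s48c_q_wapp_of_finLevelsAt`       : **(W2) for the q-model Gauss ring on both charts**:
  `s48c_FinLevelsAt … w` ⇒ helper1's `s48a_WApp ℚ̄ (s48d_qO Q) w^{±1} λ p` (unfolded).
-/
import Fermat.Agent.Lib.S48.WildRootTop
import Fermat.Agent.Lib.S48.WildQ
import Fermat.Agent.Lib.S48.GFinW
import Fermat.Agent.Lib.S48.DRed
import Fermat.Agent.Lib.S37.RTop

set_option autoImplicit false
set_option linter.unusedSectionVars false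
set_option linter.style.haveILetI false

noncomputable section

namespace Fermat.Agent.Lib.S48

open AlgebraicCurve ModularCurve HahnSeries Fermat.Agent.Lib.FF Fermat.Agent.Lib.S18
  Fermat.Agent.Lib.S37

local notation "Qbar" => AlgebraicClosure ℚ

set_option synthInstance.maxHeartbeats 400000 in
/-- **wild Theorem X from the finite-level packages.** -/
theorem s48c_wkummerTrivial_of_finLevels (F₀ : IntermediateField ℚ (LaurentSeries ℚ))
    (A : ValuationSubring Qbar) {p : ℕ} [Fact p.Prime] (hA : A.LiesOverPrime p)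
    (hconst : ∀ g : ↥(laurentBaseChange Qbar F₀),
      (∀ P : Place Qbar ↥(laurentBaseChange Qbar F₀), P.ord g ≤ 0) →
        ∃ c : Qbar, g = algebraMap Qbar ↥(laurentBaseChange Qbar F₀) c)
    (Lmin : IntermediateField ℚ Qbar) [FiniteDimensional ℚ Lmin]
    (hfin : s48d_FinLevels F₀ A Lmin) :
    s48c_WKummerTrivial A (laurentBaseChange Qbar F₀) p := by
  have hp : p.Prime := Fact.out
  refine s48c_wkummerTrivial_baseChange F₀ A hA hconst Lmin ?_
  intro L₀ hfd hL _ ϖ hϖ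
  obtain ⟨hFrac, w, hw, hw0, hP⟩ := hfin L₀ ⟨hfd, hL⟩ ϖ hϖ
  haveI := hw
  haveI : IsDiscreteValuationRing
      ↥(s18g_GaussData.ofResidue (A.comap (algebraMap ↥L₀ Qbar)) ϖ hϖ).A :=
    (inferInstance : IsDiscreteValuationRing ↥(A.comap (algebraMap ↥L₀ Qbar)))
  exact ⟨hFrac, w, s48g_wgeoInputs_of_finPack2 _ (laurentBaseChange ↥L₀ F₀) hFrac w hw0 hP p
    hp.two_le⟩

set_option synthInstance.maxHeartbeats 400000 in
/-- **the finite-level packages at all number fields `L₀ ⊇ Lmin`, for a fixed top-level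
coordinate `w`.** -/
def s48c_FinLevelsAt (F₀ : IntermediateField ℚ (LaurentSeries ℚ)) (A : ValuationSubring Qbar)
    (Lmin : IntermediateField ℚ Qbar) (w : ↥(laurentBaseChange Qbar F₀)) : Prop :=
  ∀ (L₀ : IntermediateField ℚ Qbar) (_ : FiniteDimensional ℚ L₀ ∧ Lmin ≤ L₀)
    [IsDiscreteValuationRing ↥(A.comap (algebraMap ↥L₀ Qbar))]
    (ϖ : ↥(A.comap (algebraMap ↥L₀ Qbar))) (hϖ : Irreducible ϖ),
    ∃ (hFrac : ∀ f ∈ laurentBaseChange ↥L₀ F₀,
        f ∈ s18g_Frac (s18g_GaussData.ofResidue (A.comap (algebraMap ↥L₀ Qbar)) ϖ hϖ))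
      (t : ↥(laurentBaseChange ↥L₀ F₀)) (_ : FFGen ↥L₀ t), t ≠ 0 ∧
      s18q_map (algebraMap ↥L₀ Qbar) F₀ t = w ∧
      s48g_FinPack2 (s18g_GaussData.ofResidue (A.comap (algebraMap ↥L₀ Qbar)) ϖ hϖ)
        (laurentBaseChange ↥L₀ F₀) hFrac t

set_option synthInstance.maxHeartbeats 400000 in
theorem s48c_finLevels_of_at {F₀ : IntermediateField ℚ (LaurentSeries ℚ)}
    {A : ValuationSubring Qbar} {Lmin : IntermediateField ℚ Qbar}
    {w : ↥(laurentBaseChange Qbar F₀)} (h : s48c_FinLevelsAt F₀ A Lmin w) :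
    s48d_FinLevels F₀ A Lmin := by
  intro L₀ hL _ ϖ hϖ
  obtain ⟨hFrac, t, ht, ht0, -, hP⟩ := h L₀ hL ϖ hϖ
  exact ⟨hFrac, t, ht, ht0, hP⟩

/-- the maximal ideal of `A` stays in the maximal ideal of the q-model Gauss ring. -/
theorem s48c_q_hOm {K : Type*} [Field K] {A : ValuationSubring K}
    {F : IntermediateField K (LaurentSeries K)}
    {Fb : IntermediateField (IsLocalRing.ResidueField ↥A)
      (LaurentSeries (IsLocalRing.ResidueField ↥A))}
    (Q : s48d_QPack A (IsLocalRing.residue ↥A) F Fb) (a : ↥A)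
    (ha : a ∈ IsLocalRing.maximalIdeal ↥A) (y : ↥F) (hy : y ∈ s48d_qO Q) :
    algebraMap K ↥F ((a : ↥A) : K) * y ≠ 1 := by
  intro h1
  have e : (⟨algebraMap K ↥F ((a : ↥A) : K), s48c_q_const_mem Q a⟩ : ↥(s48d_qO Q)) * ⟨y, hy⟩ = 1 :=
    Subtype.ext h1
  have h2 := congrArg (s48d_qRed Q) e
  rw [map_mul, s48c_q_red_const_zero Q a ha, zero_mul, map_one] at h2
  exact zero_ne_one h2

set_option synthInstance.maxHeartbeats 400000 in
/-- the finite-level Gauss rings map into the q-model Gauss ring. -/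
theorem s48c_q_level_mem (F₀ : IntermediateField ℚ (LaurentSeries ℚ))
    (A : ValuationSubring Qbar)
    {Fb : IntermediateField (IsLocalRing.ResidueField ↥A)
      (LaurentSeries (IsLocalRing.ResidueField ↥A))}
    (Q : s48d_QPack A (IsLocalRing.residue ↥A) (laurentBaseChange Qbar F₀) Fb)
    (L₀ : IntermediateField ℚ Qbar)
    [IsDiscreteValuationRing ↥(A.comap (algebraMap ↥L₀ Qbar))]
    (ϖ : ↥(A.comap (algebraMap ↥L₀ Qbar))) (hϖ : Irreducible ϖ)
    (hFrac : ∀ f ∈ laurentBaseChange ↥L₀ F₀,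
        f ∈ s18g_Frac (s18g_GaussData.ofResidue (A.comap (algebraMap ↥L₀ Qbar)) ϖ hϖ))
    (x : ↥(laurentBaseChange ↥L₀ F₀))
    (hx : x ∈ s18g_V (s18g_GaussData.ofResidue (A.comap (algebraMap ↥L₀ Qbar)) ϖ hϖ)
      (laurentBaseChange ↥L₀ F₀) hFrac) :
    s18q_map (algebraMap ↥L₀ Qbar) F₀ x ∈ s48d_qO Q := by
  haveI : IsDiscreteValuationRing ↥(s18q_A0 A L₀) :=
    (inferInstance : IsDiscreteValuationRing ↥(A.comap (algebraMap ↥L₀ Qbar)))
  show ((s18q_map (algebraMap ↥L₀ Qbar) F₀ x : ↥(laurentBaseChange Qbar F₀)) :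
    LaurentSeries Qbar) ∈ s37r_O A (IsLocalRing.residue ↥A)
  rw [s18q_map_coe]
  exact s37r_level_mem_O A L₀ ϖ hϖ hx

set_option synthInstance.maxHeartbeats 400000 in
set_option maxHeartbeats 800000 in
/-- **(W2) for the q-model Gauss ring, on both charts, from the finite-level packages.** -/
theorem s48c_q_wapp_of_finLevelsAt (F₀ : IntermediateField ℚ (LaurentSeries ℚ))
    (A : ValuationSubring Qbar) {p : ℕ} [Fact p.Prime] (hA : A.LiesOverPrime p)
    {Fb : IntermediateField (IsLocalRing.ResidueField ↥A)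
      (LaurentSeries (IsLocalRing.ResidueField ↥A))}
    (Q : s48d_QPack A (IsLocalRing.residue ↥A) (laurentBaseChange Qbar F₀) Fb)
    (Lmin : IntermediateField ℚ Qbar) [FiniteDimensional ℚ Lmin]
    (w : ↥(laurentBaseChange Qbar F₀)) (hfin : s48c_FinLevelsAt F₀ A Lmin w)
    (lam u uinv : ↥A)
    (huinv : u * uinv = 1) (hpu : ((p : ℕ) : ↥A) = u * lam ^ (p - 1))
    (hlam : lam ∈ IsLocalRing.maximalIdeal ↥A) :
    (∀ y ∈ s48d_qO Q, ∀ c₀ ∈ s18_ring (s48d_qO Q) (s18_chart1 (L₀ := Qbar) w),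
      (y ^ p - c₀) / algebraMap Qbar ↥(laurentBaseChange Qbar F₀) ((lam : ↥A) : Qbar) ^ p ∈
        s48d_qO Q →
      ∃ b' ∈ s18_ring (s48d_qO Q) (s18_chart1 (L₀ := Qbar) w),
        (y - b') / algebraMap Qbar ↥(laurentBaseChange Qbar F₀) ((lam : ↥A) : Qbar) ∈
          s48d_qO Q) ∧
    (∀ y ∈ s48d_qO Q, ∀ c₀ ∈ s18_ring (s48d_qO Q) (s18_chart1 (L₀ := Qbar) w⁻¹),
      (y ^ p - c₀) / algebraMap Qbar ↥(laurentBaseChange Qbar F₀) ((lam : ↥A) : Qbar) ^ p ∈
        s48d_qO Q →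
      ∃ b' ∈ s18_ring (s48d_qO Q) (s18_chart1 (L₀ := Qbar) w⁻¹),
        (y - b') / algebraMap Qbar ↥(laurentBaseChange Qbar F₀) ((lam : ↥A) : Qbar) ∈
          s48d_qO Q) := by
  have hp : p.Prime := Fact.out
  constructor
  · refine s48c_wapp_top F₀ A hA (s48d_qO Q) (fun a ha y hy => s48c_q_hOm Q a ha y hy) Lmin w ?_
      lam u uinv huinv hpu hlam
    intro L₀ hfd hL _ ϖ hϖ
    obtain ⟨hFrac, t, ht, ht0, htw, hP⟩ := hfin L₀ ⟨hfd, hL⟩ ϖ hϖ
    obtain ⟨Fbl, iF, red, h1, h2⟩ := hP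
    obtain ⟨D, i1, i2, i3, i4, ψ, hc⟩ := h1
    exact ⟨hFrac, t, htw, fun x hx => s48c_q_level_mem F₀ A Q L₀ ϖ hϖ hFrac x hx,
      s48g_fin_wclosed hc p hp.two_le⟩
  · refine s48c_wapp_top F₀ A hA (s48d_qO Q) (fun a ha y hy => s48c_q_hOm Q a ha y hy) Lmin w⁻¹ ?_
      lam u uinv huinv hpu hlam
    intro L₀ hfd hL _ ϖ hϖ
    obtain ⟨hFrac, t, ht, ht0, htw, hP⟩ := hfin L₀ ⟨hfd, hL⟩ ϖ hϖ
    obtain ⟨Fbl, iF, red, h1, h2⟩ := hP
    obtain ⟨D, i1, i2, i3, i4, ψ, hc⟩ := h2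
    exact ⟨hFrac, t⁻¹, by rw [map_inv₀, htw],
      fun x hx => s48c_q_level_mem F₀ A Q L₀ ϖ hϖ hFrac x hx,
      s48g_fin_wclosed hc p hp.two_le⟩

end Fermat.Agent.Lib.S48
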