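/-
DS-1 (S48), wall [T9] (helper9), part 9: **[II] for a wild layer** — from wild Kummer triviality
(`s48c_WKummerTrivial A F p`, e.g. `s48c_wkummerTrivial_baseChange`): if the Gauss unit
`τ' = ιY ∈ F`, `Y = a^p + λ^p·cc` (`p = u λ^(p-1)`), has all orders divisible by `p` but is NOT of
the form `c · w^p` in `F` (i.e. `F(τ'^(1/p))/F` has degree `p`), then the Artin–Schreier trinomial
`X^p + ū ā^(p-1) X - c̄c` has no root among the reductions of the integral series of `F`
(`s48c_wnoroot`).  Together with `s48c_as_indep` (`WildAS`) this is the `indep` field of the layer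
datum of the wild step.
-/
import Fermat.Agent.Lib.S48.WildLevel
import Fermat.Agent.Lib.S48.WildAS

set_option autoImplicit false
set_option linter.unusedSectionVars false
set_option linter.style.haveILetI false

noncomputable section

namespace Fermat.Agent.Lib.S48

open AlgebraicCurve ModularCurve HahnSeries Fermat.Agent.Lib.FF

variable {K : Type*} [Field K] (A : ValuationSubring K)
  (F : IntermediateField K (LaurentSeries K))

/-- constants lie in `F`. -/
theorem s48c_coeffMap_C_mem (a : ↥A) : coeffMap A.subtype (HahnSeries.C a) ∈ F := by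
  rw [HahnSeries.C_apply, coeffMap_single]
  have : (HahnSeries.single (0 : ℤ) (A.subtype a) : LaurentSeries K) =
      algebraMap K (LaurentSeries K) (a : K) := by
    rw [algebraMap_laurentSeries_eq_single]
    rfl
  rw [this]
  exact F.algebraMap_mem _

/-- **[II] for a wild layer: no Artin–Schreier root.** -/
theorem s48c_wnoroot {p : ℕ} (hp : p.Prime) (hW : s48c_WKummerTrivial A F p)
    (lam u uinv : ↥A) (huinv : u * uinv = 1) (hpu : ((p : ℕ) : ↥A) = u * lam ^ (p - 1))
    (hlam : lam ∈ IsLocalRing.maximalIdeal ↥A)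
    (Y a cc : LaurentSeries ↥A) (hY : coeffMap A.subtype Y ∈ F) (ha : coeffMap A.subtype a ∈ F)
    (hrel : Y = a ^ p + HahnSeries.C (lam ^ p) * cc)
    (hY0 : coeffMap (IsLocalRing.residue ↥A) Y ≠ 0)
    (hdivP : ∀ P : Place K ↥F, (p : ℤ) ∣ P.ord (⟨coeffMap A.subtype Y, hY⟩ : ↥F))
    (hnot : ¬ ∃ (c : K) (w : ↥F), (⟨coeffMap A.subtype Y, hY⟩ : ↥F) = algebraMap K ↥F c * w ^ p)
    (b : LaurentSeries ↥A) (hb : coeffMap A.subtype b ∈ F) :
    coeffMap (IsLocalRing.residue ↥A) b ^ p +
      HahnSeries.C (IsLocalRing.residue ↥A u) * coeffMap (IsLocalRing.residue ↥A) a ^ (p - 1) *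
        coeffMap (IsLocalRing.residue ↥A) b - coeffMap (IsLocalRing.residue ↥A) cc ≠ 0 := by
  intro hroot
  apply hnot
  obtain ⟨q, rfl⟩ : ∃ q, p = q + 2 := ⟨p - 2, by have := hp.two_le; omega⟩
  have hq : q + 2 - 1 = q + 1 := by omega
  rw [hq] at hpu hroot
  obtain ⟨w, hw⟩ := s48c_wbinom hp a (HahnSeries.C lam * b)
  rw [hq] at hw
  have hpC : (((q + 2 : ℕ) : ℕ) : LaurentSeries ↥A) = HahnSeries.C u * HahnSeries.C lam ^ (q + 1) := by
    rw [← map_pow, ← map_mul, ← hpu, map_natCast]
  set Z : LaurentSeries ↥A := cc - b ^ (q + 2) - HahnSeries.C u * a ^ (q + 1) * b -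
    HahnSeries.C u * HahnSeries.C lam * b ^ 2 * w with hZdef
  have hX : coeffMap A.subtype (a + HahnSeries.C lam * b) ∈ F := by
    rw [map_add, map_mul]
    exact F.add_mem ha (F.mul_mem (s48c_coeffMap_C_mem A F lam) hb)
  have hrel' : Y = (a + HahnSeries.C lam * b) ^ (q + 2) + HahnSeries.C (lam ^ (q + 2)) * Z := by
    rw [hrel, hw, hpC, hZdef, map_pow]
    ring
  have hρlam : coeffMap (IsLocalRing.residue ↥A) (HahnSeries.C lam) = 0 := by
    rw [HahnSeries.C_apply, coeffMap_single]
    have : IsLocalRing.residue ↥A lam = 0 := (IsLocalRing.residue_eq_zero_iff _).mpr hlam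
    rw [this, HahnSeries.single_eq_zero]
  have hρu : coeffMap (IsLocalRing.residue ↥A) (HahnSeries.C u) =
      HahnSeries.C (IsLocalRing.residue ↥A u) := by
    rw [HahnSeries.C_apply, coeffMap_single, HahnSeries.C_apply]
  have hZ0 : coeffMap (IsLocalRing.residue ↥A) Z = 0 := by
    rw [hZdef, map_sub, map_sub, map_sub, map_mul, map_mul, map_mul, map_mul, map_mul, hρlam,
      map_pow, map_pow, hρu]
    rw [mul_zero, zero_mul, zero_mul, sub_zero]
    rw [← neg_eq_zero, ← hroot]
    ring
  exact hW lam u uinv Y (a + HahnSeries.C lam * b) Z hY hX huinv (by rw [hq]; exact hpu) hlam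
    hrel' hZ0 hY0 hdivP

end Fermat.Agent.Lib.S48
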