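/-
DS-1 (S48), wall [T9] (helper9), part 14: **[II] for a quotient of integral series**
(`s48c_wnoroot_quot`, helper1 #2422): the Artin–Schreier trinomial `X^p + ū ā^(p-1) X - c̄c` has no
root of the form `ρb₁/ρb₂` (`b₁, b₂` integral series of `F`, `ρb₂ ≠ 0`).  Same hypotheses as
`s48c_wnoroot` (`WildII`); proof: multiply by `b₂^p`.
-/
import Fermat.Agent.Lib.S48.WildII

set_option autoImplicit false
set_option linter.unusedSectionVars false
set_option linter.style.haveILetI false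

noncomputable section

namespace Fermat.Agent.Lib.S48

open AlgebraicCurve ModularCurve HahnSeries Fermat.Agent.Lib.FF

variable {K : Type*} [Field K] (A : ValuationSubring K)
  (F : IntermediateField K (LaurentSeries K))

/-- **[II] for a wild layer, quotient form.** -/
theorem s48c_wnoroot_quot {p : ℕ} (hp : p.Prime) (hW : s48c_WKummerTrivial A F p)
    (lam u uinv : ↥A) (huinv : u * uinv = 1) (hpu : ((p : ℕ) : ↥A) = u * lam ^ (p - 1))
    (hlam : lam ∈ IsLocalRing.maximalIdeal ↥A)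
    (Y a cc : LaurentSeries ↥A) (hY : coeffMap A.subtype Y ∈ F) (ha : coeffMap A.subtype a ∈ F)
    (hrel : Y = a ^ p + HahnSeries.C (lam ^ p) * cc)
    (hY0 : coeffMap (IsLocalRing.residue ↥A) Y ≠ 0)
    (hdivP : ∀ P : Place K ↥F, (p : ℤ) ∣ P.ord (⟨coeffMap A.subtype Y, hY⟩ : ↥F))
    (hnot : ¬ ∃ (c : K) (w : ↥F), (⟨coeffMap A.subtype Y, hY⟩ : ↥F) = algebraMap K ↥F c * w ^ p)
    (b₁ b₂ : LaurentSeries ↥A) (hb₁ : coeffMap A.subtype b₁ ∈ F)
    (hb₂ : coeffMap A.subtype b₂ ∈ F)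
    (hb₂0 : coeffMap (IsLocalRing.residue ↥A) b₂ ≠ 0) :
    (coeffMap (IsLocalRing.residue ↥A) b₁ / coeffMap (IsLocalRing.residue ↥A) b₂) ^ p +
      HahnSeries.C (IsLocalRing.residue ↥A u) * coeffMap (IsLocalRing.residue ↥A) a ^ (p - 1) *
        (coeffMap (IsLocalRing.residue ↥A) b₁ / coeffMap (IsLocalRing.residue ↥A) b₂) -
      coeffMap (IsLocalRing.residue ↥A) cc ≠ 0 := by
  classical
  obtain ⟨Y', hY'⟩ : ∃ Y' : LaurentSeries ↥A, Y' = Y * b₂ ^ p := ⟨_, rfl⟩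
  have hιY' : coeffMap A.subtype Y' = coeffMap A.subtype Y * coeffMap A.subtype b₂ ^ p := by
    rw [hY', map_mul, map_pow]
  have hY'F : coeffMap A.subtype Y' ∈ F := by
    rw [hιY']
    exact F.mul_mem hY (pow_mem hb₂ p)
  have ha'F : coeffMap A.subtype (a * b₂) ∈ F := by
    rw [map_mul]
    exact F.mul_mem ha hb₂
  have hrel' : Y' = (a * b₂) ^ p + HahnSeries.C (lam ^ p) * (cc * b₂ ^ p) := by
    rw [hY', hrel]
    ring
  have hY'0 : coeffMap (IsLocalRing.residue ↥A) Y' ≠ 0 := by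
    rw [hY', map_mul, map_pow]
    exact mul_ne_zero hY0 (pow_ne_zero p hb₂0)
  set d : ↥F := ⟨coeffMap A.subtype b₂, hb₂⟩ with hd
  have hd0 : d ≠ 0 := by
    intro h0
    apply hb₂0
    have h0' : coeffMap A.subtype b₂ = 0 := congrArg Subtype.val h0
    have : b₂ = 0 := by
      ext n
      have := congrArg (fun f => f.coeff n) h0'
      simpa using this
    rw [this, map_zero]
  have hYd : (⟨coeffMap A.subtype Y', hY'F⟩ : ↥F) = ⟨coeffMap A.subtype Y, hY⟩ * d ^ p :=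
    Subtype.ext hιY'
  have hy0 : (⟨coeffMap A.subtype Y, hY⟩ : ↥F) ≠ 0 := by
    intro h0
    apply hY0
    have h0' : coeffMap A.subtype Y = 0 := congrArg Subtype.val h0
    have : Y = 0 := by
      ext n
      have := congrArg (fun f => f.coeff n) h0'
      simpa using this
    rw [this, map_zero]
  have hdivP' : ∀ P : Place K ↥F, (p : ℤ) ∣ P.ord (⟨coeffMap A.subtype Y', hY'F⟩ : ↥F) := by
    intro P
    rw [hYd, P.ord_mul hy0 (pow_ne_zero _ hd0), ← zpow_natCast, P.ord_zpow]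
    exact dvd_add (hdivP P) (dvd_mul_right _ _)
  have hnot' : ¬ ∃ (c : K) (w : ↥F),
      (⟨coeffMap A.subtype Y', hY'F⟩ : ↥F) = algebraMap K ↥F c * w ^ p := by
    rintro ⟨c, w, hcw⟩
    apply hnot
    refine ⟨c, w / d, ?_⟩
    rw [hYd] at hcw
    rw [div_pow, ← mul_div_assoc, ← hcw, mul_div_assoc, div_self (pow_ne_zero _ hd0), mul_one]
  have key := s48c_wnoroot A F hp hW lam u uinv huinv hpu hlam Y' (a * b₂) (cc * b₂ ^ p) hY'F ha'F
    hrel' hY'0 hdivP' hnot' b₁ hb₁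
  intro hroot
  apply key
  rw [map_mul, map_mul, map_pow]
  obtain ⟨q, rfl⟩ : ∃ q, p = q + 1 := ⟨p - 1, by have := hp.pos; omega⟩
  have hq : q + 1 - 1 = q := by omega
  rw [hq] at hroot ⊢
  obtain ⟨c, hc⟩ : ∃ c, coeffMap (IsLocalRing.residue ↥A) b₁ =
      c * coeffMap (IsLocalRing.residue ↥A) b₂ :=
    ⟨coeffMap (IsLocalRing.residue ↥A) b₁ / coeffMap (IsLocalRing.residue ↥A) b₂,
      (div_mul_cancel₀ _ hb₂0).symm⟩
  rw [hc] at hroot ⊢
  rw [mul_div_cancel_right₀ c hb₂0] at hroot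
  have h2 := congrArg (fun x => x * coeffMap (IsLocalRing.residue ↥A) b₂ ^ (q + 1)) hroot
  simp only [zero_mul] at h2
  rw [← h2]
  ring
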