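/-
DS-1 (S48), wall [T9] (helper9), part 16: **the three wild inputs of helper1's
`s48a_q_wild_step_series` (AWildQS), in his exact shapes**, for `π = IsLocalRing.residue A`:

* `s48c_q_hnot` : the layer `F₂ = F₁(t)` of degree `n` (basis `tⁱ`), `t = ιT`,
  `Y = (X₀ + λ T)^n` ⇒ `ιY` is not `c · w^n` in `F₁`  (`L` algebraically closed);
* `s48c_q_hno`  : **[II]**, series form: `∀ c : Fb, c^n + C (π u) · ρX₀^(n-1) · c ≠ ρcc`
  (from `s48c_WKummerTrivial A F n`, `s48c_wnoroot_quot` and helper7's `s48d_q_liftDiv`);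
* `s48c_q_wapp_lat_of_finLevelsAt` : **(W2)**, lattice form, on BOTH charts `w`, `w'` (`w w' = 1`),
  from the finite-level packages `s48c_FinLevelsAt F₀ A Lmin w`;
* `s48c_q_wild_inputs` : all of them at once (base-changed `ℚ`-model).
-/
import Fermat.Agent.Lib.S48.WildFin
import Fermat.Agent.Lib.S48.WildIIQuot
import Fermat.Agent.Lib.S48.WildAppTop

set_option autoImplicit false
set_option linter.unusedSectionVars false
set_option linter.style.haveILetI false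

noncomputable section

namespace Fermat.Agent.Lib.S48

open AlgebraicCurve ModularCurve HahnSeries Polynomial Fermat.Agent.Lib.FF Fermat.Agent.Lib.S18
  Fermat.Agent.Lib.S37

local notation "Qbar" => AlgebraicClosure ℚ

section Hnot

variable {L : Type*} [Field L] [IsAlgClosed L] {A : ValuationSubring L}
  {F₁ F₂ : IntermediateField L (LaurentSeries L)} [Algebra ↥F₁ ↥F₂] [IsScalarTower L ↥F₁ ↥F₂]

/-- **`hnot` from the degree of the layer.** -/
theorem s48c_q_hnot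
    (halg : ∀ a : ↥F₁, ((algebraMap ↥F₁ ↥F₂ a : ↥F₂) : LaurentSeries L) = (a : LaurentSeries L))
    {n : ℕ} (hn : n.Prime) (b : Module.Basis (Fin n) ↥F₁ ↥F₂) (t : ↥F₂)
    (hb : ∀ i : Fin n, b i = t ^ (i : ℕ))
    (T X₀ Y : LaurentSeries ↥A) (hT : (t : LaurentSeries L) = coeffMap A.subtype T)
    (hX₀ : coeffMap A.subtype X₀ ∈ F₁) (hY : coeffMap A.subtype Y ∈ F₁)
    (lamA : ↥A) (hlam0 : lamA ≠ 0) (hY0 : Y ≠ 0)
    (hrelS : Y = (X₀ + HahnSeries.C lamA * T) ^ n) :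
    ¬ ∃ (c : L) (w : ↥F₁), (⟨coeffMap A.subtype Y, hY⟩ : ↥F₁) = algebraMap L ↥F₁ c * w ^ n := by
  rintro ⟨c, w, hcw⟩
  obtain ⟨c₀, hc₀⟩ := IsAlgClosed.exists_pow_nat_eq c hn.pos
  set g : ↥F₁ := algebraMap L ↥F₁ c₀ * w with hg_def
  have hg : g ^ n = ⟨coeffMap A.subtype Y, hY⟩ := by
    rw [hg_def, mul_pow, ← map_pow, hc₀, hcw]
  have hh0 : (⟨coeffMap A.subtype Y, hY⟩ : ↥F₁) ≠ 0 := by
    intro h0
    apply hY0
    have h0' : coeffMap A.subtype Y = 0 := congrArg Subtype.val h0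
    exact s37r_iota_injective A (by rw [h0', map_zero])
  have hg0 : g ≠ 0 := by
    intro h0
    rw [h0, zero_pow hn.ne_zero] at hg
    exact hh0 hg.symm
  have hlamL0 : ((lamA : ↥A) : L) ≠ 0 := fun h0 => hlam0 (Subtype.ext h0)
  set τ : ↥F₂ := algebraMap ↥F₁ ↥F₂ ⟨coeffMap A.subtype X₀, hX₀⟩ +
    algebraMap L ↥F₂ ((lamA : ↥A) : L) * t with hτ_def
  have hτV : (τ : LaurentSeries L) = coeffMap A.subtype (X₀ + HahnSeries.C lamA * T) := by
    rw [map_add, map_mul, s48c_q_iota_C, ← hT, hτ_def]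
    push_cast
    rw [halg]
  have hτ : τ ^ n = algebraMap ↥F₁ ↥F₂ ⟨coeffMap A.subtype Y, hY⟩ := by
    apply Subtype.ext
    rw [halg]
    push_cast
    rw [hτV, ← map_pow, ← hrelS]
  have hgE : algebraMap ↥F₁ ↥F₂ g ≠ 0 := by
    rw [Ne, map_eq_zero]
    exact hg0
  have hζ : (τ / algebraMap ↥F₁ ↥F₂ g) ^ n = 1 := by
    rw [div_pow, hτ, ← map_pow, hg, div_self]
    rw [Ne, map_eq_zero]
    exact hh0
  have halgζ : IsAlgebraic L (τ / algebraMap ↥F₁ ↥F₂ g) := by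
    refine ⟨X ^ n - 1, ?_, ?_⟩
    · exact Polynomial.X_pow_sub_C_ne_zero hn.pos (1 : L)
    · rw [map_sub, map_pow, aeval_X, map_one, hζ, sub_self]
  obtain ⟨z, hz⟩ := ff_mem_range_of_isAlgebraic (K := L) halgζ
  have hτ' : τ = algebraMap ↥F₁ ↥F₂ (algebraMap L ↥F₁ z * g) := by
    rw [map_mul, ← IsScalarTower.algebraMap_apply, hz, div_mul_cancel₀ _ hgE]
  have hlamF₂ : algebraMap L ↥F₂ ((lamA : ↥A) : L) ≠ 0 := by
    rw [Ne, map_eq_zero]
    exact hlamL0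
  have ht : t = algebraMap ↥F₁ ↥F₂ ((algebraMap L ↥F₁ z * g - ⟨coeffMap A.subtype X₀, hX₀⟩) /
      algebraMap L ↥F₁ ((lamA : ↥A) : L)) := by
    rw [map_div₀, map_sub, ← hτ', ← IsScalarTower.algebraMap_apply, hτ_def, add_sub_cancel_left,
      mul_div_cancel_left₀ _ hlamF₂]
  -- contradiction with the basis
  have h1n : 1 < n := hn.one_lt
  have h01 : (⟨1, h1n⟩ : Fin n) ≠ ⟨0, hn.pos⟩ := by
    intro h
    exact absurd (congrArg Fin.val h) (by simp)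
  have e0 : b ⟨0, hn.pos⟩ = 1 := by rw [hb]; simp
  have e1 : b ⟨1, h1n⟩ = t := by rw [hb]; simp
  have hrepr : b ⟨1, h1n⟩ = ((algebraMap L ↥F₁ z * g - ⟨coeffMap A.subtype X₀, hX₀⟩) /
      algebraMap L ↥F₁ ((lamA : ↥A) : L)) • b ⟨0, hn.pos⟩ := by
    rw [e0, e1, Algebra.smul_def, mul_one]
    exact ht
  have h2 := congrArg (fun v => b.repr v ⟨1, h1n⟩) hrepr
  simp only [map_smul, Module.Basis.repr_self, Finsupp.smul_single, smul_eq_mul, mul_one,
    Finsupp.single_eq_same] at h2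
  rw [Finsupp.single_eq_of_ne h01] at h2
  exact one_ne_zero h2

end Hnot

section Hno

variable {K : Type*} [Field K] {A : ValuationSubring K}
  {F : IntermediateField K (LaurentSeries K)}
  {Fb : IntermediateField (IsLocalRing.ResidueField ↥A)
    (LaurentSeries (IsLocalRing.ResidueField ↥A))}

/-- **[II], series form** (the `hno` of `s48a_q_wild_step_series`). -/
theorem s48c_q_hno (Q : s48d_QPack A (IsLocalRing.residue ↥A) F Fb) {n : ℕ} (hn : n.Prime)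
    (hW : s48c_WKummerTrivial A F n) (lamA uA uinvA : ↥A) (huinv : uA * uinvA = 1)
    (hpu : ((n : ℕ) : ↥A) = uA * lamA ^ (n - 1)) (hlamπ : IsLocalRing.residue ↥A lamA = 0)
    (X₀ Y cc : LaurentSeries ↥A) (hX₀ : coeffMap A.subtype X₀ ∈ F)
    (hY : coeffMap A.subtype Y ∈ F)
    (hcc : Y = X₀ ^ n + HahnSeries.C (lamA ^ n) * cc)
    (hY0 : coeffMap (IsLocalRing.residue ↥A) Y ≠ 0)
    (hdiv : ∀ P : Place K ↥F, (n : ℤ) ∣ P.ord (⟨coeffMap A.subtype Y, hY⟩ : ↥F))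
    (hnot : ¬ ∃ (c : K) (w : ↥F), (⟨coeffMap A.subtype Y, hY⟩ : ↥F) = algebraMap K ↥F c * w ^ n)
    (c : ↥Fb) :
    (c : LaurentSeries (IsLocalRing.ResidueField ↥A)) ^ n +
      HahnSeries.C (IsLocalRing.residue ↥A uA) * coeffMap (IsLocalRing.residue ↥A) X₀ ^ (n - 1) *
        (c : LaurentSeries (IsLocalRing.ResidueField ↥A)) ≠
      coeffMap (IsLocalRing.residue ↥A) cc := by
  have hlam : lamA ∈ IsLocalRing.maximalIdeal ↥A := (IsLocalRing.residue_eq_zero_iff _).mp hlamπ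
  obtain ⟨b₁, b₂, hb1, hb2, -, -, hceq⟩ :=
    s48d_q_liftDiv Q (c : LaurentSeries (IsLocalRing.ResidueField ↥A)) c.2
  by_cases hb20 : coeffMap (IsLocalRing.residue ↥A) b₂ = 0
  · have hc0 : (c : LaurentSeries (IsLocalRing.ResidueField ↥A)) = 0 := by
      rw [hceq, hb20, div_zero]
    have h0F : coeffMap A.subtype (0 : LaurentSeries ↥A) ∈ F := by
      rw [map_zero]
      exact F.zero_mem
    have key := s48c_wnoroot A F hn hW lamA uA uinvA huinv hpu hlam Y X₀ cc hY hX₀ hcc hY0 hdiv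
      hnot 0 h0F
    rw [hc0]
    intro h
    apply key
    rw [map_zero, zero_pow hn.ne_zero, mul_zero, zero_add, ← h, zero_pow hn.ne_zero, mul_zero,
      zero_add, sub_self]
  · have key := s48c_wnoroot_quot A F hn hW lamA uA uinvA huinv hpu hlam Y X₀ cc hY hX₀ hcc hY0
      hdiv hnot b₁ b₂ hb1 hb2 hb20
    rw [← hceq] at key
    exact fun h => key (sub_eq_zero.mpr h)

end Hno

section App

set_option synthInstance.maxHeartbeats 400000 in
set_option maxHeartbeats 800000 in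
/-- **(W2), lattice form, both charts, from the finite-level packages** (the `happ`, `happ'` of
`s48a_q_wild_step_series`). -/
theorem s48c_q_wapp_lat_of_finLevelsAt (F₀ : IntermediateField ℚ (LaurentSeries ℚ))
    (A : ValuationSubring Qbar) {p : ℕ} [Fact p.Prime] (hA : A.LiesOverPrime p)
    {Fb : IntermediateField (IsLocalRing.ResidueField ↥A)
      (LaurentSeries (IsLocalRing.ResidueField ↥A))}
    (Q : s48d_QPack A (IsLocalRing.residue ↥A) (laurentBaseChange Qbar F₀) Fb)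
    (Lmin : IntermediateField ℚ Qbar) [FiniteDimensional ℚ Lmin]
    (w w' : ↥(laurentBaseChange Qbar F₀)) (hww : w * w' = 1)
    (hfin : s48c_FinLevelsAt F₀ A Lmin w)
    (lam u uinv : ↥A) (Y X₀ Z : LaurentSeries ↥A)
    (hY : coeffMap A.subtype Y ∈ laurentBaseChange Qbar F₀)
    (hX : coeffMap A.subtype X₀ ∈ laurentBaseChange Qbar F₀)
    (huinv : u * uinv = 1) (hpu : ((p : ℕ) : ↥A) = u * lam ^ (p - 1))
    (hlam : lam ∈ IsLocalRing.maximalIdeal ↥A)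
    (hrel : Y = X₀ ^ p + HahnSeries.C (lam ^ p) * Z)
    (hY0 : coeffMap (IsLocalRing.residue ↥A) Y ≠ 0)
    (hdivP : ∀ P : Place Qbar ↥(laurentBaseChange Qbar F₀),
      (p : ℤ) ∣ P.ord (⟨coeffMap A.subtype Y, hY⟩ : ↥(laurentBaseChange Qbar F₀))) :
    (∃ Aapp ∈ s18_latSet (s48d_qO Q) (s18_chart1 (L₀ := Qbar) w)
        (s18_E (⟨coeffMap A.subtype Y, hY⟩ : ↥(laurentBaseChange Qbar F₀)) p),
      ∃ y ∈ s48d_qO Q, (⟨coeffMap A.subtype X₀, hX⟩ : ↥(laurentBaseChange Qbar F₀)) - Aapp =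
        algebraMap Qbar ↥(laurentBaseChange Qbar F₀) ((lam : ↥A) : Qbar) * y) ∧
    (∃ Aapp ∈ s18_latSet (s48d_qO Q) (s18_chart1 (L₀ := Qbar) w')
        (s18_E (⟨coeffMap A.subtype Y, hY⟩ : ↥(laurentBaseChange Qbar F₀)) p),
      ∃ y ∈ s48d_qO Q, (⟨coeffMap A.subtype X₀, hX⟩ : ↥(laurentBaseChange Qbar F₀)) - Aapp =
        algebraMap Qbar ↥(laurentBaseChange Qbar F₀) ((lam : ↥A) : Qbar) * y) := by
  have hp : p.Prime := Fact.out
  have hw' : w' = w⁻¹ := (eq_inv_of_mul_eq_one_right hww)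
  subst hw'
  constructor
  · refine s48c_wapp_baseChange F₀ A hA (s48d_qO Q) Lmin w ?_ lam u uinv Y X₀ Z hY hX huinv hpu
      hlam hrel hY0 hdivP
    intro L₀ hfd hL _ ϖ hϖ
    obtain ⟨hFrac, t, ht, ht0, htw, hP⟩ := hfin L₀ ⟨hfd, hL⟩ ϖ hϖ
    haveI := ht
    haveI : IsDiscreteValuationRing
        ↥(s18g_GaussData.ofResidue (A.comap (algebraMap ↥L₀ Qbar)) ϖ hϖ).A :=
      (inferInstance : IsDiscreteValuationRing ↥(A.comap (algebraMap ↥L₀ Qbar)))
    obtain ⟨hIC1, hIC2, hrest⟩ :=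
      s48g_wgeoInputs_of_finPack2 _ (laurentBaseChange ↥L₀ F₀) hFrac t ht0 hP p hp.two_le
    exact ⟨hFrac, t, htw, fun x hx => s48c_q_level_mem F₀ A Q L₀ ϖ hϖ hFrac x hx, hIC1,
      fun h hh0 => (hrest h hh0).1⟩
  · refine s48c_wapp_baseChange F₀ A hA (s48d_qO Q) Lmin w⁻¹ ?_ lam u uinv Y X₀ Z hY hX huinv hpu
      hlam hrel hY0 hdivP
    intro L₀ hfd hL _ ϖ hϖ
    obtain ⟨hFrac, t, ht, ht0, htw, hP⟩ := hfin L₀ ⟨hfd, hL⟩ ϖ hϖ
    haveI := ht
    haveI : IsDiscreteValuationRing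
        ↥(s18g_GaussData.ofResidue (A.comap (algebraMap ↥L₀ Qbar)) ϖ hϖ).A :=
      (inferInstance : IsDiscreteValuationRing ↥(A.comap (algebraMap ↥L₀ Qbar)))
    obtain ⟨hIC1, hIC2, hrest⟩ :=
      s48g_wgeoInputs_of_finPack2 _ (laurentBaseChange ↥L₀ F₀) hFrac t ht0 hP p hp.two_le
    exact ⟨hFrac, t⁻¹, by rw [map_inv₀, htw],
      fun x hx => s48c_q_level_mem F₀ A Q L₀ ϖ hϖ hFrac x hx, hIC2,
      fun h hh0 => (hrest h hh0).2.1⟩

set_option synthInstance.maxHeartbeats 400000 in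
set_option maxHeartbeats 800000 in
/-- **all the wild inputs of `s48a_q_wild_step_series` at once** (`hno`, `happ`, `happ'`), for a
layer over a base-changed `ℚ`-model `F₁ = laurentBaseChange ℚ̄ F₀` with finite-level packages. -/
theorem s48c_q_wild_inputs (F₀ : IntermediateField ℚ (LaurentSeries ℚ))
    (A : ValuationSubring Qbar) {n : ℕ} [Fact n.Prime] (hA : A.LiesOverPrime n)
    {Fb₁ : IntermediateField (IsLocalRing.ResidueField ↥A)
      (LaurentSeries (IsLocalRing.ResidueField ↥A))}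
    (Q₁ : s48d_QPack A (IsLocalRing.residue ↥A) (laurentBaseChange Qbar F₀) Fb₁)
    (hconst : ∀ g : ↥(laurentBaseChange Qbar F₀),
      (∀ P : Place Qbar ↥(laurentBaseChange Qbar F₀), P.ord g ≤ 0) →
        ∃ c : Qbar, g = algebraMap Qbar ↥(laurentBaseChange Qbar F₀) c)
    (Lmin : IntermediateField ℚ Qbar) [FiniteDimensional ℚ Lmin]
    (w₁ w₁' : ↥(laurentBaseChange Qbar F₀)) (hww : w₁ * w₁' = 1)
    (hfin : s48c_FinLevelsAt F₀ A Lmin w₁)
    {F₂ : IntermediateField Qbar (LaurentSeries Qbar)}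
    [Algebra ↥(laurentBaseChange Qbar F₀) ↥F₂]
    [IsScalarTower Qbar ↥(laurentBaseChange Qbar F₀) ↥F₂]
    (halg : ∀ a : ↥(laurentBaseChange Qbar F₀),
      ((algebraMap ↥(laurentBaseChange Qbar F₀) ↥F₂ a : ↥F₂) : LaurentSeries Qbar) =
        (a : LaurentSeries Qbar))
    (b : Module.Basis (Fin n) ↥(laurentBaseChange Qbar F₀) ↥F₂) (t : ↥F₂)
    (hb : ∀ i : Fin n, b i = t ^ (i : ℕ))
    (T X₀ Y cc : LaurentSeries ↥A)
    (hT : (t : LaurentSeries Qbar) = coeffMap A.subtype T)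
    (hX₀ : coeffMap A.subtype X₀ ∈ laurentBaseChange Qbar F₀)
    (hY : coeffMap A.subtype Y ∈ laurentBaseChange Qbar F₀)
    (lamA uA uinvA : ↥A) (huinv : uA * uinvA = 1)
    (hpu : ((n : ℕ) : ↥A) = uA * lamA ^ (n - 1))
    (hlamπ : IsLocalRing.residue ↥A lamA = 0) (hlam0 : lamA ≠ 0)
    (hrelS : Y = (X₀ + HahnSeries.C lamA * T) ^ n)
    (hcc : Y = X₀ ^ n + HahnSeries.C (lamA ^ n) * cc)
    (hY0 : coeffMap (IsLocalRing.residue ↥A) Y ≠ 0)
    (hdiv : ∀ P : Place Qbar ↥(laurentBaseChange Qbar F₀),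
      (n : ℤ) ∣ P.ord (⟨coeffMap A.subtype Y, hY⟩ : ↥(laurentBaseChange Qbar F₀))) :
    (∀ c : ↥Fb₁, (c : LaurentSeries (IsLocalRing.ResidueField ↥A)) ^ n +
      HahnSeries.C (IsLocalRing.residue ↥A uA) *
        coeffMap (IsLocalRing.residue ↥A) X₀ ^ (n - 1) *
          (c : LaurentSeries (IsLocalRing.ResidueField ↥A)) ≠
        coeffMap (IsLocalRing.residue ↥A) cc) ∧
    (∃ Aapp ∈ s18_latSet (s48d_qO Q₁) (s18_chart1 (L₀ := Qbar) w₁)
        (s18_E (⟨coeffMap A.subtype Y, hY⟩ : ↥(laurentBaseChange Qbar F₀)) n),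
      ∃ y ∈ s48d_qO Q₁, (⟨coeffMap A.subtype X₀, hX₀⟩ : ↥(laurentBaseChange Qbar F₀)) - Aapp =
        algebraMap Qbar ↥(laurentBaseChange Qbar F₀) ((lamA : ↥A) : Qbar) * y) ∧
    (∃ Aapp ∈ s18_latSet (s48d_qO Q₁) (s18_chart1 (L₀ := Qbar) w₁')
        (s18_E (⟨coeffMap A.subtype Y, hY⟩ : ↥(laurentBaseChange Qbar F₀)) n),
      ∃ y ∈ s48d_qO Q₁, (⟨coeffMap A.subtype X₀, hX₀⟩ : ↥(laurentBaseChange Qbar F₀)) - Aapp =
        algebraMap Qbar ↥(laurentBaseChange Qbar F₀) ((lamA : ↥A) : Qbar) * y) := by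
  have hn : n.Prime := Fact.out
  have hlam : lamA ∈ IsLocalRing.maximalIdeal ↥A := (IsLocalRing.residue_eq_zero_iff _).mp hlamπ
  have hYne : Y ≠ 0 := by
    rintro rfl
    exact hY0 (map_zero _)
  have hW : s48c_WKummerTrivial A (laurentBaseChange Qbar F₀) n :=
    s48c_wkummerTrivial_of_finLevels F₀ A hA hconst Lmin (s48c_finLevels_of_at hfin)
  have hnot := s48c_q_hnot (A := A) halg hn b t hb T X₀ Y hT hX₀ hY lamA hlam0 hYne hrelS
  obtain ⟨h1, h2⟩ := s48c_q_wapp_lat_of_finLevelsAt F₀ A hA Q₁ Lmin w₁ w₁' hww hfin lamA uA uinvA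
    Y X₀ cc hY hX₀ huinv hpu hlam hcc hY0 hdiv
  exact ⟨fun c => s48c_q_hno Q₁ hn hW lamA uA uinvA huinv hpu hlamπ X₀ Y cc hX₀ hY hcc hY0 hdiv
    hnot c, h1, h2⟩

end App

end Fermat.Agent.Lib.S48
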