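/-
DS-1 (S48), wall [T9] (helper9), part 17: **the TOP half of the wild tower step, all wild inputs
discharged**: helper1's `s48a_q_wild_step_series` (AWildQS) fed by `s48c_q_wild_inputs` (WildStep).

For a layer `F₂ = F₁(t)` of degree `n` = residue characteristic over the base-changed `ℚ`-model
`F₁ = laurentBaseChange ℚ̄ F₀` with q-model package `Q₁`, chart packages on `w₁`, `w₁'`, finite-level
packages `s48c_FinLevelsAt F₀ A Lmin w₁`, and series data `T, X₀, Y, cc`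
(`Y = (X₀ + λ T)^n = X₀^n + λ^n cc`, `n = u λ^(n-1)`):
`∃ Q₂, ChartPack (algebraMap w₁) ∧ ChartPack (algebraMap w₁')`.
-/
import Fermat.Agent.Lib.S48.AWildQS
import Fermat.Agent.Lib.S48.WildStep

set_option autoImplicit false
set_option linter.unusedSectionVars false
set_option linter.style.haveILetI false

noncomputable section

namespace Fermat.Agent.Lib.S48

open AlgebraicCurve ModularCurve HahnSeries Polynomial Fermat.Agent.Lib.FF Fermat.Agent.Lib.S18
  Fermat.Agent.Lib.S37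

local notation "Qbar" => AlgebraicClosure ℚ

/-- the special fibre of a q-model has the residue characteristic. -/
theorem s48c_q_charP {K : Type*} [Field K] {A : ValuationSubring K}
    {F : IntermediateField K (LaurentSeries K)}
    {Fb : IntermediateField (IsLocalRing.ResidueField ↥A)
      (LaurentSeries (IsLocalRing.ResidueField ↥A))}
    (Q : s48d_QPack A (IsLocalRing.residue ↥A) F Fb) {p : ℕ} (hp : p.Prime)
    (lam u : ↥A) (hpu : ((p : ℕ) : ↥A) = u * lam ^ (p - 1))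
    (hlam : lam ∈ IsLocalRing.maximalIdeal ↥A) : CharP ↥Fb p := by
  rw [CharP.charP_iff_prime_eq_zero hp]
  have h1 : ((p : ℕ) : ↥(s48d_qO Q)) =
      ⟨_, s48c_q_const_mem Q u⟩ * ⟨_, s48c_q_const_mem Q lam⟩ ^ (p - 1) := by
    apply Subtype.ext
    show ((p : ℕ) : ↥F) =
      algebraMap K ↥F ((u : ↥A) : K) * algebraMap K ↥F ((lam : ↥A) : K) ^ (p - 1)
    rw [← map_pow, ← map_mul, ← map_natCast (algebraMap K ↥F)]
    congr 1
    exact congrArg Subtype.val hpu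
  have h2 := congrArg (s48d_qRed Q) h1
  rw [map_natCast, map_mul, map_pow, s48c_q_red_const_zero Q lam hlam,
    zero_pow (by have := hp.two_le; omega), mul_zero] at h2
  exact h2

set_option synthInstance.maxHeartbeats 400000 in
set_option maxHeartbeats 1600000 in
/-- **the top half of the wild tower step.** -/
theorem s48c_q_wild_step_top (F₀ : IntermediateField ℚ (LaurentSeries ℚ))
    (A : ValuationSubring Qbar) {n : ℕ} [Fact n.Prime] (hA : A.LiesOverPrime n)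
    {Fb₁ Fb₂ : IntermediateField (IsLocalRing.ResidueField ↥A)
      (LaurentSeries (IsLocalRing.ResidueField ↥A))}
    {F₂ : IntermediateField Qbar (LaurentSeries Qbar)}
    [Algebra ↥(laurentBaseChange Qbar F₀) ↥F₂]
    [IsScalarTower Qbar ↥(laurentBaseChange Qbar F₀) ↥F₂]
    [FiniteDimensional ↥(laurentBaseChange Qbar F₀) ↥F₂]
    [Algebra ↥Fb₁ ↥Fb₂] [IsScalarTower (IsLocalRing.ResidueField ↥A) ↥Fb₁ ↥Fb₂]
    (halg : ∀ a : ↥(laurentBaseChange Qbar F₀),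
      ((algebraMap ↥(laurentBaseChange Qbar F₀) ↥F₂ a : ↥F₂) : LaurentSeries Qbar) =
        (a : LaurentSeries Qbar))
    (halgb : ∀ a : ↥Fb₁, ((algebraMap ↥Fb₁ ↥Fb₂ a : ↥Fb₂) :
      LaurentSeries (IsLocalRing.ResidueField ↥A)) =
        (a : LaurentSeries (IsLocalRing.ResidueField ↥A)))
    (Q₁ : s48d_QPack A (IsLocalRing.residue ↥A) (laurentBaseChange Qbar F₀) Fb₁)
    {x₁ : ↥(laurentBaseChange Qbar F₀)} [FFGen Qbar x₁] {x₂ : ↥F₂} [FFGen Qbar x₂]
    {w₁ w₁' : ↥(laurentBaseChange Qbar F₀)} (hww : w₁ * w₁' = 1)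
    (hP : s48g_ChartPack x₁ A (IsLocalRing.residue ↥A) (s48d_qO Q₁) (s48d_qRed Q₁) w₁)
    (hP' : s48g_ChartPack x₁ A (IsLocalRing.residue ↥A) (s48d_qO Q₁) (s48d_qRed Q₁) w₁')
    (hconst : ∀ g : ↥(laurentBaseChange Qbar F₀),
      (∀ P : Place Qbar ↥(laurentBaseChange Qbar F₀), P.ord g ≤ 0) →
        ∃ c : Qbar, g = algebraMap Qbar ↥(laurentBaseChange Qbar F₀) c)
    (Lmin : IntermediateField ℚ Qbar) [FiniteDimensional ℚ Lmin]
    (hfin : s48c_FinLevelsAt F₀ A Lmin w₁)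
    (b : Module.Basis (Fin n) ↥(laurentBaseChange Qbar F₀) ↥F₂) (t : ↥F₂)
    (hb : ∀ i : Fin n, b i = t ^ (i : ℕ)) (tb : ↥Fb₂)
    (T X₀ Y cc : LaurentSeries ↥A)
    (hT : (t : LaurentSeries Qbar) = coeffMap A.subtype T)
    (hTb : (tb : LaurentSeries (IsLocalRing.ResidueField ↥A)) =
      coeffMap (IsLocalRing.residue ↥A) T)
    (hX₀ : coeffMap A.subtype X₀ ∈ laurentBaseChange Qbar F₀)
    (hY : coeffMap A.subtype Y ∈ laurentBaseChange Qbar F₀)
    (lamA uA uinvA : ↥A) (huinv : uA * uinvA = 1)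
    (hpu : ((n : ℕ) : ↥A) = uA * lamA ^ (n - 1))
    (hlamπ : IsLocalRing.residue ↥A lamA = 0) (hlam0 : lamA ≠ 0)
    (hrelS : Y = (X₀ + HahnSeries.C lamA * T) ^ n)
    (hcc : Y = X₀ ^ n + HahnSeries.C (lamA ^ n) * cc)
    (hY0 : coeffMap (IsLocalRing.residue ↥A) Y ≠ 0)
    (hdiv : ∀ P : Place Qbar ↥(laurentBaseChange Qbar F₀),
      (n : ℤ) ∣ P.ord (⟨coeffMap A.subtype Y, hY⟩ : ↥(laurentBaseChange Qbar F₀)))
    (hspan : ⊤ ≤ Submodule.span ↥Fb₁ (Set.range fun i : Fin n => tb ^ (i : ℕ))) :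
    ∃ Q₂ : s48d_QPack A (IsLocalRing.residue ↥A) F₂ Fb₂,
      s48g_ChartPack x₂ A (IsLocalRing.residue ↥A) (s48d_qO Q₂) (s48d_qRed Q₂)
        (algebraMap ↥(laurentBaseChange Qbar F₀) ↥F₂ w₁) ∧
      s48g_ChartPack x₂ A (IsLocalRing.residue ↥A) (s48d_qO Q₂) (s48d_qRed Q₂)
        (algebraMap ↥(laurentBaseChange Qbar F₀) ↥F₂ w₁') := by
  have hn : n.Prime := Fact.out
  have hlam : lamA ∈ IsLocalRing.maximalIdeal ↥A := (IsLocalRing.residue_eq_zero_iff _).mp hlamπ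
  haveI : CharP ↥Fb₁ n := s48c_q_charP Q₁ hn lamA uA hpu hlam
  obtain ⟨hno, happ, happ'⟩ := s48c_q_wild_inputs F₀ A hA Q₁ hconst Lmin w₁ w₁' hww hfin halg b t
    hb T X₀ Y cc hT hX₀ hY lamA uA uinvA huinv hpu hlamπ hlam0 hrelS hcc hY0 hdiv
  exact s48a_q_wild_step_series halg halgb Q₁ hww hP hP' b t hb tb T X₀ Y cc hT hTb hX₀ hY lamA uA
    uinvA huinv hpu hlamπ hlam0 hrelS hcc hY0 hdiv hspan hno happ happ'

end Fermat.Agent.Lib.S48
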