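/-
DS-1 (S48), wall [T7]/[T9] (helper6), brick (T5): **the wild step of the tower induction.**

Layer `F₂ = F₁(t)` of degree `p` = the residue characteristic, `t = ιT`, `τ = ι(X₀ + λ T)`,
`τ ^ p = ιY ∈ F₁`, `Y = X₀ ^ p + λ ^ p cc`, `p = u λ ^ (p - 1)`.

* `s48g_mem_adjoin_root_monic` : elements of `𝓕(τ)` are polynomials of degree `< n` in `τ`, for a
  root `τ` of a monic polynomial of degree `n`;
* `s48g_wild_top_aux`  : (unpacked induction hypothesis) the reduced wild polynomial is irreducible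
  and separable, and the top half of the induction hypothesis for `F₂`
  (helper1's `s48a_q_wild_step_series` with helper9's `s48c_q_wild_inputs`);
* `s48g_wild_step_top`, `s48g_wild_step_fin`, `s48g_wild_step`.
-/
import Fermat.Agent.Lib.S48.GTowerS
import Fermat.Agent.Lib.S48.WildStepTop
import Fermat.Agent.Lib.S48.WildFinStep

set_option autoImplicit false
set_option linter.unusedSectionVars false
set_option linter.style.haveILetI false
set_option synthInstance.maxHeartbeats 400000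

noncomputable section

namespace Fermat.Agent.Lib.S48

open ModularCurve HahnSeries AlgebraicCurve IntermediateField Polynomial Fermat.Agent.Lib.S37
  Fermat.Agent.Lib.FF Fermat.Agent.Lib.S18

local notation "Qbar" => AlgebraicClosure ℚ

/-- elements of `𝓕(τ)`, `τ` a root of a monic polynomial of degree `n`, are polynomials of degree
`< n` in `τ`. -/
theorem s48g_mem_adjoin_root_monic {𝓕 Ω : Type*} [Field 𝓕] [Field Ω] [Algebra 𝓕 Ω] {n : ℕ}
    (hn : n ≠ 0) (τ : Ω) (g : 𝓕[X]) (hg : g.Monic) (hdeg : g.natDegree = n)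
    (hroot : aeval τ g = 0) {x : Ω} (hx : x ∈ 𝓕⟮τ⟯) :
    ∃ c : Fin n → 𝓕, x = ∑ j : Fin n, algebraMap 𝓕 Ω (c j) * τ ^ (j : ℕ) := by
  have halg : IsAlgebraic 𝓕 τ := ⟨_, hg.ne_zero, hroot⟩
  have hx' : x ∈ (𝓕⟮τ⟯).toSubalgebra := hx
  rw [IntermediateField.adjoin_simple_toSubalgebra_of_isAlgebraic halg,
    Algebra.adjoin_singleton_eq_range_aeval] at hx'
  obtain ⟨q, rfl⟩ := hx'
  have hmod : aeval τ q = aeval τ (q %ₘ g) := by
    conv_lhs => rw [← modByMonic_add_div q g]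
    rw [map_add, map_mul, hroot, zero_mul, add_zero]
  have hne1 : g ≠ 1 := by
    intro h1
    have := congrArg natDegree h1
    rw [hdeg, natDegree_one] at this
    exact hn this
  have hdeg' : (q %ₘ g).natDegree < n := by
    have := natDegree_modByMonic_lt q hg hne1
    rwa [hdeg] at this
  refine ⟨fun j => (q %ₘ g).coeff j, ?_⟩
  show (aeval τ) q = _
  rw [hmod, aeval_eq_sum_range' hdeg', Finset.sum_range]
  refine Finset.sum_congr rfl fun j _ => ?_
  rw [Algebra.smul_def]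

section TopStep

variable {A : ValuationSubring Qbar} {p : ℕ} [Fact p.Prime] (hA : A.LiesOverPrime p)
  {FQ₀ : IntermediateField ℚ (LaurentSeries ℚ)}
  {Gb : IntermediateField (IsLocalRing.ResidueField ↥A)
    (LaurentSeries (IsLocalRing.ResidueField ↥A))}
  {FQ₁ FQ₂ : IntermediateField ℚ (LaurentSeries ℚ)}
  [Algebra ↥(laurentBaseChange Qbar FQ₁) ↥(laurentBaseChange Qbar FQ₂)]
  [IsScalarTower Qbar ↥(laurentBaseChange Qbar FQ₁) ↥(laurentBaseChange Qbar FQ₂)]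
  [FiniteDimensional ↥(laurentBaseChange Qbar FQ₁) ↥(laurentBaseChange Qbar FQ₂)]
  (halg : ∀ a : ↥(laurentBaseChange Qbar FQ₁),
    ((algebraMap ↥(laurentBaseChange Qbar FQ₁) ↥(laurentBaseChange Qbar FQ₂) a :
      ↥(laurentBaseChange Qbar FQ₂)) : LaurentSeries Qbar) = (a : LaurentSeries Qbar))

include hA halg in
set_option maxHeartbeats 3200000 in
/-- **the wild step, top level, unpacked**: irreducibility and separability of the reduced wild
polynomial, and the top half of the induction hypothesis of the layer. -/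
theorem s48g_wild_top_aux (h01 : FQ₀ ≤ FQ₁) (w : ↥(laurentBaseChange Qbar FQ₁)) (hw0 : w ≠ 0)
    (T X₀ Y cc : LaurentSeries ↥A)
    (hT2 : coeffMap A.subtype T ∈ laurentBaseChange Qbar FQ₂)
    (hTG : coeffMap (IsLocalRing.residue ↥A) T ∈ Gb)
    (b : Module.Basis (Fin p) ↥(laurentBaseChange Qbar FQ₁) ↥(laurentBaseChange Qbar FQ₂))
    (hb : ∀ i : Fin p, b i = (⟨coeffMap A.subtype T, hT2⟩ : ↥(laurentBaseChange Qbar FQ₂)) ^ (i : ℕ))
    (hX₀ : coeffMap A.subtype X₀ ∈ laurentBaseChange Qbar FQ₁)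
    (hY : coeffMap A.subtype Y ∈ laurentBaseChange Qbar FQ₁)
    (lamA uA uinvA : ↥A) (huinv : uA * uinvA = 1)
    (hpu : ((p : ℕ) : ↥A) = uA * lamA ^ (p - 1))
    (hlamπ : IsLocalRing.residue ↥A lamA = 0) (hlam0 : lamA ≠ 0)
    (hrelS : Y = (X₀ + HahnSeries.C lamA * T) ^ p)
    (hcc : Y = X₀ ^ p + HahnSeries.C (lamA ^ p) * cc)
    (hY0 : coeffMap (IsLocalRing.residue ↥A) Y ≠ 0)
    (hdiv : ∀ P : Place Qbar ↥(laurentBaseChange Qbar FQ₁),
      (p : ℤ) ∣ P.ord (⟨coeffMap A.subtype Y, hY⟩ : ↥(laurentBaseChange Qbar FQ₁)))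
    {Fb₁ : IntermediateField (IsLocalRing.ResidueField ↥A)
      (LaurentSeries (IsLocalRing.ResidueField ↥A))}
    (Q₁ : s48d_QPack A (IsLocalRing.residue ↥A) (laurentBaseChange Qbar FQ₁) Fb₁)
    (x₁ : ↥(laurentBaseChange Qbar FQ₁)) [FFGen Qbar x₁]
    (hP : s48g_ChartPack x₁ A (IsLocalRing.residue ↥A) (s48d_qO Q₁) (s48d_qRed Q₁) w)
    (hP' : s48g_ChartPack x₁ A (IsLocalRing.residue ↥A) (s48d_qO Q₁) (s48d_qRed Q₁) w⁻¹)
    (hint₁ : s48e_IntOver A (IsLocalRing.residue ↥A) (laurentBaseChange Qbar FQ₀)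
      (laurentBaseChange Qbar FQ₁))
    (hFbG : Fb₁ ≤ Gb)
    (xb₁ : ↥Fb₁) [FFGen (IsLocalRing.ResidueField ↥A) xb₁]
    [Algebra.IsSeparable (IsLocalRing.ResidueField ↥A)⟮xb₁⟯ ↥Fb₁]
    (hfin : s48g_FinIH A FQ₁ w) :
    (∀ ft : (↥(s48d_qO Q₁))[X],
      ft.map (s48d_qO Q₁).subtype =
        s48a_wpoly (⟨coeffMap A.subtype X₀, hX₀⟩ : ↥(laurentBaseChange Qbar FQ₁))
          (algebraMap Qbar ↥(laurentBaseChange Qbar FQ₁) ((lamA : ↥A) : Qbar))
          (⟨coeffMap A.subtype Y, hY⟩ : ↥(laurentBaseChange Qbar FQ₁)) p →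
      Irreducible (ft.map (s48d_qRed Q₁)) ∧ (ft.map (s48d_qRed Q₁)).Separable) ∧
    s48g_TopIH A FQ₀ Gb FQ₂
      (algebraMap ↥(laurentBaseChange Qbar FQ₁) ↥(laurentBaseChange Qbar FQ₂) w) := by
  classical
  have hn : p.Prime := Fact.out
  have hlam : lamA ∈ IsLocalRing.maximalIdeal ↥A := (IsLocalRing.residue_eq_zero_iff _).mp hlamπ
  haveI : CharP ↥Fb₁ p := s48c_q_charP Q₁ hn lamA uA hpu hlam
  set t : ↥(laurentBaseChange Qbar FQ₂) := ⟨coeffMap A.subtype T, hT2⟩ with ht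
  set a : ↥(laurentBaseChange Qbar FQ₁) := ⟨coeffMap A.subtype X₀, hX₀⟩ with ha
  set h : ↥(laurentBaseChange Qbar FQ₁) := ⟨coeffMap A.subtype Y, hY⟩ with hh_def
  -- the finite levels
  obtain ⟨Lmin, hfd, H⟩ := hfin
  haveI := hfd
  have hfin' : s48c_FinLevelsAt FQ₁ A Lmin w := by
    intro L₀ hL inst ϖ hϖ
    obtain ⟨hFrac, w₀, iw, hw, hPf⟩ := H L₀ hL ϖ hϖ
    refine ⟨hFrac, w₀, iw, ?_, hw, hPf⟩
    rintro rfl
    rw [map_zero] at hw
    exact hw0 hw.symm
  have hww : w * w⁻¹ = 1 := mul_inv_cancel₀ hw0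
  obtain ⟨hno, happ, happ'⟩ := s48c_q_wild_inputs FQ₁ A hA Q₁
    (fun g hg => s48d_q_const x₁ g hg) Lmin w w⁻¹ hww hfin' halg b t hb T X₀ Y cc rfl hX₀ hY
    lamA uA uinvA huinv hpu hlamπ hlam0 hrelS hcc hY0 hdiv
  -- the residue field of the layer
  set tbS : LaurentSeries (IsLocalRing.ResidueField ↥A) := coeffMap (IsLocalRing.residue ↥A) T
    with htbS
  set Fb₂ : IntermediateField (IsLocalRing.ResidueField ↥A)
      (LaurentSeries (IsLocalRing.ResidueField ↥A)) :=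
    IntermediateField.restrictScalars (IsLocalRing.ResidueField ↥A)
      (IntermediateField.adjoin ↥Fb₁ {tbS}) with hFb₂
  have hle : Fb₁ ≤ Fb₂ := fun y hy =>
    (IntermediateField.adjoin ↥Fb₁ {tbS}).algebraMap_mem ⟨y, hy⟩
  have htbmem : tbS ∈ Fb₂ := IntermediateField.mem_adjoin_simple_self ↥Fb₁ tbS
  set tb : ↥Fb₂ := ⟨tbS, htbmem⟩ with htb
  letI a1 : Algebra ↥Fb₁ ↥Fb₂ := (IntermediateField.inclusion hle).toAlgebra
  haveI t1 : IsScalarTower (IsLocalRing.ResidueField ↥A) ↥Fb₁ ↥Fb₂ :=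
    IsScalarTower.of_algebraMap_eq fun _ => rfl
  have halgb : ∀ a : ↥Fb₁, ((algebraMap ↥Fb₁ ↥Fb₂ a : ↥Fb₂) :
      LaurentSeries (IsLocalRing.ResidueField ↥A)) =
      (a : LaurentSeries (IsLocalRing.ResidueField ↥A)) := fun _ => rfl
  -- helper1's internals
  have haO : a ∈ s48d_qO Q₁ := s48d_q_iota_mem Q₁ X₀ hX₀
  have hhO : h ∈ s48d_qO Q₁ := s48d_q_iota_mem Q₁ Y hY
  set lam : Qbar := ((lamA : ↥A) : Qbar) with hlamdef
  have hlamL0 : lam ≠ 0 := fun h0 => hlam0 (Subtype.ext h0)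
  have hnu : (p : Qbar) = (uA : Qbar) * lam ^ (p - 1) := by
    have := congrArg (fun x : ↥A => (x : Qbar)) hpu
    simpa using this
  have hreda : ((s48d_qRed Q₁ ⟨a, haO⟩ : ↥Fb₁) : LaurentSeries (IsLocalRing.ResidueField ↥A)) =
      coeffMap (IsLocalRing.residue ↥A) X₀ := s48d_qRedV_iota Q₁ X₀ hX₀
  have hρlam : coeffMap (IsLocalRing.residue ↥A) (HahnSeries.C lamA : LaurentSeries ↥A) = 0 := by
    rw [s48a_rho_C, hlamπ, map_zero]
  have hρY : coeffMap (IsLocalRing.residue ↥A) Y =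
      coeffMap (IsLocalRing.residue ↥A) X₀ ^ p := by
    rw [hcc, map_add, map_mul, map_pow, map_pow, map_pow, hρlam, zero_pow hn.ne_zero, zero_mul,
      add_zero]
  have hρX₀ : coeffMap (IsLocalRing.residue ↥A) X₀ ≠ 0 := by
    intro h0
    apply hY0
    rw [hρY, h0, zero_pow hn.ne_zero]
  have hπu : IsLocalRing.residue ↥A uA ≠ 0 := by
    intro h0
    have := congrArg (IsLocalRing.residue ↥A) huinv
    rw [map_mul, h0, zero_mul, map_one] at this
    exact zero_ne_one this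
  have hlamF₁ : (algebraMap Qbar (LaurentSeries Qbar) lam) ≠ 0 :=
    (_root_.map_ne_zero _).mpr hlamL0
  have hccrel : coeffMap A.subtype cc =
      (coeffMap A.subtype Y - coeffMap A.subtype X₀ ^ p) /
        (algebraMap Qbar (LaurentSeries Qbar) lam) ^ p := by
    rw [hcc, map_add, map_mul, map_pow, map_pow, map_pow, s48a_iota_C]
    field_simp
    simp only [hlamdef]
    ring
  have hccF : coeffMap A.subtype cc ∈ laurentBaseChange Qbar FQ₁ := by
    rw [hccrel]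
    exact (laurentBaseChange Qbar FQ₁).div_mem
      ((laurentBaseChange Qbar FQ₁).sub_mem hY (pow_mem hX₀ p))
      (pow_mem ((laurentBaseChange Qbar FQ₁).algebraMap_mem lam) p)
  have hccO : (⟨coeffMap A.subtype cc, hccF⟩ : ↥(laurentBaseChange Qbar FQ₁)) ∈ s48d_qO Q₁ :=
    s48d_q_iota_mem Q₁ cc hccF
  -- `τ`
  set τ : ↥(laurentBaseChange Qbar FQ₂) :=
    algebraMap ↥(laurentBaseChange Qbar FQ₁) ↥(laurentBaseChange Qbar FQ₂) a +
      algebraMap Qbar ↥(laurentBaseChange Qbar FQ₂) lam * t with hτ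
  have hτser : (τ : LaurentSeries Qbar) = coeffMap A.subtype (X₀ + HahnSeries.C lamA * T) := by
    rw [hτ, map_add, map_mul, s48a_iota_C]
    show ((algebraMap ↥(laurentBaseChange Qbar FQ₁) ↥(laurentBaseChange Qbar FQ₂) a :
        ↥(laurentBaseChange Qbar FQ₂)) : LaurentSeries Qbar) +
      ((algebraMap Qbar ↥(laurentBaseChange Qbar FQ₂) lam : ↥(laurentBaseChange Qbar FQ₂)) :
        LaurentSeries Qbar) * (t : LaurentSeries Qbar) = _
    rw [halg]
    rfl
  have hh : τ ^ p = algebraMap ↥(laurentBaseChange Qbar FQ₁) ↥(laurentBaseChange Qbar FQ₂) h := by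
    apply Subtype.ext
    rw [SubmonoidClass.coe_pow, hτser, ← map_pow, ← hrelS, halg]
  -- elements of `Fb₁`
  have hρX₀mem : coeffMap (IsLocalRing.residue ↥A) X₀ ∈ Fb₁ := by
    rw [← hreda]
    exact (s48d_qRed Q₁ ⟨a, haO⟩).2
  have hρccmem : coeffMap (IsLocalRing.residue ↥A) cc ∈ Fb₁ := by
    have := s48d_qRedV_iota Q₁ cc hccF
    rw [← this]
    exact s48d_qRedV_mem Q₁ _
  set γ : ↥Fb₁ := ⟨HahnSeries.C (IsLocalRing.residue ↥A uA) *
      coeffMap (IsLocalRing.residue ↥A) X₀ ^ (p - 1),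
    Fb₁.mul_mem (by
      have : (HahnSeries.C (IsLocalRing.residue ↥A uA) :
          LaurentSeries (IsLocalRing.ResidueField ↥A)) =
          algebraMap (IsLocalRing.ResidueField ↥A) (LaurentSeries (IsLocalRing.ResidueField ↥A))
            (IsLocalRing.residue ↥A uA) := by
        rw [algebraMap_laurentSeries_eq_single, HahnSeries.C_apply]
      rw [this]
      exact Fb₁.algebraMap_mem _) (pow_mem hρX₀mem _)⟩ with hγdef
  set β : ↥Fb₁ := ⟨coeffMap (IsLocalRing.residue ↥A) cc, hρccmem⟩ with hβdef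
  have hγ : γ ≠ 0 := by
    intro h0
    have := congrArg (fun z : ↥Fb₁ => (z : LaurentSeries (IsLocalRing.ResidueField ↥A))) h0
    simp only [hγdef, ZeroMemClass.coe_zero] at this
    rcases mul_eq_zero.mp this with h1 | h1
    · apply hπu
      have h2 : (HahnSeries.C (IsLocalRing.residue ↥A uA) :
          LaurentSeries (IsLocalRing.ResidueField ↥A)) = HahnSeries.C 0 := by rw [h1, map_zero]
      exact HahnSeries.C_injective h2
    · exact hρX₀ (pow_eq_zero_iff (by have := hn.two_le; omega) |>.mp h1)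
  have hAS := s48a_series_as (IsLocalRing.residue ↥A) hn T X₀ Y cc lamA uA hpu hlamπ hlam0 hrelS hcc
  have htbrel : tb ^ p + algebraMap ↥Fb₁ ↥Fb₂ γ * tb = algebraMap ↥Fb₁ ↥Fb₂ β := by
    apply Subtype.ext
    rw [AddMemClass.coe_add, MulMemClass.coe_mul, SubmonoidClass.coe_pow, halgb, halgb]
    exact hAS
  -- [II] ⇒ `indep`
  have hindep : LinearIndependent ↥Fb₁ (fun i : Fin p => tb ^ (i : ℕ)) := by
    refine s48c_as_indep p γ β hγ tb htbrel fun c hc => hno c ?_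
    have := congrArg (fun z : ↥Fb₁ => (z : LaurentSeries (IsLocalRing.ResidueField ↥A))) hc
    simpa [hγdef, hβdef] using this
  -- spanning
  set gAS : (↥Fb₁)[X] := (Polynomial.X : (↥Fb₁)[X]) ^ p +
    (Polynomial.C γ * (Polynomial.X : (↥Fb₁)[X]) - Polynomial.C β) with hgAS
  have hdegAS : (Polynomial.C γ * (Polynomial.X : (↥Fb₁)[X]) - Polynomial.C β :
      (↥Fb₁)[X]).degree < ((p : ℕ) : WithBot ℕ) := by
    refine lt_of_le_of_lt (degree_sub_le _ _) (max_lt ?_ ?_)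
    · refine lt_of_le_of_lt (degree_C_mul_X_le _) ?_
      exact_mod_cast hn.two_le
    · refine lt_of_le_of_lt degree_C_le ?_
      exact_mod_cast hn.pos
  have hgmonic : gAS.Monic := monic_X_pow_add hdegAS
  have hgdeg : gAS.natDegree = p := by
    rw [hgAS, natDegree_add_eq_left_of_degree_lt (by rwa [degree_X_pow]), natDegree_X_pow]
  have hgroot : aeval tbS gAS = 0 := by
    rw [hgAS, map_add, map_pow, aeval_X, map_sub, map_mul, aeval_X, aeval_C, aeval_C]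
    have h1 : tbS ^ p + (γ : LaurentSeries (IsLocalRing.ResidueField ↥A)) * tbS =
        (β : LaurentSeries (IsLocalRing.ResidueField ↥A)) := hAS
    show tbS ^ p + ((γ : LaurentSeries (IsLocalRing.ResidueField ↥A)) * tbS -
      (β : LaurentSeries (IsLocalRing.ResidueField ↥A))) = 0
    rw [← h1]
    ring
  have hspan : ⊤ ≤ Submodule.span ↥Fb₁ (Set.range fun i : Fin p => tb ^ (i : ℕ)) := by
    intro y _
    have hy : (y : LaurentSeries (IsLocalRing.ResidueField ↥A)) ∈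
        IntermediateField.adjoin ↥Fb₁ {tbS} := y.2
    obtain ⟨c, hc⟩ := s48g_mem_adjoin_root_monic hn.ne_zero tbS gAS hgmonic hgdeg hgroot hy
    have hy' : y = ∑ j : Fin p, c j • tb ^ (j : ℕ) := by
      apply Subtype.ext
      rw [hc, AddSubmonoidClass.coe_finsetSum]
      refine Finset.sum_congr rfl fun j _ => ?_
      rw [Algebra.smul_def, MulMemClass.coe_mul, SubmonoidClass.coe_pow]
      rfl
    rw [hy']
    exact Submodule.sum_mem _ fun j _ =>
      Submodule.smul_mem _ _ (Submodule.subset_span ⟨j, rfl⟩)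
  -- the layer datum, with the explicit polynomial
  have hlamO : algebraMap Qbar ↥(laurentBaseChange Qbar FQ₁) lam ∈ s48d_qO Q₁ :=
    s48c_q_const_mem Q₁ lamA
  have huO : algebraMap Qbar ↥(laurentBaseChange Qbar FQ₁) (uA : Qbar) ∈ s48d_qO Q₁ :=
    s48c_q_const_mem Q₁ uA
  have hlamF0 : algebraMap Qbar ↥(laurentBaseChange Qbar FQ₁) lam ≠ 0 :=
    (_root_.map_ne_zero _).mpr hlamL0
  have hc0 : (a ^ p - h) / algebraMap Qbar ↥(laurentBaseChange Qbar FQ₁) lam ^ p ∈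
      s48d_qO Q₁ := by
    have : (a ^ p - h) / algebraMap Qbar ↥(laurentBaseChange Qbar FQ₁) lam ^ p =
        - ⟨coeffMap A.subtype cc, hccF⟩ := by
      apply Subtype.ext
      rw [NegMemClass.coe_neg]
      show ((a ^ p - h : ↥(laurentBaseChange Qbar FQ₁)) : LaurentSeries Qbar) /
        ((algebraMap Qbar ↥(laurentBaseChange Qbar FQ₁) lam ^ p :
          ↥(laurentBaseChange Qbar FQ₁)) : LaurentSeries Qbar) = - coeffMap A.subtype cc
      rw [hccrel, AddSubgroupClass.coe_sub, SubmonoidClass.coe_pow, SubmonoidClass.coe_pow]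
      show (coeffMap A.subtype X₀ ^ p - coeffMap A.subtype Y) /
        (algebraMap Qbar (LaurentSeries Qbar) lam) ^ p = _
      rw [← neg_div, neg_sub]
    rw [this]
    exact neg_mem hccO
  have hnuF : (p : ↥(laurentBaseChange Qbar FQ₁)) =
      algebraMap Qbar ↥(laurentBaseChange Qbar FQ₁) (uA : Qbar) *
        algebraMap Qbar ↥(laurentBaseChange Qbar FQ₁) lam ^ (p - 1) := by
    rw [← map_pow, ← map_mul, ← hnu, map_natCast]
  have hrelK : (t + algebraMap ↥(laurentBaseChange Qbar FQ₁) ↥(laurentBaseChange Qbar FQ₂)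
      (a / algebraMap Qbar ↥(laurentBaseChange Qbar FQ₁) lam)) ^ p =
      algebraMap ↥(laurentBaseChange Qbar FQ₁) ↥(laurentBaseChange Qbar FQ₂)
        (h / algebraMap Qbar ↥(laurentBaseChange Qbar FQ₁) lam ^ p) := by
    have h1 : algebraMap ↥(laurentBaseChange Qbar FQ₁) ↥(laurentBaseChange Qbar FQ₂)
        (algebraMap Qbar ↥(laurentBaseChange Qbar FQ₁) lam) =
        algebraMap Qbar ↥(laurentBaseChange Qbar FQ₂) lam :=
      (IsScalarTower.algebraMap_apply Qbar ↥(laurentBaseChange Qbar FQ₁)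
        ↥(laurentBaseChange Qbar FQ₂) lam).symm
    have h2 : algebraMap Qbar ↥(laurentBaseChange Qbar FQ₂) lam ≠ 0 :=
      (_root_.map_ne_zero _).mpr hlamL0
    have h3 : t + algebraMap ↥(laurentBaseChange Qbar FQ₁) ↥(laurentBaseChange Qbar FQ₂)
        (a / algebraMap Qbar ↥(laurentBaseChange Qbar FQ₁) lam) =
        τ / algebraMap Qbar ↥(laurentBaseChange Qbar FQ₂) lam := by
      rw [hτ, map_div₀, h1]
      field_simp
      ring
    rw [h3, div_pow, hh, map_div₀, map_pow, h1]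
  obtain ⟨ft, hftmonic, hftdeg, hftroot, hftmap⟩ := s48c_wild_poly (s48d_qO Q₁) hn t
    (algebraMap Qbar ↥(laurentBaseChange Qbar FQ₁) lam)
    (algebraMap Qbar ↥(laurentBaseChange Qbar FQ₁) (uA : Qbar)) a h hlamO hlamF0 huO hnuF haO
    hc0 hrelK
  have hK : s48g_LayerData (s48d_qO Q₁) (s48d_qRed Q₁) b t ft tb :=
    ⟨s48d_q_inv_mem Q₁, hb, hftmonic, hftdeg, hftroot,
      s48d_q_rootb halg halgb Q₁ T rfl rfl hftroot, hindep⟩
  have hirr : Irreducible (ft.map (s48d_qRed Q₁)) := s48g_layerData_irreducible hK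
  -- separability
  set bb : Module.Basis (Fin p) ↥Fb₁ ↥Fb₂ := Module.Basis.mk hindep hspan with hbbdef
  have hbb : ∀ i : Fin p, bb i = tb ^ (i : ℕ) := fun i => by
    rw [hbbdef, Module.Basis.mk_apply]
  haveI hfdb : FiniteDimensional ↥Fb₁ ↥Fb₂ := Module.Finite.of_basis bb
  haveI hsep₂ : Algebra.IsSeparable ↥Fb₁ ↥Fb₂ := s48a_as_isSeparable bb tb hbb γ β hγ htbrel
  have hsepft : (ft.map (s48d_qRed Q₁)).Separable := by
    have hroot' : aeval tb (ft.map (s48d_qRed Q₁)) = 0 := s48g_layerData_aeval_tb hK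
    have hmin : ft.map (s48d_qRed Q₁) = minpoly ↥Fb₁ tb :=
      minpoly.eq_of_irreducible_of_monic hirr hroot' (hftmonic.map _)
    rw [hmin]
    exact Algebra.IsSeparable.isSeparable ↥Fb₁ tb
  refine ⟨fun ft' hft' => ?_, ?_⟩
  · have : ft' = ft := by
      apply Polynomial.map_injective (s48d_qO Q₁).subtype Subtype.val_injective
      rw [hft', hftmap]
    rw [this]
    exact ⟨hirr, hsepft⟩
  -- the q-model step
  haveI ix₂ : FFGen Qbar (algebraMap ↥(laurentBaseChange Qbar FQ₁)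
      ↥(laurentBaseChange Qbar FQ₂) x₁) := s48g_ffGen_algebraMap x₁
  obtain ⟨Q₂, hP₂, hP₂'⟩ := s48a_q_wild_step_series halg halgb Q₁
    (x₂ := algebraMap ↥(laurentBaseChange Qbar FQ₁) ↥(laurentBaseChange Qbar FQ₂) x₁) hww hP hP'
    b t hb tb T X₀ Y cc rfl rfl hX₀ hY lamA uA uinvA huinv hpu hlamπ hlam0 hrelS hcc hY0 hdiv
    hspan hno happ happ'
  have hint₁₂ : s48e_IntOver A (IsLocalRing.residue ↥A) (laurentBaseChange Qbar FQ₁)
      (laurentBaseChange Qbar FQ₂) :=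
    s48e_intOver_of_layer halg (s48d_qO Q₁) (fun c hc => hc) hK
      (fun y hy => s48d_q_mem_of_mem_O halg halgb Q₁ T rfl rfl hK y hy)
  have hint₂ : s48e_IntOver A (IsLocalRing.residue ↥A) (laurentBaseChange Qbar FQ₀)
      (laurentBaseChange Qbar FQ₂) :=
    s48e_intOver_trans (s48g_lbc_mono Qbar h01) hint₁ hint₁₂
  have hFbG₂ : Fb₂ ≤ Gb := by
    intro y hy
    have hy' : y ∈ IntermediateField.adjoin ↥Fb₁ {tbS} := hy
    obtain ⟨c, hc⟩ := s48g_mem_adjoin_root_monic hn.ne_zero tbS gAS hgmonic hgdeg hgroot hy'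
    rw [hc]
    exact sum_mem fun j _ => mul_mem (hFbG (c j).2) (pow_mem hTG _)
  haveI ixb₂ : FFGen (IsLocalRing.ResidueField ↥A) (algebraMap ↥Fb₁ ↥Fb₂ xb₁) :=
    s48g_ffGen_algebraMap xb₁
  haveI hsepx : Algebra.IsSeparable
      ↥(IsLocalRing.ResidueField ↥A)⟮algebraMap ↥Fb₁ ↥Fb₂ xb₁⟯ ↥Fb₂ :=
    s48g_isSeparable_adjoin_tower xb₁
  refine ⟨Fb₂, Q₂, algebraMap ↥(laurentBaseChange Qbar FQ₁) ↥(laurentBaseChange Qbar FQ₂) x₁,
    ix₂, hP₂, ?_, hint₂, hFbG₂, algebraMap ↥Fb₁ ↥Fb₂ xb₁, ixb₂, hsepx⟩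
  rw [← map_inv₀]
  exact hP₂'

include hA halg in
/-- **the wild step, top half.** -/
theorem s48g_wild_step_top (h01 : FQ₀ ≤ FQ₁) (w : ↥(laurentBaseChange Qbar FQ₁)) (hw0 : w ≠ 0)
    (T X₀ Y cc : LaurentSeries ↥A)
    (hT2 : coeffMap A.subtype T ∈ laurentBaseChange Qbar FQ₂)
    (hTG : coeffMap (IsLocalRing.residue ↥A) T ∈ Gb)
    (b : Module.Basis (Fin p) ↥(laurentBaseChange Qbar FQ₁) ↥(laurentBaseChange Qbar FQ₂))
    (hb : ∀ i : Fin p, b i = (⟨coeffMap A.subtype T, hT2⟩ : ↥(laurentBaseChange Qbar FQ₂)) ^ (i : ℕ))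
    (hX₀ : coeffMap A.subtype X₀ ∈ laurentBaseChange Qbar FQ₁)
    (hY : coeffMap A.subtype Y ∈ laurentBaseChange Qbar FQ₁)
    (lamA uA uinvA : ↥A) (huinv : uA * uinvA = 1)
    (hpu : ((p : ℕ) : ↥A) = uA * lamA ^ (p - 1))
    (hlamπ : IsLocalRing.residue ↥A lamA = 0) (hlam0 : lamA ≠ 0)
    (hrelS : Y = (X₀ + HahnSeries.C lamA * T) ^ p)
    (hcc : Y = X₀ ^ p + HahnSeries.C (lamA ^ p) * cc)
    (hY0 : coeffMap (IsLocalRing.residue ↥A) Y ≠ 0)
    (hdiv : ∀ P : Place Qbar ↥(laurentBaseChange Qbar FQ₁),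
      (p : ℤ) ∣ P.ord (⟨coeffMap A.subtype Y, hY⟩ : ↥(laurentBaseChange Qbar FQ₁)))
    (htop : s48g_TopIH A FQ₀ Gb FQ₁ w) (hfin : s48g_FinIH A FQ₁ w) :
    s48g_TopIH A FQ₀ Gb FQ₂
      (algebraMap ↥(laurentBaseChange Qbar FQ₁) ↥(laurentBaseChange Qbar FQ₂) w) := by
  obtain ⟨Fb₁, Q₁, x₁, ix₁, hP, hP', hint₁, hFbG, xb₁, ixb, hsep₁⟩ := htop
  haveI := ix₁
  haveI := ixb
  haveI := hsep₁
  exact (s48g_wild_top_aux hA halg h01 w hw0 T X₀ Y cc hT2 hTG b hb hX₀ hY lamA uA uinvA huinv hpu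
    hlamπ hlam0 hrelS hcc hY0 hdiv Q₁ x₁ hP hP' hint₁ hFbG xb₁ hfin).2

end TopStep

end Fermat.Agent.Lib.S48
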