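/-
S48 / DS-1, [T5] brick (helper3): **[INV] for `Γ_H` from [INV] for `Γ₀(M)`**, abstractly.

`E` a field and `ℂ`-algebra with a `ℂ`-linear action of a group `G₀` (in the application
`G₀ = Γ₀(M)`, `E = ffm_E M`), `lam : G₀ →* (ℤ/M)ˣ` surjective (the lower right entry),
`H ≤ (ℤ/M)ˣ`, `L ⊆ E` a subfield (the image of the bridge `φ_H`) such that

* `hC`   : `ℂ ⊆ L`;
* `hfix` : every `G₀`-fixed element of `E` lies in `L`;
* `ht`   : for every Dirichlet character `χ` mod `M` trivial on `H` there is `0 ≠ t_χ ∈ L` with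
           `g • t_χ = χ (lam g) • t_χ`.

Then every element of `E` fixed by `lam⁻¹(H)` lies in `L` (`s48h_invH`).
Proof: Fourier decomposition `φ(M) • y = ∑_χ y_χ`, `y_χ = ∑_d χ(d⁻¹) • σ_d • y`.
-/
import Mathlib

set_option autoImplicit false
set_option linter.unusedSectionVars false

namespace Fermat.Agent.Lib.S48

noncomputable section

open scoped BigOperators

section

variable {M : ℕ} [NeZero M] {E : Type*} [Field E] [Algebra ℂ E] {G₀ : Type*} [Group G₀]
  [MulSemiringAction G₀ E] [SMulCommClass G₀ ℂ E]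
  (lam : G₀ →* (ZMod M)ˣ) (H : Subgroup (ZMod M)ˣ)

/-- Elements with the same `lam` modulo `H` act in the same way on `lam⁻¹(H)`-invariants. -/
theorem s48h_smul_eq_of_lam {y : E} (hy : ∀ g : G₀, lam g ∈ H → g • y = y) {g g' : G₀}
    (h : (lam g')⁻¹ * lam g ∈ H) : g • y = g' • y := by
  have h1 : (g'⁻¹ * g) • y = y := hy _ (by rw [map_mul, map_inv]; exact h)
  calc g • y = g' • ((g'⁻¹ * g) • y) := by rw [← mul_smul, mul_inv_cancel_left]
    _ = g' • y := by rw [h1]

variable (hsurj : Function.Surjective lam)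

/-- A section of `lam`. -/
def s48h_sec (hsurj : Function.Surjective lam) (d : (ZMod M)ˣ) : G₀ := Function.surjInv hsurj d

theorem s48h_lam_sec (d : (ZMod M)ˣ) : lam (s48h_sec lam hsurj d) = d :=
  Function.surjInv_eq hsurj d

/-- The `χ`-component of `y`. -/
def s48h_comp (y : E) (χ : DirichletCharacter ℂ M) : E :=
  ∑ d : (ZMod M)ˣ, χ ((d⁻¹ : (ZMod M)ˣ) : ZMod M) • (s48h_sec lam hsurj d • y)

/-- The components transform by `χ ∘ lam`. -/
theorem s48h_smul_comp {y : E} (hy : ∀ g : G₀, lam g ∈ H → g • y = y)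
    (χ : DirichletCharacter ℂ M) (g : G₀) :
    g • s48h_comp lam hsurj y χ = χ ((lam g : (ZMod M)ˣ) : ZMod M) • s48h_comp lam hsurj y χ := by
  unfold s48h_comp
  rw [Finset.smul_sum, Finset.smul_sum]
  refine (Fintype.sum_equiv (Equiv.mulLeft (lam g)) _ _ fun d => ?_)
  rw [smul_comm g, ← mul_smul g, smul_smul, Equiv.coe_mulLeft]
  congr 1
  · rw [← map_mul, ← Units.val_mul, mul_inv_rev, mul_comm d⁻¹, mul_inv_cancel_left]
  · refine s48h_smul_eq_of_lam lam H hy ?_
    rw [s48h_lam_sec, map_mul, s48h_lam_sec, inv_mul_cancel]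
    exact one_mem H

/-- Components for characters which are nontrivial on `H` vanish. -/
theorem s48h_comp_eq_zero {y : E} (hy : ∀ g : G₀, lam g ∈ H → g • y = y)
    (χ : DirichletCharacter ℂ M) {h : (ZMod M)ˣ} (hh : h ∈ H)
    (hχ : χ ((h : (ZMod M)ˣ) : ZMod M) ≠ 1) : s48h_comp lam hsurj y χ = 0 := by
  have key : s48h_comp lam hsurj y χ =
      χ ((h⁻¹ : (ZMod M)ˣ) : ZMod M) • s48h_comp lam hsurj y χ := by
    conv_lhs => unfold s48h_comp
    unfold s48h_comp
    rw [Finset.smul_sum]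
    refine (Fintype.sum_equiv (Equiv.mulRight h⁻¹) _ _ fun d => ?_)
    rw [smul_smul, Equiv.coe_mulRight]
    congr 1
    · rw [← map_mul, ← Units.val_mul, mul_inv_rev, inv_inv, inv_mul_cancel_left]
    · refine s48h_smul_eq_of_lam lam H hy ?_
      rw [s48h_lam_sec, s48h_lam_sec, mul_inv_rev, inv_inv, mul_assoc, inv_mul_cancel, mul_one]
      exact hh
  have hne : χ ((h⁻¹ : (ZMod M)ˣ) : ZMod M) ≠ 1 := by
    intro h1
    apply hχ
    have h2 : χ ((h : (ZMod M)ˣ) : ZMod M) * χ ((h⁻¹ : (ZMod M)ˣ) : ZMod M) = 1 := by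
      rw [← map_mul, ← Units.val_mul, mul_inv_cancel, Units.val_one, map_one]
    rw [h1, mul_one] at h2
    exact h2
  have h3 : (1 - χ ((h⁻¹ : (ZMod M)ˣ) : ZMod M)) • s48h_comp lam hsurj y χ = 0 := by
    rw [sub_smul, one_smul, ← key, sub_self]
  rcases smul_eq_zero.mp h3 with h4 | h4
  · exact absurd (sub_eq_zero.mp h4).symm hne
  · exact h4

/-- **Fourier inversion**: `φ(M) • y = ∑_χ y_χ`. -/
theorem s48h_sum_comp {y : E} (hy : ∀ g : G₀, lam g ∈ H → g • y = y) :
    ∑ χ : DirichletCharacter ℂ M, s48h_comp lam hsurj y χ = (M.totient : ℂ) • y := by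
  unfold s48h_comp
  rw [Finset.sum_comm]
  have h1 : ∀ d : (ZMod M)ˣ,
      ∑ χ : DirichletCharacter ℂ M, χ ((d⁻¹ : (ZMod M)ˣ) : ZMod M) • (s48h_sec lam hsurj d • y) =
        (if d = 1 then (M.totient : ℂ) else 0) • (s48h_sec lam hsurj d • y) := by
    intro d
    rw [← Finset.sum_smul, DirichletCharacter.sum_characters_eq]
    congr 1
    by_cases hd : d = 1
    · subst hd
      simp
    · rw [if_neg hd, if_neg]
      intro h0
      apply hd
      have : d⁻¹ = 1 := Units.ext (by rw [h0, Units.val_one])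
      exact inv_eq_one.mp this
  rw [Finset.sum_congr rfl fun d _ => h1 d, Finset.sum_eq_single 1]
  · rw [if_pos rfl]
    congr 1
    refine hy _ ?_
    rw [s48h_lam_sec]
    exact one_mem H
  · intro d _ hd
    rw [if_neg hd, zero_smul]
  · intro h
    exact absurd (Finset.mem_univ _) h

/-- **[INV] for `lam⁻¹(H)`.** -/
theorem s48h_invH (hsurj : Function.Surjective lam) (L : Subfield E) (hC : ∀ c : ℂ, algebraMap ℂ E c ∈ L)
    (hfix : ∀ y : E, (∀ g : G₀, g • y = y) → y ∈ L)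
    (ht : ∀ χ : DirichletCharacter ℂ M, (∀ h ∈ H, χ ((h : (ZMod M)ˣ) : ZMod M) = 1) →
      ∃ t ∈ L, t ≠ 0 ∧ ∀ g : G₀, g • t = χ ((lam g : (ZMod M)ˣ) : ZMod M) • t)
    (y : E) (hy : ∀ g : G₀, lam g ∈ H → g • y = y) : y ∈ L := by
  have hcomp : ∀ χ : DirichletCharacter ℂ M, s48h_comp lam hsurj y χ ∈ L := by
    intro χ
    by_cases hχ : ∀ h ∈ H, χ ((h : (ZMod M)ˣ) : ZMod M) = 1
    · obtain ⟨t, htL, ht0, htg⟩ := ht χ hχ
      have hq : s48h_comp lam hsurj y χ / t ∈ L := by
        refine hfix _ fun g => ?_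
        have hu : χ ((lam g : (ZMod M)ˣ) : ZMod M) ≠ 0 := by
          intro h0
          have h2 : χ ((lam g : (ZMod M)ˣ) : ZMod M) *
              χ (((lam g)⁻¹ : (ZMod M)ˣ) : ZMod M) = 1 := by
            rw [← map_mul, ← Units.val_mul, mul_inv_cancel, Units.val_one, map_one]
          rw [h0, zero_mul] at h2
          exact zero_ne_one h2
        rw [smul_div₀', s48h_smul_comp lam H hsurj hy χ g, htg g, Algebra.smul_def,
          Algebra.smul_def, mul_div_mul_left]
        exact (map_ne_zero (algebraMap ℂ E)).mpr hu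
      have : s48h_comp lam hsurj y χ = s48h_comp lam hsurj y χ / t * t :=
        (div_mul_cancel₀ _ ht0).symm
      rw [this]
      exact mul_mem hq htL
    · push Not at hχ
      obtain ⟨h, hh, hχh⟩ := hχ
      rw [s48h_comp_eq_zero lam H hsurj hy χ hh hχh]
      exact zero_mem L
  have hsum : (M.totient : ℂ) • y ∈ L := by
    rw [← s48h_sum_comp lam H hsurj hy]
    exact sum_mem fun χ _ => hcomp χ
  have hM : (M.totient : ℂ) ≠ 0 := by
    exact_mod_cast (Nat.totient_pos.mpr (NeZero.pos M)).ne'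
  have hy' : y = algebraMap ℂ E ((M.totient : ℂ)⁻¹) * ((M.totient : ℂ) • y) := by
    rw [Algebra.smul_def, ← mul_assoc, ← map_mul, inv_mul_cancel₀ hM, map_one, one_mul]
  rw [hy']
  exact mul_mem (hC _) hsum

end

end

end Fermat.Agent.Lib.S48
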