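/-
S48 / DS-1, (LAM) for a general subgroup (helper3): the `Γ`-generic port of the landed
`Lib/S29/EisGamma0.lean` (helper5) — specialisation of `EisChar.lean` to a subgroup `Γ ≤ SL(2,ℤ)` with
`Γ(N) ≤ Γ`, `-1 ∈ Γ`, `T ∈ Γ` (`s48h_GrpHyp N Γ`) and a *parabolic character of exponent `p`*
`χ : Γ →* ℂˣ` (`χ ^ p = 1`, `χ (-1) = 1`, `χ` trivial on all `SL(2, ℤ)`-conjugates of powers of `T`
lying in `Γ`):

* `s48h_EG Γ χ k` : the weight `k` Eisenstein series `E^χ` on `Γ` (`k ≥ 3` even, e.g. `k = 4`);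
* `s48h_EG_smul`, `s48h_EG_slash` : `E^χ (γ z) = χ γ · j(γ, z) ^ k · E^χ z`;
* `s48h_EG_mdifferentiable`, `s48h_EG_slash_isBoundedAtImInfty`, `s48h_EG_ne_zero`.
-/
import Mathlib
import Fermat.Agent.Lib.S29.EisGamma0

set_option autoImplicit false

namespace Fermat.Agent.Lib.S48

open ModularForm UpperHalfPlane Matrix CongruenceSubgroup EisensteinSeries Filter Topology Complex
open Fermat.Agent.Lib.S29
open scoped MatrixGroups Manifold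

/-- The hypotheses on the group: `Γ(N) ≤ Γ`, `-1 ∈ Γ`, `T ∈ Γ`. -/
structure s48h_GrpHyp (N : ℕ) (Γ : Subgroup SL(2, ℤ)) : Prop where
  le : CongruenceSubgroup.Gamma N ≤ Γ
  neg : (-1 : SL(2, ℤ)) ∈ Γ
  T_mem : ModularGroup.T ∈ Γ

/-- `χ : Γ →* ℂˣ` is a *parabolic character of exponent `p`*: `χ ^ p = 1`, `χ (-1) = 1` and `χ`
is trivial on every element of `Γ` which is `SL(2, ℤ)`-conjugate to a power of `T`. -/
structure s48h_IsParChar (Γ : Subgroup SL(2, ℤ)) (χ : Γ →* ℂˣ) (p : ℕ) : Prop where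
  pow_eq_one : ∀ γ : Γ, χ γ ^ p = 1
  neg_one : ∀ γ : Γ, (γ : SL(2, ℤ)) = -1 → χ γ = 1
  parabolic : ∀ (γ : Γ) (σ : SL(2, ℤ)) (n : ℤ),
    (γ : SL(2, ℤ)) = σ * ModularGroup.T ^ n * σ⁻¹ → χ γ = 1

/-- The trivial character is a parabolic character of every exponent. -/
theorem s48h_isParChar_one (Γ : Subgroup SL(2, ℤ)) (p : ℕ) :
    s48h_IsParChar Γ (1 : Γ →* ℂˣ) p where
  pow_eq_one _ := by simp
  neg_one _ _ := rfl
  parabolic _ _ _ _ := rfl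

section

variable {N : ℕ} {Γ : Subgroup SL(2, ℤ)} {χ : Γ →* ℂˣ} {p : ℕ}

theorem s48h_IsParChar.norm_eq_one (hχ : s48h_IsParChar Γ χ p) (hp : 0 < p) (γ : Γ) :
    ‖((χ γ : ℂˣ) : ℂ)‖ = 1 := by
  have h1 : ((χ γ : ℂˣ) : ℂ) ^ p = 1 := by
    rw [← Units.val_pow_eq_pow_val, hχ.pow_eq_one, Units.val_one]
  exact Complex.norm_eq_one_of_pow_eq_one h1 hp.ne'

theorem s48h_conj_T_zpow_mem (hG : s48h_GrpHyp N Γ) (σ : SL(2, ℤ)) (m : ℤ) :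
    σ * ModularGroup.T ^ ((N : ℤ) * m) * σ⁻¹ ∈ Γ := by
  apply hG.le
  have h1 := ModularGroup_T_pow_mem_Gamma (N : ℤ) ((N : ℤ) * m) (dvd_mul_right _ _)
  rw [Int.natAbs_natCast] at h1
  exact (Gamma_normal (N := N)).conj_mem _ h1 σ

/-- A parabolic character is trivial on the elements with lower-left entry `0`. -/
theorem s48h_IsParChar.htriv0 (hG : s48h_GrpHyp N Γ) (hχ : s48h_IsParChar Γ χ p) (γ : Γ)
    (hc : (γ : SL(2, ℤ)) 1 0 = 0) : χ γ = 1 := by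
  obtain ⟨n, hn | hn⟩ := s29e_eq_T_zpow_of_c_eq_zero hc
  · exact hχ.parabolic γ 1 n (by rw [hn]; group)
  · have hmem : ModularGroup.T ^ n ∈ Γ := zpow_mem hG.T_mem n
    have h1 : γ = ⟨-1, hG.neg⟩ * ⟨ModularGroup.T ^ n, hmem⟩ := by
      apply Subtype.ext
      rw [hn]
      simp
    rw [h1, map_mul, hχ.neg_one _ rfl, hχ.parabolic ⟨ModularGroup.T ^ n, hmem⟩ 1 n (by group),
      one_mul]

theorem s48h_IsParChar.htriv (hG : s48h_GrpHyp N Γ) (hχ : s48h_IsParChar Γ χ p) (γ : Γ)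
    (h : s29e_row (γ : SL(2, ℤ)) = ![0, 1]) : χ γ = 1 := by
  apply hχ.htriv0 hG
  rw [s29e_row_apply] at h
  have := congrFun h 0
  simpa using this

theorem s48h_IsParChar.hcusp (hG : s48h_GrpHyp N Γ) (hχ : s48h_IsParChar Γ χ p) (σ : SL(2, ℤ))
    (m : ℤ) :
    ∃ γ₀ : Γ, (γ₀ : SL(2, ℤ)) = σ * ModularGroup.T ^ ((N : ℤ) * m) * σ⁻¹ ∧ χ γ₀ = 1 :=
  ⟨⟨_, s48h_conj_T_zpow_mem hG σ m⟩, rfl, hχ.parabolic _ σ _ rfl⟩

end

variable (Γ : Subgroup SL(2, ℤ)) (χ : Γ →* ℂˣ)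

/-- **The Eisenstein series `E^χ` of weight `k` on `Γ`.** -/
noncomputable def s48h_EG (k : ℤ) : ℍ → ℂ := s29e_E Γ χ k

variable {Γ χ} {N p : ℕ}

/-- `E^χ (γ z) = χ γ · j(γ, z) ^ k · E^χ z`. -/
theorem s48h_EG_smul (hG : s48h_GrpHyp N Γ) (hχ : s48h_IsParChar Γ χ p) (k : ℤ) (γ : Γ) (z : ℍ) :
    s48h_EG Γ χ k ((γ : SL(2, ℤ)) • z) =
      ((χ γ : ℂˣ) : ℂ) *
        denom (SpecialLinearGroup.toGL ((SpecialLinearGroup.map (Int.castRingHom ℝ))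
          (γ : SL(2, ℤ)))) ↑z ^ k * s48h_EG Γ χ k z :=
  s29e_E_smul (hχ.htriv hG) k γ z

/-- `E^χ ∣[k] γ = χ γ • E^χ`. -/
theorem s48h_EG_slash (hG : s48h_GrpHyp N Γ) (hχ : s48h_IsParChar Γ χ p) (k : ℤ) (γ : Γ) :
    s48h_EG Γ χ k ∣[k] (γ : SL(2, ℤ)) = ((χ γ : ℂˣ) : ℂ) • s48h_EG Γ χ k :=
  s29e_E_slash (hχ.htriv hG) k γ

theorem s48h_EG_mdifferentiable (hχ : s48h_IsParChar Γ χ p) (hp : 0 < p) {k : ℤ} (hk : 3 ≤ k) :
    MDiff (s48h_EG Γ χ k) :=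
  s29e_E_mdifferentiable (hχ.norm_eq_one hp) hk

/-- All `SL(2, ℤ)`-translates of `E^χ` are bounded at `i∞`. -/
theorem s48h_EG_slash_isBoundedAtImInfty [NeZero N] (hG : s48h_GrpHyp N Γ)
    (hχ : s48h_IsParChar Γ χ p) (hp : 0 < p) {k : ℤ} (hk : 3 ≤ k) (σ : SL(2, ℤ)) :
    IsBoundedAtImInfty (s48h_EG Γ χ k ∣[k] σ) :=
  s29e_E_slash_isBoundedAtImInfty (hχ.htriv hG) (hχ.norm_eq_one hp) hk σ
    (Nat.pos_of_ne_zero (NeZero.ne N)) (hχ.hcusp hG σ)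

theorem s48h_T_pow_mem (hG : s48h_GrpHyp N Γ) : ModularGroup.T ^ N ∈ Γ :=
  pow_mem hG.T_mem N

/-- `E^χ ≢ 0` (even weight). -/
theorem s48h_EG_ne_zero [NeZero N] (hG : s48h_GrpHyp N Γ) (hχ : s48h_IsParChar Γ χ p)
    (hp : 0 < p) {k : ℤ} (hk : 3 ≤ k) (hkeven : Even k) : ∃ z : ℍ, s48h_EG Γ χ k z ≠ 0 :=
  s29e_E_ne_zero (hχ.htriv0 hG) (hχ.norm_eq_one hp) hk hkeven
    (Nat.pos_of_ne_zero (NeZero.ne N)) (s48h_T_pow_mem hG)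

end Fermat.Agent.Lib.S48
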