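/-
DS-1 (S48), twisted [W], item (F2) (helper5), part D.
The Atkin–Lehner involution `w = s37w_al N ℓ` of `F̄₀(N ℓ)` (landed `Lib/S37/WAtkin`) is the substitution
automorphism of the EXPLICIT map `W z = γ₀ • (ℓ z)`, `γ₀ = (1, -y; N, ℓ x)`, `ℓ x + N y = 1`
(`s48wf_al_eq`); with `T(W z) = T(ℓ z)`, `T(ℓ W z) = ψ(x) T(z)` this gives
**(F2)** `w(c_χ) · c_χ = χ(ℓ)⁻¹` for `c_χ = t_χ(q^ℓ)/t_χ(q)`.
-/
import Fermat.Agent.Lib.S37.WAtkin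
import Fermat.Agent.Lib.S48.WFC

set_option autoImplicit false
set_option linter.unusedSectionVars false

namespace Fermat.Agent.Lib.S48

open UpperHalfPlane hiding I
open Complex ModularCurve CongruenceSubgroup
open Fermat.Agent.Lib.FF Fermat.Agent.Lib.S28 Fermat.Agent.Lib.S37 Fermat.Agent.Lib.S29
open scoped MatrixGroups

noncomputable section

local notation "Kb" => AlgebraicClosure ℚ

variable (N ℓ : ℕ) [NeZero N] [NeZero ℓ]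

/-- The matrix `γ₀ = (1, -y; N, ℓ x)`. -/
def s48wf_g0 (x y : ℤ) (hxy : (ℓ : ℤ) * x + (N : ℤ) * y = 1) : SL(2, ℤ) :=
  ⟨!![1, -y; (N : ℤ), (ℓ : ℤ) * x], by
    rw [Matrix.det_fin_two_of]; linear_combination hxy⟩

/-- The matrix `γ₂ = (ℓ, -y; N, x)`. -/
def s48wf_g2 (x y : ℤ) (hxy : (ℓ : ℤ) * x + (N : ℤ) * y = 1) : SL(2, ℤ) :=
  ⟨!![(ℓ : ℤ), -y; (N : ℤ), x], by
    rw [Matrix.det_fin_two_of]; linear_combination hxy⟩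

/-- The explicit analytic Atkin–Lehner substitution `W z = γ₀ • (ℓ z)`. -/
def s48wf_W (x y : ℤ) (hxy : (ℓ : ℤ) * x + (N : ℤ) * y = 1) (z : ℍ) : ℍ :=
  s48wf_g0 N ℓ x y hxy • ffb_dmul ℓ z

/-- `ℓ · W z = γ₂ • z`. -/
theorem s48wf_dmul_W (x y : ℤ) (hxy : (ℓ : ℤ) * x + (N : ℤ) * y = 1) (z : ℍ) :
    ffb_dmul ℓ (s48wf_W N ℓ x y hxy z) = s48wf_g2 N ℓ x y hxy • z := by
  have h := s37w_dmul_smul_dmul ℓ ℓ 1 (s48wf_g0 N ℓ x y hxy) (s48wf_g2 N ℓ x y hxy) (ℓ : ℤ)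
    (Int.natCast_ne_zero.mpr (NeZero.ne ℓ)) ?_ ?_ ?_ ?_ z
  · rw [s48wf_dmul_one] at h
    exact h
  · show (ℓ : ℤ) * 1 * (ℓ : ℤ) = (ℓ : ℤ) * ((ℓ : ℤ) * ((1 : ℕ) : ℤ))
    push_cast; ring
  · show (ℓ : ℤ) * -y = (ℓ : ℤ) * -y
    rfl
  · show (N : ℤ) * (ℓ : ℤ) = (ℓ : ℤ) * ((N : ℤ) * ((1 : ℕ) : ℤ))
    push_cast; ring
  · show (ℓ : ℤ) * x = (ℓ : ℤ) * x
    rfl

/-- **The explicit `W` is an Atkin–Lehner substitution** (text of `s37w_exists_alH`). -/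
theorem s48wf_alH (hℓ : ℓ.Prime) (x y : ℤ) (hxy : (ℓ : ℤ) * x + (N : ℤ) * y = 1)
    (D : s28w_Idx (N * ℓ)) (z : ℍ) :
    ffb_jd D.1 (s48wf_W N ℓ x y hxy z) = ffb_jd (s37w_alCo N ℓ hℓ D).1 z := by
  set γ₀ : SL(2, ℤ) := s48wf_g0 N ℓ x y hxy with hγ₀
  show ffb_jd D.1 (γ₀ • ffb_dmul ℓ z) = _
  have g00 : γ₀ 0 0 = 1 := rfl
  have g01 : γ₀ 0 1 = -y := rfl
  have g10 : γ₀ 1 0 = (N : ℤ) := rfl
  have g11 : γ₀ 1 1 = (ℓ : ℤ) * x := rfl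
  by_cases h : ℓ ∣ D.1
  · -- `D = d ℓ`
    have hco := s37w_alCo_of_dvd N ℓ hℓ D h
    obtain ⟨c', hc'⟩ := s37w_div_dvd_of_dvd N ℓ hℓ D h
    set d := D.1 / ℓ with hd
    have hD : D.1 = d * ℓ := (Nat.div_mul_cancel h).symm
    have hdne : NeZero d := ⟨fun h0 => NeZero.ne D.1 (by rw [hD, h0, zero_mul])⟩
    let γ₂ : SL(2, ℤ) := ⟨!![(ℓ : ℤ), -((d : ℤ) * y); (c' : ℤ), x], by
      rw [Matrix.det_fin_two_of]
      have : (N : ℤ) = (d : ℤ) * (c' : ℤ) := by exact_mod_cast hc'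
      rw [this] at hxy
      linear_combination hxy⟩
    have key : ffb_dmul D.1 (γ₀ • ffb_dmul ℓ z) = γ₂ • ffb_dmul d z := by
      refine s37w_dmul_smul_dmul D.1 ℓ d γ₀ γ₂ (ℓ : ℤ)
        (Int.natCast_ne_zero.mpr hℓ.ne_zero) ?_ ?_ ?_ ?_ z
      · rw [g00]
        show (D.1 : ℤ) * 1 * (ℓ : ℤ) = (ℓ : ℤ) * ((ℓ : ℤ) * (d : ℤ))
        rw [hD]; push_cast; ring
      · rw [g01]
        show (D.1 : ℤ) * -y = (ℓ : ℤ) * -((d : ℤ) * y)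
        rw [hD]; push_cast; ring
      · rw [g10]
        show (N : ℤ) * (ℓ : ℤ) = (ℓ : ℤ) * ((c' : ℤ) * (d : ℤ))
        have hN : (N : ℤ) = (d : ℤ) * (c' : ℤ) := by exact_mod_cast hc'
        linear_combination (ℓ : ℤ) * hN
      · rw [g11]
        rfl
    have e1 : ffb_jd (s37w_alCo N ℓ hℓ D).1 z = ffb_jd d z := by
      congr 1
    rw [e1, ffb_jd_apply, ffb_jd_apply, key, ffj_smul]
  · -- `D = d ∣ N`
    have hco := s37w_alCo_of_not_dvd N ℓ hℓ D h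
    obtain ⟨c', hc'⟩ := s37w_dvd_of_not_dvd N ℓ hℓ D h
    let γ₁ : SL(2, ℤ) := ⟨!![1, -((D.1 : ℤ) * y); (c' : ℤ), (ℓ : ℤ) * x], by
      rw [Matrix.det_fin_two_of]
      have : (N : ℤ) = (D.1 : ℤ) * (c' : ℤ) := by exact_mod_cast hc'
      rw [this] at hxy
      linear_combination hxy⟩
    have hne : NeZero (D.1 * ℓ) := ⟨mul_ne_zero (NeZero.ne D.1) hℓ.ne_zero⟩
    have key : ffb_dmul D.1 (γ₀ • ffb_dmul ℓ z) = γ₁ • ffb_dmul (D.1 * ℓ) z := by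
      refine s37w_dmul_smul_dmul D.1 ℓ (D.1 * ℓ) γ₀ γ₁ 1 one_ne_zero ?_ ?_ ?_ ?_ z
      · rw [g00]
        show (D.1 : ℤ) * 1 * (ℓ : ℤ) = 1 * (1 * ((D.1 * ℓ : ℕ) : ℤ))
        push_cast; ring
      · rw [g01]
        show (D.1 : ℤ) * -y = 1 * -((D.1 : ℤ) * y)
        ring
      · rw [g10]
        show (N : ℤ) * (ℓ : ℤ) = 1 * ((c' : ℤ) * ((D.1 * ℓ : ℕ) : ℤ))
        have hN : (N : ℤ) = (D.1 : ℤ) * (c' : ℤ) := by exact_mod_cast hc'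
        push_cast
        linear_combination (ℓ : ℤ) * hN
      · rw [g11]
        show (ℓ : ℤ) * x = 1 * ((ℓ : ℤ) * x)
        ring
    have e1 : ffb_jd (s37w_alCo N ℓ hℓ D).1 z = ffb_jd (D.1 * ℓ) z := by
      congr 1
    rw [e1, ffb_jd_apply, ffb_jd_apply, key, ffj_smul]

/-- **`s37w_al` is the substitution automorphism of the explicit `W`.** -/
theorem s48wf_al_eq (hℓ : ℓ.Prime) (hℓN : ¬ ℓ ∣ N) (x y : ℤ)
    (hxy : (ℓ : ℤ) * x + (N : ℤ) * y = 1) :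
    s37w_al N ℓ hℓ hℓN = s37w_substEquiv (N * ℓ) (s37w_alCo N ℓ hℓ) (s48wf_W N ℓ x y hxy)
      (s48wf_alH N ℓ hℓ x y hxy) (s37w_alCo_alCo N ℓ hℓ hℓN) := by
  have key : (s37w_al N ℓ hℓ hℓN : ffi_F (N * ℓ) →ₐ[Kb] ffi_F (N * ℓ)) =
      (s37w_substEquiv (N * ℓ) (s37w_alCo N ℓ hℓ) (s48wf_W N ℓ x y hxy)
        (s48wf_alH N ℓ hℓ x y hxy) (s37w_alCo_alCo N ℓ hℓ hℓN) :
        ffi_F (N * ℓ) →ₐ[Kb] ffi_F (N * ℓ)) := by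
    refine s37w_algHom_ext (N * ℓ) _ _ fun d c hc => ?_
    apply Subtype.ext
    show ((s37w_al N ℓ hℓ hℓN c : ffi_F (N * ℓ)) : LaurentSeries Kb) =
      ((s37w_substEquiv (N * ℓ) (s37w_alCo N ℓ hℓ) (s48wf_W N ℓ x y hxy)
        (s48wf_alH N ℓ hℓ x y hxy) (s37w_alCo_alCo N ℓ hℓ hℓN) c : ffi_F (N * ℓ)) :
        LaurentSeries Kb)
    rw [s37w_al_gen N ℓ hℓ hℓN d c hc, s37w_substEquiv_gen _ _ _ _ _ d c hc]
  exact AlgEquiv.ext fun c => AlgHom.congr_fun key c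

/-! ### The generator `T` under `W` -/

variable {N} (ψ : DirichletCharacter ℂ N)

theorem s48wf_T_W (hN : 1 < N) (hψ : ψ.Even) (x y : ℤ) (hxy : (ℓ : ℤ) * x + (N : ℤ) * y = 1)
    (z : ℍ) : s48k_T ψ (s48wf_W N ℓ x y hxy z) = s48k_T ψ (ffb_dmul ℓ z) := by
  have hmem : s48wf_g0 N ℓ x y hxy ∈ Gamma0 N := by
    rw [Gamma0_mem]
    show (((N : ℤ) : ℤ) : ZMod N) = 0
    simp
  rw [s48wf_W, s48k_T_smul ψ hN hψ hmem]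
  have h11 : (((s48wf_g0 N ℓ x y hxy) 1 1 : ℤ) : ZMod N) = 1 := by
    show ((((ℓ : ℤ) * x : ℤ)) : ZMod N) = 1
    have : (ℓ : ℤ) * x = 1 - (N : ℤ) * y := by linear_combination hxy
    rw [this]
    push_cast
    simp
  rw [h11, map_one, one_mul]

theorem s48wf_T_dmul_W (hN : 1 < N) (hψ : ψ.Even) (x y : ℤ)
    (hxy : (ℓ : ℤ) * x + (N : ℤ) * y = 1) (z : ℍ) :
    s48k_T ψ (ffb_dmul ℓ (s48wf_W N ℓ x y hxy z)) = ψ ((x : ℤ) : ZMod N) * s48k_T ψ z := by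
  have hmem : s48wf_g2 N ℓ x y hxy ∈ Gamma0 N := by
    rw [Gamma0_mem]
    show (((N : ℤ) : ℤ) : ZMod N) = 0
    simp
  rw [s48wf_dmul_W, s48k_T_smul ψ hN hψ hmem]
  rfl

end

end Fermat.Agent.Lib.S48
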