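/-
DS-1 (S48), twisted [W], item (F2) (helper5), part E: the main statement.
**(F2)** `w(c_χ) · c_χ = χ(ℓ)⁻¹` in `F̄₀(N ℓ)`, `c_χ = t_χ(q^ℓ)/t_χ(q)`, `w = s37w_al N ℓ`.
-/
import Fermat.Agent.Lib.S48.WFD

set_option autoImplicit false
set_option linter.unusedSectionVars false

namespace Fermat.Agent.Lib.S48

open UpperHalfPlane hiding I
open Complex ModularCurve CongruenceSubgroup
open Fermat.Agent.Lib.FF Fermat.Agent.Lib.S28 Fermat.Agent.Lib.S37 Fermat.Agent.Lib.S29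
open scoped MatrixGroups

noncomputable section

local notation "Kb" => AlgebraicClosure ℚ

/-- **Generic form**: a substitution automorphism of `F̄₀(M')` whose analytic substitution `W`
satisfies `T(W z) = T(ℓ z)`, `T(ℓ W z) = k T(z)` maps `c_χ = t_χ(q^ℓ)/t_χ(q)` to `k / c_χ`. -/
theorem s48wf_subst_c (M' : ℕ) [NeZero M'] (co : s28w_Idx M' → s28w_Idx M') (W : ℍ → ℍ)
    (hW : ∀ (d : s28w_Idx M') (z : ℍ), ffb_jd d.1 (W z) = ffb_jd (co d).1 z)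
    (hco : ∀ d, co (co d) = d)
    {N : ℕ} [NeZero N] (χ : DirichletCharacter Kb N) (ℓ : ℕ) [NeZero ℓ] (hN : 1 < N)
    (hχ : χ.Even) (k : Kb)
    (hT1 : ∀ z : ℍ, s48k_T (s48wf_psi χ) (W z) = s48k_T (s48wf_psi χ) (ffb_dmul ℓ z))
    (hT2 : ∀ z : ℍ, s48k_T (s48wf_psi χ) (ffb_dmul ℓ (W z)) =
      ffb_iota k * s48k_T (s48wf_psi χ) z)
    (c : ffi_F M')
    (hc : (c : LaurentSeries Kb) = qExpand Kb ℓ (s48wf_tq χ) / s48wf_tq χ) :
    s37w_substEquiv M' co W hW hco c * c = algebraMap Kb (ffi_F M') k := by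
  obtain ⟨a, b, hb, rfl⟩ := IsFractionRing.div_surjective (A := ffg_A M') c
  obtain ⟨P, rfl⟩ := s37w_evB_surjective M' a
  obtain ⟨Q, rfl⟩ := s37w_evB_surjective M' b
  have hbne : s37w_evB M' Q ≠ 0 := nonZeroDivisors.ne_zero hb
  have hQ0 : s37w_ev M' Q ≠ 0 := fun h0 => hbne (Subtype.ext h0)
  have hQ0' : s37w_ev' M' co Q ≠ 0 := fun h0 => hQ0 (s37w_ker_ge M' co W hW hco Q h0)
  have ht0 := s48wf_tq_ne_zero χ
  have hc' : s37w_ev M' P / s37w_ev M' Q = qExpand Kb ℓ (s48wf_tq χ) / s48wf_tq χ := by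
    rw [← hc]
    rfl
  have hser : s37w_ev M' P * s48wf_tq χ = s37w_ev M' Q * qExpand Kb ℓ (s48wf_tq χ) := by
    rw [div_eq_div_iff hQ0 ht0] at hc'
    rw [hc']
    ring
  -- functions
  set ψ := s48wf_psi χ with hψ_def
  have hψ : ψ.Even := s48wf_psi_even χ hχ
  have hT : ffb_IsLaurent (s48k_T ψ) (s48wf_tC ψ) := s48k_T_isLaurent ψ hN hψ
  have hTl := hT.comp_dmul ℓ
  have h1 := (s37w_isLaurent_fn M' P).mul hT
  have h2 := (s37w_isLaurent_fn M' Q).mul hTl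
  have hcm : coeffMap ffb_iota (s37w_ev M' P) * s48wf_tC ψ =
      coeffMap ffb_iota (s37w_ev M' Q) * qExpand ℂ ℓ (s48wf_tC ψ) := by
    rw [← s48wf_coeffMap_tq, ← ffb_coeffMap_qExpand, ← map_mul, ← map_mul, hser]
  rw [hcm] at h1
  have hfun : s37w_fn M' P * s48k_T ψ =
      s37w_fn M' Q * (fun z => s48k_T ψ (ffb_dmul ℓ z)) := h1.ext h2
  -- substitute `W`
  have hfun' : s37w_fn' M' co P * (fun z => s48k_T ψ (ffb_dmul ℓ z)) =
      s37w_fn' M' co Q * ((fun _ : ℍ => ffb_iota k) * s48k_T ψ) := by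
    funext z
    have := congrFun hfun (W z)
    simp only [Pi.mul_apply] at this ⊢
    rw [s37w_fn'_eq M' co W hW, s37w_fn'_eq M' co W hW, ← hT1 z, this, hT2 z]
  -- back to series
  have h3 := (s37w_isLaurent_fn' M' co P).mul hTl
  have h4 := (s37w_isLaurent_fn' M' co Q).mul ((ffb_IsLaurent.const (ffb_iota k)).mul hT)
  rw [hfun'] at h3
  have hser' := h3.unique h4
  have hser'' : s37w_ev' M' co P * qExpand Kb ℓ (s48wf_tq χ) =
      s37w_ev' M' co Q * (algebraMap Kb (LaurentSeries Kb) k * s48wf_tq χ) := by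
    apply ffb_coeffMap_injective _ ffb_iota_injective
    rw [map_mul, map_mul, map_mul, ffb_coeffMap_qExpand, s48wf_coeffMap_tq,
      ffb_coeffMap_iota_algebraMap]
    exact hser'
  -- conclude
  apply Subtype.ext
  have hwc : ((s37w_substEquiv M' co W hW hco
      (algebraMap (ffg_A M') (ffi_F M') (s37w_evB M' P) /
        algebraMap (ffg_A M') (ffi_F M') (s37w_evB M' Q)) : ffi_F M') :
      LaurentSeries Kb) = s37w_ev' M' co P / s37w_ev' M' co Q := by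
    show ((s37w_substEnd M' co W hW hco _ : ffi_F M') : LaurentSeries Kb) = _
    rw [map_div₀, s37w_substEnd_algebraMap, s37w_substEnd_algebraMap]
    show s37w_gB M' co W hW (s37w_evB M' P) / s37w_gB M' co W hW (s37w_evB M' Q) = _
    rw [s37w_gB_evB, s37w_gB_evB]
  show ((s37w_substEquiv M' co W hW hco _ : ffi_F M') : LaurentSeries Kb) *
    ((_ : ffi_F M') : LaurentSeries Kb) = algebraMap Kb (LaurentSeries Kb) _
  rw [hwc, hc, div_mul_div_comm, hser'', div_eq_iff (mul_ne_zero hQ0' ht0)]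
  ring

variable (N ℓ : ℕ) [NeZero N] [NeZero ℓ] (χ : DirichletCharacter Kb N)

/-- **(F2)**: `w(c_χ) · c_χ = χ(ℓ)⁻¹`. -/
theorem s48wf_F2 (hN : 1 < N) (hχ : χ.Even) (hℓ : ℓ.Prime) (hℓN : ¬ ℓ ∣ N)
    (c : ffi_F (N * ℓ))
    (hc : (c : LaurentSeries Kb) = qExpand Kb ℓ (s48wf_tq χ) / s48wf_tq χ) :
    s37w_al N ℓ hℓ hℓN c * c = algebraMap Kb (ffi_F (N * ℓ)) (χ (ℓ : ZMod N))⁻¹ := by
  have hcop : Nat.Coprime ℓ N := (Nat.Prime.coprime_iff_not_dvd hℓ).mpr hℓN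
  obtain ⟨x, y, hxy⟩ : ∃ x y : ℤ, (ℓ : ℤ) * x + (N : ℤ) * y = 1 := by
    have h := Int.gcd_eq_gcd_ab (ℓ : ℤ) (N : ℤ)
    have hg : Int.gcd (ℓ : ℤ) (N : ℤ) = 1 := by
      rw [Int.gcd_natCast_natCast]; exact hcop
    rw [hg] at h
    exact ⟨Int.gcdA ℓ N, Int.gcdB ℓ N, by rw [← h]; rfl⟩
  -- `χ(x) = χ(ℓ)⁻¹`
  have hχx : χ ((x : ℤ) : ZMod N) = (χ (ℓ : ZMod N))⁻¹ := by
    apply eq_inv_of_mul_eq_one_right
    rw [← map_mul]
    have h1 : ((ℓ : ZMod N)) * ((x : ℤ) : ZMod N) = 1 := by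
      have := congrArg (Int.cast : ℤ → ZMod N) hxy
      push_cast at this
      simpa using this
    rw [h1, map_one]
  have hψ : (s48wf_psi χ).Even := s48wf_psi_even χ hχ
  rw [s48wf_al_eq N ℓ hℓ hℓN x y hxy, ← hχx]
  exact s48wf_subst_c (N * ℓ) _ _ _ _ χ ℓ hN hχ _
    (fun z => s48wf_T_W ℓ (s48wf_psi χ) hN hψ x y hxy z)
    (fun z => s48wf_T_dmul_W ℓ (s48wf_psi χ) hN hψ x y hxy z) c hc

end

end Fermat.Agent.Lib.S48
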