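/-
S48 (Deligne–Serre), wall [T8], twisted norm formula [W] (helper2), part 1: PURE FIELD THEORY.

`s48w_norm_abs`: a tower of finite separable extensions

      K₀' --i'--> K'
       ^           ^
    a₀ |           | a
      K₀  --i-->  K

with `K' = i'(K₀') · a(K)`, `[K' : a K] = [K₀' : a₀ K₀] = #ι`, the `#ι` pairwise distinct embeddings
`e k : K₀' → E` over `b ∘ i : K₀ → E`, a second map `β : K → K'` restricting to `β₀ : K₀ → K₀'`,
ring homomorphisms `g k : K → E` with `g k ∘ i = e k ∘ β₀`, and generators `t ∈ T` of `K` over `i K₀`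
with `β t = i' c · a t`, `g k t = e k c · b t` (`c ∈ K₀'`).  Then

      `b (Nm_a (β y)) = ∏ k, g k y`        for every `y ∈ K`.
-/
import Mathlib

set_option autoImplicit false

namespace Fermat.Agent.Lib.S48

noncomputable section

/-- Two ring homomorphisms out of a field that agree on a generating set are equal. -/
theorem s48w_ringHom_ext_of_closure {K L : Type*} [Field K] [Field L] (f g : K →+* L)
    (S : Set K) (hS : Subfield.closure S = ⊤) (h : ∀ x ∈ S, f x = g x) : f = g := by
  have hle : Subfield.closure S ≤ RingHom.eqLocusField f g :=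
    Subfield.closure_le.mpr fun x hx => h x hx
  ext x
  have hx : x ∈ Subfield.closure S := by rw [hS]; exact Subfield.mem_top x
  exact hle hx

/-- **The abstract twisted norm formula.** -/
theorem s48w_norm_abs {K K' K₀ K₀' E ι : Type*} [Field K] [Field K'] [Field K₀] [Field K₀']
    [Field E] [CharZero K] [Fintype ι] [Nonempty ι]
    (a β : K →+* K') (b : K →+* E) (i : K₀ →+* K) (i' : K₀' →+* K') (a₀ β₀ : K₀ →+* K₀')
    (hcomm : ∀ y, i' (a₀ y) = a (i y))
    (hgen' : Subfield.closure (Set.range i' ∪ Set.range a) = ⊤)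
    (hcard : Fintype.card ι = @Module.finrank K K' _ _ a.toAlgebra.toModule)
    (hcard₀ : Fintype.card ι = @Module.finrank K₀ K₀' _ _ a₀.toAlgebra.toModule)
    (e : ι → (K₀' →+* E)) (he : Function.Injective e) (hea : ∀ k y, e k (a₀ y) = b (i y))
    (g : ι → (K →+* E)) (T : Set K) (hgen : Subfield.closure (Set.range i ∪ T) = ⊤)
    (hβ₀ : ∀ y, β (i y) = i' (β₀ y)) (hg₀ : ∀ k y, g k (i y) = e k (β₀ y))
    (hT : ∀ t ∈ T, ∃ c : K₀', β t = i' c * a t ∧ ∀ k, g k t = e k c * b t) (y : K) :
    b (@Algebra.norm K K' _ _ a.toAlgebra (β y)) = ∏ k, g k y := by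
  classical
  let Ē := AlgebraicClosure E
  let j : E →+* Ē := algebraMap E Ē
  have hj : Function.Injective j := j.injective
  letI algK : Algebra K K' := a.toAlgebra
  letI algK₀ : Algebra K₀ K₀' := a₀.toAlgebra
  letI algKE : Algebra K Ē := (j.comp b).toAlgebra
  letI algK₀E : Algebra K₀ Ē := (j.comp (b.comp i)).toAlgebra
  have hpos : 0 < Fintype.card ι := Fintype.card_pos
  haveI : CharZero K₀ := RingHom.charZero i
  haveI finK : Module.Finite K K' := Module.finite_of_finrank_pos (by rw [← hcard]; exact hpos)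
  haveI finK₀ : Module.Finite K₀ K₀' := Module.finite_of_finrank_pos (by rw [← hcard₀]; exact hpos)
  haveI : Algebra.IsSeparable K K' := Algebra.IsAlgebraic.isSeparable_of_perfectField
  haveI : Algebra.IsSeparable K₀ K₀' := Algebra.IsAlgebraic.isSeparable_of_perfectField
  -- the two sets of embeddings
  have hc1 : Fintype.card (K' →ₐ[K] Ē) = Fintype.card ι := by
    rw [hcard]; exact AlgHom.card K K' Ē
  have hc0 : Fintype.card (K₀' →ₐ[K₀] Ē) = Fintype.card ι := by
    rw [hcard₀]; exact AlgHom.card K₀ K₀' Ē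
  -- restriction
  let R : (K' →ₐ[K] Ē) → (K₀' →ₐ[K₀] Ē) := fun σ =>
    { (σ : K' →+* Ē).comp i' with
      commutes' := fun y₀ => by
        show σ (i' (a₀ y₀)) = j (b (i y₀))
        rw [hcomm]
        exact σ.commutes (i y₀) }
  have hR : ∀ σ x, R σ x = σ (i' x) := fun σ x => rfl
  have hRinj : Function.Injective R := by
    intro σ σ' h
    have : (σ : K' →+* Ē) = (σ' : K' →+* Ē) := by
      apply s48w_ringHom_ext_of_closure _ _ _ hgen'
      rintro x (⟨x₀, rfl⟩ | ⟨y₀, rfl⟩)
      · have := AlgHom.congr_fun h x₀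
        rwa [hR, hR] at this
      · exact (σ.commutes y₀).trans (σ'.commutes y₀).symm
    exact AlgHom.coe_ringHom_injective this
  have hRbij : Function.Bijective R := by
    rw [Fintype.bijective_iff_injective_and_card]
    exact ⟨hRinj, hc1.trans hc0.symm⟩
  -- the given embeddings
  let τ : ι → (K₀' →ₐ[K₀] Ē) := fun k =>
    { j.comp (e k) with
      commutes' := fun y₀ => by
        show j (e k (a₀ y₀)) = j (b (i y₀))
        rw [hea] }
  have hτ : ∀ k x, τ k x = j (e k x) := fun k x => rfl
  have hτinj : Function.Injective τ := by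
    intro k k' h
    apply he
    ext x
    have := AlgHom.congr_fun h x
    rw [hτ, hτ] at this
    exact hj this
  have hτbij : Function.Bijective τ := by
    rw [Fintype.bijective_iff_injective_and_card]
    exact ⟨hτinj, hc0.symm⟩
  -- the extensions
  let Rinv := (Equiv.ofBijective R hRbij).symm
  let ε : ι → (K' →ₐ[K] Ē) := fun k => Rinv (τ k)
  have hεR : ∀ k, R (ε k) = τ k := fun k => (Equiv.ofBijective R hRbij).apply_symm_apply (τ k)
  have hεbij : Function.Bijective ε := Rinv.bijective.comp hτbij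
  have hε₀ : ∀ k x, ε k (i' x) = j (e k x) := by
    intro k x
    rw [← hR, hεR, hτ]
  have hεa : ∀ k x, ε k (a x) = j (b x) := fun k x => (ε k).commutes x
  -- the key identity
  have hkey : ∀ k, ((ε k : K' →+* Ē).comp β) = j.comp (g k) := by
    intro k
    apply s48w_ringHom_ext_of_closure _ _ _ hgen
    rintro x (⟨y₀, rfl⟩ | hx)
    · show ε k (β (i y₀)) = j (g k (i y₀))
      rw [hβ₀, hε₀, hg₀]
    · obtain ⟨c, hc, hgc⟩ := hT x hx
      show ε k (β x) = j (g k x)
      rw [hc, map_mul, hε₀, hεa, hgc k, map_mul]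
  have h1 := Algebra.norm_eq_prod_embeddings K Ē (β y)
  rw [← Fintype.prod_bijective ε hεbij (fun k => ε k (β y)) (fun σ' => σ' (β y)) (fun k => rfl)]
    at h1
  have h2 : ∀ k, ε k (β y) = j (g k y) := fun k => RingHom.congr_fun (hkey k) y
  simp only [h2] at h1
  rw [← map_prod] at h1
  exact hj h1

end

end Fermat.Agent.Lib.S48
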