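/-
S48 (Deligne–Serre), wall [T8], twisted norm formula [W] (helper2), part 2: finite Fourier inversion
on a finite abelian group (characters with values in a field with enough roots of unity), and a
generation lemma for `IntermediateField.adjoin`.
-/
import Mathlib

set_option autoImplicit false

namespace Fermat.Agent.Lib.S48

noncomputable section

open Classical in
/-- **Orthogonality (sum over characters)**: `∑_χ χ(g) = #G` if `g = 1` and `0` otherwise. -/
theorem s48w_sum_char {G k : Type*} [CommGroup G] [Fintype G] [Field k] [Fintype (G →* kˣ)]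
    [HasEnoughRootsOfUnity k (Monoid.exponent G)] (g : G) :
    ∑ χ : G →* kˣ, ((χ g : kˣ) : k) = if g = 1 then (Fintype.card G : k) else 0 := by
  split_ifs with hg
  · subst hg
    simp only [map_one, Units.val_one, Finset.sum_const, Finset.card_univ, nsmul_eq_mul, mul_one]
    have h := CommGroup.card_monoidHom_of_hasEnoughRootsOfUnity G k
    rw [Nat.card_eq_fintype_card, Nat.card_eq_fintype_card] at h
    rw [h]
  · obtain ⟨χ₀, hχ₀⟩ := CommGroup.exists_apply_ne_one_of_hasEnoughRootsOfUnity G k hg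
    have h1 : ∑ χ : G →* kˣ, ((χ g : kˣ) : k) =
        ((χ₀ g : kˣ) : k) * ∑ χ : G →* kˣ, ((χ g : kˣ) : k) := by
      rw [Finset.mul_sum]
      rw [← Fintype.sum_bijective (fun χ : G →* kˣ => χ₀ * χ) (Group.mulLeft_bijective χ₀)
        (fun χ => ((χ₀ g : kˣ) : k) * ((χ g : kˣ) : k)) (fun χ => ((χ g : kˣ) : k))
        (fun χ => by rw [MonoidHom.mul_apply, Units.val_mul])]
    have h2 : (1 - ((χ₀ g : kˣ) : k)) * ∑ χ : G →* kˣ, ((χ g : kˣ) : k) = 0 := by
      rw [sub_mul, one_mul, ← h1, sub_self]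
    rcases mul_eq_zero.mp h2 with h3 | h3
    · exfalso
      apply hχ₀
      apply Units.ext
      rw [Units.val_one]
      exact (sub_eq_zero.mp h3).symm
    · exact h3

/-- **Finite Fourier inversion**: with `t_χ = ∑_u χ(u) • s_u`,
`∑_χ χ(v)⁻¹ • t_χ = #G • s_v`. -/
theorem s48w_fourier_inv {G k V : Type*} [CommGroup G] [Fintype G] [Field k]
    [Fintype (G →* kˣ)] [HasEnoughRootsOfUnity k (Monoid.exponent G)]
    [AddCommGroup V] [Module k V] (s : G → V) (v : G) :
    ∑ χ : G →* kˣ, (((χ v)⁻¹ : kˣ) : k) • ∑ u : G, ((χ u : kˣ) : k) • s u =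
      (Fintype.card G : k) • s v := by
  classical
  simp_rw [Finset.smul_sum, smul_smul]
  rw [Finset.sum_comm]
  have h : ∀ u : G, ∑ χ : G →* kˣ, ((((χ v)⁻¹ : kˣ) : k) * ((χ u : kˣ) : k)) • s u =
      (if u = v then (Fintype.card G : k) else 0) • s u := by
    intro u
    rw [← Finset.sum_smul]
    congr 1
    have h1 := s48w_sum_char (k := k) (v⁻¹ * u)
    have h2 : ∀ χ : G →* kˣ, (((χ v)⁻¹ : kˣ) : k) * ((χ u : kˣ) : k) =
        ((χ (v⁻¹ * u) : kˣ) : k) := by
      intro χ
      rw [map_mul, map_inv, Units.val_mul]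
    simp_rw [h2]
    rw [h1]
    have h3 : v⁻¹ * u = 1 ↔ u = v := by
      rw [inv_mul_eq_one, eq_comm]
    simp only [h3]
  simp_rw [h]
  rw [Finset.sum_eq_single v]
  · rw [if_pos rfl]
  · intro u _ hu
    rw [if_neg hu, zero_smul]
  · intro hv
    exact absurd (Finset.mem_univ v) hv

/-- A subfield of `adjoin k S₀` (as a type) that contains the constants and the generators is
everything. -/
theorem s48w_top_of_adjoin {k E : Type*} [Field k] [Field E] [Algebra k E] (S₀ : Set E)
    (P : Subfield ↥(IntermediateField.adjoin k S₀))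
    (hc : ∀ c : k, algebraMap k ↥(IntermediateField.adjoin k S₀) c ∈ P)
    (hS : ∀ x (hx : x ∈ S₀), (⟨x, IntermediateField.subset_adjoin k S₀ hx⟩ :
      ↥(IntermediateField.adjoin k S₀)) ∈ P) : P = ⊤ := by
  rw [eq_top_iff]
  rintro ⟨y, hy⟩ -
  induction hy using IntermediateField.adjoin_induction with
  | mem x hx => exact hS x hx
  | algebraMap c => exact hc c
  | add x z hx hz ihx ihz => exact add_mem ihx ihz
  | inv x hx ihx => exact inv_mem ihx
  | mul x z hx hz ihx ihz => exact mul_mem ihx ihz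

end

end Fermat.Agent.Lib.S48
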