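/-
S48 (Deligne–Serre), wall [T8], twisted norm formula [W] (helper2), part 3: the TWISTED NORM PRODUCT FORMULA
on the Kummer layer `F_H` of `Γ₀(M)`:

  `Nm_α (β y) (q^p) = y (q^{p²}) · ∏_{i<p} (⟨p⟩⁻¹ y)(ζ^i q)`      for every `y ∈ F_H`,

reduced by pure field theory (`s48w_norm_abs`) to
 (I1) `[F′ : α F_H] = p + 1`;
 (D)  the diamond automorphism `⟨p⟩⁻¹` exists (`s48k_IsDiamondAut`);
 (F)  for every character `χ` of `(ℤ/M)ˣ/H`, with `t_χ = ∑_u χ(u) s̄_u`: there is `c_χ ∈ F̄₀(Mp)` with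
      `c_χ · t_χ = t_χ(q^p)`  and  `w_p(c_χ) · c_χ = χ(p)⁻¹`   (`w_p` = the landed Atkin–Lehner involution `s37w_al`).
-/
import Fermat.Agent.Lib.S48.WAbs
import Fermat.Agent.Lib.S48.WChar
import Fermat.Agent.Lib.S48.KIfaceH
import Fermat.Agent.Lib.S48.EGenFun
import Fermat.Agent.Lib.S37.WNorm

set_option autoImplicit false
set_option linter.style.haveILetI false
set_option linter.unusedSectionVars false

open ModularCurve AlgebraicCurve IntermediateField HahnSeries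
open Fermat.Agent.Lib.FF Fermat.Agent.Lib.S37 Fermat.Agent.Lib.S28

namespace Fermat.Agent.Lib.S48

local notation "Qbar" => AlgebraicClosure ℚ

noncomputable section

variable (M : ℕ) [NeZero M] (H : Subgroup (ZMod M)ˣ) (p : ℕ) [NeZero p]

/-! ### The inclusions `F̄₀(M) ⊆ F_H`, `F̄₀(Mp) ⊆ F′` -/

theorem s48w_bar_le_FH : modularFunctionFieldBar M ≤ s48k_FH M H :=
  s48k_laurentBaseChange_mono Qbar (s48k_full_le_FHQ M H)

theorem s48w_full_le_FHQp : modularFunctionFieldFull (M * p) ≤ s48k_FHQp M H p :=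
  IntermediateField.adjoin.mono ℚ _ _ (fun _ hx => Or.inl (Or.inl hx))

theorem s48w_bar_le_FHp :
    modularFunctionFieldBar (M * p) ≤ laurentBaseChange Qbar (s48k_FHQp M H p) :=
  s48k_laurentBaseChange_mono Qbar (s48w_full_le_FHQp M H p)

/-- `F̄₀(M) → F_H`. -/
def s48w_incl : ffi_F M →ₐ[Qbar] ↥(s48k_FH M H) :=
  IntermediateField.inclusion (s48w_bar_le_FH M H)

/-- `F̄₀(Mp) → F′`. -/
def s48w_incl' : ffi_F (M * p) →ₐ[Qbar] ↥(laurentBaseChange Qbar (s48k_FHQp M H p)) :=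
  IntermediateField.inclusion (s48w_bar_le_FHp M H p)

@[simp] theorem s48w_coe_incl (y : ffi_F M) :
    ((s48w_incl M H y : ↥(s48k_FH M H)) : LaurentSeries Qbar) = (y : LaurentSeries Qbar) :=
  IntermediateField.coe_inclusion _ y

@[simp] theorem s48w_coe_incl' (y : ffi_F (M * p)) :
    ((s48w_incl' M H p y : ↥(laurentBaseChange Qbar (s48k_FHQp M H p))) : LaurentSeries Qbar) =
      (y : LaurentSeries Qbar) :=
  IntermediateField.coe_inclusion _ y

/-! ### The Kummer generators `t_χ` -/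

/-- `t_χ = ∑_u χ(u) s̄_u ∈ F_H`. -/
def s48w_t (χ : (ZMod M)ˣ →* Qbarˣ) : ↥(s48k_FH M H) :=
  ∑ u : (ZMod M)ˣ, ((χ u : Qbarˣ) : Qbar) • s48k_sBar M H u

theorem s48w_wCoset_mul (u h : (ZMod M)ˣ) (hh : h ∈ H) (c : ℕ) :
    s48k_wCoset M H (u * h) c = s48k_wCoset M H u c := by
  unfold s48k_wCoset
  congr 1
  apply propext
  constructor
  · rintro ⟨h', hh', hc⟩
    exact ⟨h * h', H.mul_mem hh hh', by rw [hc, mul_assoc]⟩
  · rintro ⟨h', hh', hc⟩
    exact ⟨h⁻¹ * h', H.mul_mem (H.inv_mem hh) hh', by rw [hc, mul_assoc, mul_inv_cancel_left]⟩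

theorem s48w_sBar_mul (u h : (ZMod M)ˣ) (hh : h ∈ H) :
    s48k_sBar M H (u * h) = s48k_sBar M H u := by
  have h1 : s48k_wCoset M H (u * h) = s48k_wCoset M H u :=
    funext fun c => s48w_wCoset_mul M H u h hh c
  apply Subtype.ext
  show coeffEmb Qbar (s48k_sQ M H (u * h)) = coeffEmb Qbar (s48k_sQ M H u)
  unfold s48k_sQ
  rw [h1]

/-- `t_χ = 0` unless `χ` is trivial on `H`. -/
theorem s48w_t_eq_zero (χ : (ZMod M)ˣ →* Qbarˣ) (h : (ZMod M)ˣ) (hh : h ∈ H) (hχ : χ h ≠ 1) :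
    s48w_t M H χ = 0 := by
  have h1 : s48w_t M H χ = ((χ h : Qbarˣ) : Qbar) • s48w_t M H χ := by
    unfold s48w_t
    rw [Finset.smul_sum]
    rw [← Fintype.sum_bijective (fun u : (ZMod M)ˣ => u * h) (Group.mulRight_bijective h)
      (fun u => ((χ h : Qbarˣ) : Qbar) • ((χ u : Qbarˣ) : Qbar) • s48k_sBar M H u)
      (fun u => ((χ u : Qbarˣ) : Qbar) • s48k_sBar M H u)
      (fun u => by
        rw [s48w_sBar_mul M H u h hh, smul_smul, map_mul, Units.val_mul, mul_comm])]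
  have h2 : (1 - ((χ h : Qbarˣ) : Qbar)) • s48w_t M H χ = 0 := by
    rw [sub_smul, one_smul, ← h1, sub_self]
  rcases smul_eq_zero.mp h2 with h3 | h3
  · exfalso
    apply hχ
    apply Units.ext
    rw [Units.val_one]
    exact (sub_eq_zero.mp h3).symm
  · exact h3

/-- The diamond automorphism acts on `t_χ` through `χ`. -/
theorem s48w_diamond_t (d : (ZMod M)ˣ) (e : s48k_FH M H ≃ₐ[Qbar] s48k_FH M H)
    (he : s48k_IsDiamondAut M H d e) (χ : (ZMod M)ˣ →* Qbarˣ) :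
    e (s48w_t M H χ) = ((χ d : Qbarˣ) : Qbar) • s48w_t M H χ := by
  unfold s48w_t
  rw [map_sum, Finset.smul_sum]
  rw [← Fintype.sum_bijective (fun u : (ZMod M)ˣ => u * d) (Group.mulRight_bijective d)
    (fun u => e (((χ (u * d) : Qbarˣ) : Qbar) • s48k_sBar M H (u * d)))
    (fun u => e (((χ u : Qbarˣ) : Qbar) • s48k_sBar M H u)) (fun u => rfl)]
  refine Finset.sum_congr rfl fun u _ => ?_
  rw [Algebra.smul_def, map_mul, e.commutes, ← Algebra.smul_def, he.2, mul_inv_cancel_right,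
    smul_smul, map_mul, Units.val_mul, mul_comm]

/-! ### Generation -/

/-- Variant of `s48w_top_of_adjoin` for an intermediate field equal to an `adjoin`. -/
theorem s48w_top_of_eq_adjoin {k E : Type*} [Field k] [Field E] [Algebra k E]
    (F : IntermediateField k E) (S₀ : Set E) (hF : F = IntermediateField.adjoin k S₀)
    (P : Subfield ↥F) (hc : ∀ c : k, algebraMap k ↥F c ∈ P)
    (hS : ∀ x ∈ S₀, ∀ hx : x ∈ F, (⟨x, hx⟩ : ↥F) ∈ P) : P = ⊤ := by
  subst hF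
  exact s48w_top_of_adjoin S₀ P hc (fun x hx => hS x hx _)

theorem s48w_enough : HasEnoughRootsOfUnity Qbar (Monoid.exponent (ZMod M)ˣ) := by
  haveI : NeZero ((Monoid.exponent (ZMod M)ˣ : ℕ) : ℚ) :=
    ⟨Nat.cast_ne_zero.mpr Monoid.exponent_ne_zero_of_finite⟩
  infer_instance

/-- Fourier inversion for the `s̄_u`, pushed through an additive `Qbar`-linear map. -/
theorem s48w_fourier {V : Type*} [AddCommGroup V] [Module Qbar V]
    (f : ↥(s48k_FH M H) →ₗ[Qbar] V) (v : (ZMod M)ˣ) :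
    letI : Fintype ((ZMod M)ˣ →* Qbarˣ) := Fintype.ofFinite _
    f (s48k_sBar M H v) = ((Fintype.card (ZMod M)ˣ : Qbar))⁻¹ •
      ∑ χ : (ZMod M)ˣ →* Qbarˣ, (((χ v)⁻¹ : Qbarˣ) : Qbar) • f (s48w_t M H χ) := by
  letI : Fintype ((ZMod M)ˣ →* Qbarˣ) := Fintype.ofFinite _
  haveI := s48w_enough M
  have h := s48w_fourier_inv (k := Qbar) (fun u => f (s48k_sBar M H u)) v
  have h1 : ∀ χ : (ZMod M)ˣ →* Qbarˣ, f (s48w_t M H χ) =
      ∑ u : (ZMod M)ˣ, ((χ u : Qbarˣ) : Qbar) • f (s48k_sBar M H u) := by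
    intro χ
    unfold s48w_t
    rw [map_sum]
    exact Finset.sum_congr rfl fun u _ => map_smul f _ _
  simp_rw [h1]
  rw [h, smul_smul, inv_mul_cancel₀, one_smul]
  exact Nat.cast_ne_zero.mpr Fintype.card_ne_zero

/-- The set of the Kummer generators `t_χ`, `χ` trivial on `H`. -/
def s48w_T : Set ↥(s48k_FH M H) :=
  {t | ∃ χ : (ZMod M)ˣ →* Qbarˣ, (∀ h ∈ H, χ h = 1) ∧ t = s48w_t M H χ}

theorem s48w_smul_mem_of_algebraMap_mem {k F : Type*} [Field k] [Field F] [Algebra k F]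
    (P : Subfield F) (hc : ∀ c : k, algebraMap k F c ∈ P) (c : k) {x : F} (hx : x ∈ P) :
    c • x ∈ P := by
  rw [Algebra.smul_def]
  exact mul_mem (hc c) hx

/-- **`F_H = F̄₀(M)(t_χ : χ)`.** -/
theorem s48w_gen :
    Subfield.closure (Set.range (s48w_incl M H) ∪ s48w_T M H) = ⊤ := by
  classical
  set P := Subfield.closure (Set.range (s48w_incl M H) ∪ s48w_T M H) with hP
  have hc : ∀ c : Qbar, algebraMap Qbar ↥(s48k_FH M H) c ∈ P := fun c =>
    Subfield.subset_closure (Or.inl ⟨algebraMap Qbar (ffi_F M) c, (s48w_incl M H).commutes c⟩)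
  have ht : ∀ χ : (ZMod M)ˣ →* Qbarˣ, s48w_t M H χ ∈ P := by
    intro χ
    by_cases hχ : ∀ h ∈ H, χ h = 1
    · exact Subfield.subset_closure (Or.inr ⟨χ, hχ, rfl⟩)
    · push_neg at hχ
      obtain ⟨h, hh, hne⟩ := hχ
      rw [s48w_t_eq_zero M H χ h hh hne]
      exact zero_mem P
  refine s48w_top_of_eq_adjoin (s48k_FH M H)
    (⇑(coeffEmb Qbar) '' (divisorExpansions M ∪ Set.range (s48k_sQ M H)))
    (ffg_laurentBaseChange_adjoin Qbar _) P hc ?_
  rintro _ ⟨y, hy | ⟨u, rfl⟩, rfl⟩ hx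
  · have hy' : coeffEmb Qbar y ∈ modularFunctionFieldBar M :=
      coeffEmb_mem_laurentBaseChange Qbar (IntermediateField.subset_adjoin ℚ _ hy)
    exact Subfield.subset_closure (Or.inl ⟨⟨coeffEmb Qbar y, hy'⟩, Subtype.ext rfl⟩)
  · have h1 : (⟨coeffEmb Qbar (s48k_sQ M H u), hx⟩ : ↥(s48k_FH M H)) = s48k_sBar M H u := rfl
    rw [h1]
    have h2 := s48w_fourier M H (LinearMap.id) u
    simp only [LinearMap.id_coe, id_eq] at h2
    rw [h2]
    refine s48w_smul_mem_of_algebraMap_mem P hc _ (sum_mem fun χ _ => ?_)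
    exact s48w_smul_mem_of_algebraMap_mem P hc _ (ht χ)

/-- **`F′ = F̄₀(Mp) · α(F_H)`**, given `β t_χ ∈ F̄₀(Mp) · α(t_χ)`. -/
theorem s48w_gen'
    (hF : ∀ χ : (ZMod M)ˣ →* Qbarˣ, (∀ h ∈ H, χ h = 1) → ∃ c : ffi_F (M * p),
      s48k_heckeBetaH M H p (s48w_t M H χ) =
        s48w_incl' M H p c * s48k_heckeAlphaH M H p (s48w_t M H χ)) :
    Subfield.closure (Set.range (s48w_incl' M H p) ∪ Set.range (s48k_heckeAlphaH M H p)) = ⊤ := by
  classical
  set P := Subfield.closure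
    (Set.range (s48w_incl' M H p) ∪ Set.range (s48k_heckeAlphaH M H p)) with hP
  have hc : ∀ c : Qbar, algebraMap Qbar ↥(laurentBaseChange Qbar (s48k_FHQp M H p)) c ∈ P :=
    fun c => Subfield.subset_closure
      (Or.inl ⟨algebraMap Qbar (ffi_F (M * p)) c, (s48w_incl' M H p).commutes c⟩)
  have ht : ∀ χ : (ZMod M)ˣ →* Qbarˣ, s48k_heckeBetaH M H p (s48w_t M H χ) ∈ P := by
    intro χ
    by_cases hχ : ∀ h ∈ H, χ h = 1
    · obtain ⟨c, hc'⟩ := hF χ hχ
      rw [hc']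
      exact mul_mem (Subfield.subset_closure (Or.inl ⟨c, rfl⟩))
        (Subfield.subset_closure (Or.inr ⟨_, rfl⟩))
    · push_neg at hχ
      obtain ⟨h, hh, hne⟩ := hχ
      rw [s48w_t_eq_zero M H χ h hh hne, map_zero]
      exact zero_mem P
  refine s48w_top_of_eq_adjoin (laurentBaseChange Qbar (s48k_FHQp M H p))
    (⇑(coeffEmb Qbar) '' ((divisorExpansions (M * p) ∪ Set.range (s48k_sQ M H)) ∪
      (⇑(qExpand ℚ p) '' Set.range (s48k_sQ M H))))
    (ffg_laurentBaseChange_adjoin Qbar _) P hc ?_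
  rintro _ ⟨y, (hy | ⟨u, rfl⟩) | ⟨_, ⟨u, rfl⟩, rfl⟩, rfl⟩ hx
  · have hy' : coeffEmb Qbar y ∈ modularFunctionFieldBar (M * p) :=
      coeffEmb_mem_laurentBaseChange Qbar (IntermediateField.subset_adjoin ℚ _ hy)
    exact Subfield.subset_closure (Or.inl ⟨⟨coeffEmb Qbar y, hy'⟩, Subtype.ext rfl⟩)
  · refine Subfield.subset_closure (Or.inr ⟨s48k_sBar M H u, Subtype.ext ?_⟩)
    rw [s48k_coe_heckeAlphaH]
    rfl
  · have h1 : (⟨coeffEmb Qbar (qExpand ℚ p (s48k_sQ M H u)), hx⟩ :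
        ↥(laurentBaseChange Qbar (s48k_FHQp M H p))) =
        s48k_heckeBetaH M H p (s48k_sBar M H u) := by
      apply Subtype.ext
      rw [s48k_coe_heckeBetaH]
      exact s48k_coeffEmb_qExpand Qbar p _
    rw [h1]
    have h2 := s48w_fourier M H (s48k_heckeBetaH M H p).toLinearMap u
    simp only [AlgHom.toLinearMap_apply] at h2
    rw [h2]
    refine s48w_smul_mem_of_algebraMap_mem P hc _ (sum_mem fun χ _ => ?_)
    exact s48w_smul_mem_of_algebraMap_mem P hc _ (ht χ)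

/-! ### The twisted norm product formula -/

/-- The base embedding `F_H → Qbar((q))`, `y ↦ y(q^p)`. -/
def s48w_b : ↥(s48k_FH M H) →+* LaurentSeries Qbar :=
  (qExpand Qbar p).comp (algebraMap ↥(s48k_FH M H) (LaurentSeries Qbar))

/-- The `p + 1` target maps `y ↦ y(q^{p²})`, `y ↦ (dd y)(ζ^j q)`. -/
def s48w_g (ζ : Qbarˣ) (dd : ↥(s48k_FH M H) ≃ₐ[Qbar] ↥(s48k_FH M H)) :
    Option (Fin p) → (↥(s48k_FH M H) →+* LaurentSeries Qbar)
  | none => (qExpand Qbar (p * p)).comp (algebraMap ↥(s48k_FH M H) (LaurentSeries Qbar))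
  | some j => (s28m_tw (ζ ^ (j : ℕ))).comp
      ((algebraMap ↥(s48k_FH M H) (LaurentSeries Qbar)).comp
        (dd : ↥(s48k_FH M H) →+* ↥(s48k_FH M H)))

theorem s48w_g_none (ζ : Qbarˣ) (dd : ↥(s48k_FH M H) ≃ₐ[Qbar] ↥(s48k_FH M H))
    (y : ↥(s48k_FH M H)) :
    s48w_g M H p ζ dd none y = qExpand Qbar (p * p) (y : LaurentSeries Qbar) := rfl

theorem s48w_g_some (ζ : Qbarˣ) (dd : ↥(s48k_FH M H) ≃ₐ[Qbar] ↥(s48k_FH M H)) (j : Fin p)
    (y : ↥(s48k_FH M H)) :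
    s48w_g M H p ζ dd (some j) y =
      s28m_tw (ζ ^ (j : ℕ)) ((dd y : ↥(s48k_FH M H)) : LaurentSeries Qbar) := rfl


theorem s48w_b_apply (x : ↥(s48k_FH M H)) :
    s48w_b M H p x = qExpand Qbar p (x : LaurentSeries Qbar) := rfl

theorem s48w_coe_smul (κ : Qbar) (t : ↥(s48k_FH M H)) :
    ((κ • t : ↥(s48k_FH M H)) : LaurentSeries Qbar) =
      algebraMap Qbar (LaurentSeries Qbar) κ * (t : LaurentSeries Qbar) := by
  rw [Algebra.smul_def]
  rfl

theorem s48w_normAlong_eq (x : ↥(laurentBaseChange Qbar (s48k_FHQp M H p))) :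
    s48e_normAlong (s48k_heckeAlphaH M H p) x =
      @Algebra.norm ↥(s48k_FH M H) ↥(laurentBaseChange Qbar (s48k_FHQp M H p)) _ _
        (s48k_heckeAlphaH M H p).toRingHom.toAlgebra x := rfl

theorem s48w_beta_toRingHom (y : ↥(s48k_FH M H)) :
    (s48k_heckeBetaH M H p).toRingHom y = s48k_heckeBetaH M H p y := rfl

theorem s48w_gen_rh :
    Subfield.closure (Set.range ⇑(s48w_incl M H).toRingHom ∪ s48w_T M H) = ⊤ := by
  have h := s48w_gen M H
  simpa only [AlgHom.toRingHom_eq_coe, RingHom.coe_coe] using h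

theorem s48w_gen'_rh
    (hF : ∀ χ : (ZMod M)ˣ →* Qbarˣ, (∀ h ∈ H, χ h = 1) → ∃ c : ffi_F (M * p),
      s48k_heckeBetaH M H p (s48w_t M H χ) =
        s48w_incl' M H p c * s48k_heckeAlphaH M H p (s48w_t M H χ)) :
    Subfield.closure (Set.range ⇑(s48w_incl' M H p).toRingHom ∪
      Set.range ⇑(s48k_heckeAlphaH M H p).toRingHom) = ⊤ := by
  have h := s48w_gen' M H p hF
  simpa only [AlgHom.toRingHom_eq_coe, RingHom.coe_coe] using h

section Pieces

variable (hp : p.Prime) (hpM : ¬ p ∣ M) (pu : (ZMod M)ˣ) (ζ : Qbarˣ)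

theorem s48w_hcomm (y₀ : ffi_F M) :
    (s48w_incl' M H p).toRingHom ((heckeAlphaBar Qbar M p).toRingHom y₀) =
      (s48k_heckeAlphaH M H p).toRingHom ((s48w_incl M H).toRingHom y₀) := by
  simp only [AlgHom.toRingHom_eq_coe, RingHom.coe_coe]
  apply Subtype.ext
  rw [s48w_coe_incl', coe_heckeAlphaBar, s48k_coe_heckeAlphaH, s48w_coe_incl]

theorem s48w_hcard (hdeg : finrankAlong Qbar (s48k_heckeAlphaH M H p) = p + 1) :
    Fintype.card (Option (Fin p)) =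
      @Module.finrank ↥(s48k_FH M H) ↥(laurentBaseChange Qbar (s48k_FHQp M H p)) _ _
        (s48k_heckeAlphaH M H p).toRingHom.toAlgebra.toModule := by
  rw [Fintype.card_option, Fintype.card_fin]
  exact hdeg.symm

include hp hpM in
theorem s48w_hcard₀ :
    Fintype.card (Option (Fin p)) =
      @Module.finrank (ffi_F M) (ffi_F (M * p)) _ _
        (heckeAlphaBar Qbar M p).toRingHom.toAlgebra.toModule := by
  rw [Fintype.card_option, Fintype.card_fin]
  exact (s37w_finrank_alpha M p hp hpM).symm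

theorem s48w_hea (hpow : ζ ^ p = 1) (k : Option (Fin p)) (y₀ : ffi_F M) :
    s37w_emb M p hp hpM ζ k ((heckeAlphaBar Qbar M p).toRingHom y₀) =
      s48w_b M H p ((s48w_incl M H).toRingHom y₀) := by
  have h := s37w_emb_alpha M p hp hpM ζ hpow k y₀
  rw [s37w_base_apply] at h
  rw [s48w_b_apply]
  simp only [AlgHom.toRingHom_eq_coe, RingHom.coe_coe]
  rw [s48w_coe_incl]
  exact h

theorem s48w_hβ₀ (y₀ : ffi_F M) :
    (s48k_heckeBetaH M H p).toRingHom ((s48w_incl M H).toRingHom y₀) =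
      (s48w_incl' M H p).toRingHom ((heckeBetaBar Qbar M p).toRingHom y₀) := by
  simp only [AlgHom.toRingHom_eq_coe, RingHom.coe_coe]
  apply Subtype.ext
  rw [s48k_coe_heckeBetaH, s48w_coe_incl, s48w_coe_incl', coe_heckeBetaBar]

theorem s48w_hg₀ (dd : ↥(s48k_FH M H) ≃ₐ[Qbar] ↥(s48k_FH M H))
    (hD : ∀ x : s48k_FH M H, (x : LaurentSeries Qbar) ∈ modularFunctionFieldBar M → dd x = x)
    (k : Option (Fin p)) (y₀ : ffi_F M) :
    s48w_g M H p ζ dd k ((s48w_incl M H).toRingHom y₀) =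
      s37w_emb M p hp hpM ζ k ((heckeBetaBar Qbar M p).toRingHom y₀) := by
  simp only [AlgHom.toRingHom_eq_coe, RingHom.coe_coe]
  cases k with
  | none =>
    rw [s48w_g_none, s37w_emb_none, s48w_coe_incl, coe_heckeBetaBar, qExpand_qExpand]
  | some j =>
    rw [s48w_g_some, s37w_emb_some, s37w_al_beta, coe_heckeAlphaBar]
    have hfix : dd (s48w_incl M H y₀) = s48w_incl M H y₀ := by
      apply hD
      rw [s48w_coe_incl]
      exact y₀.2
    rw [hfix, s48w_coe_incl]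

theorem s48w_hF1 (χ : (ZMod M)ˣ →* Qbarˣ) (c : ffi_F (M * p))
    (hc1 : (c : LaurentSeries Qbar) * (s48w_t M H χ : LaurentSeries Qbar) =
        qExpand Qbar p (s48w_t M H χ : LaurentSeries Qbar)) :
    s48k_heckeBetaH M H p (s48w_t M H χ) =
        s48w_incl' M H p c * s48k_heckeAlphaH M H p (s48w_t M H χ) := by
  apply Subtype.ext
  rw [s48k_coe_heckeBetaH, ← hc1, MulMemClass.coe_mul, s48w_coe_incl', s48k_coe_heckeAlphaH]

theorem s48w_hT_some (dd : ↥(s48k_FH M H) ≃ₐ[Qbar] ↥(s48k_FH M H)) (κ : Qbar)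
    (hpow : ζ ^ p = 1) (t : ↥(s48k_FH M H)) (c : ffi_F (M * p))
    (hc1 : (c : LaurentSeries Qbar) * (t : LaurentSeries Qbar) =
        qExpand Qbar p (t : LaurentSeries Qbar))
    (hc2 : s37w_al M p hp hpM c * c = algebraMap Qbar (ffi_F (M * p)) κ)
    (hdt : dd t = κ • t) (j : Fin p) :
    s48w_g M H p ζ dd (some j) t = s37w_emb M p hp hpM ζ (some j) c * s48w_b M H p t := by
  have hpowj : (ζ ^ (j : ℕ)) ^ p = 1 := by
    rw [← pow_mul, mul_comm, pow_mul, hpow, one_pow]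
  have hc2' : ((s37w_al M p hp hpM c : ffi_F (M * p)) : LaurentSeries Qbar) *
      (c : LaurentSeries Qbar) = algebraMap Qbar (LaurentSeries Qbar) κ := by
    have := congrArg (fun z : ffi_F (M * p) => (z : LaurentSeries Qbar)) hc2
    exact this
  rw [s48w_g_some, s37w_emb_some, s48w_b_apply, hdt, s48w_coe_smul, ← hc2',
    ← s28m_tw_qExpand (ζ ^ (j : ℕ)) p hpowj (t : LaurentSeries Qbar), ← map_mul, ← hc1, mul_assoc]

theorem s48w_hT_none (dd : ↥(s48k_FH M H) ≃ₐ[Qbar] ↥(s48k_FH M H))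
    (t : ↥(s48k_FH M H)) (c : ffi_F (M * p))
    (hc1 : (c : LaurentSeries Qbar) * (t : LaurentSeries Qbar) =
        qExpand Qbar p (t : LaurentSeries Qbar)) :
    s48w_g M H p ζ dd none t = s37w_emb M p hp hpM ζ none c * s48w_b M H p t := by
  rw [s48w_g_none, s37w_emb_none, s48w_b_apply, ← map_mul, hc1, qExpand_qExpand]

theorem s48w_hT (dd : ↥(s48k_FH M H) ≃ₐ[Qbar] ↥(s48k_FH M H))
    (hD : s48k_IsDiamondAut M H pu⁻¹ dd) (hpow : ζ ^ p = 1)
    (hF : ∀ χ : (ZMod M)ˣ →* Qbarˣ, (∀ h ∈ H, χ h = 1) → ∃ c : ffi_F (M * p),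
      (c : LaurentSeries Qbar) * (s48w_t M H χ : LaurentSeries Qbar) =
        qExpand Qbar p (s48w_t M H χ : LaurentSeries Qbar) ∧
      s37w_al M p hp hpM c * c =
        algebraMap Qbar (ffi_F (M * p)) (((χ pu)⁻¹ : Qbarˣ) : Qbar)) :
    ∀ t ∈ s48w_T M H, ∃ c : ffi_F (M * p),
      (s48k_heckeBetaH M H p).toRingHom t =
        (s48w_incl' M H p).toRingHom c * (s48k_heckeAlphaH M H p).toRingHom t ∧
      ∀ k, s48w_g M H p ζ dd k t = s37w_emb M p hp hpM ζ k c * s48w_b M H p t := by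
  rintro t ⟨χ, hχ, rfl⟩
  obtain ⟨c, hc1, hc2⟩ := hF χ hχ
  refine ⟨c, ?_, ?_⟩
  · simp only [AlgHom.toRingHom_eq_coe, RingHom.coe_coe]
    exact s48w_hF1 M H p χ c hc1
  · intro k
    cases k with
    | none => exact s48w_hT_none M H p hp hpM ζ dd _ c hc1
    | some j =>
      have hdt : dd (s48w_t M H χ) = (((χ pu)⁻¹ : Qbarˣ) : Qbar) • s48w_t M H χ := by
        have h := s48w_diamond_t M H pu⁻¹ dd hD χ
        rw [map_inv] at h
        exact h
      exact s48w_hT_some M H p hp hpM ζ dd _ hpow _ c hc1 hc2 hdt j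

end Pieces

/-- **The twisted norm product formula [W] on the Kummer layer.** -/
theorem s48w_twisted_norm (hp : p.Prime) (hpM : ¬ p ∣ M) (pu : (ZMod M)ˣ)
    (ζ : Qbarˣ) (hζ : IsPrimitiveRoot (ζ : Qbar) p)
    (hdeg : finrankAlong Qbar (s48k_heckeAlphaH M H p) = p + 1)
    (hD : s48k_IsDiamondAut M H pu⁻¹ (s48k_diamondAut M H pu⁻¹))
    (hF : ∀ χ : (ZMod M)ˣ →* Qbarˣ, (∀ h ∈ H, χ h = 1) → ∃ c : ffi_F (M * p),
      (c : LaurentSeries Qbar) * (s48w_t M H χ : LaurentSeries Qbar) =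
        qExpand Qbar p (s48w_t M H χ : LaurentSeries Qbar) ∧
      s37w_al M p hp hpM c * c =
        algebraMap Qbar (ffi_F (M * p)) (((χ pu)⁻¹ : Qbarˣ) : Qbar))
    (y : ↥(s48k_FH M H)) :
    qExpand Qbar p ((s48e_normAlong (s48k_heckeAlphaH M H p) (s48k_heckeBetaH M H p y) :
        ↥(s48k_FH M H)) : LaurentSeries Qbar) =
      qExpand Qbar (p * p) (y : LaurentSeries Qbar) *
        s37e_prodTw p ζ
          ((SemilinearAut.ofAlgAut (s48k_diamondAut M H pu⁻¹) • y : ↥(s48k_FH M H)) :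
            LaurentSeries Qbar) := by
  have hpow : ζ ^ p = 1 := by
    apply Units.ext
    rw [Units.val_pow_eq_pow_val, hζ.pow_eq_one, Units.val_one]
  haveI : CharZero ↥(s48k_FH M H) :=
    charZero_of_injective_algebraMap (algebraMap Qbar ↥(s48k_FH M H)).injective
  have hF1 : ∀ χ : (ZMod M)ˣ →* Qbarˣ, (∀ h ∈ H, χ h = 1) → ∃ c : ffi_F (M * p),
      s48k_heckeBetaH M H p (s48w_t M H χ) =
        s48w_incl' M H p c * s48k_heckeAlphaH M H p (s48w_t M H χ) := by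
    intro χ hχ
    obtain ⟨c, hc1, -⟩ := hF χ hχ
    exact ⟨c, s48w_hF1 M H p χ c hc1⟩
  have key := s48w_norm_abs (K := ↥(s48k_FH M H))
    (K' := ↥(laurentBaseChange Qbar (s48k_FHQp M H p)))
    (K₀ := ffi_F M) (K₀' := ffi_F (M * p)) (E := LaurentSeries Qbar) (ι := Option (Fin p))
    (s48k_heckeAlphaH M H p).toRingHom (s48k_heckeBetaH M H p).toRingHom (s48w_b M H p)
    (s48w_incl M H).toRingHom (s48w_incl' M H p).toRingHom
    (heckeAlphaBar Qbar M p).toRingHom (heckeBetaBar Qbar M p).toRingHom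
    (s48w_hcomm M H p) (s48w_gen'_rh M H p hF1) (s48w_hcard M H p hdeg)
    (s48w_hcard₀ M p hp hpM) (s37w_emb M p hp hpM ζ)
    (s37w_emb_injective M p hp hpM ζ hζ) (s48w_hea M H p hp hpM ζ hpow)
    (s48w_g M H p ζ (s48k_diamondAut M H pu⁻¹)) (s48w_T M H) (s48w_gen_rh M H)
    (s48w_hβ₀ M H p) (s48w_hg₀ M H p hp hpM ζ (s48k_diamondAut M H pu⁻¹) hD.1)
    (s48w_hT M H p hp hpM pu ζ (s48k_diamondAut M H pu⁻¹) hD hpow hF) y
  rw [← s48w_b_apply, s48w_normAlong_eq, ← s48w_beta_toRingHom, key, Fintype.prod_option,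
    s48w_g_none]
  congr 1
  unfold s37e_prodTw
  rw [← Fin.prod_univ_eq_prod_range (fun b => s28m_tw (ζ ^ b)
    ((SemilinearAut.ofAlgAut (s48k_diamondAut M H pu⁻¹) • y : ↥(s48k_FH M H)) :
      LaurentSeries Qbar))]
  rfl

end

end Fermat.Agent.Lib.S48
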