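/-
DS-1 (S48), twisted [W] (helper5), final assembly: helper2's `s48w_twisted_norm` (WTw) fed with
* (I1) `s48wg_finrankAlong_alpha` (WGE), (D) `s48wg_isDiamondAut` (WGF),
* (F1)+(F2) `s48wf_F1`, `s48wf_F2` (WFC, WFE) in helper2's exact shape `s48wg_hF`,
giving `s48wg_twistedW` = the body of helper8's `s48e_TwistedW`, verbatim.
-/
import Fermat.Agent.Lib.S48.WGF
import Fermat.Agent.Lib.S48.WTw
import Fermat.Agent.Lib.S48.WFE

set_option autoImplicit false
set_option linter.unusedSectionVars false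
set_option linter.style.haveILetI false

namespace Fermat.Agent.Lib.S48

open ModularCurve CongruenceSubgroup IntermediateField AlgebraicCurve HahnSeries
open Fermat.Agent.Lib.FF Fermat.Agent.Lib.S29 Fermat.Agent.Lib.S37 Fermat.Agent.Lib.S28
open scoped MatrixGroups

noncomputable section

local notation "Kb" => AlgebraicClosure ℚ

variable {M : ℕ} [NeZero M] (H : Subgroup (ZMod M)ˣ) (p : ℕ) [NeZero p]

/-- helper2's `t_χ` is `|H|` times the formal generator of the Dirichlet character `χ`. -/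
theorem s48wg_t_eq (χ : (ZMod M)ˣ →* Kbˣ) (hχ : ∀ h ∈ H, χ h = 1) :
    ((s48w_t M H χ : ↥(s48k_FH M H)) : LaurentSeries Kb) =
      (Nat.card H : Kb) • s48wf_tq (MulChar.ofUnitHom χ : DirichletCharacter Kb M) := by
  rw [s48w_t, IntermediateField.coe_sum,
    ← s48wf_sum_sBar H (MulChar.ofUnitHom χ : DirichletCharacter Kb M)
      (fun h hh => by rw [MulChar.ofUnitHom_coe, hχ h hh]; rfl)]
  refine Finset.sum_congr rfl fun u _ => ?_
  rw [s48wg_coe_smul, MulChar.ofUnitHom_coe]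

/-- **(F1)+(F2) in the shape of helper2's `s48w_twisted_norm`.** -/
theorem s48wg_hF (hM : 1 < M) (hneg : (-1 : (ZMod M)ˣ) ∈ H) (hp : p.Prime) (hpM : ¬ p ∣ M)
    (pu : (ZMod M)ˣ) (hpu : ((pu : (ZMod M)ˣ) : ZMod M) = (p : ZMod M))
    (χ : (ZMod M)ˣ →* Kbˣ) (hχ : ∀ h ∈ H, χ h = 1) :
    ∃ c : ffi_F (M * p),
      (c : LaurentSeries Kb) * (s48w_t M H χ : LaurentSeries Kb) =
        qExpand Kb p (s48w_t M H χ : LaurentSeries Kb) ∧
      s37w_al M p hp hpM c * c =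
        algebraMap Kb (ffi_F (M * p)) (((χ pu)⁻¹ : Kbˣ) : Kb) := by
  set χ' : DirichletCharacter Kb M := MulChar.ofUnitHom χ with hχ'
  have hχ'H : χ' ∈ s48wg_XH H := (s48wg_mem_XH H).mpr fun h hh => by
    rw [hχ', MulChar.ofUnitHom_coe, hχ h hh]; rfl
  have hev : χ'.Even := (s48wg_charSet_XH H hneg).even χ' hχ'H
  have ht0 := s48wf_tq_ne_zero χ'
  refine ⟨⟨qExpand Kb p (s48wf_tq χ') / s48wf_tq χ', s48wf_F1 χ' p hM hev⟩, ?_, ?_⟩
  · rw [s48wg_t_eq H χ hχ]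
    show qExpand Kb p (s48wf_tq χ') / s48wf_tq χ' * _ = _
    have hq : qExpand Kb p (algebraMap Kb (LaurentSeries Kb) (Nat.card H : Kb)) =
        algebraMap Kb (LaurentSeries Kb) (Nat.card H : Kb) :=
      (s48wg_qExpandK p).commutes _
    rw [← HahnSeries.C_mul_eq_smul, s29cf_C_eq, map_mul, hq, mul_left_comm,
      div_mul_cancel₀ _ ht0]
  · have h2 := s48wf_F2 M p χ' hM hev hp hpM
      ⟨qExpand Kb p (s48wf_tq χ') / s48wf_tq χ', s48wf_F1 χ' p hM hev⟩ rfl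
    rw [h2, ← hpu, hχ', MulChar.ofUnitHom_coe, Units.val_inv_eq_inv_val]

/-- **Twisted [W]** (the body of helper8's `s48e_TwistedW`, verbatim). -/
theorem s48wg_twistedW :
    ∀ (M N₁ ℓ₀ : ℕ) [NeZero M] (H : Subgroup (ZMod M)ˣ), s48k_Level M N₁ ℓ₀ H →
      ∀ (p : ℕ) [NeZero p] (pu : (ZMod M)ˣ), p.Prime → ¬ p ∣ M →
        ((pu : (ZMod M)ˣ) : ZMod M) = (p : ZMod M) →
        ∀ ζ : Kbˣ, IsPrimitiveRoot (ζ : Kb) p → ∀ y : ↥(s48k_FH M H),
          qExpand Kb p ((s48e_normAlong (s48k_heckeAlphaH M H p) (s48k_heckeBetaH M H p y) :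
              ↥(s48k_FH M H)) : LaurentSeries Kb) =
            qExpand Kb (p * p) (y : LaurentSeries Kb) *
              s37e_prodTw p ζ
                ((s48k_diamondAut M H pu⁻¹ y : ↥(s48k_FH M H)) : LaurentSeries Kb) := by
  intro M N₁ ℓ₀ _ H hL p _ pu hp hpM hpu ζ hζ y
  have hM := s48wg_one_lt_of_level H hL
  exact s48w_twisted_norm M H p hp hpM pu ζ hζ
    (s48wg_finrankAlong_alpha H p hM hL.neg_one hp hpM)
    (s48wg_isDiamondAut H hM hL.neg_one pu⁻¹)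
    (fun χ hχ => s48wg_hF H p hM hL.neg_one hp hpM pu hpu χ hχ) y

end

end Fermat.Agent.Lib.S48
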