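/-
S48 / DS-1 (helper3): **`s48k_EigenSupportH` with NO hypotheses.**

Glue of
* helper3 `s48h_eigenSupportH_of'` (HKF8: the whole of [T5] — bridge `φ_H`, degree, places, [INV], diamonds,
  (EQ) — discharged; inputs: the Hecke inputs and twisted [W]);
* helper5 `s48wg_modelInputs` (WGF: `FFGen`, finiteness along `α`, `β`) and `s48wg_twistedW` (WGT: twisted [W]);
* helper8 `s48e_heckeInputsH_of` (EIntH3: the six Hecke inputs from `FFGen` + finiteness).
-/
import Mathlib
import Fermat.Agent.Lib.S48.HKF8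
import Fermat.Agent.Lib.S48.WGT
import Fermat.Agent.Lib.S48.EIntH3

set_option autoImplicit false
set_option linter.unusedSectionVars false
set_option linter.style.haveILetI false

namespace Fermat.Agent.Lib.S48

open AlgebraicCurve ModularCurve
open Fermat.Agent.Lib.FF Fermat.Agent.Lib.S18 Fermat.Agent.Lib.S29 Fermat.Agent.Lib.S37

noncomputable section

local notation "Qbar" => AlgebraicClosure ℚ

/-- The Hecke inputs of `KIfaceH` at every level `s48k_Level` and every prime `p ∤ M`. -/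
theorem s48h_heckeInputsH (M N₁ ℓ₀ : ℕ) [NeZero M] (H : Subgroup (ZMod M)ˣ)
    (hL : s48k_Level M N₁ ℓ₀ H) (p : ℕ) [NeZero p] (hp : p.Prime) (hpM : ¬ p ∣ M) :
    s48k_HeckeInputsH M H p := by
  obtain ⟨⟨x, hx⟩, -, hrest⟩ := s48wg_modelInputs M N₁ ℓ₀ H hL
  obtain ⟨⟨x', hx'⟩, hfa, hfb, -⟩ := hrest p hp hpM
  haveI := hx
  haveI := hx'
  exact s48e_heckeInputsH_of M H x p x' hfa hfb

/-- **`s48k_EigenSupportH`, unconditionally.** -/
theorem s48h_eigenSupportH : s48k_EigenSupportH :=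
  s48h_eigenSupportH_of' s48h_heckeInputsH
    (fun M N₁ ℓ₀ _ H hL p _ pu hp hpM hpu ζ hζ y =>
      s48wg_twistedW M N₁ ℓ₀ H hL p pu hp hpM hpu ζ hζ y)

end

end Fermat.Agent.Lib.S48
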