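/-
S48 programme DS-1, LEVEL-2 WIRING (helper3):

  `s48h_modL : s48i_Rat → s48i_Eis → s48i_S29H → s48i_ModL`

(`[DEP]` is discharged by `s48h_dep`, the nebentypus of `f` by `(D0)` = `s48h_nebentypus`; of `s48i_Rat`
only the clause `∀ p ∤ N, IsIntegral ℤ (a_p f)` is used.)

Route (DS §6): `f'` = depletion of `f` on `Γ₁(N²)` (coefficients in `𝓞` by the Hecke recursion);
`χ = ω⁻¹` the inverse Teichmüller character of `φ : 𝓞 → k` (`HTeich.lean`); `E = 2ℓ·G_χ` with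
`b₀ = -Σ χ(a)a ≡ 1`, `b_n ≡ 0 (n ≥ 1)` mod `ker φ`; `g = f'·E ∈ S₂(Γ₁(N²ℓ), ψ)`, `ψ = ε·χ`,
`c_n ≡ a'_n`; `p·φ(ψ(p)) = φ(ε(p))`; `ℓ ∤ ord ψ ∣ φ(N)(ℓ-1)` for `ℓ > N`.  `B := N`.
-/
import Mathlib
import Fermat.Agent.Lib.S48.Iface
import Fermat.Agent.Lib.S48.HDep
import Fermat.Agent.Lib.S48.HNeben
import Fermat.Agent.Lib.S48.HNebT
import Fermat.Agent.Lib.S48.HProd
import Fermat.Agent.Lib.S48.HTeich

set_option autoImplicit false

noncomputable section

namespace Fermat.Agent.Lib.S48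

open Matrix.SpecialLinearGroup ModularForm CongruenceSubgroup UpperHalfPlane ModularFormClass
open Polynomial
open scoped MatrixGroups ModularForm

local notation "𝓞" => integralClosure ℤ ℂ
local notation "Γℚ" => (AlgebraicClosure ℚ ≃ₐ[ℚ] AlgebraicClosure ℚ)

/-- A modular form on `Γ₁(N)` is `s48h_Good`. -/
theorem s48h_good_of_modularForm {N : ℕ} [NeZero N] {k : ℤ} (G : ModularForm (Gamma1 N) k) :
    s48h_Good N k ⇑G where
  inv := fun _ hγ => SlashInvariantFormClass.slash_action_eq G _ (Subgroup.mem_map_of_mem _ hγ)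
  hol := ModularFormClass.holo G
  bdd := fun γ => ModularFormClass.bdd_at_infty_slash G γ

/-- The constant coefficient of a cusp form on `Γ₁(N)` vanishes. -/
theorem s48h_qCoeff_zero_cuspForm {N : ℕ} [NeZero N] {k : ℤ} (f : CuspForm (Gamma1 N) k) :
    qCoeff f 0 = 0 := by
  have h : (1 : ℝ) ∈ (Gamma1 N : Subgroup (GL (Fin 2) ℝ)).strictPeriods := by
    rw [strictPeriods_Gamma1]
    exact AddSubgroup.mem_zmultiples 1
  exact CuspFormClass.qExpansion_coeff_zero f one_pos h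

/-- Integrality of the coefficients prime to the level, from the Hecke recursion. -/
theorem s48h_isIntegral_coeff {N : ℕ} [NeZero N] (ε : DirichletCharacter ℂ N) (a : ℕ → ℂ)
    (h1 : a 1 = 1)
    (hT : ∀ p : ℕ, p.Prime → ¬ p ∣ N → ∀ n : ℕ,
      a (p * n) + ε (p : ZMod N) * (if p ∣ n then a (n / p) else 0) = a p * a n)
    (hint : ∀ p : ℕ, p.Prime → ¬ p ∣ N → IsIntegral ℤ (a p)) :
    ∀ n : ℕ, 0 < n → n.Coprime N → IsIntegral ℤ (a n) := by
  intro n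
  induction n using Nat.strong_induction_on with
  | _ n ih =>
    intro hn hcop
    rcases Nat.eq_or_lt_of_le (Nat.succ_le_of_lt hn) with h | h
    · rw [← h, h1]
      exact isIntegral_one
    · have hp : n.minFac.Prime := Nat.minFac_prime (by omega)
      set p := n.minFac with hpdef
      have hpn : p ∣ n := Nat.minFac_dvd n
      obtain ⟨m, hm⟩ := hpn
      have hm0 : 0 < m := by
        rcases Nat.eq_zero_or_pos m with h0 | h0
        · rw [h0, mul_zero] at hm; omega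
        · exact h0
      have hmn : m < n := by
        rw [hm]
        exact lt_mul_of_one_lt_left hm0 hp.one_lt
      have hpN : ¬ p ∣ N := fun hd =>
        hp.one_lt.ne' (Nat.eq_one_of_dvd_coprimes hcop ⟨m, hm⟩ hd)
      have hcm : m.Coprime N := Nat.Coprime.coprime_dvd_left ⟨p, by rw [hm, mul_comm]⟩ hcop
      have h2 := hT p hp hpN m
      rw [← hm] at h2
      have h3 : a n = a p * a m - ε (p : ZMod N) * (if p ∣ m then a (m / p) else 0) := by
        rw [← h2]; ring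
      rw [h3]
      refine ((hint p hp hpN).mul (ih m hmn hm0 hcm)).sub
        ((s48h_isIntegral_dirichlet ε _).mul ?_)
      split_ifs with hpm
      · obtain ⟨m', hm'⟩ := hpm
        have hm'0 : 0 < m' := by
          rcases Nat.eq_zero_or_pos m' with h0 | h0
          · rw [h0, mul_zero] at hm'; omega
          · exact h0
        have hdiv : m / p = m' := by
          rw [hm', Nat.mul_div_cancel_left _ hp.pos]
        rw [hdiv]
        refine ih m' ?_ hm'0 (Nat.Coprime.coprime_dvd_left ⟨p, by rw [hm', mul_comm]⟩ hcm)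
        calc m' < m := by
              rw [hm']
              exact lt_mul_of_one_lt_left hm'0 hp.one_lt
          _ < n := hmn
      · exact isIntegral_zero

/-- The depleted form with its integral coefficients and Hecke relations. -/
theorem s48h_depData (N : ℕ) [NeZero N] (ε : DirichletCharacter ℂ N)
    (f : CuspForm (Gamma1 N) 1) (hf : s48i_Hyp N ε f)
    (hint : ∀ p : ℕ, p.Prime → ¬ p ∣ N → IsIntegral ℤ (ModularFormClass.qCoeff f p)) :
    ∃ (f' : CuspForm (Gamma1 (N ^ 2)) 1) (a' α : ℕ → 𝓞) (ε' : ZMod N → 𝓞),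
      s48i_Neben (N ^ 2) 1 (fun d => ε (d : ZMod N)) f' ∧
      (∀ n, ModularFormClass.qCoeff f' n = (a' n : ℂ)) ∧ a' 1 = 1 ∧
      (∀ x, (ε' x : ℂ) = ε x) ∧
      (∀ p : ℕ, p.Prime → ¬ p ∣ N → (α p : ℂ) = ModularFormClass.qCoeff f p) ∧
      ∀ p : ℕ, p.Prime → ¬ p ∣ N → ∀ n : ℕ,
        a' (p * n) + ε' (p : ZMod N) * (if p ∣ n then a' (n / p) else 0) = α p * a' n := by
  classical
  obtain ⟨hf1, hT⟩ := hf
  have hneb : s48i_Neben N 1 (fun d => ε (d : ZMod N)) f :=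
    fun γ hγ => s48h_nebentypus N ε f hT γ hγ
  obtain ⟨f', hneb', hq⟩ := s48h_dep N (fun d => ε (d : ZMod N)) f hneb
  have hA := s48h_isIntegral_coeff ε (fun n => qCoeff f n) hf1 hT hint
  have hint' : ∀ n, IsIntegral ℤ (qCoeff f' n) := by
    intro n
    rw [hq n]
    split_ifs with hc
    · rcases Nat.eq_zero_or_pos n with h0 | h0
      · rw [h0, s48h_qCoeff_zero_cuspForm]
        exact isIntegral_zero
      · exact hA n h0 hc
    · exact isIntegral_zero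
  let α : ℕ → 𝓞 := fun p => if h : p.Prime ∧ ¬ p ∣ N then ⟨qCoeff f p, hint p h.1 h.2⟩ else 0
  have hα : ∀ p : ℕ, p.Prime → ¬ p ∣ N → (α p : ℂ) = qCoeff f p := by
    intro p hp hpN
    show ((if h : p.Prime ∧ ¬ p ∣ N then (⟨qCoeff f p, hint p h.1 h.2⟩ : 𝓞) else 0 : 𝓞) : ℂ) = _
    rw [dif_pos ⟨hp, hpN⟩]
  refine ⟨f', fun n => ⟨qCoeff f' n, hint' n⟩, α,
    fun x => ⟨ε x, s48h_isIntegral_dirichlet ε x⟩, hneb', fun n => rfl, ?_, fun x => rfl, hα, ?_⟩
  · apply Subtype.ext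
    show qCoeff f' 1 = 1
    rw [hq 1, if_pos (Nat.coprime_one_left N)]
    exact hf1
  · intro p hp hpN n
    have hpc : p.Coprime N := (Nat.Prime.coprime_iff_not_dvd hp).mpr hpN
    -- the identity in `ℂ`
    have key : qCoeff f' (p * n) + ε (p : ZMod N) * (if p ∣ n then qCoeff f' (n / p) else 0)
        = qCoeff f p * qCoeff f' n := by
      by_cases hc : n.Coprime N
      · rw [hq (p * n), if_pos (Nat.Coprime.mul_left hpc hc), hq n, if_pos hc, ← hT p hp hpN n]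
        congr 2
        split_ifs with hpn
        · rw [hq (n / p), if_pos (Nat.Coprime.coprime_div_left hc hpn)]
        · rfl
      · have h1 : ¬ (p * n).Coprime N := fun h => hc (Nat.Coprime.coprime_mul_left h)
        rw [hq (p * n), if_neg h1, hq n, if_neg hc]
        split_ifs with hpn
        · have h2 : ¬ (n / p).Coprime N := by
            intro h
            apply hc
            obtain ⟨m, rfl⟩ := hpn
            rw [Nat.mul_div_cancel_left _ hp.pos] at h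
            exact Nat.Coprime.mul_left hpc h
          rw [hq (n / p), if_neg h2]
          ring
        · ring
    apply Subtype.ext
    by_cases hpn : p ∣ n
    · simp only [if_pos hpn] at key ⊢
      show qCoeff f' (p * n) + ε (p : ZMod N) * qCoeff f' (n / p) = (α p : ℂ) * qCoeff f' n
      rw [hα p hp hpN]
      exact key
    · simp only [if_neg hpn] at key ⊢
      show qCoeff f' (p * n) + ε (p : ZMod N) * ((0 : 𝓞) : ℂ) = (α p : ℂ) * qCoeff f' n
      rw [hα p hp hpN]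
      simpa using key

/-- The Eisenstein multiplier `E = 2ℓ·G_{ω⁻¹} ≡ 1 mod ker φ`. -/
theorem s48h_eisData (hEis : s48i_Eis) {ℓ : ℕ} [hℓ : Fact ℓ.Prime] (hℓ2 : ℓ ≠ 2) {k : Type}
    [Field k] [CharP k ℓ] (φ : 𝓞 →+* k) :
    ∃ (χ : DirichletCharacter ℂ ℓ) (E : ℍ → ℂ) (b : ℕ → 𝓞),
      s48h_Neben ℓ 1 χ E ∧ (∀ n, qCoeff E n = (b n : ℂ)) ∧ φ (b 0) = 1 ∧
      (∀ n, 1 ≤ n → φ (b n) = 0) ∧
      ∀ (d : ℕ) (h : IsIntegral ℤ (χ (d : ZMod ℓ))), ¬ ℓ ∣ d → φ ⟨χ d, h⟩ * (d : k) = 1 := by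
  classical
  have : NeZero ℓ := ⟨hℓ.out.ne_zero⟩
  obtain ⟨χ, hodd, hχ⟩ := s48h_exists_teich_inv hℓ2 φ
  obtain ⟨G, hnebG, hGn, hG0, -⟩ := hEis ℓ χ hodd
  have hGgood := s48h_good_of_modularForm G
  have hℓC : (ℓ : ℂ) ≠ 0 := Nat.cast_ne_zero.mpr hℓ.out.ne_zero
  let X : ℕ → 𝓞 := fun d => ⟨χ (d : ZMod ℓ), s48h_isIntegral_dirichlet χ _⟩
  let b : ℕ → 𝓞 := fun n =>
    if n = 0 then -∑ j ∈ Finset.range ℓ, X j * (j : 𝓞)
    else (2 * (ℓ : 𝓞)) * ∑ d ∈ n.divisors, X d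
  have hb0 : b 0 = -∑ j ∈ Finset.range ℓ, X j * (j : 𝓞) := if_pos rfl
  have hbn : ∀ n, 1 ≤ n → b n = (2 * (ℓ : 𝓞)) * ∑ d ∈ n.divisors, X d := fun n hn =>
    if_neg (by omega)
  refine ⟨χ, (2 * (ℓ : ℂ)) • ⇑G, b, (s48h_neben_of_good hGgood hnebG).smul _, ?_, ?_, ?_, hχ⟩
  · intro n
    rw [s48h_qCoeff_smul hGgood.qnice]
    rcases Nat.eq_zero_or_pos n with h0 | h0
    · rw [h0, hb0, hG0]
      simp only [NegMemClass.coe_neg, AddSubmonoidClass.coe_finsetSum, MulMemClass.coe_mul,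
        SubringClass.coe_natCast]
      show _ = -∑ j ∈ Finset.range ℓ, χ (j : ZMod ℓ) * (j : ℂ)
      field_simp
    · rw [hbn n h0, hGn n h0]
      simp only [AddSubmonoidClass.coe_finsetSum, MulMemClass.coe_mul, SubringClass.coe_natCast]
      rfl
  · rw [hb0, map_neg, map_sum]
    obtain ⟨m, hm⟩ : ∃ m, ℓ = m + 1 := ⟨ℓ - 1, by have := hℓ.out.pos; omega⟩
    have hsum : ∑ j ∈ Finset.range ℓ, φ (X j * (j : 𝓞)) = (m : k) := by
      rw [hm, Finset.sum_range_succ']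
      have h0 : φ (X 0 * ((0 : ℕ) : 𝓞)) = 0 := by simp
      rw [h0, add_zero]
      have h1 : ∀ j ∈ Finset.range m, φ (X (j + 1) * ((j + 1 : ℕ) : 𝓞)) = 1 := by
        intro j hj
        have hjm := Finset.mem_range.mp hj
        have hnd : ¬ ℓ ∣ j + 1 := fun hd => by
          have := Nat.le_of_dvd (Nat.succ_pos j) hd
          omega
        rw [map_mul, map_natCast]
        exact hχ (j + 1) _ hnd
      rw [Finset.sum_congr rfl h1]
      simp
    rw [hsum]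
    have hℓk : ((m + 1 : ℕ) : k) = 0 := by
      rw [← hm]
      exact CharP.cast_eq_zero k ℓ
    push_cast at hℓk
    linear_combination -hℓk
  · intro n hn
    rw [hbn n hn, map_mul, map_mul, map_natCast, CharP.cast_eq_zero k ℓ, mul_zero, zero_mul]

/-- the order of `ψ = ε·χ` is prime to `ℓ`. -/
theorem s48h_not_dvd_orderOf {N ℓ M : ℕ} [NeZero N] (hℓ : ℓ.Prime) (hNℓ : N < ℓ) (hNM : N ∣ M)
    (hℓM : ℓ ∣ M) (ε : DirichletCharacter ℂ N) (χ : DirichletCharacter ℂ ℓ) :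
    ¬ ℓ ∣ orderOf (DirichletCharacter.changeLevel hNM ε * DirichletCharacter.changeLevel hℓM χ) := by
  intro hdvd
  have h1 : (DirichletCharacter.changeLevel hNM ε * DirichletCharacter.changeLevel hℓM χ)
      ^ (N.totient * (ℓ - 1)) = 1 := by
    rw [mul_pow, ← map_pow, ← map_pow, pow_mul, s48h_dirichlet_pow_totient, one_pow, map_one,
      mul_comm N.totient, pow_mul]
    have h2 := s48h_dirichlet_pow_totient χ
    rw [Nat.totient_prime hℓ] at h2
    rw [h2, one_pow, map_one, one_mul]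
  have h3 := hdvd.trans (orderOf_dvd_of_pow_eq_one h1)
  rcases (Nat.Prime.dvd_mul hℓ).mp h3 with h | h
  · have h4 := Nat.le_of_dvd (Nat.totient_pos.mpr (NeZero.pos N)) h
    have h5 := Nat.totient_le N
    omega
  · have h4 := Nat.le_of_dvd (Nat.sub_pos_of_lt hℓ.one_lt) h
    have := hℓ.pos
    omega

/-- value of a lifted character at a natural number prime to the level. -/
theorem s48h_changeLevel_natCast {n m : ℕ} (hm : n ∣ m) (χ : DirichletCharacter ℂ n) {p : ℕ}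
    (hp : p.Coprime m) :
    DirichletCharacter.changeLevel hm χ (p : ZMod m) = χ (p : ZMod n) := by
  have h := DirichletCharacter.changeLevel_eq_cast_of_dvd' χ hm (a := (p : ℤ))
    (Nat.isCoprime_iff_coprime.mpr hp)
  simpa using h

/-- **The mod-`φ` eigenform `g = f'·E` of weight two.** -/
theorem s48h_modEigen_data (hEis : s48i_Eis) (N : ℕ) [NeZero N] (ε : DirichletCharacter ℂ N)
    (f : CuspForm (Gamma1 N) 1) (hf : s48i_Hyp N ε f)
    (hint : ∀ p : ℕ, p.Prime → ¬ p ∣ N → IsIntegral ℤ (ModularFormClass.qCoeff f p))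
    (ℓ : ℕ) [NeZero (N ^ 2 * ℓ)] (hℓ : ℓ.Prime) (hℓ2 : ℓ ≠ 2) (hNℓ : N < ℓ)
    {k : Type} [Field k] [CharP k ℓ] (φ : 𝓞 →+* k) :
    ∃ (ψ : DirichletCharacter ℂ (N ^ 2 * ℓ)) (g : CuspForm (Gamma1 (N ^ 2 * ℓ)) 2)
      (α c : ℕ → 𝓞) (ψ' : ZMod (N ^ 2 * ℓ) → 𝓞) (ε' : ZMod N → 𝓞),
      ψ.FactorsThrough (N * ℓ) ∧ ¬ ℓ ∣ orderOf ψ ∧
      s48i_ModEigen (N ^ 2 * ℓ) ψ g φ α c ψ' ∧
      (∀ x, (ε' x : ℂ) = ε x) ∧
      (∀ p : ℕ, p.Prime → ¬ p ∣ N → (α p : ℂ) = ModularFormClass.qCoeff f p) ∧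
      ∀ p : ℕ, p.Prime → ¬ p ∣ N * ℓ →
        (p : k) * φ (ψ' (p : ZMod (N ^ 2 * ℓ))) = φ (ε' (p : ZMod N)) := by
  classical
  have : Fact ℓ.Prime := ⟨hℓ⟩
  obtain ⟨f', a', α, ε', hneb', hq', ha1, hε', hα, hrel⟩ := s48h_depData N ε f hf hint
  obtain ⟨χ, E, b, hE, hqE, hb0, hbn, hχ⟩ := s48h_eisData hEis hℓ2 φ
  have hN2M : N ^ 2 ∣ N ^ 2 * ℓ := Dvd.intro _ rfl
  have hNN2 : N ∣ N ^ 2 := Dvd.intro_left (N ^ 1) (by ring)
  have hNM : N ∣ N ^ 2 * ℓ := hNN2.trans hN2M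
  have hℓM : ℓ ∣ N ^ 2 * ℓ := Dvd.intro_left _ rfl
  -- the character
  set ψ₁ : DirichletCharacter ℂ (N ^ 2 * ℓ) := DirichletCharacter.changeLevel hNM ε with hψ₁
  set ψ₂ : DirichletCharacter ℂ (N ^ 2 * ℓ) := DirichletCharacter.changeLevel hℓM χ with hψ₂
  -- nebentypus of `f'` and `E` at level `M`
  have hf'good := s48h_good_of_cuspForm f'
  have hf'N2 : s48h_Neben (N ^ 2) 1 (DirichletCharacter.changeLevel hNN2 ε) ⇑f' := by
    refine s48h_neben_of_good hf'good fun γ hγ => ?_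
    rw [hneb' γ hγ]
    congr 1
    obtain ⟨u, hu⟩ := s48h_isUnit_lowerRight hγ
    rw [← hu, DirichletCharacter.changeLevel_eq_cast_of_dvd ε hNN2 u, hu, ZMod.cast_intCast hNN2]
  have hf'M : s48h_Neben (N ^ 2 * ℓ) 1 ψ₁ ⇑f' := by
    have h := hf'N2.changeLevel hN2M
    rwa [← DirichletCharacter.changeLevel_trans] at h
  have hEM : s48h_Neben (N ^ 2 * ℓ) 1 ψ₂ E := hE.changeLevel hℓM
  have h11 : (1 : ℤ) + 1 = 2 := by norm_num
  have hg : s48h_Neben (N ^ 2 * ℓ) 2 (ψ₁ * ψ₂) (⇑f' * E) := h11 ▸ hf'M.mul hEM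
  have hg0 : s48h_ZeroCusps 2 (⇑f' * E) :=
    h11 ▸ (s48h_zeroCusps_of_cuspForm f').mul_bdd hEM.bdd
  -- coefficients
  let c : ℕ → 𝓞 := fun n => ∑ ij ∈ Finset.HasAntidiagonal.antidiagonal n, a' ij.1 * b ij.2
  have hc : ∀ n, qCoeff (⇑f' * E) n = (c n : ℂ) := by
    intro n
    rw [s48h_qCoeff_mul hf'good.qnice hE.good.qnice]
    simp only [c, AddSubmonoidClass.coe_finsetSum, MulMemClass.coe_mul]
    exact Finset.sum_congr rfl fun ij _ => by rw [hq', hqE]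
  have hφc : ∀ n, φ (c n) = φ (a' n) := by
    intro n
    simp only [c, map_sum, map_mul]
    rw [Finset.sum_eq_single (n, 0)]
    · rw [hb0, mul_one]
    · intro ij hij hne
      have h2 : 1 ≤ ij.2 := by
        rcases Nat.eq_zero_or_pos ij.2 with h0 | h0
        · exfalso
          apply hne
          have := Finset.HasAntidiagonal.mem_antidiagonal.mp hij
          ext
          · simp only; omega
          · simp only; omega
        · exact h0
      rw [hbn _ h2, mul_zero]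
    · intro h
      exact absurd (Finset.HasAntidiagonal.mem_antidiagonal.mpr (by simp)) h
  let ψ' : ZMod (N ^ 2 * ℓ) → 𝓞 := fun x => ⟨(ψ₁ * ψ₂) x, s48h_isIntegral_dirichlet _ x⟩
  -- the value of `ψ'` at primes
  have hprime : ∀ p : ℕ, p.Prime → ¬ p ∣ N * ℓ → ¬ p ∣ N ∧ ¬ ℓ ∣ p ∧ p.Coprime (N ^ 2 * ℓ) := by
    intro p hp hpNℓ
    have h1 : ¬ p ∣ N := fun h => hpNℓ (h.mul_right ℓ)
    have h2 : ¬ p ∣ ℓ := fun h => hpNℓ (h.mul_left N)
    refine ⟨h1, fun h => h2 ?_, ?_⟩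
    · rw [(Nat.prime_dvd_prime_iff_eq hℓ hp).mp h]
    · rw [Nat.Prime.coprime_iff_not_dvd hp]
      intro h
      rcases (Nat.Prime.dvd_mul hp).mp h with h3 | h3
      · exact h1 (hp.dvd_of_dvd_pow h3)
      · exact h2 h3
  have hkey : ∀ p : ℕ, p.Prime → ¬ p ∣ N * ℓ →
      (p : k) * φ (ψ' (p : ZMod (N ^ 2 * ℓ))) = φ (ε' (p : ZMod N)) := by
    intro p hp hpNℓ
    obtain ⟨h1, h2, h3⟩ := hprime p hp hpNℓ
    have h4 : ψ' (p : ZMod (N ^ 2 * ℓ))
        = ε' (p : ZMod N) * ⟨χ (p : ZMod ℓ), s48h_isIntegral_dirichlet χ _⟩ := by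
      apply Subtype.ext
      show (ψ₁ * ψ₂) (p : ZMod (N ^ 2 * ℓ)) = (ε' (p : ZMod N) : ℂ) * χ (p : ZMod ℓ)
      rw [MulChar.mul_apply, hψ₁, hψ₂, s48h_changeLevel_natCast hNM ε h3,
        s48h_changeLevel_natCast hℓM χ h3, hε']
    rw [h4, map_mul, mul_comm, mul_assoc, hχ p _ h2, mul_one]
  refine ⟨ψ₁ * ψ₂, s48h_toCuspForm hg.good hg0, α, c, ψ', ε', ?_, ?_, ?_, hε', hα, hkey⟩
  · refine ⟨⟨N, by ring⟩, DirichletCharacter.changeLevel (Dvd.intro _ rfl) ε *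
      DirichletCharacter.changeLevel (Dvd.intro_left _ rfl) χ, ?_⟩
    rw [map_mul, ← DirichletCharacter.changeLevel_trans, ← DirichletCharacter.changeLevel_trans]
  · exact s48h_not_dvd_orderOf hℓ hNℓ hNM hℓM ε χ
  · refine ⟨hg.neben, fun a => rfl, hc, ⟨1, ?_⟩, ?_⟩
    · rw [hφc, ha1, map_one]
      exact one_ne_zero
    · intro p hp hpM n
      have hpNℓ : ¬ p ∣ N * ℓ := fun h => hpM (h.trans ⟨N, by ring⟩)
      obtain ⟨h1, h2, h3⟩ := hprime p hp hpNℓ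
      have h5 := hkey p hp hpNℓ
      rw [map_add, map_mul, map_mul, map_natCast, mul_comm (φ _) (p : k), h5, hφc,
        apply_ite φ, hφc, map_zero, hφc, ← map_mul φ (α p), ← hrel p hp h1 n, map_add, map_mul,
        apply_ite φ, map_zero]

/-- **Level-2 wiring**: `s48i_ModL ⇐ s48i_Rat + s48i_Eis + s48i_S29H` (with `[DEP]` = `s48h_dep` and
the nebentypus `(D0)` = `s48h_nebentypus`).  Of `s48i_Rat` only the integrality clause is used. -/
theorem s48h_modL (hRat : s48i_Rat) (hEis : s48i_Eis) (hS29 : s48i_S29H) : s48i_ModL := by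
  intro N _ ε f hf
  obtain ⟨K, -, -, hint, -⟩ := hRat N ε f hf
  refine ⟨N, fun ℓ hℓ hNℓ h12 k _ _ φ => ?_⟩
  have hℓ2 : ℓ ≠ 2 := by omega
  have hℓN : ¬ ℓ ∣ N := fun h => by
    have := Nat.le_of_dvd (NeZero.pos N) h
    omega
  have hM : NeZero (N ^ 2 * ℓ) :=
    ⟨mul_ne_zero (pow_ne_zero 2 (NeZero.ne N)) hℓ.ne_zero⟩
  obtain ⟨ψ, g, α, c, ψ', ε', hFT, hord, hME, hε', hα, hkey⟩ :=
    s48h_modEigen_data hEis N ε f hf hint ℓ hℓ hℓ2 hNℓ φ
  obtain ⟨ρ, hρ⟩ := hS29 N ℓ hℓ h12 hℓN ψ g hFT hord k φ α c ψ' hME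
  refine ⟨ρ, fun p hp hpNℓ => ?_⟩
  obtain ⟨hur, hfr⟩ := hρ p hp hpNℓ
  have hpN : ¬ p ∣ N := fun h => hpNℓ (h.mul_right ℓ)
  refine ⟨hur, fun A hA σ hσ => ⟨α p, ε' (p : ZMod N), hα p hp hpN, hε' _, ?_⟩⟩
  rw [hfr A hA σ hσ, hkey p hp hpNℓ]

end Fermat.Agent.Lib.S48
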