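/-
S48 programme DS-1, LEVEL-2 WIRING at the levels `2 ∣ N ∨ 3 ∣ N` (helper3; rulings #2454/#2455):

* `s48h_S29H23` : `s48i_S29H` (Iface) with the extra hypothesis `(2 ∣ N ∨ 3 ∣ N)`, placed right after `¬ ℓ ∣ N`;
* `s48h_S29H23_of_S29H` : the unrestricted statement implies the restricted one;
* `s48h_modL23 : s48i_Rat → s48i_Eis → s48h_S29H23 → ` (the body of helper7's `s48t_ModL23`, TGlue.lean, verbatim —
  stated unfolded so that this file does not depend on the Level-1 closure; `(s48h_modL23 … : s48t_ModL23)`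
  typechecks by unfolding).

Same proof as `s48h_modL` (HModL.lean): `s48i_S29H` is applied at the same `N`, so `h23` is just passed on.
-/
import Mathlib
import Fermat.Agent.Lib.S48.HModL

set_option autoImplicit false

noncomputable section

namespace Fermat.Agent.Lib.S48

open Matrix.SpecialLinearGroup ModularForm CongruenceSubgroup UpperHalfPlane ModularFormClass
open Polynomial
open scoped MatrixGroups ModularForm

local notation "𝓞" => integralClosure ℤ ℂ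
local notation "Γℚ" => (AlgebraicClosure ℚ ≃ₐ[ℚ] AlgebraicClosure ℚ)

/-- **[S29H] at the levels `2 ∣ N ∨ 3 ∣ N`**: `s48i_S29H` with the extra hypothesis `(2 ∣ N ∨ 3 ∣ N)`. -/
def s48h_S29H23 : Prop :=
  ∀ (N ℓ : ℕ) [NeZero N] [NeZero (N ^ 2 * ℓ)], ℓ.Prime → ℓ % 12 = 11 → ¬ ℓ ∣ N → (2 ∣ N ∨ 3 ∣ N) →
    ∀ (ψ : DirichletCharacter ℂ (N ^ 2 * ℓ)) (g : CuspForm (Gamma1 (N ^ 2 * ℓ)) 2),
    ψ.FactorsThrough (N * ℓ) → ¬ ℓ ∣ orderOf ψ →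
    ∀ (k : Type) [Field k] [CharP k ℓ] (φ : 𝓞 →+* k) (α c : ℕ → 𝓞) (ψ' : ZMod (N ^ 2 * ℓ) → 𝓞),
      s48i_ModEigen (N ^ 2 * ℓ) ψ g φ α c ψ' →
      ∃ ρ : ResidualGaloisRep k,
        ∀ p : ℕ, p.Prime → ¬ p ∣ N * ℓ →
          ρ.IsUnramifiedAt p ∧
          ∀ A : ValuationSubring (AlgebraicClosure ℚ), A.LiesOverPrime p →
            ∀ σ : Γℚ, A.IsFrobeniusAt σ p →
              LinearMap.charpoly (ρ.ρ σ)
                = X ^ 2 - C (φ (α p)) * X + C ((p : k) * φ (ψ' (p : ZMod (N ^ 2 * ℓ))))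

theorem s48h_S29H23_of_S29H (h : s48i_S29H) : s48h_S29H23 :=
  fun N ℓ _ _ hℓ h12 hℓN _ ψ g hFT hord k _ _ φ α c ψ' hME =>
    h N ℓ hℓ h12 hℓN ψ g hFT hord k φ α c ψ' hME

/-- **Level-2 wiring at the levels `2 ∣ N ∨ 3 ∣ N`**: the body of `s48t_ModL23` from
`s48i_Rat + s48i_Eis + s48h_S29H23`. -/
theorem s48h_modL23 (hRat : s48i_Rat) (hEis : s48i_Eis) (hS29 : s48h_S29H23) :
    ∀ (N : ℕ) [NeZero N] (ε : DirichletCharacter ℂ N) (f : CuspForm (Gamma1 N) 1),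
      (2 ∣ N ∨ 3 ∣ N) → s48i_Hyp N ε f →
      ∃ B : ℕ, ∀ ℓ : ℕ, ℓ.Prime → B < ℓ → ℓ % 12 = 11 →
        ∀ (k : Type) [Field k] [CharP k ℓ] (φ : 𝓞 →+* k),
          ∃ ρ : ResidualGaloisRep k,
            ∀ p : ℕ, p.Prime → ¬ p ∣ N * ℓ → s48i_AttachedAt ε f φ ρ p := by
  intro N _ ε f h23 hf
  obtain ⟨K, -, -, hint, -⟩ := hRat N ε f hf
  refine ⟨N, fun ℓ hℓ hNℓ h12 k _ _ φ => ?_⟩
  have hℓ2 : ℓ ≠ 2 := by omega
  have hℓN : ¬ ℓ ∣ N := fun h => by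
    have := Nat.le_of_dvd (NeZero.pos N) h
    omega
  have hM : NeZero (N ^ 2 * ℓ) :=
    ⟨mul_ne_zero (pow_ne_zero 2 (NeZero.ne N)) hℓ.ne_zero⟩
  obtain ⟨ψ, g, α, c, ψ', ε', hFT, hord, hME, hε', hα, hkey⟩ :=
    s48h_modEigen_data hEis N ε f hf hint ℓ hℓ hℓ2 hNℓ φ
  obtain ⟨ρ, hρ⟩ := hS29 N ℓ hℓ h12 hℓN h23 ψ g hFT hord k φ α c ψ' hME
  refine ⟨ρ, fun p hp hpNℓ => ?_⟩
  obtain ⟨hur, hfr⟩ := hρ p hp hpNℓ
  have hpN : ¬ p ∣ N := fun h => hpNℓ (h.mul_right ℓ)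
  refine ⟨hur, fun A hA σ hσ => ⟨α p, ε' (p : ZMod N), hα p hp hpN, hε' _, ?_⟩⟩
  rw [hfr A hA σ hσ, hkey p hp hpNℓ]

end Fermat.Agent.Lib.S48
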