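/-
Stage A brick (L-D, part 4) for Deligne–Serre §8.5: the affine scheme of 2-dimensional matrix
representations of a finite group, as a polynomial ring with relations. Mathlib only.
-/
import Mathlib

set_option autoImplicit false

namespace Fermat.Agent.Lib.S48

open MvPolynomial

section RepVar

/-- Coordinates of the representation variety: one `2 × 2` matrix per group element. -/
abbrev s48l_Coord (G : Type*) : Type _ := G × Fin 2 × Fin 2

variable {G : Type*} [Group G] (K : Type*) [CommRing K]

/-- The generic matrix attached to `g`. -/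
noncomputable def s48l_genMat (g : G) :
    Matrix (Fin 2) (Fin 2) (MvPolynomial (s48l_Coord G) K) :=
  Matrix.of fun i j => X (g, i, j)

/-- The relations cutting out homomorphisms `G →* M₂`. -/
noncomputable def s48l_rels : Set (MvPolynomial (s48l_Coord G) K) :=
  {p | ∃ (g h : G) (i j : Fin 2), p = (s48l_genMat K g * s48l_genMat K h - s48l_genMat K (g * h) :
      Matrix (Fin 2) (Fin 2) (MvPolynomial (s48l_Coord G) K)) i j} ∪
    {p | ∃ i j : Fin 2, p = (s48l_genMat K (1 : G) - 1 :
      Matrix (Fin 2) (Fin 2) (MvPolynomial (s48l_Coord G) K)) i j}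

/-- The trace polynomial. -/
noncomputable def s48l_trP (g : G) : MvPolynomial (s48l_Coord G) K := (s48l_genMat K g).trace

/-- The determinant polynomial. -/
noncomputable def s48l_detP (g : G) : MvPolynomial (s48l_Coord G) K := (s48l_genMat K g).det

variable {K} {A : Type*} [CommRing A] (ev : MvPolynomial (s48l_Coord G) K →+* A)

/-- The matrices obtained by evaluating the generic matrices. -/
noncomputable def s48l_evMat (g : G) : Matrix (Fin 2) (Fin 2) A := (s48l_genMat K g).map ev

theorem s48l_evMat_apply (g : G) (i j : Fin 2) : s48l_evMat ev g i j = ev (X (g, i, j)) := rfl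

theorem s48l_ev_trP (g : G) : ev (s48l_trP K g) = (s48l_evMat ev g).trace :=
  AddMonoidHom.map_trace ev _

theorem s48l_ev_detP (g : G) : ev (s48l_detP K g) = (s48l_evMat ev g).det := by
  rw [s48l_detP, RingHom.map_det]
  rfl

theorem s48l_rels_iff :
    (∀ p ∈ s48l_rels (G := G) K, ev p = 0) ↔
      ((∀ g h : G, s48l_evMat ev g * s48l_evMat ev h = s48l_evMat ev (g * h)) ∧
        s48l_evMat ev (1 : G) = 1) := by
  have key1 : ∀ g h : G, (s48l_evMat ev g * s48l_evMat ev h - s48l_evMat ev (g * h)) =
      (s48l_genMat K g * s48l_genMat K h - s48l_genMat K (g * h)).map ev := by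
    intro g h
    rw [Matrix.map_sub (f := ev) (map_sub ev), Matrix.map_mul]
    rfl
  have key2 : (s48l_evMat ev (1 : G) - 1) = (s48l_genMat K (1 : G) - 1).map ev := by
    rw [Matrix.map_sub (f := ev) (map_sub ev), Matrix.map_one ev (map_zero ev) (map_one ev)]
    rfl
  constructor
  · intro H
    refine ⟨fun g h => ?_, ?_⟩
    · rw [← sub_eq_zero, key1]
      ext i j
      exact H _ (Or.inl ⟨g, h, i, j, rfl⟩)
    · rw [← sub_eq_zero, key2]
      ext i j
      exact H _ (Or.inr ⟨i, j, rfl⟩)
  · rintro ⟨H1, H2⟩ p (⟨g, h, i, j, rfl⟩ | ⟨i, j, rfl⟩)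
    · have := congrFun (congrFun (key1 g h) i) j
      rw [H1 g h, sub_self] at this
      exact this.symm
    · have := congrFun (congrFun key2 i) j
      rw [H2, sub_self] at this
      exact this.symm

/-- A point of the representation variety gives a homomorphism. -/
noncomputable def s48l_evHom (H : ∀ p ∈ s48l_rels (G := G) K, ev p = 0) :
    G →* Matrix (Fin 2) (Fin 2) A where
  toFun := s48l_evMat ev
  map_one' := ((s48l_rels_iff ev).mp H).2
  map_mul' g h := (((s48l_rels_iff ev).mp H).1 g h).symm

@[simp]
theorem s48l_evHom_apply (H : ∀ p ∈ s48l_rels (G := G) K, ev p = 0) (g : G) :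
    s48l_evHom ev H g = s48l_evMat ev g := rfl

end RepVar

end Fermat.Agent.Lib.S48
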