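/-
Stage A brick (L-S) for Deligne–Serre §8.4–8.5: a finite set of algebraic integers stays
injective modulo every prime of large enough residue characteristic. Mathlib only.
-/
import Mathlib

set_option autoImplicit false

namespace Fermat.Agent.Lib.S48

open Polynomial

universe v

section Sep

variable {𝒪 : Type*} [CommRing 𝒪] [IsDomain 𝒪]

/-- A nonzero element integral over `ℤ` divides a nonzero rational integer. -/
theorem s48l_int_multiple {d : 𝒪} (hd : d ≠ 0) (hint : IsIntegral ℤ d) :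
    ∃ (c : ℤ) (e : 𝒪), c ≠ 0 ∧ d * e = (c : 𝒪) := by
  obtain ⟨p, hpm, hp⟩ := hint
  obtain ⟨q, hpq, hq⟩ := exists_eq_pow_rootMultiplicity_mul_and_not_dvd p hpm.ne_zero 0
  rw [map_zero, sub_zero] at hpq hq
  have hq0 : eval₂ (algebraMap ℤ 𝒪) d q = 0 := by
    rw [hpq, eval₂_mul, eval₂_pow, eval₂_X] at hp
    rcases mul_eq_zero.mp hp with h | h
    · exact absurd (eq_zero_of_pow_eq_zero h) hd
    · exact h
  refine ⟨q.coeff 0, -eval₂ (algebraMap ℤ 𝒪) d q.divX, ?_, ?_⟩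
  · intro h0
    exact hq (X_dvd_iff.mpr h0)
  · have hdecomp := divX_mul_X_add q
    have := congrArg (eval₂ (algebraMap ℤ 𝒪) d) hdecomp
    rw [eval₂_add, eval₂_mul, eval₂_X, eval₂_C, hq0] at this
    have h2 : (algebraMap ℤ 𝒪) (q.coeff 0) = ((q.coeff 0 : ℤ) : 𝒪) := by simp
    rw [h2] at this
    linear_combination -this

/-- The auxiliary integer attached to a difference. -/
noncomputable def s48l_sepConst [Algebra.IsIntegral ℤ 𝒪] (d : 𝒪) : ℕ := by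
  classical
  exact if h : d ≠ 0 then
    (Classical.choose (s48l_int_multiple h (Algebra.IsIntegral.isIntegral d))).natAbs else 0

theorem s48l_sepConst_spec [Algebra.IsIntegral ℤ 𝒪] {d : 𝒪} (hd : d ≠ 0) {k : Type v}
    [CommRing k] (φ : 𝒪 →+* k) (hφ : φ d = 0) :
    0 < s48l_sepConst d ∧ ((s48l_sepConst d : ℕ) : k) = 0 := by
  classical
  have hspec := Classical.choose_spec (s48l_int_multiple hd (Algebra.IsIntegral.isIntegral d))
  obtain ⟨e, hc, he⟩ := hspec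
  set c := Classical.choose (s48l_int_multiple hd (Algebra.IsIntegral.isIntegral d)) with hcdef
  have hval : s48l_sepConst d = c.natAbs := by
    unfold s48l_sepConst
    rw [dif_pos hd]
  refine ⟨by rw [hval]; exact Int.natAbs_pos.mpr hc, ?_⟩
  have h1 : ((c : ℤ) : k) = 0 := by
    have := congrArg φ he
    rw [map_mul, hφ, zero_mul, map_intCast] at this
    exact this.symm
  rw [hval]
  rcases Int.natAbs_eq c with h | h
  · have : ((c.natAbs : ℕ) : k) = ((c.natAbs : ℤ) : k) := by simp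
    rw [this, ← h, h1]
  · have : ((c.natAbs : ℕ) : k) = -((-(c.natAbs : ℤ) : ℤ) : k) := by simp
    rw [this, ← h, h1, neg_zero]

/-- **Separation.** For a finite set `Y` of algebraic integers there is a bound `B` such that every
ring homomorphism to a ring of prime characteristic `ℓ > B` is injective on `Y`. -/
theorem s48l_sep [Algebra.IsIntegral ℤ 𝒪] (Y : Finset 𝒪) :
    ∃ B : ℕ, ∀ ℓ : ℕ, B < ℓ → ℓ.Prime → ∀ (k : Type v) [CommRing k] [CharP k ℓ]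
      (φ : 𝒪 →+* k), Set.InjOn φ (Y : Set 𝒪) := by
  classical
  refine ⟨∑ p ∈ Y ×ˢ Y, s48l_sepConst (p.1 - p.2), ?_⟩
  intro ℓ hB hℓ k _ _ φ x hx y hy hxy
  by_contra hne
  have hd : x - y ≠ 0 := sub_ne_zero.mpr hne
  have hφ : φ (x - y) = 0 := by rw [map_sub, hxy, sub_self]
  obtain ⟨hpos, hzero⟩ := s48l_sepConst_spec hd φ hφ
  have hdvd : ℓ ∣ s48l_sepConst (x - y) := (CharP.cast_eq_zero_iff k ℓ _).mp hzero
  have hle : s48l_sepConst (x - y) ≤ ∑ p ∈ Y ×ˢ Y, s48l_sepConst (p.1 - p.2) :=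
    Finset.single_le_sum (f := fun p : 𝒪 × 𝒪 => s48l_sepConst (p.1 - p.2))
      (fun _ _ => Nat.zero_le _) (a := (x, y))
      (Finset.mem_product.mpr ⟨Finset.mem_coe.mp hx, Finset.mem_coe.mp hy⟩)
  have := Nat.le_of_dvd hpos hdvd
  omega

/-- Separation for pairs (e.g. (trace, determinant)). -/
theorem s48l_sep_pair [Algebra.IsIntegral ℤ 𝒪] (Y : Finset (𝒪 × 𝒪)) :
    ∃ B : ℕ, ∀ ℓ : ℕ, B < ℓ → ℓ.Prime → ∀ (k : Type v) [CommRing k] [CharP k ℓ]
      (φ : 𝒪 →+* k), Set.InjOn (Prod.map φ φ) (Y : Set (𝒪 × 𝒪)) := by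
  classical
  obtain ⟨B, hB⟩ := s48l_sep (Y.image Prod.fst ∪ Y.image Prod.snd)
  refine ⟨B, fun ℓ hℓB hℓ k _ _ φ x hx y hy hxy => ?_⟩
  have hinj := hB ℓ hℓB hℓ k φ
  have h1 : φ x.1 = φ y.1 := congrArg Prod.fst hxy
  have h2 : φ x.2 = φ y.2 := congrArg Prod.snd hxy
  have m1 : ∀ z ∈ Y, z.1 ∈ ((Y.image Prod.fst ∪ Y.image Prod.snd : Finset 𝒪) : Set 𝒪) :=
    fun z hz => by
      simp only [Finset.coe_union, Finset.coe_image, Set.mem_union, Set.mem_image]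
      exact Or.inl ⟨z, hz, rfl⟩
  have m2 : ∀ z ∈ Y, z.2 ∈ ((Y.image Prod.fst ∪ Y.image Prod.snd : Finset 𝒪) : Set 𝒪) :=
    fun z hz => by
      simp only [Finset.coe_union, Finset.coe_image, Set.mem_union, Set.mem_image]
      exact Or.inr ⟨z, hz, rfl⟩
  exact Prod.ext (hinj (m1 x hx) (m1 y hy) h1) (hinj (m2 x hx) (m2 y hy) h2)

/-- **DS 8.4.** If `x` is congruent to an element of the finite set `Y` modulo primes of
arbitrarily large residue characteristic, then `x ∈ Y`. -/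
theorem s48l_mem_of_frequently_congr [Algebra.IsIntegral ℤ 𝒪] (Y : Finset 𝒪) (x : 𝒪)
    (hx : ∀ B : ℕ, ∃ ℓ : ℕ, B < ℓ ∧ ℓ.Prime ∧ ∃ (k : Type v) (_ : CommRing k) (_ : CharP k ℓ)
      (φ : 𝒪 →+* k), ∃ y ∈ Y, φ x = φ y) : x ∈ Y := by
  classical
  obtain ⟨B, hB⟩ := s48l_sep (insert x Y)
  obtain ⟨ℓ, hℓB, hℓ, k, _, _, φ, y, hy, hxy⟩ := hx B
  have hinj := hB ℓ hℓB hℓ k φ
  have : x = y := hinj (by simp) (by simp [hy]) hxy
  rw [this]
  exact hy

/-- Pair version of DS 8.4. -/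
theorem s48l_mem_of_frequently_congr_pair [Algebra.IsIntegral ℤ 𝒪] (Y : Finset (𝒪 × 𝒪))
    (x : 𝒪 × 𝒪)
    (hx : ∀ B : ℕ, ∃ ℓ : ℕ, B < ℓ ∧ ℓ.Prime ∧ ∃ (k : Type v) (_ : CommRing k) (_ : CharP k ℓ)
      (φ : 𝒪 →+* k), ∃ y ∈ Y, φ x.1 = φ y.1 ∧ φ x.2 = φ y.2) : x ∈ Y := by
  classical
  obtain ⟨B, hB⟩ := s48l_sep_pair (insert x Y)
  obtain ⟨ℓ, hℓB, hℓ, k, _, _, φ, y, hy, hxy1, hxy2⟩ := hx B
  have hinj := hB ℓ hℓB hℓ k φ
  have : x = y := hinj (by simp) (by simp [hy]) (Prod.ext hxy1 hxy2)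
  rw [this]
  exact hy

end Sep

end Fermat.Agent.Lib.S48
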