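/-
Stage A brick (L-D, part 1) for Deligne–Serre §8.5: the local ring `R = 𝒪_𝔪`, `𝔪 = ker φ`,
attached to a ring homomorphism `φ : 𝒪 → k` into a field, its residue map `ψ : R → k`, and the
induced local maps on quotients `R ⧸ J`, `J ≤ ker ψ`. Mathlib only.
-/
import Mathlib

set_option autoImplicit false

namespace Fermat.Agent.Lib.S48

section Local

variable {𝒪 : Type*} [CommRing 𝒪] {kf : Type*} [Field kf] (φ : 𝒪 →+* kf)

instance s48l_ker_isPrime : (RingHom.ker φ).IsPrime := RingHom.ker_isPrime φ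

/-- The localization of `𝒪` at the kernel of `φ` (a plain `def`, with exactly one instance path
to its ring structure). -/
def s48l_Loc : Type _ := Localization.AtPrime (RingHom.ker φ)

noncomputable instance s48l_Loc_commRing : CommRing (s48l_Loc φ) :=
  inferInstanceAs (CommRing (Localization.AtPrime (RingHom.ker φ)))

noncomputable instance s48l_Loc_algebra : Algebra 𝒪 (s48l_Loc φ) :=
  inferInstanceAs (Algebra 𝒪 (Localization.AtPrime (RingHom.ker φ)))

instance s48l_Loc_isLocalization : IsLocalization.AtPrime (s48l_Loc φ) (RingHom.ker φ) :=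
  inferInstanceAs
    (IsLocalization.AtPrime (Localization.AtPrime (RingHom.ker φ)) (RingHom.ker φ))

theorem s48l_isUnit_of_primeCompl (y : (RingHom.ker φ).primeCompl) : IsUnit (φ y) := by
  have : (y : 𝒪) ∉ RingHom.ker φ := y.2
  rw [RingHom.mem_ker] at this
  exact isUnit_iff_ne_zero.mpr this

/-- The residue map `ψ : 𝒪_𝔪 → k` extending `φ`. -/
noncomputable def s48l_psi : s48l_Loc φ →+* kf :=
  IsLocalization.lift (M := (RingHom.ker φ).primeCompl) (g := φ) (s48l_isUnit_of_primeCompl φ)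

@[simp]
theorem s48l_psi_algebraMap (a : 𝒪) : s48l_psi φ (algebraMap 𝒪 (s48l_Loc φ) a) = φ a :=
  IsLocalization.lift_eq _ a

/-- `ψ` is a local homomorphism: elements with nonzero residue are units. -/
theorem s48l_isUnit_of_psi_ne_zero {x : s48l_Loc φ} (hx : s48l_psi φ x ≠ 0) : IsUnit x := by
  obtain ⟨a, s, rfl⟩ := IsLocalization.exists_mk'_eq (RingHom.ker φ).primeCompl x
  rw [IsLocalization.AtPrime.isUnit_mk'_iff (s48l_Loc φ) (RingHom.ker φ) a s]
  intro ha
  apply hx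
  have hspec := IsLocalization.mk'_spec (s48l_Loc φ) a s
  have := congrArg (s48l_psi φ) hspec
  rw [map_mul, s48l_psi_algebraMap, s48l_psi_algebraMap, (RingHom.mem_ker).mp ha] at this
  exact (mul_eq_zero.mp this).resolve_right (s48l_isUnit_of_primeCompl φ s).ne_zero

/-- An element of `𝒪` with nonzero image under `φ` becomes a unit in `𝒪_𝔪`. -/
theorem s48l_isUnit_algebraMap {a : 𝒪} (ha : φ a ≠ 0) :
    IsUnit (algebraMap 𝒪 (s48l_Loc φ) a) :=
  s48l_isUnit_of_psi_ne_zero φ (by rwa [s48l_psi_algebraMap])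

/-- The residue map on a quotient `R ⧸ J` with `J ≤ ker ψ`. -/
noncomputable def s48l_psiQ (J : Ideal (s48l_Loc φ)) (hJ : J ≤ RingHom.ker (s48l_psi φ)) :
    (s48l_Loc φ ⧸ J) →+* kf :=
  Ideal.Quotient.lift J (s48l_psi φ) (fun a ha => (RingHom.mem_ker).mp (hJ ha))

@[simp]
theorem s48l_psiQ_mk (J : Ideal (s48l_Loc φ)) (hJ : J ≤ RingHom.ker (s48l_psi φ))
    (x : s48l_Loc φ) : s48l_psiQ φ J hJ (Ideal.Quotient.mk J x) = s48l_psi φ x := by
  simp [s48l_psiQ]

theorem s48l_isUnit_of_psiQ_ne_zero (J : Ideal (s48l_Loc φ))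
    (hJ : J ≤ RingHom.ker (s48l_psi φ)) {x : s48l_Loc φ ⧸ J} (hx : s48l_psiQ φ J hJ x ≠ 0) :
    IsUnit x := by
  obtain ⟨y, rfl⟩ := Ideal.Quotient.mk_surjective x
  rw [s48l_psiQ_mk] at hx
  exact (s48l_isUnit_of_psi_ne_zero φ hx).map (Ideal.Quotient.mk J)

theorem s48l_psiQ_factor (J J' : Ideal (s48l_Loc φ)) (hJ : J ≤ RingHom.ker (s48l_psi φ))
    (hJ' : J' ≤ RingHom.ker (s48l_psi φ)) (h : J ≤ J') (x : s48l_Loc φ ⧸ J) :
    s48l_psiQ φ J' hJ' (Ideal.Quotient.factor h x) = s48l_psiQ φ J hJ x := by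
  obtain ⟨y, rfl⟩ := Ideal.Quotient.mk_surjective x
  simp

end Local

end Fermat.Agent.Lib.S48
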