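/-
Stage A brick (L-A) for Deligne–Serre §8.5: lifting a representation of a finite group along a
surjective ring homomorphism with square-zero kernel, when the order of the group is invertible.
Explicit averaging formula; Mathlib only.
-/
import Mathlib

set_option autoImplicit false

namespace Fermat.Agent.Lib.S48

open scoped BigOperators

section SqZero

variable {A B : Type*} [Ring A] [Ring B] (π : A →+* B)
variable {G : Type*} [Group G] [Fintype G]

/-- The defect `r g * r h - r (g * h)` of a set-theoretic lift. -/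
def s48l_defect (r : G → A) (g h : G) : A := r g * r h - r (g * h)

/-- The averaged defect `D g = ∑ k, d(g,k) * r k⁻¹`. -/
def s48l_avg (r : G → A) (g : G) : A := ∑ k : G, s48l_defect r g k * r k⁻¹

variable {π}

theorem s48l_defect_ker {ρ₀ : G →* B} {r : G → A} (hr : ∀ g, π (r g) = ρ₀ g) (g h : G) :
    π (s48l_defect r g h) = 0 := by
  simp [s48l_defect, hr]

theorem s48l_avg_ker {ρ₀ : G →* B} {r : G → A} (hr : ∀ g, π (r g) = ρ₀ g) (g : G) :
    π (s48l_avg r g) = 0 := by
  simp [s48l_avg, s48l_defect_ker hr]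

theorem s48l_ker_mul_mul (hsq : ∀ x y : A, π x = 0 → π y = 0 → x * y = 0)
    {ρ₀ : G →* B} {r : G → A} (hr : ∀ g, π (r g) = ρ₀ g) {x : A} (hx : π x = 0) (a b : G) :
    x * r a * r b = x * r (a * b) := by
  have h := hsq x (s48l_defect r a b) hx (s48l_defect_ker hr a b)
  rw [s48l_defect, mul_sub, sub_eq_zero] at h
  rw [mul_assoc, h]

theorem s48l_ker_mul_one (hsq : ∀ x y : A, π x = 0 → π y = 0 → x * y = 0)
    {ρ₀ : G →* B} {r : G → A} (hr : ∀ g, π (r g) = ρ₀ g) {x : A} (hx : π x = 0) :
    x * r 1 = x := by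
  have h := hsq x (r 1 - 1) hx (by simp [hr])
  rw [mul_sub, sub_eq_zero, mul_one] at h
  exact h

/-- The pointwise cocycle identity, multiplied on the right by `r k⁻¹`. -/
theorem s48l_cocycle_pt (hsq : ∀ x y : A, π x = 0 → π y = 0 → x * y = 0)
    {ρ₀ : G →* B} {r : G → A} (hr : ∀ g, π (r g) = ρ₀ g) (g h k : G) :
    s48l_defect r (g * h) k * r k⁻¹ + s48l_defect r g h =
      s48l_defect r g (h * k) * r (h * k)⁻¹ * r h + r g * (s48l_defect r h k * r k⁻¹) := by
  have hd := s48l_defect_ker hr (ρ₀ := ρ₀) (r := r)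
  -- associativity
  have hassoc : s48l_defect r (g * h) k + s48l_defect r g h * r k =
      s48l_defect r g (h * k) + r g * s48l_defect r h k := by
    simp only [s48l_defect, mul_assoc]
    noncomm_ring
  have h1 : s48l_defect r g h * r k * r k⁻¹ = s48l_defect r g h := by
    rw [s48l_ker_mul_mul hsq hr (hd g h), mul_inv_cancel, s48l_ker_mul_one hsq hr (hd g h)]
  have h2 : s48l_defect r g (h * k) * r (h * k)⁻¹ * r h = s48l_defect r g (h * k) * r k⁻¹ := by
    rw [s48l_ker_mul_mul hsq hr (hd g (h * k))]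
    congr 2
    group
  have := congrArg (· * r k⁻¹) hassoc
  simp only [add_mul] at this
  rw [h1] at this
  rw [h2, this, mul_assoc]

/-- The summed cocycle identity. -/
theorem s48l_cocycle_sum (hsq : ∀ x y : A, π x = 0 → π y = 0 → x * y = 0)
    {ρ₀ : G →* B} {r : G → A} (hr : ∀ g, π (r g) = ρ₀ g) (g h : G) :
    s48l_avg r (g * h) + (Fintype.card G : ℕ) * s48l_defect r g h =
      s48l_avg r g * r h + r g * s48l_avg r h := by
  have hsum : ∑ k : G, (s48l_defect r (g * h) k * r k⁻¹ + s48l_defect r g h) =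
      ∑ k : G, (s48l_defect r g (h * k) * r (h * k)⁻¹ * r h +
        r g * (s48l_defect r h k * r k⁻¹)) :=
    Finset.sum_congr rfl (fun k _ => s48l_cocycle_pt hsq hr g h k)
  rw [Finset.sum_add_distrib, Finset.sum_add_distrib, Finset.sum_const, Finset.card_univ,
    nsmul_eq_mul] at hsum
  have hre : ∑ k : G, s48l_defect r g (h * k) * r (h * k)⁻¹ * r h = s48l_avg r g * r h := by
    rw [s48l_avg, Finset.sum_mul]
    exact Fintype.sum_equiv (Equiv.mulLeft h) _ _ (fun k => rfl)
  rw [hre, ← Finset.mul_sum] at hsum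
  exact hsum

/-- **Square-zero lifting.** A representation of a finite group `G` over `B` lifts along a
surjective ring homomorphism `π : A → B` whose kernel has square zero, provided `|G|` is invertible
in `A`. -/
theorem s48l_sqzero_lift (hπ : Function.Surjective π)
    (hsq : ∀ x y : A, π x = 0 → π y = 0 → x * y = 0)
    (hm : IsUnit ((Fintype.card G : ℕ) : A)) (ρ₀ : G →* B) :
    ∃ ρ : G →* A, ∀ g, π (ρ g) = ρ₀ g := by
  classical
  choose r hr using fun g => hπ (ρ₀ g)
  obtain ⟨u, hu⟩ := hm
  set μ : A := ((u⁻¹ : Aˣ) : A) with hμ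
  have hμm : μ * (Fintype.card G : ℕ) = 1 := by rw [← hu]; exact u.inv_mul
  have hcomm : ∀ x : A, μ * x = x * μ := fun x => by
    have h0 : Commute (u : A) x := by rw [hu]; exact Nat.cast_commute (Fintype.card G) x
    exact (h0.units_inv_left).eq
  set s : G → A := fun g => r g - μ * s48l_avg r g with hs
  have hsπ : ∀ g, π (s g) = ρ₀ g := fun g => by
    simp [hs, hr, s48l_avg_ker hr]
  have hmul : ∀ g h, s (g * h) = s g * s h := by
    intro g h
    have hD := s48l_avg_ker hr (ρ₀ := ρ₀) (r := r)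
    have hDD : s48l_avg r g * (μ * s48l_avg r h) = 0 :=
      hsq _ _ (hD g) (by simp [hD])
    have hcs := s48l_cocycle_sum hsq hr g h
    have hdef : r g * r h = r (g * h) + s48l_defect r g h := by simp [s48l_defect]
    have h1 : μ * s48l_avg r (g * h) =
        μ * (s48l_avg r g * r h + r g * s48l_avg r h) - s48l_defect r g h := by
      rw [← hcs, mul_add, ← mul_assoc μ, hμm, one_mul, add_sub_cancel_right]
    simp only [hs]
    rw [h1, sub_mul, mul_sub, mul_sub, hdef, mul_assoc μ (s48l_avg r g) (μ * _), hDD, mul_zero,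
      sub_zero, mul_add, ← mul_assoc (r g) μ, ← hcomm (r g), mul_assoc μ (r g), mul_assoc μ _ (r h)]
    abel
  have hone : s 1 = 1 := by
    have h11 := hmul 1 1
    rw [mul_one] at h11
    have hν : π (s 1 - 1) = 0 := by simp [hsπ]
    have := hsq _ _ hν hν
    have h2 : (s 1 - 1) * (s 1 - 1) = s 1 * s 1 - s 1 - s 1 + 1 := by noncomm_ring
    rw [h2, ← h11] at this
    have : 1 - s 1 = 0 := by rw [← this]; abel
    exact (sub_eq_zero.mp this).symm
  exact ⟨{ toFun := s, map_one' := hone, map_mul' := hmul }, hsπ⟩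

end SqZero

end Fermat.Agent.Lib.S48
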