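/-
Stage A brick (L-B) for Deligne–Serre §8.5: lifting matrix representations of a finite group of
invertible order along square-zero / nilpotent thickenings `R ⧸ I ^ (N+1) → R ⧸ I ^ N`.
Mathlib only (plus LSqZero).
-/
import Mathlib
import Fermat.Agent.Lib.S48.LSqZero

set_option autoImplicit false

namespace Fermat.Agent.Lib.S48

open scoped BigOperators

section Mat

variable {n : Type*} [Fintype n] [DecidableEq n]
variable {G : Type*} [Group G] [Fintype G]

/-- Square-zero lifting for matrix representations over commutative rings. -/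
theorem s48l_matrix_sqzero_lift {R S : Type*} [CommRing R] [CommRing S] (f : R →+* S)
    (hf : Function.Surjective f) (hsq : ∀ a b : R, f a = 0 → f b = 0 → a * b = 0)
    (hm : IsUnit ((Fintype.card G : ℕ) : R)) (ρ₀ : G →* Matrix n n S) :
    ∃ ρ : G →* Matrix n n R, ∀ g, (ρ g).map f = ρ₀ g := by
  have hsurj : Function.Surjective (f.mapMatrix : Matrix n n R →+* Matrix n n S) := by
    intro M
    refine ⟨Matrix.of fun i j => Classical.choose (hf (M i j)), ?_⟩
    ext i j
    simp [Classical.choose_spec (hf (M i j))]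
  have hsq' : ∀ X Y : Matrix n n R, f.mapMatrix X = 0 → f.mapMatrix Y = 0 → X * Y = 0 := by
    intro X Y hX hY
    ext i j
    rw [Matrix.mul_apply, Matrix.zero_apply]
    refine Finset.sum_eq_zero fun k _ => hsq _ _ ?_ ?_
    · have := congrFun (congrFun hX i) k
      simpa using this
    · have := congrFun (congrFun hY k) j
      simpa using this
  have hm' : IsUnit ((Fintype.card G : ℕ) : Matrix n n R) := by
    have := hm.map (algebraMap R (Matrix n n R))
    simpa using this
  obtain ⟨ρ, hρ⟩ := s48l_sqzero_lift (π := (f.mapMatrix : Matrix n n R →+* Matrix n n S))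
    hsurj hsq' hm' ρ₀
  exact ⟨ρ, fun g => hρ g⟩

variable {R : Type*} [CommRing R] (I : Ideal R)

/-- One step up the `I`-adic tower. -/
theorem s48l_pow_step {N : ℕ} (hN : 1 ≤ N) (hm : IsUnit ((Fintype.card G : ℕ) : R))
    (ρ₀ : G →* Matrix n n (R ⧸ I ^ N)) :
    ∃ ρ : G →* Matrix n n (R ⧸ I ^ (N + 1)),
      ∀ g, (ρ g).map (Ideal.Quotient.factorPowSucc I N) = ρ₀ g := by
  refine s48l_matrix_sqzero_lift (Ideal.Quotient.factorPowSucc I N)
    (Ideal.Quotient.factor_surjective _) ?_ ?_ ρ₀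
  · intro a b ha hb
    obtain ⟨a', rfl⟩ := Ideal.Quotient.mk_surjective a
    obtain ⟨b', rfl⟩ := Ideal.Quotient.mk_surjective b
    rw [Ideal.Quotient.factor_mk, Ideal.Quotient.eq_zero_iff_mem] at ha hb
    rw [← map_mul, Ideal.Quotient.eq_zero_iff_mem]
    have h2 : I ^ N * I ^ N ≤ I ^ (N + 1) := by
      rw [← pow_add]
      exact Ideal.pow_le_pow_right (by omega)
    exact h2 (Ideal.mul_mem_mul ha hb)
  · have := hm.map (Ideal.Quotient.mk (I ^ (N + 1)))
    simpa using this

/-- A compatible tower of lifts `σ k : G →* Mₙ(R ⧸ I ^ (k+1))` of a representation over `R ⧸ I`. -/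
theorem s48l_pow_tower (hm : IsUnit ((Fintype.card G : ℕ) : R))
    (ρ₁ : G →* Matrix n n (R ⧸ I)) :
    ∃ σ : ∀ k : ℕ, G →* Matrix n n (R ⧸ I ^ (k + 1)),
      (∀ g, (σ 0 g).map (Ideal.Quotient.factor (pow_one I).le) = ρ₁ g) ∧
      ∀ k g, (σ (k + 1) g).map (Ideal.Quotient.factorPowSucc I (k + 1)) = σ k g := by
  classical
  have h0 : I ≤ I ^ (0 + 1) := by simp
  let σ0 : G →* Matrix n n (R ⧸ I ^ (0 + 1)) :=
    ((Ideal.Quotient.factor h0).mapMatrix (m := n) : Matrix n n (R ⧸ I) →+* _).toMonoidHom.comp ρ₁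
  let σ : ∀ k : ℕ, G →* Matrix n n (R ⧸ I ^ (k + 1)) := fun k =>
    Nat.rec (motive := fun k => G →* Matrix n n (R ⧸ I ^ (k + 1))) σ0
      (fun k σk => Classical.choose (s48l_pow_step I (Nat.succ_pos k) hm σk)) k
  refine ⟨σ, ?_, ?_⟩
  · intro g
    ext i j
    change Ideal.Quotient.factor (pow_one I).le (Ideal.Quotient.factor h0 (ρ₁ g i j)) = _
    rw [Ideal.Quotient.factor_comp_apply]
    simp
  · intro k g
    exact Classical.choose_spec (s48l_pow_step I (Nat.succ_pos k) hm (σ k)) g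

/-- Lifting to a single level `R ⧸ I ^ N`, `N ≥ 1`. -/
theorem s48l_pow_lift (hm : IsUnit ((Fintype.card G : ℕ) : R))
    (ρ₁ : G →* Matrix n n (R ⧸ I)) (k : ℕ) :
    ∃ ρ : G →* Matrix n n (R ⧸ I ^ (k + 1)),
      ∀ g, (ρ g).map (Ideal.Quotient.factor (Ideal.pow_le_self (Nat.succ_ne_zero k))) = ρ₁ g := by
  obtain ⟨σ, h0, hstep⟩ := s48l_pow_tower I hm ρ₁
  refine ⟨σ k, ?_⟩
  induction k with
  | zero => exact h0
  | succ k ih =>
    intro g
    rw [← ih g, ← hstep k g]
    ext i j
    simp only [Matrix.map_apply]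
    rw [Ideal.Quotient.factor_comp_apply]

end Mat

end Fermat.Agent.Lib.S48
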