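/-
Stage A brick (L-D, part 2) for Deligne–Serre §8.5: for `φ : 𝒪 → k`, `char k = ℓ`, `ℓ ∤ |G|`,
a mod-`ℓ` representation `ρ̄ : G → M₂(𝔽_ℓ)` lifts to every Artinian level `𝒪_𝔪 ⧸ (ℓ)^(N+1)`,
compatibly with the residue maps to `k`. Mathlib + LMat + LLocal.
-/
import Mathlib
import Fermat.Agent.Lib.S48.LMat
import Fermat.Agent.Lib.S48.LLocal

set_option autoImplicit false

namespace Fermat.Agent.Lib.S48

section TowerC

variable {𝒪 : Type*} [CommRing 𝒪] {kf : Type*} [Field kf] (φ : 𝒪 →+* kf)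
variable (ℓ : ℕ) [hℓ : Fact ℓ.Prime] [CharP kf ℓ]

/-- The ideal `(ℓ)` of `𝒪_𝔪`. -/
noncomputable abbrev s48l_ellIdeal : Ideal (s48l_Loc φ) := Ideal.span {((ℓ : ℕ) : s48l_Loc φ)}

theorem s48l_psi_ell : s48l_psi φ ((ℓ : ℕ) : s48l_Loc φ) = 0 := by
  rw [map_natCast]
  exact CharP.cast_eq_zero kf ℓ

theorem s48l_ellIdeal_le : s48l_ellIdeal φ ℓ ≤ RingHom.ker (s48l_psi φ) := by
  rw [Ideal.span_le]
  intro x hx
  rw [Set.mem_singleton_iff] at hx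
  rw [hx, SetLike.mem_coe, RingHom.mem_ker]
  exact s48l_psi_ell φ ℓ

theorem s48l_ellIdeal_pow_le (N : ℕ) :
    s48l_ellIdeal φ ℓ ^ (N + 1) ≤ RingHom.ker (s48l_psi φ) :=
  (Ideal.pow_le_self (Nat.succ_ne_zero N)).trans (s48l_ellIdeal_le φ ℓ)

theorem s48l_ell_nonunit : ((ℓ : ℕ) : s48l_Loc φ) ∈ nonunits (s48l_Loc φ) := by
  intro h
  have := h.map (s48l_psi φ)
  rw [s48l_psi_ell] at this
  exact not_isUnit_zero this

instance s48l_charP_quot : CharP (s48l_Loc φ ⧸ s48l_ellIdeal φ ℓ) ℓ :=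
  CharP.quotient (s48l_Loc φ) ℓ (s48l_ell_nonunit φ ℓ)

/-- The canonical map `𝔽_ℓ → 𝒪_𝔪 ⧸ (ℓ)`. -/
noncomputable def s48l_zmodToQuot : ZMod ℓ →+* (s48l_Loc φ ⧸ s48l_ellIdeal φ ℓ) :=
  ZMod.castHom (dvd_refl ℓ) _

theorem s48l_psiQ_zmodToQuot (a : ZMod ℓ) :
    s48l_psiQ φ (s48l_ellIdeal φ ℓ) (s48l_ellIdeal_le φ ℓ) (s48l_zmodToQuot φ ℓ a) =
      ZMod.castHom (dvd_refl ℓ) kf a := by
  have : (s48l_psiQ φ (s48l_ellIdeal φ ℓ) (s48l_ellIdeal_le φ ℓ)).comp (s48l_zmodToQuot φ ℓ) =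
      ZMod.castHom (dvd_refl ℓ) kf := Subsingleton.elim _ _
  exact congrArg (fun f => f a) this

variable {G : Type*} [Group G] [Fintype G]

theorem s48l_card_isUnit (hG : ¬ ℓ ∣ Fintype.card G) :
    IsUnit ((Fintype.card G : ℕ) : s48l_Loc φ) := by
  have h1 : ((Fintype.card G : ℕ) : s48l_Loc φ) =
      algebraMap 𝒪 (s48l_Loc φ) ((Fintype.card G : ℕ) : 𝒪) := by simp
  rw [h1]
  apply s48l_isUnit_algebraMap
  rw [map_natCast]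
  intro h0
  exact hG ((CharP.cast_eq_zero_iff kf ℓ _).mp h0)

/-- **Artinian lifts (general coefficient ring `F` of the residual representation).** Given
`c : F → 𝒪_𝔪 ⧸ (ℓ)` compatible with `j : F → k`, for every `N` there is a lift of `ρ̄` to
`𝒪_𝔪 ⧸ (ℓ)^(N+1)` whose entries have the prescribed residues in `k`. -/
theorem s48l_tower_exists_gen {F : Type*} [CommRing F]
    (c : F →+* (s48l_Loc φ ⧸ s48l_ellIdeal φ ℓ)) (j : F →+* kf)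
    (hcj : ∀ y, s48l_psiQ φ (s48l_ellIdeal φ ℓ) (s48l_ellIdeal_le φ ℓ) (c y) = j y)
    (hG : ¬ ℓ ∣ Fintype.card G)
    (ρbar : G →* Matrix (Fin 2) (Fin 2) F) (N : ℕ) :
    ∃ ρN : G →* Matrix (Fin 2) (Fin 2) (s48l_Loc φ ⧸ s48l_ellIdeal φ ℓ ^ (N + 1)),
      ∀ g i i', s48l_psiQ φ (s48l_ellIdeal φ ℓ ^ (N + 1)) (s48l_ellIdeal_pow_le φ ℓ N)
        (ρN g i i') = j (ρbar g i i') := by
  let ρ₁ : G →* Matrix (Fin 2) (Fin 2) (s48l_Loc φ ⧸ s48l_ellIdeal φ ℓ) :=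
    (c.mapMatrix (m := Fin 2)).toMonoidHom.comp ρbar
  obtain ⟨ρN, hρN⟩ := s48l_pow_lift (s48l_ellIdeal φ ℓ) (s48l_card_isUnit φ ℓ hG) ρ₁ N
  refine ⟨ρN, fun g i i' => ?_⟩
  have h1 := congrFun (congrFun (hρN g) i) i'
  rw [Matrix.map_apply] at h1
  rw [← s48l_psiQ_factor φ _ (s48l_ellIdeal φ ℓ) (s48l_ellIdeal_pow_le φ ℓ N)
    (s48l_ellIdeal_le φ ℓ) (Ideal.pow_le_self (Nat.succ_ne_zero N)), h1]
  exact hcj (ρbar g i i')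

/-- **Artinian lifts.** For every `N` there is a lift of `ρ̄` to `𝒪_𝔪 ⧸ (ℓ)^(N+1)` whose entries
have the prescribed residues in `k`. -/
theorem s48l_tower_exists (hG : ¬ ℓ ∣ Fintype.card G)
    (ρbar : G →* Matrix (Fin 2) (Fin 2) (ZMod ℓ)) (N : ℕ) :
    ∃ ρN : G →* Matrix (Fin 2) (Fin 2) (s48l_Loc φ ⧸ s48l_ellIdeal φ ℓ ^ (N + 1)),
      ∀ g i j, s48l_psiQ φ (s48l_ellIdeal φ ℓ ^ (N + 1)) (s48l_ellIdeal_pow_le φ ℓ N) (ρN g i j) =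
        ZMod.castHom (dvd_refl ℓ) kf (ρbar g i j) :=
  s48l_tower_exists_gen φ ℓ (s48l_zmodToQuot φ ℓ) (ZMod.castHom (dvd_refl ℓ) kf)
    (s48l_psiQ_zmodToQuot φ ℓ) hG ρbar N

end TowerC

end Fermat.Agent.Lib.S48
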