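/-
Stage A brick (L-D, part 3) for Deligne–Serre §8.5: the characteristic-zero test ring
`T' = (∏_N 𝒪_𝔪 ⧸ (ℓ)^(N+1))[1/ℓ]`: it is nontrivial, and the fraction field of `𝒪` maps to it.
Mathlib + LSep + LTowerC.
-/
import Mathlib
import Fermat.Agent.Lib.S48.LSep
import Fermat.Agent.Lib.S48.LTowerC

set_option autoImplicit false

namespace Fermat.Agent.Lib.S48

section Target

variable {𝒪 : Type*} [CommRing 𝒪] [IsDomain 𝒪] [CharZero 𝒪]
variable {kf : Type*} [Field kf] (φ : 𝒪 →+* kf)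
variable (ℓ : ℕ) [hℓ : Fact ℓ.Prime] [CharP kf ℓ]

instance s48l_Loc_isDomain : IsDomain (s48l_Loc φ) :=
  inferInstanceAs (IsDomain (Localization.AtPrime (RingHom.ker φ)))

/-- The product of all Artinian levels. -/
abbrev s48l_Prod : Type _ := ∀ N : ℕ, s48l_Loc φ ⧸ s48l_ellIdeal φ ℓ ^ (N + 1)

/-- The test ring `T'` (a plain `def`, with exactly one instance path to its ring structure). -/
def s48l_Target : Type _ := Localization.Away (((ℓ : ℕ) : s48l_Prod φ ℓ))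

noncomputable instance s48l_Target_commRing : CommRing (s48l_Target φ ℓ) :=
  inferInstanceAs (CommRing (Localization.Away (((ℓ : ℕ) : s48l_Prod φ ℓ))))

noncomputable instance s48l_Target_algebra : Algebra (s48l_Prod φ ℓ) (s48l_Target φ ℓ) :=
  inferInstanceAs
    (Algebra (s48l_Prod φ ℓ) (Localization.Away (((ℓ : ℕ) : s48l_Prod φ ℓ))))

instance s48l_Target_isLocalization :
    IsLocalization.Away (((ℓ : ℕ) : s48l_Prod φ ℓ)) (s48l_Target φ ℓ) :=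
  inferInstanceAs (IsLocalization.Away (((ℓ : ℕ) : s48l_Prod φ ℓ))
    (Localization.Away (((ℓ : ℕ) : s48l_Prod φ ℓ))))

theorem s48l_ell_ne_zero_loc : ((ℓ : ℕ) : s48l_Loc φ) ≠ 0 := by
  have hinj : Function.Injective (algebraMap 𝒪 (s48l_Loc φ)) :=
    IsLocalization.injective (s48l_Loc φ) (RingHom.ker φ).primeCompl_le_nonZeroDivisors
  have h1 : ((ℓ : ℕ) : s48l_Loc φ) = algebraMap 𝒪 (s48l_Loc φ) ((ℓ : ℕ) : 𝒪) := by simp
  rw [h1]
  intro h0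
  have := hinj (h0.trans (map_zero _).symm)
  exact hℓ.out.ne_zero (by exact_mod_cast this)

theorem s48l_ell_pow_ne_zero (j : ℕ) : (((ℓ : ℕ) : s48l_Prod φ ℓ)) ^ j ≠ 0 := by
  intro h0
  have hj := congrFun h0 j
  have h1 : (((ℓ : ℕ) : s48l_Prod φ ℓ) ^ j) j =
      Ideal.Quotient.mk (s48l_ellIdeal φ ℓ ^ (j + 1)) (((ℓ : ℕ) : s48l_Loc φ) ^ j) := by
    simp
  rw [h1, Pi.zero_apply, Ideal.Quotient.eq_zero_iff_mem, Ideal.span_singleton_pow,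
    Ideal.mem_span_singleton] at hj
  obtain ⟨y, hy⟩ := hj
  have hne := s48l_ell_ne_zero_loc φ ℓ
  have h2 : ((ℓ : ℕ) : s48l_Loc φ) ^ j * 1 = ((ℓ : ℕ) : s48l_Loc φ) ^ j * (((ℓ : ℕ) : s48l_Loc φ) * y) := by
    rw [mul_one, ← mul_assoc, ← pow_succ]
    exact hy
  have h3 := mul_left_cancel₀ (pow_ne_zero j hne) h2
  exact s48l_ell_nonunit φ ℓ (IsUnit.of_mul_eq_one _ h3.symm)

instance s48l_target_nontrivial : Nontrivial (s48l_Target φ ℓ) := by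
  rw [← not_subsingleton_iff_nontrivial,
    IsLocalization.subsingleton_iff (M := Submonoid.powers (((ℓ : ℕ) : s48l_Prod φ ℓ)))]
  rintro ⟨j, hj⟩
  exact s48l_ell_pow_ne_zero φ ℓ j hj

/-- `𝒪_𝔪 → ∏_N 𝒪_𝔪 ⧸ (ℓ)^(N+1)`. -/
noncomputable def s48l_locToProd : s48l_Loc φ →+* s48l_Prod φ ℓ :=
  RingHom.pi fun N => Ideal.Quotient.mk (s48l_ellIdeal φ ℓ ^ (N + 1))

/-- `∏_N 𝒪_𝔪 ⧸ (ℓ)^(N+1) → T'`. -/
noncomputable def s48l_prodToTarget : s48l_Prod φ ℓ →+* s48l_Target φ ℓ :=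
  algebraMap (s48l_Prod φ ℓ) (s48l_Target φ ℓ)

/-- `𝒪 → T'`. -/
noncomputable def s48l_toTarget : 𝒪 →+* s48l_Target φ ℓ :=
  (s48l_prodToTarget φ ℓ).comp
    ((s48l_locToProd φ ℓ).comp (algebraMap 𝒪 (s48l_Loc φ)))

theorem s48l_toTarget_ell_isUnit : IsUnit (s48l_toTarget φ ℓ ((ℓ : ℕ) : 𝒪)) := by
  have h1 : s48l_toTarget φ ℓ ((ℓ : ℕ) : 𝒪) =
      s48l_prodToTarget φ ℓ (((ℓ : ℕ) : s48l_Prod φ ℓ)) := by
    simp [s48l_toTarget]
  rw [h1]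
  exact IsLocalization.map_units (s48l_Target φ ℓ)
    (⟨((ℓ : ℕ) : s48l_Prod φ ℓ), Submonoid.mem_powers _⟩ :
      Submonoid.powers (((ℓ : ℕ) : s48l_Prod φ ℓ)))

theorem s48l_toTarget_nat_isUnit {n : ℕ} (hn : n ≠ 0) :
    IsUnit (s48l_toTarget φ ℓ ((n : ℕ) : 𝒪)) := by
  obtain ⟨e, n', hn', rfl⟩ := Nat.exists_eq_pow_mul_and_not_dvd hn ℓ hℓ.out.ne_one
  rw [Nat.cast_mul, Nat.cast_pow, map_mul, map_pow]
  refine ((s48l_toTarget_ell_isUnit φ ℓ).pow e).mul ?_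
  have hu : IsUnit (algebraMap 𝒪 (s48l_Loc φ) ((n' : ℕ) : 𝒪)) := by
    apply s48l_isUnit_algebraMap
    rw [map_natCast]
    intro h0
    exact hn' ((CharP.cast_eq_zero_iff kf ℓ _).mp h0)
  exact (hu.map (s48l_locToProd φ ℓ)).map (s48l_prodToTarget φ ℓ)

theorem s48l_toTarget_int_isUnit {c : ℤ} (hc : c ≠ 0) :
    IsUnit (s48l_toTarget φ ℓ ((c : ℤ) : 𝒪)) := by
  have hn : c.natAbs ≠ 0 := Int.natAbs_ne_zero.mpr hc
  have hu := s48l_toTarget_nat_isUnit φ ℓ hn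
  rcases Int.natAbs_eq c with h | h
  · have : ((c : ℤ) : 𝒪) = ((c.natAbs : ℕ) : 𝒪) := by
      conv_lhs => rw [h]
      simp
    rw [this]; exact hu
  · have : ((c : ℤ) : 𝒪) = -((c.natAbs : ℕ) : 𝒪) := by
      conv_lhs => rw [h]
      simp
    rw [this, map_neg]; exact hu.neg

theorem s48l_toTarget_isUnit [Algebra.IsIntegral ℤ 𝒪] {x : 𝒪} (hx : x ≠ 0) :
    IsUnit (s48l_toTarget φ ℓ x) := by
  obtain ⟨c, e, hc, hxe⟩ := s48l_int_multiple hx (Algebra.IsIntegral.isIntegral x)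
  have hu := s48l_toTarget_int_isUnit φ ℓ hc
  rw [← hxe, map_mul] at hu
  exact isUnit_of_mul_isUnit_left hu

/-- `Frac 𝒪 → T'`. -/
noncomputable def s48l_fracToTarget [Algebra.IsIntegral ℤ 𝒪] :
    FractionRing 𝒪 →+* s48l_Target φ ℓ :=
  IsLocalization.lift (M := nonZeroDivisors 𝒪) (g := s48l_toTarget φ ℓ)
    (fun y => s48l_toTarget_isUnit φ ℓ (nonZeroDivisors.ne_zero y.2))

@[simp]
theorem s48l_fracToTarget_algebraMap [Algebra.IsIntegral ℤ 𝒪] (x : 𝒪) :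
    s48l_fracToTarget φ ℓ (algebraMap 𝒪 (FractionRing 𝒪) x) = s48l_toTarget φ ℓ x :=
  IsLocalization.lift_eq _ x

end Target

end Fermat.Agent.Lib.S48
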