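/-
Stage A brick (L-D, part 5) for Deligne–Serre §8.5: the point of the representation variety with
values in the test ring `T'` built from a family of Artinian lifts, and the unit property of the
"bad trace / bad determinant" factors. Mathlib + LTarget + LRepVar.
-/
import Mathlib
import Fermat.Agent.Lib.S48.LTarget
import Fermat.Agent.Lib.S48.LRepVar

set_option autoImplicit false

namespace Fermat.Agent.Lib.S48

open MvPolynomial

section LiftPt

variable {𝒪 : Type*} [CommRing 𝒪] [IsDomain 𝒪] [CharZero 𝒪] [Algebra.IsIntegral ℤ 𝒪]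
variable {kf : Type*} [Field kf] (φ : 𝒪 →+* kf)
variable (ℓ : ℕ) [hℓ : Fact ℓ.Prime] [CharP kf ℓ]
variable {G : Type*} [Group G]

/-- A family of Artinian representations. -/
noncomputable abbrev s48l_Family (G : Type*) [Group G] : Type _ :=
  ∀ N : ℕ, G →* Matrix (Fin 2) (Fin 2) (s48l_Loc φ ⧸ s48l_ellIdeal φ ℓ ^ (N + 1))

variable {φ ℓ}
variable (ρN : s48l_Family φ ℓ G)

/-- The product matrix over `∏_N`. -/
noncomputable def s48l_prodMat (g : G) : Matrix (Fin 2) (Fin 2) (s48l_Prod φ ℓ) :=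
  Matrix.of fun i j N => ρN N g i j

theorem s48l_prodMat_apply (g : G) (i j : Fin 2) (N : ℕ) :
    s48l_prodMat ρN g i j N = ρN N g i j := rfl

theorem s48l_prodMat_mul (g h : G) :
    s48l_prodMat ρN g * s48l_prodMat ρN h = s48l_prodMat ρN (g * h) := by
  ext i j N
  rw [Matrix.mul_apply, Finset.sum_apply, s48l_prodMat_apply, map_mul, Matrix.mul_apply]
  rfl

theorem s48l_prodMat_one : s48l_prodMat ρN (1 : G) = 1 := by
  ext i j N
  rw [s48l_prodMat_apply, map_one, Matrix.one_apply, Matrix.one_apply]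
  split_ifs <;> rfl

theorem s48l_prodMat_trace (g : G) (N : ℕ) :
    (s48l_prodMat ρN g).trace N = (ρN N g).trace := by
  rw [Matrix.trace_fin_two, Matrix.trace_fin_two]
  rfl

theorem s48l_prodMat_det (g : G) (N : ℕ) :
    (s48l_prodMat ρN g).det N = (ρN N g).det := by
  rw [Matrix.det_fin_two, Matrix.det_fin_two]
  rfl

/-- The `T'`-valued point of the representation variety. -/
noncomputable def s48l_pt : s48l_Coord G → s48l_Target φ ℓ :=
  fun c => s48l_prodToTarget φ ℓ (fun N => ρN N c.1 c.2.1 c.2.2)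

/-- Evaluation at the `T'`-valued point. -/
noncomputable def s48l_Theta :
    MvPolynomial (s48l_Coord G) (FractionRing 𝒪) →+* s48l_Target φ ℓ :=
  eval₂Hom (s48l_fracToTarget φ ℓ) (s48l_pt ρN)

theorem s48l_Theta_evMat (g : G) :
    s48l_evMat (s48l_Theta ρN) g = (s48l_prodMat ρN g).map (s48l_prodToTarget φ ℓ) := by
  ext i j
  rw [s48l_evMat_apply, s48l_Theta, eval₂Hom_X']
  rfl

theorem s48l_Theta_rels :
    ∀ p ∈ s48l_rels (G := G) (FractionRing 𝒪), s48l_Theta ρN p = 0 := by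
  rw [s48l_rels_iff]
  refine ⟨fun g h => ?_, ?_⟩
  · rw [s48l_Theta_evMat, s48l_Theta_evMat, s48l_Theta_evMat, ← Matrix.map_mul,
      s48l_prodMat_mul]
  · rw [s48l_Theta_evMat, s48l_prodMat_one,
      Matrix.map_one _ (map_zero _) (map_one _)]

theorem s48l_Theta_C (a : 𝒪) :
    s48l_Theta ρN (C (algebraMap 𝒪 (FractionRing 𝒪) a)) =
      s48l_prodToTarget φ ℓ (s48l_locToProd φ ℓ (algebraMap 𝒪 (s48l_Loc φ) a)) := by
  rw [s48l_Theta, eval₂Hom_C, s48l_fracToTarget_algebraMap]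
  rfl

variable {F : Type*} [CommRing F] (j : F →+* kf) (ρbar : G →* Matrix (Fin 2) (Fin 2) F)

/-- The family `ρN` has residues `j ∘ ρbar`. -/
def s48l_Compat : Prop :=
  ∀ (N : ℕ) (g : G) (i i' : Fin 2),
    s48l_psiQ φ (s48l_ellIdeal φ ℓ ^ (N + 1)) (s48l_ellIdeal_pow_le φ ℓ N) (ρN N g i i') =
      j (ρbar g i i')

variable {ρN j ρbar}

theorem s48l_psiQ_trace (h : s48l_Compat ρN j ρbar) (N : ℕ) (g : G) :
    s48l_psiQ φ (s48l_ellIdeal φ ℓ ^ (N + 1)) (s48l_ellIdeal_pow_le φ ℓ N) (ρN N g).trace =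
      j (ρbar g).trace := by
  rw [Matrix.trace_fin_two, Matrix.trace_fin_two, map_add, map_add, h, h]

theorem s48l_psiQ_det (h : s48l_Compat ρN j ρbar) (N : ℕ) (g : G) :
    s48l_psiQ φ (s48l_ellIdeal φ ℓ ^ (N + 1)) (s48l_ellIdeal_pow_le φ ℓ N) (ρN N g).det =
      j (ρbar g).det := by
  rw [Matrix.det_fin_two, Matrix.det_fin_two, map_sub, map_sub, map_mul, map_mul, map_mul,
    map_mul, h, h, h, h]

theorem s48l_Theta_tr_isUnit (h : s48l_Compat ρN j ρbar) (g : G) (a : 𝒪)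
    (ha : φ a ≠ j (ρbar g).trace) :
    IsUnit (s48l_Theta ρN (s48l_trP (FractionRing 𝒪) g -
      C (algebraMap 𝒪 (FractionRing 𝒪) a))) := by
  rw [map_sub, s48l_ev_trP, s48l_Theta_evMat, s48l_Theta_C, ← AddMonoidHom.map_trace, ← map_sub]
  apply IsUnit.map
  rw [Pi.isUnit_iff]
  intro N
  apply s48l_isUnit_of_psiQ_ne_zero φ _ (s48l_ellIdeal_pow_le φ ℓ N)
  rw [Pi.sub_apply, map_sub, s48l_prodMat_trace, s48l_psiQ_trace h]
  have : s48l_locToProd φ ℓ (algebraMap 𝒪 (s48l_Loc φ) a) N =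
      Ideal.Quotient.mk _ (algebraMap 𝒪 (s48l_Loc φ) a) := rfl
  rw [this, s48l_psiQ_mk, s48l_psi_algebraMap]
  exact sub_ne_zero.mpr ha.symm

theorem s48l_Theta_det_isUnit (h : s48l_Compat ρN j ρbar) (g : G) (a : 𝒪)
    (ha : φ a ≠ j (ρbar g).det) :
    IsUnit (s48l_Theta ρN (s48l_detP (FractionRing 𝒪) g -
      C (algebraMap 𝒪 (FractionRing 𝒪) a))) := by
  rw [map_sub, s48l_ev_detP, s48l_Theta_evMat, s48l_Theta_C]
  have hdet : ((s48l_prodMat ρN g).map (s48l_prodToTarget φ ℓ)).det =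
      s48l_prodToTarget φ ℓ (s48l_prodMat ρN g).det := by
    rw [RingHom.map_det]
    rfl
  rw [hdet, ← map_sub]
  apply IsUnit.map
  rw [Pi.isUnit_iff]
  intro N
  apply s48l_isUnit_of_psiQ_ne_zero φ _ (s48l_ellIdeal_pow_le φ ℓ N)
  rw [Pi.sub_apply, map_sub, s48l_prodMat_det, s48l_psiQ_det h]
  have : s48l_locToProd φ ℓ (algebraMap 𝒪 (s48l_Loc φ) a) N =
      Ideal.Quotient.mk _ (algebraMap 𝒪 (s48l_Loc φ) a) := rfl
  rw [this, s48l_psiQ_mk, s48l_psi_algebraMap]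
  exact sub_ne_zero.mpr ha.symm

end LiftPt

end Fermat.Agent.Lib.S48
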