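/-
Stage A brick (L-T) for Deligne–Serre §8.4–8.6: elements of finite order in `M₂(ℂ)`:
eigenvalues are roots of unity, trace/determinant lie in an explicit finite set, and
`trace = 2` forces the identity. Mathlib only.
-/
import Mathlib

set_option autoImplicit false

namespace Fermat.Agent.Lib.S48

open Polynomial Matrix

section Trace

/-- A matrix of finite order in `M₂(ℂ)` has trace `α + β` and determinant `α β` for roots of
unity `α, β` with `α ^ m = β ^ m = 1`. -/
theorem s48l_eigs_of_pow_eq_one (M : Matrix (Fin 2) (Fin 2) ℂ) {m : ℕ} (hM : M ^ m = 1) :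
    ∃ α β : ℂ, α ^ m = 1 ∧ β ^ m = 1 ∧ M.trace = α + β ∧ M.det = α * β ∧
      M.charpoly = (X - C α) * (X - C β) := by
  have hsplit : M.charpoly.Splits := IsAlgClosed.splits _
  have hcard : Multiset.card M.charpoly.roots = 2 := by
    rw [← hsplit.natDegree_eq_card_roots, Matrix.charpoly_natDegree_eq_dim, Fintype.card_fin]
  obtain ⟨α, β, hαβ⟩ := Multiset.card_eq_two.mp hcard
  have hroot : ∀ γ ∈ M.charpoly.roots, γ ^ m = 1 := by
    intro γ hγ
    have h1 : γ ∈ spectrum ℂ M :=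
      Matrix.mem_spectrum_iff_isRoot_charpoly.mpr (isRoot_of_mem_roots hγ)
    have h2 := spectrum.pow_mem_pow M m h1
    rw [hM, spectrum.one_eq] at h2
    exact h2
  refine ⟨α, β, hroot α (by rw [hαβ]; simp), hroot β (by rw [hαβ]; simp), ?_, ?_, ?_⟩
  · rw [Matrix.trace_eq_sum_roots_charpoly, hαβ]; simp
  · rw [Matrix.det_eq_prod_roots_charpoly, hαβ]; simp
  · have := hsplit.eq_prod_roots_of_monic (Matrix.charpoly_monic M)
    rw [this, hαβ]; simp

/-- A complex number of finite order whose real part is at least `1` is `1`. -/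
theorem s48l_eq_one_of_re {α : ℂ} {m : ℕ} (hm : m ≠ 0) (hα : α ^ m = 1) (hre : 1 ≤ α.re) :
    α = 1 := by
  have hnorm : ‖α‖ = 1 := by
    have h1 : ‖α‖ ^ m = 1 := by rw [← norm_pow, hα, norm_one]
    exact (pow_eq_one_iff_of_nonneg (norm_nonneg α) hm).mp h1
  have hsq : α.re ^ 2 + α.im ^ 2 = 1 := by
    have := Complex.sq_norm α
    rw [hnorm, Complex.normSq_apply] at this
    nlinarith [this]
  have hre1 : α.re = 1 := by nlinarith [sq_nonneg α.im]
  have him : α.im = 0 := by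
    have : α.im ^ 2 = 0 := by rw [hre1] at hsq; linarith
    exact pow_eq_zero_iff (two_ne_zero) |>.mp this
  exact Complex.ext (by simp [hre1]) (by simp [him])

/-- The real part of a root of unity is at most `1`. -/
theorem s48l_re_le_one {α : ℂ} {m : ℕ} (hm : m ≠ 0) (hα : α ^ m = 1) : α.re ≤ 1 := by
  have hnorm : ‖α‖ = 1 := by
    have h1 : ‖α‖ ^ m = 1 := by rw [← norm_pow, hα, norm_one]
    exact (pow_eq_one_iff_of_nonneg (norm_nonneg α) hm).mp h1
  calc α.re ≤ ‖α‖ := Complex.re_le_norm α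
    _ = 1 := hnorm

/-- **DS 8.6 kernel lemma.** A matrix of finite order in `M₂(ℂ)` with trace `2` is the
identity. -/
theorem s48l_eq_one_of_trace_eq_two (M : Matrix (Fin 2) (Fin 2) ℂ) {m : ℕ} (hm : m ≠ 0)
    (hM : M ^ m = 1) (htr : M.trace = 2) : M = 1 := by
  obtain ⟨α, β, hα, hβ, htrace, -, hchar⟩ := s48l_eigs_of_pow_eq_one M hM
  have hsum : α.re + β.re = 2 := by
    have := congrArg Complex.re (htrace.symm.trans htr)
    simpa using this
  have hα1 : α = 1 := s48l_eq_one_of_re hm hα (by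
    have := s48l_re_le_one hm hβ; linarith)
  have hβ1 : β = 1 := s48l_eq_one_of_re hm hβ (by
    have := s48l_re_le_one hm hα; linarith)
  -- Cayley–Hamilton: (M - 1)^2 = 0
  have hCH : (M - 1) * (M - 1) = 0 := by
    have := Matrix.aeval_self_charpoly M
    rw [hchar, hα1, hβ1] at this
    simpa using this
  -- (1 + N)^k = 1 + k N
  set N := M - 1 with hN
  have hMN : M = 1 + N := by rw [hN]; abel
  have hpow : ∀ k : ℕ, M ^ k = 1 + (k : ℂ) • N := by
    intro k
    induction k with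
    | zero => simp
    | succ k ih =>
      rw [pow_succ, ih, hMN]
      have : ((k : ℂ) • N) * N = 0 := by rw [smul_mul_assoc, hCH, smul_zero]
      rw [add_mul, one_mul, mul_add, mul_one, this, add_zero]
      push_cast
      rw [add_smul, one_smul]
      abel
  have h0 : (m : ℂ) • N = 0 := by
    have := hpow m
    rw [hM] at this
    have h' : (1 : Matrix (Fin 2) (Fin 2) ℂ) + 0 = 1 + (m : ℂ) • N := by rw [add_zero]; exact this
    exact (add_left_cancel h').symm
  have hN0 : N = 0 := by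
    rcases smul_eq_zero.mp h0 with h | h
    · exact absurd (by exact_mod_cast h) hm
    · exact h
  rw [hMN, hN0, add_zero]

/-- The determinant of a `2 × 2` matrix is determined by traces: `2 det M = (tr M)² − tr (M²)`. -/
theorem s48l_two_det_eq {R : Type*} [CommRing R] (M : Matrix (Fin 2) (Fin 2) R) :
    2 * M.det = M.trace ^ 2 - (M ^ 2).trace := by
  rw [Matrix.det_fin_two, Matrix.trace_fin_two, pow_two M, Matrix.trace_fin_two,
    Matrix.mul_apply, Matrix.mul_apply]
  simp only [Fin.sum_univ_two]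
  ring

/-- The finite set of complex numbers `z` with `z ^ a = 1` for some `1 ≤ a ≤ A`. -/
noncomputable def s48l_rootsUpTo (A : ℕ) : Finset ℂ :=
  (Finset.Icc 1 A).biUnion fun a => nthRootsFinset a (1 : ℂ)

theorem s48l_mem_rootsUpTo {A : ℕ} {z : ℂ} :
    z ∈ s48l_rootsUpTo A ↔ ∃ a, 1 ≤ a ∧ a ≤ A ∧ z ^ a = 1 := by
  unfold s48l_rootsUpTo
  rw [Finset.mem_biUnion]
  constructor
  · rintro ⟨a, ha, hz⟩
    rw [Finset.mem_Icc] at ha
    exact ⟨a, ha.1, ha.2, (mem_nthRootsFinset (by omega) 1).mp hz⟩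
  · rintro ⟨a, h1, h2, hz⟩
    exact ⟨a, Finset.mem_Icc.mpr ⟨h1, h2⟩, (mem_nthRootsFinset (by omega) 1).mpr hz⟩

/-- The finite set `Y_A` of pairs `(α + β, α β)` with `α, β` roots of unity of order `≤ A`. -/
noncomputable def s48l_traceDetSet (A : ℕ) : Finset (ℂ × ℂ) :=
  ((s48l_rootsUpTo A) ×ˢ (s48l_rootsUpTo A)).image fun p => (p.1 + p.2, p.1 * p.2)

/-- A matrix of order `≤ A` in `M₂(ℂ)` has (trace, det) in `Y_A`. -/
theorem s48l_traceDet_mem (M : Matrix (Fin 2) (Fin 2) ℂ) {m A : ℕ} (hm : 1 ≤ m) (hmA : m ≤ A)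
    (hM : M ^ m = 1) : (M.trace, M.det) ∈ s48l_traceDetSet A := by
  obtain ⟨α, β, hα, hβ, htrace, hdet, -⟩ := s48l_eigs_of_pow_eq_one M hM
  unfold s48l_traceDetSet
  rw [Finset.mem_image]
  refine ⟨(α, β), Finset.mem_product.mpr ⟨?_, ?_⟩, ?_⟩
  · exact s48l_mem_rootsUpTo.mpr ⟨m, hm, hmA, hα⟩
  · exact s48l_mem_rootsUpTo.mpr ⟨m, hm, hmA, hβ⟩
  · simp [htrace, hdet]

/-- Elements of `Y_A` are integral over `ℤ`. -/
theorem s48l_traceDet_integral {A : ℕ} {p : ℂ × ℂ} (hp : p ∈ s48l_traceDetSet A) :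
    IsIntegral ℤ p.1 ∧ IsIntegral ℤ p.2 := by
  unfold s48l_traceDetSet at hp
  rw [Finset.mem_image] at hp
  obtain ⟨⟨α, β⟩, hαβ, rfl⟩ := hp
  rw [Finset.mem_product] at hαβ
  obtain ⟨a, ha1, -, hα⟩ := s48l_mem_rootsUpTo.mp hαβ.1
  obtain ⟨b, hb1, -, hβ⟩ := s48l_mem_rootsUpTo.mp hαβ.2
  have iα : IsIntegral ℤ α := IsIntegral.of_pow (n := a) (by omega) (by rw [hα]; exact isIntegral_one)
  have iβ : IsIntegral ℤ β := IsIntegral.of_pow (n := b) (by omega) (by rw [hβ]; exact isIntegral_one)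
  exact ⟨iα.add iβ, iα.mul iβ⟩

end Trace

end Fermat.Agent.Lib.S48
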