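/-
Stage A brick (L-D, final) for Deligne–Serre §8.5: a mod-`ℓ` representation of a finite group of
order prime to `ℓ` lifts to a complex representation whose traces and determinants are algebraic
integers reducing (under a GIVEN residue map `φ`) to those of the mod-`ℓ` representation.
Route: Artinian lifts + Nullstellensatz on the representation variety. Mathlib + S48/L*.
-/
import Mathlib
import Fermat.Agent.Lib.S48.LLiftPt
import Fermat.Agent.Lib.S48.LTrace

set_option autoImplicit false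

namespace Fermat.Agent.Lib.S48

open MvPolynomial

section LiftC

variable {𝒪 : Type*} [CommRing 𝒪] [IsDomain 𝒪] [CharZero 𝒪] [Algebra.IsIntegral ℤ 𝒪]
variable {kf : Type*} [Field kf] (φ : 𝒪 →+* kf)
variable (ℓ : ℕ) [hℓ : Fact ℓ.Prime] [CharP kf ℓ]
variable {G : Type*} [Group G] [Fintype G]

/-- **Lifting to characteristic zero (abstract form, general coefficients).** `𝒪` is a ring of
algebraic integers embedded in `ℂ` by `ι`, containing every complex algebraic integer; the residual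
representation has coefficients in a ring `F` with `j : F → k`, and `c : F → 𝒪_𝔪 ⧸ (ℓ)` is a
compatible ring homomorphism. -/
theorem s48l_lift_complex_gen (ι : 𝒪 →+* ℂ) (hinj : Function.Injective ι)
    (hsurj : ∀ z : ℂ, IsIntegral ℤ z → ∃ a : 𝒪, ι a = z)
    {F : Type*} [CommRing F] (j : F →+* kf)
    (c : F →+* (s48l_Loc φ ⧸ s48l_ellIdeal φ ℓ))
    (hcj : ∀ y, s48l_psiQ φ (s48l_ellIdeal φ ℓ) (s48l_ellIdeal_le φ ℓ) (c y) = j y)
    (hG : ¬ ℓ ∣ Fintype.card G) (ρbar : G →* Matrix (Fin 2) (Fin 2) F) :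
    ∃ ρ : G →* Matrix (Fin 2) (Fin 2) ℂ, ∀ g, ∃ t d : 𝒪,
      ι t = (ρ g).trace ∧ ι d = (ρ g).det ∧
      φ t = j (ρbar g).trace ∧ φ d = j (ρbar g).det := by
  classical
  by_contra hno
  letI algKC : Algebra (FractionRing 𝒪) ℂ := (IsFractionRing.lift hinj).toAlgebra
  have halg : ∀ a : 𝒪, algebraMap (FractionRing 𝒪) ℂ (algebraMap 𝒪 (FractionRing 𝒪) a) = ι a :=
    fun a => IsFractionRing.lift_algebraMap hinj a
  choose ρN hρN using fun N => s48l_tower_exists_gen φ ℓ c j hcj hG ρbar N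
  have hcompat : s48l_Compat ρN j ρbar := fun N g i i' => hρN N g i i'
  let 𝔞 : Ideal (MvPolynomial (s48l_Coord G) (FractionRing 𝒪)) :=
    Ideal.span (s48l_rels (FractionRing 𝒪))
  have hΘ𝔞 : ∀ p ∈ 𝔞, s48l_Theta ρN p = 0 := by
    intro p hp
    have hle : 𝔞 ≤ RingHom.ker (s48l_Theta ρN) :=
      Ideal.span_le.mpr (fun q hq => (RingHom.mem_ker).mpr (s48l_Theta_rels ρN q hq))
    exact (RingHom.mem_ker).mp (hle hp)
  let m := Fintype.card G
  let YT : Finset ℂ := (s48l_traceDetSet m).image Prod.fst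
  let YD : Finset ℂ := (s48l_traceDetSet m).image Prod.snd
  let PT : Finset 𝒪 := YT.preimage ι hinj.injOn
  let PD : Finset 𝒪 := YD.preimage ι hinj.injOn
  let cT : G → kf := fun g => j (ρbar g).trace
  let cD : G → kf := fun g => j (ρbar g).det
  let BadT : G → Finset 𝒪 := fun g => PT.filter (fun a => φ a ≠ cT g)
  let BadD : G → Finset 𝒪 := fun g => PD.filter (fun a => φ a ≠ cD g)
  let F : MvPolynomial (s48l_Coord G) (FractionRing 𝒪) :=
    ∏ g : G, ((∏ a ∈ BadT g, (s48l_trP (FractionRing 𝒪) g - C (algebraMap 𝒪 (FractionRing 𝒪) a))) *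
      (∏ a ∈ BadD g, (s48l_detP (FractionRing 𝒪) g - C (algebraMap 𝒪 (FractionRing 𝒪) a))))
  have hFunit : IsUnit (s48l_Theta ρN F) := by
    rw [map_prod, IsUnit.prod_univ_iff]
    intro g
    rw [map_mul, map_prod, map_prod]
    refine IsUnit.mul ?_ ?_
    · rw [IsUnit.prod_iff]
      intro a ha
      exact s48l_Theta_tr_isUnit hcompat g a (Finset.mem_filter.mp ha).2
    · rw [IsUnit.prod_iff]
      intro a ha
      exact s48l_Theta_det_isUnit hcompat g a (Finset.mem_filter.mp ha).2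
  have hFvan : F ∈ vanishingIdeal (FractionRing 𝒪) (zeroLocus ℂ 𝔞) := by
    rw [mem_vanishingIdeal_iff]
    intro x hx
    rw [mem_zeroLocus_iff] at hx
    let ev : MvPolynomial (s48l_Coord G) (FractionRing 𝒪) →+* ℂ :=
      (aeval x : MvPolynomial (s48l_Coord G) (FractionRing 𝒪) →ₐ[FractionRing 𝒪] ℂ).toRingHom
    have hev : ∀ p, ev p = aeval x p := fun p => rfl
    have hrel : ∀ p ∈ s48l_rels (G := G) (FractionRing 𝒪), ev p = 0 :=
      fun p hp => hx p (Ideal.subset_span hp)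
    let ρx := s48l_evHom ev hrel
    have hbad : ¬ ∀ g, ∃ t d : 𝒪, ι t = (ρx g).trace ∧ ι d = (ρx g).det ∧
        φ t = cT g ∧ φ d = cD g := fun hgood => hno ⟨ρx, hgood⟩
    rw [not_forall] at hbad
    obtain ⟨g, hg⟩ := hbad
    have hpow : (ρx g) ^ m = 1 := by rw [← map_pow, pow_card_eq_one, map_one]
    have hmem := s48l_traceDet_mem (ρx g) (m := m) (A := m) Fintype.card_pos le_rfl hpow
    obtain ⟨hintT, hintD⟩ := s48l_traceDet_integral hmem
    obtain ⟨t, ht⟩ := hsurj _ hintT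
    obtain ⟨d, hd⟩ := hsurj _ hintD
    have htPT : t ∈ PT := by
      rw [Finset.mem_preimage, ht]
      exact Finset.mem_image_of_mem Prod.fst hmem
    have hdPD : d ∈ PD := by
      rw [Finset.mem_preimage, hd]
      exact Finset.mem_image_of_mem Prod.snd hmem
    rw [← hev, map_prod]
    apply Finset.prod_eq_zero (Finset.mem_univ g)
    rw [map_mul, map_prod, map_prod]
    by_cases h1 : φ t = cT g
    · have h2 : φ d ≠ cD g := fun h2 => hg ⟨t, d, ht, hd, h1, h2⟩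
      apply mul_eq_zero_of_right
      apply Finset.prod_eq_zero (Finset.mem_filter.mpr ⟨hdPD, h2⟩)
      rw [map_sub, s48l_ev_detP, hev, aeval_C, halg, hd]
      exact sub_self _
    · apply mul_eq_zero_of_left
      apply Finset.prod_eq_zero (Finset.mem_filter.mpr ⟨htPT, h1⟩)
      rw [map_sub, s48l_ev_trP, hev, aeval_C, halg, ht]
      exact sub_self _
  have hrad : F ∈ 𝔞.radical := by
    rw [← vanishingIdeal_zeroLocus_eq_radical (K := ℂ)]
    exact hFvan
  obtain ⟨r, hr⟩ := hrad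
  have h0 := hΘ𝔞 _ hr
  rw [map_pow] at h0
  exact (hFunit.pow r).ne_zero h0

/-- **Lifting to characteristic zero (abstract form, prime field).** -/
theorem s48l_lift_complex_aux (ι : 𝒪 →+* ℂ) (hinj : Function.Injective ι)
    (hsurj : ∀ z : ℂ, IsIntegral ℤ z → ∃ a : 𝒪, ι a = z)
    (hG : ¬ ℓ ∣ Fintype.card G) (ρbar : G →* Matrix (Fin 2) (Fin 2) (ZMod ℓ)) :
    ∃ ρ : G →* Matrix (Fin 2) (Fin 2) ℂ, ∀ g, ∃ t d : 𝒪,
      ι t = (ρ g).trace ∧ ι d = (ρ g).det ∧
      φ t = ZMod.castHom (dvd_refl ℓ) kf (ρbar g).trace ∧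
      φ d = ZMod.castHom (dvd_refl ℓ) kf (ρbar g).det :=
  s48l_lift_complex_gen φ ℓ ι hinj hsurj (ZMod.castHom (dvd_refl ℓ) kf) (s48l_zmodToQuot φ ℓ)
    (s48l_psiQ_zmodToQuot φ ℓ) hG ρbar

end LiftC

section Concrete

variable {kf : Type*} [Field kf] (ℓ : ℕ) [hℓ : Fact ℓ.Prime] [CharP kf ℓ]
variable {G : Type*} [Group G] [Fintype G]

/-- **Lifting to characteristic zero (DS §8.5).** `G` finite of order prime to `ℓ`,
`ρ̄ : G → GL₂(𝔽_ℓ)`, and ANY residue map `φ` from the ring of complex algebraic integers to a field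
of characteristic `ℓ`: there is `ρ : G → GL₂(ℂ)` whose traces and determinants are algebraic
integers reducing under `φ` to those of `ρ̄`. -/
theorem s48l_lift_complex (φ : integralClosure ℤ ℂ →+* kf) (hG : ¬ ℓ ∣ Fintype.card G)
    (ρbar : G →* GL (Fin 2) (ZMod ℓ)) :
    ∃ ρ : G →* GL (Fin 2) ℂ, ∀ g, ∃ t d : integralClosure ℤ ℂ,
      (t : ℂ) = ((ρ g : GL (Fin 2) ℂ) : Matrix (Fin 2) (Fin 2) ℂ).trace ∧
      (d : ℂ) = ((ρ g : GL (Fin 2) ℂ) : Matrix (Fin 2) (Fin 2) ℂ).det ∧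
      φ t = ZMod.castHom (dvd_refl ℓ) kf
        ((ρbar g : GL (Fin 2) (ZMod ℓ)) : Matrix (Fin 2) (Fin 2) (ZMod ℓ)).trace ∧
      φ d = ZMod.castHom (dvd_refl ℓ) kf
        ((ρbar g : GL (Fin 2) (ZMod ℓ)) : Matrix (Fin 2) (Fin 2) (ZMod ℓ)).det := by
  obtain ⟨ρ, hρ⟩ := s48l_lift_complex_aux φ ℓ
    (algebraMap (integralClosure ℤ ℂ) ℂ) Subtype.val_injective
    (fun z hz => ⟨⟨z, hz⟩, rfl⟩) hG
    ((Units.coeHom (Matrix (Fin 2) (Fin 2) (ZMod ℓ))).comp ρbar)
  refine ⟨ρ.toHomUnits, fun g => ?_⟩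
  obtain ⟨t, d, h1, h2, h3, h4⟩ := hρ g
  exact ⟨t, d, h1, h2, h3, h4⟩

end Concrete

end Fermat.Agent.Lib.S48
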