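/-
Stage B brick ((D4-b) in the shape of helper7's `s48t_Lift`) for Deligne–Serre §8.5:
extension of a residue map along an integral extension into an algebraic closure, and the lifting
theorem for an arbitrary coefficient subring `R ⊆ ℂ` containing the `|G|`-th roots of unity, with
`φ : R →+* 𝔽_ℓ`. Mathlib + S48/LLiftC.
-/
import Mathlib
import Fermat.Agent.Lib.S48.LLiftC

set_option autoImplicit false

namespace Fermat.Agent.Lib.S48

section Ext

/-- **Extension of residue maps.** If `𝒪` is integral over `R₀ ⊆ 𝒪`, every ring homomorphism from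
`R₀` to a field `F` extends to a ring homomorphism from `𝒪` to the algebraic closure of `F`. -/
theorem s48l_extend_residue {R₀ 𝒪 : Type*} [CommRing R₀] [CommRing 𝒪] [Algebra R₀ 𝒪]
    [Algebra.IsIntegral R₀ 𝒪] (hinj : Function.Injective (algebraMap R₀ 𝒪))
    {F : Type*} [Field F] (φ₀ : R₀ →+* F) :
    ∃ Φ : 𝒪 →+* AlgebraicClosure F,
      ∀ x, Φ (algebraMap R₀ 𝒪 x) = algebraMap F (AlgebraicClosure F) (φ₀ x) := by
  haveI : (RingHom.ker φ₀).IsPrime := RingHom.ker_isPrime φ₀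
  obtain ⟨𝔓, -, h𝔓, hover⟩ := Ideal.exists_ideal_over_prime_of_isIntegral (RingHom.ker φ₀)
    (⊥ : Ideal 𝒪) (by rw [Ideal.comap_bot_of_injective _ hinj]; exact bot_le)
  haveI := h𝔓
  let g : (R₀ ⧸ 𝔓.comap (algebraMap R₀ 𝒪)) →+* AlgebraicClosure F :=
    Ideal.Quotient.lift _ ((algebraMap F (AlgebraicClosure F)).comp φ₀) (by
      intro a ha
      rw [hover] at ha
      simp [RingHom.mem_ker.mp ha])
  have hg : Function.Injective g := by
    rw [injective_iff_map_eq_zero]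
    intro a ha
    obtain ⟨a, rfl⟩ := Ideal.Quotient.mk_surjective a
    have h1 : (algebraMap F (AlgebraicClosure F)) (φ₀ a) = 0 := by simpa [g] using ha
    have h2 : φ₀ a = 0 := by
      have := (algebraMap F (AlgebraicClosure F)).injective
      exact this (h1.trans (map_zero _).symm)
    rw [Ideal.Quotient.eq_zero_iff_mem, hover]
    exact RingHom.mem_ker.mpr h2
  letI : Algebra (R₀ ⧸ 𝔓.comap (algebraMap R₀ 𝒪)) (AlgebraicClosure F) := g.toAlgebra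
  haveI : Module.IsTorsionFree (R₀ ⧸ 𝔓.comap (algebraMap R₀ 𝒪)) (AlgebraicClosure F) :=
    Module.isTorsionFree_iff_algebraMap_injective.mpr hg
  haveI : Module.IsTorsionFree (R₀ ⧸ 𝔓.comap (algebraMap R₀ 𝒪)) (𝒪 ⧸ 𝔓) :=
    Module.isTorsionFree_iff_algebraMap_injective.mpr Ideal.algebraMap_quotient_injective
  let f : (𝒪 ⧸ 𝔓) →ₐ[R₀ ⧸ 𝔓.comap (algebraMap R₀ 𝒪)] AlgebraicClosure F := IsAlgClosed.lift
  refine ⟨f.toRingHom.comp (Ideal.Quotient.mk 𝔓), fun x => ?_⟩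
  have h1 : Ideal.Quotient.mk 𝔓 (algebraMap R₀ 𝒪 x) =
      algebraMap (R₀ ⧸ 𝔓.comap (algebraMap R₀ 𝒪)) (𝒪 ⧸ 𝔓) (Ideal.Quotient.mk _ x) := rfl
  change f (Ideal.Quotient.mk 𝔓 (algebraMap R₀ 𝒪 x)) = _
  rw [h1, f.commutes]
  change g (Ideal.Quotient.mk _ x) = _
  simp [g]

end Ext

section Subring

/-- **(D4-b) in the `s48t_Lift` shape.** `R` is ANY subring of `ℂ` containing the `|G|`-th roots of
unity and `φ : R →+* 𝔽_ℓ` ANY ring homomorphism. -/
theorem s48l_lift_subring (ℓ : ℕ) [Fact ℓ.Prime] (G : Type) [Group G] [Fintype G]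
    (hG : ¬ ℓ ∣ Fintype.card G) (ρb : G →* GL (Fin 2) (ZMod ℓ)) (R : Subring ℂ)
    (φ : R →+* ZMod ℓ) (hμ : ∀ z : ℂ, z ^ Fintype.card G = 1 → z ∈ R) :
    ∃ ρ : G →* GL (Fin 2) ℂ, ∀ g : G, ∃ t d : R,
      (t : ℂ) = (ρ g).val.trace ∧ (d : ℂ) = (ρ g).val.det ∧
      φ t = (ρb g).val.trace ∧ φ d = (ρb g).val.det := by
  classical
  -- the integral part of `R`
  let R₀ : Subring ℂ := R ⊓ (integralClosure ℤ ℂ).toSubring
  let j : R₀ →+* integralClosure ℤ ℂ :=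
    { toFun := fun x => ⟨x.1, x.2.2⟩
      map_one' := rfl
      map_mul' := fun _ _ => rfl
      map_zero' := rfl
      map_add' := fun _ _ => rfl }
  letI : Algebra R₀ (integralClosure ℤ ℂ) := j.toAlgebra
  have hjinj : Function.Injective (algebraMap R₀ (integralClosure ℤ ℂ)) := by
    intro x y hxy
    apply Subtype.ext
    exact congrArg (fun z : integralClosure ℤ ℂ => (z : ℂ)) hxy
  haveI : Algebra.IsIntegral R₀ (integralClosure ℤ ℂ) :=
    ⟨fun x => (Algebra.IsIntegral.isIntegral (R := ℤ) x).tower_top⟩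
  let φ₀ : R₀ →+* ZMod ℓ := φ.comp (Subring.inclusion inf_le_left)
  obtain ⟨Φ, hΦ⟩ := s48l_extend_residue hjinj φ₀
  obtain ⟨ρ, hρ⟩ := s48l_lift_complex (kf := AlgebraicClosure (ZMod ℓ)) ℓ Φ hG ρb
  refine ⟨ρ, fun g => ?_⟩
  obtain ⟨t, d, ht, hd, hΦt, hΦd⟩ := hρ g
  -- eigenvalues are roots of unity
  have hpow : ((ρ g : GL (Fin 2) ℂ) : Matrix (Fin 2) (Fin 2) ℂ) ^ Fintype.card G = 1 := by
    rw [← Units.val_pow_eq_pow_val, ← map_pow, pow_card_eq_one, map_one, Units.val_one]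
  obtain ⟨α, β, hα, hβ, htr, hdet, -⟩ := s48l_eigs_of_pow_eq_one _ hpow
  have hαR := hμ α hα
  have hβR := hμ β hβ
  have htR₀ : (t : ℂ) ∈ R₀ := ⟨by rw [ht, htr]; exact R.add_mem hαR hβR, t.2⟩
  have hdR₀ : (d : ℂ) ∈ R₀ := ⟨by rw [hd, hdet]; exact R.mul_mem hαR hβR, d.2⟩
  have hcast : ∀ a : ZMod ℓ, ZMod.castHom (dvd_refl ℓ) (AlgebraicClosure (ZMod ℓ)) a =
      algebraMap (ZMod ℓ) (AlgebraicClosure (ZMod ℓ)) a := by
    intro a
    exact congrArg (fun f : ZMod ℓ →+* AlgebraicClosure (ZMod ℓ) => f a) (Subsingleton.elim _ _)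
  have hinjF := (algebraMap (ZMod ℓ) (AlgebraicClosure (ZMod ℓ))).injective
  refine ⟨⟨(t : ℂ), htR₀.1⟩, ⟨(d : ℂ), hdR₀.1⟩, ht, hd, ?_, ?_⟩
  · have h1 := hΦ ⟨(t : ℂ), htR₀⟩
    have h2 : algebraMap R₀ (integralClosure ℤ ℂ) ⟨(t : ℂ), htR₀⟩ = t := Subtype.ext rfl
    rw [h2, hΦt, hcast] at h1
    exact (hinjF h1).symm
  · have h1 := hΦ ⟨(d : ℂ), hdR₀⟩
    have h2 : algebraMap R₀ (integralClosure ℤ ℂ) ⟨(d : ℂ), hdR₀⟩ = d := Subtype.ext rfl
    rw [h2, hΦd, hcast] at h1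
    exact (hinjF h1).symm

end Subring

end Fermat.Agent.Lib.S48
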