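/-
Stage B brick ((D4-b), finite residue fields) for Deligne–Serre §8.5: for a finite field `F` with
`j : F →+* k` and a residue map `φ : 𝒪 → k` on a ring of all algebraic integers, a compatible
ring homomorphism `c : F → 𝒪_𝔪 ⧸ (ℓ)`; and the lifting theorem for `ρ̄ : G → GL₂(F)`.
Mathlib + S48/LLiftC.
-/
import Mathlib
import Fermat.Agent.Lib.S48.LLiftC

set_option autoImplicit false

namespace Fermat.Agent.Lib.S48

open Polynomial

section ResF

variable {𝒪 : Type*} [CommRing 𝒪] [IsDomain 𝒪]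
variable {kf : Type*} [Field kf] (φ : 𝒪 →+* kf)

/-- A root in `k` of (the image of) a monic integer polynomial lifts to a root in `𝒪` (when `𝒪`
contains all complex algebraic integers). -/
theorem s48l_exists_root_lift (ι : 𝒪 →+* ℂ) (hinj : Function.Injective ι)
    (hsurj : ∀ z : ℂ, IsIntegral ℤ z → ∃ a : 𝒪, ι a = z)
    (g : ℤ[X]) (hg : g.Monic) (b : kf) (hb : eval₂ (Int.castRingHom kf) b g = 0) :
    ∃ θ : 𝒪, eval₂ (Int.castRingHom 𝒪) θ g = 0 ∧ φ θ = b := by
  classical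
  set P : 𝒪[X] := g.map (Int.castRingHom 𝒪) with hP
  set Pc : ℂ[X] := g.map (Int.castRingHom ℂ) with hPc
  have hPι : P.map ι = Pc := by
    rw [hP, hPc, Polynomial.map_map]
    congr 1
    exact Subsingleton.elim _ _
  have hPcmonic : Pc.Monic := hg.map _
  have hsplit : Pc = (Pc.roots.map fun a => X - C a).prod :=
    (IsAlgClosed.splits Pc).eq_prod_roots_of_monic hPcmonic
  have hint : ∀ z ∈ Pc.roots, IsIntegral ℤ z := by
    intro z hz
    refine ⟨g, hg, ?_⟩
    have := isRoot_of_mem_roots hz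
    rw [IsRoot.def, hPc, eval_map] at this
    exact this
  let θ : ℂ → 𝒪 := fun z => if h : IsIntegral ℤ z then Classical.choose (hsurj z h) else 0
  have hθ : ∀ z ∈ Pc.roots, ι (θ z) = z := by
    intro z hz
    simp only [θ, dif_pos (hint z hz)]
    exact Classical.choose_spec (hsurj z (hint z hz))
  set Q : 𝒪[X] := ((Pc.roots.map θ).map fun a => X - C a).prod with hQ
  have hQι : Q.map ι = Pc := by
    rw [hQ, Polynomial.map_multiset_prod, Multiset.map_map, Multiset.map_map]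
    conv_rhs => rw [hsplit]
    congr 1
    apply Multiset.map_congr rfl
    intro z hz
    simp [hθ z hz]
  have hPQ : P = Q := Polynomial.map_injective ι hinj (hPι.trans hQι.symm)
  -- evaluate at `b`
  have hPφ : (P.map φ).eval b = 0 := by
    rw [hP, Polynomial.map_map, eval_map]
    have : φ.comp (Int.castRingHom 𝒪) = Int.castRingHom kf := Subsingleton.elim _ _
    rw [this]
    exact hb
  rw [hPQ, hQ, Polynomial.map_multiset_prod, eval_multiset_prod, Multiset.map_map,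
    Multiset.map_map, Multiset.map_map, Multiset.prod_eq_zero_iff, Multiset.mem_map] at hPφ
  obtain ⟨z, hz, hzb⟩ := hPφ
  refine ⟨θ z, ?_, ?_⟩
  · apply hinj
    rw [map_zero, Polynomial.hom_eval₂]
    have : ι.comp (Int.castRingHom 𝒪) = Int.castRingHom ℂ := Subsingleton.elim _ _
    rw [this, hθ z hz]
    have := isRoot_of_mem_roots hz
    rw [IsRoot.def, hPc, eval_map] at this
    exact this
  · simp only [Function.comp_apply, Polynomial.map_sub, map_X, map_C, eval_sub, eval_X,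
      eval_C] at hzb
    exact (sub_eq_zero.mp hzb).symm

variable (ℓ : ℕ) [hℓ : Fact ℓ.Prime] [CharP kf ℓ]

/-- **The residue field embeds in `𝒪_𝔪 ⧸ (ℓ)`.** -/
theorem s48l_exists_resHom {F : Type*} [Field F] [Fintype F]
    (ι : 𝒪 →+* ℂ) (hinj : Function.Injective ι)
    (hsurj : ∀ z : ℂ, IsIntegral ℤ z → ∃ a : 𝒪, ι a = z) (j : F →+* kf) :
    ∃ c : F →+* (s48l_Loc φ ⧸ s48l_ellIdeal φ ℓ),
      ∀ y, s48l_psiQ φ (s48l_ellIdeal φ ℓ) (s48l_ellIdeal_le φ ℓ) (c y) = j y := by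
  classical
  haveI : CharP F ℓ := (RingHom.charP_iff_charP j ℓ).mpr inferInstance
  letI : Algebra (ZMod ℓ) F := ZMod.algebra F ℓ
  letI : Algebra (ZMod ℓ) kf := ZMod.algebra kf ℓ
  let pb : PowerBasis (ZMod ℓ) F := Field.powerBasisOfFiniteOfSeparable (ZMod ℓ) F
  have hmonic : (minpoly (ZMod ℓ) pb.gen).Monic :=
    minpoly.monic (Algebra.IsIntegral.isIntegral pb.gen)
  obtain ⟨g, hgmap, -, hgmonic⟩ := lifts_and_natDegree_eq_and_monic
    (mem_lifts_of_surjective (f := Int.castRingHom (ZMod ℓ))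
      (ZMod.ringHom_surjective (Int.castRingHom (ZMod ℓ))) (minpoly (ZMod ℓ) pb.gen)) hmonic
  -- `j pb.gen` is a root of `g`
  have hb : eval₂ (Int.castRingHom kf) (j pb.gen) g = 0 := by
    have h1 : Int.castRingHom kf =
        (j.comp (algebraMap (ZMod ℓ) F)).comp (Int.castRingHom (ZMod ℓ)) :=
      Subsingleton.elim _ _
    rw [h1, ← eval₂_map, hgmap, ← Polynomial.hom_eval₂, ← aeval_def, minpoly.aeval, map_zero]
  obtain ⟨θ, hθ0, hθφ⟩ := s48l_exists_root_lift φ ι hinj hsurj g hgmonic (j pb.gen) hb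
  letI : Algebra (ZMod ℓ) (s48l_Loc φ ⧸ s48l_ellIdeal φ ℓ) := (s48l_zmodToQuot φ ℓ).toAlgebra
  set y : s48l_Loc φ ⧸ s48l_ellIdeal φ ℓ :=
    Ideal.Quotient.mk (s48l_ellIdeal φ ℓ) (algebraMap 𝒪 (s48l_Loc φ) θ) with hy
  have hy0 : aeval y (minpoly (ZMod ℓ) pb.gen) = 0 := by
    rw [aeval_def, ← hgmap, eval₂_map]
    have h1 : (algebraMap (ZMod ℓ) (s48l_Loc φ ⧸ s48l_ellIdeal φ ℓ)).comp
        (Int.castRingHom (ZMod ℓ)) =
        ((Ideal.Quotient.mk (s48l_ellIdeal φ ℓ)).comp (algebraMap 𝒪 (s48l_Loc φ))).comp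
          (Int.castRingHom 𝒪) := Subsingleton.elim _ _
    rw [h1, hy]
    have h2 := Polynomial.hom_eval₂ g (Int.castRingHom 𝒪)
      ((Ideal.Quotient.mk (s48l_ellIdeal φ ℓ)).comp (algebraMap 𝒪 (s48l_Loc φ))) θ
    rw [hθ0, map_zero] at h2
    exact h2.symm
  refine ⟨(pb.lift y hy0).toRingHom, ?_⟩
  -- both sides are `ZMod ℓ`-algebra homomorphisms agreeing on the generator
  let f₁ : F →ₐ[ZMod ℓ] kf :=
    { (s48l_psiQ φ (s48l_ellIdeal φ ℓ) (s48l_ellIdeal_le φ ℓ)).comp (pb.lift y hy0).toRingHom with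
      commutes' := fun r => by
        have : ((s48l_psiQ φ (s48l_ellIdeal φ ℓ) (s48l_ellIdeal_le φ ℓ)).comp
            (pb.lift y hy0).toRingHom).comp (algebraMap (ZMod ℓ) F) = algebraMap (ZMod ℓ) kf :=
          Subsingleton.elim _ _
        exact congrArg (fun f : ZMod ℓ →+* kf => f r) this }
  let f₂ : F →ₐ[ZMod ℓ] kf :=
    { j with
      commutes' := fun r => by
        have : j.comp (algebraMap (ZMod ℓ) F) = algebraMap (ZMod ℓ) kf := Subsingleton.elim _ _
        exact congrArg (fun f : ZMod ℓ →+* kf => f r) this }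
  have hgen : f₁ pb.gen = f₂ pb.gen := by
    show s48l_psiQ φ (s48l_ellIdeal φ ℓ) (s48l_ellIdeal_le φ ℓ) (pb.lift y hy0 pb.gen) = j pb.gen
    rw [PowerBasis.lift_gen, hy, s48l_psiQ_mk, s48l_psi_algebraMap, hθφ]
  have hf : f₁ = f₂ := pb.algHom_ext hgen
  intro z
  exact congrArg (fun f : F →ₐ[ZMod ℓ] kf => f z) hf

end ResF

section Field

variable {kf : Type*} [Field kf] (ℓ : ℕ) [hℓ : Fact ℓ.Prime] [CharP kf ℓ]
variable {G : Type*} [Group G] [Fintype G]

/-- **Lifting to characteristic zero, finite residue field (DS §8.5).** `G` finite of order prime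
to `ℓ`, `F` a finite field with `j : F →+* k`, `ρ̄ : G → GL₂(F)`, and ANY residue map `φ` from the
ring of complex algebraic integers to `k` (a field of characteristic `ℓ`): there is
`ρ : G → GL₂(ℂ)` whose traces and determinants are algebraic integers reducing under `φ` to
(`j` of) those of `ρ̄`. -/
theorem s48l_lift_complex_field {F : Type*} [Field F] [Fintype F] (j : F →+* kf)
    (φ : integralClosure ℤ ℂ →+* kf) (hG : ¬ ℓ ∣ Fintype.card G)
    (ρbar : G →* GL (Fin 2) F) :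
    ∃ ρ : G →* GL (Fin 2) ℂ, ∀ g, ∃ t d : integralClosure ℤ ℂ,
      (t : ℂ) = ((ρ g : GL (Fin 2) ℂ) : Matrix (Fin 2) (Fin 2) ℂ).trace ∧
      (d : ℂ) = ((ρ g : GL (Fin 2) ℂ) : Matrix (Fin 2) (Fin 2) ℂ).det ∧
      φ t = j ((ρbar g : GL (Fin 2) F) : Matrix (Fin 2) (Fin 2) F).trace ∧
      φ d = j ((ρbar g : GL (Fin 2) F) : Matrix (Fin 2) (Fin 2) F).det := by
  obtain ⟨c, hc⟩ := s48l_exists_resHom φ ℓ
    (algebraMap (integralClosure ℤ ℂ) ℂ) Subtype.val_injective
    (fun z hz => ⟨⟨z, hz⟩, rfl⟩) j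
  obtain ⟨ρ, hρ⟩ := s48l_lift_complex_gen φ ℓ
    (algebraMap (integralClosure ℤ ℂ) ℂ) Subtype.val_injective
    (fun z hz => ⟨⟨z, hz⟩, rfl⟩) j c hc hG
    ((Units.coeHom (Matrix (Fin 2) (Fin 2) F)).comp ρbar)
  refine ⟨ρ.toHomUnits, fun g => ?_⟩
  obtain ⟨t, d, h1, h2, h3, h4⟩ := hρ g
  exact ⟨t, d, h1, h2, h3, h4⟩

end Field

end Fermat.Agent.Lib.S48
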