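/-
DS-1 (S48), Stage A, brick (D3) (helper7, prefix `s48r_`): **Abel summation** and the bound
`∑_{n ≤ M} b_n n^{-s} ≤ K (1 + 1/(s-1))` from a linear mean bound `∑_{n ≤ X} b_n ≤ K X`.
-/
import Mathlib

set_option autoImplicit false

noncomputable section

namespace Fermat.Agent.Lib.S48

open Finset

/-- If all partial sums of `c` are `≥ 0` and `w` is antitone and nonnegative, then
`∑_{n<M} c_n w_n ≥ (∑_{n<M} c_n) w_M ≥ 0`. -/
theorem s48r_abel_nonneg (c w : ℕ → ℝ) (hS : ∀ X, 0 ≤ ∑ n ∈ range X, c n)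
    (hw : Antitone w) (M : ℕ) :
    (∑ n ∈ range M, c n) * w M ≤ ∑ n ∈ range M, c n * w n := by
  induction M with
  | zero => simp
  | succ M ih =>
    rw [sum_range_succ, sum_range_succ (fun n => c n * w n)]
    have h1 : (∑ n ∈ range M, c n + c M) * w (M + 1) ≤ (∑ n ∈ range M, c n + c M) * w M := by
      refine mul_le_mul_of_nonneg_left (hw (Nat.le_succ M)) ?_
      have := hS (M + 1)
      rwa [sum_range_succ] at this
    have h2 : (∑ n ∈ range M, c n) * w M ≤ ∑ n ∈ range M, c n * w n := ih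
    nlinarith

/-- **Abel summation inequality**: `∑_{m ≤ X} b_m ≤ K X` for all `X` and `w` antitone, nonnegative
⇒ `∑_{n<M} b_{n+1} w_n ≤ K ∑_{n<M} w_n`. -/
theorem s48r_abel_le (b w : ℕ → ℝ) (K : ℝ)
    (hK : ∀ X : ℕ, ∑ n ∈ range X, b (n + 1) ≤ K * X)
    (hw : Antitone w) (hw0 : ∀ n, 0 ≤ w n) (M : ℕ) :
    ∑ n ∈ range M, b (n + 1) * w n ≤ K * ∑ n ∈ range M, w n := by
  have hS : ∀ X, 0 ≤ ∑ n ∈ range X, (K - b (n + 1)) := by
    intro X
    rw [sum_sub_distrib, sum_const, card_range, nsmul_eq_mul, mul_comm]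
    linarith [hK X]
  have h := s48r_abel_nonneg (fun n => K - b (n + 1)) w hS hw M
  have h0 : 0 ≤ (∑ n ∈ range M, (K - b (n + 1))) * w M := mul_nonneg (hS M) (hw0 M)
  have h1 : ∑ n ∈ range M, (K - b (n + 1)) * w n =
      K * ∑ n ∈ range M, w n - ∑ n ∈ range M, b (n + 1) * w n := by
    rw [mul_sum, ← sum_sub_distrib]
    exact sum_congr rfl fun n _ => by ring
  linarith

/-- `∑_{n<M} (n+1)^{-s} ≤ 1 + 1/(s-1)` for `s > 1`. -/
theorem s48r_zeta_partial_le {s : ℝ} (hs : 1 < s) (M : ℕ) :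
    ∑ n ∈ range M, ((n : ℝ) + 1) ^ (-s) ≤ 1 + 1 / (s - 1) := by
  have hs1 : 0 < s - 1 := by linarith
  rcases Nat.eq_zero_or_pos M with rfl | hM
  · simp only [range_zero, sum_empty]
    positivity
  obtain ⟨M, rfl⟩ : ∃ M', M = M' + 1 := ⟨M - 1, by omega⟩
  rw [sum_range_succ']
  have hanti : AntitoneOn (fun x : ℝ => x ^ (-s)) (Set.Icc ((1 : ℕ) : ℝ) ((M + 1 : ℕ) : ℝ)) := by
    intro x hx y hy hxy
    have hx0 : (0 : ℝ) < x := lt_of_lt_of_le (by norm_num) hx.1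
    exact Real.rpow_le_rpow_of_nonpos hx0 hxy (by linarith)
  have h1 := AntitoneOn.sum_le_integral_Ico (f := fun x : ℝ => x ^ (-s))
    (a := 1) (b := M + 1) (by omega) hanti
  have hM1 : (0 : ℝ) < ((M + 1 : ℕ) : ℝ) := by positivity
  have h2 : ∫ x in ((1 : ℕ) : ℝ)..((M + 1 : ℕ) : ℝ), x ^ (-s) ≤ 1 / (s - 1) := by
    rw [integral_rpow (Or.inr ⟨by linarith, by
      rw [Set.uIcc_of_le (by push_cast; linarith)]
      intro h
      have := h.1
      norm_num at this⟩)]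
    have h3 : (0 : ℝ) ≤ ((M + 1 : ℕ) : ℝ) ^ (-s + 1) := Real.rpow_nonneg hM1.le _
    have h4 : ((1 : ℕ) : ℝ) ^ (-s + 1) = 1 := by simp
    rw [h4]
    have h5 : (((M + 1 : ℕ) : ℝ) ^ (-s + 1) - 1) / (-s + 1) =
        (1 - ((M + 1 : ℕ) : ℝ) ^ (-s + 1)) / (s - 1) := by
      have : -s + 1 = -(s - 1) := by ring
      rw [this, div_neg, ← neg_div, neg_sub]
    rw [h5]
    exact div_le_div_of_nonneg_right (by linarith) hs1.le
  have h6 : ∑ i ∈ range M, (((i + 1 : ℕ) : ℝ) + 1) ^ (-s) =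
      ∑ i ∈ Ico 1 (M + 1), ((i + 1 : ℕ) : ℝ) ^ (-s) := by
    rw [sum_Ico_eq_sum_range]
    refine sum_congr (by simp) fun i _ => ?_
    congr 1
    push_cast
    ring
  rw [h6]
  have h7 : (((0 : ℕ) : ℝ) + 1) ^ (-s) = 1 := by simp
  rw [h7]
  have h8 : ∑ i ∈ Ico 1 (M + 1), ((i + 1 : ℕ) : ℝ) ^ (-s) ≤ 1 / (s - 1) := le_trans h1 h2
  linarith

end Fermat.Agent.Lib.S48
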