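/-
DS-1 (S48), Stage A, brick (D5) (helper7, prefix `s48r_`): **(D5c)** a two-dimensional complex
representation of a finite group with an invariant line has `∑_g |tr ρ(g)|² ≥ 2 |G|`
(no Maschke needed: `tr ρ(g) = c(g) + det ρ(g) / c(g)` for the eigen-character `c` of the line).
-/
import Mathlib

set_option autoImplicit false

noncomputable section

namespace Fermat.Agent.Lib.S48

open Finset Matrix

/-- trace of a `2 × 2` matrix with an eigenvector: `tr A · c = c² + det A`. -/
lemma s48r_trace_of_eigen (A : Matrix (Fin 2) (Fin 2) ℂ) (w : Fin 2 → ℂ) (hw : w ≠ 0) (c : ℂ)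
    (h : A *ᵥ w = c • w) : A.trace * c = c ^ 2 + A.det := by
  have h0 : (A - c • (1 : Matrix (Fin 2) (Fin 2) ℂ)).det = 0 := by
    rw [← Matrix.exists_mulVec_eq_zero_iff]
    refine ⟨w, hw, ?_⟩
    rw [Matrix.sub_mulVec, h, Matrix.smul_mulVec, Matrix.one_mulVec, sub_self]
  rw [Matrix.det_fin_two] at h0
  rw [Matrix.trace_fin_two, Matrix.det_fin_two]
  simp only [Matrix.sub_apply, Matrix.smul_apply, Matrix.one_apply_eq, smul_eq_mul, mul_one,
    Matrix.one_apply_ne (show (0 : Fin 2) ≠ 1 by decide),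
    Matrix.one_apply_ne (show (1 : Fin 2) ≠ 0 by decide), mul_zero, sub_zero] at h0
  linear_combination (-1 : ℂ) * h0

variable {G : Type*} [Group G] [Fintype G]

/-- the sum of a character `G → ℂˣ` over a finite group has nonnegative real part. -/
lemma s48r_sum_hom_re_nonneg (θ : G →* ℂˣ) : 0 ≤ (∑ g : G, (θ g : ℂ)).re := by
  classical
  by_cases hθ : θ = 1
  · subst hθ
    simp
  · have h0 : ∑ g : G, (θ g : ℂ) = 0 := by
      have := sum_hom_units_eq_zero ((Units.coeHom ℂ).comp θ) (by
        intro h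
        apply hθ
        ext g
        have := congrArg (fun f : G →* ℂ => f g) h
        simpa using this)
      simpa using this
    rw [h0]
    simp

/-- **(D5c)**: an invariant line forces `∑_g |tr ρ(g)|² ≥ 2 |G|`. -/
theorem s48r_two_le_of_invariant_line (ρ : G →* GL (Fin 2) ℂ) (w : Fin 2 → ℂ) (hw : w ≠ 0)
    (hline : ∀ g : G, ∃ c : ℂ, (ρ g).val *ᵥ w = c • w) :
    2 * (Fintype.card G : ℝ) ≤ ∑ g : G, ‖(ρ g).val.trace‖ ^ 2 := by
  classical
  choose c hc using hline
  have hcard : Fintype.card G ≠ 0 := Fintype.card_ne_zero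
  -- `c` is multiplicative
  have hc1 : c 1 = 1 := by
    have h := hc 1
    rw [map_one, Units.val_one, Matrix.one_mulVec] at h
    by_contra hne
    apply hw
    have : (1 - c 1) • w = 0 := by rw [sub_smul, one_smul, ← h, sub_self]
    rcases smul_eq_zero.mp this with h1 | h1
    · exact absurd (sub_eq_zero.mp h1).symm hne
    · exact h1
  have hcmul : ∀ g h : G, c (g * h) = c g * c h := by
    intro g h
    have h1 := hc (g * h)
    rw [map_mul, Units.val_mul, ← Matrix.mulVec_mulVec, hc h, Matrix.mulVec_smul, hc g,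
      smul_smul] at h1
    by_contra hne
    apply hw
    have : (c h * c g - c (g * h)) • w = 0 := by rw [sub_smul, h1, sub_self]
    rcases smul_eq_zero.mp this with h2 | h2
    · exact absurd (by rw [← sub_eq_zero.mp h2, mul_comm]) hne
    · exact h2
  have hcpow : ∀ g : G, c g ^ Fintype.card G = 1 := by
    intro g
    have hpow : ∀ n : ℕ, c (g ^ n) = c g ^ n := by
      intro n
      induction n with
      | zero => simpa using hc1
      | succ n ih => rw [pow_succ, hcmul, ih, pow_succ]
    rw [← hpow, pow_card_eq_one, hc1]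
  have hcnorm : ∀ g : G, ‖c g‖ = 1 := fun g =>
    Complex.norm_eq_one_of_pow_eq_one (hcpow g) hcard
  have hc0 : ∀ g : G, c g ≠ 0 := fun g h => by
    have := hcnorm g
    rw [h, norm_zero] at this
    exact zero_ne_one this
  -- the characters as homs to `ℂˣ`
  let cU : G →* ℂˣ :=
    { toFun := fun g => Units.mk0 (c g) (hc0 g)
      map_one' := by ext; simpa using hc1
      map_mul' := fun g h => by ext; simpa using hcmul g h }
  let dU : G →* ℂˣ := Matrix.GeneralLinearGroup.det.comp ρ
  have hdU : ∀ g : G, ((dU g : ℂˣ) : ℂ) = (ρ g).val.det := fun g => rfl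
  have hdnorm : ∀ g : G, ‖(ρ g).val.det‖ = 1 := by
    intro g
    have : (dU g) ^ Fintype.card G = 1 := by rw [← map_pow, pow_card_eq_one, map_one]
    have h2 : ((dU g : ℂˣ) : ℂ) ^ Fintype.card G = 1 := by
      rw [← Units.val_pow_eq_pow_val, this, Units.val_one]
    rw [← hdU]
    exact Complex.norm_eq_one_of_pow_eq_one h2 hcard
  -- `θ = c² / det`
  let θ : G →* ℂˣ := cU * cU * dU⁻¹
  have hθ : ∀ g : G, ((θ g : ℂˣ) : ℂ) = c g * c g * ((ρ g).val.det)⁻¹ := by
    intro g
    simp [θ, cU, dU]
  -- the trace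
  have htr : ∀ g : G, (ρ g).val.trace = c g + (ρ g).val.det / c g := by
    intro g
    have := s48r_trace_of_eigen (ρ g).val w hw (c g) (hc g)
    field_simp [hc0 g]
    linear_combination this
  have hnormsq : ∀ g : G, ‖(ρ g).val.trace‖ ^ 2 = 2 + 2 * ((θ g : ℂˣ) : ℂ).re := by
    intro g
    have hd := hdnorm g
    have hcg := hcnorm g
    rw [htr, hθ]
    generalize c g = x at hcg ⊢
    generalize (ρ g).val.det = d at hd ⊢
    have hd0 : d ≠ 0 := fun h => by rw [h, norm_zero] at hd; exact zero_ne_one hd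
    have hx0 : x ≠ 0 := fun h => by rw [h, norm_zero] at hcg; exact zero_ne_one hcg
    rw [← Complex.normSq_eq_norm_sq, Complex.normSq_add, Complex.normSq_eq_norm_sq,
      Complex.normSq_eq_norm_sq, hcg, norm_div, hd, hcg]
    have hconj : (starRingEnd ℂ) (d / x) = x / d := by
      rw [map_div₀, ← Complex.inv_eq_conj hd, ← Complex.inv_eq_conj hcg]
      field_simp
    rw [hconj]
    have : x * (x / d) = x * x * d⁻¹ := by field_simp
    rw [this]
    norm_num
  calc 2 * (Fintype.card G : ℝ) ≤ 2 * (Fintype.card G : ℝ) + 2 * (∑ g : G, ((θ g : ℂˣ) : ℂ)).re := by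
        have := s48r_sum_hom_re_nonneg θ
        linarith
    _ = ∑ g : G, ‖(ρ g).val.trace‖ ^ 2 := by
        rw [Complex.re_sum, mul_sum]
        simp_rw [hnormsq]
        rw [sum_add_distrib, sum_const, card_univ, nsmul_eq_mul]
        ring

end Fermat.Agent.Lib.S48
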