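/-
DS-1 (S48), Stage A, brick (D5) (helper7, prefix `s48r_`): **irreducibility from the Rankin bound and
Chebotarev** (abstract form).  `G` finite, `ρ : G →* GL₂(ℂ)`, `Fr p ∈ G` a Frobenius element at `p ∈ Pr`,
`b_p = |tr ρ(Fr p)|²` satisfies the elementary Rankin bound, and every conjugacy class `κ` is hit by a set of
primes of lower Dirichlet density `≥ |κ|/|G|`.  Then `ρ` has no invariant line.
-/
import Fermat.Agent.Lib.S48.RDensity
import Fermat.Agent.Lib.S48.RChar

set_option autoImplicit false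
set_option linter.unusedSectionVars false

noncomputable section

namespace Fermat.Agent.Lib.S48

open Finset Matrix

variable {G : Type*} [Group G] [Fintype G] [DecidableEq (ConjClasses G)]

/-- the number of elements of a conjugacy class. -/
def s48r_classCard (κ : ConjClasses G) : ℕ := (univ.filter fun g : G => ConjClasses.mk g = κ).card

lemma s48r_trace_conj (ρ : G →* GL (Fin 2) ℂ) {g h : G} (hgh : ConjClasses.mk g = ConjClasses.mk h) :
    (ρ g).val.trace = (ρ h).val.trace := by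
  rw [ConjClasses.mk_eq_mk_iff_isConj, isConj_iff] at hgh
  obtain ⟨c, hc⟩ := hgh
  rw [← hc, map_mul, map_mul, Units.val_mul, Units.val_mul, Matrix.trace_mul_comm, ← Matrix.mul_assoc,
    ← Units.val_mul, ← map_mul, inv_mul_cancel, map_one, Units.val_one, Matrix.one_mul]

/-- **(D5)**: Rankin + Chebotarev ⇒ `∑_g |tr ρ(g)|² ≤ |G|`. -/
theorem s48r_sum_trace_sq_le {b : ℕ → ℝ} {Pr : Set ℕ} (hR : s48r_RankinProp b Pr)
    (ρ : G →* GL (Fin 2) ℂ) (Fr : ℕ → G)
    (hb : ∀ p ∈ Pr, ‖(ρ (Fr p)).val.trace‖ ^ 2 ≤ b p)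
    (hdens : ∀ κ : ConjClasses G,
      s48r_LowerDensity {p | p ∈ Pr ∧ ConjClasses.mk (Fr p) = κ}
        ((s48r_classCard κ : ℝ) / Fintype.card G)) :
    ∑ g : G, ‖(ρ g).val.trace‖ ^ 2 ≤ Fintype.card G := by
  classical
  have hG : (0 : ℝ) < Fintype.card G := by exact_mod_cast Fintype.card_pos
  set v : ConjClasses G → ℝ := fun κ => ‖(ρ (Quotient.out κ)).val.trace‖ ^ 2 with hv
  have hvg : ∀ g : G, v (ConjClasses.mk g) = ‖(ρ g).val.trace‖ ^ 2 := by
    intro g
    rw [hv]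
    simp only
    rw [s48r_trace_conj ρ (g := Quotient.out (ConjClasses.mk g)) (h := g)
      (Quotient.out_eq (ConjClasses.mk g))]
  have h1 := s48r_density_le_one hR
    (fun κ : ConjClasses G => {p | p ∈ Pr ∧ ConjClasses.mk (Fr p) = κ})
    (fun κ κ' hne => by
      rw [Set.disjoint_left]
      rintro p ⟨_, h1⟩ ⟨_, h2⟩
      exact hne (h1.symm.trans h2))
    (fun κ p hp => hp.1)
    (fun κ => (s48r_classCard κ : ℝ) / Fintype.card G) v
    (fun κ => by rw [hv]; positivity)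
    (fun κ p hp => by
      rw [← hp.2, hvg]
      exact hb p hp.1)
    hdens
  have h2 : ∑ g : G, ‖(ρ g).val.trace‖ ^ 2 = ∑ κ : ConjClasses G, (s48r_classCard κ : ℝ) * v κ := by
    have : ∑ g : G, ‖(ρ g).val.trace‖ ^ 2 = ∑ g : G, v (ConjClasses.mk g) :=
      sum_congr rfl fun g _ => (hvg g).symm
    rw [this, ← sum_fiberwise (s := univ) (g := fun g : G => ConjClasses.mk g)]
    refine sum_congr rfl fun κ _ => ?_
    rw [sum_congr rfl (fun g hg => by rw [(mem_filter.mp hg).2] : ∀ g ∈ univ.filter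
      (fun g : G => ConjClasses.mk g = κ), v (ConjClasses.mk g) = v κ), sum_const, nsmul_eq_mul]
    rfl
  rw [h2]
  have h3 : ∑ κ : ConjClasses G, (s48r_classCard κ : ℝ) / Fintype.card G * v κ =
      (∑ κ : ConjClasses G, (s48r_classCard κ : ℝ) * v κ) / Fintype.card G := by
    rw [sum_div]
    exact sum_congr rfl fun κ _ => by ring
  rw [h3, div_le_one hG] at h1
  exact h1

/-- **(D5)**: Rankin + Chebotarev ⇒ `ρ` has no invariant line. -/
theorem s48r_no_invariant_line {b : ℕ → ℝ} {Pr : Set ℕ} (hR : s48r_RankinProp b Pr)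
    (ρ : G →* GL (Fin 2) ℂ) (Fr : ℕ → G)
    (hb : ∀ p ∈ Pr, ‖(ρ (Fr p)).val.trace‖ ^ 2 ≤ b p)
    (hdens : ∀ κ : ConjClasses G,
      s48r_LowerDensity {p | p ∈ Pr ∧ ConjClasses.mk (Fr p) = κ}
        ((s48r_classCard κ : ℝ) / Fintype.card G))
    (w : Fin 2 → ℂ) (hw : w ≠ 0) : ¬ ∀ g : G, ∃ c : ℂ, (ρ g).val *ᵥ w = c • w := by
  intro hline
  have h1 := s48r_two_le_of_invariant_line ρ w hw hline
  have h2 := s48r_sum_trace_sq_le hR ρ Fr hb hdens
  have hG : (0 : ℝ) < Fintype.card G := by exact_mod_cast Fintype.card_pos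
  linarith

end Fermat.Agent.Lib.S48
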