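/-
DS-1 (S48), Stage A, brick (D3) (helper7, prefix `s48r_`): **the mean-square bound**
`∑_{n ≤ x} |a_n|² ≤ e^{4π} C² x^{2e}` for the `q`-expansion coefficients of a `1`-periodic holomorphic
function on `ℍ`, bounded at `i∞`, with `‖f τ‖ ≤ C / (im τ)^e` (a weight-`k` cusp form has `e = k/2`):
Parseval on the horizontal segment `[it, 1 + it]`, `t = 1/x`.
-/
import Mathlib

set_option autoImplicit false

noncomputable section

namespace Fermat.Agent.Lib.S48

open UpperHalfPlane Complex MeasureTheory Function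
open scoped Real Manifold

local notation "𝕢" => Function.Periodic.qParam

/-- the restriction of `f` to the horizontal line of height `t`. -/
def s48r_line (f : ℍ → ℂ) (t : ℝ) (x : ℝ) : ℂ :=
  f (ofComplex ((x : ℂ) + t * Complex.I))

lemma s48r_line_eq (f : ℍ → ℂ) {t : ℝ} (ht : 0 < t) (x : ℝ) :
    s48r_line f t x = f ⟨(x : ℂ) + t * Complex.I, by simpa using ht⟩ := by
  unfold s48r_line
  rw [ofComplex_apply_of_im_pos]

lemma s48r_line_continuous {f : ℍ → ℂ} (hf : Continuous f) {t : ℝ} (ht : 0 < t) :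
    Continuous (s48r_line f t) := by
  have h1 : Continuous fun x : ℝ => (⟨(x : ℂ) + t * Complex.I, by simpa using ht⟩ : ℍ) := by
    rw [UpperHalfPlane.isEmbedding_coe.continuous_iff]
    show Continuous fun x : ℝ => (x : ℂ) + t * Complex.I
    fun_prop
  have : s48r_line f t = fun x : ℝ => f ⟨(x : ℂ) + t * Complex.I, by simpa using ht⟩ :=
    funext (s48r_line_eq f ht)
  rw [this]
  exact hf.comp h1

/-- the `n`-th `q`-coefficient is `e^{2πnt}` times the `n`-th Fourier coefficient on the line of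
height `t`. -/
lemma s48r_coeff_eq {f : ℍ → ℂ} (hper : Periodic (f ∘ ofComplex) (1 : ℝ)) (hhol : MDiff f)
    (hbdd : IsBoundedAtImInfty f) (n : ℕ) {t : ℝ} (ht : 0 < t) :
    (qExpansion 1 f).coeff n =
      Real.exp (2 * π * n * t) * fourierCoeffOn zero_lt_one (s48r_line f t) n := by
  rw [qExpansion_coeff_eq_intervalIntegral zero_lt_one (by simpa using hper) hhol hbdd n ht,
    fourierCoeffOn_eq_integral]
  simp only [sub_zero, div_one, one_smul, one_mul, ofReal_one, UpperHalfPlane.coe_I]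
  rw [← intervalIntegral.integral_const_mul]
  refine intervalIntegral.integral_congr fun u _ => ?_
  rw [s48r_line_eq f ht, fourier_coe_apply, smul_eq_mul, ← mul_assoc]
  congr 1
  rw [Function.Periodic.qParam, ← Complex.exp_nat_mul, one_div, ← Complex.exp_neg, ofReal_exp,
    ← Complex.exp_add]
  congr 1
  push_cast
  ring_nf
  rw [Complex.I_sq]
  ring

/-- **Bessel/Parseval on the line of height `t`**: `∑_{n<M} |a_n|² e^{-4πnt} ≤ (C/t^e)²`. -/
theorem s48r_sum_exp_le {f : ℍ → ℂ} (hper : Periodic (f ∘ ofComplex) (1 : ℝ)) (hhol : MDiff f)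
    (hbdd : IsBoundedAtImInfty f) {C e : ℝ} (hC : ∀ τ : ℍ, ‖f τ‖ ≤ C / τ.im ^ e)
    {t : ℝ} (ht : 0 < t) (M : ℕ) :
    ∑ n ∈ Finset.range M, ‖(qExpansion 1 f).coeff n‖ ^ 2 * Real.exp (-(4 * π * n * t)) ≤
      (C / t ^ e) ^ 2 := by
  set g := s48r_line f t with hg
  set B : ℝ := C / t ^ e with hB
  have hgB : ∀ x, ‖g x‖ ≤ B := by
    intro x
    rw [hg, s48r_line_eq f ht]
    have := hC ⟨(x : ℂ) + t * Complex.I, by simpa using ht⟩
    simpa [UpperHalfPlane.im] using this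
  have hB0 : 0 ≤ B := (norm_nonneg _).trans (hgB 0)
  have hgc : Continuous g := s48r_line_continuous hhol.continuous ht
  have hmem : MemLp g 2 (volume.restrict (Set.Ioc (0 : ℝ) 1)) :=
    MemLp.of_bound hgc.aestronglyMeasurable B (Filter.Eventually.of_forall hgB)
  have hpars := hasSum_sq_fourierCoeffOn zero_lt_one hmem
  have hint : ((1 : ℝ) - 0)⁻¹ • ∫ x in (0 : ℝ)..1, ‖g x‖ ^ 2 ≤ B ^ 2 := by
    simp only [sub_zero, inv_one, one_smul]
    have h1 : ∀ x ∈ Set.uIoc (0 : ℝ) 1, ‖‖g x‖ ^ 2‖ ≤ B ^ 2 := by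
      intro x _
      rw [Real.norm_of_nonneg (by positivity)]
      exact pow_le_pow_left₀ (norm_nonneg _) (hgB x) 2
    have h2 := intervalIntegral.norm_integral_le_of_norm_le_const h1
    simp only [sub_zero, abs_one, mul_one] at h2
    exact (Real.le_norm_self _).trans h2
  have hsum : ∑ n ∈ Finset.range M, ‖fourierCoeffOn zero_lt_one g (n : ℤ)‖ ^ 2 ≤
      ((1 : ℝ) - 0)⁻¹ • ∫ x in (0 : ℝ)..1, ‖g x‖ ^ 2 := by
    have := sum_le_hasSum ((Finset.range M).map Nat.castEmbedding)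
      (fun i _ => by positivity) hpars
    simpa [Finset.sum_map] using this
  refine le_trans (le_of_eq ?_) (hsum.trans hint)
  refine Finset.sum_congr rfl fun n _ => ?_
  rw [s48r_coeff_eq hper hhol hbdd n ht, norm_mul, mul_pow, Complex.norm_real,
    Real.norm_of_nonneg (Real.exp_pos _).le, mul_comm, ← mul_assoc, ← Real.exp_nat_mul,
    ← Real.exp_add]
  have : -(4 * π * ↑n * t) + ((2 : ℕ) : ℝ) * (2 * π * ↑n * t) = 0 := by push_cast; ring
  rw [this, Real.exp_zero, one_mul]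

/-- **the mean-square bound**: `∑_{n ≤ X} |a_n|² ≤ e^{4π} C² X^{2e}` for `X ≥ 1`. -/
theorem s48r_mean_square {f : ℍ → ℂ} (hper : Periodic (f ∘ ofComplex) (1 : ℝ)) (hhol : MDiff f)
    (hbdd : IsBoundedAtImInfty f) {C e : ℝ} (hC : ∀ τ : ℍ, ‖f τ‖ ≤ C / τ.im ^ e)
    (X : ℕ) (hX : 1 ≤ X) :
    ∑ n ∈ Finset.range (X + 1), ‖(qExpansion 1 f).coeff n‖ ^ 2 ≤
      Real.exp (4 * π) * C ^ 2 * (X : ℝ) ^ (2 * e) := by
  have hX0 : (0 : ℝ) < X := by exact_mod_cast hX
  have ht : (0 : ℝ) < 1 / X := by positivity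
  have h1 := s48r_sum_exp_le hper hhol hbdd hC ht (X + 1)
  have h2 : Real.exp (-(4 * π)) * ∑ n ∈ Finset.range (X + 1), ‖(qExpansion 1 f).coeff n‖ ^ 2 ≤
      ∑ n ∈ Finset.range (X + 1), ‖(qExpansion 1 f).coeff n‖ ^ 2 *
        Real.exp (-(4 * π * n * (1 / X))) := by
    rw [Finset.mul_sum]
    refine Finset.sum_le_sum fun n hn => ?_
    rw [mul_comm]
    refine mul_le_mul_of_nonneg_left ?_ (by positivity)
    rw [Real.exp_le_exp, neg_le_neg_iff]
    have hn' : (n : ℝ) ≤ X := by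
      exact_mod_cast Nat.lt_succ_iff.mp (Finset.mem_range.mp hn)
    have : 4 * π * n * (1 / X) = 4 * π * (n / X) := by ring
    rw [this]
    have : (n : ℝ) / X ≤ 1 := (div_le_one hX0).mpr hn'
    nlinarith [Real.pi_pos]
  have h3 : (C / (1 / (X : ℝ)) ^ e) ^ 2 = C ^ 2 * (X : ℝ) ^ (2 * e) := by
    rw [one_div, Real.inv_rpow hX0.le, div_inv_eq_mul, mul_pow, ← Real.rpow_natCast ((X : ℝ) ^ e),
      ← Real.rpow_mul hX0.le]
    congr 2
    push_cast
    ring
  have h4 := h2.trans (h1.trans_eq h3)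
  have h5 : Real.exp (4 * π) * Real.exp (-(4 * π)) = 1 := by
    rw [← Real.exp_add]; simp
  calc ∑ n ∈ Finset.range (X + 1), ‖(qExpansion 1 f).coeff n‖ ^ 2
      = Real.exp (4 * π) * (Real.exp (-(4 * π)) *
          ∑ n ∈ Finset.range (X + 1), ‖(qExpansion 1 f).coeff n‖ ^ 2) := by
        rw [← mul_assoc, h5, one_mul]
    _ ≤ Real.exp (4 * π) * (C ^ 2 * (X : ℝ) ^ (2 * e)) :=
        mul_le_mul_of_nonneg_left h4 (Real.exp_pos _).le
    _ = _ := by ring

end Fermat.Agent.Lib.S48
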