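/-
DS-1 (S48), Stage A, brick (D3) (helper7, prefix `s48r_`): the mean-square bound for cusp forms on
`Γ₁(N)`: `∑_{n ≤ X} |a_n|² ≤ K · X^k` (`a_n = ModularFormClass.qCoeff f n`, Prelude).
-/
import Fermat.Agent.Lib.S48.RMean
import Fermat.Prelude.Def_FLTPrelim_Modularity

set_option autoImplicit false

noncomputable section

namespace Fermat.Agent.Lib.S48

open UpperHalfPlane Complex MeasureTheory Function CongruenceSubgroup
open scoped Real Manifold MatrixGroups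

lemma s48r_one_mem_strictPeriods_Gamma1 (N : ℕ) :
    (1 : ℝ) ∈ ((Gamma1 N : Subgroup SL(2, ℤ)) : Subgroup (GL (Fin 2) ℝ)).strictPeriods := by
  have hT : ModularGroup.T ∈ Gamma1 N := by
    rw [Gamma1_mem]
    simp [ModularGroup.T]
  rw [Subgroup.strictPeriods_eq_zmultiples_one_of_T_mem hT]
  exact AddSubgroup.mem_zmultiples (1 : ℝ)

/-- **mean-square bound for cusp forms on `Γ₁(N)`** (weight `k`): `∑_{n ≤ X} |a_n|² ≤ K X^k`. -/
theorem s48r_mean_square_Gamma1 (N : ℕ) [NeZero N] (k : ℤ) (f : CuspForm (Gamma1 N) k) :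
    ∃ K : ℝ, 0 ≤ K ∧ ∀ X : ℕ, 1 ≤ X →
      ∑ n ∈ Finset.range (X + 1), ‖ModularFormClass.qCoeff f n‖ ^ 2 ≤ K * (X : ℝ) ^ (k : ℝ) := by
  obtain ⟨C, hC⟩ := CuspFormClass.exists_bound f
  have hΓ := s48r_one_mem_strictPeriods_Gamma1 N
  have hper : Periodic ((f : ℍ → ℂ) ∘ ofComplex) (1 : ℝ) :=
    SlashInvariantFormClass.periodic_comp_ofComplex f hΓ
  have hhol : MDiff (f : ℍ → ℂ) := ModularFormClass.holo f
  have hbdd : IsBoundedAtImInfty (f : ℍ → ℂ) := ModularFormClass.bdd_at_infty f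
  refine ⟨Real.exp (4 * π) * C ^ 2, by positivity, fun X hX => ?_⟩
  have := s48r_mean_square hper hhol hbdd hC X hX
  have h2 : (2 : ℝ) * ((k : ℝ) / 2) = k := by ring
  rw [h2] at this
  exact this

end Fermat.Agent.Lib.S48
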