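/-
DS-1 (S48), Stage A, brick (D3) (helper7, prefix `s48r_`): **the elementary Rankin bound**.
From a linear mean bound `∑_{m ≤ X} b_m ≤ K X` for a nonnegative sequence `b` which is multiplicative
along a set `Pr` of primes (`b (p n) = b p · b n` for `p ∈ Pr`, `p ∤ n`):
`∏_{p ∈ P} (1 + b_p p^{-s}) ≤ K (1 + 1/(s-1))` for every finite `P ⊆ Pr` and `s > 1`
(no exact Euler factor is needed), and its consequences
* (e1) `b_p ≤ B` on `Pr` ⇒ `∑_{p ∈ P} b_p p^{-s} ≤ log (1/(s-1)) + C` for `1 < s ≤ 2`;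
* (e2) `∑_{p ∈ P, b_p ≥ c} p^{-s} ≤ (1/c) (log (1/(s-1)) + C_c)` (Deligne–Serre, Prop. 5.5).
-/
import Fermat.Agent.Lib.S48.RAbel

set_option autoImplicit false

noncomputable section

namespace Fermat.Agent.Lib.S48

open Finset

section

variable {b : ℕ → ℝ} {Pr : Set ℕ}

/-- multiplicativity along squarefree products of primes of `Pr`. -/
theorem s48r_prod_eq (hb1 : b 1 = 1) (hPr : ∀ p ∈ Pr, p.Prime)
    (hmul : ∀ p ∈ Pr, ∀ n : ℕ, ¬ p ∣ n → b (p * n) = b p * b n)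
    (t : Finset ℕ) (ht : ∀ p ∈ t, p ∈ Pr) : b (∏ p ∈ t, p) = ∏ p ∈ t, b p := by
  classical
  induction t using Finset.induction_on with
  | empty => simpa using hb1
  | insert p t hpt ih =>
    have htp : ∀ q ∈ t, q ∈ Pr := fun q hq => ht q (mem_insert_of_mem hq)
    have hp : p.Prime := hPr p (ht p (mem_insert_self p t))
    rw [prod_insert hpt, prod_insert hpt, ← ih htp]
    refine hmul p (ht p (mem_insert_self p t)) _ ?_
    intro hdvd
    rw [Prime.dvd_finsetProd_iff hp.prime] at hdvd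
    obtain ⟨q, hq, hpq⟩ := hdvd
    have hq' : q.Prime := hPr q (htp q hq)
    have : p = q := (Nat.prime_dvd_prime_iff_eq hp hq').mp hpq
    exact hpt (this ▸ hq)

/-- **the squarefree Euler product is dominated by the Dirichlet series**, in finite form. -/
theorem s48r_prod_le (hb0 : ∀ n, 0 ≤ b n) (hb1 : b 1 = 1) (hPr : ∀ p ∈ Pr, p.Prime)
    (hmul : ∀ p ∈ Pr, ∀ n : ℕ, ¬ p ∣ n → b (p * n) = b p * b n)
    {K : ℝ} (hK : ∀ X : ℕ, ∑ n ∈ range X, b (n + 1) ≤ K * X)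
    (P : Finset ℕ) (hP : ∀ p ∈ P, p ∈ Pr) {s : ℝ} (hs : 1 < s) :
    ∏ p ∈ P, (1 + b p * (p : ℝ) ^ (-s)) ≤ K * (1 + 1 / (s - 1)) := by
  classical
  set g : ℕ → ℝ := fun n => b n * (n : ℝ) ^ (-s) with hg
  have hg0 : ∀ n, 0 ≤ g n := fun n =>
    mul_nonneg (hb0 n) (Real.rpow_nonneg (Nat.cast_nonneg n) _)
  -- expand the product
  have h1 : ∏ p ∈ P, (1 + b p * (p : ℝ) ^ (-s)) = ∑ t ∈ P.powerset, g (∏ p ∈ t, p) := by
    rw [prod_one_add]
    refine sum_congr rfl fun t ht => ?_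
    have htP : ∀ p ∈ t, p ∈ Pr := fun p hp => hP p (mem_powerset.mp ht hp)
    rw [hg]
    simp only
    rw [s48r_prod_eq hb1 hPr hmul t htP, prod_mul_distrib, Nat.cast_prod]
    congr 1
    rw [Real.finsetProd_rpow _ _ (fun p _ => Nat.cast_nonneg p)]
  set D : ℕ := ∏ p ∈ P, p with hD
  have hprime : ∀ t ∈ P.powerset, ∀ p ∈ t, p.Prime := fun t ht p hp =>
    hPr p (hP p (mem_powerset.mp ht hp))
  have hinj : Set.InjOn (fun t : Finset ℕ => ∏ p ∈ t, p) (P.powerset : Set (Finset ℕ)) := by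
    intro t ht t' ht' h
    have e1 := Nat.primeFactors_prod (hprime t ht)
    have e2 := Nat.primeFactors_prod (hprime t' ht')
    simp only at h
    rw [← e1, ← e2, h]
  have h2 : ∑ t ∈ P.powerset, g (∏ p ∈ t, p) =
      ∑ d ∈ P.powerset.image (fun t : Finset ℕ => ∏ p ∈ t, p), g d :=
    (sum_image hinj).symm
  have hsub : P.powerset.image (fun t : Finset ℕ => ∏ p ∈ t, p) ⊆
      (range D).image (fun n => n + 1) := by
    intro d hd
    obtain ⟨t, ht, rfl⟩ := mem_image.mp hd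
    have htP := mem_powerset.mp ht
    have hpos : 0 < ∏ p ∈ t, p := prod_pos fun p hp => (hprime t ht p hp).pos
    have hle : ∏ p ∈ t, p ≤ D :=
      Nat.le_of_dvd (prod_pos fun p hp => (hPr p (hP p hp)).pos) (prod_dvd_prod_of_subset _ _ _ htP)
    refine mem_image.mpr ⟨∏ p ∈ t, p - 1, mem_range.mpr (by omega), by omega⟩
  have h3 : ∑ d ∈ P.powerset.image (fun t : Finset ℕ => ∏ p ∈ t, p), g d ≤
      ∑ d ∈ (range D).image (fun n => n + 1), g d :=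
    sum_le_sum_of_subset_of_nonneg hsub fun d _ _ => hg0 d
  have h4 : ∑ d ∈ (range D).image (fun n => n + 1), g d = ∑ n ∈ range D, g (n + 1) :=
    sum_image fun x _ y _ h => by simpa using h
  have hw : Antitone fun n : ℕ => ((n : ℝ) + 1) ^ (-s) := by
    intro m n hmn
    have hm0 : (0 : ℝ) < (m : ℝ) + 1 := by positivity
    exact Real.rpow_le_rpow_of_nonpos hm0 (by exact_mod_cast Nat.succ_le_succ hmn) (by linarith)
  have h5 : ∑ n ∈ range D, g (n + 1) ≤ K * ∑ n ∈ range D, ((n : ℝ) + 1) ^ (-s) := by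
    have := s48r_abel_le b (fun n : ℕ => ((n : ℝ) + 1) ^ (-s)) K hK hw
      (fun n => Real.rpow_nonneg (by positivity) _) D
    refine le_trans (le_of_eq (sum_congr rfl fun n _ => ?_)) this
    rw [hg]
    simp
  have hK0 : 0 ≤ K := by
    have := hK 1
    simp only [range_one, sum_singleton, zero_add, Nat.cast_one, mul_one] at this
    rw [hb1] at this
    linarith
  rw [h1, h2]
  exact (h3.trans h4.le).trans
    (h5.trans (mul_le_mul_of_nonneg_left (s48r_zeta_partial_le hs D) hK0))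

/-- `t - t²/2 ≤ log (1 + t)` for `t ≥ 0`. -/
lemma s48r_log_lower {t : ℝ} (ht : 0 ≤ t) : t - t ^ 2 / 2 ≤ Real.log (1 + t) := by
  refine le_trans ?_ (Real.le_log_one_add_of_nonneg ht)
  have h2 : 0 < t + 2 := by linarith
  rw [le_div_iff₀ h2]
  nlinarith [pow_nonneg ht 3]

/-- `∑_{p ∈ P} p^{-2s} ≤ 2` for a finite set of positive integers and `s ≥ 1`. -/
lemma s48r_sum_sq_le (P : Finset ℕ) (hP : ∀ p ∈ P, 1 ≤ p) {s : ℝ} (hs : 1 ≤ s) :
    ∑ p ∈ P, ((p : ℝ) ^ (-s)) ^ 2 ≤ 2 := by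
  classical
  set D := P.sup id with hD
  have h1 : ∀ p ∈ P, ((p : ℝ) ^ (-s)) ^ 2 ≤ (p : ℝ) ^ (-(2 : ℝ)) := by
    intro p hp
    have hp1 : (1 : ℝ) ≤ p := by exact_mod_cast hP p hp
    rw [← Real.rpow_natCast, ← Real.rpow_mul (by linarith)]
    refine Real.rpow_le_rpow_of_exponent_le hp1 ?_
    push_cast
    linarith
  have hsub : P ⊆ (range D).image (fun n : ℕ => n + 1) := by
    intro p hp
    have hle : p ≤ D := le_sup (f := id) hp
    have := hP p hp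
    exact mem_image.mpr ⟨p - 1, mem_range.mpr (by omega), by omega⟩
  calc ∑ p ∈ P, ((p : ℝ) ^ (-s)) ^ 2 ≤ ∑ p ∈ P, (p : ℝ) ^ (-(2 : ℝ)) := sum_le_sum h1
    _ ≤ ∑ p ∈ (range D).image (fun n : ℕ => n + 1), ((p : ℕ) : ℝ) ^ (-(2 : ℝ)) :=
        sum_le_sum_of_subset_of_nonneg hsub fun p _ _ => Real.rpow_nonneg (Nat.cast_nonneg p) _
    _ = ∑ n ∈ range D, ((n : ℝ) + 1) ^ (-(2 : ℝ)) := by
        rw [sum_image fun x _ y _ h => Nat.succ_injective h]
        exact sum_congr rfl fun n _ => by push_cast; rfl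
    _ ≤ 1 + 1 / (2 - 1) := s48r_zeta_partial_le (by norm_num) D
    _ = 2 := by norm_num

/-- **the elementary Rankin bound, general form**: for weights `0 ≤ v_p ≤ min (b_p, V)` on a finite
`P ⊆ Pr` and `1 < s ≤ 2`: `∑_{p ∈ P} v_p p^{-s} ≤ log (1/(s-1)) + log (2K) + V²`. -/
theorem s48r_rankin (hb0 : ∀ n, 0 ≤ b n) (hb1 : b 1 = 1) (hPr : ∀ p ∈ Pr, p.Prime)
    (hmul : ∀ p ∈ Pr, ∀ n : ℕ, ¬ p ∣ n → b (p * n) = b p * b n)
    {K : ℝ} (hK : ∀ X : ℕ, ∑ n ∈ range X, b (n + 1) ≤ K * X)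
    (P : Finset ℕ) (hP : ∀ p ∈ P, p ∈ Pr) (v : ℕ → ℝ) (V : ℝ)
    (hv0 : ∀ p ∈ P, 0 ≤ v p) (hvb : ∀ p ∈ P, v p ≤ b p) (hvV : ∀ p ∈ P, v p ≤ V)
    {s : ℝ} (hs : 1 < s) (hs2 : s ≤ 2) :
    ∑ p ∈ P, v p * (p : ℝ) ^ (-s) ≤ Real.log (1 / (s - 1)) + Real.log (2 * K) + V ^ 2 := by
  have hs1 : 0 < s - 1 := by linarith
  have hK1 : 1 ≤ K := by
    have := hK 1
    simp only [range_one, sum_singleton, zero_add, Nat.cast_one, mul_one] at this
    rw [hb1] at this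
    exact this
  have hpos : ∀ p ∈ P, 0 ≤ (p : ℝ) ^ (-s) := fun p _ => Real.rpow_nonneg (Nat.cast_nonneg p) _
  -- the product bound
  have h1 : ∏ p ∈ P, (1 + v p * (p : ℝ) ^ (-s)) ≤ K * (1 + 1 / (s - 1)) := by
    refine le_trans (prod_le_prod (fun p hp => ?_) fun p hp => ?_)
      (s48r_prod_le hb0 hb1 hPr hmul hK P hP hs)
    · have := mul_nonneg (hv0 p hp) (hpos p hp)
      linarith
    · have := mul_le_mul_of_nonneg_right (hvb p hp) (hpos p hp)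
      linarith
  have hfac : ∀ p ∈ P, 0 < 1 + v p * (p : ℝ) ^ (-s) := fun p hp => by
    have := mul_nonneg (hv0 p hp) (hpos p hp)
    linarith
  have h2 : ∑ p ∈ P, Real.log (1 + v p * (p : ℝ) ^ (-s)) ≤ Real.log (K * (1 + 1 / (s - 1))) := by
    rw [← Real.log_prod fun p hp => (hfac p hp).ne']
    exact Real.log_le_log (prod_pos hfac) h1
  have h3 : Real.log (K * (1 + 1 / (s - 1))) ≤ Real.log (1 / (s - 1)) + Real.log (2 * K) := by
    rw [← Real.log_mul (by positivity) (by positivity)]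
    refine Real.log_le_log (by positivity) ?_
    have : 1 + 1 / (s - 1) ≤ 2 * (1 / (s - 1)) := by
      rw [two_mul]
      have : 1 ≤ 1 / (s - 1) := by
        rw [le_div_iff₀ hs1]
        linarith
      linarith
    calc K * (1 + 1 / (s - 1)) ≤ K * (2 * (1 / (s - 1))) :=
          mul_le_mul_of_nonneg_left this (by linarith)
      _ = 1 / (s - 1) * (2 * K) := by ring
  have hV0 : ∀ p ∈ P, (v p) ^ 2 ≤ V ^ 2 := fun p hp =>
    pow_le_pow_left₀ (hv0 p hp) (hvV p hp) 2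
  have h4 : ∑ p ∈ P, (v p * (p : ℝ) ^ (-s)) ^ 2 / 2 ≤ V ^ 2 := by
    have hprime1 : ∀ p ∈ P, 1 ≤ p := fun p hp => (hPr p (hP p hp)).one_le
    have h5 := s48r_sum_sq_le P hprime1 hs.le
    calc ∑ p ∈ P, (v p * (p : ℝ) ^ (-s)) ^ 2 / 2
        ≤ ∑ p ∈ P, V ^ 2 / 2 * ((p : ℝ) ^ (-s)) ^ 2 := by
          refine sum_le_sum fun p hp => ?_
          rw [mul_pow]
          have := mul_le_mul_of_nonneg_right (hV0 p hp) (sq_nonneg ((p : ℝ) ^ (-s)))
          linarith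
      _ = V ^ 2 / 2 * ∑ p ∈ P, ((p : ℝ) ^ (-s)) ^ 2 := by rw [mul_sum]
      _ ≤ V ^ 2 / 2 * 2 := mul_le_mul_of_nonneg_left h5 (by positivity)
      _ = V ^ 2 := by ring
  have h6 : ∑ p ∈ P, (v p * (p : ℝ) ^ (-s) - (v p * (p : ℝ) ^ (-s)) ^ 2 / 2) ≤
      ∑ p ∈ P, Real.log (1 + v p * (p : ℝ) ^ (-s)) :=
    sum_le_sum fun p hp => s48r_log_lower (mul_nonneg (hv0 p hp) (hpos p hp))
  rw [sum_sub_distrib] at h6
  linarith

end

end Fermat.Agent.Lib.S48
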