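/-
DS-1 (S48), Stage A, brick (D3) (helper7, prefix `s48r_`): **the elementary Rankin bound for a weight-one
cusp form on `Γ₁(N)`** with `a₁ = 1` and the Hecke relations of the S48 statement at the primes `p ∤ N`
(`a(pn) + ε(p)·[p ∣ n]·a(n/p) = a(p)·a(n)`; only the case `p ∤ n` is used):
* `s48r_rankin_cusp`     : general weighted form;
* `s48r_rankin_bounded`  : (e1) `|a_p|² ≤ B` for `p ∤ N` ⇒ `∑_{p ∈ P} |a_p|² p^{-s} ≤ log (1/(s-1)) + C`;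
* `s48r_rankin_density`  : (e2) `c · ∑_{p ∈ P, |a_p|² ≥ c} p^{-s} ≤ log (1/(s-1)) + C_c`
  (Deligne–Serre (5.4)/(5.5) in Dirichlet-density form).
-/
import Fermat.Agent.Lib.S48.RMeanInst
import Fermat.Agent.Lib.S48.RRankin

set_option autoImplicit false
set_option linter.unusedSectionVars false

noncomputable section

namespace Fermat.Agent.Lib.S48

open Finset CongruenceSubgroup

variable {N : ℕ} [NeZero N] (f : CuspForm (Gamma1 N) 1)

/-- `b_n = |a_n|²`. -/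
def s48r_b (n : ℕ) : ℝ := ‖ModularFormClass.qCoeff f n‖ ^ 2

lemma s48r_b_nonneg (n : ℕ) : 0 ≤ s48r_b f n := by unfold s48r_b; positivity

/-- the linear mean bound in the shape used by `s48r_rankin`. -/
theorem s48r_b_mean : ∃ K : ℝ, ∀ X : ℕ, ∑ n ∈ range X, s48r_b f (n + 1) ≤ K * X := by
  obtain ⟨K, hK0, hK⟩ := s48r_mean_square_Gamma1 N 1 f
  refine ⟨K, fun X => ?_⟩
  rcases Nat.eq_zero_or_pos X with rfl | hX
  · simp
  have h := hK X hX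
  rw [sum_range_succ'] at h
  simp only [Int.cast_one, Real.rpow_one] at h
  have h0 : 0 ≤ ‖ModularFormClass.qCoeff f 0‖ ^ 2 := by positivity
  unfold s48r_b
  linarith

variable {f}

/-- multiplicativity of `b` along the primes not dividing `N`, from the Hecke relations. -/
lemma s48r_b_mul {e : ℕ → ℂ}
    (hT : ∀ p : ℕ, p.Prime → ¬ p ∣ N → ∀ n : ℕ,
      ModularFormClass.qCoeff f (p * n) +
          e p * (if p ∣ n then ModularFormClass.qCoeff f (n / p) else 0) =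
        ModularFormClass.qCoeff f p * ModularFormClass.qCoeff f n)
    (p : ℕ) (hp : p ∈ {p : ℕ | p.Prime ∧ ¬ p ∣ N}) (n : ℕ) (hpn : ¬ p ∣ n) :
    s48r_b f (p * n) = s48r_b f p * s48r_b f n := by
  have h := hT p hp.1 hp.2 n
  rw [if_neg hpn, mul_zero, add_zero] at h
  unfold s48r_b
  rw [h, norm_mul, mul_pow]

/-- **elementary Rankin bound, weighted form.** -/
theorem s48r_rankin_cusp {e : ℕ → ℂ} (hf₁ : ModularFormClass.qCoeff f 1 = 1)
    (hT : ∀ p : ℕ, p.Prime → ¬ p ∣ N → ∀ n : ℕ,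
      ModularFormClass.qCoeff f (p * n) +
          e p * (if p ∣ n then ModularFormClass.qCoeff f (n / p) else 0) =
        ModularFormClass.qCoeff f p * ModularFormClass.qCoeff f n) :
    ∃ C : ℝ, ∀ (P : Finset ℕ), (∀ p ∈ P, p.Prime ∧ ¬ p ∣ N) → ∀ (v : ℕ → ℝ) (V : ℝ),
      (∀ p ∈ P, 0 ≤ v p) → (∀ p ∈ P, v p ≤ s48r_b f p) → (∀ p ∈ P, v p ≤ V) →
      ∀ s : ℝ, 1 < s → s ≤ 2 →
        ∑ p ∈ P, v p * (p : ℝ) ^ (-s) ≤ Real.log (1 / (s - 1)) + C + V ^ 2 := by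
  obtain ⟨K, hK⟩ := s48r_b_mean f
  refine ⟨Real.log (2 * K), fun P hP v V hv0 hvb hvV s hs hs2 => ?_⟩
  have hb1 : s48r_b f 1 = 1 := by unfold s48r_b; rw [hf₁]; simp
  exact s48r_rankin (Pr := {p : ℕ | p.Prime ∧ ¬ p ∣ N}) (s48r_b_nonneg f) hb1
    (fun p hp => hp.1) (s48r_b_mul hT) hK P hP v V hv0 hvb hvV hs hs2

/-- **(e1)**: bounded `|a_p|` ⇒ `∑ |a_p|² p^{-s} ≤ log (1/(s-1)) + C`. -/
theorem s48r_rankin_bounded {e : ℕ → ℂ} (hf₁ : ModularFormClass.qCoeff f 1 = 1)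
    (hT : ∀ p : ℕ, p.Prime → ¬ p ∣ N → ∀ n : ℕ,
      ModularFormClass.qCoeff f (p * n) +
          e p * (if p ∣ n then ModularFormClass.qCoeff f (n / p) else 0) =
        ModularFormClass.qCoeff f p * ModularFormClass.qCoeff f n)
    (B : ℝ) (hB : ∀ p : ℕ, p.Prime → ¬ p ∣ N → ‖ModularFormClass.qCoeff f p‖ ^ 2 ≤ B) :
    ∃ C : ℝ, ∀ (P : Finset ℕ), (∀ p ∈ P, p.Prime ∧ ¬ p ∣ N) → ∀ s : ℝ, 1 < s → s ≤ 2 →
      ∑ p ∈ P, ‖ModularFormClass.qCoeff f p‖ ^ 2 * (p : ℝ) ^ (-s) ≤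
        Real.log (1 / (s - 1)) + C := by
  obtain ⟨C, hC⟩ := s48r_rankin_cusp hf₁ hT
  refine ⟨C + B ^ 2, fun P hP s hs hs2 => ?_⟩
  have := hC P hP (fun p => ‖ModularFormClass.qCoeff f p‖ ^ 2) B (fun p _ => by positivity)
    (fun p _ => le_refl _) (fun p hp => hB p (hP p hp).1 (hP p hp).2) s hs hs2
  linarith

/-- **(e2)** (Deligne–Serre, Prop. 5.5, Dirichlet-density form): the primes with `|a_p|² ≥ c` have
upper Dirichlet density `≤ 1/c`. -/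
theorem s48r_rankin_density {e : ℕ → ℂ} (hf₁ : ModularFormClass.qCoeff f 1 = 1)
    (hT : ∀ p : ℕ, p.Prime → ¬ p ∣ N → ∀ n : ℕ,
      ModularFormClass.qCoeff f (p * n) +
          e p * (if p ∣ n then ModularFormClass.qCoeff f (n / p) else 0) =
        ModularFormClass.qCoeff f p * ModularFormClass.qCoeff f n)
    (c : ℝ) (hc : 0 ≤ c) :
    ∃ C : ℝ, ∀ (P : Finset ℕ),
      (∀ p ∈ P, p.Prime ∧ ¬ p ∣ N ∧ c ≤ ‖ModularFormClass.qCoeff f p‖ ^ 2) →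
      ∀ s : ℝ, 1 < s → s ≤ 2 →
        c * ∑ p ∈ P, (p : ℝ) ^ (-s) ≤ Real.log (1 / (s - 1)) + C := by
  obtain ⟨C, hC⟩ := s48r_rankin_cusp hf₁ hT
  refine ⟨C + c ^ 2, fun P hP s hs hs2 => ?_⟩
  have := hC P (fun p hp => ⟨(hP p hp).1, (hP p hp).2.1⟩) (fun _ => c) c (fun _ _ => hc)
    (fun p hp => (hP p hp).2.2) (fun _ _ => le_refl _) s hs hs2
  rw [← mul_sum] at this
  linarith

end Fermat.Agent.Lib.S48
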