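/-
DS-1 (S48), Stage A, bricks (D3) + (D5) assembled (helper7, prefix `s48r_`):
* `s48r_rankinProp_cusp` : the elementary Rankin bound of a weight-one cusp form on `Γ₁(N)` with the
  Hecke relations of the S48 statement, as `s48r_RankinProp`;
* `s48r_isIrreducible_of_no_line` : for `ρ : Γ →* GL₂(ℂ)`, no invariant line ⇒ the Prelude's
  `(Deformation.matrixRepresentation ρ).IsIrreducible`;
* `s48r_irreducible_of_chebotarev` : **(D5)** if `ρ` factors through a finite group `G`, has
  `tr ρ(Frob_p) = a_p` for the primes `p ∤ M` (`N ∣ M`), and every conjugacy class of `G` is hit by a set of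
  such primes of lower Dirichlet density `≥ |κ|/|G|` (Chebotarev), then `ρ` is irreducible.
-/
import Fermat.Agent.Lib.S48.RRankinInst
import Fermat.Agent.Lib.S48.RIrred
import Fermat.Prelude.Def_Deformations_MatrixRepresentation

set_option autoImplicit false
set_option linter.unusedSectionVars false

noncomputable section

namespace Fermat.Agent.Lib.S48

open Finset Matrix CongruenceSubgroup

lemma s48r_RankinProp.mono {b : ℕ → ℝ} {Pr Pr' : Set ℕ} (h : s48r_RankinProp b Pr)
    (hsub : Pr' ⊆ Pr) : s48r_RankinProp b Pr' := by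
  obtain ⟨C, hC⟩ := h
  exact ⟨C, fun P hP => hC P fun p hp => hsub (hP p hp)⟩

theorem s48r_rankinProp_cusp {N : ℕ} [NeZero N] {f : CuspForm (Gamma1 N) 1} {e : ℕ → ℂ}
    (hf₁ : ModularFormClass.qCoeff f 1 = 1)
    (hT : ∀ p : ℕ, p.Prime → ¬ p ∣ N → ∀ n : ℕ,
      ModularFormClass.qCoeff f (p * n) +
          e p * (if p ∣ n then ModularFormClass.qCoeff f (n / p) else 0) =
        ModularFormClass.qCoeff f p * ModularFormClass.qCoeff f n) :
    s48r_RankinProp (s48r_b f) {p : ℕ | p.Prime ∧ ¬ p ∣ N} := by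
  obtain ⟨C, hC⟩ := s48r_rankin_cusp hf₁ hT
  exact ⟨C, fun P hP v V hv0 hvb hvV s hs hs2 => hC P hP v V hv0 hvb hvV s hs hs2⟩

/-- no invariant line ⇒ irreducible (dimension two). -/
theorem s48r_isIrreducible_of_no_line {Γ : Type} [Group Γ] (ρ : Γ →* GL (Fin 2) ℂ)
    (h : ∀ w : Fin 2 → ℂ, w ≠ 0 → ¬ ∀ g : Γ, ∃ c : ℂ, (ρ g).val *ᵥ w = c • w) :
    (Deformation.matrixRepresentation ρ).IsIrreducible := by
  classical
  refine { exists_pair_ne := ⟨⊥, ⊤, ?_⟩, eq_bot_or_eq_top := fun σ => ?_ }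
  · intro hbt
    have h1 : (⊥ : Submodule ℂ (Fin 2 → ℂ)) = ⊤ :=
      congrArg Subrepresentation.toSubmodule hbt
    exact bot_ne_top h1
  · have hle : Module.finrank ℂ σ.toSubmodule ≤ 2 := by
      have := Submodule.finrank_le σ.toSubmodule
      simpa using this
    have hcases : Module.finrank ℂ σ.toSubmodule = 0 ∨ Module.finrank ℂ σ.toSubmodule = 1 ∨
        Module.finrank ℂ σ.toSubmodule = 2 := by omega
    rcases hcases with h0 | h1 | h2
    · left
      apply Subrepresentation.toSubmodule_injective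
      exact Submodule.finrank_eq_zero.mp h0
    · exfalso
      obtain ⟨⟨w, hwσ⟩, hw0, hspan⟩ := finrank_eq_one_iff'.mp h1
      have hw : w ≠ 0 := fun h0 => hw0 (by ext; simp [h0])
      refine h w hw fun g => ?_
      have hmem : Deformation.matrixRepresentation ρ g w ∈ σ.toSubmodule :=
        σ.apply_mem_toSubmodule g hwσ
      obtain ⟨c, hc⟩ := hspan ⟨_, hmem⟩
      refine ⟨c, ?_⟩
      have := congrArg Subtype.val hc
      simp only [Submodule.coe_smul, Deformation.matrixRepresentation_apply,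
        Matrix.mulVecLin_apply] at this
      exact this.symm
    · right
      apply Subrepresentation.toSubmodule_injective
      refine Submodule.eq_top_of_finrank_eq ?_
      simpa using h2

/-- **(D5), assembled**: Rankin (from the cusp form) + Chebotarev (hypothesis `hdens`) ⇒ the
representation is irreducible. -/
theorem s48r_irreducible_of_chebotarev {N : ℕ} [NeZero N] {f : CuspForm (Gamma1 N) 1} {e : ℕ → ℂ}
    (hf₁ : ModularFormClass.qCoeff f 1 = 1)
    (hT : ∀ p : ℕ, p.Prime → ¬ p ∣ N → ∀ n : ℕ,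
      ModularFormClass.qCoeff f (p * n) +
          e p * (if p ∣ n then ModularFormClass.qCoeff f (n / p) else 0) =
        ModularFormClass.qCoeff f p * ModularFormClass.qCoeff f n)
    {Γ : Type} [Group Γ] (ρ : Γ →* GL (Fin 2) ℂ)
    {G : Type*} [Group G] [Fintype G] [DecidableEq (ConjClasses G)]
    (π : Γ →* G) (hπ : Function.Surjective π) (ρ' : G →* GL (Fin 2) ℂ)
    (hρ : ∀ γ : Γ, ρ γ = ρ' (π γ))
    (M : ℕ) (hNM : N ∣ M) (Fr : ℕ → G)
    (hFr : ∀ p : ℕ, p.Prime → ¬ p ∣ M →
      (ρ' (Fr p)).val.trace = ModularFormClass.qCoeff f p)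
    (hdens : ∀ κ : ConjClasses G,
      s48r_LowerDensity {p | p ∈ {p : ℕ | p.Prime ∧ ¬ p ∣ M} ∧ ConjClasses.mk (Fr p) = κ}
        ((s48r_classCard κ : ℝ) / Fintype.card G)) :
    (Deformation.matrixRepresentation ρ).IsIrreducible := by
  refine s48r_isIrreducible_of_no_line ρ fun w hw hline => ?_
  have hR : s48r_RankinProp (s48r_b f) {p : ℕ | p.Prime ∧ ¬ p ∣ M} :=
    (s48r_rankinProp_cusp hf₁ hT).mono fun p hp => ⟨hp.1, fun h => hp.2 (h.trans hNM)⟩
  refine s48r_no_invariant_line hR ρ' Fr (fun p hp => ?_) hdens w hw fun g => ?_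
  · rw [hFr p hp.1 hp.2]
    exact le_refl _
  · obtain ⟨γ, rfl⟩ := hπ g
    rw [← hρ]
    exact hline γ

end Fermat.Agent.Lib.S48
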