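/-
DS-1 (S48), wall [T1] (helper7, prefix `s48t_`): consequences of the Chebotarev interface.
* `s48t_cheb_conj` : every element of a finite quotient of `G_ℚ` is conjugate to the image of a Frobenius element at
  a prime outside any given finite set (containing the ramified primes);
* `s48t_GoodAt`    : local conditions (unramified, Frobenius trace and determinant) at the primes `p ∤ M`;
* `s48t_trace_eq_of_goodAt` : two finite-level representations with the same Frobenius traces/determinants off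
  finitely many primes have equal trace and determinant functions;
* `s48t_ker_eq_of_goodAt`   : ... and the same kernel (DS 8.6, via `tr g = 2 ⇒ g = 1`).
-/
import Fermat.Agent.Lib.S48.TDens
import Fermat.Agent.Lib.S48.TGal
import Fermat.Agent.Lib.S48.LTrace

set_option autoImplicit false
set_option linter.style.haveILetI false

noncomputable section

namespace Fermat.Agent.Lib.S48

open Matrix

local notation "Γℚ" => (AlgebraicClosure ℚ ≃ₐ[ℚ] AlgebraicClosure ℚ)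

theorem s48t_cheb_conj (hcheb : s48t_Chebotarev) {G : Type} [Group G] [Fintype G] (r : Γℚ →* G)
    (hr : Function.Surjective r) (hfin : GaloisFactorsThroughFiniteLevel r) (S : Finset ℕ)
    (hS : ∀ p : ℕ, p.Prime → p ∉ S →
      ∀ A : ValuationSubring (AlgebraicClosure ℚ), A.LiesOverPrime p →
        ∀ σ ∈ A.inertiaSubgroupIn ℚ, r σ = 1) (g : G) :
    ∃ p : ℕ, p.Prime ∧ p ∉ S ∧ ∃ (A : ValuationSubring (AlgebraicClosure ℚ)) (σ : Γℚ),
      A.LiesOverPrime p ∧ A.IsFrobeniusAt σ p ∧ ∃ h : G, r σ = h * g * h⁻¹ := by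
  classical
  set C : Set G := {x | ∃ h : G, x = h * g * h⁻¹} with hC
  have hCconj : ∀ x k : G, x ∈ C → k * x * k⁻¹ ∈ C := by
    rintro x k ⟨h, rfl⟩
    exact ⟨k * h, by group⟩
  have hgC : g ∈ C := ⟨1, by group⟩
  have hdens := hcheb G r hr hfin S hS C hCconj
  haveI : Nonempty C := ⟨⟨g, hgC⟩⟩
  have hpos : (0 : ℝ) < (Nat.card C : ℝ) / Nat.card G := by
    have h1 : 0 < Nat.card C := Nat.card_pos
    have h2 : 0 < Nat.card G := Nat.card_pos
    positivity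
  obtain ⟨p, hp, hpS, hfrob⟩ := s48t_nonempty_of_lowerDensity hpos hdens
  obtain ⟨A, σ, hA, hσ⟩ := s48t_exists_frob p hp
  exact ⟨p, hp, hpS, A, σ, hA, hσ, hfrob A hA σ hσ⟩

/-- local conditions at the primes `p ∤ M`: unramified, Frobenius trace `a p` and determinant `e p`. -/
def s48t_GoodAt (a e : ℕ → ℂ) (M : ℕ) (ρ : Γℚ →* GL (Fin 2) ℂ) : Prop :=
  ∀ p : ℕ, p.Prime → ¬ p ∣ M → ∀ A : ValuationSubring (AlgebraicClosure ℚ), A.LiesOverPrime p →
    (∀ σ ∈ A.inertiaSubgroupIn ℚ, ρ σ = 1) ∧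
    ∀ σ : Γℚ, A.IsFrobeniusAt σ p → (ρ σ).val.trace = a p ∧ (ρ σ).val.det = e p

theorem s48t_trace_eq_of_goodAt (hcheb : s48t_Chebotarev) {a e : ℕ → ℂ} {M₁ M₂ : ℕ}
    (hM₁ : M₁ ≠ 0) (hM₂ : M₂ ≠ 0) {ρ₁ ρ₂ : Γℚ →* GL (Fin 2) ℂ}
    (hfin₁ : GaloisFactorsThroughFiniteLevel ρ₁) (hfin₂ : GaloisFactorsThroughFiniteLevel ρ₂)
    (h₁ : s48t_GoodAt a e M₁ ρ₁) (h₂ : s48t_GoodAt a e M₂ ρ₂) (τ : Γℚ) :
    (ρ₁ τ).val.trace = (ρ₂ τ).val.trace ∧ (ρ₁ τ).val.det = (ρ₂ τ).val.det := by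
  classical
  have hfin : GaloisFactorsThroughFiniteLevel (ρ₁.prod ρ₂) := s48t_finiteLevel_prod hfin₁ hfin₂
  haveI : Finite (ρ₁.prod ρ₂).range := by
    have := s48t_finite_range hfin
    rw [← MonoidHom.coe_range] at this
    exact this.to_subtype
  letI : Fintype (ρ₁.prod ρ₂).range := Fintype.ofFinite _
  set r : Γℚ →* (ρ₁.prod ρ₂).range := (ρ₁.prod ρ₂).rangeRestrict with hr
  have hrsurj : Function.Surjective r := (ρ₁.prod ρ₂).rangeRestrict_surjective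
  have hrfin : GaloisFactorsThroughFiniteLevel r := s48t_finiteLevel_rangeRestrict hfin
  have hM : M₁ * M₂ ≠ 0 := mul_ne_zero hM₁ hM₂
  have hnd : ∀ p : ℕ, p.Prime → p ∉ (M₁ * M₂).primeFactors → ¬ p ∣ M₁ ∧ ¬ p ∣ M₂ := by
    intro p hp hpS
    rw [Nat.mem_primeFactors] at hpS
    refine ⟨fun h => hpS ⟨hp, Dvd.dvd.mul_right h M₂, hM⟩, fun h => hpS ⟨hp, Dvd.dvd.mul_left h M₁, hM⟩⟩
  obtain ⟨p, hp, hpS, A, σ, hA, hσ, h, hh⟩ := s48t_cheb_conj hcheb r hrsurj hrfin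
    (M₁ * M₂).primeFactors (fun p hp hpS A hA σ hσ => by
      obtain ⟨hp1, hp2⟩ := hnd p hp hpS
      apply Subtype.ext
      rw [hr, MonoidHom.coe_rangeRestrict, MonoidHom.prod_apply, (h₁ p hp hp1 A hA).1 σ hσ,
        (h₂ p hp hp2 A hA).1 σ hσ]
      rfl) (r τ)
  obtain ⟨hp1, hp2⟩ := hnd p hp hpS
  obtain ⟨ht1, hd1⟩ := (h₁ p hp hp1 A hA).2 σ hσ
  obtain ⟨ht2, hd2⟩ := (h₂ p hp hp2 A hA).2 σ hσ
  -- unpack the conjugation
  have hval := congrArg Subtype.val hh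
  rw [hr, MonoidHom.coe_rangeRestrict, MonoidHom.prod_apply] at hval
  simp only [Subgroup.coe_mul, Subgroup.coe_inv, MonoidHom.coe_rangeRestrict,
    MonoidHom.prod_apply] at hval
  have e1 : ρ₁ σ = h.val.1 * ρ₁ τ * (h.val.1)⁻¹ := congrArg Prod.fst hval
  have e2 : ρ₂ σ = h.val.2 * ρ₂ τ * (h.val.2)⁻¹ := congrArg Prod.snd hval
  have t1 : (ρ₁ σ).val.trace = (ρ₁ τ).val.trace := by
    rw [e1, Units.val_mul, Units.val_mul, Matrix.trace_mul_comm, ← Matrix.mul_assoc,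
      ← Units.val_mul, inv_mul_cancel, Units.val_one, Matrix.one_mul]
  have t2 : (ρ₂ σ).val.trace = (ρ₂ τ).val.trace := by
    rw [e2, Units.val_mul, Units.val_mul, Matrix.trace_mul_comm, ← Matrix.mul_assoc,
      ← Units.val_mul, inv_mul_cancel, Units.val_one, Matrix.one_mul]
  have d1 : (ρ₁ σ).val.det = (ρ₁ τ).val.det := by
    rw [e1, Units.val_mul, Units.val_mul, Matrix.det_mul, Matrix.det_mul, mul_right_comm,
      ← Matrix.det_mul, ← Units.val_mul, mul_inv_cancel, Units.val_one, Matrix.det_one, one_mul]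
  have d2 : (ρ₂ σ).val.det = (ρ₂ τ).val.det := by
    rw [e2, Units.val_mul, Units.val_mul, Matrix.det_mul, Matrix.det_mul, mul_right_comm,
      ← Matrix.det_mul, ← Units.val_mul, mul_inv_cancel, Units.val_one, Matrix.det_one, one_mul]
  exact ⟨by rw [← t1, ← t2, ht1, ht2], by rw [← d1, ← d2, hd1, hd2]⟩

theorem s48t_ker_le_of_trace_eq {ρ₁ ρ₂ : Γℚ →* GL (Fin 2) ℂ}
    (htr : ∀ τ : Γℚ, (ρ₁ τ).val.trace = (ρ₂ τ).val.trace) {n : ℕ} (hn : n ≠ 0)
    (hord : ∀ τ : Γℚ, ρ₂ τ ^ n = 1) {τ : Γℚ} (hτ : ρ₁ τ = 1) : ρ₂ τ = 1 := by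
  apply Units.ext
  rw [Units.val_one]
  refine s48l_eq_one_of_trace_eq_two _ hn ?_ ?_
  · rw [← Units.val_pow_eq_pow_val, hord τ, Units.val_one]
  · rw [← htr τ, hτ, Units.val_one, Matrix.trace_one]
    simp

end Fermat.Agent.Lib.S48
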