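/-
DS-1 (S48), wall [T1] (helper7, prefix `s48t_`): the coefficient ring from [T3] (`s48i_Rat`):
`s48t_coeffRing_of_rat` — `R :=` the image of the ring of integers of `K` in `ℂ`, a finite `ℤ`-module containing
the `a_p` and `ε(p)`, `p ∤ N`.
-/
import Fermat.Agent.Lib.S48.Iface

set_option autoImplicit false
set_option linter.style.haveILetI false

noncomputable section

namespace Fermat.Agent.Lib.S48

open CongruenceSubgroup

/-- the values of a Dirichlet character at units are algebraic integers. -/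
theorem s48t_isIntegral_dirichlet {N : ℕ} [NeZero N] (ε : DirichletCharacter ℂ N) (a : ZMod N) :
    IsIntegral ℤ (ε a) := by
  by_cases ha : IsUnit a
  · obtain ⟨u, rfl⟩ := ha
    have h1 : ε (u : ZMod N) ^ (Nat.totient N) = 1 := by
      rw [← map_pow, ← Units.val_pow_eq_pow_val, ZMod.pow_totient, Units.val_one, map_one]
    refine IsIntegral.of_pow (Nat.totient_pos.mpr (NeZero.pos N)) ?_
    rw [h1]
    exact isIntegral_one
  · rw [MulChar.map_nonunit ε ha]
    exact isIntegral_zero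

theorem s48t_coeffRing_of_rat (hrat : s48i_Rat) (N : ℕ) [NeZero N] (ε : DirichletCharacter ℂ N)
    (f : CuspForm (Gamma1 N) 1) (h : s48i_Hyp N ε f) :
    ∃ R : Subring ℂ, Module.Finite ℤ R ∧ (∀ x : R, IsIntegral ℤ (x : ℂ)) ∧
      ∀ p : ℕ, p.Prime → ¬ p ∣ N →
        ModularFormClass.qCoeff f p ∈ R ∧ ε (p : ZMod N) ∈ R := by
  classical
  obtain ⟨K, hKfin, hεK, hint, hK, -⟩ := hrat N ε f h
  haveI : NumberField K := { to_finiteDimensional := hKfin }
  set g : NumberField.RingOfIntegers K →+* ℂ :=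
    (algebraMap K ℂ).comp (algebraMap (NumberField.RingOfIntegers K) K) with hg
  have hmem : ∀ z : ℂ, ∀ hz : z ∈ K, IsIntegral ℤ z → z ∈ g.range := by
    intro z hz hzint
    have h1 : IsIntegral ℤ (⟨z, hz⟩ : K) :=
      (isIntegral_algebraMap_iff (algebraMap K ℂ).injective).mp hzint
    refine ⟨⟨⟨z, hz⟩, h1⟩, rfl⟩
  refine ⟨g.range, ?_, ?_, fun p hp hpN => ⟨hmem _ (hK p hp hpN) (hint p hp hpN),
    hmem _ (hεK _) (s48t_isIntegral_dirichlet ε _)⟩⟩
  · exact Module.Finite.of_surjective (g.rangeRestrict.toIntAlgHom.toLinearMap)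
      g.rangeRestrict_surjective
  · rintro ⟨_, ⟨x, rfl⟩⟩
    have hx : IsIntegral ℤ (algebraMap (NumberField.RingOfIntegers K) K x) :=
      NumberField.RingOfIntegers.isIntegral_coe x
    exact hx.map ((algebraMap K ℂ).toIntAlgHom)

end Fermat.Agent.Lib.S48
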