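/-
DS-1 (S48), wall [T1] (helper7, prefix `s48t_`): **extension of residue maps**.
A ring homomorphism `φ₀ : R →+* F` from a ring `R ⊆ ℂ` of algebraic integers to a field extends to
`φ : ℤ̄ →+* AlgebraicClosure F` (lying-over + `IsAlgClosed.lift`).  Mathlib only.
-/
import Mathlib

set_option autoImplicit false
set_option linter.style.haveILetI false

noncomputable section

namespace Fermat.Agent.Lib.S48

open Ideal

theorem s48t_extend (R : Subring ℂ) (hR : ∀ x : R, IsIntegral ℤ (x : ℂ)) {F : Type} [Field F]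
    (φ₀ : R →+* F) :
    ∃ φ : integralClosure ℤ ℂ →+* AlgebraicClosure F,
      ∀ (x : R) (y : integralClosure ℤ ℂ), (y : ℂ) = (x : ℂ) →
        φ y = algebraMap F (AlgebraicClosure F) (φ₀ x) := by
  classical
  let inc : R →+* integralClosure ℤ ℂ :=
    (R.subtype).codRestrict (integralClosure ℤ ℂ) (fun x => hR x)
  letI : Algebra R (integralClosure ℤ ℂ) := inc.toAlgebra
  have hinc : Function.Injective inc := by
    intro x y hxy
    apply Subtype.ext
    exact congrArg (fun z : integralClosure ℤ ℂ => (z : ℂ)) hxy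
  haveI : Algebra.IsIntegral R (integralClosure ℤ ℂ) := by
    refine ⟨fun z => ?_⟩
    have hz : IsIntegral ℤ z := Algebra.IsIntegral.isIntegral z
    obtain ⟨p, hp, hpz⟩ := hz
    refine ⟨p.map (algebraMap ℤ R), hp.map _, ?_⟩
    rw [Polynomial.eval₂_map]
    have : (algebraMap R (integralClosure ℤ ℂ)).comp (algebraMap ℤ R) =
        algebraMap ℤ (integralClosure ℤ ℂ) := Subsingleton.elim _ _
    rw [this]
    exact hpz
  let P : Ideal R := RingHom.ker φ₀
  haveI hPprime : P.IsPrime := RingHom.ker_isPrime φ₀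
  obtain ⟨Q, -, hQp, hQ⟩ := Ideal.exists_ideal_over_prime_of_isIntegral P
    (⊥ : Ideal (integralClosure ℤ ℂ)) (by
      intro x hx
      rw [Ideal.mem_comap, Ideal.mem_bot] at hx
      have : x = 0 := hinc (by rw [map_zero]; exact hx)
      rw [this]
      exact P.zero_mem)
  haveI := hQp
  haveI : Q.LiesOver P := ⟨hQ.symm⟩
  let kf := AlgebraicClosure F
  let ψ : R ⧸ P →+* kf := Ideal.Quotient.lift P ((algebraMap F kf).comp φ₀) (fun x hx => by
    rw [RingHom.comp_apply, RingHom.mem_ker.mp hx, map_zero])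
  have hψ : Function.Injective ψ := by
    rw [injective_iff_map_eq_zero]
    intro x hx
    obtain ⟨x, rfl⟩ := Ideal.Quotient.mk_surjective x
    rw [Ideal.Quotient.lift_mk, RingHom.comp_apply] at hx
    have : φ₀ x = 0 := (algebraMap F kf).injective (by rw [hx, map_zero])
    exact Ideal.Quotient.eq_zero_iff_mem.mpr (RingHom.mem_ker.mpr this)
  letI : Algebra (R ⧸ P) kf := ψ.toAlgebra
  haveI : Module.IsTorsionFree (R ⧸ P) kf :=
    Module.isTorsionFree_iff_algebraMap_injective.mpr hψ
  haveI : Algebra.IsIntegral (R ⧸ P) (integralClosure ℤ ℂ ⧸ Q) :=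
    Ideal.Quotient.algebra_isIntegral_of_liesOver Q P
  haveI : Module.IsTorsionFree (R ⧸ P) (integralClosure ℤ ℂ ⧸ Q) := by
    rw [Module.isTorsionFree_iff_algebraMap_injective, injective_iff_map_eq_zero]
    intro x hx
    obtain ⟨x, rfl⟩ := Ideal.Quotient.mk_surjective x
    rw [Ideal.Quotient.algebraMap_mk_of_liesOver, Ideal.Quotient.eq_zero_iff_mem] at hx
    have : x ∈ Ideal.comap (algebraMap R (integralClosure ℤ ℂ)) Q := hx
    rw [hQ] at this
    exact Ideal.Quotient.eq_zero_iff_mem.mpr this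
  haveI : Algebra.IsAlgebraic (R ⧸ P) (integralClosure ℤ ℂ ⧸ Q) := Algebra.IsIntegral.isAlgebraic
  let lft : (integralClosure ℤ ℂ ⧸ Q) →ₐ[R ⧸ P] kf := IsAlgClosed.lift
  refine ⟨(lft : (integralClosure ℤ ℂ ⧸ Q) →+* kf).comp (Ideal.Quotient.mk Q), fun x y hxy => ?_⟩
  have hy : y = algebraMap R (integralClosure ℤ ℂ) x := Subtype.ext hxy
  rw [RingHom.comp_apply, hy, ← Ideal.Quotient.algebraMap_mk_of_liesOver Q P x]
  have := lft.commutes (Ideal.Quotient.mk P x)
  rw [RingHom.coe_coe, this]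
  change ψ (Ideal.Quotient.mk P x) = _
  rw [Ideal.Quotient.lift_mk, RingHom.comp_apply]

end Fermat.Agent.Lib.S48
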