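/-
DS-1 (S48), wall [T1] (helper7, prefix `s48t_`): the ring form of the family hypothesis (D2) implies the
`ℤ̄`-form used by the top reduction.
-/
import Fermat.Agent.Lib.S48.TIface
import Fermat.Agent.Lib.S48.TExtend

set_option autoImplicit false

noncomputable section

namespace Fermat.Agent.Lib.S48

local notation "Γℚ" => (AlgebraicClosure ℚ ≃ₐ[ℚ] AlgebraicClosure ℚ)

theorem s48t_family_of_familyR {N : ℕ} {a e : ℕ → ℂ} (h : s48t_FamilyR N a e) :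
    s48t_Family N a e := by
  obtain ⟨R, α, β, hR, hαβ, d, hfam⟩ := h
  refine ⟨fun p hp hpN => ?_, d, fun B => ?_⟩
  · obtain ⟨h1, h2⟩ := hαβ p hp hpN
    exact ⟨h1 ▸ hR (α p), h2 ▸ hR (β p)⟩
  · obtain ⟨ℓ, hℓ, hBℓ, F, iF, iFt, iC, hcard, φ₀, ρ, hfin, hloc⟩ := hfam B
    obtain ⟨φ, hφ⟩ := s48t_extend R hR φ₀
    refine ⟨ℓ, hℓ, hBℓ, F, iF, iFt, iC, hcard, AlgebraicClosure F, inferInstance,
      algebraMap F (AlgebraicClosure F), φ, ρ, hfin, fun p hp hpN A hA => ?_⟩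
    obtain ⟨hin, hfr⟩ := hloc p hp hpN A hA
    refine ⟨hin, fun σ hσ x y hx hy => ?_⟩
    obtain ⟨h1, h2⟩ := hfr σ hσ
    have hpN' : ¬ p ∣ N := fun h => hpN (Dvd.dvd.mul_right h ℓ)
    obtain ⟨ha, he⟩ := hαβ p hp hpN'
    rw [h1, h2, hφ (α p) x (hx.trans ha.symm), hφ (β p) y (hy.trans he.symm)]
    exact ⟨rfl, rfl⟩

end Fermat.Agent.Lib.S48
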