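/-
DS-1 (S48), wall [T1] (helper7, prefix `s48t_`): **Stage II, second half (DS §8.6–8.7)**.
* `s48t_goodAt_all` : two realisations at `ℓ₁ ≠ ℓ₂` ⇒ the first one is good at ALL primes `p ∤ N`;
* `s48t_irreducible_of_goodAt` : a finite-level `ρ` with `tr ρ(Frob_p) = a_p(f)` for `p ∤ N` is irreducible
  (Chebotarev + Rankin, via `s48r_irreducible_of_chebotarev`);
* `s48t_stage2` : `s48t_Char0Family` ⇒ the S48 conclusion.
-/
import Fermat.Agent.Lib.S48.TStage2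

set_option autoImplicit false
set_option linter.style.haveILetI false

noncomputable section

namespace Fermat.Agent.Lib.S48

open Matrix CongruenceSubgroup

local notation "Γℚ" => (AlgebraicClosure ℚ ≃ₐ[ℚ] AlgebraicClosure ℚ)

theorem s48t_goodAt_all (hcheb : s48t_Chebotarev) {N : ℕ} (hN : N ≠ 0) {a e : ℕ → ℂ} {n₀ : ℕ}
    (hn₀ : 0 < n₀) {ℓ₁ ℓ₂ : ℕ} (hℓ₁ : ℓ₁.Prime) (hℓ₂ : ℓ₂.Prime) (hne : ℓ₁ ≠ ℓ₂)
    {ρ₁ ρ₂ : Γℚ →* GL (Fin 2) ℂ}
    (hfin₁ : GaloisFactorsThroughFiniteLevel ρ₁) (hfin₂ : GaloisFactorsThroughFiniteLevel ρ₂)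
    (hord₁ : ∀ σ : Γℚ, ρ₁ σ ^ n₀ = 1)
    (h₁ : s48t_GoodAt a e (N * ℓ₁) ρ₁) (h₂ : s48t_GoodAt a e (N * ℓ₂) ρ₂) :
    s48t_GoodAt a e N ρ₁ := by
  have hM₁ : N * ℓ₁ ≠ 0 := mul_ne_zero hN hℓ₁.ne_zero
  have hM₂ : N * ℓ₂ ≠ 0 := mul_ne_zero hN hℓ₂.ne_zero
  have htr := s48t_trace_eq_of_goodAt hcheb hM₁ hM₂ hfin₁ hfin₂ h₁ h₂
  intro p hp hpN A hA
  by_cases hpℓ : p = ℓ₁
  · have hp2 : ¬ p ∣ N * ℓ₂ := by
      intro h
      rcases (Nat.Prime.dvd_mul hp).mp h with h | h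
      · exact hpN h
      · exact hne (hpℓ.symm.trans ((Nat.prime_dvd_prime_iff_eq hp hℓ₂).mp h))
    obtain ⟨hin, hfr⟩ := h₂ p hp hp2 A hA
    refine ⟨fun σ hσ => ?_, fun σ hσ => ?_⟩
    · exact s48t_ker_le_of_trace_eq (fun τ => ((htr τ).1).symm) hn₀.ne' hord₁ (hin σ hσ)
    · obtain ⟨ht, hd⟩ := hfr σ hσ
      exact ⟨((htr σ).1).trans ht, ((htr σ).2).trans hd⟩
  · have hp1 : ¬ p ∣ N * ℓ₁ := by
      intro h
      rcases (Nat.Prime.dvd_mul hp).mp h with h | h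
      · exact hpN h
      · exact hpℓ ((Nat.prime_dvd_prime_iff_eq hp hℓ₁).mp h)
    exact h₁ p hp hp1 A hA

theorem s48t_irreducible_of_goodAt (hcheb : s48t_Chebotarev) {N : ℕ} [NeZero N]
    {f : CuspForm (Gamma1 N) 1} {e : ℕ → ℂ}
    (hf₁ : ModularFormClass.qCoeff f 1 = 1)
    (hT : ∀ p : ℕ, p.Prime → ¬ p ∣ N → ∀ n : ℕ,
      ModularFormClass.qCoeff f (p * n) +
          e p * (if p ∣ n then ModularFormClass.qCoeff f (n / p) else 0) =
        ModularFormClass.qCoeff f p * ModularFormClass.qCoeff f n)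
    {ρ : Γℚ →* GL (Fin 2) ℂ} (hfin : GaloisFactorsThroughFiniteLevel ρ)
    (hgood : s48t_GoodAt (fun p => ModularFormClass.qCoeff f p) e N ρ) :
    (Deformation.matrixRepresentation ρ).IsIrreducible := by
  classical
  haveI : Finite ρ.range := by
    have := s48t_finite_range hfin
    rw [← MonoidHom.coe_range] at this
    exact this.to_subtype
  letI : Fintype ρ.range := Fintype.ofFinite _
  have hN : N ≠ 0 := NeZero.ne N
  choose Afun σfun hAfun hσfun using s48t_exists_frob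
  set π : Γℚ →* ρ.range := ρ.rangeRestrict with hπ
  set Fr : ℕ → ρ.range := fun p => if h : p.Prime then π (σfun p h) else 1 with hFr
  refine s48r_irreducible_of_chebotarev hf₁ hT ρ π ρ.rangeRestrict_surjective ρ.range.subtype
    (fun γ => rfl) N (dvd_refl N) Fr (fun p hp hpN => ?_) (fun κ => ?_)
  · have : Fr p = π (σfun p hp) := by rw [hFr]; simp only [dif_pos hp]
    rw [this]
    exact ((hgood p hp hpN (Afun p hp) (hAfun p hp)).2 (σfun p hp) (hσfun p hp)).1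
  · set C : Set ρ.range := {g | ConjClasses.mk g = κ} with hC
    have hCconj : ∀ g h : ρ.range, g ∈ C → h * g * h⁻¹ ∈ C := by
      intro g h hg
      rw [hC, Set.mem_ofPred_eq] at hg ⊢
      rw [← hg, ConjClasses.mk_eq_mk_iff_isConj, isConj_comm, isConj_iff]
      exact ⟨h, rfl⟩
    have hdens := hcheb ρ.range π ρ.rangeRestrict_surjective
      (s48t_finiteLevel_rangeRestrict hfin) N.primeFactors (fun p hp hpS A hA σ hσ => by
        have hpN : ¬ p ∣ N := fun h => hpS (Nat.mem_primeFactors.mpr ⟨hp, h, hN⟩)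
        apply Subtype.ext
        rw [hπ, MonoidHom.coe_rangeRestrict, (hgood p hp hpN A hA).1 σ hσ]
        rfl) C hCconj
    have hcard : ((Nat.card C : ℝ) / Nat.card ρ.range) =
        ((s48r_classCard κ : ℝ) / Fintype.card ρ.range) := by
      congr 2
      · rw [Nat.card_eq_fintype_card]
        unfold s48r_classCard
        exact Fintype.card_of_subtype _ (fun x => by rw [Finset.mem_filter]; simp [hC])
      · exact Nat.card_eq_fintype_card
    rw [hcard] at hdens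
    refine s48t_lowerDensity_mono hdens ?_
    rintro p ⟨hp, hpS, hfrob⟩
    have hpN : ¬ p ∣ N := fun h => hpS (Nat.mem_primeFactors.mpr ⟨hp, h, hN⟩)
    refine ⟨⟨hp, hpN⟩, ?_⟩
    have : Fr p = π (σfun p hp) := by rw [hFr]; simp only [dif_pos hp]
    rw [this]
    exact hfrob (Afun p hp) (hAfun p hp) (σfun p hp) (hσfun p hp)

/-- **Stage II**: characteristic-zero realisations at infinitely many `ℓ` ⇒ the S48 conclusion. -/
theorem s48t_stage2 (hcheb : s48t_Chebotarev) {N : ℕ} [NeZero N]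
    {f : CuspForm (Gamma1 N) 1} {e : ℕ → ℂ}
    (hf₁ : ModularFormClass.qCoeff f 1 = 1)
    (hT : ∀ p : ℕ, p.Prime → ¬ p ∣ N → ∀ n : ℕ,
      ModularFormClass.qCoeff f (p * n) +
          e p * (if p ∣ n then ModularFormClass.qCoeff f (n / p) else 0) =
        ModularFormClass.qCoeff f p * ModularFormClass.qCoeff f n)
    (hfam : s48t_Char0Family N (fun p => ModularFormClass.qCoeff f p) e) :
    ∃ ρ : Γℚ →* GL (Fin 2) ℂ, GaloisFactorsThroughFiniteLevel ρ ∧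
      (Deformation.matrixRepresentation ρ).IsIrreducible ∧
      s48t_GoodAt (fun p => ModularFormClass.qCoeff f p) e N ρ := by
  have hN : N ≠ 0 := NeZero.ne N
  obtain ⟨n₀, hn₀, hgood⟩ := s48t_goodAt_of_family hfam
  obtain ⟨ℓ₁, hℓ₁, -, ρ₁, hfin₁, hord₁, h₁⟩ := hgood 0
  obtain ⟨ℓ₂, hℓ₂, hlt, ρ₂, hfin₂, -, h₂⟩ := hgood ℓ₁
  have hall := s48t_goodAt_all hcheb hN hn₀ hℓ₁ hℓ₂ (ne_of_lt hlt) hfin₁ hfin₂ hord₁ h₁ h₂
  exact ⟨ρ₁, hfin₁, s48t_irreducible_of_goodAt hcheb hf₁ hT hfin₁ hall, hall⟩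

end Fermat.Agent.Lib.S48
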