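/-
DS-1 (S48), wall [T1] (helper7, prefix `s48t_`): **the top reduction (DS §8), assembled**.
`s48t_main` : Chebotarev [T2] (`s48t_Chebotarev`) + DS Prop. 5.5 [T3]/(D3) (`s48t_P55`) + the family of mod-`ℓ`
representations (D2) (`s48t_Family`, or `s48t_FamilyR`) ⇒ the conclusion of S48, verbatim.
(DS Prop. 7.2 = helper8's `s48e_prop72_semisimplification_field`, lifting = helper2's `s48l_lift_complex_field`,
Rankin = `s48r_*`, all proved.)
-/
import Fermat.Agent.Lib.S48.TStage1b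
import Fermat.Agent.Lib.S48.TStage2b
import Fermat.Agent.Lib.S48.TFamR
import Fermat.Agent.Lib.S48.LResF

set_option autoImplicit false
set_option linter.style.haveILetI false

noncomputable section

namespace Fermat.Agent.Lib.S48

open Matrix CongruenceSubgroup

local notation "Γℚ" => (AlgebraicClosure ℚ ≃ₐ[ℚ] AlgebraicClosure ℚ)

/-- (D4-b) holds (helper2). -/
theorem s48t_lift_holds : s48t_Lift := by
  intro ℓ _ F _ _ _ kf _ j φ G _ _ hG ρb
  haveI : CharP kf ℓ := charP_of_injective_ringHom j.injective ℓ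
  exact s48l_lift_complex_field ℓ j φ hG ρb

/-- **[T1]**: the top reduction of Deligne–Serre §8. -/
theorem s48t_main (hcheb : s48t_Chebotarev)
    (N : ℕ) [NeZero N] (ε : DirichletCharacter ℂ N) (f : CuspForm (Gamma1 N) 1)
    (hf₁ : ModularFormClass.qCoeff f 1 = 1)
    (hT : ∀ p : ℕ, p.Prime → ¬ p ∣ N → ∀ n : ℕ,
        ModularFormClass.qCoeff f (p * n) +
            ε (p : ZMod N) * (if p ∣ n then ModularFormClass.qCoeff f (n / p) else 0) =
          ModularFormClass.qCoeff f p * ModularFormClass.qCoeff f n)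
    (hP55 : s48t_P55 N (fun p => ModularFormClass.qCoeff f p))
    (hfam : s48t_Family N (fun p => ModularFormClass.qCoeff f p) (fun p => ε (p : ZMod N))) :
    ∃ ρ : Γℚ →* GL (Fin 2) ℂ, GaloisFactorsThroughFiniteLevel ρ ∧
      (Deformation.matrixRepresentation ρ).IsIrreducible ∧
      ∀ p : ℕ, p.Prime → ¬ p ∣ N →
        ∀ A : ValuationSubring (AlgebraicClosure ℚ), A.LiesOverPrime p →
          (∀ σ ∈ A.inertiaSubgroupIn ℚ, ρ σ = 1) ∧
          ∀ σ : Γℚ, A.IsFrobeniusAt σ p →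
            ((ρ σ : GL (Fin 2) ℂ) : Matrix (Fin 2) (Fin 2) ℂ).trace = ModularFormClass.qCoeff f p ∧
            ((ρ σ : GL (Fin 2) ℂ) : Matrix (Fin 2) (Fin 2) ℂ).det = ε (p : ZMod N) := by
  classical
  have hN : N ≠ 0 := NeZero.ne N
  have hE : ∀ p : ℕ, p.Prime → ¬ p ∣ N →
      (fun p : ℕ => ε (p : ZMod N)) p ∈ (Finset.univ : Finset (ZMod N)).image (fun x => ε x) :=
    fun p _ _ => Finset.mem_image.mpr ⟨(p : ZMod N), Finset.mem_univ _, rfl⟩
  have h0 := s48t_stage1 hcheb s48t_lift_holds hN hP55 hE hfam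
  obtain ⟨ρ, hfin, hirr, hgood⟩ := s48t_stage2 hcheb hf₁ hT h0
  exact ⟨ρ, hfin, hirr, hgood⟩

/-- the same with the family in ring form. -/
theorem s48t_main_R (hcheb : s48t_Chebotarev)
    (N : ℕ) [NeZero N] (ε : DirichletCharacter ℂ N) (f : CuspForm (Gamma1 N) 1)
    (hf₁ : ModularFormClass.qCoeff f 1 = 1)
    (hT : ∀ p : ℕ, p.Prime → ¬ p ∣ N → ∀ n : ℕ,
        ModularFormClass.qCoeff f (p * n) +
            ε (p : ZMod N) * (if p ∣ n then ModularFormClass.qCoeff f (n / p) else 0) =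
          ModularFormClass.qCoeff f p * ModularFormClass.qCoeff f n)
    (hP55 : s48t_P55 N (fun p => ModularFormClass.qCoeff f p))
    (hfam : s48t_FamilyR N (fun p => ModularFormClass.qCoeff f p) (fun p => ε (p : ZMod N))) :
    ∃ ρ : Γℚ →* GL (Fin 2) ℂ, GaloisFactorsThroughFiniteLevel ρ ∧
      (Deformation.matrixRepresentation ρ).IsIrreducible ∧
      ∀ p : ℕ, p.Prime → ¬ p ∣ N →
        ∀ A : ValuationSubring (AlgebraicClosure ℚ), A.LiesOverPrime p →
          (∀ σ ∈ A.inertiaSubgroupIn ℚ, ρ σ = 1) ∧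
          ∀ σ : Γℚ, A.IsFrobeniusAt σ p →
            ((ρ σ : GL (Fin 2) ℂ) : Matrix (Fin 2) (Fin 2) ℂ).trace = ModularFormClass.qCoeff f p ∧
            ((ρ σ : GL (Fin 2) ℂ) : Matrix (Fin 2) (Fin 2) ℂ).det = ε (p : ZMod N) :=
  s48t_main hcheb N ε f hf₁ hT hP55 (s48t_family_of_familyR hfam)

end Fermat.Agent.Lib.S48
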