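/-
DS-1 (S48), wall [T1] (helper7, prefix `s48t_`): **DS Prop. 5.5 from the Rankin bound of all conjugates**.
* `s48t_p55_of_rankin` : if the `a_p` (`p ∤ N`) are (images of) algebraic integers `α_p` of a number field `K` and
  for EVERY embedding `σ : K →+* ℂ` the primes with `|σ(α_p)|² ≥ c` have upper density `≤ 1/c` (Rankin), then off a
  set of primes of arbitrarily small upper Dirichlet density the `a_p` take finitely many values (`s48t_P55`).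
  (`NumberField.Embeddings.finite_of_norm_le`.)
* `s48t_p55_of_conj`   : the same from linear mean-square bounds `∑_{n ≤ X} |σ(α_n)|² ≤ C_σ·X` of all conjugate
  sequences (elementary Rankin `s48r_rankin` for each `σ`).
-/
import Fermat.Agent.Lib.S48.TIface
import Fermat.Agent.Lib.S48.RRankin

set_option autoImplicit false

noncomputable section

namespace Fermat.Agent.Lib.S48

open Finset

theorem s48t_p55_of_rankin {N : ℕ} {a : ℕ → ℂ} (K : Type) [Field K] [NumberField K]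
    (ι : K →+* ℂ) (α : ℕ → K)
    (hαint : ∀ p : ℕ, p.Prime → ¬ p ∣ N → IsIntegral ℤ (α p))
    (hα : ∀ p : ℕ, p.Prime → ¬ p ∣ N → ι (α p) = a p)
    (hrank : ∀ σ : K →+* ℂ, ∀ c : ℝ, 0 ≤ c → ∃ C : ℝ, ∀ P : Finset ℕ,
      (∀ p ∈ P, p.Prime ∧ ¬ p ∣ N ∧ c ≤ ‖σ (α p)‖ ^ 2) → ∀ s : ℝ, 1 < s → s ≤ 2 →
        c * ∑ p ∈ P, (p : ℝ) ^ (-s) ≤ Real.log (1 / (s - 1)) + C) :
    s48t_P55 N a := by
  classical
  intro η hη
  set m : ℕ := Fintype.card (K →+* ℂ) with hm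
  have hm0 : 0 < m := Fintype.card_pos_iff.mpr ⟨ι⟩
  have hmR : (0 : ℝ) < m := by exact_mod_cast hm0
  set c : ℝ := m / η with hc
  have hc0 : 0 < c := div_pos hmR hη
  choose Cσ hCσ using fun σ => hrank σ c hc0.le
  set X : Set ℕ := {p | p.Prime ∧ ¬ p ∣ N ∧ ∃ σ : K →+* ℂ, c ≤ ‖σ (α p)‖ ^ 2} with hX
  have hfin := NumberField.Embeddings.finite_of_norm_le K ℂ (Real.sqrt c)
  refine ⟨X, hfin.toFinset.image ι, ?_, ?_⟩
  · -- upper density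
    refine ⟨(∑ σ : K →+* ℂ, Cσ σ) / c, fun P hP s hs hs2 => ?_⟩
    have hterm : ∀ p ∈ P, (0 : ℝ) ≤ (p : ℝ) ^ (-s) := fun p _ =>
      Real.rpow_nonneg (Nat.cast_nonneg p) _
    have h1 : ∑ p ∈ P, (p : ℝ) ^ (-s) ≤
        ∑ σ : K →+* ℂ, ∑ p ∈ P.filter (fun p => c ≤ ‖σ (α p)‖ ^ 2), (p : ℝ) ^ (-s) := by
      have : ∀ σ : K →+* ℂ, ∑ p ∈ P.filter (fun p => c ≤ ‖σ (α p)‖ ^ 2), (p : ℝ) ^ (-s) =
          ∑ p ∈ P, if c ≤ ‖σ (α p)‖ ^ 2 then (p : ℝ) ^ (-s) else 0 := fun σ => sum_filter _ _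
      simp_rw [this]
      rw [sum_comm]
      refine sum_le_sum fun p hp => ?_
      obtain ⟨-, -, σ₀, hσ₀⟩ := hP p hp
      have h2 : (if c ≤ ‖σ₀ (α p)‖ ^ 2 then (p : ℝ) ^ (-s) else 0) ≤
          ∑ σ : K →+* ℂ, if c ≤ ‖σ (α p)‖ ^ 2 then (p : ℝ) ^ (-s) else 0 :=
        single_le_sum (f := fun σ : K →+* ℂ => if c ≤ ‖σ (α p)‖ ^ 2 then (p : ℝ) ^ (-s) else 0)
          (fun σ _ => by split_ifs <;> [exact hterm p hp; exact le_refl _]) (mem_univ σ₀)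
      rw [if_pos hσ₀] at h2
      exact h2
    have h2 : ∀ σ : K →+* ℂ, ∑ p ∈ P.filter (fun p => c ≤ ‖σ (α p)‖ ^ 2), (p : ℝ) ^ (-s) ≤
        (Real.log (1 / (s - 1)) + Cσ σ) / c := by
      intro σ
      rw [le_div_iff₀ hc0, mul_comm]
      refine hCσ σ _ (fun p hp => ?_) s hs hs2
      obtain ⟨hpP, hpc⟩ := mem_filter.mp hp
      exact ⟨(hP p hpP).1, (hP p hpP).2.1, hpc⟩
    calc ∑ p ∈ P, (p : ℝ) ^ (-s)
        ≤ ∑ σ : K →+* ℂ, (Real.log (1 / (s - 1)) + Cσ σ) / c := h1.trans (sum_le_sum fun σ _ => h2 σ)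
      _ = η * Real.log (1 / (s - 1)) + (∑ σ : K →+* ℂ, Cσ σ) / c := by
        rw [← sum_div, sum_add_distrib, sum_const, card_univ, ← hm, nsmul_eq_mul, add_div, hc]
        field_simp
  · intro p hp hpN hpX
    rw [mem_image]
    refine ⟨α p, ?_, hα p hp hpN⟩
    rw [Set.Finite.mem_toFinset]
    refine ⟨hαint p hp hpN, fun σ => ?_⟩
    have hlt : ‖σ (α p)‖ ^ 2 < c := by
      by_contra hcon
      rw [not_lt] at hcon
      exact hpX ⟨hp, hpN, σ, hcon⟩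
    exact Real.le_sqrt_of_sq_le hlt.le

theorem s48t_p55_of_conj {N : ℕ} {a : ℕ → ℂ} (K : Type) [Field K] [NumberField K]
    (ι : K →+* ℂ) (α : ℕ → K) (hαint : ∀ n, IsIntegral ℤ (α n)) (hα : ∀ n, ι (α n) = a n)
    (ha1 : a 1 = 1)
    (hmul : ∀ p : ℕ, p.Prime → ¬ p ∣ N → ∀ n : ℕ, ¬ p ∣ n → a (p * n) = a p * a n)
    (hmean : ∀ σ : K →+* ℂ, ∃ C : ℝ, ∀ X : ℕ, ∑ n ∈ range X, ‖σ (α (n + 1))‖ ^ 2 ≤ C * X) :
    s48t_P55 N a := by
  classical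
  -- relations in `K`
  have hα1 : α 1 = 1 := ι.injective (by rw [hα, ha1, map_one])
  have hαmul : ∀ p : ℕ, p.Prime → ¬ p ∣ N → ∀ n : ℕ, ¬ p ∣ n → α (p * n) = α p * α n := by
    intro p hp hpN n hpn
    apply ι.injective
    rw [map_mul, hα, hα, hα, hmul p hp hpN n hpn]
  refine s48t_p55_of_rankin K ι α (fun p _ _ => hαint p) (fun p _ _ => hα p) fun σ c hc0 => ?_
  obtain ⟨Kσ, hKσ⟩ := hmean σ
  refine ⟨Real.log (2 * Kσ) + c ^ 2, fun P hP s hs hs2 => ?_⟩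
  have := s48r_rankin (b := fun n => ‖σ (α n)‖ ^ 2) (Pr := {p : ℕ | p.Prime ∧ ¬ p ∣ N})
    (fun n => by positivity) (by simp [hα1]) (fun p hp => hp.1)
    (fun p hp n hpn => by
      rw [hαmul p hp.1 hp.2 n hpn, map_mul, norm_mul, mul_pow])
    hKσ P (fun p hp => ⟨(hP p hp).1, (hP p hp).2.1⟩) (fun _ => c) c (fun _ _ => hc0)
    (fun p hp => (hP p hp).2.2) (fun _ _ => le_refl _) hs hs2
  rw [← mul_sum] at this
  linarith

end Fermat.Agent.Lib.S48
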