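/-
DS-1 (S48), wall [T1] (helper7, prefix `s48t_`): **DS Prop. 5.5 from [T3]** (`s48i_Rat` of `Iface.lean`):
`s48t_p55_of_rat`.
-/
import Fermat.Agent.Lib.S48.Iface
import Fermat.Agent.Lib.S48.TP55
import Fermat.Agent.Lib.S48.RRankinInst

set_option autoImplicit false
set_option linter.style.haveILetI false

noncomputable section

namespace Fermat.Agent.Lib.S48

open Finset CongruenceSubgroup

theorem s48t_p55_of_rat (hrat : s48i_Rat) (N : ℕ) [NeZero N] (ε : DirichletCharacter ℂ N)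
    (f : CuspForm (Gamma1 N) 1) (h : s48i_Hyp N ε f) :
    s48t_P55 N (fun p => ModularFormClass.qCoeff f p) := by
  classical
  obtain ⟨K, hKfin, -, hint, hK, hconj⟩ := hrat N ε f h
  haveI : NumberField K := { to_finiteDimensional := hKfin }
  set α : ℕ → K := fun p =>
    if hp : p.Prime ∧ ¬ p ∣ N then ⟨ModularFormClass.qCoeff f p, hK p hp.1 hp.2⟩ else 0 with hα
  have hαp : ∀ p : ℕ, ∀ hp : p.Prime, ∀ hpN : ¬ p ∣ N,
      α p = ⟨ModularFormClass.qCoeff f p, hK p hp hpN⟩ := by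
    intro p hp hpN
    rw [hα]
    simp only [dif_pos (And.intro hp hpN)]
  refine s48t_p55_of_rankin K (algebraMap K ℂ) α (fun p hp hpN => ?_) (fun p hp hpN => ?_)
    (fun σ c hc => ?_)
  · rw [hαp p hp hpN]
    have h1 : IsIntegral ℤ (algebraMap K ℂ ⟨ModularFormClass.qCoeff f p, hK p hp hpN⟩) :=
      hint p hp hpN
    exact (isIntegral_algebraMap_iff (algebraMap K ℂ).injective).mp h1
  · rw [hαp p hp hpN]
    rfl
  · obtain ⟨N', hN', ε', f', -, hprimes, hHyp', hcoef⟩ := hconj σ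
    haveI := hN'
    obtain ⟨C, hC⟩ := s48r_rankin_density (f := f') (e := fun p => ε' (p : ZMod N')) hHyp'.1
      hHyp'.2 c hc
    refine ⟨C, fun P hP s hs hs2 => hC P (fun p hp => ?_) s hs hs2⟩
    obtain ⟨hpp, hpN, hpc⟩ := hP p hp
    refine ⟨hpp, fun hdvd => hpN (hprimes p hpp hdvd), ?_⟩
    rw [hcoef p hpp hpN, ← hαp p hpp hpN]
    exact hpc

end Fermat.Agent.Lib.S48
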