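/-
DS-1 (S48), wall [T1] (helper7, prefix `s48t_`): **`s48i_Top s48t_Chebotarev`** (the Level-1 statement of
`Iface.lean`), modulo the bridge `s48i_ModL ⇒ s48t_Family` (helper2's (Y3)):
`s48t_top_of_family`.
-/
import Fermat.Agent.Lib.S48.TMain
import Fermat.Agent.Lib.S48.TRat

set_option autoImplicit false

noncomputable section

namespace Fermat.Agent.Lib.S48

open CongruenceSubgroup

theorem s48t_top_of_family
    (hfamily : s48i_Rat → s48i_ModL → ∀ (N : ℕ) [NeZero N] (ε : DirichletCharacter ℂ N)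
      (f : CuspForm (Gamma1 N) 1), s48i_Hyp N ε f →
        s48t_Family N (fun p => ModularFormClass.qCoeff f p) (fun p => ε (p : ZMod N))) :
    s48i_Top s48t_Chebotarev :=
  fun hrat hmodl hcheb N _ ε f h =>
    s48t_main hcheb N ε f h.1 h.2 (s48t_p55_of_rat hrat N ε f h) (hfamily hrat hmodl N ε f h)

end Fermat.Agent.Lib.S48
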