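/-
DS-1 (S48), [GS] packaging (helper2, prefix `s48y_`): elementary `2 × 2` linear algebra used by the descent
to the residue field (DS Lemma 6.13), Mathlib only.

* `s48y_parallel`            : `v ≠ 0`, `v 0 * x 1 - v 1 * x 0 = 0` ⟹ `x = c • v`;
* `s48y_mat_of_cols`         : the matrix with prescribed columns; its determinant; `A * [x|y] = [A x | A y]`;
* `s48y_common_eigen`        : pairwise commuting matrices over an algebraically closed field have a common
                               eigenvector;
* `s48y_rank_one`            : a non-zero `2 × 2` matrix of determinant `0` is `vecMulVec u w` with `u, w ≠ 0`;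
* `s48y_mem_range_of_pow_card` : in a field `k ⊇ F` (`F` finite with `q` elements) `x ^ q = x ⟹ x ∈ F`.
-/
import Mathlib

set_option autoImplicit false

noncomputable section

namespace Fermat.Agent.Lib.S48

open Matrix

variable {k : Type*} [Field k]

/-- two vectors of `k²` with vanishing cross product are parallel. -/
theorem s48y_parallel (v x : Fin 2 → k) (hv : v ≠ 0) (h : v 0 * x 1 - v 1 * x 0 = 0) :
    ∃ c : k, x = c • v := by
  by_cases h0 : v 0 = 0
  · have h1 : v 1 ≠ 0 := by
      intro h1
      apply hv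
      funext i
      fin_cases i
      · exact h0
      · exact h1
    refine ⟨x 1 / v 1, ?_⟩
    have hx0 : x 0 = 0 := by
      rw [h0, zero_mul, zero_sub, neg_eq_zero] at h
      exact (mul_eq_zero.mp h).resolve_left h1
    funext i
    fin_cases i
    · simp [hx0, h0]
    · simp [h1]
  · refine ⟨x 0 / v 0, ?_⟩
    funext i
    fin_cases i
    · simp [h0]
    · simp only [Fin.mk_one, Pi.smul_apply, smul_eq_mul]
      field_simp
      linear_combination h

/-- the `2 × 2` matrix with columns `x`, `y`. -/
def s48y_cols (x y : Fin 2 → k) : Matrix (Fin 2) (Fin 2) k :=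
  Matrix.of fun i j => if j = 0 then x i else y i

theorem s48y_cols_det (x y : Fin 2 → k) : (s48y_cols x y).det = x 0 * y 1 - x 1 * y 0 := by
  rw [Matrix.det_fin_two]
  simp [s48y_cols]
  ring

theorem s48y_mul_cols (A : Matrix (Fin 2) (Fin 2) k) (x y : Fin 2 → k) :
    A * s48y_cols x y = s48y_cols (A *ᵥ x) (A *ᵥ y) := by
  ext i j
  fin_cases j <;> simp [s48y_cols, Matrix.mul_apply, Matrix.mulVec, dotProduct]

/-- the `2 × 2` matrix with rows `x`, `y`. -/
def s48y_rows (x y : Fin 2 → k) : Matrix (Fin 2) (Fin 2) k :=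
  Matrix.of fun i j => if i = 0 then x j else y j

theorem s48y_rows_det (x y : Fin 2 → k) : (s48y_rows x y).det = x 0 * y 1 - x 1 * y 0 := by
  rw [Matrix.det_fin_two]
  simp [s48y_rows]

theorem s48y_rows_mul (A : Matrix (Fin 2) (Fin 2) k) (x y : Fin 2 → k) :
    s48y_rows x y * A = s48y_rows (x ᵥ* A) (y ᵥ* A) := by
  ext i j
  fin_cases i <;> simp [s48y_rows, Matrix.mul_apply, Matrix.vecMul, dotProduct]

theorem s48y_rows_mul_cols (x y u v : Fin 2 → k) :
    s48y_rows x y * s48y_cols u v = !![x ⬝ᵥ u, x ⬝ᵥ v; y ⬝ᵥ u, y ⬝ᵥ v] := by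
  ext i j
  fin_cases i <;> fin_cases j <;> simp [s48y_rows, s48y_cols, Matrix.mul_apply, dotProduct]

/-- **pairwise commuting `2 × 2` matrices over an algebraically closed field have a common eigenvector.** -/
theorem s48y_common_eigen [IsAlgClosed k] {ι : Type*} (M : ι → Matrix (Fin 2) (Fin 2) k)
    (hcomm : ∀ g h : ι, M g * M h = M h * M g) :
    ∃ v : Fin 2 → k, v ≠ 0 ∧ ∀ g : ι, ∃ c : k, M g *ᵥ v = c • v := by
  by_cases hsc : ∀ g : ι, ∃ c : k, M g = c • (1 : Matrix (Fin 2) (Fin 2) k)
  · refine ⟨![1, 0], ?_, fun g => ?_⟩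
    · intro h
      have := congrFun h 0
      simp at this
    · obtain ⟨c, hc⟩ := hsc g
      exact ⟨c, by rw [hc, Matrix.smul_mulVec, Matrix.one_mulVec]⟩
  · push_neg at hsc
    obtain ⟨g₁, hg₁⟩ := hsc
    obtain ⟨lam, hlam⟩ := Module.End.exists_eigenvalue (Matrix.toLin' (M g₁))
    obtain ⟨v, hv⟩ := hlam.exists_hasEigenvector
    have hv0 : v ≠ 0 := hv.2
    have hv1 : M g₁ *ᵥ v = lam • v := by
      have := hv.apply_eq_smul
      rwa [Matrix.toLin'_apply] at this
    refine ⟨v, hv0, fun g => ?_⟩
    -- `M g v` is again in the `lam`-eigenspace of `M g₁`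
    have h2 : M g₁ *ᵥ (M g *ᵥ v) = lam • (M g *ᵥ v) := by
      rw [Matrix.mulVec_mulVec, hcomm g₁ g, ← Matrix.mulVec_mulVec, hv1, Matrix.mulVec_smul]
    apply s48y_parallel v (M g *ᵥ v) hv0
    by_contra hdet
    apply hg₁ lam
    have h3 : M g₁ * s48y_cols v (M g *ᵥ v) = (lam • 1) * s48y_cols v (M g *ᵥ v) := by
      rw [s48y_mul_cols, s48y_mul_cols, hv1, h2, Matrix.smul_mulVec, Matrix.smul_mulVec,
        Matrix.one_mulVec, Matrix.one_mulVec]
    have hu : IsUnit (s48y_cols v (M g *ᵥ v)).det := by
      rw [s48y_cols_det]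
      exact isUnit_iff_ne_zero.mpr hdet
    have h4 := congrArg (· * (s48y_cols v (M g *ᵥ v))⁻¹) h3
    simp only [Matrix.mul_assoc, Matrix.mul_nonsing_inv _ hu, Matrix.mul_one] at h4
    exact h4

/-- a non-zero `2 × 2` matrix of determinant zero has rank one. -/
theorem s48y_rank_one (a : Matrix (Fin 2) (Fin 2) k) (ha : a ≠ 0) (hdet : a.det = 0) :
    ∃ u w : Fin 2 → k, u ≠ 0 ∧ w ≠ 0 ∧ a = Matrix.vecMulVec u w := by
  rw [Matrix.det_fin_two] at hdet
  by_cases h00 : a 0 0 = 0
  · by_cases h01 : a 0 1 = 0
    · -- first row zero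
      refine ⟨![0, 1], ![a 1 0, a 1 1], ?_, ?_, ?_⟩
      · intro h
        have := congrFun h 1
        simp at this
      · intro h
        apply ha
        have e0 := congrFun h 0
        have e1 := congrFun h 1
        simp at e0 e1
        ext i j
        fin_cases i <;> fin_cases j <;> simp [h00, h01, e0, e1]
      · ext i j
        fin_cases i <;> fin_cases j <;> simp [Matrix.vecMulVec_apply, h00, h01]
    · have h10 : a 1 0 = 0 := by
        rw [h00, zero_mul, zero_sub, neg_eq_zero] at hdet
        exact (mul_eq_zero.mp hdet).resolve_left h01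
      refine ⟨![1, a 1 1 / a 0 1], ![0, a 0 1], ?_, ?_, ?_⟩
      · intro h
        have := congrFun h 0
        simp at this
      · intro h
        have := congrFun h 1
        simp at this
        exact h01 this
      · ext i j
        fin_cases i <;> fin_cases j <;> simp [Matrix.vecMulVec_apply, h00, h10]
        field_simp
  · refine ⟨![1, a 1 0 / a 0 0], ![a 0 0, a 0 1], ?_, ?_, ?_⟩
    · intro h
      have := congrFun h 0
      simp at this
    · intro h
      have := congrFun h 0
      simp at this
      exact h00 this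
    · ext i j
      fin_cases i <;> fin_cases j <;> simp [Matrix.vecMulVec_apply]
      · field_simp
      · field_simp
        linear_combination hdet

/-- in a field extension `k` of a finite field `F` with `q` elements, `x ^ q = x` forces `x ∈ F`. -/
theorem s48y_mem_range_of_pow_card {F : Type*} [Field F] [Fintype F] (j : F →+* k) (x : k)
    (hx : x ^ Fintype.card F = x) : x ∈ j.range := by
  classical
  have h1 : (Polynomial.X ^ Fintype.card F - Polynomial.X : Polynomial F).roots = Finset.univ.val :=
    FiniteField.roots_X_pow_card_sub_X F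
  have hne : (Polynomial.X ^ Fintype.card F - Polynomial.X : Polynomial F) ≠ 0 :=
    FiniteField.X_pow_card_sub_X_ne_zero F Fintype.one_lt_card
  have hsplit : (Polynomial.X ^ Fintype.card F - Polynomial.X : Polynomial F).Splits := by
    rw [Polynomial.splits_iff_card_roots, h1, FiniteField.X_pow_card_sub_X_natDegree_eq F
      Fintype.one_lt_card]
    simp
  have h2 : ((Polynomial.X ^ Fintype.card F - Polynomial.X : Polynomial F).map j).roots
      = (Finset.univ.val : Multiset F).map j := by
    rw [← h1]
    exact (hsplit.roots_map j)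
  have h3 : x ∈ ((Polynomial.X ^ Fintype.card F - Polynomial.X : Polynomial F).map j).roots := by
    rw [Polynomial.mem_roots (Polynomial.map_ne_zero hne)]
    simp [Polynomial.IsRoot, hx]
  rw [h2, Multiset.mem_map] at h3
  obtain ⟨a, -, ha⟩ := h3
  exact ⟨a, ha⟩

end Fermat.Agent.Lib.S48
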