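/-
DS-1 (S48), [GS] packaging (helper2, prefix `s48y_`): **descent to the residue field, irreducible case**
(DS Lemma 6.13 for `n = 2`), Mathlib only.

`D : G →* M₂(k)` (`k` algebraically closed, `G` a group) with finite image, all traces in the finite subfield
`j : F →+* k`, and no common eigenvector.  Then `D` is conjugate over `k` to a representation with entries in `F`.

The proof: the `F`-span `A` of the image is a finite ring; were every non-zero element of `A` invertible, `A` would
be a finite domain, hence commutative (Wedderburn), and commuting matrices have a common eigenvector.  So `A`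
contains a rank-one matrix `a = u wᵀ`; then `f g = wᵀ D(g) u = tr (a D(g)) ∈ F`, and in the basis `u, D(g₂) u`
(tested against `wᵀ, wᵀ D(h₂)`) the matrices of `D` have entries in `F`.

* `s48y_descend_conj`   : the formal descent along `P * (N g).map j = D g * P`;
* `s48y_exists_singular`: the rank-one element;
* `s48y_descent_irred`  : the irreducible case.
-/
import Fermat.Agent.Lib.S48.YLin

set_option autoImplicit false

noncomputable section

namespace Fermat.Agent.Lib.S48

open Matrix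

variable {G : Type*} [Group G] {k : Type*} [Field k] {F : Type*} [Field F]

/-- **formal descent along a conjugation.** -/
theorem s48y_descend_conj (j : F →+* k) (D : G →* Matrix (Fin 2) (Fin 2) k)
    (P : Matrix (Fin 2) (Fin 2) k) (hP : P.det ≠ 0) (N : G → Matrix (Fin 2) (Fin 2) F)
    (hN : ∀ g, P * (N g).map j = D g * P) :
    ∃ ρ : G →* GL (Fin 2) F, (∀ g, (ρ g).val = N g) ∧
      (∀ g, j (N g).trace = (D g).trace) ∧ (∀ g, j (N g).det = (D g).det) ∧
      (∀ g, D g = 1 → N g = 1) := by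
  have hPu : IsUnit P.det := isUnit_iff_ne_zero.mpr hP
  have hinj : Function.Injective (fun A : Matrix (Fin 2) (Fin 2) F => A.map j) :=
    Matrix.map_injective j.injective
  have hcancel : ∀ X Y : Matrix (Fin 2) (Fin 2) k, P * X = P * Y → X = Y := by
    intro X Y h
    have h2 := congrArg (P⁻¹ * ·) h
    simpa only [← Matrix.mul_assoc, Matrix.nonsing_inv_mul _ hPu, Matrix.one_mul] using h2
  have hmul : ∀ g h, N (g * h) = N g * N h := by
    intro g h
    apply hinj
    apply hcancel
    change P * (N (g * h)).map j = P * (N g * N h).map j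
    rw [Matrix.map_mul, hN, map_mul, Matrix.mul_assoc, ← hN h, ← Matrix.mul_assoc, ← hN g,
      Matrix.mul_assoc]
  have hone : N 1 = 1 := by
    apply hinj
    apply hcancel
    change P * (N 1).map j = P * (1 : Matrix (Fin 2) (Fin 2) F).map j
    rw [hN, map_one, Matrix.one_mul, Matrix.map_one _ (map_zero j) (map_one j), Matrix.mul_one]
  let ρ0 : G →* Matrix (Fin 2) (Fin 2) F :=
    { toFun := N
      map_one' := hone
      map_mul' := hmul }
  refine ⟨ρ0.toHomUnits, fun g => rfl, fun g => ?_, fun g => ?_, fun g hg => ?_⟩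
  · have h1 : D g = P * (N g).map j * P⁻¹ := by
      rw [hN, Matrix.mul_assoc, Matrix.mul_nonsing_inv _ hPu, Matrix.mul_one]
    rw [h1, Matrix.trace_mul_comm, ← Matrix.mul_assoc, Matrix.nonsing_inv_mul _ hPu, Matrix.one_mul]
    exact AddMonoidHom.map_trace j (N g)
  · have h1 := congrArg Matrix.det (hN g)
    rw [Matrix.det_mul, Matrix.det_mul, mul_comm] at h1
    have h2 := mul_right_cancel₀ hP h1
    rw [← h2, ← RingHom.mapMatrix_apply, ← RingHom.map_det]
  · apply hinj
    apply hcancel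
    change P * (N g).map j = P * (1 : Matrix (Fin 2) (Fin 2) F).map j
    rw [hN, hg, Matrix.one_mul, Matrix.map_one _ (map_zero j) (map_one j), Matrix.mul_one]

theorem s48y_trace_vecMulVec_mul (u w : Fin 2 → k) (X : Matrix (Fin 2) (Fin 2) k) :
    (Matrix.vecMulVec u w * X).trace = w ⬝ᵥ (X *ᵥ u) := by
  simp [Matrix.trace, Matrix.mul_apply, Matrix.vecMulVec_apply, dotProduct, Matrix.mulVec,
    Fin.sum_univ_two]
  ring

/-- **the rank-one element** of the `F`-span of the image of an irreducible `D`. -/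
theorem s48y_exists_singular [IsAlgClosed k] [Finite F] (j : F →+* k)
    (D : G →* Matrix (Fin 2) (Fin 2) k) (hfin : (Set.range D).Finite)
    (htr : ∀ g, (D g).trace ∈ j.range)
    (hirr : ¬ ∃ v : Fin 2 → k, v ≠ 0 ∧ ∀ g, ∃ c : k, D g *ᵥ v = c • v) :
    ∃ a : Matrix (Fin 2) (Fin 2) k, a ≠ 0 ∧ a.det = 0 ∧ ∀ g, (a * D g).trace ∈ j.range := by
  letI : Algebra F k := j.toAlgebra
  let A : Subalgebra F (Matrix (Fin 2) (Fin 2) k) := Algebra.adjoin F (Set.range D)
  have hspan : Subalgebra.toSubmodule A = Submodule.span F (Set.range D) := by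
    rw [Algebra.adjoin_eq_span]
    congr 1
    rw [← MonoidHom.coe_mrange, Submonoid.closure_eq]
  have hAmem : ∀ a : Matrix (Fin 2) (Fin 2) k, a ∈ A ↔ a ∈ Submodule.span F (Set.range D) := by
    intro a
    rw [← hspan]
    exact Iff.rfl
  have hAfin : Finite A := by
    haveI : Module.Finite F (Submodule.span F (Set.range D)) := Module.Finite.span_of_finite F hfin
    haveI : Finite (Submodule.span F (Set.range D)) := Module.finite_of_finite F
    have h1 : (A : Set (Matrix (Fin 2) (Fin 2) k)) = (Submodule.span F (Set.range D) : Set _) := by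
      ext a
      exact hAmem a
    have h2 : (A : Set (Matrix (Fin 2) (Fin 2) k)).Finite := by
      rw [h1]
      exact Set.toFinite _
    exact h2.to_subtype
  have hAtr : ∀ a ∈ A, ∀ g, (a * D g).trace ∈ j.range := by
    intro a ha
    rw [hAmem] at ha
    induction ha using Submodule.span_induction with
    | mem x hx =>
      obtain ⟨h, rfl⟩ := hx
      intro g
      rw [← map_mul]
      exact htr _
    | zero =>
      intro g
      rw [Matrix.zero_mul, Matrix.trace_zero]
      exact zero_mem _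
    | add x y _ _ hx hy =>
      intro g
      rw [Matrix.add_mul, Matrix.trace_add]
      exact add_mem (hx g) (hy g)
    | smul c x _ hx =>
      intro g
      rw [Matrix.smul_mul, Matrix.trace_smul, Algebra.smul_def, RingHom.algebraMap_toAlgebra]
      exact mul_mem ⟨c, rfl⟩ (hx g)
  by_contra hcon
  push_neg at hcon
  have hdet : ∀ a ∈ A, a ≠ 0 → a.det ≠ 0 := by
    intro a ha h0 hd
    obtain ⟨g, hg⟩ := hcon a h0 hd
    exact hg (hAtr a ha g)
  haveI : NoZeroDivisors A := by
    refine ⟨fun {a b} hab => ?_⟩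
    by_cases ha : a = 0
    · exact Or.inl ha
    · right
      have ha' : (a : Matrix (Fin 2) (Fin 2) k) ≠ 0 := fun h => ha (Subtype.ext h)
      have hu : IsUnit (a : Matrix (Fin 2) (Fin 2) k).det :=
        isUnit_iff_ne_zero.mpr (hdet _ a.2 ha')
      have h1 : (a : Matrix (Fin 2) (Fin 2) k) * (b : Matrix (Fin 2) (Fin 2) k) = 0 := by
        have := congrArg Subtype.val hab
        simpa using this
      have h2 := congrArg ((a : Matrix (Fin 2) (Fin 2) k)⁻¹ * ·) h1
      simp only [← Matrix.mul_assoc, Matrix.nonsing_inv_mul _ hu, Matrix.one_mul,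
        Matrix.mul_zero] at h2
      exact Subtype.ext h2
  haveI : IsDomain A := NoZeroDivisors.to_isDomain _
  have hcomm := (Finite.isDomain_to_isField A).mul_comm
  apply hirr
  refine s48y_common_eigen (fun g => D g) (fun g h => ?_)
  have := hcomm ⟨D g, Algebra.subset_adjoin ⟨g, rfl⟩⟩ ⟨D h, Algebra.subset_adjoin ⟨h, rfl⟩⟩
  exact congrArg Subtype.val this

/-- **descent to the residue field, irreducible case.** -/
theorem s48y_descent_irred [IsAlgClosed k] [Finite F] (j : F →+* k)
    (D : G →* Matrix (Fin 2) (Fin 2) k) (hfin : (Set.range D).Finite)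
    (htr : ∀ g, (D g).trace ∈ j.range)
    (hirr : ¬ ∃ v : Fin 2 → k, v ≠ 0 ∧ ∀ g, ∃ c : k, D g *ᵥ v = c • v) :
    ∃ (P : Matrix (Fin 2) (Fin 2) k) (N : G → Matrix (Fin 2) (Fin 2) F), P.det ≠ 0 ∧
      ∀ g, P * (N g).map j = D g * P := by
  obtain ⟨a, ha0, hadet, hatr⟩ := s48y_exists_singular j D hfin htr hirr
  obtain ⟨u, w, hu, hw, rfl⟩ := s48y_rank_one a ha0 hadet
  -- the matrix coefficient `f g = wᵀ D(g) u`
  have hf : ∀ g, w ⬝ᵥ (D g *ᵥ u) ∈ j.range := by
    intro g
    rw [← s48y_trace_vecMulVec_mul]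
    exact hatr g
  choose f hf using hf
  -- a basis `u, D(g₂) u`
  have h3a : ∃ g₂, u 0 * (D g₂ *ᵥ u) 1 - u 1 * (D g₂ *ᵥ u) 0 ≠ 0 := by
    by_contra hcon
    push_neg at hcon
    exact hirr ⟨u, hu, fun g => s48y_parallel u _ hu (hcon g)⟩
  obtain ⟨g₂, hg₂⟩ := h3a
  -- a dual basis `wᵀ, wᵀ D(h₂)`
  have h3b : ∃ h₂, w 0 * (w ᵥ* D h₂) 1 - w 1 * (w ᵥ* D h₂) 0 ≠ 0 := by
    by_contra hcon
    push_neg at hcon
    have hv : (![w 1, - w 0] : Fin 2 → k) ≠ 0 := by
      intro h
      apply hw
      have e0 := congrFun h 0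
      have e1 := congrFun h 1
      simp at e0 e1
      funext i
      fin_cases i
      · exact e1
      · exact e0
    refine hirr ⟨![w 1, - w 0], hv, fun g => ?_⟩
    apply s48y_parallel _ _ hv
    obtain ⟨c, hc⟩ := s48y_parallel w _ hw (hcon g)
    have h1 : w ⬝ᵥ (D g *ᵥ ![w 1, - w 0]) = 0 := by
      rw [Matrix.dotProduct_mulVec, hc]
      simp [dotProduct, Fin.sum_univ_two]
      ring
    simp only [dotProduct, Fin.sum_univ_two] at h1
    simp only [Matrix.cons_val_zero, Matrix.cons_val_one]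
    linear_combination h1
  obtain ⟨h₂, hh₂⟩ := h3b
  set P : Matrix (Fin 2) (Fin 2) k := s48y_cols u (D g₂ *ᵥ u) with hPdef
  set Q : Matrix (Fin 2) (Fin 2) k := s48y_rows w (w ᵥ* D h₂) with hQdef
  have hPdet : P.det ≠ 0 := by rw [hPdef, s48y_cols_det]; exact hg₂
  have hQdet : Q.det ≠ 0 := by rw [hQdef, s48y_rows_det]; exact hh₂
  have hQu : IsUnit Q.det := isUnit_iff_ne_zero.mpr hQdet
  have hQDP : ∀ g, Q * (D g * P)
      = (!![f g, f (g * g₂); f (h₂ * g), f (h₂ * g * g₂)] : Matrix (Fin 2) (Fin 2) F).map j := by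
    intro g
    rw [hPdef, hQdef, s48y_mul_cols, s48y_rows_mul_cols]
    have e00 : w ⬝ᵥ (D g *ᵥ u) = j (f g) := (hf g).symm
    have e01 : w ⬝ᵥ (D g *ᵥ (D g₂ *ᵥ u)) = j (f (g * g₂)) := by
      rw [hf, map_mul, Matrix.mulVec_mulVec]
    have e10 : (w ᵥ* D h₂) ⬝ᵥ (D g *ᵥ u) = j (f (h₂ * g)) := by
      rw [hf, map_mul, ← Matrix.dotProduct_mulVec, Matrix.mulVec_mulVec]
    have e11 : (w ᵥ* D h₂) ⬝ᵥ (D g *ᵥ (D g₂ *ᵥ u)) = j (f (h₂ * g * g₂)) := by
      rw [hf, map_mul, map_mul, ← Matrix.dotProduct_mulVec, Matrix.mulVec_mulVec,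
        Matrix.mulVec_mulVec, Matrix.mul_assoc]
    rw [e00, e01, e10, e11]
    ext i j'
    fin_cases i <;> fin_cases j' <;> rfl
  set S₀ : Matrix (Fin 2) (Fin 2) F := !![f 1, f (1 * g₂); f (h₂ * 1), f (h₂ * 1 * g₂)] with hS₀
  have hS : Q * P = S₀.map j := by
    have := hQDP 1
    rwa [map_one, Matrix.one_mul] at this
  have hS₀det : S₀.det ≠ 0 := by
    intro h
    have h1 : (S₀.map j).det = 0 := by
      rw [← RingHom.mapMatrix_apply, ← RingHom.map_det, h, map_zero]
    rw [← hS, Matrix.det_mul] at h1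
    rcases mul_eq_zero.mp h1 with h | h
    · exact hQdet h
    · exact hPdet h
  have hS₀u : IsUnit S₀.det := isUnit_iff_ne_zero.mpr hS₀det
  refine ⟨P, fun g => S₀⁻¹ * !![f g, f (g * g₂); f (h₂ * g), f (h₂ * g * g₂)], hPdet, fun g => ?_⟩
  have hcancel : ∀ X Y : Matrix (Fin 2) (Fin 2) k, Q * X = Q * Y → X = Y := by
    intro X Y h
    have h2 := congrArg (Q⁻¹ * ·) h
    simpa only [← Matrix.mul_assoc, Matrix.nonsing_inv_mul _ hQu, Matrix.one_mul] using h2
  apply hcancel
  rw [← Matrix.mul_assoc, hS, ← Matrix.map_mul, ← Matrix.mul_assoc, Matrix.mul_nonsing_inv _ hS₀u,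
    Matrix.one_mul, hQDP]

end Fermat.Agent.Lib.S48
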