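/-
DS-1 (S48), [GS] packaging (helper2, prefix `s48y_`): **descent to the residue field, reducible case**
(DS Lemma 6.13 for `n = 2`), Mathlib only.

`D : G →* M₂(k)` with a common eigenvector `v` (character `c`), all traces and determinants in the finite
subfield `j : F →+* k` (`q = |F|`, `σ x = x ^ q`).  The second character is `χ₂ = tr - c`.  For every `g`,
`σ (c g) ∈ {c g, χ₂ g}`; the two alternatives define subgroups covering `G`, so one of them is everything:

* `σ ∘ c = c`: both characters take values in `F` and the diagonal representation `c ⊕ χ₂` is defined over `F`;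
* `σ ∘ c = χ₂`, `σ θ ≠ θ` for `θ = c g₀`: conjugating `diag (c, σ c)` by the Vandermonde matrix of `θ, σ θ` gives
  a representation with `σ`-invariant entries, defined over `F`, without any invariant line over `F`.

In both cases the semisimplification of `D` descends to `F` (`s48y_descent_red`).
-/
import Fermat.Agent.Lib.S48.YIrred

set_option autoImplicit false

noncomputable section

namespace Fermat.Agent.Lib.S48

open Matrix

variable {G : Type*} [Group G] {k : Type*} [Field k] {F : Type*} [Field F]

/-- an eigenvalue of a `2 × 2` matrix is a root of `X² - tr X + det`. -/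
theorem s48y_eigen_quadratic (A : Matrix (Fin 2) (Fin 2) k) (v : Fin 2 → k) (hv : v ≠ 0) (c : k)
    (h : A *ᵥ v = c • v) : c ^ 2 - A.trace * c + A.det = 0 := by
  have h1 : (A - c • (1 : Matrix (Fin 2) (Fin 2) k)).det = 0 := by
    rw [← Matrix.exists_mulVec_eq_zero_iff]
    refine ⟨v, hv, ?_⟩
    rw [Matrix.sub_mulVec, h, Matrix.smul_mulVec, Matrix.one_mulVec, sub_self]
  rw [Matrix.det_fin_two] at h1
  rw [Matrix.det_fin_two, Matrix.trace_fin_two]
  simp at h1
  linear_combination h1

/-- the semisimplicity statement (in the shape of `s48t_Semisimple`) for a diagonal representation. -/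
theorem s48y_semisimple_diag (ρ : G →* GL (Fin 2) F) (a b : G → F)
    (hρ : ∀ g, (ρ g).val = !![a g, 0; 0, b g]) :
    ∀ v : Fin 2 → F, v ≠ 0 → (∀ g : G, ∃ c : F, (ρ g).val *ᵥ v = c • v) →
      ∃ w : Fin 2 → F, v 0 * w 1 - v 1 * w 0 ≠ 0 ∧ ∀ g : G, ∃ c : F, (ρ g).val *ᵥ w = c • w := by
  intro v hv _
  by_cases h0 : v 0 = 0
  · have h1 : v 1 ≠ 0 := by
      intro h1
      apply hv
      funext i
      fin_cases i
      · exact h0
      · exact h1
    refine ⟨![1, 0], by simpa using h1, fun g => ⟨a g, ?_⟩⟩
    rw [hρ]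
    funext i
    fin_cases i <;> simp [Matrix.mulVec, dotProduct]
  · refine ⟨![0, 1], by simpa using h0, fun g => ⟨b g, ?_⟩⟩
    rw [hρ]
    funext i
    fin_cases i <;> simp [Matrix.mulVec, dotProduct]

/-- **descent to the residue field, reducible case**: the semisimplification descends. -/
theorem s48y_descent_red [Fintype F] (j : F →+* k)
    (D : G →* Matrix (Fin 2) (Fin 2) k)
    (htr : ∀ g, (D g).trace ∈ j.range) (hdet : ∀ g, (D g).det ∈ j.range)
    (v : Fin 2 → k) (hv : v ≠ 0) (hred : ∀ g, ∃ c : k, D g *ᵥ v = c • v) :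
    ∃ ρ : G →* GL (Fin 2) F,
      (∀ g, j (ρ g).val.trace = (D g).trace) ∧ (∀ g, j (ρ g).val.det = (D g).det) ∧
      (∀ g, D g = 1 → ρ g = 1) ∧
      (∀ x : Fin 2 → F, x ≠ 0 → (∀ g : G, ∃ c : F, (ρ g).val *ᵥ x = c • x) →
        ∃ w : Fin 2 → F, x 0 * w 1 - x 1 * w 0 ≠ 0 ∧ ∀ g : G, ∃ c : F, (ρ g).val *ᵥ w = c • w) := by
  classical
  letI : Algebra F k := j.toAlgebra
  choose c hc using hred
  have hsmul : Function.Injective (fun a : k => a • v) := smul_left_injective k hv
  have hcmul : ∀ g h, c (g * h) = c g * c h := by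
    intro g h
    apply hsmul
    change c (g * h) • v = (c g * c h) • v
    rw [← hc, map_mul, ← Matrix.mulVec_mulVec, hc h, Matrix.mulVec_smul, hc g, smul_smul, mul_comm]
  have hcone : c 1 = 1 := by
    apply hsmul
    change c 1 • v = (1 : k) • v
    rw [← hc, map_one, Matrix.one_mulVec, one_smul]
  have hcne : ∀ g, c g ≠ 0 := by
    intro g h
    have := hcmul g g⁻¹
    rw [mul_inv_cancel, hcone, h, zero_mul] at this
    exact one_ne_zero this
  have hquad : ∀ g, c g ^ 2 - (D g).trace * c g + (D g).det = 0 :=
    fun g => s48y_eigen_quadratic (D g) v hv (c g) (hc g)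
  -- the second character
  set χ : G → k := fun g => (D g).trace - c g with hχ
  have hcχ : ∀ g, c g * χ g = (D g).det := by
    intro g
    simp only [hχ]
    linear_combination - hquad g
  have hχne : ∀ g, χ g ≠ 0 := by
    intro g h
    have h1 := hcχ g
    rw [h, mul_zero] at h1
    have h2 : (D g).det * (D g⁻¹).det = 1 := by
      rw [← Matrix.det_mul, ← map_mul, mul_inv_cancel, map_one, Matrix.det_one]
    rw [← h1, zero_mul] at h2
    exact zero_ne_one h2
  have hχmul : ∀ g h, χ (g * h) = χ g * χ h := by
    intro g h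
    have h1 : c (g * h) * χ (g * h) = c (g * h) * (χ g * χ h) := by
      rw [hcχ, map_mul, Matrix.det_mul, ← hcχ g, ← hcχ h, hcmul]
      ring
    exact mul_left_cancel₀ (hcne _) h1
  have hχone : χ 1 = 1 := by
    have := hcχ 1
    rwa [hcone, one_mul, map_one, Matrix.det_one] at this
  -- the Frobenius
  set σ : k →ₐ[F] k := FiniteField.frobeniusAlgHom F k with hσ
  have hσrange : ∀ x : k, x ∈ j.range → σ x = x := by
    rintro x ⟨a, rfl⟩
    exact σ.commutes a
  have hσmem : ∀ x : k, σ x = x → x ∈ j.range := fun x hx =>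
    s48y_mem_range_of_pow_card j x hx
  have hσc : ∀ g, σ (c g) = c g ∨ σ (c g) = χ g := by
    intro g
    have h1 : (σ (c g) - c g) * (σ (c g) - χ g) = 0 := by
      have h2 := congrArg σ (hquad g)
      rw [map_add, map_sub, map_mul, map_pow, map_zero, hσrange _ (htr g), hσrange _ (hdet g)]
        at h2
      simp only [hχ]
      linear_combination h2 - hquad g
    rcases mul_eq_zero.mp h1 with h | h
    · exact Or.inl (sub_eq_zero.mp h)
    · exact Or.inr (sub_eq_zero.mp h)
  have hσχ : ∀ g, σ (c g) + σ (χ g) = c g + χ g := by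
    intro g
    rw [← map_add]
    apply hσrange
    simp only [hχ]
    rw [add_sub_cancel]
    exact htr g
  -- the dichotomy
  have hdich : (∀ g, σ (c g) = c g) ∨ (∀ g, σ (c g) = χ g) := by
    by_contra hcon
    push_neg at hcon
    obtain ⟨⟨a, ha⟩, ⟨b, hb⟩⟩ := hcon
    have ha' : σ (c a) = χ a := (hσc a).resolve_left ha
    have hb' : σ (c b) = c b := (hσc b).resolve_right hb
    have hab : σ (c (a * b)) = χ a * c b := by rw [hcmul, map_mul, ha', hb']
    rcases hσc (a * b) with h | h
    · rw [hab, hcmul] at h
      have := mul_right_cancel₀ (hcne b) h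
      exact ha (ha'.trans this)
    · rw [hab, hχmul] at h
      have := mul_left_cancel₀ (hχne a) h
      exact hb (hb'.trans this)
  by_cases h1 : ∀ g, σ (c g) = c g
  · -- both characters are `F`-valued
    have hc' : ∀ g, c g ∈ j.range := fun g => hσmem _ (h1 g)
    have hχ' : ∀ g, χ g ∈ j.range := fun g => sub_mem (htr g) (hc' g)
    choose c₀ hc₀ using hc'
    choose χ₀ hχ₀ using hχ'
    let ρ0 : G →* Matrix (Fin 2) (Fin 2) F :=
      { toFun := fun g => !![c₀ g, 0; 0, χ₀ g]
        map_one' := by
          have e1 : c₀ 1 = 1 := j.injective (by rw [hc₀, hcone, map_one])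
          have e2 : χ₀ 1 = 1 := j.injective (by rw [hχ₀, hχone, map_one])
          rw [e1, e2]
          exact Matrix.one_fin_two.symm
        map_mul' := fun g h => by
          have e1 : c₀ (g * h) = c₀ g * c₀ h :=
            j.injective (by rw [hc₀, hcmul, map_mul, hc₀, hc₀])
          have e2 : χ₀ (g * h) = χ₀ g * χ₀ h :=
            j.injective (by rw [hχ₀, hχmul, map_mul, hχ₀, hχ₀])
          rw [e1, e2]
          ext i j'
          fin_cases i <;> fin_cases j' <;> simp [Matrix.mul_apply] }
    have hρ0 : ∀ g, (ρ0.toHomUnits g).val = !![c₀ g, 0; 0, χ₀ g] := fun g => rfl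
    refine ⟨ρ0.toHomUnits, fun g => ?_, fun g => ?_, fun g hg => ?_,
      s48y_semisimple_diag _ c₀ χ₀ hρ0⟩
    · rw [hρ0, Matrix.trace_fin_two]
      simp only [Matrix.of_apply, Matrix.cons_val', Matrix.cons_val_zero, Matrix.cons_val_one]
      rw [map_add, hc₀, hχ₀]
      simp only [hχ]
      ring
    · rw [hρ0, Matrix.det_fin_two]
      simp only [Matrix.of_apply, Matrix.cons_val', Matrix.cons_val_zero, Matrix.cons_val_one]
      rw [mul_zero, sub_zero, map_mul, hc₀, hχ₀, hcχ]
    · have e1 : c g = 1 := by
        apply hsmul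
        change c g • v = (1 : k) • v
        rw [← hc, hg, Matrix.one_mulVec, one_smul]
      have e2 : χ g = 1 := by
        have := hcχ g
        rwa [e1, one_mul, hg, Matrix.det_one] at this
      have e3 : c₀ g = 1 := j.injective (by rw [hc₀, e1, map_one])
      have e4 : χ₀ g = 1 := j.injective (by rw [hχ₀, e2, map_one])
      apply Units.ext
      rw [hρ0, e3, e4]
      exact Matrix.one_fin_two.symm
  · -- the conjugate pair
    have h2 : ∀ g, σ (c g) = χ g := hdich.resolve_left h1
    push_neg at h1
    obtain ⟨g₀, hg₀⟩ := h1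
    set θ : k := c g₀ with hθ
    have hσσ : ∀ g, σ (σ (c g)) = c g := by
      intro g
      have := hσχ g
      rw [h2 g] at this ⊢
      linear_combination this
    set δ : k := σ θ - θ with hδ
    have hδne : δ ≠ 0 := sub_ne_zero.mpr hg₀
    have hσδ : σ δ = - δ := by
      rw [hδ, map_sub, hσσ g₀]
      ring
    -- the entries
    have hn00 : ∀ g, (σ θ * c g - θ * σ (c g)) / δ ∈ j.range := by
      intro g
      apply hσmem
      rw [map_div₀, map_sub, map_mul, map_mul, hσσ, hσσ, hσδ]
      field_simp
      ring
    have hn01 : ∀ g, (θ * σ θ * (c g - σ (c g))) / δ ∈ j.range := by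
      intro g
      apply hσmem
      rw [map_div₀, map_mul, map_mul, map_sub, hσσ, hσσ, hσδ]
      field_simp
      ring
    have hn10 : ∀ g, (σ (c g) - c g) / δ ∈ j.range := by
      intro g
      apply hσmem
      rw [map_div₀, map_sub, hσσ, hσδ]
      field_simp
      ring
    have hn11 : ∀ g, (σ θ * σ (c g) - θ * c g) / δ ∈ j.range := by
      intro g
      apply hσmem
      rw [map_div₀, map_sub, map_mul, map_mul, hσσ, hσσ, hσδ]
      field_simp
      ring
    choose n00 hn00 using hn00
    choose n01 hn01 using hn01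
    choose n10 hn10 using hn10
    choose n11 hn11 using hn11
    let D' : G →* Matrix (Fin 2) (Fin 2) k :=
      { toFun := fun g => !![c g, 0; 0, σ (c g)]
        map_one' := by
          rw [hcone, map_one]
          exact Matrix.one_fin_two.symm
        map_mul' := fun g h => by
          rw [hcmul, map_mul]
          ext i j'
          fin_cases i <;> fin_cases j' <;> simp [Matrix.mul_apply] }
    have hD' : ∀ g, D' g = !![c g, 0; 0, σ (c g)] := fun g => rfl
    set P : Matrix (Fin 2) (Fin 2) k := !![1, θ; 1, σ θ] with hP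
    have hPdet : P.det ≠ 0 := by
      rw [hP, Matrix.det_fin_two]
      simp only [Matrix.of_apply, Matrix.cons_val', Matrix.cons_val_zero, Matrix.cons_val_one]
      rw [one_mul, mul_one]
      exact hδne
    obtain ⟨ρ, hρval, hρtr, hρdet, hρone⟩ := s48y_descend_conj j D' P hPdet
      (fun g => !![n00 g, n01 g; n10 g, n11 g]) (fun g => by
        rw [hD', hP]
        ext i j'
        fin_cases i <;> fin_cases j' <;>
          simp [Matrix.mul_apply, Fin.sum_univ_two, hn00, hn01, hn10, hn11] <;>
          field_simp <;> ring)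
    refine ⟨ρ, fun g => ?_, fun g => ?_, fun g hg => ?_, fun x hx hinv => ?_⟩
    · rw [hρval, hρtr, hD', Matrix.trace_fin_two]
      simp only [Matrix.of_apply, Matrix.cons_val', Matrix.cons_val_zero, Matrix.cons_val_one]
      rw [h2 g]
      simp only [hχ]
      ring
    · rw [hρval, hρdet, hD', Matrix.det_fin_two]
      simp only [Matrix.of_apply, Matrix.cons_val', Matrix.cons_val_zero, Matrix.cons_val_one]
      rw [h2 g, mul_zero, sub_zero, hcχ]
    · have e1 : c g = 1 := by
        apply hsmul
        change c g • v = (1 : k) • v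
        rw [← hc, hg, Matrix.one_mulVec, one_smul]
      apply Units.ext
      rw [hρval]
      apply hρone
      rw [hD', e1, map_one]
      exact Matrix.one_fin_two.symm
    · -- no invariant line over `F`: `ρ g₀` has the eigenvalues `θ, σ θ ∉ F`
      exfalso
      obtain ⟨e, he⟩ := hinv g₀
      have hq := s48y_eigen_quadratic (ρ g₀).val x hx e he
      have hq' := congrArg j hq
      rw [map_add, map_sub, map_mul, map_pow, map_zero, hρval, hρtr, hρdet, hD',
        Matrix.trace_fin_two, Matrix.det_fin_two] at hq'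
      simp only [Matrix.of_apply, Matrix.cons_val', Matrix.cons_val_zero, Matrix.cons_val_one]
        at hq'
      have h3 : (j e - θ) * (j e - σ θ) = 0 := by
        linear_combination hq'
      have hje : σ (j e) = j e := hσrange _ ⟨e, rfl⟩
      rcases mul_eq_zero.mp h3 with h | h
      · have h4 : j e = θ := sub_eq_zero.mp h
        rw [h4] at hje
        exact hg₀ hje
      · have h4 : j e = σ θ := sub_eq_zero.mp h
        rw [h4, hσσ g₀] at hje
        exact hg₀ hje.symm

end Fermat.Agent.Lib.S48
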