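/-
DS-1 (S48), [GS] packaging (helper2, prefix `s48y_`): **descent to the residue field** (DS Lemma 6.13 for
`n = 2`), Mathlib only.

`D : G →* M₂(k)` (`G` a group, `k` algebraically closed) with finite image, all traces and determinants in a finite
subfield `j : F →+* k`.  Then there is `ρ : G →* GL₂(F)` with the same traces and determinants, trivial wherever
`D` is, and semisimple (every invariant line has an invariant complement, the shape of `s48t_Semisimple`).
If `D` has no common eigenvector, `ρ` is conjugate to `D`; otherwise `ρ` is (a form over `F` of) the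
semisimplification of `D`.

* `s48y_descent`    : for `D : G →* Matrix (Fin 2) (Fin 2) k`;
* `s48y_descent_GL` : for `ρ' : G →* GL (Fin 2) k`.
-/
import Fermat.Agent.Lib.S48.YRed

set_option autoImplicit false

noncomputable section

namespace Fermat.Agent.Lib.S48

open Matrix

variable {G : Type*} [Group G] {k : Type*} [Field k] {F : Type*} [Field F]

/-- **descent to the residue field** (DS Lemma 6.13, `n = 2`). -/
theorem s48y_descent [IsAlgClosed k] [Finite F] (j : F →+* k)
    (D : G →* Matrix (Fin 2) (Fin 2) k) (hfin : (Set.range D).Finite)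
    (htr : ∀ g, (D g).trace ∈ j.range) (hdet : ∀ g, (D g).det ∈ j.range) :
    ∃ ρ : G →* GL (Fin 2) F,
      (∀ g, j (ρ g).val.trace = (D g).trace) ∧ (∀ g, j (ρ g).val.det = (D g).det) ∧
      (∀ g, D g = 1 → ρ g = 1) ∧
      (∀ x : Fin 2 → F, x ≠ 0 → (∀ g : G, ∃ c : F, (ρ g).val *ᵥ x = c • x) →
        ∃ w : Fin 2 → F, x 0 * w 1 - x 1 * w 0 ≠ 0 ∧ ∀ g : G, ∃ c : F, (ρ g).val *ᵥ w = c • w) := by
  classical
  haveI : Fintype F := Fintype.ofFinite F
  by_cases hred : ∃ v : Fin 2 → k, v ≠ 0 ∧ ∀ g, ∃ c : k, D g *ᵥ v = c • v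
  · obtain ⟨v, hv, hred⟩ := hred
    exact s48y_descent_red j D htr hdet v hv hred
  · obtain ⟨P, N, hP, hN⟩ := s48y_descent_irred j D hfin htr hred
    obtain ⟨ρ, hρval, hρtr, hρdet, hρone⟩ := s48y_descend_conj j D P hP N hN
    refine ⟨ρ, fun g => by rw [hρval, hρtr], fun g => by rw [hρval, hρdet],
      fun g hg => Units.ext (by rw [hρval, hρone g hg]; rfl), fun x hx hinv => ?_⟩
    exfalso
    apply hred
    refine ⟨P *ᵥ (j ∘ x), ?_, fun g => ?_⟩
    · intro h0
      apply hP
      rw [← Matrix.exists_mulVec_eq_zero_iff]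
      refine ⟨j ∘ x, ?_, h0⟩
      intro h
      apply hx
      funext i
      have := congrFun h i
      simp only [Function.comp_apply, Pi.zero_apply] at this
      exact (map_eq_zero_iff j j.injective).mp this
    · obtain ⟨e, he⟩ := hinv g
      refine ⟨j e, ?_⟩
      have h1 : (N g).map j *ᵥ (j ∘ x) = j e • (j ∘ x) := by
        funext i
        rw [← RingHom.map_mulVec, ← hρval, he]
        simp
      rw [Matrix.mulVec_mulVec, ← hN, ← Matrix.mulVec_mulVec, h1, Matrix.mulVec_smul]

/-- **descent to the residue field**, for a representation into `GL₂(k)`. -/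
theorem s48y_descent_GL [IsAlgClosed k] [Finite F] (j : F →+* k)
    (ρ' : G →* GL (Fin 2) k) (hfin : (Set.range ρ').Finite)
    (htr : ∀ g, (ρ' g).val.trace ∈ j.range) (hdet : ∀ g, (ρ' g).val.det ∈ j.range) :
    ∃ ρ : G →* GL (Fin 2) F,
      (∀ g, j (ρ g).val.trace = (ρ' g).val.trace) ∧ (∀ g, j (ρ g).val.det = (ρ' g).val.det) ∧
      (∀ g, ρ' g = 1 → ρ g = 1) ∧
      (∀ x : Fin 2 → F, x ≠ 0 → (∀ g : G, ∃ c : F, (ρ g).val *ᵥ x = c • x) →
        ∃ w : Fin 2 → F, x 0 * w 1 - x 1 * w 0 ≠ 0 ∧ ∀ g : G, ∃ c : F, (ρ g).val *ᵥ w = c • w) := by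
  have hfin' : (Set.range ((Units.coeHom (Matrix (Fin 2) (Fin 2) k)).comp ρ')).Finite := by
    have : Set.range ((Units.coeHom (Matrix (Fin 2) (Fin 2) k)).comp ρ')
        = (fun u : GL (Fin 2) k => u.val) '' Set.range ρ' := by
      ext A
      simp [Set.mem_image]
    rw [this]
    exact hfin.image _
  obtain ⟨ρ, h1, h2, h3, h4⟩ := s48y_descent j ((Units.coeHom _).comp ρ') hfin' htr hdet
  refine ⟨ρ, h1, h2, fun g hg => h3 g ?_, h4⟩
  change (ρ' g).val = 1
  rw [hg]
  rfl

end Fermat.Agent.Lib.S48
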