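/-
DS-1 (S48), [GS] packaging (helper2, prefix `s48y_`): **the bridge from a residual representation over an
algebraically closed `k` (the shape of `s48i_ModL`) to the body of `s48t_Family`** (a representation over a
finite field `F ⊆ k` of bounded degree).

Input, for one prime `ℓ`: `k` algebraically closed of characteristic `ℓ`, a residue map `φ : ℤ̄ →+* k`,
`ρ : ResidualGaloisRep k` unramified at every `p ∤ Nℓ` with
`charpoly ρ(Frob_p) = X² - φ(a_p) X + φ(e_p)`, and a subring `R ⊆ ℂ` generated by `n` elements as a `ℤ`-module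
and containing all `a_p`, `e_p` (`p ∤ N`).

Output: a finite field `F ⊆ k`, `|F| ≤ ℓ ^ n`, and `ρ_F : G_ℚ →* GL₂(F)` of finite level, unramified outside `Nℓ`,
with `tr ρ_F(Frob_p) = φ(a_p)`, `det ρ_F(Frob_p) = φ(e_p)` in `k`.

Proof: `F := φ(R)` is a finite subring of a field, hence a subfield, with at most `ℓ ^ n` elements.  By the
Frobenius density theorem (`s29d_frobDensity`, landed) every `g ∈ G_ℚ` acts through the finite level as a power of
a Frobenius at some `p ∤ Nℓ`, so all traces and determinants of `ρ` lie in `F` (Cayley–Hamilton recurrence); the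
descent `s48y_descent` concludes.
-/
import Fermat.Agent.Lib.S48.YDescent
import Fermat.Agent.Lib.S29.FDPlace
import Fermat.Prelude.Def_GaloisRep_Residual

set_option autoImplicit false

noncomputable section

namespace Fermat.Agent.Lib.S48

open Matrix Polynomial

local notation "Γℚ" => (AlgebraicClosure ℚ ≃ₐ[ℚ] AlgebraicClosure ℚ)
local notation "𝓞" => integralClosure ℤ ℂ

/-- traces of powers of a `2 × 2` matrix lie in any subring containing its trace and determinant. -/
theorem s48y_trace_pow_mem {k : Type*} [Field k] (S : Subring k) (M : Matrix (Fin 2) (Fin 2) k)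
    (ht : M.trace ∈ S) (hd : M.det ∈ S) : ∀ n : ℕ, (M ^ n).trace ∈ S := by
  have hCH : M * M = M.trace • M - M.det • (1 : Matrix (Fin 2) (Fin 2) k) := by
    ext i j
    fin_cases i <;> fin_cases j <;>
      simp [Matrix.mul_apply, Fin.sum_univ_two, Matrix.trace_fin_two, Matrix.det_fin_two] <;> ring
  intro n
  induction n using Nat.twoStepInduction with
  | zero =>
    rw [pow_zero, Matrix.trace_one]
    exact natCast_mem S _
  | one => rwa [pow_one]
  | more n h0 h1 =>
    have h2 : M ^ (n + 2) = M.trace • M ^ (n + 1) - M.det • M ^ n := by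
      rw [pow_add, pow_two, hCH, Matrix.mul_sub, Matrix.mul_smul, Matrix.mul_smul, Matrix.mul_one,
        ← pow_succ]
    rw [h2, Matrix.trace_sub, Matrix.trace_smul, Matrix.trace_smul, smul_eq_mul, smul_eq_mul]
    exact sub_mem (mul_mem ht h1) (mul_mem hd h0)

/-- the image of a ring generated by `n` elements as a `ℤ`-module in a field of characteristic `ℓ` lies in a
finite subfield with at most `ℓ ^ n` elements. -/
theorem s48y_exists_finite_subfield {R : Type*} [CommRing R] (n : ℕ) (gens : Fin n → R)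
    (hgens : Submodule.span ℤ (Set.range gens) = ⊤) {k : Type*} [Field k] (ℓ : ℕ) [Fact ℓ.Prime]
    [CharP k ℓ] (ψ : R →+* k) :
    ∃ F : Subfield k, Finite F ∧ Nat.card F ≤ ℓ ^ n ∧ ∀ r : R, ψ r ∈ F := by
  classical
  -- the finite parametrisation
  let c : ZMod ℓ →+* k := ZMod.castHom (dvd_refl ℓ) k
  let g : (Fin n → ZMod ℓ) → k := fun z => ∑ i, c (z i) * ψ (gens i)
  have hsub : ∀ r : R, ψ r ∈ Set.range g := by
    intro r
    have hr : r ∈ Submodule.span ℤ (Set.range gens) := by rw [hgens]; trivial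
    obtain ⟨z, rfl⟩ := (Submodule.mem_span_range_iff_exists_fun ℤ).mp hr
    refine ⟨fun i => (z i : ZMod ℓ), ?_⟩
    simp only [g, map_sum, zsmul_eq_mul, map_mul, map_intCast]
  have hfin : (Set.range ψ).Finite := (Set.finite_range g).subset (by
    rintro _ ⟨r, rfl⟩
    exact hsub r)
  have hcard : Nat.card (Set.range ψ) ≤ ℓ ^ n := by
    calc Nat.card (Set.range ψ) ≤ Nat.card (Set.range g) :=
          Nat.card_mono (Set.finite_range g) (by
            rintro _ ⟨r, rfl⟩
            exact hsub r)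
      _ ≤ Nat.card (Fin n → ZMod ℓ) := Finite.card_range_le g
      _ = ℓ ^ n := by
          rw [Nat.card_eq_fintype_card, Fintype.card_fun, ZMod.card, Fintype.card_fin]
  -- the finite subring is a subfield
  haveI : Finite ψ.range := hfin.to_subtype
  let F : Subfield k :=
    { ψ.range with
      inv_mem' := by
        intro x hx
        by_cases hx0 : x = 0
        · rw [hx0, _root_.inv_zero]
          exact ψ.range.zero_mem
        · have hinj : Function.Injective (fun y : ψ.range => (⟨x, hx⟩ : ψ.range) * y) := by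
            intro y z hyz
            have h1 : x * (y : k) = x * (z : k) := congrArg Subtype.val hyz
            exact Subtype.ext (mul_left_cancel₀ hx0 h1)
          obtain ⟨y, hy⟩ := (Finite.injective_iff_surjective.mp hinj) 1
          have h1 : x * (y : k) = 1 := congrArg Subtype.val hy
          have h2 : x⁻¹ = (y : k) := inv_eq_of_mul_eq_one_right h1
          rw [h2]
          exact y.2 }
  have hF : ∀ x : k, x ∈ F ↔ x ∈ Set.range ψ := fun x => Iff.rfl
  refine ⟨F, hfin.to_subtype, hcard, fun r => ⟨r, rfl⟩⟩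

/-- a function on the Galois group depending only on the restriction to a finite level has finite range. -/
theorem s48y_range_finite (L : IntermediateField ℚ (AlgebraicClosure ℚ)) [FiniteDimensional ℚ L]
    {X : Type*} (f : Γℚ → X) (h : ∀ σ τ : Γℚ, (∀ y ∈ L, σ y = τ y) → f σ = f τ) :
    (Set.range f).Finite := by
  classical
  let res : Γℚ → (L →ₐ[ℚ] AlgebraicClosure ℚ) := fun σ => (σ : AlgebraicClosure ℚ →ₐ[ℚ]
    AlgebraicClosure ℚ).comp L.val
  have hfac : Function.FactorsThrough f res := by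
    intro σ τ hστ
    refine h σ τ (fun y hy => ?_)
    exact AlgHom.congr_fun hστ ⟨y, hy⟩
  have hcomp : f = Function.extend res f (fun _ => f 1) ∘ res := (hfac.extend_comp _).symm
  rw [hcomp]
  exact (Set.finite_range _).subset (Set.range_comp_subset_range _ _)

/-- **the bridge**: from a residual representation over an algebraically closed field to the body of
`s48t_Family`. -/
theorem s48y_family_body (N : ℕ) [NeZero N] (a e : ℕ → ℂ) (R : Subring ℂ) (n : ℕ) (gens : Fin n → R)
    (hgens : Submodule.span ℤ (Set.range gens) = ⊤)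
    (haR : ∀ p : ℕ, p.Prime → ¬ p ∣ N → a p ∈ R ∧ e p ∈ R)
    (ℓ : ℕ) [Fact ℓ.Prime] (k : Type) [Field k] [CharP k ℓ] [IsAlgClosed k] (φ : 𝓞 →+* k)
    (ρ : ResidualGaloisRep k)
    (hρ : ∀ p : ℕ, p.Prime → ¬ p ∣ N * ℓ → ρ.IsUnramifiedAt p ∧
      ∀ A : ValuationSubring (AlgebraicClosure ℚ), A.LiesOverPrime p →
        ∀ σ : Γℚ, A.IsFrobeniusAt σ p →
          ∃ x y : 𝓞, (x : ℂ) = a p ∧ (y : ℂ) = e p ∧
            LinearMap.charpoly (ρ.ρ σ) = X ^ 2 - C (φ x) * X + C (φ y)) :
    ∃ (F : Type) (_ : Field F) (_ : Fintype F) (_ : CharP F ℓ), Fintype.card F ≤ ℓ ^ n ∧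
    ∃ (j : F →+* k) (ρF : Γℚ →* GL (Fin 2) F),
      GaloisFactorsThroughFiniteLevel ρF ∧
      ∀ p : ℕ, p.Prime → ¬ p ∣ N * ℓ →
        ∀ A : ValuationSubring (AlgebraicClosure ℚ), A.LiesOverPrime p →
          (∀ σ ∈ A.inertiaSubgroupIn ℚ, ρF σ = 1) ∧
          ∀ σ : Γℚ, A.IsFrobeniusAt σ p →
            ∀ x y : 𝓞, (x : ℂ) = a p → (y : ℂ) = e p →
              j (ρF σ).val.trace = φ x ∧ j (ρF σ).val.det = φ y := by
  classical
  have hℓ : ℓ.Prime := Fact.out
  -- `R` consists of algebraic integers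
  haveI hRfin : Module.Finite ℤ R := by
    refine ⟨⟨Finset.univ.image gens, ?_⟩⟩
    rw [Finset.coe_image, Finset.coe_univ, Set.image_univ]
    exact hgens
  have hint : ∀ x : R, IsIntegral ℤ (x : ℂ) := fun x =>
    (IsIntegral.of_finite ℤ x).map (R.subtype.toIntAlgHom)
  let ι : R →+* 𝓞 :=
    { toFun := fun x => ⟨x.1, hint x⟩
      map_one' := rfl
      map_mul' := fun _ _ => rfl
      map_zero' := rfl
      map_add' := fun _ _ => rfl }
  obtain ⟨F, hFfin, hFcard, hFmem⟩ := s48y_exists_finite_subfield n gens hgens ℓ (φ.comp ι)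
  have hφF : ∀ x : 𝓞, (x : ℂ) ∈ R → φ x ∈ F := by
    intro x hx
    have : x = ι ⟨(x : ℂ), hx⟩ := Subtype.ext rfl
    rw [this]
    exact hFmem _
  -- matrices
  let b : Module.Basis (Fin 2) k ρ.V := Module.finBasisOfFinrankEq k ρ.V ρ.finrank_eq
  let D : Γℚ →* Matrix (Fin 2) (Fin 2) k :=
    ((LinearMap.toMatrixAlgEquiv b : Module.End k ρ.V ≃ₐ[k] Matrix (Fin 2) (Fin 2) k) :
      Module.End k ρ.V →* Matrix (Fin 2) (Fin 2) k).comp ρ.ρ
  have hD : ∀ σ, D σ = LinearMap.toMatrix b b (ρ.ρ σ) := fun σ => rfl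
  have hDone : ∀ σ, ρ.ρ σ = 1 → D σ = 1 := by
    intro σ h
    rw [hD, h]
    exact LinearMap.toMatrix_one b
  -- Frobenius elements
  have hfrob : ∀ p : ℕ, p.Prime → ¬ p ∣ N * ℓ →
      ∀ A : ValuationSubring (AlgebraicClosure ℚ), A.LiesOverPrime p →
        ∀ σ : Γℚ, A.IsFrobeniusAt σ p →
          ∀ x y : 𝓞, (x : ℂ) = a p → (y : ℂ) = e p →
            (D σ).trace = φ x ∧ (D σ).det = φ y := by
    intro p hp hpN A hA σ hσ x y hx hy
    obtain ⟨x', y', hx', hy', hchar⟩ := (hρ p hp hpN).2 A hA σ hσ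
    have ex : x' = x := Subtype.ext (hx'.trans hx.symm)
    have ey : y' = y := Subtype.ext (hy'.trans hy.symm)
    rw [ex, ey] at hchar
    have h1 : (D σ).charpoly = X ^ 2 - C (φ x) * X + C (φ y) := by
      rw [hD, LinearMap.charpoly_toMatrix, hchar]
    rw [Matrix.charpoly_fin_two] at h1
    constructor
    · have := congrArg (fun q : k[X] => q.coeff 1) h1
      simp only [coeff_add, coeff_sub, coeff_X_pow, coeff_C_mul, coeff_X_one, coeff_C] at this
      simpa using this
    · have := congrArg (fun q : k[X] => q.coeff 0) h1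
      simp only [coeff_add, coeff_sub, coeff_X_pow, coeff_C_mul, coeff_X_zero, coeff_C_zero] at this
      simpa using this
  -- the level
  obtain ⟨L₀, hL₀fd, hL₀⟩ := ρ.factorsThroughFiniteLevel
  haveI := hL₀fd
  haveI := Fermat.Agent.Lib.Frobenius.isGalois_QBar
  set L : IntermediateField ℚ (AlgebraicClosure ℚ) :=
    IntermediateField.normalClosure ℚ L₀ (AlgebraicClosure ℚ) with hLdef
  have hle : L₀ ≤ L := IntermediateField.le_normalClosure L₀
  have hnorm : Normal ℚ L := normalClosure.normal ℚ L₀ (AlgebraicClosure ℚ)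
  haveI hLfd : FiniteDimensional ℚ L := normalClosure.is_finiteDimensional ℚ L₀ (AlgebraicClosure ℚ)
  have hstab : ∀ σ : Γℚ, ∀ y ∈ L, σ y ∈ L := by
    intro σ y hy
    have h1 := IntermediateField.normal_iff_forall_map_le'.mp hnorm σ
    exact h1 ((IntermediateField.mem_map _).mpr ⟨y, hy, rfl⟩)
  have hcongr : ∀ σ τ : Γℚ, (∀ y ∈ L, σ y = τ y) → ρ.ρ σ = ρ.ρ τ := by
    intro σ τ h
    have h1 : ρ.ρ (τ⁻¹ * σ) = 1 := by
      apply hL₀
      intro y hy
      rw [AlgEquiv.mul_apply, h y (hle hy)]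
      exact τ.symm_apply_apply y
    rw [map_mul] at h1
    have h2 : ρ.ρ τ * (ρ.ρ τ⁻¹ * ρ.ρ σ) = ρ.ρ τ * 1 := by rw [h1]
    rwa [← mul_assoc, ← map_mul, mul_inv_cancel, map_one, one_mul, mul_one] at h2
  have hDfin : (Set.range D).Finite :=
    s48y_range_finite L D (fun σ τ h => by rw [hD, hD, hcongr σ τ h])
  -- all traces and determinants lie in `F`
  have hN0 : N * ℓ ≠ 0 := mul_ne_zero (NeZero.ne N) hℓ.ne_zero
  have hall : ∀ g : Γℚ, (D g).trace ∈ F.toSubring ∧ (D g).det ∈ F.toSubring := by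
    intro g
    obtain ⟨p, A, σ, m, hp, hpS, hA, hσ, hm⟩ :=
      Fermat.Agent.Lib.S29.s29d_frobDensity L hLfd hstab (N * ℓ).primeFactors g
    have hpN : ¬ p ∣ N * ℓ := fun h => hpS (Nat.mem_primeFactors.mpr ⟨hp, h, hN0⟩)
    have hpN' : ¬ p ∣ N := fun h => hpN (Dvd.dvd.mul_right h ℓ)
    obtain ⟨x, y, hx, hy, -⟩ := (hρ p hp hpN).2 A hA σ hσ
    obtain ⟨htr, hdet⟩ := hfrob p hp hpN A hA σ hσ x y hx hy
    have hxF : φ x ∈ F := hφF x (by rw [hx]; exact (haR p hp hpN').1)
    have hyF : φ y ∈ F := hφF y (by rw [hy]; exact (haR p hp hpN').2)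
    have hg : D g = D σ ^ m := by
      rw [← map_pow, hD, hD, hcongr g (σ ^ m) (fun y hy => (hm y hy).symm)]
    rw [hg]
    constructor
    · exact s48y_trace_pow_mem F.toSubring (D σ) (by rw [htr]; exact hxF) (by rw [hdet]; exact hyF) m
    · rw [Matrix.det_pow, hdet]
      exact pow_mem hyF m
  -- descent
  haveI : Finite F := hFfin
  obtain ⟨ρF, hρtr, hρdet, hρone, -⟩ := s48y_descent F.subtype D hDfin
    (fun g => ⟨⟨_, (hall g).1⟩, rfl⟩) (fun g => ⟨⟨_, (hall g).2⟩, rfl⟩)
  haveI : Fintype F := Fintype.ofFinite F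
  refine ⟨F, inferInstance, inferInstance, (RingHom.charP_iff F.subtype F.subtype.injective ℓ).mpr inferInstance, ?_,
    F.subtype, ρF, ?_, ?_⟩
  · rw [← Nat.card_eq_fintype_card]
    exact hFcard
  · exact ⟨L₀, hL₀fd, fun σ hσ => hρone σ (hDone σ (hL₀ σ hσ))⟩
  · intro p hp hpN A hA
    refine ⟨fun σ hσ => hρone σ (hDone σ ((hρ p hp hpN).1 A hA σ hσ)), ?_⟩
    intro σ hσ x y hx hy
    obtain ⟨htr, hdet⟩ := hfrob p hp hpN A hA σ hσ x y hx hy
    exact ⟨(hρtr σ).trans htr, (hρdet σ).trans hdet⟩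

end Fermat.Agent.Lib.S48
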