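/-
DS-1 (S48), [GS] packaging (helper2, prefix `s48y_`): **`s48i_ModL`-shaped input ⟹ `s48t_Family`-shaped output.**

`s48y_family`: let `R ⊆ ℂ` be a subring, finite as a `ℤ`-module, containing all `a_p`, `e_p` (`p ∤ N`), and assume
that for infinitely many primes `ℓ`, for EVERY field `k` of characteristic `ℓ` and every `φ : ℤ̄ →+* k`, there is a
`ResidualGaloisRep k` unramified at all `p ∤ Nℓ` with `charpoly ρ(Frob_p) = X² - φ(a_p) X + φ(e_p)`.  Then the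
(unfolded) statement `s48t_Family N a e` of helper7's `TIface.lean` holds: the conclusion below is that definition
verbatim, so `exact s48y_family …` closes `s48t_Family N a e`.
-/
import Fermat.Agent.Lib.S48.YFamily
import Fermat.Agent.Lib.S48.LExt

set_option autoImplicit false

noncomputable section

namespace Fermat.Agent.Lib.S48

open Matrix Polynomial

local notation "Γℚ" => (AlgebraicClosure ℚ ≃ₐ[ℚ] AlgebraicClosure ℚ)
local notation "𝓞" => integralClosure ℤ ℂ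

/-- a residue map `ℤ̄ →+* 𝔽̄_ℓ`. -/
theorem s48y_exists_residue_map (ℓ : ℕ) [Fact ℓ.Prime] :
    Nonempty (𝓞 →+* AlgebraicClosure (ZMod ℓ)) := by
  have hinj : Function.Injective (algebraMap ℤ 𝓞) := by
    intro x y h
    have h2 := congrArg (fun z : 𝓞 => (z : ℂ)) h
    simpa using h2
  obtain ⟨Φ, -⟩ := s48l_extend_residue (R₀ := ℤ) (𝒪 := 𝓞) hinj (Int.castRingHom (ZMod ℓ))
  exact ⟨Φ⟩

/-- **`s48i_ModL`-shaped input ⟹ `s48t_Family N a e`** (unfolded). -/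
theorem s48y_family (N : ℕ) [NeZero N] (a e : ℕ → ℂ) (R : Subring ℂ) [Module.Finite ℤ R]
    (haR : ∀ p : ℕ, p.Prime → ¬ p ∣ N → a p ∈ R ∧ e p ∈ R)
    (hmod : ∀ B : ℕ, ∃ ℓ : ℕ, ℓ.Prime ∧ B < ℓ ∧
      ∀ (k : Type) [Field k] [CharP k ℓ] (φ : 𝓞 →+* k),
        ∃ ρ : ResidualGaloisRep k, ∀ p : ℕ, p.Prime → ¬ p ∣ N * ℓ → ρ.IsUnramifiedAt p ∧
          ∀ A : ValuationSubring (AlgebraicClosure ℚ), A.LiesOverPrime p →
            ∀ σ : Γℚ, A.IsFrobeniusAt σ p →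
              ∃ x y : 𝓞, (x : ℂ) = a p ∧ (y : ℂ) = e p ∧
                LinearMap.charpoly (ρ.ρ σ) = X ^ 2 - C (φ x) * X + C (φ y)) :
    (∀ p : ℕ, p.Prime → ¬ p ∣ N → IsIntegral ℤ (a p) ∧ IsIntegral ℤ (e p)) ∧
    ∃ d : ℕ, ∀ B : ℕ, ∃ (ℓ : ℕ) (_ : Fact ℓ.Prime), B < ℓ ∧
      ∃ (F : Type) (_ : Field F) (_ : Fintype F) (_ : CharP F ℓ), Fintype.card F ≤ ℓ ^ d ∧
      ∃ (kf : Type) (_ : Field kf) (j : F →+* kf) (φ : integralClosure ℤ ℂ →+* kf)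
        (ρ : Γℚ →* GL (Fin 2) F),
        GaloisFactorsThroughFiniteLevel ρ ∧
        ∀ p : ℕ, p.Prime → ¬ p ∣ N * ℓ →
          ∀ A : ValuationSubring (AlgebraicClosure ℚ), A.LiesOverPrime p →
            (∀ σ ∈ A.inertiaSubgroupIn ℚ, ρ σ = 1) ∧
            ∀ σ : Γℚ, A.IsFrobeniusAt σ p →
              ∀ x y : integralClosure ℤ ℂ, (x : ℂ) = a p → (y : ℂ) = e p →
                j (ρ σ).val.trace = φ x ∧ j (ρ σ).val.det = φ y := by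
  have hint : ∀ x : R, IsIntegral ℤ (x : ℂ) := fun x =>
    (IsIntegral.of_finite ℤ x).map (R.subtype.toIntAlgHom)
  refine ⟨fun p hp hpN => ⟨hint ⟨a p, (haR p hp hpN).1⟩, hint ⟨e p, (haR p hp hpN).2⟩⟩, ?_⟩
  obtain ⟨n, gens, hgens⟩ := Module.Finite.exists_fin (R := ℤ) (M := R)
  refine ⟨n, fun B => ?_⟩
  obtain ⟨ℓ, hℓ, hBℓ, hk⟩ := hmod B
  haveI : Fact ℓ.Prime := ⟨hℓ⟩
  obtain ⟨φ⟩ := s48y_exists_residue_map ℓ
  obtain ⟨ρ, hρ⟩ := hk (AlgebraicClosure (ZMod ℓ)) φ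
  obtain ⟨F, iF, iFt, iFc, hcard, j, ρF, hlev, hρF⟩ :=
    s48y_family_body N a e R n gens hgens haR ℓ (AlgebraicClosure (ZMod ℓ)) φ ρ hρ
  exact ⟨ℓ, ⟨hℓ⟩, hBℓ, F, iF, iFt, iFc, hcard, AlgebraicClosure (ZMod ℓ), inferInstance, j, φ, ρF,
    hlev, hρF⟩

end Fermat.Agent.Lib.S48
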