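/-
DS-1 (S48), wall [T1] (helper7, prefix `s48t_`): **`s48t_top : s48i_Top s48t_Chebotarev`** — the Level-1 statement
of `Iface.lean` (v2), PROVED:  `s48i_Rat` + `s48i_ModL` + Chebotarev ⇒ S48.
(`s48t_main` + `s48t_p55_of_rat` + `s48t_coeffRing_of_rat` + helper2's bridge `s48y_family` + Dirichlet's theorem
for the primes `ℓ ≡ 11 mod 12`.)
-/
import Fermat.Agent.Lib.S48.TTop
import Fermat.Agent.Lib.S48.TRing
import Fermat.Agent.Lib.S48.YFamilyTop

set_option autoImplicit false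
set_option linter.style.haveILetI false

noncomputable section

namespace Fermat.Agent.Lib.S48

open CongruenceSubgroup

theorem s48t_exists_prime_gt_mod12 (B : ℕ) : ∃ ℓ : ℕ, ℓ.Prime ∧ B < ℓ ∧ ℓ % 12 = 11 := by
  have hu : IsUnit ((11 : ℕ) : ZMod 12) := by
    rw [ZMod.isUnit_iff_coprime]
    norm_num
  obtain ⟨p, hpB, hp, hpm⟩ := Nat.forall_exists_prime_gt_and_eq_mod hu B
  refine ⟨p, hp, hpB, ?_⟩
  have := (ZMod.natCast_eq_natCast_iff' p 11 12).mp hpm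
  simpa using this

theorem s48t_family_of_modL (hrat : s48i_Rat) (hmodl : s48i_ModL) (N : ℕ) [NeZero N]
    (ε : DirichletCharacter ℂ N) (f : CuspForm (Gamma1 N) 1) (h : s48i_Hyp N ε f) :
    s48t_Family N (fun p => ModularFormClass.qCoeff f p) (fun p => ε (p : ZMod N)) := by
  obtain ⟨R, hRfin, -, hR⟩ := s48t_coeffRing_of_rat hrat N ε f h
  haveI := hRfin
  obtain ⟨B₀, hB₀⟩ := hmodl N ε f h
  refine s48y_family N _ _ R hR fun B => ?_
  obtain ⟨ℓ, hℓ, hBℓ, hmod⟩ := s48t_exists_prime_gt_mod12 (max B B₀)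
  refine ⟨ℓ, hℓ, lt_of_le_of_lt (le_max_left _ _) hBℓ, fun k _ _ φ => ?_⟩
  obtain ⟨ρ, hρ⟩ := hB₀ ℓ hℓ (lt_of_le_of_lt (le_max_right _ _) hBℓ) hmod k φ
  exact ⟨ρ, fun p hp hpℓ => hρ p hp hpℓ⟩

/-- **Level 1 of DS-1**: `s48i_Rat` + `s48i_ModL` + Chebotarev ⇒ S48. -/
theorem s48t_top : s48i_Top s48t_Chebotarev :=
  s48t_top_of_family s48t_family_of_modL

end Fermat.Agent.Lib.S48
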