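/-
helper7, S48 [T1]+[T2] wiring: `s48t_Chebotarev` holds (helper9's `s48c_chebotarev`), hence the top
reduction of level 1 is unconditional in its Chebotarev input:

* `s48t_chebotarev : s48t_Chebotarev`;
* `s48t_level1 : s48i_Rat → s48i_ModL → ∀ N ε f, s48i_Hyp N ε f → s48i_Concl N ε f`;
* `s48t_result_of : s48i_Rat → s48i_ModL →` the frozen statement of S48, verbatim.
-/
import Fermat.Agent.Lib.S48.ChebFinal
import Fermat.Agent.Lib.S48.TTopFinal

set_option autoImplicit false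

namespace Fermat.Agent.Lib.S48

open CongruenceSubgroup
open scoped MatrixGroups

local notation "Γℚ" => (AlgebraicClosure ℚ ≃ₐ[ℚ] AlgebraicClosure ℚ)

/-- **[T2]** in the agreed interface form. -/
theorem s48t_chebotarev : s48t_Chebotarev := by
  intro G _ _ r hr hfin S _ C hC
  exact s48c_chebotarev G r hr hfin S C hC

/-- **level 1 of S48, Chebotarev discharged**. -/
theorem s48t_level1 (hRat : s48i_Rat) (hModL : s48i_ModL)
    (N : ℕ) [NeZero N] (ε : DirichletCharacter ℂ N) (f : CuspForm (Gamma1 N) 1)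
    (h : s48i_Hyp N ε f) : s48i_Concl N ε f :=
  s48t_top hRat hModL s48t_chebotarev N ε f h

/-- the frozen statement of S48, verbatim, from `s48i_Rat` and `s48i_ModL`. -/
theorem s48t_result_of (hRat : s48i_Rat) (hModL : s48i_ModL)
    (N : ℕ) [NeZero N] (ε : DirichletCharacter ℂ N) (f : CuspForm (Gamma1 N) 1)
    (hf₁ : ModularFormClass.qCoeff f 1 = 1)
    (hT : ∀ p : ℕ, p.Prime → ¬ p ∣ N → ∀ n : ℕ,
        ModularFormClass.qCoeff f (p * n) +
            ε (p : ZMod N) * (if p ∣ n then ModularFormClass.qCoeff f (n / p) else 0) =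
          ModularFormClass.qCoeff f p * ModularFormClass.qCoeff f n) :
    ∃ ρ : Γℚ →* GL (Fin 2) ℂ, GaloisFactorsThroughFiniteLevel ρ ∧
      (Deformation.matrixRepresentation ρ).IsIrreducible ∧
      ∀ p : ℕ, p.Prime → ¬ p ∣ N →
        ∀ A : ValuationSubring (AlgebraicClosure ℚ), A.LiesOverPrime p →
          (∀ σ ∈ A.inertiaSubgroupIn ℚ, ρ σ = 1) ∧
          ∀ σ : Γℚ, A.IsFrobeniusAt σ p →
            ((ρ σ : GL (Fin 2) ℂ) : Matrix (Fin 2) (Fin 2) ℂ).trace = ModularFormClass.qCoeff f p ∧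
            ((ρ σ : GL (Fin 2) ℂ) : Matrix (Fin 2) (Fin 2) ℂ).det = ε (p : ZMod N) :=
  s48t_level1 hRat hModL N ε f ⟨hf₁, hT⟩

end Fermat.Agent.Lib.S48
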