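/-
DS-1 (S48), wall [T1] (helper7, prefix `s48t_`): **the residue characteristics 2 and 3 at Level 1.**

The geometric base of (D2) (landed S18/S37/S44 chart packages) exists only at GOOD levels `s18_GoodLevel p M`
(`p ≥ 5`, or `p = 3 ∧ 2 ∣ M`, or `p = 2 ∧ 3 ∣ M`).  If `2 ∣ N ∨ 3 ∣ N` then every `p ∤ Nℓ` is good for `N²ℓ`, so (D2)
delivers `s48i_ModL` only at such `N`:

* `s48t_ModL23`       : `s48i_ModL` restricted to the levels `N` with `2 ∣ N ∨ 3 ∣ N` (implied by `s48i_ModL`);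
* `s48t_level1_23`    : `s48i_Rat` + `s48t_ModL23` ⇒ the S48 conclusion at the levels `N` with `2 ∣ N ∨ 3 ∣ N`;
* `s48t_restrict d f` : a cusp form on `Γ₁(N)` as a cusp form on `Γ₁(N d)` (same function);
* `s48t_glue`         : the S48 conclusion at the levels `2 ∣ N ∨ 3 ∣ N` ⇒ the S48 conclusion at EVERY level
  (apply it at `N·3` and `N·2`, compare the two representations by Chebotarev: `s48t_goodAt_all`);
* `s48t_result_of23`  : `s48i_Rat → s48t_ModL23 →` the frozen statement of S48, verbatim.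
-/
import Fermat.Agent.Lib.S48.TChebFinal

set_option autoImplicit false
set_option linter.style.haveILetI false

noncomputable section

namespace Fermat.Agent.Lib.S48

open CongruenceSubgroup Matrix UpperHalfPlane
open scoped MatrixGroups ModularForm

local notation "Γℚ" => (AlgebraicClosure ℚ ≃ₐ[ℚ] AlgebraicClosure ℚ)
local notation "𝓞" => integralClosure ℤ ℂ

/-- **[MODL] at the levels `2 ∣ N ∨ 3 ∣ N`.** -/
def s48t_ModL23 : Prop :=
  ∀ (N : ℕ) [NeZero N] (ε : DirichletCharacter ℂ N) (f : CuspForm (Gamma1 N) 1),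
    (2 ∣ N ∨ 3 ∣ N) → s48i_Hyp N ε f →
    ∃ B : ℕ, ∀ ℓ : ℕ, ℓ.Prime → B < ℓ → ℓ % 12 = 11 →
      ∀ (k : Type) [Field k] [CharP k ℓ] (φ : 𝓞 →+* k),
        ∃ ρ : ResidualGaloisRep k,
          ∀ p : ℕ, p.Prime → ¬ p ∣ N * ℓ → s48i_AttachedAt ε f φ ρ p

theorem s48t_modL23_of_modL (h : s48i_ModL) : s48t_ModL23 :=
  fun N _ ε f _ hH => h N ε f hH

theorem s48t_family_of_modL23 (hrat : s48i_Rat) (hmodl : s48t_ModL23) (N : ℕ) [NeZero N]
    (ε : DirichletCharacter ℂ N) (f : CuspForm (Gamma1 N) 1) (h23 : 2 ∣ N ∨ 3 ∣ N)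
    (h : s48i_Hyp N ε f) :
    s48t_Family N (fun p => ModularFormClass.qCoeff f p) (fun p => ε (p : ZMod N)) := by
  obtain ⟨R, hRfin, -, hR⟩ := s48t_coeffRing_of_rat hrat N ε f h
  haveI := hRfin
  obtain ⟨B₀, hB₀⟩ := hmodl N ε f h23 h
  refine s48y_family N _ _ R hR fun B => ?_
  obtain ⟨ℓ, hℓ, hBℓ, hmod⟩ := s48t_exists_prime_gt_mod12 (max B B₀)
  refine ⟨ℓ, hℓ, lt_of_le_of_lt (le_max_left _ _) hBℓ, fun k _ _ φ => ?_⟩
  obtain ⟨ρ, hρ⟩ := hB₀ ℓ hℓ (lt_of_le_of_lt (le_max_right _ _) hBℓ) hmod k φ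
  exact ⟨ρ, fun p hp hpℓ => hρ p hp hpℓ⟩

/-- **Level 1 at the levels `2 ∣ N ∨ 3 ∣ N`.** -/
theorem s48t_level1_23 (hrat : s48i_Rat) (hmodl : s48t_ModL23) (N : ℕ) [NeZero N]
    (ε : DirichletCharacter ℂ N) (f : CuspForm (Gamma1 N) 1) (h23 : 2 ∣ N ∨ 3 ∣ N)
    (h : s48i_Hyp N ε f) : s48i_Concl N ε f :=
  s48t_main s48t_chebotarev N ε f h.1 h.2 (s48t_p55_of_rat hrat N ε f h)
    (s48t_family_of_modL23 hrat hmodl N ε f h23 h)

/-! ### raising the level -/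

theorem s48t_Gamma1_le (N d : ℕ) : Gamma1 (N * d) ≤ Gamma1 N := by
  intro A hA
  rw [Gamma1_mem] at hA ⊢
  have key : ∀ x c : ℤ, ((x : ℤ) : ZMod (N * d)) = ((c : ℤ) : ZMod (N * d)) →
      ((x : ℤ) : ZMod N) = ((c : ℤ) : ZMod N) := by
    intro x c h
    have := congrArg (ZMod.castHom (Dvd.intro d rfl : N ∣ N * d) (ZMod N)) h
    simpa using this
  obtain ⟨h00, h11, h10⟩ := hA
  refine ⟨?_, ?_, ?_⟩
  · have := key (A 0 0) 1 (by simpa using h00)
    simpa using this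
  · have := key (A 1 1) 1 (by simpa using h11)
    simpa using this
  · have := key (A 1 0) 0 (by simpa using h10)
    simpa using this

/-- a cusp form on `Γ₁(N)` as a cusp form on `Γ₁(N d)`. -/
def s48t_restrict {N : ℕ} (d : ℕ) (f : CuspForm (Gamma1 N) 1) : CuspForm (Gamma1 (N * d)) 1 where
  toSlashInvariantForm :=
    { toFun := f
      slash_action_eq' := fun γ hγ => by
        obtain ⟨γ', hγ', rfl⟩ := hγ
        exact SlashInvariantFormClass.slash_action_eq f _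
          (Subgroup.mem_map_of_mem _ (s48t_Gamma1_le N d hγ')) }
  holo' := CuspFormClass.holo f
  zero_at_cusps' := fun {c} hc =>
    CuspFormClass.zero_at_cusps f (hc.mono (Subgroup.map_mono (s48t_Gamma1_le N d)))

@[simp] theorem s48t_coe_restrict {N : ℕ} (d : ℕ) (f : CuspForm (Gamma1 N) 1) :
    ⇑(s48t_restrict d f) = ⇑f := rfl

theorem s48t_qCoeff_restrict {N : ℕ} (d : ℕ) (f : CuspForm (Gamma1 N) 1) (n : ℕ) :
    ModularFormClass.qCoeff (s48t_restrict d f) n = ModularFormClass.qCoeff f n := rfl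

/-- the character at the raised level agrees with `ε` at the primes not dividing the level. -/
theorem s48t_changeLevel_prime {N : ℕ} [NeZero N] (d : ℕ) (ε : DirichletCharacter ℂ N) {p : ℕ}
    (hp : p.Prime) (hpN : ¬ p ∣ N * d) :
    DirichletCharacter.changeLevel (Dvd.intro d rfl : N ∣ N * d) ε ((p : ℕ) : ZMod (N * d)) =
      ε ((p : ℕ) : ZMod N) := by
  have hcop : IsCoprime ((p : ℕ) : ℤ) ((N * d : ℕ) : ℤ) :=
    Nat.isCoprime_iff_coprime.mpr ((Nat.Prime.coprime_iff_not_dvd hp).mpr hpN)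
  have := DirichletCharacter.changeLevel_eq_cast_of_dvd' ε (Dvd.intro d rfl : N ∣ N * d) hcop
  simpa using this

theorem s48t_hyp_restrict {N : ℕ} [NeZero N] (d : ℕ) [NeZero (N * d)] (ε : DirichletCharacter ℂ N)
    (f : CuspForm (Gamma1 N) 1) (h : s48i_Hyp N ε f) :
    s48i_Hyp (N * d) (DirichletCharacter.changeLevel (Dvd.intro d rfl : N ∣ N * d) ε)
      (s48t_restrict d f) := by
  refine ⟨h.1, fun p hp hpN n => ?_⟩
  have hpN' : ¬ p ∣ N := fun hdvd => hpN (Dvd.dvd.mul_right hdvd d)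
  rw [s48t_changeLevel_prime d ε hp hpN]
  exact h.2 p hp hpN' n

/-! ### the glue -/

theorem s48t_exists_ord {ρ : Γℚ →* GL (Fin 2) ℂ} (hfin : GaloisFactorsThroughFiniteLevel ρ) :
    ∃ n₀ : ℕ, 0 < n₀ ∧ ∀ σ : Γℚ, ρ σ ^ n₀ = 1 := by
  classical
  haveI : Finite ρ.range := by
    have := s48t_finite_range hfin
    rw [← MonoidHom.coe_range] at this
    exact this.to_subtype
  refine ⟨Nat.card ρ.range, Nat.card_pos, fun σ => ?_⟩
  have h := pow_card_eq_one' (G := ρ.range) (x := ⟨ρ σ, σ, rfl⟩)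
  exact congrArg Subtype.val h

/-- **the glue**: the S48 conclusion at the levels `2 ∣ N ∨ 3 ∣ N` gives it at every level. -/
theorem s48t_glue
    (h23 : ∀ (N : ℕ) [NeZero N] (ε : DirichletCharacter ℂ N) (f : CuspForm (Gamma1 N) 1),
      (2 ∣ N ∨ 3 ∣ N) → s48i_Hyp N ε f → s48i_Concl N ε f)
    (N : ℕ) [NeZero N] (ε : DirichletCharacter ℂ N) (f : CuspForm (Gamma1 N) 1)
    (h : s48i_Hyp N ε f) : s48i_Concl N ε f := by
  have hN : N ≠ 0 := NeZero.ne N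
  haveI : NeZero (N * 3) := ⟨mul_ne_zero hN (by norm_num)⟩
  haveI : NeZero (N * 2) := ⟨mul_ne_zero hN (by norm_num)⟩
  obtain ⟨ρ₁, hfin₁, hirr₁, hg₁⟩ := h23 (N * 3) _ _ (Or.inr (Dvd.intro_left N rfl))
    (s48t_hyp_restrict 3 ε f h)
  obtain ⟨ρ₂, hfin₂, -, hg₂⟩ := h23 (N * 2) _ _ (Or.inl (Dvd.intro_left N rfl))
    (s48t_hyp_restrict 2 ε f h)
  obtain ⟨n₀, hn₀, hord₁⟩ := s48t_exists_ord hfin₁
  have h₁ : s48t_GoodAt (fun p => ModularFormClass.qCoeff f p) (fun p => ε (p : ZMod N)) (N * 3) ρ₁ := by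
    intro p hp hpN A hA
    obtain ⟨hin, hfr⟩ := hg₁ p hp hpN A hA
    refine ⟨hin, fun σ hσ => ?_⟩
    obtain ⟨ht, hd⟩ := hfr σ hσ
    exact ⟨ht, by rw [hd, s48t_changeLevel_prime 3 ε hp hpN]⟩
  have h₂ : s48t_GoodAt (fun p => ModularFormClass.qCoeff f p) (fun p => ε (p : ZMod N)) (N * 2) ρ₂ := by
    intro p hp hpN A hA
    obtain ⟨hin, hfr⟩ := hg₂ p hp hpN A hA
    refine ⟨hin, fun σ hσ => ?_⟩
    obtain ⟨ht, hd⟩ := hfr σ hσ
    exact ⟨ht, by rw [hd, s48t_changeLevel_prime 2 ε hp hpN]⟩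
  have hall := s48t_goodAt_all s48t_chebotarev hN hn₀ Nat.prime_three Nat.prime_two (by norm_num)
    hfin₁ hfin₂ hord₁ h₁ h₂
  exact ⟨ρ₁, hfin₁, hirr₁, hall⟩

/-- **Level 1 of DS-1 from the restricted [MODL]**. -/
theorem s48t_level1_of23 (hrat : s48i_Rat) (hmodl : s48t_ModL23) (N : ℕ) [NeZero N]
    (ε : DirichletCharacter ℂ N) (f : CuspForm (Gamma1 N) 1) (h : s48i_Hyp N ε f) :
    s48i_Concl N ε f :=
  s48t_glue (fun N _ ε f h23 h => s48t_level1_23 hrat hmodl N ε f h23 h) N ε f h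

/-- the frozen statement of S48, verbatim, from `s48i_Rat` and the restricted `s48t_ModL23`. -/
theorem s48t_result_of23 (hRat : s48i_Rat) (hModL : s48t_ModL23)
    (N : ℕ) [NeZero N] (ε : DirichletCharacter ℂ N) (f : CuspForm (Gamma1 N) 1)
    (hf₁ : ModularFormClass.qCoeff f 1 = 1)
    (hT : ∀ p : ℕ, p.Prime → ¬ p ∣ N → ∀ n : ℕ,
        ModularFormClass.qCoeff f (p * n) +
            ε (p : ZMod N) * (if p ∣ n then ModularFormClass.qCoeff f (n / p) else 0) =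
          ModularFormClass.qCoeff f p * ModularFormClass.qCoeff f n) :
    ∃ ρ : Γℚ →* GL (Fin 2) ℂ, GaloisFactorsThroughFiniteLevel ρ ∧
      (Deformation.matrixRepresentation ρ).IsIrreducible ∧
      ∀ p : ℕ, p.Prime → ¬ p ∣ N →
        ∀ A : ValuationSubring (AlgebraicClosure ℚ), A.LiesOverPrime p →
          (∀ σ ∈ A.inertiaSubgroupIn ℚ, ρ σ = 1) ∧
          ∀ σ : Γℚ, A.IsFrobeniusAt σ p →
            ((ρ σ : GL (Fin 2) ℂ) : Matrix (Fin 2) (Fin 2) ℂ).trace = ModularFormClass.qCoeff f p ∧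
            ((ρ σ : GL (Fin 2) ℂ) : Matrix (Fin 2) (Fin 2) ℂ).det = ε (p : ZMod N) :=
  s48t_level1_of23 hRat hModL N ε f ⟨hf₁, hT⟩

end Fermat.Agent.Lib.S48
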