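/-
DS-1 (S48), wall [T1] (helper7, prefix `s48t_`): **Stage II of the top reduction (DS §8.4–8.7)**.
Input: `s48t_Char0Family` — for infinitely many `ℓ` a finite-level `ρ_ℓ : G_ℚ → GL₂(ℂ)` of bounded exponent,
unramified outside `Nℓ`, whose Frobenius traces / determinants are congruent to `a_p`, `ε(p)` under a residue map
`φ_ℓ : ℤ̄ → kf` of characteristic `ℓ`.  Output (with Chebotarev and the Rankin bound): the S48 conclusion.
-/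
import Fermat.Agent.Lib.S48.TCheb
import Fermat.Agent.Lib.S48.LSep
import Fermat.Agent.Lib.S48.RFinal

set_option autoImplicit false
set_option linter.style.haveILetI false

noncomputable section

namespace Fermat.Agent.Lib.S48

open Matrix CongruenceSubgroup

local notation "Γℚ" => (AlgebraicClosure ℚ ≃ₐ[ℚ] AlgebraicClosure ℚ)

/-- **Stage I output**: characteristic-zero realisations at infinitely many `ℓ`. -/
def s48t_Char0Family (N : ℕ) (a e : ℕ → ℂ) : Prop :=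
  (∀ p : ℕ, p.Prime → ¬ p ∣ N → IsIntegral ℤ (a p) ∧ IsIntegral ℤ (e p)) ∧
  ∃ n₀ : ℕ, 0 < n₀ ∧ ∀ B : ℕ, ∃ ℓ : ℕ, ℓ.Prime ∧ B < ℓ ∧
    ∃ (kf : Type) (_ : Field kf) (_ : CharP kf ℓ) (φ : integralClosure ℤ ℂ →+* kf)
      (ρ : Γℚ →* GL (Fin 2) ℂ),
      GaloisFactorsThroughFiniteLevel ρ ∧ (∀ σ : Γℚ, ρ σ ^ n₀ = 1) ∧
      ∀ p : ℕ, p.Prime → ¬ p ∣ N * ℓ →
        ∀ A : ValuationSubring (AlgebraicClosure ℚ), A.LiesOverPrime p →
          (∀ σ ∈ A.inertiaSubgroupIn ℚ, ρ σ = 1) ∧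
          ∀ σ : Γℚ, A.IsFrobeniusAt σ p →
            ∀ x y : integralClosure ℤ ℂ, (x : ℂ) = a p → (y : ℂ) = e p →
              ∃ t d : integralClosure ℤ ℂ, (t : ℂ) = (ρ σ).val.trace ∧ (d : ℂ) = (ρ σ).val.det ∧
                φ t = φ x ∧ φ d = φ y

/-- the finite set `Y_A` of helper2, as a set of pairs of elements of `ℤ̄`. -/
def s48t_YZ (A : ℕ) : Finset (integralClosure ℤ ℂ × integralClosure ℤ ℂ) :=
  (s48l_traceDetSet A).attach.image fun p =>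
    (⟨p.1.1, (s48l_traceDet_integral p.2).1⟩, ⟨p.1.2, (s48l_traceDet_integral p.2).2⟩)

theorem s48t_mem_YZ {A : ℕ} {t d : integralClosure ℤ ℂ} :
    (t, d) ∈ s48t_YZ A ↔ ((t : ℂ), (d : ℂ)) ∈ s48l_traceDetSet A := by
  unfold s48t_YZ
  rw [Finset.mem_image]
  constructor
  · rintro ⟨⟨p, hp⟩, -, h⟩
    have h1 := congrArg (fun q : integralClosure ℤ ℂ × integralClosure ℤ ℂ => (q.1 : ℂ)) h
    have h2 := congrArg (fun q : integralClosure ℤ ℂ × integralClosure ℤ ℂ => (q.2 : ℂ)) h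
    simp only at h1 h2
    rw [← h1, ← h2]
    exact hp
  · intro h
    exact ⟨⟨((t : ℂ), (d : ℂ)), h⟩, Finset.mem_attach _ _, rfl⟩

/-- **DS 8.4** (pigeonhole): every `(a_p, ε(p))`, `p ∤ N`, is the (trace, determinant) of a matrix of order
dividing `n₀`. -/
theorem s48t_mem_Y_of_family {N : ℕ} {a e : ℕ → ℂ} {n₀ : ℕ} (hn₀ : 0 < n₀)
    (hfam : ∀ B : ℕ, ∃ ℓ : ℕ, ℓ.Prime ∧ B < ℓ ∧
      ∃ (kf : Type) (_ : Field kf) (_ : CharP kf ℓ) (φ : integralClosure ℤ ℂ →+* kf)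
        (ρ : Γℚ →* GL (Fin 2) ℂ),
        GaloisFactorsThroughFiniteLevel ρ ∧ (∀ σ : Γℚ, ρ σ ^ n₀ = 1) ∧
        ∀ p : ℕ, p.Prime → ¬ p ∣ N * ℓ →
          ∀ A : ValuationSubring (AlgebraicClosure ℚ), A.LiesOverPrime p →
            (∀ σ ∈ A.inertiaSubgroupIn ℚ, ρ σ = 1) ∧
            ∀ σ : Γℚ, A.IsFrobeniusAt σ p →
              ∀ x y : integralClosure ℤ ℂ, (x : ℂ) = a p → (y : ℂ) = e p →
                ∃ t d : integralClosure ℤ ℂ, (t : ℂ) = (ρ σ).val.trace ∧ (d : ℂ) = (ρ σ).val.det ∧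
                  φ t = φ x ∧ φ d = φ y)
    {p : ℕ} (hp : p.Prime) (hpN : ¬ p ∣ N) (x y : integralClosure ℤ ℂ) (hx : (x : ℂ) = a p)
    (hy : (y : ℂ) = e p) : (x, y) ∈ s48t_YZ n₀ := by
  refine s48l_mem_of_frequently_congr_pair (s48t_YZ n₀) (x, y) fun B => ?_
  obtain ⟨ℓ, hℓ, hBℓ, kf, iF, iC, φ, ρ, -, hord, hloc⟩ := hfam (max B p)
  have hpℓ : ¬ p ∣ N * ℓ := by
    intro h
    rcases (Nat.Prime.dvd_mul hp).mp h with h | h
    · exact hpN h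
    · have : p = ℓ := (Nat.prime_dvd_prime_iff_eq hp hℓ).mp h
      have : p < ℓ := lt_of_le_of_lt (le_max_right B p) hBℓ
      omega
  obtain ⟨A, σ, hA, hσ⟩ := s48t_exists_frob p hp
  obtain ⟨t, d, ht, hd, hφt, hφd⟩ := (hloc p hp hpℓ A hA).2 σ hσ x y hx hy
  refine ⟨ℓ, lt_of_le_of_lt (le_max_left B p) hBℓ, hℓ, kf, inferInstance, iC, φ, (t, d), ?_,
    hφt.symm, hφd.symm⟩
  rw [s48t_mem_YZ, ht, hd]
  refine s48l_traceDet_mem _ hn₀ (le_refl _) ?_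
  rw [← Units.val_pow_eq_pow_val, hord σ, Units.val_one]

/-- **DS 8.5**: for infinitely many `ℓ` there is a finite-level `ρ : G_ℚ → GL₂(ℂ)` of exponent dividing `n₀`
which is unramified with the right Frobenius traces and determinants at all `p ∤ Nℓ`. -/
theorem s48t_goodAt_of_family {N : ℕ} {a e : ℕ → ℂ} (hfam : s48t_Char0Family N a e) :
    ∃ n₀ : ℕ, 0 < n₀ ∧ ∀ B : ℕ, ∃ ℓ : ℕ, ℓ.Prime ∧ B < ℓ ∧ ∃ ρ : Γℚ →* GL (Fin 2) ℂ,
      GaloisFactorsThroughFiniteLevel ρ ∧ (∀ σ : Γℚ, ρ σ ^ n₀ = 1) ∧ s48t_GoodAt a e (N * ℓ) ρ := by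
  obtain ⟨hint, n₀, hn₀, hfam⟩ := hfam
  obtain ⟨B₁, hB₁⟩ := s48l_sep_pair (s48t_YZ n₀)
  refine ⟨n₀, hn₀, fun B => ?_⟩
  obtain ⟨ℓ, hℓ, hBℓ, kf, iF, iC, φ, ρ, hfin, hord, hloc⟩ := hfam (max B B₁)
  refine ⟨ℓ, hℓ, lt_of_le_of_lt (le_max_left B B₁) hBℓ, ρ, hfin, hord, fun p hp hpℓ A hA => ?_⟩
  refine ⟨(hloc p hp hpℓ A hA).1, fun σ hσ => ?_⟩
  have hpN : ¬ p ∣ N := fun h => hpℓ (Dvd.dvd.mul_right h ℓ)
  obtain ⟨hia, hie⟩ := hint p hp hpN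
  set x : integralClosure ℤ ℂ := ⟨a p, hia⟩ with hx
  set y : integralClosure ℤ ℂ := ⟨e p, hie⟩ with hy
  obtain ⟨t, d, ht, hd, hφt, hφd⟩ := (hloc p hp hpℓ A hA).2 σ hσ x y rfl rfl
  have hxy : (x, y) ∈ s48t_YZ n₀ := s48t_mem_Y_of_family hn₀ hfam hp hpN x y rfl rfl
  have htd : (t, d) ∈ s48t_YZ n₀ := by
    rw [s48t_mem_YZ, ht, hd]
    refine s48l_traceDet_mem _ hn₀ (le_refl _) ?_
    rw [← Units.val_pow_eq_pow_val, hord σ, Units.val_one]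
  have hinj := hB₁ ℓ (lt_of_le_of_lt (le_max_right B B₁) hBℓ) hℓ kf φ
  have heq : (t, d) = (x, y) := hinj (Finset.mem_coe.mpr htd) (Finset.mem_coe.mpr hxy)
    (Prod.ext hφt hφd)
  have h1 : t = x := congrArg Prod.fst heq
  have h2 : d = y := congrArg Prod.snd heq
  exact ⟨by rw [← ht, h1], by rw [← hd, h2]⟩

end Fermat.Agent.Lib.S48
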