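/-
DS-1 (S48), wall [T1] (helper7, prefix `s48t_`): **Stage I of the top reduction (DS §8.1–8.3, 8.5)**.
From the family of mod-`ℓ` representations (D2), DS Prop. 5.5, Chebotarev [T2], DS Prop. 7.2 (helper8) and the
lifting theorem (D4-b, helper2): characteristic-zero realisations `ρ_ℓ : G_ℚ → GL₂(ℂ)` of bounded exponent at
infinitely many `ℓ` (`s48t_Char0Family`).
-/
import Fermat.Agent.Lib.S48.TStage2
import Fermat.Agent.Lib.S48.EProp72Range

set_option autoImplicit false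
set_option linter.style.haveILetI false

noncomputable section

namespace Fermat.Agent.Lib.S48

open Matrix

local notation "Γℚ" => (AlgebraicClosure ℚ ≃ₐ[ℚ] AlgebraicClosure ℚ)

/-- the reduction of a pair of algebraic integers, as a function on `ℂ × ℂ` (junk value `(0,0)` otherwise). -/
def s48t_red {F kf : Type} [Field F] [Field kf] (j : F →+* kf) (φ : integralClosure ℤ ℂ →+* kf)
    (sc : ℂ × ℂ) : F × F := by
  classical
  exact if h : ∃ q : F × F, ∃ x y : integralClosure ℤ ℂ, (x : ℂ) = sc.1 ∧ (y : ℂ) = sc.2 ∧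
      j q.1 = φ x ∧ j q.2 = φ y then h.choose else (0, 0)

theorem s48t_red_eq {F kf : Type} [Field F] [Field kf] (j : F →+* kf)
    (φ : integralClosure ℤ ℂ →+* kf) {s c : ℂ} {q : F × F} {x y : integralClosure ℤ ℂ}
    (hx : (x : ℂ) = s) (hy : (y : ℂ) = c) (h1 : j q.1 = φ x) (h2 : j q.2 = φ y) :
    s48t_red j φ (s, c) = q := by
  classical
  have h : ∃ q : F × F, ∃ x y : integralClosure ℤ ℂ, (x : ℂ) = (s, c).1 ∧ (y : ℂ) = (s, c).2 ∧
      j q.1 = φ x ∧ j q.2 = φ y := ⟨q, x, y, hx, hy, h1, h2⟩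
  unfold s48t_red
  rw [dif_pos h]
  obtain ⟨x', y', hx', hy', h1', h2'⟩ := h.choose_spec
  have ex : x' = x := Subtype.ext (hx'.trans hx.symm)
  have ey : y' = y := Subtype.ext (hy'.trans hy.symm)
  rw [ex] at h1'
  rw [ey] at h2'
  exact Prod.ext (j.injective (h1'.trans h1.symm)) (j.injective (h2'.trans h2.symm))

/-- conjugation invariance of trace and determinant for a monoid homomorphism from a group to matrices. -/
theorem s48t_trace_det_conj {F : Type*} [Field F] {Γ : Type*} [Group Γ]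
    (ι : Γ →* Matrix (Fin 2) (Fin 2) F) (x h : Γ) :
    (ι (h * x * h⁻¹)).trace = (ι x).trace ∧ (ι (h * x * h⁻¹)).det = (ι x).det := by
  have hinv : ι h⁻¹ * ι h = 1 := by rw [← map_mul, inv_mul_cancel, map_one]
  have hinv' : ι h * ι h⁻¹ = 1 := by rw [← map_mul, mul_inv_cancel, map_one]
  constructor
  · rw [map_mul, map_mul, Matrix.trace_mul_comm, ← Matrix.mul_assoc, hinv, Matrix.one_mul]
  · rw [map_mul, map_mul, Matrix.det_mul, Matrix.det_mul, mul_right_comm, ← Matrix.det_mul, hinv',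
      Matrix.det_one, one_mul]

/-- **DS Lemma 8.2**, hypothesis `hη` of Prop. 7.2 from Chebotarev and Prop. 5.5. -/
theorem s48t_eta (hcheb : s48t_Chebotarev) {N : ℕ} (hN : N ≠ 0) {a e : ℕ → ℂ}
    (hint : ∀ p : ℕ, p.Prime → ¬ p ∣ N → IsIntegral ℤ (a p) ∧ IsIntegral ℤ (e p))
    {X : Set ℕ} {Sa E : Finset ℂ} (hX : s48t_UpperDensity X (1 / 120))
    (hSa : ∀ p : ℕ, p.Prime → ¬ p ∣ N → p ∉ X → a p ∈ Sa)
    (hE : ∀ p : ℕ, p.Prime → ¬ p ∣ N → e p ∈ E)
    {ℓ : ℕ} (hℓ : ℓ.Prime) {F kf : Type} [Field F] [Fintype F] [DecidableEq F] [Field kf]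
    (j : F →+* kf)
    (φ : integralClosure ℤ ℂ →+* kf) (ρ : Γℚ →* GL (Fin 2) F)
    (hfin : GaloisFactorsThroughFiniteLevel ρ)
    (hloc : ∀ p : ℕ, p.Prime → ¬ p ∣ N * ℓ →
      ∀ A : ValuationSubring (AlgebraicClosure ℚ), A.LiesOverPrime p →
        (∀ σ ∈ A.inertiaSubgroupIn ℚ, ρ σ = 1) ∧
        ∀ σ : Γℚ, A.IsFrobeniusAt σ p →
          ∀ x y : integralClosure ℤ ℂ, (x : ℂ) = a p → (y : ℂ) = e p →
            j (ρ σ).val.trace = φ x ∧ j (ρ σ).val.det = φ y)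
    (P : Finset (F × F)) (hP : P = (Sa ×ˢ E).image (s48t_red j φ)) :
    120 * {x : ρ.range | (((Units.coeHom (Matrix (Fin 2) (Fin 2) F)).comp ρ.range.subtype x).trace,
      ((Units.coeHom (Matrix (Fin 2) (Fin 2) F)).comp ρ.range.subtype x).det) ∉ P}.ncard
      ≤ Nat.card ρ.range := by
  classical
  haveI : Finite ρ.range := by
    have := s48t_finite_range hfin
    rw [← MonoidHom.coe_range] at this
    exact this.to_subtype
  letI : Fintype ρ.range := Fintype.ofFinite _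
  set ι : ρ.range →* Matrix (Fin 2) (Fin 2) F :=
    (Units.coeHom (Matrix (Fin 2) (Fin 2) F)).comp ρ.range.subtype with hι
  set C : Set ρ.range := {x | ((ι x).trace, (ι x).det) ∉ P} with hC
  have hCconj : ∀ x h : ρ.range, x ∈ C → h * x * h⁻¹ ∈ C := by
    intro x h hx
    rw [hC, Set.mem_ofPred_eq] at hx ⊢
    rw [(s48t_trace_det_conj ι x h).1, (s48t_trace_det_conj ι x h).2]
    exact hx
  have hNℓ : N * ℓ ≠ 0 := mul_ne_zero hN hℓ.ne_zero
  have hnd : ∀ p : ℕ, p.Prime → p ∉ (N * ℓ).primeFactors → ¬ p ∣ N * ℓ := fun p hp hpS h =>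
    hpS (Nat.mem_primeFactors.mpr ⟨hp, h, hNℓ⟩)
  have hdens := hcheb ρ.range ρ.rangeRestrict ρ.rangeRestrict_surjective
    (s48t_finiteLevel_rangeRestrict hfin) (N * ℓ).primeFactors (fun p hp hpS A hA σ hσ => by
      apply Subtype.ext
      rw [MonoidHom.coe_rangeRestrict, (hloc p hp (hnd p hp hpS) A hA).1 σ hσ]
      rfl) C hCconj
  have hle : ((Nat.card C : ℝ) / Nat.card ρ.range) ≤ 1 / 120 := by
    refine s48t_density_le hdens hX ?_
    rintro p ⟨hp, hpS, hfrob⟩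
    by_contra hpX
    have hpNℓ := hnd p hp hpS
    have hpN : ¬ p ∣ N := fun h => hpNℓ (Dvd.dvd.mul_right h ℓ)
    obtain ⟨A, σ, hA, hσ⟩ := s48t_exists_frob p hp
    have hbad := hfrob A hA σ hσ
    rw [hC, Set.mem_ofPred_eq] at hbad
    apply hbad
    obtain ⟨hia, hie⟩ := hint p hp hpN
    obtain ⟨h1, h2⟩ := (hloc p hp hpNℓ A hA).2 σ hσ ⟨a p, hia⟩ ⟨e p, hie⟩ rfl rfl
    rw [hP, Finset.mem_image]
    refine ⟨(a p, e p), Finset.mem_product.mpr ⟨hSa p hp hpN hpX, hE p hp hpN⟩, ?_⟩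
    exact s48t_red_eq j φ (x := ⟨a p, hia⟩) (y := ⟨e p, hie⟩) rfl rfl h1 h2
  have hpos : (0 : ℝ) < Nat.card ρ.range := by exact_mod_cast Nat.card_pos
  rw [div_le_iff₀ hpos] at hle
  have h2 : (120 : ℝ) * Nat.card C ≤ Nat.card ρ.range := by linarith
  rw [← Nat.card_coe_set_eq]
  exact_mod_cast h2

end Fermat.Agent.Lib.S48
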