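/-
DS-1 (S48), wall [T1] (helper7, prefix `s48t_`): **Stage I assembled** — `s48t_stage1`:
(D2) family + DS Prop. 5.5 + Chebotarev + DS Prop. 7.2 + lifting ⇒ `s48t_Char0Family`.
-/
import Fermat.Agent.Lib.S48.TStage1

set_option autoImplicit false
set_option linter.style.haveILetI false

noncomputable section

namespace Fermat.Agent.Lib.S48

open Matrix

local notation "Γℚ" => (AlgebraicClosure ℚ ≃ₐ[ℚ] AlgebraicClosure ℚ)

theorem s48t_stage1 (hcheb : s48t_Chebotarev) (hlift : s48t_Lift) {N : ℕ} (hN : N ≠ 0)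
    {a e : ℕ → ℂ} (hP55 : s48t_P55 N a) {E : Finset ℂ}
    (hE : ∀ p : ℕ, p.Prime → ¬ p ∣ N → e p ∈ E) (hfam : s48t_Family N a e) :
    s48t_Char0Family N a e := by
  classical
  obtain ⟨X, Sa, hX, hSa⟩ := hP55 (1 / 120) (by norm_num)
  obtain ⟨hint, d, hfam⟩ := hfam
  set M : ℕ := Sa.card * E.card with hM
  set A₀ : ℕ := (10 * M) ^ (10 * M + 4 * d + 1) with hA₀
  refine ⟨hint, A₀.factorial, Nat.factorial_pos _, fun B => ?_⟩
  obtain ⟨ℓ, hℓfact, hBℓ, F, iF, iFt, iC, hcard, kf, ikf, j, φ, ρb, hfin, hloc⟩ :=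
    hfam (max B (max A₀ 2))
  haveI := hℓfact
  have hℓ : ℓ.Prime := hℓfact.out
  have hB : B < ℓ := lt_of_le_of_lt (le_max_left _ _) hBℓ
  have hA₀ℓ : A₀ < ℓ := lt_of_le_of_lt ((le_max_left _ _).trans (le_max_right _ _)) hBℓ
  have hℓ2 : ℓ ≠ 2 := by
    have : 2 < ℓ := lt_of_le_of_lt ((le_max_right _ _).trans (le_max_right _ _)) hBℓ
    omega
  haveI : CharP kf ℓ := charP_of_injective_ringHom j.injective ℓ
  refine ⟨ℓ, hℓ, hB, kf, ikf, inferInstance, φ, ?_⟩
  haveI : Finite ρb.range := by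
    have := s48t_finite_range hfin
    rw [← MonoidHom.coe_range] at this
    exact this.to_subtype
  set ι : ρb.range →* Matrix (Fin 2) (Fin 2) F :=
    (Units.coeHom (Matrix (Fin 2) (Fin 2) F)).comp ρb.range.subtype with hι
  set P : Finset (F × F) := (Sa ×ˢ E).image (s48t_red j φ) with hP
  have hPcard : P.card ≤ M := Finset.card_image_le.trans (by rw [Finset.card_product])
  have hη := s48t_eta hcheb hN hint hX hSa hE hℓ j φ ρb hfin hloc P hP
  obtain ⟨ρ', h1, h2, -, h4⟩ := s48e_prop72_semisimplification_field ℓ hℓ2 ι P M hPcard hη d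
    (by rw [Nat.card_eq_fintype_card]; exact hcard)
  set ρ'' : ρb.range →* GL (Fin 2) F := ρ'.toHomUnits with hρ''
  have hval : ∀ x : ρb.range, (ρ'' x).val = ρ' x := fun x => MonoidHom.coe_toHomUnits ρ' x
  haveI : Finite ρ''.range := by
    have : (Set.range ρ'').Finite := Set.finite_range _
    rw [← MonoidHom.coe_range] at this
    exact this.to_subtype
  letI : Fintype ρ''.range := Fintype.ofFinite _
  have hG'card : Nat.card ρ''.range ≤ A₀ := by
    have e1 : Set.range ρ' = Units.val '' (Set.range ρ'') := by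
      rw [← Set.range_comp]
      congr 1
    have e2 : (Set.range ρ').ncard = (Set.range ρ'').ncard := by
      rw [e1, Set.ncard_image_of_injective _ Units.val_injective]
    have e3 : Nat.card ρ''.range = (Set.range ρ'').ncard := by
      rw [← Nat.card_coe_set_eq, ← MonoidHom.coe_range]
      rfl
    rw [e3, ← e2]
    exact h4
  have hpos : 0 < Nat.card ρ''.range := Nat.card_pos
  have hnd : ¬ ℓ ∣ Fintype.card ρ''.range := by
    rw [← Nat.card_eq_fintype_card]
    exact Nat.not_dvd_of_pos_of_lt hpos (lt_of_le_of_lt hG'card hA₀ℓ)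
  obtain ⟨ρn, hρn⟩ := hlift ℓ F kf j φ ρ''.range hnd ρ''.range.subtype
  set r : Γℚ →* ρ''.range := ρ''.rangeRestrict.comp ρb.rangeRestrict with hr
  refine ⟨ρn.comp r, ?_, fun σ => ?_, fun p hp hpℓ A hA => ?_⟩
  · have := s48t_finiteLevel_comp (s48t_finiteLevel_rangeRestrict hfin) (ρn.comp ρ''.rangeRestrict)
    exact this
  · obtain ⟨k, hk⟩ : Nat.card ρ''.range ∣ A₀.factorial := Nat.dvd_factorial hpos hG'card
    rw [MonoidHom.comp_apply, ← map_pow, hk, pow_mul, pow_card_eq_one', one_pow, map_one]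
  · obtain ⟨hin, hfr⟩ := hloc p hp hpℓ A hA
    refine ⟨fun σ hσ => ?_, fun σ hσ x y hx hy => ?_⟩
    · have h0 : ρb.rangeRestrict σ = 1 := by
        apply Subtype.ext
        rw [MonoidHom.coe_rangeRestrict, hin σ hσ]
        rfl
      rw [MonoidHom.comp_apply, hr, MonoidHom.comp_apply, h0, map_one, map_one]
    · obtain ⟨t, dd, ht, hd, hφt, hφd⟩ := hρn (r σ)
      obtain ⟨hx', hy'⟩ := hfr σ hσ x y hx hy
      have hsub : (ρ''.range.subtype (r σ)).val = ρ' (ρb.rangeRestrict σ) := by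
        rw [hr, MonoidHom.comp_apply]
        exact hval _
      have hισ : ι (ρb.rangeRestrict σ) = (ρb σ).val := rfl
      refine ⟨t, dd, ht, hd, ?_, ?_⟩
      · rw [hφt, hsub, (h1 _).1, hισ, hx']
      · rw [hφd, hsub, (h1 _).2, hισ, hy']

end Fermat.Agent.Lib.S48
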