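/-
DS-1 (S48), wall [T9] (helper9), part 18: **the étale datum of a WILD layer at a FINITE level.**

* `s48c_wild_etale_core` : helper1's construction (`AWildE`, `s48a_wild_chart_etale_of_app`) over an
  ARBITRARY constant field `K`, with the partition of unity `∑ a j * b j = 1` (`a j ∈ L(-E₀)`,
  `b j ∈ L(E₀)`, `n • E₀ = div h`) and the chart approximant as hypotheses (no `s37r_ChartHyp`);
* `s48c_fin_wild_etale`  : the finite-level instance: partition from the landed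
  `s18f_hinv_chart1_of_dedekind`, approximant from `s48c_wapp_chart` (`WildApp`), closedness from
  helper6's `s48g_fin_wclosed`, all from the finite-level contract `s48g_FinChart` of the base.
-/
import Fermat.Agent.Lib.S48.AWildC
import Fermat.Agent.Lib.S48.GFinW
import Fermat.Agent.Lib.S48.GFinK
import Fermat.Agent.Lib.S48.WildApp

set_option autoImplicit false
set_option linter.unusedSectionVars false
set_option linter.style.haveILetI false

noncomputable section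

namespace Fermat.Agent.Lib.S48

open AlgebraicCurve IsDedekindDomain Fermat.Agent.Lib.FF Fermat.Agent.Lib.S18 Polynomial

variable {K F₀ F : Type*} [Field K] [Field F₀] [Field F] [Algebra K F₀] [Algebra K F]
  [Algebra F₀ F] [IsScalarTower K F₀ F] [FiniteDimensional F₀ F] [CharZero F₀]
  {Fb₀ Fb : Type*} [Field Fb₀] [Field Fb] [Algebra Fb₀ Fb]
  {O₀ : ValuationSubring F₀} {red₀ : ↥O₀ →+* Fb₀} {n : ℕ}
  {b : Module.Basis (Fin n) F₀ F} {t : F} {f : (↥O₀)[X]} {tb : Fb}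
  (hK : s48g_LayerData O₀ red₀ b t f tb) {w₀ : F₀}

set_option maxHeartbeats 1600000 in
/-- **the étale datum of a wild Kummer layer** `τ ^ n = h`, `τ = a + lam * t`, `n = u' lam^(n-1)`
the residue characteristic, from a partition of unity for the lattice of `div(h)/n` and a chart
approximant of `a`; arbitrary constant field. -/
theorem s48c_wild_etale_core (hn : n.Prime) (lam u' u'' : K)
    (hlamO : algebraMap K F₀ lam ∈ O₀) (hlam0 : lam ≠ 0)
    (hu'O : algebraMap K F₀ u' ∈ O₀) (hu''O : algebraMap K F₀ u'' ∈ O₀)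
    (huu : u' * u'' = 1) (hnu : (n : K) = u' * lam ^ (n - 1))
    (τ : F) (a : F₀) (haO : a ∈ O₀)
    (hτ : τ = algebraMap F₀ F a + algebraMap K F lam * t)
    (h : F₀) (hh : τ ^ n = algebraMap F₀ F h) (hhO : h ∈ O₀) (hhinvO : h⁻¹ ∈ O₀) (hh0 : h ≠ 0)
    (E₀ : Place K F₀ → ℤ) (hnE : ∀ Q, (n : ℤ) * E₀ Q = Q.ord h)
    (s₀ : Finset ℕ) (av bq : ℕ → F₀)
    (ha : ∀ j ∈ s₀, av j ∈ s18_latSet O₀ (s18_chart1 (L₀ := K) w₀) (fun Q => - E₀ Q))
    (hb : ∀ j ∈ s₀, bq j ∈ s18_latSet O₀ (s18_chart1 (L₀ := K) w₀) (fun Q => - - E₀ Q))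
    (hab : ∑ j ∈ s₀, av j * bq j = 1)
    (happ : ∃ Aapp ∈ s18_latSet O₀ (s18_chart1 (L₀ := K) w₀) E₀, ∃ y ∈ O₀,
      a - Aapp = algebraMap K F₀ lam * y) :
    ∃ (J : Finset ℕ) (bs : ℕ → Module.Basis (Fin n) F₀ F) (s : ℕ → F)
      (fR : ℕ → (↥(s48g_B₀ K O₀ w₀))[X]) (sd : ℕ → Fin n → F) (η : ℕ → F)
      (d e : ℕ → ↥(s48g_B₀ K O₀ w₀)),
      s48g_Etale (s48g_B₀ K O₀ w₀) (s48g_B hK K w₀) J bs s fR sd η d e := by
  classical
  have hnpos : 0 < n := hn.pos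
  set lamF : F₀ := algebraMap K F₀ lam with hlamF
  have hlamF0 : lamF ≠ 0 := (_root_.map_ne_zero _).mpr hlam0
  have hlamFF : algebraMap K F lam = algebraMap F₀ F lamF := IsScalarTower.algebraMap_apply K F₀ F lam
  have hL0 : algebraMap F₀ F lamF ≠ 0 := (_root_.map_ne_zero _).mpr hlamF0
  -- constants
  have hlamB₀ : lamF ∈ s48g_B₀ K O₀ w₀ := ⟨hlamO, fun P _ => P.algebraMap_mem' _⟩
  have hu'B₀ : algebraMap K F₀ u' ∈ s48g_B₀ K O₀ w₀ := ⟨hu'O, fun P _ => P.algebraMap_mem' _⟩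
  have hu''B₀ : algebraMap K F₀ u'' ∈ s48g_B₀ K O₀ w₀ := ⟨hu''O, fun P _ => P.algebraMap_mem' _⟩
  have huuF : algebraMap K F₀ u' * algebraMap K F₀ u'' = 1 := by
    rw [← map_mul, huu, map_one]
  have hnuF : (n : F₀) = algebraMap K F₀ u' * lamF ^ (n - 1) := by
    rw [hlamF, ← map_pow, ← map_mul, ← hnu, map_natCast]
  -- `τ ∈ O`
  have hτO : τ ∈ s48g_O hK := by
    rw [hτ, hlamFF]
    exact (s48g_O hK).add_mem _ _ (s48g_algebraMap_mem_O hK ⟨a, haO⟩)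
      ((s48g_O hK).mul_mem _ _ (s48g_algebraMap_mem_O hK ⟨lamF, hlamB₀.1⟩) (s48g_t_mem_O hK))
  have hτ0 : τ ≠ 0 := by
    rintro rfl
    rw [zero_pow hnpos.ne'] at hh
    exact hh0 ((map_eq_zero (algebraMap F₀ F)).mp hh.symm)
  -- memberships in the chart ring of the base
  have hxB : ∀ i ∈ s₀, ∀ j ∈ s₀, av i * bq j ∈ s48g_B₀ K O₀ w₀ := by
    intro i hi j hj
    have h1 := s18_latSet_mul O₀ _ _ _ (ha i hi) (hb j hj)
    have h2 : av i * bq j ∈ s18_latSet O₀ (s18_chart1 (L₀ := K) w₀) (fun _ => 0) :=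
      s48g_latSet_congr (fun Q _ => by ring) h1
    rw [← s18_ringSet_eq_latSet_zero] at h2
    exact h2
  have huB : ∀ j ∈ s₀, av j ^ n * h ∈ s48g_B₀ K O₀ w₀ := by
    intro j hj
    refine ⟨O₀.mul_mem _ _ (pow_mem (ha j hj).1 n) hhO, fun Q hQ => ?_⟩
    by_cases ha0 : av j = 0
    · rw [ha0, zero_pow hnpos.ne', zero_mul]
      exact Q.toValuationSubring.zero_mem
    rcases (ha j hj).2 Q hQ with h0 | h1
    · exact absurd h0 ha0
    beta_reduce at h1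
    rw [ff_mem_iff_ord_nonneg Q (mul_ne_zero (pow_ne_zero n ha0) hh0),
      Q.ord_mul (pow_ne_zero n ha0) hh0, s48g_fin_ord_pow, ← hnE Q]
    have : 0 ≤ (n : ℤ) * (Q.ord (av j) + E₀ Q) :=
      mul_nonneg (Int.natCast_nonneg n) (by linarith)
    linarith
  have hvB : ∀ j ∈ s₀, bq j ^ n * h⁻¹ ∈ s48g_B₀ K O₀ w₀ := by
    intro j hj
    refine ⟨O₀.mul_mem _ _ (pow_mem (hb j hj).1 n) hhinvO, fun Q hQ => ?_⟩
    by_cases hb0 : bq j = 0
    · rw [hb0, zero_pow hnpos.ne', zero_mul]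
      exact Q.toValuationSubring.zero_mem
    rcases (hb j hj).2 Q hQ with h0 | h1
    · exact absurd h0 hb0
    beta_reduce at h1
    rw [ff_mem_iff_ord_nonneg Q (mul_ne_zero (pow_ne_zero n hb0) (inv_ne_zero hh0)),
      Q.ord_mul (pow_ne_zero n hb0) (inv_ne_zero hh0), s48g_fin_ord_pow, Q.ord_inv, ← hnE Q]
    have : 0 ≤ (n : ℤ) * (Q.ord (bq j) - E₀ Q) :=
      mul_nonneg (Int.natCast_nonneg n) (by linarith)
    linarith
  -- the approximant
  obtain ⟨Aapp, hAappL, y, hyO, hay⟩ := happ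
  have hAappO : Aapp ∈ O₀ := hAappL.1
  have hyB : ∀ j ∈ s₀, av j * Aapp ∈ s48g_B₀ K O₀ w₀ := by
    intro j hj
    have h1 := s18_latSet_mul O₀ _ _ _ (ha j hj) hAappL
    have h2 : av j * Aapp ∈ s18_latSet O₀ (s18_chart1 (L₀ := K) w₀) (fun _ => 0) :=
      s48g_latSet_congr (fun Q _ => by
        show - E₀ Q + E₀ Q = 0
        ring) h1
    rw [← s18_ringSet_eq_latSet_zero] at h2
    exact h2
  -- `τ - Aapp = lam * s'` with `s' ∈ O`
  set s' : F := t + algebraMap F₀ F y with hs'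
  have hs'O : s' ∈ s48g_O hK :=
    (s48g_O hK).add_mem _ _ (s48g_t_mem_O hK) (s48g_algebraMap_mem_O hK ⟨y, hyO⟩)
  have hτA : τ - algebraMap F₀ F Aapp = algebraMap F₀ F lamF * s' := by
    have h1 : algebraMap F₀ F a - algebraMap F₀ F Aapp =
        algebraMap F₀ F lamF * algebraMap F₀ F y := by
      rw [← map_sub, hay, map_mul]
    rw [hτ, hlamFF, hs']
    linear_combination h1
  have hrelA : (s' + algebraMap F₀ F (Aapp / lamF)) = algebraMap F₀ F (1 / lamF) * τ := by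
    have h1 : τ = algebraMap F₀ F Aapp + algebraMap F₀ F lamF * s' := by
      rw [← hτA]
      ring
    rw [h1]
    simp only [map_div₀, map_one]
    field_simp
    ring
  have hglobA : (Aapp ^ n - h) / lamF ^ n ∈ O₀ := by
    refine s48a_wpoly_const_mem O₀.toSubring (s48g_O hK).toSubring
      (fun y hy => s48g_algebraMap_mem_O hK ⟨y, hy⟩)
      (fun y hy => (s48g_algebraMap_mem_O_iff hK y).mp hy) hn hlamB₀.1 hlamF0 hu'B₀.1 hnuF hAappO
      hs'O ?_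
    rw [hrelA, mul_pow, hh, ← map_pow, ← map_mul]
    congr 1
    rw [div_pow, one_pow]
    ring
  -- elements of `B₀`
  let xB : ℕ → ↥(s48g_B₀ K O₀ w₀) := fun j =>
    if hj : j ∈ s₀ then ⟨av j * bq j, hxB j hj j hj⟩ else 0
  let uB : ℕ → ↥(s48g_B₀ K O₀ w₀) := fun j =>
    if hj : j ∈ s₀ then ⟨av j ^ n * h, huB j hj⟩ else 0
  let vB : ℕ → ↥(s48g_B₀ K O₀ w₀) := fun j =>
    if hj : j ∈ s₀ then ⟨bq j ^ n * h⁻¹, hvB j hj⟩ else 0
  have hxBcoe : ∀ j ∈ s₀, ((xB j : ↥(s48g_B₀ K O₀ w₀)) : F₀) = av j * bq j := fun j hj => by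
    show ((if hj : j ∈ s₀ then (⟨av j * bq j, hxB j hj j hj⟩ : ↥(s48g_B₀ K O₀ w₀)) else 0 :
      ↥(s48g_B₀ K O₀ w₀)) : F₀) = _
    rw [dif_pos hj]
  have huBcoe : ∀ j ∈ s₀, ((uB j : ↥(s48g_B₀ K O₀ w₀)) : F₀) = av j ^ n * h := fun j hj => by
    show ((if hj : j ∈ s₀ then (⟨av j ^ n * h, huB j hj⟩ : ↥(s48g_B₀ K O₀ w₀)) else 0 :
      ↥(s48g_B₀ K O₀ w₀)) : F₀) = _
    rw [dif_pos hj]
  have hvBcoe : ∀ j ∈ s₀, ((vB j : ↥(s48g_B₀ K O₀ w₀)) : F₀) = bq j ^ n * h⁻¹ := fun j hj => by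
    show ((if hj : j ∈ s₀ then (⟨bq j ^ n * h⁻¹, hvB j hj⟩ : ↥(s48g_B₀ K O₀ w₀)) else 0 :
      ↥(s48g_B₀ K O₀ w₀)) : F₀) = _
    rw [dif_pos hj]
  have hxsum : ∑ j ∈ s₀, xB j = 1 := by
    apply Subtype.ext
    rw [AddSubmonoidClass.coe_finsetSum, Finset.sum_congr rfl fun j hj => hxBcoe j hj, hab]
    rfl
  obtain ⟨c, hc⟩ := s48g_exists_pow_partition s₀ xB hxsum n
  have huv : ∀ j ∈ s₀, uB j * vB j = xB j ^ n := by
    intro j hj
    apply Subtype.ext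
    rw [Subring.coe_mul, SubmonoidClass.coe_pow, huBcoe j hj, hvBcoe j hj, hxBcoe j hj, mul_pow]
    field_simp
  let J : Finset ℕ := s₀.filter fun j => av j ≠ 0
  have hJs : ∀ j ∈ J, j ∈ s₀ := fun j hj => (Finset.mem_filter.mp hj).1
  have hJa : ∀ j ∈ J, av j ≠ 0 := fun j hj => (Finset.mem_filter.mp hj).2
  -- `av j * τ ∈ B`
  have hηB : ∀ j ∈ J, algebraMap F₀ F (av j) * τ ∈ s48g_B hK K w₀ := by
    intro j hj
    refine ⟨(s48g_O hK).mul_mem _ _ (s48g_algebraMap_mem_O hK ⟨av j, (ha j (hJs j hj)).1⟩) hτO,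
      fun P hP => ?_⟩
    have hs0 : algebraMap F₀ F (av j) * τ ≠ 0 :=
      mul_ne_zero ((_root_.map_ne_zero _).mpr (hJa j hj)) hτ0
    have h1 : (algebraMap F₀ F (av j) * τ) ^ n ∈ P.toValuationSubring := by
      rw [mul_pow, hh, ← map_pow, ← map_mul]
      exact (Place.mem_restrict_iff P).mp ((huB j (hJs j hj)).2 _ (s48g_restrict_mem_chart hP))
    rw [ff_mem_iff_ord_nonneg P (pow_ne_zero n hs0), s48g_fin_ord_pow] at h1
    rw [ff_mem_iff_ord_nonneg P hs0]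
    have hn' : (0 : ℤ) < n := by exact_mod_cast hnpos
    by_contra hneg
    push Not at hneg
    have : (n : ℤ) * P.ord (algebraMap F₀ F (av j) * τ) < 0 := mul_neg_of_pos_of_neg hn' hneg
    omega
  -- `(av j / lam) * (τ - Aapp) ∈ B`
  have hsB : ∀ j ∈ J, algebraMap F₀ F (av j / lamF) * (τ - algebraMap F₀ F Aapp) ∈
      s48g_B hK K w₀ := by
    intro j hj
    refine ⟨?_, fun P hP => ?_⟩
    · have : algebraMap F₀ F (av j / lamF) * (τ - algebraMap F₀ F Aapp) =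
          algebraMap F₀ F (av j) * s' := by
        rw [hτA]
        simp only [map_div₀]
        field_simp
      rw [this]
      exact (s48g_O hK).mul_mem _ _ (s48g_algebraMap_mem_O hK ⟨av j, (ha j (hJs j hj)).1⟩) hs'O
    · have : algebraMap F₀ F (av j / lamF) * (τ - algebraMap F₀ F Aapp) =
          algebraMap K F lam⁻¹ * (algebraMap F₀ F (av j) * τ - algebraMap F₀ F (av j * Aapp)) := by
        rw [IsScalarTower.algebraMap_apply K F₀ F lam⁻¹, map_inv₀, ← hlamF]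
        simp only [map_div₀, map_mul, map_inv₀]
        field_simp
      rw [this]
      refine P.toValuationSubring.mul_mem _ _ (P.algebraMap_mem' _) ?_
      refine sub_mem ((hηB j hj).2 P hP) ?_
      exact (Place.mem_restrict_iff P).mp
        ((hyB j (hJs j hj)).2 _ (s48g_restrict_mem_chart hP))
  -- the constant terms
  have hc0B : ∀ j ∈ J, ((av j * Aapp) ^ n - av j ^ n * h) / lamF ^ n ∈ s48g_B₀ K O₀ w₀ := by
    intro j hj
    refine ⟨?_, fun Q hQ => ?_⟩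
    · have : ((av j * Aapp) ^ n - av j ^ n * h) / lamF ^ n =
          av j ^ n * ((Aapp ^ n - h) / lamF ^ n) := by
        rw [mul_pow]
        ring
      rw [this]
      exact O₀.mul_mem _ _ (pow_mem (ha j (hJs j hj)).1 n) hglobA
    · have : ((av j * Aapp) ^ n - av j ^ n * h) / lamF ^ n =
          algebraMap K F₀ (lam ^ n)⁻¹ * ((av j * Aapp) ^ n - av j ^ n * h) := by
        rw [map_inv₀, map_pow, ← hlamF]
        field_simp
      rw [this]
      refine Q.toValuationSubring.mul_mem _ _ (Q.algebraMap_mem' _) ?_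
      exact sub_mem (pow_mem ((hyB j (hJs j hj)).2 Q hQ) n) ((huB j (hJs j hj)).2 Q hQ)
  haveI : Algebra.IsSeparable F₀ F := inferInstance
  have hone : ∑ j ∈ J, (c j * vB j) * uB j = 1 := by
    have h1 : ∀ j ∈ J, (c j * vB j) * uB j = c j * xB j ^ n := by
      intro j hj
      rw [← huv j (hJs j hj)]
      ring
    rw [Finset.sum_congr rfl h1, ← hc]
    refine Finset.sum_subset (Finset.filter_subset _ _) fun j hj hjJ => ?_
    have ha0 : av j = 0 := by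
      by_contra hne
      exact hjJ (Finset.mem_filter.mpr ⟨hj, hne⟩)
    have hx0 : xB j = 0 := by
      apply Subtype.ext
      rw [hxBcoe j hj, ha0, zero_mul]
      rfl
    rw [hx0, zero_pow hnpos.ne', mul_zero]
  obtain ⟨bs, s, fR, sd, η, hE⟩ := s48a_wild_etale (s48g_B₀ K O₀ w₀) (s48g_B hK K w₀)
    (fun y hy => s48g_chart_base_mem hK hy) (fun y hy => s48g_chart_trace_mem hK hy)
    hn b t hK.basis lamF (algebraMap K F₀ u') (algebraMap K F₀ u'') hlamB₀ hlamF0 hu'B₀ hu''B₀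
    huuF hnuF τ lamF a hlamF0 (by rw [hτ, hlamFF]; ring) h hh J av Aapp uB
    (fun j => c j * vB j) hJa (fun j hj => hyB j (hJs j hj)) hsB hηB
    (fun j hj => huBcoe j (hJs j hj)) hc0B hone
  exact ⟨J, bs, s, fR, sd, η, uB, fun j => c j * vB j, hE⟩

section Fin

variable [CharZero K] {A₀ : ValuationSubring K} {ϖ : ↥A₀} [FFGen K w₀]
  {D₀ : Type*} [CommRing D₀] [Algebra D₀ Fb₀] [IsDedekindDomain D₀] [IsFractionRing D₀ Fb₀]
  {ψ₀ : ↥(s48g_B₀ K O₀ w₀) →+* D₀}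

set_option maxHeartbeats 800000 in
/-- **the étale datum of a wild Kummer layer at a finite level.** -/
theorem s48c_fin_wild_etale [IsDiscreteValuationRing ↥A₀]
    (h₀ : s48g_FinChart A₀ ϖ O₀ w₀ red₀ ψ₀) (hϖ : Irreducible ϖ) (hn : n.Prime)
    (lam u' u'' : ↥A₀) (hlam0 : lam ≠ 0) (hlamnu : ¬ IsUnit lam) (huu : u' * u'' = 1)
    (hnu : (n : K) = (u' : K) * (lam : K) ^ (n - 1))
    (τ : F) (a : F₀) (haO : a ∈ O₀)
    (hτ : τ = algebraMap F₀ F a + algebraMap K F (lam : K) * t)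
    (h : F₀) (hh : τ ^ n = algebraMap F₀ F h) (hhO : h ∈ O₀)
    (hhred : red₀ ⟨h, hhO⟩ ≠ 0)
    (hdiv : ∀ P : Place K F₀, (n : ℤ) ∣ P.ord h) :
    ∃ (J : Finset ℕ) (bs : ℕ → Module.Basis (Fin n) F₀ F) (s : ℕ → F)
      (fR : ℕ → (↥(s48g_B₀ K O₀ w₀))[X]) (sd : ℕ → Fin n → F) (η : ℕ → F)
      (d e : ℕ → ↥(s48g_B₀ K O₀ w₀)),
      s48g_Etale (s48g_B₀ K O₀ w₀) (s48g_B hK K w₀) J bs s fR sd η d e := by
  classical
  have hnpos : 0 < n := hn.pos
  have hh0 : h ≠ 0 := by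
    rintro rfl
    apply hhred
    have : (⟨0, hhO⟩ : ↥O₀) = 0 := rfl
    rw [this, map_zero]
  have hhinvO : h⁻¹ ∈ O₀ := s48g_fin_inv_mem h₀ ⟨h, hhO⟩ hhred
  haveI : IsNoetherianRing ↥(s18_ring O₀ (s18_chart1 (L₀ := K) w₀)) :=
    s48g_fin_isNoetherianRing h₀
  obtain ⟨s₀, a', bq, ha, hb, hab⟩ := s18f_hinv_chart1_of_dedekind w₀ O₀ (ϖ : K) h₀.unif_ne_zero
    (h₀.const_mem ϖ) h₀.U hh0 n ψ₀ h₀.psi_surj (s48g_fin_hker h₀)
  have hnE : ∀ Q : Place K F₀, (n : ℤ) * s18_E h n Q = Q.ord h := fun Q =>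
    Int.mul_ediv_cancel' (hdiv Q)
  -- constants
  have hlamK0 : (lam : K) ≠ 0 := fun h0 => hlam0 (Subtype.ext h0)
  set lamF : F₀ := algebraMap K F₀ (lam : K) with hlamF
  have hlamF0 : lamF ≠ 0 := (_root_.map_ne_zero _).mpr hlamK0
  have hlamFF : algebraMap K F (lam : K) = algebraMap F₀ F lamF :=
    IsScalarTower.algebraMap_apply K F₀ F _
  have huuK : (u' : K) * (u'' : K) = 1 := by
    have := congrArg (fun x : ↥A₀ => (x : K)) huu
    simpa using this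
  have hu'0 : (u' : K) ≠ 0 := left_ne_zero_of_mul_eq_one huuK
  have hu'inv : ((u' : K))⁻¹ ∈ A₀ := by
    rw [← eq_inv_of_mul_eq_one_right huuK]
    exact u''.2
  have hnuF : (n : F₀) = algebraMap K F₀ (u' : K) * lamF ^ (n - 1) := by
    rw [hlamF, ← map_pow, ← map_mul, ← hnu, map_natCast]
  -- `lam = v ϖ ^ n₀`
  obtain ⟨n₀, v, hv⟩ := IsDiscreteValuationRing.eq_unit_mul_pow_irreducible hlam0 hϖ
  have hn₀ : 1 ≤ n₀ := by
    rcases Nat.eq_zero_or_pos n₀ with h0 | h0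
    · exfalso
      apply hlamnu
      rw [hv, h0, pow_zero, mul_one]
      exact v.isUnit
    · exact h0
  have hvK : ((v : ↥A₀) : K) * ((v⁻¹ : (↥A₀)ˣ) : ↥A₀) = 1 := by
    rw [← MulMemClass.coe_mul, Units.mul_inv, OneMemClass.coe_one]
  have hv0 : ((v : ↥A₀) : K) ≠ 0 := left_ne_zero_of_mul_eq_one hvK
  have hvinv : (((v : ↥A₀) : K))⁻¹ ∈ A₀ := by
    rw [← eq_inv_of_mul_eq_one_right hvK]
    exact ((v⁻¹ : (↥A₀)ˣ) : ↥A₀).2
  have hlamv : (lam : K) = ((v : ↥A₀) : K) * (ϖ : K) ^ n₀ := by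
    have := congrArg (fun x : ↥A₀ => (x : K)) hv
    simpa using this
  -- `(a ^ n - h) / lam ^ n ∈ O₀`
  have hkey0 : t + algebraMap F₀ F (a / lamF) = algebraMap F₀ F (1 / lamF) * τ := by
    rw [hτ, hlamFF]
    simp only [map_div₀, map_one]
    have hL0 : algebraMap F₀ F lamF ≠ 0 := (_root_.map_ne_zero _).mpr hlamF0
    field_simp
    ring
  have hglob : (a ^ n - h) / lamF ^ n ∈ O₀ := by
    refine s48a_wpoly_const_mem O₀.toSubring (s48g_O hK).toSubring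
      (fun y hy => s48g_algebraMap_mem_O hK ⟨y, hy⟩)
      (fun y hy => (s48g_algebraMap_mem_O_iff hK y).mp hy) hn (h₀.const_mem lam) hlamF0
      (h₀.const_mem u') hnuF haO (s48g_t_mem_O hK) ?_
    rw [hkey0, mul_pow, hh, ← map_pow, ← map_mul]
    congr 1
    rw [div_pow, one_pow]
    ring
  have hcO : (h - a ^ n) / lamF ^ n ∈ O₀ := by
    have : (h - a ^ n) / lamF ^ n = - ((a ^ n - h) / lamF ^ n) := by
      rw [← neg_div, neg_sub]
    rw [this]
    exact O₀.neg_mem _ hglob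
  have hrel : h = a ^ n + algebraMap K F₀ (lam : K) ^ n * ((h - a ^ n) / lamF ^ n) := by
    rw [← hlamF, mul_div_cancel₀ _ (pow_ne_zero n hlamF0)]
    ring
  -- the chart approximant
  have happ := s48c_wapp_chart A₀ O₀ h₀.const_mem ϖ h₀.unif_ne_zero (s18_chart1 (L₀ := K) w₀) hn
    lam u' (v : ↥A₀) hu'inv hu'0 hvinv hv0 n₀ hn₀ hnu hlamv h a ((h - a ^ n) / lamF ^ n) hhO hhinvO
    hh0 hdiv haO hcO hrel (s48g_fin_wclosed h₀ n hn.two_le) ⟨s₀, a', bq, ha, hb, hab⟩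
  refine s48c_wild_etale_core hK hn (lam : K) (u' : K) (u'' : K) (h₀.const_mem lam) hlamK0
    (h₀.const_mem u') (h₀.const_mem u'') huuK hnu τ a haO hτ h hh hhO hhinvO hh0
    (s18_E h n) hnE s₀ bq a' hb ?_ ?_ happ
  · intro j hj
    exact s48g_latSet_congr (fun Q _ => (neg_neg _).symm) (ha j hj)
  · rw [← hab]
    exact Finset.sum_congr rfl fun j _ => mul_comm _ _

end Fin

end Fermat.Agent.Lib.S48
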