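/-
DS-1 (S48), [GS] port (helper2, prefix `s48y_`): **the mod-`n` cyclotomic character of `G_ℚ` for an arbitrary
modulus `n ≠ 0`** (generalisation of the landed `cff_chi p`, `s29g_chi_frobenius`, `s29g_chi_inertia`).

* `s48y_chi n : G_ℚ →* (ZMod n)ˣ`, `s48y_chi_spec`, `s48y_chi_eq_one_iff`, `s48y_chi_eq_of_pow`;
* `s48y_root_sep`      : `n`-th roots of unity are distinct modulo a place over `p ∤ n`;
* `s48y_chi_frobenius` : `χ_n(Frob_p) = p` for `p ∤ n`;
* `s48y_chi_inertia`   : `χ_n` is trivial on inertia at `p ∤ n`;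
* `s48y_chi_level`     : `χ_n σ = 1` as soon as `σ` fixes a primitive `n`-th root of unity.
-/
import Mathlib
import Fermat.Agent.Lib.S29.GSChi

set_option autoImplicit false

noncomputable section

namespace Fermat.Agent.Lib.S48

open Fermat.Agent.Lib.S29 Fermat.Agent.Lib.CFT

local notation "Γℚ" => (AlgebraicClosure ℚ ≃ₐ[ℚ] AlgebraicClosure ℚ)
local notation "Qbar" => AlgebraicClosure ℚ

section roots

variable {L : Type*} [Field L]

/-- `n`-th roots of unity are distinct modulo a valuation subring over a prime `p ∤ n`. -/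
theorem s48y_root_sep (A : ValuationSubring L) {n p : ℕ} (hn : n ≠ 0) (hp : p.Prime)
    (hpn : ¬ p ∣ n) (hA : (p : L) ∈ A.nonunits) {η₁ η₂ : L} (h1 : η₁ ^ n = 1) (h2 : η₂ ^ n = 1)
    (h : η₁ - η₂ ∈ A.nonunits) : η₁ = η₂ := by
  have m1 := s29g_root_mem A hn h1
  have m2 := s29g_root_mem A hn h2
  set e₁ : A := ⟨η₁, m1⟩ with he₁
  set e₂ : A := ⟨η₂, m2⟩ with he₂
  have E1 : e₁ ^ n = 1 := Subtype.ext (by simpa using h1)
  have E2 : e₂ ^ n = 1 := Subtype.ext (by simpa using h2)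
  have hres : IsLocalRing.residue A e₁ = IsLocalRing.residue A e₂ := by
    rw [← sub_eq_zero, ← map_sub, IsLocalRing.residue_eq_zero_iff]
    exact (ValuationSubring.coe_mem_nonunits_iff (A := A)).mp h
  have hpres : ((p : ℕ) : IsLocalRing.ResidueField A) = 0 := by
    have : IsLocalRing.residue A ((p : ℕ) : A) = 0 := by
      rw [IsLocalRing.residue_eq_zero_iff]
      exact (ValuationSubring.coe_mem_nonunits_iff (A := A)).mp (by simpa using hA)
    simpa using this
  set ξ : A := e₁ * e₂ ^ (n - 1) with hξ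
  have hn1 : n = (n - 1) + 1 := by omega
  have hξn : ξ ^ n = 1 := by
    rw [hξ, mul_pow, E1, one_mul, ← pow_mul, mul_comm, pow_mul, E2, one_pow]
  have hξres : IsLocalRing.residue A ξ = 1 := by
    rw [hξ, map_mul, map_pow, hres, ← pow_succ', ← hn1, ← map_pow, E2, map_one]
  by_cases hξ1 : ξ = 1
  · have : e₁ = e₂ := by
      have h3 : ξ * e₂ = e₁ := by
        rw [hξ, mul_assoc, ← pow_succ, ← hn1, E2, mul_one]
      rw [← h3, hξ1, one_mul]
    exact congrArg Subtype.val this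
  · exfalso
    have hsum : ∑ i ∈ Finset.range n, ξ ^ i = 0 := by
      have := mul_geom_sum ξ n
      rw [hξn, sub_self] at this
      rcases mul_eq_zero.mp this with h4 | h4
      · exact absurd (sub_eq_zero.mp h4) hξ1
      · exact h4
    have hnres : ((n : ℕ) : IsLocalRing.ResidueField A) = 0 := by
      have := congrArg (IsLocalRing.residue A) hsum
      rw [map_sum, map_zero] at this
      simp only [map_pow, hξres, one_pow, Finset.sum_const, Finset.card_range, nsmul_eq_mul,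
        mul_one] at this
      exact this
    have hcop : IsCoprime (n : ℤ) (p : ℤ) := by
      rw [Nat.isCoprime_iff_coprime]
      exact ((Nat.Prime.coprime_iff_not_dvd hp).mpr hpn).symm
    obtain ⟨a, b, hab⟩ := hcop
    have := congrArg (Int.cast : ℤ → IsLocalRing.ResidueField A) hab
    simp only [Int.cast_add, Int.cast_mul, Int.cast_natCast, hpres, hnres, mul_zero, add_zero,
      Int.cast_one] at this
    exact zero_ne_one this

end roots

section chi

variable (n : ℕ) [NeZero n]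

theorem s48y_card_rootsOfUnity : Nat.card (rootsOfUnity n Qbar) = n :=
  IsAlgClosed.card_rootsOfUnity_eq Qbar n

/-- the mod `n` cyclotomic character on `G_ℚ`. -/
def s48y_chi : Γℚ →* (ZMod n)ˣ :=
  (modularCyclotomicCharacter Qbar (s48y_card_rootsOfUnity n)).comp cff_toRingEquiv

theorem s48y_chi_spec (σ : Γℚ) {ζ : Qbar} (hζ : ζ ^ n = 1) :
    σ ζ = ζ ^ ((s48y_chi n σ : (ZMod n)ˣ) : ZMod n).val := by
  have hn0 : n ≠ 0 := NeZero.ne n
  have hζ0 : ζ ≠ 0 := by
    rintro rfl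
    rw [zero_pow hn0] at hζ
    exact zero_ne_one hζ
  have ht : Units.mk0 ζ hζ0 ∈ rootsOfUnity n Qbar := by
    rw [mem_rootsOfUnity]
    apply Units.ext
    simpa using hζ
  exact modularCyclotomicCharacter.spec Qbar (s48y_card_rootsOfUnity n)
    (σ : Qbar ≃+* Qbar) ht

variable {n}

theorem s48y_chi_eq_of_pow {ζ : Qbar} (hζ : IsPrimitiveRoot ζ n) (τ : Γℚ) (k : ℕ)
    (hk : τ ζ = ζ ^ k) : (k : ZMod n) = ((s48y_chi n τ : (ZMod n)ˣ) : ZMod n) := by
  have hspec := s48y_chi_spec n τ hζ.pow_eq_one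
  rw [hk] at hspec
  have hn0 : 0 < n := Nat.pos_of_ne_zero (NeZero.ne n)
  have e : ζ ^ k = ζ ^ (k % n) := by
    conv_lhs => rw [← Nat.div_add_mod k n]
    rw [pow_add, pow_mul, hζ.pow_eq_one, one_pow, one_mul]
  rw [e] at hspec
  have h1 := hζ.pow_inj (Nat.mod_lt k hn0) (ZMod.val_lt _) hspec
  have h2 : (k : ZMod n) = ((k % n : ℕ) : ZMod n) := by
    rw [ZMod.natCast_eq_natCast_iff]
    exact (Nat.mod_modEq k n).symm
  rw [h2, h1, ZMod.natCast_zmod_val]

theorem s48y_chi_eq_one_iff {ζ : Qbar} (hζ : IsPrimitiveRoot ζ n) (σ : Γℚ) :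
    s48y_chi n σ = 1 ↔ σ ζ = ζ := by
  constructor
  · intro h
    have hspec := s48y_chi_spec n σ hζ.pow_eq_one
    rw [hspec, h, Units.val_one]
    rcases Nat.lt_or_ge 1 n with h1 | h1
    · haveI : Fact (1 < n) := ⟨h1⟩
      rw [ZMod.val_one, pow_one]
    · have hn1 : n = 1 := le_antisymm h1 (Nat.pos_of_ne_zero (NeZero.ne n))
      have : ζ = 1 := by
        have := hζ.pow_eq_one
        rwa [hn1, pow_one] at this
      rw [this, one_pow]
  · intro h
    have h1 := s48y_chi_eq_of_pow hζ σ 1 (by rw [pow_one]; exact h)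
    apply Units.ext
    rw [Units.val_one, ← h1, Nat.cast_one]

/-- `χ_n σ = 1` when `σ` fixes a primitive `n`-th root of unity. -/
theorem s48y_chi_level {ζ : Qbar} (hζ : IsPrimitiveRoot ζ n) (σ : Γℚ) (h : σ ζ = ζ) :
    s48y_chi n σ = 1 := (s48y_chi_eq_one_iff hζ σ).mpr h

variable (n)

/-- `χ_n(Frob_p) = p` for `p ∤ n`. -/
theorem s48y_chi_frobenius {p : ℕ} (hp : p.Prime) (hpn : ¬ p ∣ n)
    (A : ValuationSubring Qbar) (hA : A.LiesOverPrime p) (σ : Γℚ) (hσ : A.IsFrobeniusAt σ p) :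
    ((s48y_chi n σ : (ZMod n)ˣ) : ZMod n) = (p : ZMod n) := by
  have hn0 : n ≠ 0 := NeZero.ne n
  obtain ⟨ζ, hζ⟩ : ∃ ζ : Qbar, IsPrimitiveRoot ζ n :=
    HasEnoughRootsOfUnity.exists_primitiveRoot Qbar n
  have hζn := hζ.pow_eq_one
  have hspec := s48y_chi_spec n σ hζn
  have hmem := s29g_root_mem A hn0 hζn
  have hcong := s29g_frob_congr A hσ hmem
  rw [hspec] at hcong
  have heq := s48y_root_sep A hn0 hp hpn hA
    (by rw [← pow_mul, mul_comm, pow_mul, hζn, one_pow])
    (by rw [← pow_mul, mul_comm, pow_mul, hζn, one_pow]) hcong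
  exact (s48y_chi_eq_of_pow hζ σ p (by rw [hspec, heq])).symm

/-- `χ_n` is trivial on inertia at `p ∤ n`. -/
theorem s48y_chi_inertia {p : ℕ} (hp : p.Prime) (hpn : ¬ p ∣ n)
    (A : ValuationSubring Qbar) (hA : A.LiesOverPrime p) (τ : Γℚ)
    (hτ : τ ∈ A.inertiaSubgroupIn ℚ) : s48y_chi n τ = 1 := by
  have hn0 : n ≠ 0 := NeZero.ne n
  obtain ⟨ζ, hζ⟩ : ∃ ζ : Qbar, IsPrimitiveRoot ζ n :=
    HasEnoughRootsOfUnity.exists_primitiveRoot Qbar n
  have hζn := hζ.pow_eq_one
  have hspec := s48y_chi_spec n τ hζn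
  have hmem := s29g_root_mem A hn0 hζn
  have hcong := s29g_inertia_congr A hτ hmem
  rw [s48y_chi_eq_one_iff hζ]
  refine s48y_root_sep A hn0 hp hpn hA ?_ hζn hcong
  rw [hspec, ← pow_mul, mul_comm, pow_mul, hζn, one_pow]

end chi

end Fermat.Agent.Lib.S48
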