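/-
DS-1 (S48), [GS] port (helper2, prefix `s48y_`): abstract additions to the landed `Lib/S29/GSSpan.lean` for a
quadratic relation WITH a diamond operator: `R σ (R σ m) - T (R σ m) + b • D m = 0`.

* `s48y_quadratic_on_W` : on the span `W` of the orbit of a common eigenvector `v` (`T v = c v`, `D v = δ v`) the
  relation becomes `ρ σ ² - c ρ σ + b δ = 0`;
* `s48y_bc_quadratic`   : base change of the relation along `F → k`;
* `s48y_trace_frob_W`   : `ρ σ + (b δ) ρ σ⁻¹ = c`.
-/
import Mathlib
import Fermat.Agent.Lib.S29.GSSpan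

set_option autoImplicit false

noncomputable section

namespace Fermat.Agent.Lib.S48

open Fermat.Agent.Lib.S29
open scoped TensorProduct

section span

variable {k M G : Type*} [Field k] [AddCommGroup M] [Module k M] [Group G]

/-- A quadratic relation with diamond operator on `M` passes to `W`. -/
theorem s48y_quadratic_on_W (R : G →* Module.End k M) (v : M) (T D : Module.End k M)
    (hcommT : ∀ (σ : G) (m : M), T (R σ m) = R σ (T m))
    (hcommD : ∀ (σ : G) (m : M), D (R σ m) = R σ (D m))
    (c δ : k) (hvT : T v = c • v) (hvD : D v = δ • v) (σ : G) (b : k)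
    (hq : ∀ m : M, R σ (R σ m) - T (R σ m) + b • D m = 0) :
    s29g_rho R v σ * s29g_rho R v σ - c • s29g_rho R v σ
      + (b * δ) • (1 : Module.End k (s29g_W R v)) = 0 := by
  ext w
  have hw := hq (w : M)
  rw [s29g_eigen_on_W R v T hcommT c hvT (s29g_W_stable R v σ w.property),
    s29g_eigen_on_W R v D hcommD δ hvD w.property, smul_smul] at hw
  simp only [LinearMap.add_apply, LinearMap.sub_apply, LinearMap.smul_apply, Module.End.mul_apply,
    Module.End.one_apply, LinearMap.zero_apply, Submodule.coe_add, Submodule.coe_sub,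
    Submodule.coe_smul, s29g_rho_coe, Submodule.coe_zero]
  exact hw

/-- From the quadratic relation on `W`: `ρ σ + b' ρ σ⁻¹ = c`. -/
theorem s48y_trace_frob_W (R : G →* Module.End k M) (v : M) (σ : G) (c b' : k)
    (hq : s29g_rho R v σ * s29g_rho R v σ - c • s29g_rho R v σ
      + b' • (1 : Module.End k (s29g_W R v)) = 0) :
    s29g_rho R v σ + b' • s29g_rho R v σ⁻¹ = c • (1 : Module.End k (s29g_W R v)) := by
  have hinv : s29g_rho R v σ * s29g_rho R v σ⁻¹ = 1 := by
    rw [← map_mul, mul_inv_cancel, map_one]
  have h1 : (s29g_rho R v σ * s29g_rho R v σ - c • s29g_rho R v σ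
      + b' • (1 : Module.End k (s29g_W R v))) * s29g_rho R v σ⁻¹
      = s29g_rho R v σ + b' • s29g_rho R v σ⁻¹ - c • (1 : Module.End k (s29g_W R v)) := by
    rw [add_mul, sub_mul, mul_assoc, hinv, mul_one, smul_mul_assoc, hinv, smul_mul_assoc, one_mul]
    abel
  rw [hq, zero_mul] at h1
  exact (sub_eq_zero.mp h1.symm)

/-- The trace identity on `W` for an element acting as a power of an element satisfying the quadratic
relation with diamond operator (determinant given up to equality). -/
theorem s48y_trace_identity (R : G →* Module.End k M) (v : M) (T D : Module.End k M)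
    (hcommT : ∀ (σ : G) (m : M), T (R σ m) = R σ (T m))
    (hcommD : ∀ (σ : G) (m : M), D (R σ m) = R σ (D m))
    (c δ : k) (hvT : T v = c • v) (hvD : D v = δ • v) (σ : G) (b : k)
    (hq : ∀ m : M, R σ (R σ m) - T (R σ m) + b • D m = 0) (j : ℕ) (g : G)
    (hg : s29g_rho R v g = s29g_rho R v σ ^ j) (d : k) (hd : d = (b * δ) ^ j) :
    ∃ t : k, s29g_rho R v g + d • s29g_rho R v g⁻¹
      = t • (1 : Module.End k (s29g_W R v)) := by
  rw [hd]
  exact s29g_trace_of_pow (s29g_rho R v σ) c (b * δ)
    (s48y_quadratic_on_W R v T D hcommT hcommD c δ hvT hvD σ b hq) j _ _ hg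
    (by rw [← map_mul, mul_inv_cancel, map_one])

/-- The trace identity for the element itself. -/
theorem s48y_trace_frob (R : G →* Module.End k M) (v : M) (T D : Module.End k M)
    (hcommT : ∀ (σ : G) (m : M), T (R σ m) = R σ (T m))
    (hcommD : ∀ (σ : G) (m : M), D (R σ m) = R σ (D m))
    (c δ : k) (hvT : T v = c • v) (hvD : D v = δ • v) (σ : G) (b : k)
    (hq : ∀ m : M, R σ (R σ m) - T (R σ m) + b • D m = 0) (d : k) (hd : d = b * δ) :
    s29g_rho R v σ + d • s29g_rho R v σ⁻¹ = c • (1 : Module.End k (s29g_W R v)) := by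
  rw [hd]
  exact s48y_trace_frob_W R v σ c (b * δ)
    (s48y_quadratic_on_W R v T D hcommT hcommD c δ hvT hvD σ b hq)

end span

section bc

variable {F : Type*} (k : Type*) {J G : Type*} [Field F] [Field k] [Algebra F k]
  [AddCommGroup J] [Module F J] [Group G]

/-- Base change of a quadratic relation with diamond operator. -/
theorem s48y_bc_quadratic (r : G →* Module.End F J) (T D : Module.End F J) (σ : G) (b : F)
    (hq : ∀ x : J, r σ (r σ x) - T (r σ x) + b • D x = 0) (m : k ⊗[F] J) :
    s29g_bc k r σ (s29g_bc k r σ m) - T.baseChange k (s29g_bc k r σ m)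
      + (algebraMap F k b) • D.baseChange k m = 0 := by
  induction m using TensorProduct.induction_on with
  | zero => simp
  | tmul a x =>
    rw [s29g_bc_tmul, s29g_bc_tmul, LinearMap.baseChange_tmul, LinearMap.baseChange_tmul,
      ← TensorProduct.tmul_sub, algebraMap_smul, ← TensorProduct.tmul_smul,
      ← TensorProduct.tmul_add, hq x, TensorProduct.tmul_zero]
  | add x y hx hy =>
    rw [map_add, map_add, map_add, map_add, smul_add]
    have : ∀ a b c a' b' c' : k ⊗[F] J,
        a + a' - (b + b') + (c + c') = (a - b + c) + (a' - b' + c') :=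
      fun _ _ _ _ _ _ => by abel
    rw [this, hx, hy, add_zero]

end bc

end Fermat.Agent.Lib.S48
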