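/-
DS-1 (S48), [GS] port (helper2, prefix `s48y_`): **from a common eigenvector of the `T_p^H` and the diamonds in
`k ⊗ J_H(ℚ̄)[ℓ]` to a two-dimensional representation of `G_ℚ`** (`k` algebraically closed), against helper4's
`KIfaceH.lean` (contract `s48k_S37IntH`) and the landed Frobenius density theorem.

Port of the landed `Lib/S29/GSMain.lean`; the new features are the diamond operator in the Eichler–Shimura
relation (`σ² - T_p σ + p ⟨p⟩ = 0`) and the determinant character `χ_ℓ · Ψ ∘ χ_M` (`Ψ` = the diamond character,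
`χ_n` = the mod `n` cyclotomic character, `YChi.lean`).

* `s48y_exists_rep` : `ρ' : G_ℚ →* End_k(k²)` of finite level, unramified outside `Mℓ`,
  `charpoly ρ'(Frob_p) = X² - tl p X + p Ψ(p)`.
-/
import Mathlib
import Fermat.Agent.Lib.S48.KIfaceH
import Fermat.Agent.Lib.S48.YChi
import Fermat.Agent.Lib.S48.YGSAbs
import Fermat.Agent.Lib.S29.GSTwo
import Fermat.Agent.Lib.S29.KIface

set_option autoImplicit false
set_option linter.unusedSectionVars false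
set_option linter.style.haveILetI false

noncomputable section

namespace Fermat.Agent.Lib.S48

open ModularCurve AlgebraicCurve Fermat.Agent.Lib.S29 Polynomial
open scoped TensorProduct IntermediateField

local notation "Qbar" => AlgebraicClosure ℚ

/-- The Galois action on `J_H(ℚ̄)[ℓ]`. -/
def s48y_r (M : ℕ) (H : Subgroup (ZMod M)ˣ) (ℓ : ℕ) :
    s48k_G →* Module.End (ZMod ℓ) (s48k_JHl M H ℓ) :=
  (SemilinearAut.torsionRep _ _ ℓ).comp (arithmeticGalois (s48k_FHQ M H))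

theorem s48y_r_coe (M : ℕ) (H : Subgroup (ZMod M)ˣ) (ℓ : ℕ) (σ : s48k_G) (x : s48k_JHl M H ℓ) :
    ((s48y_r M H ℓ σ x : s48k_JHl M H ℓ) : s48k_JH M H) = σ • (x : s48k_JH M H) := rfl

/-- A function on the Galois group that only depends on the restriction to a finite level has
finite range. -/
theorem s48y_range_finite' (L : IntermediateField ℚ Qbar) [FiniteDimensional ℚ L]
    {X : Type*} (f : s48k_G → X) (h : ∀ σ τ : s48k_G, (∀ y ∈ L, σ y = τ y) → f σ = f τ) :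
    (Set.range f).Finite := by
  classical
  let res : s48k_G → (L →ₐ[ℚ] Qbar) := fun σ => (σ : Qbar →ₐ[ℚ] Qbar).comp L.val
  have hfac : Function.FactorsThrough f res := by
    intro σ τ hστ
    refine h σ τ (fun y hy => ?_)
    exact AlgHom.congr_fun hστ ⟨y, hy⟩
  have hcomp : f = Function.extend res f (fun _ => f 1) ∘ res := (hfac.extend_comp _).symm
  rw [hcomp]
  exact (Set.finite_range _).subset (Set.range_comp_subset_range _ _)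

section S37

variable (hS : s48k_S37IntH) (M N₁ ℓ₀ : ℕ) [NeZero M] (H : Subgroup (ZMod M)ˣ)
  (hL : s48k_Level M N₁ ℓ₀ H) (ℓ : ℕ)
include hS hL

theorem s48y_Tp_comm (p : ℕ) [NeZero p] (pu : (ZMod M)ˣ) (hp : p.Prime) (hpM : ¬ p ∣ M)
    (hpu : ((pu : (ZMod M)ˣ) : ZMod M) = (p : ZMod M)) (σ : s48k_G) (x : s48k_JHl M H ℓ) :
    s48k_torsionEnd M H ℓ (s48k_TpJ M H p pu) (s48y_r M H ℓ σ x)
      = s48y_r M H ℓ σ (s48k_torsionEnd M H ℓ (s48k_TpJ M H p pu) x) := by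
  apply Subtype.ext
  rw [s48k_torsionEnd_coe, s48y_r_coe, s48y_r_coe, s48k_torsionEnd_coe]
  exact (hS.commT M N₁ ℓ₀ H hL p pu hp hpM hpu σ (x : s48k_JH M H)).symm

theorem s48y_Dd_comm (d : (ZMod M)ˣ) (σ : s48k_G) (x : s48k_JHl M H ℓ) :
    s48k_torsionEnd M H ℓ (s48k_diamondJ M H d) (s48y_r M H ℓ σ x)
      = s48y_r M H ℓ σ (s48k_torsionEnd M H ℓ (s48k_diamondJ M H d) x) := by
  apply Subtype.ext
  rw [s48k_torsionEnd_coe, s48y_r_coe, s48y_r_coe, s48k_torsionEnd_coe]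
  exact (hS.commD M N₁ ℓ₀ H hL d σ (x : s48k_JH M H)).symm

theorem s48y_r_quadratic (p : ℕ) [NeZero p] (pu : (ZMod M)ˣ) (hp : p.Prime)
    (hpMl : ¬ p ∣ M * ℓ) (hpu : ((pu : (ZMod M)ˣ) : ZMod M) = (p : ZMod M))
    (A : ValuationSubring Qbar) (hA : A.LiesOverPrime p) (σ : s48k_G)
    (hσ : A.IsFrobeniusAt σ p) (x : s48k_JHl M H ℓ) :
    s48y_r M H ℓ σ (s48y_r M H ℓ σ x)
      - s48k_torsionEnd M H ℓ (s48k_TpJ M H p pu) (s48y_r M H ℓ σ x)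
      + ((p : ℕ) : ZMod ℓ) • s48k_torsionEnd M H ℓ (s48k_diamondJ M H pu) x = 0 := by
  apply Subtype.ext
  have hx := Pic0.mem_torsion.mp x.property
  have h := hS.frobQuad M N₁ ℓ₀ H hL ℓ p pu hp hpMl hpu A hA σ hσ (x : s48k_JH M H) hx
  rw [Nat.cast_smul_eq_nsmul]
  rw [natCast_zsmul] at h
  rw [AddSubgroup.coe_add, AddSubgroup.coe_sub, AddSubgroupClass.coe_nsmul, s48k_torsionEnd_coe,
    s48k_torsionEnd_coe, s48y_r_coe, s48y_r_coe, AddSubgroup.coe_zero]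
  exact h

theorem s48y_r_inertia (p : ℕ) (hp : p.Prime) (hpMl : ¬ p ∣ M * ℓ)
    (A : ValuationSubring Qbar) (hA : A.LiesOverPrime p) (τ : s48k_G)
    (hτ : τ ∈ A.inertiaSubgroupIn ℚ) : s48y_r M H ℓ τ = 1 := by
  ext x
  rw [Module.End.one_apply, s48y_r_coe]
  exact hS.unram M N₁ ℓ₀ H hL ℓ p hp hpMl A hA τ hτ (x : s48k_JH M H)
    (Pic0.mem_torsion.mp x.property)

/-- Open stabilisers on `k ⊗ J_H[ℓ]`. -/
theorem s48y_exists_level_tensor [Fact ℓ.Prime] (k : Type*) [Field k] [Algebra (ZMod ℓ) k]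
    (v : k ⊗[ZMod ℓ] (s48k_JHl M H ℓ)) :
    ∃ L : IntermediateField ℚ Qbar, FiniteDimensional ℚ L ∧
      ∀ σ : s48k_G, (∀ y ∈ L, σ y = y) → s29g_bc k (s48y_r M H ℓ) σ v = v := by
  induction v using TensorProduct.induction_on with
  | zero => exact ⟨⊥, inferInstance, fun σ _ => map_zero _⟩
  | tmul c x =>
    obtain ⟨L, hLfd, h⟩ := hS.openStab M N₁ ℓ₀ H hL (x : s48k_JH M H)
    refine ⟨L, hLfd, fun σ hσ => ?_⟩
    rw [s29g_bc_tmul]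
    congr 1
    exact Subtype.ext (h σ hσ)
  | add v w hv hw =>
    obtain ⟨L₁, hL₁, h₁⟩ := hv
    obtain ⟨L₂, hL₂, h₂⟩ := hw
    refine ⟨L₁ ⊔ L₂, inferInstance, fun σ hσ => ?_⟩
    rw [map_add, h₁ σ (fun y hy => hσ y (le_sup_left (a := L₁) (b := L₂) hy)),
      h₂ σ (fun y hy => hσ y (le_sup_right (a := L₁) (b := L₂) hy))]

/-- A finite Galois level containing `μ_ℓ` and `μ_M` above which `v` is fixed. -/
theorem s48y_exists_galois_level [Fact ℓ.Prime] [NeZero ℓ] (k : Type*) [Field k]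
    [Algebra (ZMod ℓ) k]
    (v : k ⊗[ZMod ℓ] (s48k_JHl M H ℓ)) :
    ∃ L : IntermediateField ℚ Qbar, FiniteDimensional ℚ L ∧
      (∀ σ : s48k_G, ∀ y ∈ L, σ y ∈ L) ∧
      (∀ σ : s48k_G, (∀ y ∈ L, σ y = y) → s48y_chi ℓ σ = 1) ∧
      (∀ σ : s48k_G, (∀ y ∈ L, σ y = y) → s48y_chi M σ = 1) ∧
      ∀ σ : s48k_G, (∀ y ∈ L, σ y = y) → s29g_bc k (s48y_r M H ℓ) σ v = v := by
  obtain ⟨L₀, hL₀, h₀⟩ := s48y_exists_level_tensor hS M N₁ ℓ₀ H hL ℓ k v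
  obtain ⟨ζ, hζ⟩ : ∃ ζ : Qbar, IsPrimitiveRoot ζ ℓ :=
    HasEnoughRootsOfUnity.exists_primitiveRoot Qbar ℓ
  obtain ⟨ξ, hξ⟩ : ∃ ξ : Qbar, IsPrimitiveRoot ξ M :=
    HasEnoughRootsOfUnity.exists_primitiveRoot Qbar M
  have hζint : IsIntegral ℚ ζ :=
    (hζ.isIntegral (Nat.pos_of_ne_zero (NeZero.ne ℓ))).tower_top
  have hξint : IsIntegral ℚ ξ :=
    (hξ.isIntegral (Nat.pos_of_ne_zero (NeZero.ne M))).tower_top
  haveI : FiniteDimensional ℚ (ℚ⟮ζ⟯) := IntermediateField.adjoin.finiteDimensional hζint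
  haveI : FiniteDimensional ℚ (ℚ⟮ξ⟯) := IntermediateField.adjoin.finiteDimensional hξint
  haveI : FiniteDimensional ℚ (L₀ ⊔ ℚ⟮ζ⟯ : IntermediateField ℚ Qbar) :=
    IntermediateField.finiteDimensional_sup L₀ ℚ⟮ζ⟯
  set L₁ : IntermediateField ℚ Qbar := (L₀ ⊔ ℚ⟮ζ⟯) ⊔ ℚ⟮ξ⟯ with hL₁
  haveI : FiniteDimensional ℚ L₁ := IntermediateField.finiteDimensional_sup (L₀ ⊔ ℚ⟮ζ⟯) ℚ⟮ξ⟯
  set L : IntermediateField ℚ Qbar := IntermediateField.normalClosure ℚ L₁ Qbar with hLdef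
  have hle : L₁ ≤ L := IntermediateField.le_normalClosure L₁
  have hnorm : Normal ℚ L := normalClosure.normal ℚ L₁ Qbar
  refine ⟨L, normalClosure.is_finiteDimensional ℚ L₁ Qbar,
    fun σ y hy => ?_, fun σ hσ => ?_, fun σ hσ => ?_, fun σ hσ => ?_⟩
  · have h1 := IntermediateField.normal_iff_forall_map_le'.mp hnorm σ
    exact h1 ((IntermediateField.mem_map _).mpr ⟨y, hy, rfl⟩)
  · refine s48y_chi_level hζ σ (hσ ζ (hle ?_))
    exact (le_sup_left : (L₀ ⊔ ℚ⟮ζ⟯ : IntermediateField ℚ Qbar) ≤ (L₀ ⊔ ℚ⟮ζ⟯) ⊔ ℚ⟮ξ⟯)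
      ((le_sup_right : ℚ⟮ζ⟯ ≤ L₀ ⊔ ℚ⟮ζ⟯) (IntermediateField.mem_adjoin_simple_self ℚ ζ))
  · refine s48y_chi_level hξ σ (hσ ξ (hle ?_))
    exact (le_sup_right : ℚ⟮ξ⟯ ≤ (L₀ ⊔ ℚ⟮ζ⟯) ⊔ ℚ⟮ξ⟯) (IntermediateField.mem_adjoin_simple_self ℚ ξ)
  · refine h₀ σ (fun y hy => hσ y (hle ?_))
    exact (le_sup_left : (L₀ ⊔ ℚ⟮ζ⟯ : IntermediateField ℚ Qbar) ≤ (L₀ ⊔ ℚ⟮ζ⟯) ⊔ ℚ⟮ξ⟯)
      ((le_sup_left : L₀ ≤ L₀ ⊔ ℚ⟮ζ⟯) hy)

end S37

section Main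

variable (hS : s48k_S37IntH) (M N₁ ℓ₀ : ℕ) [NeZero M] (H : Subgroup (ZMod M)ˣ)
  (hL : s48k_Level M N₁ ℓ₀ H) (ℓ : ℕ) [Fact ℓ.Prime] [NeZero ℓ] (k : Type*) [Field k]
  [Algebra (ZMod ℓ) k]
include hS hL

/-- Elements fixing a Galois-stable level above which `v` is fixed act trivially on the span of the
orbit of `v`. -/
theorem s48y_rho_eq_one_of_fixes (v : k ⊗[ZMod ℓ] (s48k_JHl M H ℓ))
    (L : IntermediateField ℚ Qbar) (hstab : ∀ σ : s48k_G, ∀ y ∈ L, σ y ∈ L)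
    (hv : ∀ σ : s48k_G, (∀ y ∈ L, σ y = y) → s29g_bc k (s48y_r M H ℓ) σ v = v)
    (σ : s48k_G) (hσ : ∀ y ∈ L, σ y = y) : s29g_rho (s29g_bc k (s48y_r M H ℓ)) v σ = 1 := by
  refine s29g_rho_eq_one _ v σ (fun τ => hv _ (fun y hy => ?_))
  show τ⁻¹ (σ (τ y)) = y
  rw [hσ (τ y) (hstab τ y hy)]
  exact τ.symm_apply_apply y

/-- The orbit of `v` is finite. -/
theorem s48y_orbit_finite (v : k ⊗[ZMod ℓ] (s48k_JHl M H ℓ)) :
    (Set.range fun σ : s48k_G => s29g_bc k (s48y_r M H ℓ) σ v).Finite := by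
  obtain ⟨L, hLfd, -, -, -, hv⟩ := s48y_exists_galois_level hS M N₁ ℓ₀ H hL ℓ k v
  haveI := hLfd
  refine s48y_range_finite' L (fun σ : s48k_G => s29g_bc k (s48y_r M H ℓ) σ v) (fun σ τ h => ?_)
  have h1 : s29g_bc k (s48y_r M H ℓ) (τ⁻¹ * σ) v = v := by
    refine hv _ (fun y hy => ?_)
    show τ⁻¹ (σ y) = y
    rw [h y hy]
    exact τ.symm_apply_apply y
  have h2 : s29g_bc k (s48y_r M H ℓ) σ v
      = s29g_bc k (s48y_r M H ℓ) τ (s29g_bc k (s48y_r M H ℓ) (τ⁻¹ * σ) v) := by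
    rw [← Module.End.mul_apply, ← map_mul, mul_inv_cancel_left]
  exact h2.trans (congrArg (s29g_bc k (s48y_r M H ℓ) τ) h1)

/-- The base-changed Hecke operators commute with the base-changed Galois action. -/
theorem s48y_TpK_comm (p : ℕ) [NeZero p] (pu : (ZMod M)ˣ) (hp : p.Prime) (hpM : ¬ p ∣ M)
    (hpu : ((pu : (ZMod M)ˣ) : ZMod M) = (p : ZMod M)) (σ : s48k_G)
    (m : k ⊗[ZMod ℓ] (s48k_JHl M H ℓ)) :
    (s48k_torsionEnd M H ℓ (s48k_TpJ M H p pu)).baseChange k (s29g_bc k (s48y_r M H ℓ) σ m)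
      = s29g_bc k (s48y_r M H ℓ) σ
        ((s48k_torsionEnd M H ℓ (s48k_TpJ M H p pu)).baseChange k m) :=
  s29g_bc_comm k (s48y_r M H ℓ) (s48k_torsionEnd M H ℓ (s48k_TpJ M H p pu))
    (s48y_Tp_comm hS M N₁ ℓ₀ H hL ℓ p pu hp hpM hpu) σ m

/-- The base-changed diamond operators commute with the base-changed Galois action. -/
theorem s48y_DdK_comm (d : (ZMod M)ˣ) (σ : s48k_G) (m : k ⊗[ZMod ℓ] (s48k_JHl M H ℓ)) :
    (s48k_torsionEnd M H ℓ (s48k_diamondJ M H d)).baseChange k (s29g_bc k (s48y_r M H ℓ) σ m)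
      = s29g_bc k (s48y_r M H ℓ) σ
        ((s48k_torsionEnd M H ℓ (s48k_diamondJ M H d)).baseChange k m) :=
  s29g_bc_comm k (s48y_r M H ℓ) (s48k_torsionEnd M H ℓ (s48k_diamondJ M H d))
    (s48y_Dd_comm hS M N₁ ℓ₀ H hL ℓ d) σ m

/-- The Eichler–Shimura relation on `k ⊗ J_H[ℓ]`. -/
theorem s48y_bc_frob_quadratic (p : ℕ) [NeZero p] (pu : (ZMod M)ˣ) (hp : p.Prime)
    (hpMl : ¬ p ∣ M * ℓ) (hpu : ((pu : (ZMod M)ˣ) : ZMod M) = (p : ZMod M))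
    (A : ValuationSubring Qbar) (hA : A.LiesOverPrime p) (σ : s48k_G)
    (hσ : A.IsFrobeniusAt σ p) (m : k ⊗[ZMod ℓ] (s48k_JHl M H ℓ)) :
    s29g_bc k (s48y_r M H ℓ) σ (s29g_bc k (s48y_r M H ℓ) σ m)
      - (s48k_torsionEnd M H ℓ (s48k_TpJ M H p pu)).baseChange k (s29g_bc k (s48y_r M H ℓ) σ m)
      + ((p : ℕ) : k) • (s48k_torsionEnd M H ℓ (s48k_diamondJ M H pu)).baseChange k m = 0 := by
  have h := s48y_bc_quadratic k (s48y_r M H ℓ) (s48k_torsionEnd M H ℓ (s48k_TpJ M H p pu))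
    (s48k_torsionEnd M H ℓ (s48k_diamondJ M H pu)) σ ((p : ℕ) : ZMod ℓ)
    (s48y_r_quadratic hS M N₁ ℓ₀ H hL ℓ p pu hp hpMl hpu A hA σ hσ) m
  rwa [map_natCast] at h

end Main

/-- The determinant character `χ_ℓ · Ψ ∘ χ_M` with values in `k`. -/
def s48y_d (M : ℕ) [NeZero M] (ℓ : ℕ) [NeZero ℓ] (k : Type*) [Field k] [Algebra (ZMod ℓ) k]
    (Ψ : ZMod M →* k) : s48k_G →* kˣ :=
  (Units.map (algebraMap (ZMod ℓ) k : ZMod ℓ →* k)).comp (s48y_chi ℓ) *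
    (Units.map Ψ).comp (s48y_chi M)

theorem s48y_d_coe (M : ℕ) [NeZero M] (ℓ : ℕ) [NeZero ℓ] (k : Type*) [Field k]
    [Algebra (ZMod ℓ) k] (Ψ : ZMod M →* k) (σ : s48k_G) :
    ((s48y_d M ℓ k Ψ σ : kˣ) : k)
      = algebraMap (ZMod ℓ) k ((s48y_chi ℓ σ : (ZMod ℓ)ˣ) : ZMod ℓ)
        * Ψ ((s48y_chi M σ : (ZMod M)ˣ) : ZMod M) := rfl

section Assembly

variable (hS : s48k_S37IntH) (hF : s29k_FrobDensity) (M N₁ ℓ₀ : ℕ) [NeZero M]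
  (H : Subgroup (ZMod M)ˣ) (hL : s48k_Level M N₁ ℓ₀ H) (ℓ : ℕ) [Fact ℓ.Prime] [NeZero ℓ]
  (k : Type*) [Field k] [Algebra (ZMod ℓ) k]
  (tl : ℕ → k) (Ψ : ZMod M →* k) (v : k ⊗[ZMod ℓ] (s48k_JHl M H ℓ))
  (hT : ∀ (p : ℕ) [NeZero p] (pu : (ZMod M)ˣ), p.Prime → ¬ p ∣ M * ℓ →
    ((pu : (ZMod M)ˣ) : ZMod M) = (p : ZMod M) →
      (s48k_torsionEnd M H ℓ (s48k_TpJ M H p pu)).baseChange k v = tl p • v)
  (hD : ∀ d : (ZMod M)ˣ,
    (s48k_torsionEnd M H ℓ (s48k_diamondJ M H d)).baseChange k v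
      = Ψ ((d : (ZMod M)ˣ) : ZMod M) • v)
include hS hL hT hD

/-- The trace identity at a Frobenius element. -/
theorem s48y_trace_at_frob (p : ℕ) (hp : p.Prime) (hpMl : ¬ p ∣ M * ℓ)
    (A : ValuationSubring Qbar) (hA : A.LiesOverPrime p) (σ : s48k_G)
    (hσ : A.IsFrobeniusAt σ p) :
    s29g_rho (s29g_bc k (s48y_r M H ℓ)) v σ
      + ((s48y_d M ℓ k Ψ σ : kˣ) : k) • s29g_rho (s29g_bc k (s48y_r M H ℓ)) v σ⁻¹
      = tl p • (1 : Module.End k (s29g_W (s29g_bc k (s48y_r M H ℓ)) v)) ∧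
    ((s48y_d M ℓ k Ψ σ : kˣ) : k) = (p : k) * Ψ (p : ZMod M) := by
  haveI : NeZero p := ⟨hp.ne_zero⟩
  have hpM : ¬ p ∣ M := fun h => hpMl (Dvd.dvd.mul_right h ℓ)
  have hpl : ¬ p ∣ ℓ := fun h => hpMl (Dvd.dvd.mul_left h M)
  have hcop : p.Coprime M := (Nat.Prime.coprime_iff_not_dvd hp).mpr hpM
  have hpu : ((ZMod.unitOfCoprime p hcop : (ZMod M)ˣ) : ZMod M) = (p : ZMod M) :=
    ZMod.coe_unitOfCoprime p hcop
  have hd : ((s48y_d M ℓ k Ψ σ : kˣ) : k) = (p : k) * Ψ (p : ZMod M) := by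
    rw [s48y_d_coe, s48y_chi_frobenius ℓ hp hpl A hA σ hσ,
      s48y_chi_frobenius M hp hpM A hA σ hσ, map_natCast]
  refine ⟨?_, hd⟩
  exact s48y_trace_frob (s29g_bc k (s48y_r M H ℓ)) v
    ((s48k_torsionEnd M H ℓ (s48k_TpJ M H p (ZMod.unitOfCoprime p hcop))).baseChange k)
    ((s48k_torsionEnd M H ℓ (s48k_diamondJ M H (ZMod.unitOfCoprime p hcop))).baseChange k)
    (fun σ m => s48y_TpK_comm hS M N₁ ℓ₀ H hL ℓ k p _ hp hpM hpu σ m)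
    (fun σ m => s48y_DdK_comm hS M N₁ ℓ₀ H hL ℓ k _ σ m)
    (tl p) (Ψ (p : ZMod M)) (hT p _ hp hpMl hpu)
    ((hD (ZMod.unitOfCoprime p hcop)).trans (by rw [hpu])) σ (p : k)
    (s48y_bc_frob_quadratic hS M N₁ ℓ₀ H hL ℓ k p _ hp hpMl hpu A hA σ hσ) _ hd

include hF

/-- The trace identity at every element of the Galois group. -/
theorem s48y_exists_trace (g : s48k_G) :
    ∃ t : k, s29g_rho (s29g_bc k (s48y_r M H ℓ)) v g
      + ((s48y_d M ℓ k Ψ g : kˣ) : k) • s29g_rho (s29g_bc k (s48y_r M H ℓ)) v g⁻¹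
      = t • (1 : Module.End k (s29g_W (s29g_bc k (s48y_r M H ℓ)) v)) := by
  have hℓ : ℓ.Prime := Fact.out
  generalize hP : (∃ t : k, s29g_rho (s29g_bc k (s48y_r M H ℓ)) v g
      + ((s48y_d M ℓ k Ψ g : kˣ) : k) • s29g_rho (s29g_bc k (s48y_r M H ℓ)) v g⁻¹
      = t • (1 : Module.End k (s29g_W (s29g_bc k (s48y_r M H ℓ)) v))) = P
  obtain ⟨L, hLfd, hstab, hchiℓ, hchiM, hv⟩ := s48y_exists_galois_level hS M N₁ ℓ₀ H hL ℓ k v
  have hMl : M * ℓ ≠ 0 := mul_ne_zero (NeZero.ne M) hℓ.ne_zero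
  obtain ⟨p, A, σ, j, hp, hpS, hA, hσ, hres⟩ := hF L hLfd hstab (M * ℓ).primeFactors g
  have hpMl : ¬ p ∣ M * ℓ := fun h => hpS (Nat.mem_primeFactors.mpr ⟨hp, h, hMl⟩)
  -- `g⁻¹ σ^j` fixes `L`
  have hfix : ∀ y ∈ L, (g⁻¹ * σ ^ j) y = y := by
    intro y hy
    show g⁻¹ ((σ ^ j) y) = y
    rw [hres y hy]
    exact g.symm_apply_apply y
  have h1 : s29g_rho (s29g_bc k (s48y_r M H ℓ)) v (g⁻¹ * σ ^ j) = 1 :=
    s48y_rho_eq_one_of_fixes hS M N₁ ℓ₀ H hL ℓ k v L hstab hv _ hfix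
  have hg : s29g_rho (s29g_bc k (s48y_r M H ℓ)) v g
      = s29g_rho (s29g_bc k (s48y_r M H ℓ)) v σ ^ j :=
    s29g_rho_eq_pow _ v g σ j h1
  haveI : NeZero p := ⟨hp.ne_zero⟩
  have hpM : ¬ p ∣ M := fun h => hpMl (Dvd.dvd.mul_right h ℓ)
  have hcop : p.Coprime M := (Nat.Prime.coprime_iff_not_dvd hp).mpr hpM
  have hpu : ((ZMod.unitOfCoprime p hcop : (ZMod M)ˣ) : ZMod M) = (p : ZMod M) :=
    ZMod.coe_unitOfCoprime p hcop
  obtain ⟨-, hdσ⟩ := s48y_trace_at_frob hS M N₁ ℓ₀ H hL ℓ k tl Ψ v hT hD p hp hpMl A hA σ hσ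
  have hdg : ((s48y_d M ℓ k Ψ g : kˣ) : k) = ((p : k) * Ψ (p : ZMod M)) ^ j := by
    have h2 : s48y_d M ℓ k Ψ (g⁻¹ * σ ^ j) = 1 := by
      unfold s48y_d
      rw [MonoidHom.mul_apply, MonoidHom.comp_apply, MonoidHom.comp_apply, hchiℓ _ hfix,
        hchiM _ hfix, map_one, map_one, one_mul]
    have h3 : s48y_d M ℓ k Ψ g = s48y_d M ℓ k Ψ σ ^ j := by
      rw [← map_pow]
      have : σ ^ j = g * (g⁻¹ * σ ^ j) := by rw [mul_inv_cancel_left]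
      rw [this, map_mul, h2, mul_one]
    rw [h3, Units.val_pow_eq_pow_val, hdσ]
  rw [← hP]
  exact s48y_trace_identity (s29g_bc k (s48y_r M H ℓ)) v
    ((s48k_torsionEnd M H ℓ (s48k_TpJ M H p (ZMod.unitOfCoprime p hcop))).baseChange k)
    ((s48k_torsionEnd M H ℓ (s48k_diamondJ M H (ZMod.unitOfCoprime p hcop))).baseChange k)
    (fun σ m => s48y_TpK_comm hS M N₁ ℓ₀ H hL ℓ k p _ hp hpM hpu σ m)
    (fun σ m => s48y_DdK_comm hS M N₁ ℓ₀ H hL ℓ k _ σ m)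
    (tl p) (Ψ (p : ZMod M)) (hT p _ hp hpMl hpu)
    ((hD (ZMod.unitOfCoprime p hcop)).trans (by rw [hpu])) σ (p : k)
    (s48y_bc_frob_quadratic hS M N₁ ℓ₀ H hL ℓ k p _ hp hpMl hpu A hA σ hσ) j g hg _ hdg

/-- **[GS] main theorem on the layer**: a non-zero common eigenvector of the `T_p^H` (`p ∤ Mℓ`, eigenvalues
`tl p`) and of the diamonds (character `Ψ`) in `k ⊗ J_H(ℚ̄)[ℓ]` gives a two-dimensional representation of
`G_ℚ` over `k` (algebraically closed), of finite level, unramified outside `Mℓ`, with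
`charpoly ρ'(Frob_p) = X² - tl p X + p Ψ(p)`. -/
theorem s48y_exists_rep [IsAlgClosed k] (hv0 : v ≠ 0) :
    ∃ ρ' : s48k_G →* ((Fin 2 → k) →ₗ[k] (Fin 2 → k)),
      (∃ L : IntermediateField ℚ Qbar, FiniteDimensional ℚ L ∧
        ∀ σ : s48k_G, (∀ y ∈ L, σ y = y) → ρ' σ = 1) ∧
      (∀ p : ℕ, p.Prime → ¬ p ∣ M * ℓ →
        ∀ A : ValuationSubring Qbar, A.LiesOverPrime p →
          ∀ τ ∈ A.inertiaSubgroupIn ℚ, ρ' τ = 1) ∧
      (∀ p : ℕ, p.Prime → ¬ p ∣ M * ℓ →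
        ∀ A : ValuationSubring Qbar, A.LiesOverPrime p →
          ∀ σ : s48k_G, A.IsFrobeniusAt σ p →
            LinearMap.charpoly (ρ' σ)
              = X ^ 2 - C (tl p) * X + C ((p : k) * Ψ (p : ZMod M))) := by
  choose t ht using s48y_exists_trace hS hF M N₁ ℓ₀ H hL ℓ k tl Ψ v hT hD
  obtain ⟨ρ', hchar, hone⟩ := s29g_two_dim_of_trace (s29g_bc k (s48y_r M H ℓ)) v hv0
    (s48y_orbit_finite hS M N₁ ℓ₀ H hL ℓ k v) (s48y_d M ℓ k Ψ) t ht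
  obtain ⟨L, hLfd, hstab, hchiℓ, hchiM, hv⟩ := s48y_exists_galois_level hS M N₁ ℓ₀ H hL ℓ k v
  refine ⟨ρ', ⟨L, hLfd, fun σ hσ => ?_⟩, fun p hp hpMl A hA τ hτ => ?_,
    fun p hp hpMl A hA σ hσ => ?_⟩
  · refine hone σ (s48y_rho_eq_one_of_fixes hS M N₁ ℓ₀ H hL ℓ k v L hstab hv σ hσ) ?_
    unfold s48y_d
    rw [MonoidHom.mul_apply, MonoidHom.comp_apply, MonoidHom.comp_apply, hchiℓ σ hσ, hchiM σ hσ,
      map_one, map_one, one_mul]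
  · have hpM : ¬ p ∣ M := fun h => hpMl (Dvd.dvd.mul_right h ℓ)
    have hpl : ¬ p ∣ ℓ := fun h => hpMl (Dvd.dvd.mul_left h M)
    refine hone τ (s29g_rho_eq_one_of_R _ v τ
      (s29g_bc_eq_one k _ τ (s48y_r_inertia hS M N₁ ℓ₀ H hL ℓ p hp hpMl A hA τ hτ))) ?_
    unfold s48y_d
    rw [MonoidHom.mul_apply, MonoidHom.comp_apply, MonoidHom.comp_apply,
      s48y_chi_inertia ℓ hp hpl A hA τ hτ, s48y_chi_inertia M hp hpM A hA τ hτ,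
      map_one, map_one, one_mul]
  · obtain ⟨h1, hdσ⟩ :=
      s48y_trace_at_frob hS M N₁ ℓ₀ H hL ℓ k tl Ψ v hT hD p hp hpMl A hA σ hσ
    have h3 : t σ = tl p :=
      s29g_smul_one_injective (s29g_bc k (s48y_r M H ℓ)) hv0 ((ht σ).symm.trans h1)
    rw [hchar σ, h3, hdσ]

end Assembly

end Fermat.Agent.Lib.S48
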