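/-
DS-1 (S48), [GS]/[PACK] port (helper2, prefix `s48y_`): **`s48k_EigenSupportH` + `s48k_S37IntH` ⟹ `s48k_S29HL`**
(helper4's `KIfaceH.lean`), with the landed Frobenius density theorem `s29d_frobDensity`.

For `φ : ℤ̄ →+* k` (`char k = ℓ`) work over `k_φ = ℤ̄ ⧸ ker φ` (algebraically closed, landed `s29pk_isAlgClosed`):
[EigenSupportH] gives a common eigenvector in `k_φ ⊗ J_H[ℓ]`, `s48y_exists_rep` (YGS.lean) a two-dimensional
representation over `k_φ`, which is then extended to `k` along `k_φ ↪ k`.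
-/
import Fermat.Agent.Lib.S48.YGS
import Fermat.Agent.Lib.S29.FDPlace
import Fermat.Agent.Lib.S29.PackTwoDim

set_option autoImplicit false
set_option linter.style.haveILetI false

noncomputable section

namespace Fermat.Agent.Lib.S48

open ModularCurve AlgebraicCurve Fermat.Agent.Lib.S29 Polynomial CongruenceSubgroup
open scoped TensorProduct

local notation "Qbar" => AlgebraicClosure ℚ
local notation "𝓞" => integralClosure ℤ ℂ

attribute [local instance] Ideal.Quotient.field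

/-- `s48i_ModEigen` only depends on `φ` through its kernel. -/
theorem s48y_modEigen_mk {M : ℕ} [NeZero M] {ψ : DirichletCharacter ℂ M}
    {g : CuspForm (Gamma1 M) 2} {k : Type} [Field k] (φ : 𝓞 →+* k) [(RingHom.ker φ).IsMaximal]
    {α c : ℕ → 𝓞} {ψ' : ZMod M → 𝓞} (h : s48i_ModEigen M ψ g φ α c ψ') :
    s48i_ModEigen M ψ g (Ideal.Quotient.mk (RingHom.ker φ)) α c ψ' := by
  have hinj : Function.Injective (RingHom.kerLift φ) := RingHom.kerLift_injective φ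
  have hφ : ∀ x : 𝓞, φ x = RingHom.kerLift φ (Ideal.Quotient.mk (RingHom.ker φ) x) :=
    fun x => (RingHom.kerLift_mk φ x).symm
  obtain ⟨h1, h2, h3, ⟨n, hn⟩, h5⟩ := h
  refine ⟨h1, h2, h3, ⟨n, fun h0 => hn ?_⟩, fun p hp hpM n => hinj ?_⟩
  · rw [hφ, h0, map_zero]
  · rw [map_mul, ← hφ, ← hφ, ← hφ]
    exact h5 p hp hpM n

/-- **[S29HL]** from the two contracts of `KIfaceH.lean`. -/
theorem s48y_S29HL (hE : s48k_EigenSupportH) (hS : s48k_S37IntH) : s48k_S29HL := by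
  intro M N₁ ℓ₀ _ H hL ψ hψH g ℓ hℓ k _ _ φ α c ψ' hmod
  haveI : Fact ℓ.Prime := ⟨hℓ⟩
  haveI : NeZero ℓ := ⟨hℓ.ne_zero⟩
  haveI hmax : (RingHom.ker φ).IsMaximal := s29pk_isMaximal_ker (p := ℓ) φ
  haveI : CharP (𝓞 ⧸ RingHom.ker φ) ℓ := s29pk_charP_quotient (p := ℓ) (RingHom.ker φ) (by
    rw [RingHom.mem_ker, map_natCast]
    exact CharP.cast_eq_zero k ℓ)
  haveI : IsAlgClosed (𝓞 ⧸ RingHom.ker φ) := s29pk_isAlgClosed _
  letI : Algebra (ZMod ℓ) (𝓞 ⧸ RingHom.ker φ) := ZMod.algebra _ ℓ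
  set φ₀ : 𝓞 →+* (𝓞 ⧸ RingHom.ker φ) := Ideal.Quotient.mk (RingHom.ker φ) with hφ₀
  have hmod₀ : s48i_ModEigen M ψ g φ₀ α c ψ' := s48y_modEigen_mk φ hmod
  obtain ⟨v, hv0, hvT, hvD⟩ := hE M N₁ ℓ₀ H hL ψ hψH g ℓ (𝓞 ⧸ RingHom.ker φ) φ₀ α c ψ' hmod₀
  -- the diamond character
  have hψ' : ∀ a : ZMod M, (ψ' a : ℂ) = ψ a := hmod.2.1
  let Ψ : ZMod M →* (𝓞 ⧸ RingHom.ker φ) :=
    { toFun := fun x => φ₀ (ψ' x)
      map_one' := by
        have : ψ' 1 = 1 := Subtype.ext (by rw [hψ', map_one]; rfl)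
        rw [this, map_one]
      map_mul' := fun x y => by
        have : ψ' (x * y) = ψ' x * ψ' y :=
          Subtype.ext (by rw [hψ', map_mul, ← hψ', ← hψ']; rfl)
        rw [this, map_mul] }
  obtain ⟨ρ', hfin, hinert, hchar⟩ := s48y_exists_rep hS s29d_frobDensity M N₁ ℓ₀ H hL ℓ
    (𝓞 ⧸ RingHom.ker φ) (fun p => φ₀ (α p)) Ψ v
    (fun p _ pu hp hpMl hpu => hvT p pu hp hpMl hpu) (fun d => hvD d) hv0
  let ρ₀ : ResidualGaloisRep (𝓞 ⧸ RingHom.ker φ) := s29pk_ofTwoDim ρ' hfin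
  refine ⟨ρ₀.baseChangeAlong (RingHom.kerLift φ), fun p hp hpMl => ⟨?_, fun A hA σ hσ => ?_⟩⟩
  · exact s29pk_baseChangeAlong_isUnramifiedAt (RingHom.kerLift φ) ρ₀
      (fun A hA σ hσ => hinert p hp hpMl A hA σ hσ)
  · have h1 : LinearMap.charpoly (ρ₀.ρ σ)
        = X ^ 2 - C (φ₀ (α p)) * X + C ((p : 𝓞 ⧸ RingHom.ker φ) * Ψ (p : ZMod M)) :=
      hchar p hp hpMl A hA σ hσ
    let _ : Algebra (𝓞 ⧸ RingHom.ker φ) k := (RingHom.kerLift φ).toAlgebra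
    show LinearMap.charpoly ((ρ₀.ρ σ).baseChange k) = _
    rw [LinearMap.charpoly_baseChange, h1]
    simp only [Polynomial.map_add, Polynomial.map_sub, Polynomial.map_mul, Polynomial.map_pow,
      Polynomial.map_X, Polynomial.map_C, map_mul]
    rw [map_natCast (algebraMap (𝓞 ⧸ RingHom.ker φ) k) p]
    have e1 : algebraMap (𝓞 ⧸ RingHom.ker φ) k (φ₀ (α p)) = φ (α p) := RingHom.kerLift_mk φ _
    have e2 : algebraMap (𝓞 ⧸ RingHom.ker φ) k (Ψ (p : ZMod M)) = φ (ψ' (p : ZMod M)) :=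
      RingHom.kerLift_mk φ _
    rw [e1, e2]

end Fermat.Agent.Lib.S48
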