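/-
DS-1 (S48), FINAL ASSEMBLY v2 (lead, prefix `s48z_`).

Everything of the programme except the reduction package of the layer is discharged here:
  frozen S48  ⇐  `s48e_RedInputsQ`  (helper8's shape, `EIntTopQ.lean`).

Chain (owners): `s48t_result_of23` (Level 1: helper7 [T1] + 2/3-glue `TGlue`, with helper9's Chebotarev [T2],
helper8's DS 7.2, helper2's lifting/descent), `s48a_rat_final` (helper1 [T3]; lead's NLat/NBricks),
`s48eis_Eis` (helper5 [T4] + lead [NV]), `s48h_modL23` (helper3: Level-2 wiring, [DEP], (D0)),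
`s48a_S29H23_of_S29HL` (helper1), `s48y_S29HL` (helper2: [GS]/[PACK] port), `s48h_eigenSupportH`
(helper3 [T5]/(EQ), helper5 (DESC)/ModelInputs, helper9 places), `s48wg_twistedW` (helper2 + helper5: twisted
[W]), `s48e_S37IntH_ofQ` (helper8 [T8]).
-/
import Fermat.Agent.Lib.S48.TGlue
import Fermat.Agent.Lib.S48.HModL23
import Fermat.Agent.Lib.S48.Eis1Iface
import Fermat.Agent.Lib.S48.AFinal
import Fermat.Agent.Lib.S48.AS29H
import Fermat.Agent.Lib.S48.YS29H
import Fermat.Agent.Lib.S48.HKFinal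
import Fermat.Agent.Lib.S48.EIntTopQ
import Fermat.Agent.Lib.S48.WGT

set_option autoImplicit false

open CongruenceSubgroup
open scoped MatrixGroups

namespace Fermat.Agent.Lib.S48

local notation "Γℚ" => (AlgebraicClosure ℚ ≃ₐ[ℚ] AlgebraicClosure ℚ)

/-- the second KIfaceH contract from the reduction package (twisted [W] and the model inputs are
theorems). -/
theorem s48z_S37IntH_of_red (hred : s48e_RedInputsQ) : s48k_S37IntH :=
  s48e_S37IntH_ofQ s48wg_modelInputs s48wg_twistedW hred

/-- `s48a_S29H23` (twisted S29 at the levels `2 ∣ N ∨ 3 ∣ N`) from the reduction package. -/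
theorem s48z_S29H23_of_red (hred : s48e_RedInputsQ) : s48a_S29H23 :=
  s48a_S29H23_of_S29HL (s48y_S29HL s48h_eigenSupportH (s48z_S37IntH_of_red hred))

/-- `s48t_ModL23` from the reduction package. -/
theorem s48z_modL23_of_red (hred : s48e_RedInputsQ) : s48t_ModL23 :=
  s48h_modL23 s48a_rat_final s48eis_Eis (s48z_S29H23_of_red hred)

/-- **the frozen statement of S48 from the reduction package of the layer.** -/
theorem s48z_of_red (hred : s48e_RedInputsQ)
    (N : ℕ) [NeZero N] (ε : DirichletCharacter ℂ N) (f : CuspForm (Gamma1 N) 1)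
    (hf₁ : ModularFormClass.qCoeff f 1 = 1)
    (hT : ∀ p : ℕ, p.Prime → ¬ p ∣ N → ∀ n : ℕ,
        ModularFormClass.qCoeff f (p * n) +
            ε (p : ZMod N) * (if p ∣ n then ModularFormClass.qCoeff f (n / p) else 0) =
          ModularFormClass.qCoeff f p * ModularFormClass.qCoeff f n) :
    ∃ ρ : Γℚ →* GL (Fin 2) ℂ, GaloisFactorsThroughFiniteLevel ρ ∧
      (Deformation.matrixRepresentation ρ).IsIrreducible ∧
      ∀ p : ℕ, p.Prime → ¬ p ∣ N →
        ∀ A : ValuationSubring (AlgebraicClosure ℚ), A.LiesOverPrime p →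
          (∀ σ ∈ A.inertiaSubgroupIn ℚ, ρ σ = 1) ∧
          ∀ σ : Γℚ, A.IsFrobeniusAt σ p →
            ((ρ σ : GL (Fin 2) ℂ) : Matrix (Fin 2) (Fin 2) ℂ).trace = ModularFormClass.qCoeff f p ∧
            ((ρ σ : GL (Fin 2) ℂ) : Matrix (Fin 2) (Fin 2) ℂ).det = ε (p : ZMod N) :=
  s48t_result_of23 s48a_rat_final (s48z_modL23_of_red hred) N ε f hf₁ hT

end Fermat.Agent.Lib.S48
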